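import Fermat.Agent.S29.CModField

/-!
# S29 (project BRIDGE), block (C1): the function field of `X₀(N)` over `ℂ` inside the meromorphic
functions on `ℍ`

The `ℂ`-coefficient twin of `S24/ModEmb.lean` and of `S29/MerEmb.lean`.  With
`F_ℂ = laurentBaseChange ℂ (modularFunctionFieldFull N) = ℂ(j(q^d) : d ∣ N) ⊆ ℂ((q))`:

* `s29_cEmb N : F_ℂ →ₐ[ℂ] s29_cL N`, characterised by
  `s29_cExpL N (s29_cEmb N f) = qExpand ℂ N f` (`s29_cExpL_emb`, `s29_cEmb_eq_iff`);
* `s29_anC N : F_ℂ →+* s29_Mer`, the analytic realisation; constants go to constants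
  (`s29_anC_const`), the image is fixed exactly by `Γ₀(N)` (`s29_anC_smul`, `s29_anC_stab`), and
  on `ℚ̄`-rational functions it agrees with `s29_an N` (`s29_anC_coeffMap`).
-/

set_option autoImplicit false

open UpperHalfPlane ModularCurve Polynomial
open scoped MatrixGroups IntermediateField Manifold

noncomputable section

namespace Fermat.Agent.S29

open Fermat.Agent.S24
open Fermat.Agent.S28 (Jfun scaleH HasQExp)
open CongruenceSubgroup

attribute [local instance] algKC

/-- the function field of `X₀(N)` over `ℂ`, inside `ℂ((q))` -/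
abbrev s29_cF (N : ℕ) : IntermediateField ℂ (LaurentSeries ℂ) :=
  laurentBaseChange ℂ (modularFunctionFieldFull N)

/-- base change of coefficients `ℚ̄ → ℂ` maps the function field over `ℚ̄` into the one
over `ℂ`. -/
theorem s29_coeffMap_iotaK_mem (F₀ : IntermediateField ℚ (LaurentSeries ℚ))
    {x : LaurentSeries Kbar} (hx : x ∈ laurentBaseChange Kbar F₀) :
    coeffMap iotaK x ∈ laurentBaseChange ℂ F₀ := by
  rw [mem_laurentBaseChange_iff] at hx
  induction hx using Subfield.closure_induction with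
  | mem y hy =>
      rcases hy with ⟨a, rfl⟩ | ⟨z, hz, rfl⟩
      · rw [algebraMap_laurentSeries_eq_single, coeffMap_single,
          ← algebraMap_laurentSeries_eq_single]
        exact (laurentBaseChange ℂ F₀).algebraMap_mem _
      · have e : coeffMap iotaK (coeffEmb Kbar z) = coeffEmb ℂ z := by
          rw [coeffEmb, coeffMap_coeffMap, coeffEmb]
          exact coeffMap_congr
            (RingHom.ext_rat (iotaK.comp (algebraMap ℚ Kbar)) (algebraMap ℚ ℂ)) z
        rw [e]
        exact coeffEmb_mem_laurentBaseChange ℂ hz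
  | one => rw [map_one]; exact one_mem _
  | add x y _ _ hx hy => rw [map_add]; exact add_mem hx hy
  | neg x _ hx => rw [map_neg]; exact neg_mem hx
  | inv x _ hx => rw [map_inv₀]; exact inv_mem hx
  | mul x y _ _ hx hy => rw [map_mul]; exact mul_mem hx hy

/-- the expansion of `J(dτ)` -/
theorem s29_cExp_cJ (N : ℕ) [NeZero N] (d : ℕ) [NeZero d] (hd : d ∣ N) :
    s29_cExp N (s29_cJ N d hd) = qExpand ℂ N (coeffEmb ℂ (qExpand ℚ d jq)) := by
  rw [s29_cJ, s29_cExp_incl, modfield_expHom_Jelt, coeffMap_qExpand, coeffEmb, coeffMap_coeffMap,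
    coeffEmb]
  congr 1
  exact coeffMap_congr (RingHom.ext_rat (iotaK.comp (algebraMap ℚ Kbar)) (algebraMap ℚ ℂ)) _

/-- `qExpand` as a `ℂ`-algebra homomorphism. -/
def s29_cQExp (N : ℕ) [NeZero N] : LaurentSeries ℂ →ₐ[ℂ] LaurentSeries ℂ :=
  { qExpand ℂ N with
    commutes' := fun c => by
      show qExpand ℂ N (algebraMap ℂ (LaurentSeries ℂ) c) = _
      rw [algebraMap_laurentSeries_eq_single, qExpand_single, mul_zero] }

theorem s29_cQExp_apply (N : ℕ) [NeZero N] (f : LaurentSeries ℂ) :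
    s29_cQExp N f = qExpand ℂ N f := rfl

/-- A field of Laurent series containing the level-`N` expansions of the `j(dτ)` contains the
level-`N` expansion of the whole function field over `ℂ`. -/
theorem s29_c_qExpand_mem (N : ℕ) [NeZero N]
    (E : IntermediateField ℂ (LaurentSeries ℂ))
    (hE : ∀ (d : ℕ) [NeZero d], d ∣ N →
      qExpand ℂ N (coeffEmb ℂ (qExpand ℚ d jq)) ∈ E)
    {f : LaurentSeries ℂ} (hf : f ∈ s29_cF N) : qExpand ℂ N f ∈ E := by
  have h1 : ∀ x ∈ modularFunctionFieldFull N, qExpand ℂ N (coeffEmb ℂ x) ∈ E := by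
    intro x hx
    have hx' : x ∈ Subfield.closure
        (Set.range (algebraMap ℚ (LaurentSeries ℚ)) ∪ divisorExpansions N) := hx
    have hle : Subfield.closure
        (Set.range (algebraMap ℚ (LaurentSeries ℚ)) ∪ divisorExpansions N)
        ≤ E.toSubfield.comap ((qExpand ℂ N).comp (coeffEmb ℂ)) := by
      rw [Subfield.closure_le]
      rintro y (⟨r, rfl⟩ | ⟨d, hd, hdN, rfl⟩)
      · show (qExpand ℂ N) (coeffEmb ℂ (algebraMap ℚ _ r)) ∈ E
        rw [eq_ratCast, map_ratCast, map_ratCast]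
        exact SubfieldClass.ratCast_mem E r
      · exact @hE d hd hdN
    exact hle hx'
  rw [mem_laurentBaseChange_iff] at hf
  have hle : Subfield.closure (Set.range (algebraMap ℂ (LaurentSeries ℂ)) ∪
      (⇑(coeffEmb ℂ) '' (modularFunctionFieldFull N : Set (LaurentSeries ℚ))))
      ≤ E.toSubfield.comap (qExpand ℂ N) := by
    rw [Subfield.closure_le]
    rintro y (⟨c, rfl⟩ | ⟨x, hx, rfl⟩)
    · show qExpand ℂ N (algebraMap ℂ _ c) ∈ E
      rw [algebraMap_laurentSeries_eq_single, qExpand_single, mul_zero,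
        ← algebraMap_laurentSeries_eq_single]
      exact E.algebraMap_mem c
    · exact h1 x hx
  exact hle hf

theorem s29_c_qExpand_mem_range (N : ℕ) [NeZero N] {f : LaurentSeries ℂ}
    (hf : f ∈ s29_cF N) : qExpand ℂ N f ∈ (s29_cExpL N).range := by
  have h := s29_c_qExpand_mem N (s29_cExpL N).fieldRange (fun d _ hd =>
    ⟨algebraMap (s29_cRing N) (s29_cL N) (s29_cJ N d hd), by
      rw [← s29_cExp_cJ N d hd]
      exact s29_cExpL_algebraMap N _⟩) hf
  exact h

/-- The embedding of the function field `ℂ(j(q^d) : d ∣ N) ⊆ ℂ((q))` into `s29_cL N`. -/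
def s29_cEmb (N : ℕ) [NeZero N] : s29_cF N →ₐ[ℂ] s29_cL N :=
  ((AlgEquiv.ofInjectiveField (s29_cExpL N)).symm.toAlgHom).comp
    (((s29_cQExp N).comp (s29_cF N).val).codRestrict (s29_cExpL N).range
      (fun f => s29_c_qExpand_mem_range N f.2))

theorem s29_cExpL_emb (N : ℕ) [NeZero N] (f : s29_cF N) :
    s29_cExpL N (s29_cEmb N f) = qExpand ℂ N (f : LaurentSeries ℂ) := by
  set y : (s29_cExpL N).range := (((s29_cQExp N).comp
    (s29_cF N).val).codRestrict (s29_cExpL N).range
      (fun f => s29_c_qExpand_mem_range N f.2)) f with hy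
  have h1 : s29_cEmb N f = (AlgEquiv.ofInjectiveField (s29_cExpL N)).symm y := rfl
  have h2 : ((AlgEquiv.ofInjectiveField (s29_cExpL N))
      ((AlgEquiv.ofInjectiveField (s29_cExpL N)).symm y) : LaurentSeries ℂ) = y := by
    rw [AlgEquiv.apply_symm_apply]
  rw [h1]
  exact h2

theorem s29_cEmb_eq_iff (N : ℕ) [NeZero N] (f : s29_cF N) (x : s29_cL N) :
    s29_cEmb N f = x ↔ s29_cExpL N x = qExpand ℂ N (f : LaurentSeries ℂ) := by
  rw [← s29_cExpL_emb]
  exact ⟨fun h => by rw [h], fun h => (s29_cExpL_injective N h).symm⟩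

/-- The fixed field of one element of `SL₂(ℤ)` in `s29_cL N`. -/
def s29_cFix (N : ℕ) [NeZero N] (γ : SL(2, ℤ)) : IntermediateField ℂ (s29_cL N) where
  carrier := {x | γ • x = x}
  mul_mem' := by
    intro a b ha hb
    simp only [Set.mem_ofPred_eq] at ha hb ⊢
    rw [smul_mul', ha, hb]
  one_mem' := smul_one γ
  add_mem' := by
    intro a b ha hb
    simp only [Set.mem_ofPred_eq] at ha hb ⊢
    rw [smul_add, ha, hb]
  zero_mem' := smul_zero γ
  algebraMap_mem' := fun c => s29_cL_smul_const N γ c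
  inv_mem' := by
    intro a ha
    simp only [Set.mem_ofPred_eq] at ha ⊢
    rw [smul_inv'', ha]

theorem s29_mem_cFix (N : ℕ) [NeZero N] (γ : SL(2, ℤ)) (x : s29_cL N) :
    x ∈ s29_cFix N γ ↔ γ • x = x := Iff.rfl

/-- the elements of `SL₂(ℤ)` fixing the function field of `X₀(N)` over `ℂ` are those of
`Γ₀(N)`. -/
theorem s29_cEmb_stab (N : ℕ) [NeZero N] (γ : SL(2, ℤ)) :
    (∀ f : s29_cF N, γ • s29_cEmb N f = s29_cEmb N f) ↔ γ ∈ Gamma0 N := by
  constructor
  · intro h
    apply mem_Gamma0_of_smul_Jelt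
    have hmem : coeffEmb ℂ (qExpand ℚ N jq) ∈ s29_cF N :=
      coeffEmb_mem_laurentBaseChange ℂ (jqd_mem_full N dvd_rfl)
    have h1 : s29_cEmb N ⟨_, hmem⟩ =
        algebraMap (s29_cRing N) (s29_cL N) (s29_cJ N N dvd_rfl) := by
      rw [s29_cEmb_eq_iff, s29_cExpL_algebraMap, s29_cExp_cJ]
    have h2 := h ⟨_, hmem⟩
    rw [h1, s29_cL_smul_algebraMap] at h2
    have h3 := IsFractionRing.injective (s29_cRing N) (s29_cL N) h2
    rw [s29_cJ, ← s29_cIncl_smul] at h3
    exact s29_cIncl_injective N h3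
  · intro hγ f
    have h := s29_c_qExpand_mem N ((s29_cFix N γ).map (s29_cExpL N)) (fun d _ hd => by
      rw [IntermediateField.mem_map]
      refine ⟨algebraMap (s29_cRing N) (s29_cL N) (s29_cJ N d hd), ?_, ?_⟩
      · rw [s29_mem_cFix, s29_cL_smul_algebraMap, s29_cJ_smul_of_mem_Gamma0 N d hd γ hγ]
      · rw [s29_cExpL_algebraMap, s29_cExp_cJ]) f.2
    rw [IntermediateField.mem_map] at h
    obtain ⟨x, hx, hxf⟩ := h
    rw [← s29_cEmb_eq_iff] at hxf
    rw [hxf]
    exact hx

/-- compatibility with the embedding over `ℚ̄` -/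
theorem s29_cEmb_coeffMap (N : ℕ) [NeZero N] (f : modularFunctionFieldBar N) :
    s29_cEmb N ⟨coeffMap iotaK (f : LaurentSeries Kbar), s29_coeffMap_iotaK_mem _ f.2⟩ =
      s29_cInclL N (embF N f) := by
  rw [s29_cEmb_eq_iff, s29_cExpL_inclL, expL_embF, coeffMap_qExpand]

/-! ## The analytic realisation over `ℂ` -/

/-- **The analytic realisation** of the function field of `X₀(N)` over `ℂ`: every element of
`ℂ(j(q^d) : d ∣ N) ⊆ ℂ((q))` as a meromorphic function on the upper half plane. -/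
def s29_anC (N : ℕ) [NeZero N] : s29_cF N →+* s29_Mer :=
  (s29_cOfL N).comp (s29_cEmb N : s29_cF N →+* s29_cL N)

theorem s29_anC_apply (N : ℕ) [NeZero N] (f : s29_cF N) :
    s29_anC N f = s29_cOfL N (s29_cEmb N f) := rfl

theorem s29_anC_injective (N : ℕ) [NeZero N] : Function.Injective (s29_anC N) :=
  (s29_anC N).injective

theorem s29_anC_const (N : ℕ) [NeZero N] (c : ℂ) :
    s29_anC N (algebraMap ℂ (s29_cF N) c) = algebraMap ℂ s29_Mer c := by
  rw [s29_anC_apply, AlgHom.commutes, s29_cOfL_const]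

/-- the analytic realisation of a function on `X₀(N)` over `ℂ` is `Γ₀(N)`-invariant. -/
theorem s29_anC_smul (N : ℕ) [NeZero N] (γ : SL(2, ℤ)) (hγ : γ ∈ Gamma0 N)
    (f : s29_cF N) : γ • s29_anC N f = s29_anC N f := by
  rw [s29_anC_apply, ← s29_cOfL_smul, (s29_cEmb_stab N γ).2 hγ f]

/-- conversely, an element of `SL₂(ℤ)` fixing all of `s29_anC N` lies in `Γ₀(N)`. -/
theorem s29_anC_stab (N : ℕ) [NeZero N] (γ : SL(2, ℤ))
    (h : ∀ f : s29_cF N, γ • s29_anC N f = s29_anC N f) : γ ∈ Gamma0 N := by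
  apply (s29_cEmb_stab N γ).1
  intro f
  apply s29_cOfL_injective N
  rw [s29_cOfL_smul]
  exact h f

/-- characterisation of the analytic realisation through expansions at `∞` -/
theorem s29_anC_eq_iff (N : ℕ) [NeZero N] (f : s29_cF N) (x : s29_cL N) :
    s29_anC N f = s29_cOfL N x ↔ s29_cExpL N x = qExpand ℂ N (f : LaurentSeries ℂ) := by
  rw [s29_anC_apply, ← s29_cEmb_eq_iff]
  exact ⟨fun h => s29_cOfL_injective N h, fun h => by rw [h]⟩

/-- **Compatibility with the model over `ℚ̄`**: on `ℚ̄`-rational functions, `s29_anC` is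
helper26's `s29_an`. -/
theorem s29_anC_coeffMap (N : ℕ) [NeZero N] (f : modularFunctionFieldBar N) :
    s29_anC N ⟨coeffMap iotaK (f : LaurentSeries Kbar), s29_coeffMap_iotaK_mem _ f.2⟩ =
      s29_an N f := by
  rw [s29_anC_apply, s29_cEmb_coeffMap, s29_cOfL_inclL, s29_an_apply]

end Fermat.Agent.S29
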