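import Fermat.Agent.S29.CKeyTransport
import Fermat.Agent.S29.CModEmb

/-!
# S29 (BRIDGE): TRANSPORT for the analytic realisation `s29_anC N`

`s29_anC N : F_C →+* s29_Mer` (`CModEmb.lean`) is built on the ring `s29_cRing N`; TRANSPORT
(`CKeyTransport.lean`) on the ring `s29_cm_ring N`.  Both rings are `ℂ[J(d γ τ)]`; this file
identifies the two realisations of `F_C` and states TRANSPORT for `s29_anC N`:

* `s29_ck_ofL N : s29_cm_L N →+* s29_Mer` — the realisation of `s29_cm_L N` in `s29_Mer`;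
* `s29_ck_anC_eq` : `s29_anC N f = φ (s29_ap_embFC N f)` for every `φ` which is the identity on
  functions;
* `s29_ck_anC_hTr` : hypothesis `hTr` of `s29_ck_hT` / `s29_ck_e3` for `an := s29_anC N`.
-/

set_option autoImplicit false

open UpperHalfPlane ModularCurve Polynomial AlgebraicCurve
open scoped MatrixGroups IntermediateField Manifold

noncomputable section

namespace Fermat.Agent.S29

open Fermat.Agent.S24
open CongruenceSubgroup ModularGroup

/-- The realisation of `s29_cm_L N = Frac ℂ[J(d γ τ)]` in the field of meromorphic functions. -/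
def s29_ck_ofL (N : ℕ) [NeZero N] : s29_cm_L N →+* s29_Mer :=
  IsFractionRing.lift (g := (algebraMap s29_hol s29_Mer).comp (s29_cpl_toHol N))
    (s29_algebraMap_injective.comp (s29_cpl_toHol_injective N))

theorem s29_ck_ofL_algebraMap (N : ℕ) [NeZero N] (x : s29_cm_ring N) :
    s29_ck_ofL N (algebraMap (s29_cm_ring N) (s29_cm_L N) x)
      = algebraMap s29_hol s29_Mer (s29_cpl_toHol N x) :=
  IsFractionRing.lift_algebraMap _ x

/-- The two realisations of `F_C` in `s29_Mer` coincide. -/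
theorem s29_ck_anC_eq (N : ℕ) [NeZero N] (φ : s29_cm_L N →+* s29_Mer)
    (hφ : ∀ x : s29_cm_ring N, φ (algebraMap (s29_cm_ring N) (s29_cm_L N) x)
      = algebraMap s29_hol s29_Mer (s29_cpl_toHol N x))
    (f : s29_ap_FC N) : s29_anC N f = φ (s29_ap_embFC N f) := by
  obtain ⟨a, b, hb, hab, hexp⟩ := s29_ap_exists_frac N f
  -- the same functions as elements of `s29_cRing N`
  let a' : s29_cRing N := ⟨(a : ℍ → ℂ), a.2⟩
  let b' : s29_cRing N := ⟨(b : ℍ → ℂ), b.2⟩
  have hb' : b' ≠ 0 := by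
    intro h
    apply hb
    apply Subtype.ext
    exact congrArg Subtype.val h
  have hea : s29_cExp N a' = s29_cm_exp N a := s29_cExp_eq N a' (s29_cm_exp_spec N a)
  have heb : s29_cExp N b' = s29_cm_exp N b := s29_cExp_eq N b' (s29_cm_exp_spec N b)
  have hexpb : s29_cm_exp N b ≠ 0 := by
    intro h
    exact hb (s29_cm_exp_injective N (by rw [h, map_zero]))
  have h1 : s29_anC N f = s29_cOfL N (algebraMap (s29_cRing N) (s29_cL N) a'
      / algebraMap (s29_cRing N) (s29_cL N) b') := by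
    rw [s29_anC_eq_iff, map_div₀, s29_cExpL_algebraMap, s29_cExpL_algebraMap, hea, heb, hexp,
      mul_div_cancel_right₀ _ hexpb]
  have hta : s29_cOfRing N a' = s29_cpl_toHol N a := by
    apply s29_hol_ext
    intro τ
    rw [s29_cOfRing_apply, s29_cpl_toHol_apply]
  have htb : s29_cOfRing N b' = s29_cpl_toHol N b := by
    apply s29_hol_ext
    intro τ
    rw [s29_cOfRing_apply, s29_cpl_toHol_apply]
  rw [h1, hab, map_div₀, map_div₀, s29_cOfL_algebraMap, s29_cOfL_algebraMap, hφ, hφ, hta, htb]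

/-- **TRANSPORT for `s29_anC N`** — hypothesis `hTr` of `s29_ck_hT` / `s29_ck_e3`. -/
theorem s29_ck_anC_hTr (N : ℕ) [NeZero N] (σ : ℂ ≃ₐ[ℚ] ℂ) (τ : ℍ) :
    ∃ τ' : ℍ, ∀ f : s29_ap_FC N, f ≠ 0 →
      s29_ord τ (s29_anC N (s29_ck_sig N σ f)) = s29_ord τ' (s29_anC N f) := by
  obtain ⟨τ', hτ'⟩ := s29_ck_hTr N (s29_ck_ofL N) (s29_ck_ofL_algebraMap N) σ τ
  refine ⟨τ', fun f hf => ?_⟩
  rw [s29_ck_anC_eq N (s29_ck_ofL N) (s29_ck_ofL_algebraMap N),
    s29_ck_anC_eq N (s29_ck_ofL N) (s29_ck_ofL_algebraMap N)]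
  exact hτ' f hf

end Fermat.Agent.S29
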