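import Fermat.Agent.S29.CMod

/-!
# S29 (project BRIDGE), block (AP): the embedding of `F_C = ℂ·F_N ⊆ ℂ((q))` into
`s29_cm_L N = Frac ℂ[J(d γ τ)]`

The `ℂ`-coefficient twin of `S24.expL` / `S24.embF`, on top of `CMod.lean`.
-/

set_option autoImplicit false

open UpperHalfPlane ModularCurve Polynomial
open scoped MatrixGroups IntermediateField Manifold

noncomputable section

namespace Fermat.Agent.S29

open Fermat.Agent.S28 (Jfun scaleH HasQExp)
open CongruenceSubgroup ModularGroup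

/-! ## The expansion at `∞` on `LC` and the embedding of `F_C` -/

/-- The expansion at `∞`, extended to the fraction field. -/
def s29_ap_expLC (N : ℕ) [NeZero N] : s29_cm_L N →ₐ[ℂ] LaurentSeries ℂ :=
  IsFractionRing.liftAlgHom (g := s29_cm_exp N) (s29_cm_exp_injective N)

theorem s29_ap_expLC_algebraMap (N : ℕ) [NeZero N] (g : s29_cm_ring N) :
    s29_ap_expLC N (algebraMap (s29_cm_ring N) (s29_cm_L N) g) = s29_cm_exp N g :=
  IsFractionRing.lift_algebraMap (s29_cm_exp_injective N) g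

theorem s29_ap_expLC_injective (N : ℕ) [NeZero N] : Function.Injective (s29_ap_expLC N) :=
  (s29_ap_expLC N).toRingHom.injective

/-- `qExpand` as a `ℂ`-algebra homomorphism. -/
def s29_ap_qExp (N : ℕ) [NeZero N] : LaurentSeries ℂ →ₐ[ℂ] LaurentSeries ℂ :=
  { qExpand ℂ N with
    commutes' := fun c => by
      show qExpand ℂ N (algebraMap ℂ (LaurentSeries ℂ) c) = _
      rw [algebraMap_laurentSeries_eq_single, qExpand_single, mul_zero] }

theorem s29_ap_qExp_apply (N : ℕ) [NeZero N] (f : LaurentSeries ℂ) :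
    s29_ap_qExp N f = qExpand ℂ N f := rfl

/-- The field `F_C = ℂ(j(q^d) : d ∣ N) ⊆ ℂ((q))`. -/
abbrev s29_ap_FC (N : ℕ) : IntermediateField ℂ (LaurentSeries ℂ) :=
  laurentBaseChange ℂ (modularFunctionFieldFull N)

/-- A field of Laurent series containing the level-`N` expansions of the `j(dτ)` contains the
level-`N` expansion of the whole field `F_C`. -/
theorem s29_ap_qExpand_mem (N : ℕ) [NeZero N]
    (E : IntermediateField ℂ (LaurentSeries ℂ))
    (hE : ∀ (d : ℕ) [NeZero d], d ∣ N →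
      qExpand ℂ N (coeffEmb ℂ (qExpand ℚ d jq)) ∈ E)
    {f : LaurentSeries ℂ} (hf : f ∈ s29_ap_FC N) : qExpand ℂ N f ∈ E := by
  have h1 : ∀ x ∈ modularFunctionFieldFull N, qExpand ℂ N (coeffEmb ℂ x) ∈ E := by
    intro x hx
    have hx' : x ∈ Subfield.closure
        (Set.range (algebraMap ℚ (LaurentSeries ℚ)) ∪ divisorExpansions N) := hx
    have hle : Subfield.closure
        (Set.range (algebraMap ℚ (LaurentSeries ℚ)) ∪ divisorExpansions N)
        ≤ E.toSubfield.comap ((qExpand ℂ N).comp (coeffEmb ℂ)) := by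
      rw [Subfield.closure_le]
      rintro y (⟨r, rfl⟩ | ⟨d, hd, hdN, rfl⟩)
      · show (qExpand ℂ N) (coeffEmb ℂ (algebraMap ℚ _ r)) ∈ E
        rw [eq_ratCast, map_ratCast, map_ratCast]
        exact SubfieldClass.ratCast_mem E r
      · exact @hE d hd hdN
    exact hle hx'
  rw [mem_laurentBaseChange_iff] at hf
  have hle : Subfield.closure (Set.range (algebraMap ℂ (LaurentSeries ℂ)) ∪
      (⇑(coeffEmb ℂ) '' (modularFunctionFieldFull N : Set (LaurentSeries ℚ))))
      ≤ E.toSubfield.comap (qExpand ℂ N) := by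
    rw [Subfield.closure_le]
    rintro y (⟨c, rfl⟩ | ⟨x, hx, rfl⟩)
    · show qExpand ℂ N (algebraMap ℂ _ c) ∈ E
      rw [algebraMap_laurentSeries_eq_single, qExpand_single, mul_zero,
        ← algebraMap_laurentSeries_eq_single]
      exact E.algebraMap_mem c
    · exact h1 x hx
  exact hle hf

theorem s29_ap_qExpand_mem_range (N : ℕ) [NeZero N] {f : LaurentSeries ℂ}
    (hf : f ∈ s29_ap_FC N) : qExpand ℂ N f ∈ (s29_ap_expLC N).range := by
  have h := s29_ap_qExpand_mem N (s29_ap_expLC N).fieldRange (fun d _ hd =>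
    ⟨algebraMap (s29_cm_ring N) (s29_cm_L N) (s29_cm_Jelt N d hd), by
      rw [← s29_cm_exp_Jelt N d hd]
      exact s29_ap_expLC_algebraMap N _⟩) hf
  exact h

/-- The embedding of `F_C ⊆ ℂ((q))` into `LC`. -/
def s29_ap_embFC (N : ℕ) [NeZero N] : s29_ap_FC N →ₐ[ℂ] s29_cm_L N :=
  ((AlgEquiv.ofInjectiveField (s29_ap_expLC N)).symm.toAlgHom).comp
    (((s29_ap_qExp N).comp (s29_ap_FC N).val).codRestrict (s29_ap_expLC N).range
      (fun f => s29_ap_qExpand_mem_range N f.2))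

theorem s29_ap_expLC_embFC (N : ℕ) [NeZero N] (f : s29_ap_FC N) :
    s29_ap_expLC N (s29_ap_embFC N f) = qExpand ℂ N (f : LaurentSeries ℂ) := by
  set y : (s29_ap_expLC N).range := (((s29_ap_qExp N).comp
    (s29_ap_FC N).val).codRestrict (s29_ap_expLC N).range
      (fun f => s29_ap_qExpand_mem_range N f.2)) f with hy
  have h1 : s29_ap_embFC N f = (AlgEquiv.ofInjectiveField (s29_ap_expLC N)).symm y := rfl
  have h2 : ((AlgEquiv.ofInjectiveField (s29_ap_expLC N))
      ((AlgEquiv.ofInjectiveField (s29_ap_expLC N)).symm y) : LaurentSeries ℂ) = y := by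
    rw [AlgEquiv.apply_symm_apply]
  rw [h1]
  exact h2

theorem s29_ap_embFC_eq_iff (N : ℕ) [NeZero N] (f : s29_ap_FC N) (x : s29_cm_L N) :
    s29_ap_embFC N f = x ↔ s29_ap_expLC N x = qExpand ℂ N (f : LaurentSeries ℂ) := by
  rw [← s29_ap_expLC_embFC]
  exact ⟨fun h => by rw [h], fun h => (s29_ap_expLC_injective N h).symm⟩

/-- `j ∈ F_C`. -/
def s29_ap_jFC (N : ℕ) [NeZero N] : s29_ap_FC N :=
  ⟨coeffEmb ℂ jq, coeffEmb_mem_laurentBaseChange ℂ (by
    have h := jqd_mem_full N (one_dvd N)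
    rwa [qExpand_one_apply] at h)⟩

theorem s29_ap_embFC_jFC (N : ℕ) [NeZero N] : s29_ap_embFC N (s29_ap_jFC N) = s29_cm_jL N := by
  rw [s29_ap_embFC_eq_iff]
  show s29_ap_expLC N (algebraMap (s29_cm_ring N) (s29_cm_L N)
    (s29_cm_Jelt N 1 (one_dvd N))) = _
  rw [s29_ap_expLC_algebraMap, s29_cm_exp_Jelt, qExpand_one_apply]
  rfl

/-- A fraction representation of the image of `f ∈ F_C`. -/
theorem s29_ap_exists_frac (N : ℕ) [NeZero N] (f : s29_ap_FC N) :
    ∃ a b : s29_cm_ring N, b ≠ 0 ∧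
      s29_ap_embFC N f = algebraMap (s29_cm_ring N) (s29_cm_L N) a
        / algebraMap (s29_cm_ring N) (s29_cm_L N) b ∧
      s29_cm_exp N a = qExpand ℂ N (f : LaurentSeries ℂ) * s29_cm_exp N b := by
  obtain ⟨a, b, hb, h⟩ := IsFractionRing.div_surjective (A := s29_cm_ring N)
    (s29_ap_embFC N f)
  have hb0 : b ≠ 0 := nonZeroDivisors.ne_zero hb
  refine ⟨a, b, hb0, h.symm, ?_⟩
  have h1 := congrArg (s29_ap_expLC N) h
  rw [map_div₀, s29_ap_expLC_algebraMap, s29_ap_expLC_algebraMap, s29_ap_expLC_embFC] at h1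
  have hb1 : s29_cm_exp N b ≠ 0 := fun h0 =>
    hb0 (s29_cm_exp_injective N (by rw [h0, map_zero]))
  rw [← h1, div_mul_cancel₀ _ hb1]

/-- Conversely: a fraction with the right expansion is the image of `f`. -/
theorem s29_ap_embFC_eq_of_frac (N : ℕ) [NeZero N] (f : s29_ap_FC N)
    (a b : s29_cm_ring N) (hb : b ≠ 0)
    (h : s29_cm_exp N a = qExpand ℂ N (f : LaurentSeries ℂ) * s29_cm_exp N b) :
    s29_ap_embFC N f = algebraMap (s29_cm_ring N) (s29_cm_L N) a
        / algebraMap (s29_cm_ring N) (s29_cm_L N) b := by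
  rw [s29_ap_embFC_eq_iff, map_div₀, s29_ap_expLC_algebraMap, s29_ap_expLC_algebraMap, h]
  have hb1 : s29_cm_exp N b ≠ 0 := fun h0 =>
    hb (s29_cm_exp_injective N (by rw [h0, map_zero]))
  rw [mul_div_cancel_right₀ _ hb1]

end Fermat.Agent.S29
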