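import Mathlib

/-!
# BRIDGE block (A1): `m`-th roots of holomorphic functions on the upper half-plane

If `F` is holomorphic on the open upper half-plane, nowhere locally zero, and every order of
vanishing of `F` is divisible by `m`, then `F = H ^ m` for a holomorphic `H`.
-/

namespace Fermat.Agent.S29

open Complex Filter Topology Set Metric

/-- `m`-th root of a nowhere vanishing holomorphic function on a disc. -/
theorem s29_root_ball (m : ℕ) (hm : 0 < m) (c : ℂ) (r : ℝ) (g : ℂ → ℂ)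
    (hg : DifferentiableOn ℂ g (ball c r)) (hg0 : ∀ z ∈ ball c r, g z ≠ 0) :
    ∃ v : ℂ → ℂ, DifferentiableOn ℂ v (ball c r) ∧ ∀ z ∈ ball c r, v z ^ m = g z := by
  by_cases hc : c ∈ ball c r
  swap
  · refine ⟨fun _ => 0, differentiableOn_const _, fun z hz => ?_⟩
    exact absurd (mem_ball_self (pos_of_mem_ball hz)) hc
  have hdg : DifferentiableOn ℂ (deriv g) (ball c r) := hg.deriv isOpen_ball
  have hf : DifferentiableOn ℂ (fun z => deriv g z / g z) (ball c r) := hdg.div hg hg0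
  obtain ⟨P, hP⟩ := hf.isExactOn_ball
  have hPd : DifferentiableOn ℂ P (ball c r) :=
    fun z hz => (hP z hz).differentiableAt.differentiableWithinAt
  -- `g * exp (-P)` is constant
  have hq : DifferentiableOn ℂ (fun z => g z * Complex.exp (-P z)) (ball c r) :=
    hg.mul (hPd.neg.cexp)
  have hq' : (ball c r).EqOn (deriv (fun z => g z * Complex.exp (-P z))) 0 := by
    intro z hz
    have h1 : HasDerivAt g (deriv g z) z :=
      (hg.differentiableAt (isOpen_ball.mem_nhds hz)).hasDerivAt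
    have h2 : HasDerivAt (fun z => Complex.exp (-P z))
        (Complex.exp (-P z) * (-(deriv g z / g z))) z := (hP z hz).neg.cexp
    have h3 : HasDerivAt (fun z => g z * Complex.exp (-P z))
        (deriv g z * Complex.exp (-P z) + g z * (Complex.exp (-P z) * -(deriv g z / g z))) z :=
      h1.mul h2
    rw [h3.deriv]
    have := hg0 z hz
    simp only [Pi.zero_apply]
    field_simp
    ring
  have hconst : ∀ z ∈ ball c r, g z * Complex.exp (-P z) = g c * Complex.exp (-P c) :=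
    fun z hz => isOpen_ball.is_const_of_deriv_eq_zero (convex_ball c r).isPreconnected hq hq' hz hc
  obtain ⟨c₁, hc₁⟩ := IsAlgClosed.exists_pow_nat_eq (g c * Complex.exp (-P c)) hm
  refine ⟨fun z => c₁ * Complex.exp (P z / m), ?_, fun z hz => ?_⟩
  · exact (differentiableOn_const _).mul ((hPd.div_const _).cexp)
  · have hm' : (m : ℂ) ≠ 0 := Nat.cast_ne_zero.mpr hm.ne'
    rw [mul_pow, hc₁, ← Complex.exp_nat_mul, mul_div_cancel₀ _ hm', ← hconst z hz, mul_assoc,
      ← Complex.exp_add]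
    simp

/-- Two holomorphic `m`-th roots of the same function on a connected open set which agree
(and do not vanish) at one point agree everywhere. -/
theorem s29_root_unique (m : ℕ) (hm : 0 < m) (B : Set ℂ) (hB : IsOpen B)
    (hBc : IsPreconnected B) (H₁ H₂ : ℂ → ℂ) (h₁ : DifferentiableOn ℂ H₁ B)
    (h₂ : DifferentiableOn ℂ H₂ B) (hpow : ∀ z ∈ B, H₁ z ^ m = H₂ z ^ m) (z₀ : ℂ)
    (hz₀ : z₀ ∈ B) (h0 : H₁ z₀ = H₂ z₀) (hne : H₂ z₀ ≠ 0) : EqOn H₁ H₂ B := by
  refine (h₁.analyticOnNhd hB).eqOn_of_preconnected_of_eventuallyEq (h₂.analyticOnNhd hB) hBc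
    hz₀ ?_
  have hc₂ : ContinuousAt H₂ z₀ := (h₂.differentiableAt (hB.mem_nhds hz₀)).continuousAt
  have hev : ∀ᶠ z in 𝓝 z₀, z ∈ B ∧ H₂ z ≠ 0 :=
    Filter.Eventually.and (hB.mem_nhds hz₀) (hc₂.eventually_ne hne)
  obtain ⟨ε, hε, hsub⟩ := Metric.mem_nhds_iff.mp hev
  have hT : ({w : ℂ | w ^ m = 1} : Set ℂ).Finite := by
    refine (Polynomial.nthRootsFinset m (1 : ℂ)).finite_toSet.subset ?_
    intro w hw
    exact (Polynomial.mem_nthRootsFinset hm 1).mpr hw
  have hTd : IsDiscrete ({w : ℂ | w ^ m = 1} : Set ℂ) := hT.isDiscrete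
  have hcont : ContinuousOn (fun z => H₁ z / H₂ z) (ball z₀ ε) := by
    refine ContinuousOn.div ?_ ?_ (fun z hz => (hsub hz).2)
    · exact (h₁.mono (fun z hz => (hsub hz).1)).continuousOn
    · exact (h₂.mono (fun z hz => (hsub hz).1)).continuousOn
  have hmaps : MapsTo (fun z => H₁ z / H₂ z) (ball z₀ ε) {w : ℂ | w ^ m = 1} := by
    intro z hz
    have h2 := (hsub hz).2
    change (H₁ z / H₂ z) ^ m = 1
    rw [div_pow, hpow z (hsub hz).1]
    exact div_self (pow_ne_zero _ h2)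
  have hconst : ∀ z ∈ ball z₀ ε, H₁ z / H₂ z = H₁ z₀ / H₂ z₀ := fun z hz =>
    (convex_ball z₀ ε).isPreconnected.constant_of_mapsTo hTd hcont hmaps hz (mem_ball_self hε)
  filter_upwards [ball_mem_nhds z₀ hε] with z hz
  have h2 := (hsub hz).2
  have := hconst z hz
  rw [h0, div_self hne, div_eq_one_iff_eq h2] at this
  exact this

/-- Local `m`-th root on a disc whose closure lies in the domain of analyticity. -/
theorem s29_root_local (m : ℕ) (hm : 0 < m) (F : ℂ → ℂ) (c : ℂ) (r : ℝ)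
    (hF : AnalyticOnNhd ℂ F (closedBall c r))
    (hord : ∀ z ∈ closedBall c r,
      analyticOrderAt F z ≠ ⊤ ∧ m ∣ (analyticOrderAt F z).toNat) :
    ∃ H : ℂ → ℂ, DifferentiableOn ℂ H (ball c r) ∧ ∀ z ∈ ball c r, H z ^ m = F z := by
  classical
  set U : Set ℂ := closedBall c r with hU
  have h₁f : MeromorphicOn F U := hF.meromorphicOn
  have hmo : ∀ u ∈ U, meromorphicOrderAt F u = (((analyticOrderAt F u).toNat : ℕ) : ℤ) := by
    intro u hu
    rw [(hF u hu).meromorphicOrderAt_eq]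
    obtain ⟨n, hn⟩ := ENat.ne_top_iff_exists.mp (hord u hu).1
    rw [← hn]
    simp
  have h₂f : ∀ u : U, meromorphicOrderAt F u ≠ ⊤ := by
    rintro ⟨u, hu⟩
    rw [hmo u hu]
    exact WithTop.coe_ne_top
  have h₃f : (MeromorphicOn.divisor F U).support.Finite :=
    (MeromorphicOn.divisor F U).finiteSupport (isCompact_closedBall c r)
  obtain ⟨g, hg, hg0, heq⟩ := h₁f.extract_zeros_poles h₂f h₃f
  set D : ℂ → ℤ := fun u => MeromorphicOn.divisor F U u with hD
  have hDval : ∀ u, D u = if u ∈ U then (((analyticOrderAt F u).toNat : ℕ) : ℤ) else 0 := by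
    intro u
    by_cases hu : u ∈ U
    · simp only [hD, hu, if_true, MeromorphicOn.divisor_apply h₁f hu, hmo u hu]
      rfl
    · simp [hD, hu]
  have hDdvd : ∀ u, (m : ℤ) ∣ D u := by
    intro u
    rw [hDval u]
    split_ifs with hu
    · exact Int.natCast_dvd_natCast.mpr (hord u hu).2
    · exact dvd_zero _
  have hDnn : ∀ u, 0 ≤ D u := by
    intro u
    rw [hDval u]
    split_ifs with hu
    · exact Int.natCast_nonneg _
    · exact le_refl _
  set E : ℂ → ℤ := fun u => D u / m with hE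
  have hm' : (m : ℤ) ≠ 0 := Int.natCast_ne_zero.mpr hm.ne'
  have hED : ∀ u, E u * m = D u := fun u => Int.ediv_mul_cancel (hDdvd u)
  have hEnn : ∀ u, 0 ≤ E u := fun u => Int.ediv_nonneg (hDnn u) (Int.natCast_nonneg _)
  have hEsupp : E.support.Finite := by
    refine h₃f.subset ?_
    intro u hu
    simp only [Function.mem_support] at hu ⊢
    intro h0
    apply hu
    have : D u = 0 := h0
    simp [hE, this]
  set φ : ℂ → ℂ := ∏ᶠ u, (· - u) ^ D u with hφ
  set ψ : ℂ → ℂ := ∏ᶠ u, (· - u) ^ E u with hψ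
  have hφψ : φ = ψ ^ m := by
    have hfin : (Function.mulSupport fun u : ℂ => (fun x : ℂ => x - u) ^ E u).Finite := by
      rw [Function.FactorizedRational.mulSupport]; exact hEsupp
    rw [hψ, finprod_pow hfin]
    refine finprod_congr (fun u => ?_)
    funext z
    simp only [Pi.pow_apply]
    rw [← hED u, zpow_mul, zpow_natCast]
  -- root of `g` on the open ball
  have hgd : DifferentiableOn ℂ g (ball c r) :=
    fun z hz => (hg z (ball_subset_closedBall hz)).differentiableAt.differentiableWithinAt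
  obtain ⟨v, hv, hvpow⟩ := s29_root_ball m hm c r g hgd
    (fun z hz => hg0 ⟨z, ball_subset_closedBall hz⟩)
  refine ⟨fun z => ψ z * v z, ?_, fun z hz => ?_⟩
  · refine DifferentiableOn.mul ?_ hv
    intro z hz
    exact (Function.FactorizedRational.analyticAt (hEnn z)).differentiableAt.differentiableWithinAt
  · have hzU : z ∈ U := ball_subset_closedBall hz
    -- `F = φ * g` near `z` off `z`, hence at `z` by continuity
    have hs : {x | F x = (φ • g) x} ∈ codiscreteWithin U := heq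
    rw [mem_codiscreteWithin] at hs
    have h1 := hs z hzU
    rw [Filter.disjoint_principal_right] at h1
    have hUn : U ∈ 𝓝[≠] z :=
      mem_nhdsWithin_of_mem_nhds (Filter.mem_of_superset (isOpen_ball.mem_nhds hz)
        ball_subset_closedBall)
    have hev : ∀ᶠ y in 𝓝[≠] z, F y = (φ • g) y := by
      filter_upwards [h1, hUn] with y hy1 hy2
      by_contra hne
      exact hy1 ⟨hy2, hne⟩
    have hcF : Tendsto F (𝓝[≠] z) (𝓝 (F z)) :=
      (hF z hzU).continuousAt.tendsto.mono_left nhdsWithin_le_nhds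
    have hφa : AnalyticAt ℂ φ z := Function.FactorizedRational.analyticAt (hDnn z)
    have hcG : Tendsto (φ • g) (𝓝[≠] z) (𝓝 ((φ • g) z)) :=
      ((hφa.smul (hg z hzU)).continuousAt).tendsto.mono_left nhdsWithin_le_nhds
    have hFz : F z = (φ • g) z := tendsto_nhds_unique_of_eventuallyEq hcF hcG hev
    rw [hFz, mul_pow, hvpow z hz, hφψ]
    simp

/-- Centre of the `k`-th exhausting disc of the upper half-plane. -/
noncomputable def s29_root_ctr (k : ℕ) : ℂ := ⟨0, (k : ℝ) + 2⟩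

/-- Radius of the `k`-th exhausting disc of the upper half-plane. -/
noncomputable def s29_root_rad (k : ℕ) : ℝ := ((k : ℝ) + 2) - 1 / ((k : ℝ) + 2)

theorem s29_root_closedBall_sub (k : ℕ) :
    closedBall (s29_root_ctr k) (s29_root_rad k) ⊆ {z : ℂ | 0 < z.im} := by
  intro z hz
  rw [mem_closedBall, Complex.dist_eq] at hz
  have h1 := (Complex.abs_im_le_norm (z - s29_root_ctr k)).trans hz
  have h2 : (z - s29_root_ctr k).im = z.im - ((k : ℝ) + 2) := by
    simp [s29_root_ctr]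
  rw [h2, abs_le] at h1
  have hk : (0 : ℝ) < (k : ℝ) + 2 := by positivity
  have h3 : (0 : ℝ) < 1 / ((k : ℝ) + 2) := by positivity
  change 0 < z.im
  unfold s29_root_rad at h1
  linarith [h1.1]

theorem s29_root_ball_mono {j k : ℕ} (hjk : j ≤ k) :
    ball (s29_root_ctr j) (s29_root_rad j) ⊆ ball (s29_root_ctr k) (s29_root_rad k) := by
  apply Metric.ball_subset_ball'
  have hd : dist (s29_root_ctr j) (s29_root_ctr k) = (k : ℝ) - j := by
    rw [Complex.dist_eq]
    have h1 : s29_root_ctr j - s29_root_ctr k = (((j : ℝ) - k : ℝ) : ℂ) * Complex.I := by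
      apply Complex.ext <;> simp [s29_root_ctr]
    rw [h1, norm_mul, Complex.norm_I, mul_one, Complex.norm_real, Real.norm_eq_abs,
      abs_sub_comm, abs_of_nonneg]
    have : (j : ℝ) ≤ k := Nat.cast_le.mpr hjk
    linarith
  rw [hd]
  unfold s29_root_rad
  have hj : (0 : ℝ) < (j : ℝ) + 2 := by positivity
  have hjk' : (j : ℝ) + 2 ≤ (k : ℝ) + 2 := by
    have : (j : ℝ) ≤ k := Nat.cast_le.mpr hjk
    linarith
  have h3 : 1 / ((k : ℝ) + 2) ≤ 1 / ((j : ℝ) + 2) := one_div_le_one_div_of_le hj hjk'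
  linarith

theorem s29_root_cover (z : ℂ) (hz : 0 < z.im) :
    ∃ k : ℕ, z ∈ ball (s29_root_ctr k) (s29_root_rad k) := by
  obtain ⟨k, hk⟩ := exists_nat_gt ((z.re ^ 2 + z.im ^ 2 + 2) / (2 * z.im))
  refine ⟨k, ?_⟩
  rw [mem_ball, Complex.dist_eq]
  have ht : (0 : ℝ) < (k : ℝ) + 2 := by positivity
  have ht2 : (1 : ℝ) < (k : ℝ) + 2 := by
    have : (0 : ℝ) ≤ (k : ℝ) := Nat.cast_nonneg k
    linarith
  have hinv : 1 / ((k : ℝ) + 2) < 1 := by
    rw [div_lt_one ht]; exact ht2
  have hr : 0 < s29_root_rad k := by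
    unfold s29_root_rad
    linarith
  have hk' : z.re ^ 2 + z.im ^ 2 + 2 < 2 * z.im * ((k : ℝ) + 2) := by
    rw [div_lt_iff₀ (by positivity)] at hk
    nlinarith
  refine lt_of_pow_lt_pow_left₀ 2 hr.le ?_
  rw [Complex.sq_norm, Complex.normSq_apply]
  have h1 : (z - s29_root_ctr k).re = z.re := by simp [s29_root_ctr]
  have h2 : (z - s29_root_ctr k).im = z.im - ((k : ℝ) + 2) := by simp [s29_root_ctr]
  rw [h1, h2]
  unfold s29_root_rad
  have h5 : ((k : ℝ) + 2 - 1 / ((k : ℝ) + 2)) ^ 2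
      = ((k : ℝ) + 2) ^ 2 - 2 + (1 / ((k : ℝ) + 2)) ^ 2 := by
    field_simp
    ring
  rw [h5]
  have h6 : 0 < (1 / ((k : ℝ) + 2)) ^ 2 := by positivity
  nlinarith

/-- **(A1-core)** A holomorphic function on the open upper half-plane which is nowhere locally
zero and all of whose orders of vanishing are divisible by `m` is the `m`-th power of a
holomorphic function. -/
theorem s29_root_exists (m : ℕ) (hm : 0 < m) (F : ℂ → ℂ)
    (hF : DifferentiableOn ℂ F {z : ℂ | 0 < z.im})
    (hord : ∀ z : ℂ, 0 < z.im →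
      analyticOrderAt F z ≠ ⊤ ∧ m ∣ (analyticOrderAt F z).toNat) :
    ∃ H : ℂ → ℂ, DifferentiableOn ℂ H {z : ℂ | 0 < z.im} ∧
      ∀ z : ℂ, 0 < z.im → H z ^ m = F z := by
  classical
  have hopen : IsOpen {z : ℂ | 0 < z.im} := isOpen_lt continuous_const Complex.continuous_im
  have hFa : AnalyticOnNhd ℂ F {z : ℂ | 0 < z.im} := hF.analyticOnNhd hopen
  -- a base point where `F` does not vanish
  obtain ⟨z₀, hz₀F, hz₀⟩ : ∃ z₀ : ℂ, F z₀ ≠ 0 ∧ 0 < z₀.im := by
    have hI : (0 : ℝ) < Complex.I.im := by simp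
    have h1 : ¬ ∀ᶠ z in 𝓝 Complex.I, F z = 0 := fun h =>
      (hord Complex.I hI).1 (analyticOrderAt_eq_top.mpr h)
    have h2 : ∀ᶠ z in 𝓝 Complex.I, 0 < z.im := hopen.mem_nhds hI
    exact ((Filter.not_eventually.mp h1).and_eventually h2).exists
  obtain ⟨w₀, hw₀⟩ := IsAlgClosed.exists_pow_nat_eq (F z₀) hm
  have hw₀ne : w₀ ≠ 0 := by
    rintro rfl
    rw [zero_pow hm.ne'] at hw₀
    exact hz₀F hw₀.symm
  obtain ⟨k₀, hk₀⟩ := s29_root_cover z₀ hz₀
  set B : ℕ → Set ℂ := fun k => ball (s29_root_ctr (k + k₀)) (s29_root_rad (k + k₀)) with hB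
  have hBsub : ∀ k, B k ⊆ {z : ℂ | 0 < z.im} := fun k =>
    ball_subset_closedBall.trans (s29_root_closedBall_sub (k + k₀))
  have hBmono : ∀ j k, j ≤ k → B j ⊆ B k := fun j k hjk =>
    s29_root_ball_mono (Nat.add_le_add_right hjk k₀)
  have hz₀B : ∀ k, z₀ ∈ B k := fun k => s29_root_ball_mono (Nat.le_add_left k₀ k) hk₀
  have hcover : ∀ z : ℂ, 0 < z.im → ∃ k, z ∈ B k := by
    intro z hz
    obtain ⟨k, hk⟩ := s29_root_cover z hz
    exact ⟨k, s29_root_ball_mono (Nat.le_add_right k k₀) hk⟩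
  -- normalised local roots
  have hloc : ∀ k, ∃ H : ℂ → ℂ, DifferentiableOn ℂ H (B k) ∧ (∀ z ∈ B k, H z ^ m = F z) ∧
      H z₀ = w₀ := by
    intro k
    obtain ⟨H', hH'd, hH'pow⟩ := s29_root_local m hm F (s29_root_ctr (k + k₀))
      (s29_root_rad (k + k₀)) (hFa.mono (s29_root_closedBall_sub (k + k₀)))
      (fun z hz => hord z (s29_root_closedBall_sub (k + k₀) hz))
    have hH'0 : H' z₀ ≠ 0 := by
      intro h0
      have := hH'pow z₀ (hz₀B k)
      rw [h0, zero_pow hm.ne'] at this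
      exact hz₀F this.symm
    refine ⟨fun z => w₀ / H' z₀ * H' z, (hH'd.const_mul _), fun z hz => ?_, ?_⟩
    · rw [mul_pow, div_pow, hw₀, hH'pow z₀ (hz₀B k), div_self hz₀F, one_mul, hH'pow z hz]
    · exact div_mul_cancel₀ _ hH'0
  choose Hs hHd hHpow hH0 using hloc
  have hcompat : ∀ j k, j ≤ k → EqOn (Hs j) (Hs k) (B j) := by
    intro j k hjk
    refine s29_root_unique m hm (B j) isOpen_ball (convex_ball _ _).isPreconnected (Hs j) (Hs k)
      (hHd j) ((hHd k).mono (hBmono j k hjk)) (fun z hz => ?_) z₀ (hz₀B j)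
      ((hH0 j).trans (hH0 k).symm) (by rw [hH0 k]; exact hw₀ne)
    rw [hHpow j z hz, hHpow k z (hBmono j k hjk hz)]
  -- glue
  let H : ℂ → ℂ := fun z => if h : ∃ k, z ∈ B k then Hs (Nat.find h) z else 0
  have hHeq : ∀ k, ∀ z ∈ B k, H z = Hs k z := by
    intro k z hz
    have h : ∃ k, z ∈ B k := ⟨k, hz⟩
    have h1 : H z = Hs (Nat.find h) z := dif_pos h
    rw [h1]
    exact hcompat (Nat.find h) k (Nat.find_min' h hz) (Nat.find_spec h)
  refine ⟨H, fun z hz => ?_, fun z hz => ?_⟩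
  · obtain ⟨k, hk⟩ := hcover z hz
    have hev : H =ᶠ[𝓝 z] Hs k := by
      filter_upwards [isOpen_ball.mem_nhds hk] with y hy using hHeq k y hy
    exact (((hHd k).differentiableAt (isOpen_ball.mem_nhds hk)).congr_of_eventuallyEq
      hev).differentiableWithinAt
  · obtain ⟨k, hk⟩ := hcover z hz
    rw [hHeq k z hk, hHpow k z hk]

end Fermat.Agent.S29
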