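import Fermat.Agent.S29.MerEmb
import Fermat.Agent.S29.Root
import Fermat.Agent.S24.AnPlace

/-!
# S29 (project BRIDGE): orders of meromorphic functions and `m`-th roots

* `s29_ordH τ`, `s29_ord τ` : the order at `τ ∈ ℍ` of a holomorphic / meromorphic function;
* `s29_mer_root` : **(A1) in field form** — a nonzero meromorphic function on `ℍ` all of whose
  orders are divisible by `m` is an `m`-th power in `s29_Mer`;
* `s29_ord_an_dvd` : **(K1)** — if all place orders of `g ∈ F_N` are divisible by `m`, then so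
  are all the analytic orders of `s29_an N g`.
-/

set_option autoImplicit false

open UpperHalfPlane ModularCurve AlgebraicCurve
open scoped MatrixGroups Manifold

noncomputable section

namespace Fermat.Agent.S29

open Fermat.Agent.S24

attribute [local instance] algKC

/-- the order of vanishing at `τ` of a holomorphic function. -/
def s29_ordH (τ : ℍ) (f : s29_hol) : ℤ :=
  ((analyticOrderAt (fun z : ℂ => (f : ℍ → ℂ) (ofComplex z)) (τ : ℂ)).toNat : ℤ)

theorem s29_hol_coe_ne_zero {f : s29_hol} (hf : f ≠ 0) : (f : ℍ → ℂ) ≠ 0 :=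
  fun h => hf (Subtype.ext h)

theorem s29_hol_analyticAt (f : s29_hol) (τ : ℍ) :
    AnalyticAt ℂ (fun z : ℂ => (f : ℍ → ℂ) (ofComplex z)) (τ : ℂ) :=
  jord_analyticAt f.2 τ

theorem s29_hol_order_ne_top {f : s29_hol} (hf : f ≠ 0) (τ : ℍ) :
    analyticOrderAt (fun z : ℂ => (f : ℍ → ℂ) (ofComplex z)) (τ : ℂ) ≠ ⊤ :=
  anp_order_ne_top f.2 (s29_hol_coe_ne_zero hf) τ

theorem s29_ordH_nonneg (τ : ℍ) (f : s29_hol) : 0 ≤ s29_ordH τ f := Int.natCast_nonneg _

theorem s29_ordH_mul (τ : ℍ) (x y : s29_hol) (hx : x ≠ 0) (hy : y ≠ 0) :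
    s29_ordH τ (x * y) = s29_ordH τ x + s29_ordH τ y := by
  have h : (fun z : ℂ => ((x * y : s29_hol) : ℍ → ℂ) (ofComplex z))
      = (fun z : ℂ => (x : ℍ → ℂ) (ofComplex z)) * (fun z : ℂ => (y : ℍ → ℂ) (ofComplex z)) := by
    funext z
    simp
  unfold s29_ordH
  rw [h, analyticOrderAt_mul (s29_hol_analyticAt x τ) (s29_hol_analyticAt y τ),
    ENat.toNat_add (s29_hol_order_ne_top hx τ) (s29_hol_order_ne_top hy τ), Nat.cast_add]

theorem s29_ordH_add (τ : ℍ) (x y : s29_hol) (hx : x ≠ 0) (hy : y ≠ 0) (hxy : x + y ≠ 0) :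
    min (s29_ordH τ x) (s29_ordH τ y) ≤ s29_ordH τ (x + y) := by
  have h : (fun z : ℂ => ((x + y : s29_hol) : ℍ → ℂ) (ofComplex z))
      = (fun z : ℂ => (x : ℍ → ℂ) (ofComplex z)) + (fun z : ℂ => (y : ℍ → ℂ) (ofComplex z)) := by
    funext z
    simp
  have key := le_analyticOrderAt_add (f := fun z : ℂ => (x : ℍ → ℂ) (ofComplex z))
    (g := fun z : ℂ => (y : ℍ → ℂ) (ofComplex z)) (z₀ := (τ : ℂ))
  rw [← h] at key
  obtain ⟨a, ha⟩ := ENat.ne_top_iff_exists.mp (s29_hol_order_ne_top hx τ)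
  obtain ⟨b, hb⟩ := ENat.ne_top_iff_exists.mp (s29_hol_order_ne_top hy τ)
  obtain ⟨c, hc⟩ := ENat.ne_top_iff_exists.mp (s29_hol_order_ne_top hxy τ)
  unfold s29_ordH
  rw [← ha, ← hb, ← hc] at key ⊢
  simp only [ENat.toNat_natCast]
  rw [min_le_iff] at key ⊢
  rcases key with h1 | h1
  · left
    exact_mod_cast h1
  · right
    exact_mod_cast h1

theorem s29_ordH_const (τ : ℍ) (c : ℂ) (hc : c ≠ 0) :
    s29_ordH τ (algebraMap ℂ s29_hol c) = 0 := by
  unfold s29_ordH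
  rw [(s29_hol_analyticAt _ τ).analyticOrderAt_eq_zero.mpr]
  · simp
  · exact hc

theorem s29_ordH_pow (τ : ℍ) (x : s29_hol) (hx : x ≠ 0) (n : ℕ) :
    s29_ordH τ (x ^ n) = n * s29_ordH τ x := by
  induction n with
  | zero =>
    rw [pow_zero, Nat.cast_zero, zero_mul]
    have h := s29_ordH_mul τ 1 1 one_ne_zero one_ne_zero
    rw [mul_one] at h
    linarith
  | succ n ih =>
    rw [pow_succ, s29_ordH_mul τ _ _ (pow_ne_zero n hx) hx, ih]
    push_cast
    ring

/-- the order at `τ` of a meromorphic function. -/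
def s29_ord (τ : ℍ) (f : s29_Mer) : ℤ := anpOrd s29_Mer (s29_ordH τ) f

theorem s29_ord_div (τ : ℍ) {a b : s29_hol} (ha : a ≠ 0) (hb : b ≠ 0) :
    s29_ord τ (algebraMap s29_hol s29_Mer a / algebraMap s29_hol s29_Mer b) =
      s29_ordH τ a - s29_ordH τ b :=
  anpOrd_div (s29_ordH τ) (s29_ordH_mul τ) ha hb

theorem s29_ord_hol (τ : ℍ) {a : s29_hol} (ha : a ≠ 0) :
    s29_ord τ (algebraMap s29_hol s29_Mer a) = s29_ordH τ a :=
  anpOrd_algebraMap (s29_ordH τ) (s29_ordH_mul τ) ha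

theorem s29_ord_mul (τ : ℍ) {f g : s29_Mer} (hf : f ≠ 0) (hg : g ≠ 0) :
    s29_ord τ (f * g) = s29_ord τ f + s29_ord τ g :=
  anpOrd_mul (s29_ordH τ) (s29_ordH_mul τ) hf hg

theorem s29_ord_add (τ : ℍ) {f g : s29_Mer} (hf : f ≠ 0) (hg : g ≠ 0) (hfg : f + g ≠ 0) :
    min (s29_ord τ f) (s29_ord τ g) ≤ s29_ord τ (f + g) :=
  anpOrd_add (s29_ordH τ) (s29_ordH_mul τ) (s29_ordH_add τ) hf hg hfg

theorem s29_ord_const (τ : ℍ) (c : ℂ) (hc : c ≠ 0) :
    s29_ord τ (algebraMap ℂ s29_Mer c) = 0 := by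
  rw [IsScalarTower.algebraMap_apply ℂ s29_hol s29_Mer, s29_ord_hol τ
    (fun h => hc ((algebraMap ℂ s29_hol).injective (by rw [h, map_zero]))), s29_ordH_const τ c hc]

/-- **(A1), field form.** A nonzero meromorphic function on the upper half plane all of whose
orders are divisible by `m` is an `m`-th power. -/
theorem s29_mer_root (m : ℕ) (hm : 0 < m) (g : s29_Mer) (hg : g ≠ 0)
    (h : ∀ τ : ℍ, (m : ℤ) ∣ s29_ord τ g) : ∃ G : s29_Mer, G ^ m = g := by
  obtain ⟨a, b, hb, rfl⟩ := s29_mer_exists_div g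
  have ha : a ≠ 0 := by
    rintro rfl
    simp at hg
  -- the holomorphic function `a * b ^ (m - 1)`
  set F0 : s29_hol := a * b ^ (m - 1) with hF0
  have hF0ne : F0 ≠ 0 := mul_ne_zero ha (pow_ne_zero _ hb)
  have hdiff : DifferentiableOn ℂ (fun z : ℂ => (F0 : ℍ → ℂ) (ofComplex z)) {z : ℂ | 0 < z.im} :=
    UpperHalfPlane.mdifferentiable_iff.mp F0.2
  have hord : ∀ z : ℂ, 0 < z.im →
      analyticOrderAt (fun z : ℂ => (F0 : ℍ → ℂ) (ofComplex z)) z ≠ ⊤ ∧
        m ∣ (analyticOrderAt (fun z : ℂ => (F0 : ℍ → ℂ) (ofComplex z)) z).toNat := by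
    intro z hz
    set τ : ℍ := ⟨z, hz⟩ with hτ
    refine ⟨s29_hol_order_ne_top hF0ne τ, ?_⟩
    have h1 : s29_ordH τ F0 = s29_ordH τ a + ((m - 1 : ℕ) : ℤ) * s29_ordH τ b := by
      rw [hF0, s29_ordH_mul τ _ _ ha (pow_ne_zero _ hb), s29_ordH_pow τ b hb]
    have h2 := h τ
    rw [s29_ord_div τ ha hb] at h2
    have h3 : (m : ℤ) ∣ s29_ordH τ F0 := by
      have h4 : s29_ordH τ F0 = (s29_ordH τ a - s29_ordH τ b) + (m : ℤ) * s29_ordH τ b := by
        rw [h1]
        have h5 : ((m - 1 : ℕ) : ℤ) = (m : ℤ) - 1 := by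
          rw [Nat.cast_sub hm]
          simp
        rw [h5]
        ring
      rw [h4]
      exact dvd_add h2 (dvd_mul_right _ _)
    exact Int.natCast_dvd_natCast.mp h3
  obtain ⟨H, hH, hHpow⟩ := s29_root_exists m hm _ hdiff hord
  -- `H` as a holomorphic function on `ℍ`
  have hHmd : MDifferentiable 𝓘(ℂ) 𝓘(ℂ) (fun τ : ℍ => H (τ : ℂ)) := by
    rw [UpperHalfPlane.mdifferentiable_iff]
    refine hH.congr fun z hz => ?_
    show H ((ofComplex z : ℍ) : ℂ) = H z
    rw [ofComplex_apply_of_im_pos hz]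
  set H' : s29_hol := ⟨fun τ : ℍ => H (τ : ℂ), hHmd⟩ with hH'
  have hpow : H' ^ m = F0 := by
    apply s29_hol_ext
    intro τ
    have h1 := hHpow (τ : ℂ) τ.im_pos
    rw [ofComplex_apply] at h1
    show (H (τ : ℂ)) ^ m = _
    exact h1
  refine ⟨algebraMap s29_hol s29_Mer H' / algebraMap s29_hol s29_Mer b, ?_⟩
  have hbM : algebraMap s29_hol s29_Mer b ≠ 0 := fun h0 =>
    hb (s29_algebraMap_injective (by rw [h0, map_zero]))
  rw [div_pow, ← map_pow, hpow, hF0, map_mul, map_pow]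
  rw [div_eq_div_iff (pow_ne_zero _ hbM) hbM, mul_assoc, ← pow_succ]
  congr 2
  omega

/-- **(K1)** If all place orders of `g ∈ F_N` are divisible by `m`, so are all analytic orders
of its realisation on the upper half plane. -/
theorem s29_ord_an_dvd (N : ℕ) [NeZero N] (m : ℤ) (g : modularFunctionFieldBar N) (hg : g ≠ 0)
    (h : ∀ P : Place Kbar (modularFunctionFieldBar N), m ∣ P.ord g) (τ : ℍ) :
    m ∣ s29_ord τ (s29_an N g) := by
  set v : modularFunctionFieldBar N → ℤ := fun f => s29_ord τ (s29_an N f) with hv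
  have hne : ∀ x : modularFunctionFieldBar N, x ≠ 0 → s29_an N x ≠ 0 := fun x hx h0 =>
    hx (s29_an_injective N (by rw [h0, map_zero]))
  have hmul : ∀ x y : modularFunctionFieldBar N, x ≠ 0 → y ≠ 0 → v (x * y) = v x + v y := by
    intro x y hx hy
    show s29_ord τ (s29_an N (x * y)) = _
    rw [map_mul, s29_ord_mul τ (hne x hx) (hne y hy)]
  have hadd : ∀ x y : modularFunctionFieldBar N, x ≠ 0 → y ≠ 0 → x + y ≠ 0 →
      min (v x) (v y) ≤ v (x + y) := by
    intro x y hx hy hxy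
    show _ ≤ s29_ord τ (s29_an N (x + y))
    rw [map_add]
    exact s29_ord_add τ (hne x hx) (hne y hy) (by rw [← map_add]; exact hne _ hxy)
  have hK : ∀ c : Kbar, c ≠ 0 → v (algebraMap Kbar (modularFunctionFieldBar N) c) = 0 := by
    intro c hc
    show s29_ord τ (s29_an N _) = 0
    rw [s29_an_const]
    exact s29_ord_const τ _ (fun h0 => hc (iotaK_injective (by rw [h0, map_zero])))
  by_cases hnt : ∃ x : modularFunctionFieldBar N, x ≠ 0 ∧ v x ≠ 0
  · obtain ⟨w, e, -, hw, -⟩ := anp_exists_place (K := Kbar) (R := modularFunctionFieldBar N)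
      (L := modularFunctionFieldBar N) v hmul hadd hK hnt
    have h1 := hw g hg
    show m ∣ v g
    rw [h1]
    exact Dvd.dvd.mul_left (h w) e
  · simp only [not_exists, not_and, not_not] at hnt
    show m ∣ v g
    rw [hnt g hg]
    exact dvd_zero m

end Fermat.Agent.S29
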