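import Fermat.Agent.S29.CMod
import Fermat.Agent.S29.MerOrd
import Fermat.Agent.S24.AnPlaceGen
import Fermat.Agent.S24.Count
import Fermat.Agent.S24.CountGalois
import Fermat.Agent.S24.JSurj

/-!
# S29 (project BRIDGE, block D): the places of the `ℂ`-model over a finite `j`-value are analytic

`s29_cpl_analytic` : every place `w` of `s29_cm_L N = ℂ(J(d γ τ))` at which `J - c` has positive
order (`c ∈ ℂ`) is the analytic place of a point `τ` of the upper half plane with `J τ = c`: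
the order of vanishing at `τ` is `e • w.ord` on the ring `s29_cm_ring N`.

Proof: Galois transitivity (S24 `cnt_transitive`) for the finite group `(s29_cm_rho N).range`
with fixed field `ℂ(J)`.
-/

set_option autoImplicit false
set_option linter.style.haveILetI false
set_option linter.unusedVariables false
set_option linter.unusedSectionVars false

open UpperHalfPlane ModularCurve Polynomial AlgebraicCurve
open scoped MatrixGroups IntermediateField Manifold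

noncomputable section

namespace Fermat.Agent.S29

open Fermat.Agent.S24
open Fermat.Agent.S28 (Jfun scaleH HasQExp)
open CongruenceSubgroup ModularGroup

/-- `s29_cm_ring N ⊆ 𝒪(ℍ)`. -/
def s29_cpl_toHol (N : ℕ) [NeZero N] : s29_cm_ring N →+* s29_hol where
  toFun g := ⟨(g : ℍ → ℂ), s29_cm_mdiff g.2⟩
  map_one' := rfl
  map_mul' _ _ := rfl
  map_zero' := rfl
  map_add' _ _ := rfl

theorem s29_cpl_toHol_apply (N : ℕ) [NeZero N] (g : s29_cm_ring N) (τ : ℍ) :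
    (s29_cpl_toHol N g : ℍ → ℂ) τ = (g : ℍ → ℂ) τ := rfl

theorem s29_cpl_toHol_injective (N : ℕ) [NeZero N] : Function.Injective (s29_cpl_toHol N) := by
  intro a b h
  apply Subtype.ext
  exact congrArg (fun f : s29_hol => (f : ℍ → ℂ)) h

theorem s29_cpl_toHol_ne_zero (N : ℕ) [NeZero N] {g : s29_cm_ring N} (hg : g ≠ 0) :
    s29_cpl_toHol N g ≠ 0 := fun h => hg (s29_cpl_toHol_injective N (by rw [h, map_zero]))

theorem s29_cpl_toHol_const (N : ℕ) [NeZero N] (c : ℂ) :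
    s29_cpl_toHol N (algebraMap ℂ (s29_cm_ring N) c) = algebraMap ℂ s29_hol c := rfl

/-- The order of vanishing at `τ` of an element of `s29_cm_ring N`. -/
def s29_cpl_v (N : ℕ) [NeZero N] (τ : ℍ) (x : s29_cm_ring N) : ℤ :=
  s29_ordH τ (s29_cpl_toHol N x)

theorem s29_cpl_v_mul (N : ℕ) [NeZero N] (τ : ℍ) (x y : s29_cm_ring N) (hx : x ≠ 0)
    (hy : y ≠ 0) : s29_cpl_v N τ (x * y) = s29_cpl_v N τ x + s29_cpl_v N τ y := by
  unfold s29_cpl_v
  rw [map_mul]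
  exact s29_ordH_mul τ _ _ (s29_cpl_toHol_ne_zero N hx) (s29_cpl_toHol_ne_zero N hy)

theorem s29_cpl_v_add (N : ℕ) [NeZero N] (τ : ℍ) (x y : s29_cm_ring N) (hx : x ≠ 0)
    (hy : y ≠ 0) (hxy : x + y ≠ 0) :
    min (s29_cpl_v N τ x) (s29_cpl_v N τ y) ≤ s29_cpl_v N τ (x + y) := by
  unfold s29_cpl_v
  rw [map_add]
  exact s29_ordH_add τ _ _ (s29_cpl_toHol_ne_zero N hx) (s29_cpl_toHol_ne_zero N hy)
    (by rw [← map_add]; exact s29_cpl_toHol_ne_zero N hxy)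

theorem s29_cpl_v_const (N : ℕ) [NeZero N] (τ : ℍ) (c : ℂ) (hc : c ≠ 0) :
    s29_cpl_v N τ (algebraMap ℂ (s29_cm_ring N) c) = 0 := by
  unfold s29_cpl_v
  rw [s29_cpl_toHol_const]
  exact s29_ordH_const τ c hc

/-- The order at `τ` of a translate is the order at the translated point. -/
theorem s29_cpl_v_smul (N : ℕ) [NeZero N] (τ : ℍ) (γ : SL(2, ℤ)) (x : s29_cm_ring N) :
    s29_cpl_v N τ (γ⁻¹ • x) = s29_cpl_v N (γ • τ) x := by
  unfold s29_cpl_v s29_ordH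
  congr 2
  let G : ℂ → ℂ := fun z => ((Matrix.SpecialLinearGroup.mapGL ℝ γ • ofComplex z : ℍ) : ℂ)
  let F : ℂ → ℂ := fun z => (x : ℍ → ℂ) (ofComplex z)
  have hdet : 0 < (Matrix.SpecialLinearGroup.mapGL ℝ γ : GL (Fin 2) ℝ).val.det := by
    rw [← Matrix.GeneralLinearGroup.val_det_apply, Matrix.SpecialLinearGroup.det_mapGL]
    simp
  have h : (fun z : ℂ => ((s29_cpl_toHol N (γ⁻¹ • x) : s29_hol) : ℍ → ℂ) (ofComplex z)) = F ∘ G := by
    funext z
    rw [s29_cpl_toHol_apply, s29_cm_smul_apply]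
    simp only [inv_inv, Function.comp_apply, F, G, ofComplex_apply]
    rfl
  rw [h, analyticOrderAt_comp_of_deriv_ne_zero (τ.analyticAt_smul hdet)
    (τ.deriv_smul_ne_zero hdet)]
  have hG : ((Matrix.SpecialLinearGroup.mapGL ℝ γ • ofComplex (τ : ℂ) : ℍ) : ℂ)
      = ((γ • τ : ℍ) : ℂ) := by
    rw [ofComplex_apply]
    rfl
  rw [hG]
  rfl

/-- The order at `τ` is positive exactly at the zeros. -/
theorem s29_cpl_v_pos_iff (N : ℕ) [NeZero N] (τ : ℍ) (x : s29_cm_ring N) (hx : x ≠ 0) :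
    0 < s29_cpl_v N τ x ↔ (x : ℍ → ℂ) τ = 0 := by
  unfold s29_cpl_v s29_ordH
  have han := s29_hol_analyticAt (s29_cpl_toHol N x) τ
  have hne := s29_hol_order_ne_top (s29_cpl_toHol_ne_zero N hx) τ
  have h0 := han.analyticOrderAt_eq_zero
  have hval : ((s29_cpl_toHol N x : s29_hol) : ℍ → ℂ) (ofComplex (τ : ℂ))
      = (x : ℍ → ℂ) τ := by
    rw [ofComplex_apply]
    rfl
  rw [hval] at h0
  obtain ⟨k, hk⟩ := ENat.ne_top_iff_exists.mp hne
  rw [← hk] at h0 ⊢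
  simp only [ENat.toNat_natCast, Nat.cast_pos]
  constructor
  · intro hpos
    by_contra hne0
    have := h0.mpr hne0
    have hk0 : k = 0 := by exact_mod_cast this
    omega
  · intro hz
    by_contra hk0
    have hk0' : k = 0 := by omega
    have : ((k : ℕ∞)) = 0 := by rw [hk0']; rfl
    exact (h0.mp this) hz

/-! ### The finite group and its fixed field -/

/-- The finite group of automorphisms of `s29_cm_L N` induced by `SL₂(ℤ)`. -/
abbrev s29_cpl_G (N : ℕ) [NeZero N] : Subgroup (s29_cm_L N ≃ₐ[ℂ] s29_cm_L N) :=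
  (s29_cm_rho N).range

instance s29_cpl_finite_G (N : ℕ) [NeZero N] : Finite (s29_cpl_G N) := s29_cm_finite_range_rho N

instance (priority := 10000) s29_cpl_G_action (N : ℕ) [NeZero N] :
    MulSemiringAction (s29_cpl_G N) (s29_cm_L N) :=
  Subgroup.mulSemiringAction (s29_cpl_G N)

instance (priority := 10000) s29_cpl_G_smul_inst (N : ℕ) [NeZero N] :
    SMul (s29_cpl_G N) (s29_cm_L N) :=
  (s29_cpl_G_action N).toSMul

instance (priority := 10000) s29_cpl_G_mulAction (N : ℕ) [NeZero N] :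
    MulAction (s29_cpl_G N) (s29_cm_L N) :=
  (s29_cpl_G_action N).toMulAction

theorem s29_cpl_G_smul (N : ℕ) [NeZero N] (g : s29_cpl_G N) (f : s29_cm_L N) :
    g • f = (g : s29_cm_L N ≃ₐ[ℂ] s29_cm_L N) f := rfl

theorem s29_cpl_smul_Jelt_one (N : ℕ) [NeZero N] (γ : SL(2, ℤ)) :
    γ • s29_cm_Jelt N 1 (one_dvd N) = s29_cm_Jelt N 1 (one_dvd N) := by
  apply Subtype.ext
  funext τ
  show Jfun (scaleH 1 ((1 : SL(2, ℤ)) • γ⁻¹ • τ)) = Jfun (scaleH 1 ((1 : SL(2, ℤ)) • τ))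
  rw [one_smul, one_smul]
  exact Fermat.Agent.S28.Jfun_scaleH_smul 1 1 (one_dvd 1) γ⁻¹
    (by rw [Gamma0_mem]; exact Subsingleton.elim _ _) τ

theorem s29_cpl_smul_jL (N : ℕ) [NeZero N] (γ : SL(2, ℤ)) : γ • s29_cm_jL N = s29_cm_jL N := by
  unfold s29_cm_jL
  rw [s29_cm_smul_algebraMap, s29_cpl_smul_Jelt_one]

/-- the shifted coordinate `J - c`. -/
def s29_cpl_t (N : ℕ) [NeZero N] (c : ℂ) : s29_cm_L N :=
  s29_cm_jL N - algebraMap ℂ (s29_cm_L N) c

theorem s29_cpl_adjoin_t (N : ℕ) [NeZero N] (c : ℂ) : ℂ⟮s29_cpl_t N c⟯ = ℂ⟮s29_cm_jL N⟯ := by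
  apply le_antisymm
  · rw [IntermediateField.adjoin_simple_le_iff]
    exact sub_mem (IntermediateField.mem_adjoin_simple_self ℂ _)
      (IntermediateField.algebraMap_mem _ c)
  · rw [IntermediateField.adjoin_simple_le_iff]
    have h : s29_cm_jL N = s29_cpl_t N c + algebraMap ℂ (s29_cm_L N) c := by
      unfold s29_cpl_t
      ring
    rw [h]
    exact add_mem (IntermediateField.mem_adjoin_simple_self ℂ _)
      (IntermediateField.algebraMap_mem _ c)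

theorem s29_cpl_G_smul_t (N : ℕ) [NeZero N] (c : ℂ) (g : s29_cpl_G N) :
    g • s29_cpl_t N c = s29_cpl_t N c := by
  obtain ⟨γ, hγ⟩ := g.2
  rw [s29_cpl_G_smul, ← hγ, s29_cm_rho_apply]
  unfold s29_cpl_t
  rw [smul_sub, s29_cpl_smul_jL, smul_algebraMap]

theorem s29_cpl_G_fixed (N : ℕ) [NeZero N] (c : ℂ) (f : s29_cm_L N)
    (hf : ∀ g : s29_cpl_G N, g • f = f) : f ∈ ℂ⟮s29_cpl_t N c⟯ := by
  rw [s29_cpl_adjoin_t]
  exact s29_cm_fixed N f (fun γ => hf ⟨s29_cm_rho N γ, γ, rfl⟩)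

/-- `J` takes every complex value, hence is transcendental over `ℂ`. -/
theorem s29_cpl_transcendental_Jelt (N : ℕ) [NeZero N] :
    Transcendental ℂ (s29_cm_Jelt N 1 (one_dvd N)) := by
  intro halg
  obtain ⟨P, hP0, hP⟩ := halg
  have hroot : ∀ z : ℂ, P.IsRoot z := by
    intro z
    obtain ⟨τ, hτ⟩ := Jfun_surjective z
    have h1 : ((Polynomial.aeval (s29_cm_Jelt N 1 (one_dvd N)) P : s29_cm_ring N) : ℍ → ℂ) τ
        = 0 := by
      rw [hP]
      rfl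
    have h2 : ((Polynomial.aeval (s29_cm_Jelt N 1 (one_dvd N)) P : s29_cm_ring N) : ℍ → ℂ) τ
        = P.eval (Jfun τ) := by
      let ev : s29_cm_ring N →ₐ[ℂ] ℂ :=
        (Pi.evalAlgHom ℂ (fun _ : ℍ => ℂ) τ).comp (s29_cm_ring N).val
      have h4 := Polynomial.aeval_algHom_apply ev (s29_cm_Jelt N 1 (one_dvd N)) P
      have h5 : ev (s29_cm_Jelt N 1 (one_dvd N)) = Jfun τ := by
        show Jfun (scaleH 1 ((1 : SL(2, ℤ)) • τ)) = Jfun τ
        rw [one_smul]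
        congr 1
        ext
        simp [scaleH]
      rw [h5, Polynomial.coe_aeval_eq_eval] at h4
      exact h4.symm
    rw [h2, hτ] at h1
    exact h1
  refine hP0 (Polynomial.eq_zero_of_infinite_isRoot P ?_)
  have huniv : {x | P.IsRoot x} = Set.univ := Set.eq_univ_of_forall hroot
  rw [huniv]
  exact Set.infinite_univ

theorem s29_cpl_transcendental_t (N : ℕ) [NeZero N] (c : ℂ) :
    Transcendental ℂ (s29_cpl_t N c) := by
  intro halg
  have h1 : IsAlgebraic ℂ (s29_cm_jL N) := by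
    have h : s29_cm_jL N = s29_cpl_t N c + algebraMap ℂ (s29_cm_L N) c := by
      unfold s29_cpl_t
      ring
    rw [h]
    exact halg.add (isAlgebraic_algebraMap c)
  have h2 : IsAlgebraic ℂ (s29_cm_Jelt N 1 (one_dvd N)) :=
    (isAlgebraic_algebraMap_iff (IsFractionRing.injective (s29_cm_ring N) (s29_cm_L N))).mp h1
  exact s29_cpl_transcendental_Jelt N h2

theorem s29_cpl_finiteDimensional (N : ℕ) [NeZero N] (c : ℂ) :
    FiniteDimensional ℂ⟮s29_cpl_t N c⟯ (s29_cm_L N) := by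
  have hG : ∀ x : s29_cm_L N, (∀ g : s29_cpl_G N, g • x = x) →
      x ∈ Set.range (algebraMap ℂ⟮s29_cpl_t N c⟯ (s29_cm_L N)) :=
    fun x hx => ⟨⟨x, s29_cpl_G_fixed N c x hx⟩, rfl⟩
  have hTop : ∀ g : s29_cpl_G N, g ∈ (⊤ : Subgroup (s29_cpl_G N)) ↔
      ∀ f : ℂ⟮s29_cpl_t N c⟯, g • algebraMap ℂ⟮s29_cpl_t N c⟯ (s29_cm_L N) f
        = algebraMap ℂ⟮s29_cpl_t N c⟯ (s29_cm_L N) f := by
    intro g
    exact ⟨fun _ f => cnt_smul_eq_of_mem_adjoin (K := ℂ) (s29_cpl_t N c)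
      (s29_cpl_G_smul_t N c) g f.2, fun _ => Subgroup.mem_top g⟩
  exact (cnt_finrank hG (⊤ : Subgroup (s29_cpl_G N)) hTop).1

/-- the element `J - c` of the ring. -/
def s29_cpl_x (N : ℕ) [NeZero N] (c : ℂ) : s29_cm_ring N :=
  s29_cm_Jelt N 1 (one_dvd N) - algebraMap ℂ (s29_cm_ring N) c

theorem s29_cpl_algebraMap_x (N : ℕ) [NeZero N] (c : ℂ) :
    algebraMap (s29_cm_ring N) (s29_cm_L N) (s29_cpl_x N c) = s29_cpl_t N c := by
  unfold s29_cpl_x s29_cpl_t s29_cm_jL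
  rw [map_sub, ← IsScalarTower.algebraMap_apply ℂ (s29_cm_ring N) (s29_cm_L N)]

theorem s29_cpl_x_ne_zero (N : ℕ) [NeZero N] (c : ℂ) : s29_cpl_x N c ≠ 0 := by
  intro h0
  have h1 := s29_cpl_algebraMap_x N c
  rw [h0, map_zero] at h1
  have h2 := s29_cpl_transcendental_t N c
  rw [← h1] at h2
  exact h2 isAlgebraic_zero

theorem s29_cpl_x_apply (N : ℕ) [NeZero N] (c : ℂ) (τ : ℍ) :
    (s29_cpl_x N c : ℍ → ℂ) τ = Jfun τ - c := by
  show Jfun (scaleH 1 ((1 : SL(2, ℤ)) • τ)) - c = Jfun τ - c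
  rw [one_smul]
  congr 2
  ext
  simp [scaleH]

/-- **The analytic place at a point** of the upper half plane. -/
theorem s29_cpl_point (N : ℕ) [NeZero N] (τ : ℍ) :
    ∃ (w : Place ℂ (s29_cm_L N)) (e : ℤ), 0 < e ∧ 0 < w.ord (s29_cpl_t N (Jfun τ)) ∧
      ∀ x : s29_cm_ring N, x ≠ 0 →
        s29_cpl_v N τ x = e * w.ord (algebraMap (s29_cm_ring N) (s29_cm_L N) x) := by
  have hx0 := s29_cpl_x_ne_zero N (Jfun τ)
  have hpos : 0 < s29_cpl_v N τ (s29_cpl_x N (Jfun τ)) := by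
    rw [s29_cpl_v_pos_iff N τ _ hx0, s29_cpl_x_apply, sub_self]
  obtain ⟨w, e, he, hw, -⟩ := anp_exists_place (K := ℂ) (R := s29_cm_ring N) (L := s29_cm_L N)
    (s29_cpl_v N τ) (s29_cpl_v_mul N τ) (s29_cpl_v_add N τ) (s29_cpl_v_const N τ)
    ⟨s29_cpl_x N (Jfun τ), hx0, hpos.ne'⟩
  refine ⟨w, e, he, ?_, hw⟩
  have h1 := hw _ hx0
  rw [s29_cpl_algebraMap_x] at h1
  rw [h1] at hpos
  exact (mul_pos_iff_of_pos_left he).mp hpos

/-- **(AP-L)** Every place of `ℂ(J(d γ τ))` over a finite value `c` of `J` is the analytic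
place of a point `τ` with `J τ = c`. -/
theorem s29_cpl_analytic (N : ℕ) [NeZero N] (w : Place ℂ (s29_cm_L N)) (c : ℂ)
    (hw : 0 < w.ord (s29_cpl_t N c)) :
    ∃ (τ : ℍ) (e : ℤ), 0 < e ∧ Jfun τ = c ∧
      ∀ x : s29_cm_ring N, x ≠ 0 →
        s29_cpl_v N τ x = e * w.ord (algebraMap (s29_cm_ring N) (s29_cm_L N) x) := by
  obtain ⟨τ₀, hτ₀⟩ := Jfun_surjective c
  obtain ⟨w₀, e, he, hw₀pos, hw₀⟩ := s29_cpl_point N τ₀
  rw [hτ₀] at hw₀pos
  haveI := s29_cpl_finiteDimensional N c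
  obtain ⟨g, hg⟩ := cnt_transitive (K := ℂ) (L := s29_cm_L N) (G := s29_cpl_G N)
    (s29_cpl_t N c) (s29_cpl_transcendental_t N c) (s29_cpl_G_fixed N c)
    (s29_cpl_G_smul_t N c) w₀ w hw₀pos hw
  obtain ⟨γ, hγ⟩ := g.2
  refine ⟨γ • τ₀, e, he, by rw [Fermat.Agent.S28.Jfun_smul, hτ₀], fun x hx => ?_⟩
  have h1 : w.ord (algebraMap (s29_cm_ring N) (s29_cm_L N) x)
      = w₀.ord (algebraMap (s29_cm_ring N) (s29_cm_L N) (γ⁻¹ • x)) := by
    rw [← hg, cnt_ord_smul g w₀]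
    congr 1
    have h2 : g⁻¹ • algebraMap (s29_cm_ring N) (s29_cm_L N) x
        = (s29_cm_rho N γ⁻¹) (algebraMap (s29_cm_ring N) (s29_cm_L N) x) := by
      rw [s29_cpl_G_smul]
      have h3 : ((g⁻¹ : s29_cpl_G N) : s29_cm_L N ≃ₐ[ℂ] s29_cm_L N) = s29_cm_rho N γ⁻¹ := by
        rw [map_inv, hγ]
        rfl
      rw [h3]
    rw [h2, s29_cm_rho_apply, s29_cm_smul_algebraMap]
  have hne : γ⁻¹ • x ≠ 0 := (smul_ne_zero_iff_ne _).mpr hx
  rw [h1, ← hw₀ _ hne, s29_cpl_v_smul]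

end Fermat.Agent.S29
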