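import Fermat.Agent.S29.CModEmb
import Fermat.Agent.S29.ApEmb
import Fermat.Agent.S29.CPlaceL

/-!
# S29 (project BRIDGE), block (C1): `s29_anC` in terms of the `s29_cm_*` / `s29_ap_*` twin

`s29_anC N : F_ℂ →+* s29_Mer` (CModEmb.lean) was built on the ring `s29_cRing N`; the rest of
the project uses helper24's `s29_cm_ring N` (the same set of functions), its fraction field
`s29_cm_L N` and helper11's embedding `s29_ap_embFC N : F_ℂ →ₐ[ℂ] s29_cm_L N`.  This file gives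

* `s29_cmOfL N : s29_cm_L N →+* s29_Mer` with (h5) `s29_cmOfL_algebraMap` (the hypothesis `hφ`
  of the adapters in `CKeyAdapt.lean`), injective, `SL₂(ℤ)`-equivariant;
* the identification `s29_anC_eq_cm : s29_anC N f = s29_cmOfL N (s29_ap_embFC N f)`;
* (h2) `s29_anC_jd`, `s29_anC_jd'` : `j(q^d) ↦ J(d·)`.
-/

set_option autoImplicit false

open UpperHalfPlane ModularCurve Polynomial
open scoped MatrixGroups IntermediateField Manifold

noncomputable section

namespace Fermat.Agent.S29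

open Fermat.Agent.S24
open Fermat.Agent.S28 (Jfun scaleH HasQExp)
open CongruenceSubgroup

/-- The identification of the two `ℂ`-twins of `modRing N` (same set of functions). -/
def s29_cb_toC (N : ℕ) : s29_cm_ring N →+* s29_cRing N :=
  s29_c_inclGen (s29_cm_ring N) (s29_cRing N) (fun _ h => h)

theorem s29_cb_toC_coe (N : ℕ) (x : s29_cm_ring N) :
    (s29_cb_toC N x : ℍ → ℂ) = (x : ℍ → ℂ) := s29_c_inclGen_coe _ _ _ x

theorem s29_cb_toC_injective (N : ℕ) : Function.Injective (s29_cb_toC N) :=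
  s29_c_inclGen_injective _ _ _

theorem s29_cb_exp (N : ℕ) [NeZero N] (x : s29_cm_ring N) :
    s29_cExp N (s29_cb_toC N x) = s29_cm_exp N x := by
  apply s29_cExp_eq N
  rw [s29_cb_toC_coe]
  exact s29_cm_exp_spec N x

theorem s29_cb_ofRing (N : ℕ) [NeZero N] (x : s29_cm_ring N) :
    s29_cOfRing N (s29_cb_toC N x) = s29_cpl_toHol N x := by
  apply s29_hol_ext
  intro τ
  rw [s29_cOfRing_apply, s29_cb_toC_coe, s29_cpl_toHol_apply]

/-- `s29_cm_L N = Frac (s29_cm_ring N)` inside the field of meromorphic functions. -/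
def s29_cmOfL (N : ℕ) [NeZero N] : s29_cm_L N →+* s29_Mer :=
  IsFractionRing.lift (g := (algebraMap s29_hol s29_Mer).comp (s29_cpl_toHol N))
    (s29_algebraMap_injective.comp (s29_cpl_toHol_injective N))

/-- (h5) = the hypothesis `hφ` of the adapters of `CKeyAdapt.lean`. -/
theorem s29_cmOfL_algebraMap (N : ℕ) [NeZero N] (x : s29_cm_ring N) :
    s29_cmOfL N (algebraMap (s29_cm_ring N) (s29_cm_L N) x) =
      algebraMap s29_hol s29_Mer (s29_cpl_toHol N x) :=
  IsFractionRing.lift_algebraMap _ x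

theorem s29_cmOfL_injective (N : ℕ) [NeZero N] : Function.Injective (s29_cmOfL N) :=
  (s29_cmOfL N).injective

/-- **Identification**: `s29_anC N = s29_cmOfL N ∘ s29_ap_embFC N`. -/
theorem s29_anC_eq_cm (N : ℕ) [NeZero N] (f : s29_ap_FC N) :
    s29_anC N f = s29_cmOfL N (s29_ap_embFC N f) := by
  obtain ⟨a, b, hb, hab, hexp⟩ := s29_ap_exists_frac N f
  have hb1 : s29_cm_exp N b ≠ 0 := fun h0 =>
    hb (s29_cm_exp_injective N (by rw [h0, map_zero]))
  have h1 : s29_anC N f = s29_cOfL N (algebraMap (s29_cRing N) (s29_cL N) (s29_cb_toC N a) /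
      algebraMap (s29_cRing N) (s29_cL N) (s29_cb_toC N b)) := by
    rw [s29_anC_eq_iff, map_div₀, s29_cExpL_algebraMap, s29_cExpL_algebraMap, s29_cb_exp,
      s29_cb_exp, hexp]
    exact mul_div_cancel_right₀ _ hb1
  rw [h1, hab, map_div₀, map_div₀, s29_cOfL_algebraMap, s29_cOfL_algebraMap,
    s29_cmOfL_algebraMap, s29_cmOfL_algebraMap, s29_cb_ofRing, s29_cb_ofRing]

theorem s29_anC_eq_comp (N : ℕ) [NeZero N] :
    s29_anC N = (s29_cmOfL N).comp (s29_ap_embFC N : s29_ap_FC N →+* s29_cm_L N) :=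
  RingHom.ext (s29_anC_eq_cm N)

/-- (h2), weakest form: the analytic realisation of `j(q^d)`, `d ∣ N`, is `τ ↦ J(dτ)`. -/
theorem s29_anC_jd' (N : ℕ) [NeZero N] (d : ℕ) [NeZero d] (hd : d ∣ N) (x : s29_cF N)
    (hx : (x : LaurentSeries ℂ) = coeffEmb ℂ (qExpand ℚ d jq)) (f : s29_hol)
    (hf : ∀ τ, (f : ℍ → ℂ) τ = Jfun (scaleH d τ)) :
    s29_anC N x = algebraMap s29_hol s29_Mer f := by
  have h1 : s29_anC N x = s29_cOfL N (algebraMap (s29_cRing N) (s29_cL N) (s29_cJ N d hd)) := by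
    rw [s29_anC_eq_iff, s29_cExpL_algebraMap, s29_cExp_cJ, hx]
  rw [h1, s29_cOfL_algebraMap]
  congr 1
  apply s29_hol_ext
  intro τ
  rw [s29_cOfRing_apply, s29_cJ, s29_cIncl_coe, hf τ]
  show Jfun (scaleH d ((1 : SL(2, ℤ)) • τ)) = Jfun (scaleH d τ)
  rw [one_smul]

/-- `τ ↦ J(dτ)` is holomorphic (`d ∣ N`) -/
theorem s29_cb_Jd_mdiff (N : ℕ) [NeZero N] (d : ℕ) [NeZero d] (hd : d ∣ N) :
    MDifferentiable 𝓘(ℂ) 𝓘(ℂ) (fun τ : ℍ => Jfun (scaleH d τ)) := by
  have h := s29_cRing_mdifferentiable (s29_cJ N d hd).2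
  have e : ((s29_cJ N d hd : s29_cRing N) : ℍ → ℂ) = fun τ : ℍ => Jfun (scaleH d τ) := by
    rw [s29_cJ, s29_cIncl_coe]
    funext τ
    show Jfun (scaleH d ((1 : SL(2, ℤ)) • τ)) = Jfun (scaleH d τ)
    rw [one_smul]
  rwa [e] at h

/-- (h2): the analytic realisation of `j(q^d)`, `d ∣ N`, is `τ ↦ J(dτ)`. -/
theorem s29_anC_jd (N : ℕ) [NeZero N] (d : ℕ) [NeZero d] (hd : d ∣ N) :
    s29_anC N ⟨coeffEmb ℂ (qExpand ℚ d jq),
        coeffEmb_mem_laurentBaseChange ℂ (jqd_mem_full N hd)⟩ =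
      algebraMap s29_hol s29_Mer
        (s29_mkHol (fun τ : ℍ => Jfun (scaleH d τ)) (s29_cb_Jd_mdiff N d hd)) :=
  s29_anC_jd' N d hd _ rfl _ (fun _ => rfl)

/-- equivariance of `s29_cmOfL` -/
theorem s29_cmOfL_smul (N : ℕ) [NeZero N] (γ : SL(2, ℤ)) (x : s29_cm_L N) :
    s29_cmOfL N (γ • x) = γ • s29_cmOfL N x := by
  obtain ⟨a, b, hb, rfl⟩ := IsFractionRing.div_surjective (A := s29_cm_ring N) x
  have key : ∀ g : s29_cm_ring N, s29_cpl_toHol N (γ • g) = s29_sl γ • s29_cpl_toHol N g := by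
    intro g
    apply s29_hol_ext
    intro τ
    rw [s29_hol_smul_apply, s29_sl_inv_smul, s29_cpl_toHol_apply, s29_cpl_toHol_apply,
      s29_cm_smul_apply]
  rw [smul_div₀', s29_cm_smul_algebraMap, s29_cm_smul_algebraMap, map_div₀, map_div₀,
    s29_cmOfL_algebraMap, s29_cmOfL_algebraMap, s29_cmOfL_algebraMap, s29_cmOfL_algebraMap,
    key, key, smul_div₀', s29_sl_smul_def, s29_sl_smul_def,
    s29_smul_algebraMap, s29_smul_algebraMap]

end Fermat.Agent.S29
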