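import Fermat.Agent.S29.ZMer

/-!
# S29 (project BRIDGE), block (ZC): `Γ₀(N)`-invariant roots over `ℂ`

Let `F_C = ℂ · F_N = laurentBaseChange ℂ (modularFunctionFieldFull N) ⊆ ℂ((q))` and let
`anC : F_C →+* s29_Mer` be a ring homomorphism (the analytic realisation) with

* (h1) `anC c = c` for constants `c : ℂ`,
* (h2) `anC (j(q^d)) = J(d τ)` for `d ∣ N`.

Then the image of `anC` is the field `ℂ(J, J_N)` (`s29_zcr_sub`, `s29_zcr_sup`), and a
`Γ₀(N)`-invariant meromorphic function one of whose powers lies in the image of `anC` lies in the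
image of `anC` (`s29_zcr_root`).
-/

set_option autoImplicit false

open UpperHalfPlane ModularCurve Polynomial
open scoped MatrixGroups Manifold

noncomputable section

namespace Fermat.Agent.S29

open Fermat.Agent.S24
open Fermat.Agent.S28 (Jfun scaleH)
open CongruenceSubgroup

attribute [local instance] algKC

/-- the field `ℂ(J, J_N)` of meromorphic functions on the upper half plane. -/
def s29_zcr_K (N : ℕ) [NeZero N] : Subfield s29_Mer :=
  Subfield.closure (Set.range (s29_z_evMer N))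

theorem s29_zcr_evMer_mem_K (N : ℕ) [NeZero N] (P : Polynomial (Polynomial ℂ)) :
    s29_z_evMer N P ∈ s29_zcr_K N :=
  Subfield.subset_closure ⟨P, rfl⟩

theorem s29_zcr_mem_K_iff (N : ℕ) [NeZero N] (x : s29_Mer) :
    x ∈ s29_zcr_K N ↔ ∃ D H : Polynomial (Polynomial ℂ), s29_z_evMer N D ≠ 0 ∧
      x * s29_z_evMer N D = s29_z_evMer N H := by
  constructor
  · intro hx
    rw [s29_zcr_K, Subfield.mem_closure_iff] at hx
    obtain ⟨y, hy, z, hz, rfl⟩ := hx
    have hcl : Subring.closure (Set.range (s29_z_evMer N)) = (s29_z_evMer N).range := by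
      rw [← RingHom.coe_range, Subring.closure_eq]
    rw [hcl] at hy hz
    obtain ⟨H, rfl⟩ := hy
    obtain ⟨D, rfl⟩ := hz
    by_cases hD : s29_z_evMer N D = 0
    · refine ⟨1, 0, ?_, ?_⟩
      · rw [map_one]
        exact one_ne_zero
      · rw [hD, div_zero, zero_mul, map_zero]
    · exact ⟨D, H, hD, div_mul_cancel₀ _ hD⟩
  · rintro ⟨D, H, hD, h⟩
    have hx : x = s29_z_evMer N H / s29_z_evMer N D := by
      rw [eq_div_iff hD, h]
    rw [hx]
    exact (s29_zcr_K N).div_mem (s29_zcr_evMer_mem_K N H) (s29_zcr_evMer_mem_K N D)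

/-- `s29_an N (j(q^d)) = J(dτ)`. -/
theorem s29_zcr_an_jd (N : ℕ) [NeZero N] (d : ℕ) [NeZero d] (hd : d ∣ N) :
    s29_an N ⟨coeffEmb Kbar (qExpand ℚ d jq),
        coeffEmb_mem_laurentBaseChange Kbar (jqd_mem_full N hd)⟩ =
      algebraMap s29_hol s29_Mer (s29_ofModRing N (Jelt N d hd)) := by
  have h : embF N ⟨coeffEmb Kbar (qExpand ℚ d jq),
      coeffEmb_mem_laurentBaseChange Kbar (jqd_mem_full N hd)⟩ =
      algebraMap (modRing N) (ModL N) (Jelt N d hd) := by
    rw [embF_eq_iff, expL_algebraMap, modfield_expHom_Jelt]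
  rw [s29_an_apply, h]
  exact s29_ofModL_algebraMap N _

theorem s29_zcr_Jelt_apply (N : ℕ) [NeZero N] (d : ℕ) [NeZero d] (hd : d ∣ N) (τ : ℍ) :
    (s29_ofModRing N (Jelt N d hd) : ℍ → ℂ) τ = Jfun (scaleH d τ) := by
  show Jfun (scaleH d ((1 : SL(2, ℤ)) • τ)) = Jfun (scaleH d τ)
  rw [one_smul]

/-- `J(dτ) ∈ ℂ(J, J_N)` for `d ∣ N`. -/
theorem s29_zcr_jd_mem_K (N : ℕ) [NeZero N] (d : ℕ) [NeZero d] (hd : d ∣ N) (f : s29_hol)
    (hf : ∀ τ, (f : ℍ → ℂ) τ = Jfun (scaleH d τ)) :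
    algebraMap s29_hol s29_Mer f ∈ s29_zcr_K N := by
  have hf' : f = s29_ofModRing N (Jelt N d hd) := by
    apply s29_hol_ext
    intro τ
    rw [hf τ, s29_zcr_Jelt_apply]
  rw [hf', ← s29_zcr_an_jd N d hd, s29_zcr_mem_K_iff]
  exact s29_z2_an N _

theorem s29_zcr_scale_one (τ : ℍ) : Jfun (scaleH 1 τ) = Jfun τ := by
  congr 1
  apply UpperHalfPlane.ext
  simp [scaleH]

section main

variable (N : ℕ) [NeZero N]
  (anC : ↥(laurentBaseChange ℂ (modularFunctionFieldFull N)) →+* s29_Mer)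
  (h1 : ∀ c : ℂ, anC (algebraMap ℂ _ c) = algebraMap ℂ s29_Mer c)
  (h2 : ∀ (d : ℕ) [NeZero d], d ∣ N →
    ∀ x : ↥(laurentBaseChange ℂ (modularFunctionFieldFull N)),
      (x : LaurentSeries ℂ) = coeffEmb ℂ (qExpand ℚ d jq) →
      ∀ f : s29_hol, (∀ τ, (f : ℍ → ℂ) τ = Jfun (scaleH d τ)) →
        anC x = algebraMap s29_hol s29_Mer f)

include h1 h2

/-- the image of `anC` is contained in `ℂ(J, J_N)`. -/
theorem s29_zcr_range_le (f : ↥(laurentBaseChange ℂ (modularFunctionFieldFull N))) :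
    anC f ∈ s29_zcr_K N := by
  -- the subfield of Laurent series which are in `F_C` and are mapped into `K`
  let S : Subfield ↥(laurentBaseChange ℂ (modularFunctionFieldFull N)) :=
    (s29_zcr_K N).comap anC
  let S' : Subfield (LaurentSeries ℂ) :=
    S.map (laurentBaseChange ℂ (modularFunctionFieldFull N)).toSubfield.subtype
  have hS' : ∀ x : ↥(laurentBaseChange ℂ (modularFunctionFieldFull N)),
      anC x ∈ s29_zcr_K N → (x : LaurentSeries ℂ) ∈ S' := fun x hx => ⟨x, hx, rfl⟩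
  have h1' : ∀ x ∈ modularFunctionFieldFull N, coeffEmb ℂ x ∈ S' := by
    intro x hx
    have hx' : x ∈ Subfield.closure
        (Set.range (algebraMap ℚ (LaurentSeries ℚ)) ∪ divisorExpansions N) := hx
    have hle : Subfield.closure
        (Set.range (algebraMap ℚ (LaurentSeries ℚ)) ∪ divisorExpansions N)
        ≤ S'.comap (coeffEmb ℂ) := by
      rw [Subfield.closure_le]
      rintro y (⟨r, rfl⟩ | ⟨d, hd, hdN, rfl⟩)
      · show coeffEmb ℂ (algebraMap ℚ _ r) ∈ S'
        rw [eq_ratCast, map_ratCast]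
        exact SubfieldClass.ratCast_mem S' r
      · have := hd
        show coeffEmb ℂ (qExpand ℚ d jq) ∈ S'
        apply hS' ⟨coeffEmb ℂ (qExpand ℚ d jq),
          coeffEmb_mem_laurentBaseChange ℂ (jqd_mem_full N hdN)⟩
        rw [h2 d hdN _ rfl (s29_ofModRing N (Jelt N d hdN)) (s29_zcr_Jelt_apply N d hdN)]
        exact s29_zcr_jd_mem_K N d hdN _ (s29_zcr_Jelt_apply N d hdN)
    exact hle hx'
  have h2' : ∀ x ∈ laurentBaseChange ℂ (modularFunctionFieldFull N), x ∈ S' := by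
    intro x hx
    rw [mem_laurentBaseChange_iff] at hx
    have hle : Subfield.closure (Set.range (algebraMap ℂ (LaurentSeries ℂ)) ∪
        (⇑(coeffEmb ℂ) '' (modularFunctionFieldFull N : Set (LaurentSeries ℚ)))) ≤ S' := by
      rw [Subfield.closure_le]
      rintro y (⟨c, rfl⟩ | ⟨x, hx, rfl⟩)
      · apply hS' (algebraMap ℂ _ c)
        rw [h1 c, ← s29_z_evMer_CC N c]
        exact s29_zcr_evMer_mem_K N _
      · exact h1' x hx
    exact hle hx
  obtain ⟨g, hg, hgf⟩ := h2' f f.2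
  have hgf' : g = f := Subtype.ext hgf
  rw [← hgf']
  exact hg

/-- `hsub`: every `anC f` is a quotient of polynomials in `J`, `J_N`. -/
theorem s29_zcr_sub (f : ↥(laurentBaseChange ℂ (modularFunctionFieldFull N))) :
    ∃ D H : Polynomial (Polynomial ℂ), s29_z_evMer N D ≠ 0 ∧
      anC f * s29_z_evMer N D = s29_z_evMer N H :=
  (s29_zcr_mem_K_iff N _).1 (s29_zcr_range_le N anC h1 h2 f)

/-- `hsup`: every polynomial in `J`, `J_N` is in the image of `anC`. -/
theorem s29_zcr_sup (P : Polynomial (Polynomial ℂ)) : s29_z_evMer N P ∈ Set.range anC := by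
  let j1 : ↥(laurentBaseChange ℂ (modularFunctionFieldFull N)) :=
    ⟨coeffEmb ℂ (qExpand ℚ 1 jq), coeffEmb_mem_laurentBaseChange ℂ (jqd_mem_full N (one_dvd N))⟩
  let jN : ↥(laurentBaseChange ℂ (modularFunctionFieldFull N)) :=
    ⟨coeffEmb ℂ (qExpand ℚ N jq), coeffEmb_mem_laurentBaseChange ℂ (jqd_mem_full N dvd_rfl)⟩
  have hj1 : anC j1 = s29_z_evMer N (C X) := by
    rw [h2 1 (one_dvd N) j1 rfl (s29_z_evHol N (C X)) (fun τ => by
      rw [s29_z_evHol_apply, s29_z_ev_CX, s29_zcr_scale_one])]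
    rfl
  have hjN : anC jN = s29_z_evMer N X := by
    rw [h2 N dvd_rfl jN rfl (s29_z_evHol N X) (fun τ => by
      rw [s29_z_evHol_apply, s29_z_ev_X])]
    rfl
  have heq : s29_z_evMer N = anC.comp
      ((aevalAeval j1 jN : Polynomial (Polynomial ℂ) →ₐ[ℂ] _) : Polynomial (Polynomial ℂ) →+* _) := by
    apply Polynomial.ringHom_ext'
    · apply Polynomial.ringHom_ext'
      · apply RingHom.ext
        intro c
        show s29_z_evMer N (C (C c)) = anC (aevalAeval j1 jN (C (C c)))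
        rw [s29_z_evMer_CC, aevalAeval_C, aeval_C, h1]
      · show s29_z_evMer N (C X) = anC (aevalAeval j1 jN (C X))
        rw [aevalAeval_X, hj1]
    · show s29_z_evMer N X = anC (aevalAeval j1 jN X)
      rw [aevalAeval_Y, hjN]
  rw [heq]
  exact ⟨_, rfl⟩

/-- **(ZC)**: a `Γ₀(N)`-invariant meromorphic function one of whose powers is in the image of
`anC` lies in the image of `anC`. -/
theorem s29_zcr_root (M : ℕ) (hM : 0 < M) (y : s29_Mer)
    (hy : ∀ γ : SL(2, ℤ), γ ∈ Gamma0 N → γ • y = y) (hyM : y ^ M ∈ Set.range anC) :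
    y ∈ Set.range anC := by
  obtain ⟨f, hf⟩ := hyM
  obtain ⟨D₁, H₁, hD₁, h⟩ := s29_zcr_sub N anC h1 h2 f
  rw [hf] at h
  obtain ⟨D₂, H₂, hD₂, h'⟩ := s29_z2_mer_root N M hM y hy D₁ H₁ hD₁ h
  obtain ⟨a, ha⟩ := s29_zcr_sup N anC h1 h2 H₂
  obtain ⟨b, hb⟩ := s29_zcr_sup N anC h1 h2 D₂
  refine ⟨a / b, ?_⟩
  rw [map_div₀, ha, hb, eq_comm, eq_div_iff hD₂, h']

end main

end Fermat.Agent.S29
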