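import Fermat.Agent.S29.ExMain
import Fermat.Agent.S29.CKeyAnC
import Fermat.Agent.S29.CModBridge
import Fermat.Agent.S29.ZCRoot

/-!
# S29 (BRIDGE): (EX) — existence, instantiated at the analytic realisation `s29_anC N`

The five hypotheses of `s29_xm_of` (ExMain.lean) for `an := s29_anC N`:

* `hinv`  = `s29_anC_smul` (CModEmb.lean);
* `hZ`    = `s29_zcr_root` (ZCRoot.lean) with `s29_anC_const`, `s29_anC_jd'`;
* `hTr`   = `s29_ck_anC_hTr` (CKeyAnC.lean);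
* `hcomp` = `s29_anC_coeffMap` (CModEmb.lean);
* `hev`   = `s29_zcr_sup` (ZCRoot.lean).

`s29_ck_ex` : every parabolic `ψ : Γ₀(N) → ℤ` is, modulo `m`, the `κ`-invariant of an
`m`-torsion point of `J₀(N)(Q̄)`.
-/

set_option autoImplicit false

open UpperHalfPlane ModularCurve AlgebraicCurve CongruenceSubgroup ModularCurve.Period
open scoped MatrixGroups

noncomputable section

namespace Fermat.Agent.S29

open Fermat.Agent.S24

/-- `hZ` for `s29_anC N`. -/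
theorem s29_ck_anC_hZ (N : ℕ) [NeZero N] (M : ℕ) (hM : 0 < M) (y : s29_Mer)
    (hy : ∀ γ : SL(2, ℤ), γ ∈ Gamma0 N → γ • y = y)
    (hyM : y ^ M ∈ Set.range (s29_anC N)) : y ∈ Set.range (s29_anC N) :=
  s29_zcr_root N (s29_anC N) (s29_anC_const N)
    (fun d _ hd x hx f hf => s29_anC_jd' N d hd x hx f hf) M hM y hy hyM

/-- `hev` for `s29_anC N`. -/
theorem s29_ck_anC_hev (N : ℕ) [NeZero N] (P : Polynomial (Polynomial ℂ)) :
    s29_z_evMer N P ∈ Set.range (s29_anC N) :=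
  s29_zcr_sup N (s29_anC N) (s29_anC_const N)
    (fun d _ hd x hx f hf => s29_anC_jd' N d hd x hx f hf) P

/-- `hcomp` for `s29_anC N`. -/
theorem s29_ck_anC_hcomp (N : ℕ) [NeZero N] (f : modularFunctionFieldBar N) (F : s29_ap_FC N)
    (hF : (F : LaurentSeries ℂ) = coeffMap iotaK (f : LaurentSeries Kbar)) :
    s29_anC N F = s29_an N f := by
  have e : F = ⟨coeffMap iotaK (f : LaurentSeries Kbar), s29_coeffMap_iotaK_mem _ f.2⟩ :=
    Subtype.ext hF
  rw [e]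
  exact s29_anC_coeffMap N f

/-- **(E3) for `s29_anC N`, unconditional.**  `g ∈ F_Cˣ` with `s29_anC N g` an `M`-th power in
`s29_Mer`: then `h ^ M * g` is defined over `Q̄` for some `h ∈ F_Cˣ`. -/
theorem s29_ck_e3_anC (N : ℕ) [NeZero N] (M : ℕ) (hM : 0 < M) (g : s29_ap_FC N) (hg0 : g ≠ 0)
    (hroot : ∃ R : s29_Mer, R ^ M = s29_anC N g) :
    ∃ (g₀ : modularFunctionFieldBar N) (h : s29_ap_FC N), h ≠ 0 ∧
      coeffMap iotaK (g₀ : LaurentSeries Kbar)
        = ((h ^ M * g : s29_ap_FC N) : LaurentSeries ℂ) :=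
  s29_ck_e3 N M hM (s29_anC N) (fun γ hγ f => s29_anC_smul N γ hγ f)
    (fun y hy hyM => s29_ck_anC_hZ N M hM y hy hyM) (s29_ck_anC_hTr N) g hg0 hroot

/-- **(EX).**  Every parabolic homomorphism `ψ : Γ₀(N) → ℤ` is, modulo `m`, the `κ`-invariant of
an `m`-torsion point of `J₀(N)(Q̄)`. -/
theorem s29_ck_ex (N : ℕ) [NeZero N] (m : ℕ) [NeZero m] (ψ : Additive (Gamma0 N) →+ ℤ)
    (hψ : ψ ∈ parabolicHoms ℤ (Gamma0 N) ℤ) :
    ∃ x : Pic0.torsion Kbar (modularFunctionFieldBar N) m,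
      s29_kappa N m x = s29_xg_red N m ψ :=
  s29_xm_of N m ψ hψ (s29_anC N) (fun γ hγ f => s29_anC_smul N γ hγ f)
    (fun y hy hyM => s29_ck_anC_hZ N (6 * N * m)
      (Nat.pos_of_ne_zero (Nat.mul_ne_zero (Nat.mul_ne_zero (by norm_num) (NeZero.ne N))
        (NeZero.ne m))) y hy hyM)
    (s29_ck_anC_hTr N) (s29_ck_anC_hcomp N) (s29_ck_anC_hev N)

end Fermat.Agent.S29
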