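import Fermat.Agent.S29.CohHecke

/-!
# S29 (BRIDGE), block H1: `T_l^coh` preserves parabolic homomorphisms

For torsion-free coefficients `A`: if `χ : Γ₀(N) → A` kills every element of trace `±2`, so does
`T_l^coh χ`.  (With `n` the order of the permutation `σ_γ`: `n • (T χ)(γ) = (T χ)(γ ^ n) =
∑ i, χ (δ_i γ ^ n δ_i⁻¹)` and conjugates of powers of elements of trace `±2` have trace `±2`.)

Also: the `R`-linear form `s29_cp_Tlin` of `s29_ch_T` and its restriction `s29_cp_Tpar` to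
`ModularCurve.Period.parabolicHoms R (Gamma0 N) A`.
-/

set_option autoImplicit false

open CongruenceSubgroup ModularForm ModularCurve.Period
open scoped MatrixGroups

namespace Fermat.Agent.S29

/-- Cayley–Hamilton for `2 × 2` integer matrices of determinant one. -/
theorem s29_cp_sq (M : Matrix (Fin 2) (Fin 2) ℤ) (hdet : M.det = 1) :
    M * M = M.trace • M - 1 := by
  rw [Matrix.det_fin_two] at hdet
  rw [Matrix.trace_fin_two]
  ext i j
  fin_cases i <;> fin_cases j <;>
    simp only [Matrix.mul_apply, Fin.sum_univ_two, Matrix.sub_apply, Matrix.smul_apply,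
      smul_eq_mul, Matrix.one_apply, Fin.zero_eta, Fin.mk_one, Fin.isValue, if_true, if_false,
      zero_ne_one, one_ne_zero] <;>
    first | linear_combination -hdet | ring

theorem s29_cp_trace_rec (M : Matrix (Fin 2) (Fin 2) ℤ) (hdet : M.det = 1) (n : ℕ) :
    (M ^ (n + 2)).trace = M.trace * (M ^ (n + 1)).trace - (M ^ n).trace := by
  have h : M ^ (n + 2) = M.trace • M ^ (n + 1) - M ^ n := by
    rw [pow_add, pow_two, s29_cp_sq M hdet, mul_sub, mul_one, Matrix.mul_smul, ← pow_succ]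
  rw [h, Matrix.trace_sub, Matrix.trace_smul, smul_eq_mul]

/-- powers of a matrix of determinant one and trace `±2` have trace `±2`. -/
theorem s29_cp_trace_pow (M : Matrix (Fin 2) (Fin 2) ℤ) (hdet : M.det = 1)
    (ht : M.trace ^ 2 = 4) (n : ℕ) : (M ^ n).trace ^ 2 = 4 := by
  have h2 : M.trace = 2 ∨ M.trace = -2 := by
    have h3 : (M.trace - 2) * (M.trace + 2) = 0 := by linear_combination ht
    rcases mul_eq_zero.mp h3 with h4 | h4
    · left; linarith
    · right; linarith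
  have h0 : (M ^ 0).trace = 2 := by
    rw [pow_zero, Matrix.trace_one]
    rfl
  rcases h2 with h2 | h2
  · have key : ∀ n : ℕ, (M ^ n).trace = 2 ∧ (M ^ (n + 1)).trace = 2 := by
      intro n
      induction n with
      | zero => exact ⟨h0, by rw [zero_add, pow_one, h2]⟩
      | succ n ih =>
        refine ⟨ih.2, ?_⟩
        rw [s29_cp_trace_rec M hdet n, h2, ih.1, ih.2]
        norm_num
    rw [(key n).1]
    norm_num
  · have key : ∀ n : ℕ, (M ^ n).trace = 2 * (-1) ^ n ∧ (M ^ (n + 1)).trace = 2 * (-1) ^ (n + 1) := by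
      intro n
      induction n with
      | zero => exact ⟨by rw [h0]; norm_num, by rw [zero_add, pow_one, h2]; norm_num⟩
      | succ n ih =>
        refine ⟨ih.2, ?_⟩
        rw [s29_cp_trace_rec M hdet n, h2, ih.1, ih.2]
        ring
    rw [(key n).1, mul_pow, ← pow_mul, mul_comm n 2, pow_mul]
    norm_num

/-- the trace of an element of `Γ₀(N)` is invariant under conjugation in `GL₂(ℝ)`. -/
theorem s29_cp_trace_conj {N : ℕ} (γ γ' : Gamma0 N) (g : GL (Fin 2) ℝ)
    (h : s29_ch_iota N γ' = g * s29_ch_iota N γ * g⁻¹) :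
    ((γ' : SL(2, ℤ)) : Matrix (Fin 2) (Fin 2) ℤ).trace =
      ((γ : SL(2, ℤ)) : Matrix (Fin 2) (Fin 2) ℤ).trace := by
  have h1 := congrArg (fun x : GL (Fin 2) ℝ => (x : Matrix (Fin 2) (Fin 2) ℝ).trace) h
  simp only [Units.val_mul] at h1
  rw [Matrix.trace_units_conj, s29_ch_iota_val, s29_ch_iota_val] at h1
  have e : ∀ M : Matrix (Fin 2) (Fin 2) ℤ,
      (M.map (Int.castRingHom ℝ)).trace = ((M.trace : ℤ) : ℝ) := by
    intro M
    rw [Matrix.trace_fin_two, Matrix.trace_fin_two]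
    simp
  rw [e, e] at h1
  exact_mod_cast h1

/-- **(H1-par)** `T_l^coh` preserves parabolic homomorphisms (torsion-free coefficients). -/
theorem s29_cp_T_parabolic (N l : ℕ) (hl : l.Prime) (hlN : ¬ l ∣ N) {A : Type*} [AddCommGroup A]
    [IsAddTorsionFree A] (χ : Additive (Gamma0 N) →+ A) (hχ : IsParabolicHom (Gamma0 N) χ) :
    IsParabolicHom (Gamma0 N) (s29_ch_T N l hl hlN A χ) := by
  intro γ hγ
  set D := s29_ch_data N l hl hlN with hD
  set n := orderOf (D.perm γ) with hn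
  have hn0 : n ≠ 0 := (orderOf_pos (D.perm γ)).ne'
  have hpow : D.perm γ ^ n = 1 := pow_orderOf_eq_one _
  have h1 : n • s29_ch_T N l hl hlN A χ (Additive.ofMul γ) = 0 := by
    rw [← map_nsmul, ← ofMul_pow, s29_ch_T_apply]
    refine Finset.sum_eq_zero fun i _ => hχ _ ?_
    have hc : s29_ch_iota N (s29_ch_coc N l hl hlN (γ ^ n) i) =
        s29_ch_delta l i * s29_ch_iota N (γ ^ n) * (s29_ch_delta l i)⁻¹ :=
      D.coc_pow_conj hpow i
    rw [s29_cp_trace_conj _ _ _ hc]
    have hcoe : (((γ ^ n : Gamma0 N) : SL(2, ℤ)) : Matrix (Fin 2) (Fin 2) ℤ) =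
        (((γ : SL(2, ℤ)) : Matrix (Fin 2) (Fin 2) ℤ)) ^ n := by
      rw [SubmonoidClass.coe_pow, Matrix.SpecialLinearGroup.coe_pow]
    rw [hcoe]
    exact s29_cp_trace_pow _ (γ : SL(2, ℤ)).det_coe hγ n
  exact (nsmul_eq_zero_iff_right hn0).1 h1

/-- `T_l^coh` as an `R`-linear map. -/
noncomputable def s29_cp_Tlin (N l : ℕ) (hl : l.Prime) (hlN : ¬ l ∣ N) (R : Type*) [Semiring R]
    (A : Type*) [AddCommGroup A] [Module R A] :
    (Additive (Gamma0 N) →+ A) →ₗ[R] (Additive (Gamma0 N) →+ A) where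
  toFun := s29_ch_T N l hl hlN A
  map_add' := map_add _
  map_smul' r χ := by
    refine AddMonoidHom.ext fun γ' => ?_
    obtain ⟨γ, rfl⟩ := Additive.ofMul.surjective γ'
    show s29_ch_T N l hl hlN A (r • χ) (Additive.ofMul γ) =
      r • s29_ch_T N l hl hlN A χ (Additive.ofMul γ)
    rw [s29_ch_T_apply, s29_ch_T_apply, Finset.smul_sum]
    rfl

theorem s29_cp_Tlin_apply (N l : ℕ) (hl : l.Prime) (hlN : ¬ l ∣ N) (R : Type*) [Semiring R]
    (A : Type*) [AddCommGroup A] [Module R A] (χ : Additive (Gamma0 N) →+ A) :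
    s29_cp_Tlin N l hl hlN R A χ = s29_ch_T N l hl hlN A χ := rfl

/-- `T_l^coh` on parabolic homomorphisms. -/
noncomputable def s29_cp_Tpar (N l : ℕ) (hl : l.Prime) (hlN : ¬ l ∣ N) (R : Type*) [Semiring R]
    (A : Type*) [AddCommGroup A] [Module R A] [IsAddTorsionFree A] :
    ↥(parabolicHoms R (Gamma0 N) A) →ₗ[R] ↥(parabolicHoms R (Gamma0 N) A) :=
  (s29_cp_Tlin N l hl hlN R A).restrict
    (fun χ hχ => s29_cp_T_parabolic N l hl hlN χ hχ)

theorem s29_cp_Tpar_coe (N l : ℕ) (hl : l.Prime) (hlN : ¬ l ∣ N) (R : Type*) [Semiring R]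
    (A : Type*) [AddCommGroup A] [Module R A] [IsAddTorsionFree A]
    (χ : ↥(parabolicHoms R (Gamma0 N) A)) :
    ((s29_cp_Tpar N l hl hlN R A χ : ↥(parabolicHoms R (Gamma0 N) A)) :
      Additive (Gamma0 N) →+ A) = s29_ch_T N l hl hlN A (χ : Additive (Gamma0 N) →+ A) := rfl

end Fermat.Agent.S29
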