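import Fermat.Agent.S37.HHecke
import Fermat.Prelude.Def_ModularCurve_HeckeModule

/-!
# S29 (BRIDGE), block A4, algebraic part: the Hecke correspondence on torsion classes

For a class `x = [D]` of `J₀(N)` with `m • D = div g`, the class `T_ℓ x` is represented by a
divisor `D'` with `m • D' = div g'`, where `g' = N_α (β g)` is the norm along the inclusion
`α : F_N → F_{Nℓ}` of `β g = g(q^ℓ)`.
-/

set_option autoImplicit false
set_option linter.unusedSectionVars false
set_option linter.style.haveILetI false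

namespace Fermat.Agent.S29

open AlgebraicCurve ModularCurve

section generic

variable {K F F' : Type*} [Field K] [Field F] [Field F'] [Algebra K F] [Algebra K F']

/-- the norm along a homomorphism of fields. -/
noncomputable def s29_kh_normAlong (ψ : F →ₐ[K] F') (x : F') : F :=
  letI := algebraAlong ψ
  Algebra.norm F x

theorem s29_kh_normAlong_ne_zero (ψ : F →ₐ[K] F') (hfin : FiniteAlong K ψ) {x : F'}
    (hx : x ≠ 0) : s29_kh_normAlong ψ x ≠ 0 := by
  letI := algebraAlong ψ
  haveI : Module.Finite F F' := hfin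
  exact Algebra.norm_ne_zero_iff.mpr hx

/-- a correspondence `ψ_* φ^*` on a divisor `D` with `m • D = div g`:
`m • ψ_* φ^* D = div (N_ψ (φ g))`. -/
theorem s29_kh_corr_div [HasPrincipalDivisors K F'] (φ ψ : F →ₐ[K] F')
    (hφ : φ.toRingHom.IsIntegral) (hψ : ψ.toRingHom.IsIntegral)
    (hfin : FiniteAlong K ψ) (hN : NormFormulaAlong K ψ hfin) (m : ℤ) (D : Divisor K F)
    (g : F) (hg : g ≠ 0) (hD : ∀ v : Place K F, m * D v = v.ord g) (v : Place K F) :
    m * Divisor.correspondence φ ψ hφ hψ D v = v.ord (s29_kh_normAlong ψ (φ g)) := by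
  rw [Divisor.correspondence_apply]
  have h1 : ∀ w : Place K F', (m • Divisor.pullbackAlong φ hφ D) w = w.ord (φ g) := by
    intro w
    rw [Finsupp.smul_apply, Divisor.pullbackAlong_apply, smul_eq_mul, mul_left_comm, hD,
      ← Place.ord_restrictAlong]
  have h2 : φ g ≠ 0 := fun h => hg (φ.toRingHom.injective (h.trans (map_zero _).symm))
  have h3 := hN (φ g) h2 _ h1 v
  have h4 : Divisor.pushforwardAlong ψ hψ (m • Divisor.pullbackAlong φ hφ D) v =
      m * Divisor.pushforwardAlong ψ hψ (Divisor.pullbackAlong φ hφ D) v := by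
    rw [map_zsmul, Finsupp.smul_apply, smul_eq_mul]
  rw [← h4]
  exact h3

end generic

local notation "Qb" => AlgebraicClosure ℚ

/-- the norm along `α` (the inclusion `F_N → F_{Nℓ}`) of `β g = g(q^ℓ)`. -/
noncomputable def s29_kh_normBeta (N ℓ : ℕ) [NeZero N] [NeZero ℓ]
    (g : modularFunctionFieldBar N) : modularFunctionFieldBar N :=
  s29_kh_normAlong (heckeAlphaBar Qb N ℓ) (heckeBetaBar Qb N ℓ g)

theorem s29_kh_normBeta_ne_zero (N ℓ : ℕ) [NeZero N] [NeZero ℓ]
    {g : modularFunctionFieldBar N} (hg : g ≠ 0) : s29_kh_normBeta N ℓ g ≠ 0 := by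
  obtain ⟨hα, hβ, hP, hfin, hFI, hN⟩ := Fermat.Agent.S37.s37_h_heckeInputsAlong N ℓ
  exact s29_kh_normAlong_ne_zero _ hfin
    (fun h => hg ((heckeBetaBar Qb N ℓ).toRingHom.injective (h.trans (map_zero _).symm)))

/-- **The Hecke correspondence on a class with `m • D = div g`**: `T_ℓ [D] = [D']` with
`m • D' = div (N_α (β g))`. -/
theorem s29_kh_hecke_div (N : ℕ) [NeZero N] (ℓ : Nat.Primes) (m : ℤ)
    (D : Divisor.degZero (K := Qb) (F := modularFunctionFieldBar N))
    (g : modularFunctionFieldBar N) (hg : g ≠ 0)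
    (hD : ∀ v : Place Qb (modularFunctionFieldBar N),
      m * (D : Divisor Qb (modularFunctionFieldBar N)) v = v.ord g) :
    haveI : NeZero (ℓ : ℕ) := ⟨ℓ.2.ne_zero⟩
    ∃ D' : Divisor.degZero (K := Qb) (F := modularFunctionFieldBar N),
      heckeOperatorBar N ℓ (Pic0.mk D) = Pic0.mk D' ∧
      ∀ v : Place Qb (modularFunctionFieldBar N),
        m * (D' : Divisor Qb (modularFunctionFieldBar N)) v =
          v.ord (s29_kh_normBeta N ℓ g) := by
  haveI : NeZero (ℓ : ℕ) := ⟨ℓ.2.ne_zero⟩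
  obtain ⟨hα, hβ, hP, hfin, hFI, hN⟩ := Fermat.Agent.S37.s37_h_heckeInputsAlong N ℓ
  haveI := hP
  refine ⟨Pic0.degZeroCorrespondence (heckeBetaBar Qb N ℓ) (heckeAlphaBar Qb N ℓ) hβ hα hFI D,
    ?_, ?_⟩
  · rw [heckeOperatorBar_apply, heckeOperatorAlong_eq hα hβ hFI hfin hN]
    rfl
  · intro v
    exact s29_kh_corr_div (heckeBetaBar Qb N ℓ) (heckeAlphaBar Qb N ℓ) hβ hα hfin hN m
      (D : Divisor Qb (modularFunctionFieldBar N)) g hg hD v

end Fermat.Agent.S29
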