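import Fermat.Agent.S29.KapHeckeEmb
import Fermat.Agent.S29.KapHeckeAlg
import Fermat.Agent.S37.EsChiAbs
import Fermat.Agent.S37.EsDeg

/-!
# S29 (BRIDGE), block A4: the norm along `α : F_N → F_{Nℓ}` in the analytic realisation

`s29_kh_an_normBeta` : `s29_an N (N_α (β g)) = ∏_i δ_i⁻¹ • s29_an N g`, i.e.
`N_α (β g) (τ) = g(ℓ τ) ∏_{j < ℓ} g((τ + j)/ℓ)`.
-/

set_option autoImplicit false
set_option linter.unusedSectionVars false
set_option linter.style.haveILetI false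

open UpperHalfPlane ModularCurve AlgebraicCurve
open scoped MatrixGroups Manifold

noncomputable section

namespace Fermat.Agent.S29

open Fermat.Agent.S24
open CongruenceSubgroup

attribute [local instance] algKC

/-- the norm, mapped along `f : K →+* Ω`, is the product over `n = [L : K]` pairwise distinct
ring homomorphisms `σ i : L →+* Ω` extending `f`. -/
theorem s29_kh_norm_map_eq_prod {K L Ω : Type*} [Field K] [Field L] [Field Ω]
    [Algebra K L] [FiniteDimensional K L] [Algebra.IsSeparable K L] [Infinite K]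
    {ι : Type*} [Fintype ι] (f : K →+* Ω) (σ : ι → L →+* Ω)
    (hf : ∀ i, (σ i).comp (algebraMap K L) = f) (hσ : Function.Injective σ)
    (hcard : Fintype.card ι = Module.finrank K L) (x : L) :
    f (Algebra.norm K x) = ∏ i, σ i x := by
  have h := Fermat.Agent.S37.s37_ec_charpoly_map_eq_prod f σ hf hσ hcard x
  have h0 := congrArg (fun p : Polynomial Ω => p.eval 0) h
  simp only [Polynomial.eval_prod, Polynomial.eval_sub, Polynomial.eval_X, Polynomial.eval_C,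
    zero_sub, Finset.prod_neg, Finset.card_univ] at h0
  rw [Algebra.norm_apply, LinearMap.det_eq_sign_charpoly_coeff, map_mul, map_pow, map_neg, map_one,
    ← hcard]
  have h1 : f ((LinearMap.mulLeft K x).charpoly.coeff 0) =
      ((LinearMap.mulLeft K x).charpoly.map f).eval 0 := by
    rw [← Polynomial.coeff_zero_eq_eval_zero, Polynomial.coeff_map]
  have h2 : (Algebra.lmul K L x) = LinearMap.mulLeft K x := rfl
  rw [h2, h1, h0, ← mul_assoc, ← pow_add, ← two_mul, pow_mul]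
  simp

/-- `Γ₀(N)` permutes the cosets `Γ₀(N) δ_i` transitively. -/
theorem s29_kh_perm_trans (N l : ℕ) (hl : l.Prime) (hlN : ¬ l ∣ N) (i : Option (Fin l)) :
    ∃ γ : Gamma0 N, s29_ch_perm N l hl hlN γ none = i := by
  cases i with
  | none =>
    refine ⟨1, ?_⟩
    rw [s29_ch_perm, s29_ch_Data.perm_one]
    rfl
  | some j =>
    have hcop : IsCoprime ((l : ℤ) + (N : ℤ) * ((j : ℕ) : ℤ)) (N : ℤ) := by
      apply IsCoprime.add_mul_left_left
      rw [Nat.isCoprime_iff_coprime]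
      exact (Nat.Prime.coprime_iff_not_dvd hl).2 hlN
    obtain ⟨a, b, hab⟩ := hcop
    let γ : Gamma0 N := s29_ch_mk N a (-b) N ((l : ℤ) + (N : ℤ) * ((j : ℕ) : ℤ))
      (by linear_combination hab) dvd_rfl
    let γ' : Gamma0 N := s29_ch_mk N (l * a) (-b - a * ((j : ℕ) : ℤ)) N 1
      (by linear_combination hab) dvd_rfl
    refine ⟨γ, ?_⟩
    have h : s29_ch_deltaZ l none * ((γ : SL(2, ℤ)) : Matrix (Fin 2) (Fin 2) ℤ) =
        ((γ' : SL(2, ℤ)) : Matrix (Fin 2) (Fin 2) ℤ) * s29_ch_deltaZ l (some j) := by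
      simp only [γ, γ', s29_ch_mk_val, s29_ch_deltaZ, Matrix.mul_fin_two]
      exact s29_ch_of_eq (by ring) (by ring) (by ring) (by ring)
    exact ((s29_ch_data N l hl hlN).eq_of_spec
      (s29_ch_real_of_int hl.ne_zero γ γ' none (some j) h)).1.symm

/-- `Γ₀(Nℓ)` fixes the coset `Γ₀(N) δ_∞`. -/
theorem s29_kh_perm_none_of_mem (N l : ℕ) (hl : l.Prime) (hlN : ¬ l ∣ N) (η : Gamma0 N)
    (hη : (η : SL(2, ℤ)) ∈ Gamma0 (N * l)) : s29_ch_perm N l hl hlN η none = none := by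
  have hc : ((N * l : ℕ) : ℤ) ∣ (η : SL(2, ℤ)) 1 0 :=
    (ZMod.intCast_zmod_eq_zero_iff_dvd _ _).1 (Gamma0_mem.1 hη)
  obtain ⟨u, hu⟩ := hc
  push_cast at hu
  have hdet := s29_ch_det η
  let γ' : Gamma0 N := s29_ch_mk N ((η : SL(2, ℤ)) 0 0) (l * (η : SL(2, ℤ)) 0 1) (N * u)
    ((η : SL(2, ℤ)) 1 1) (by rw [hu] at hdet; linear_combination hdet) (dvd_mul_right _ _)
  have h : s29_ch_deltaZ l none * ((η : SL(2, ℤ)) : Matrix (Fin 2) (Fin 2) ℤ) =
      ((γ' : SL(2, ℤ)) : Matrix (Fin 2) (Fin 2) ℤ) * s29_ch_deltaZ l none := by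
    rw [s29_ch_val_eq η]
    simp only [γ', s29_ch_mk_val, s29_ch_deltaZ, Matrix.mul_fin_two]
    exact s29_ch_of_eq (by ring) (by ring) (by linear_combination hu) (by ring)
  exact ((s29_ch_data N l hl hlN).eq_of_spec
    (s29_ch_real_of_int hl.ne_zero η γ' none none h)).1.symm

/-- the embeddings `σ_γ = γ⁻¹ • s29_an (N ℓ) ·` of `F_{Nℓ}` into the meromorphic functions. -/
def s29_kh_sigma (N ℓ : ℕ) [NeZero N] [NeZero ℓ] (γ : SL(2, ℤ)) :
    modularFunctionFieldBar (N * ℓ) →+* s29_Mer :=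
  (MulSemiringAction.toRingHom GL(2, ℝ)⁺ s29_Mer (s29_sl γ)⁻¹).comp (s29_an (N * ℓ))

theorem s29_kh_sigma_apply (N ℓ : ℕ) [NeZero N] [NeZero ℓ] (γ : SL(2, ℤ))
    (h : modularFunctionFieldBar (N * ℓ)) :
    s29_kh_sigma N ℓ γ h = (s29_sl γ)⁻¹ • s29_an (N * ℓ) h := rfl

/-- `σ_γ ∘ α = s29_an N` for `γ ∈ Γ₀(N)`. -/
theorem s29_kh_sigma_alpha (N ℓ : ℕ) [NeZero N] [NeZero ℓ] (γ : Gamma0 N)
    (f : modularFunctionFieldBar N) :
    s29_kh_sigma N ℓ (γ : SL(2, ℤ)) (heckeAlphaBar Kbar N ℓ f) = s29_an N f := by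
  rw [s29_kh_sigma_apply, s29_kh_an_alpha, ← map_inv, ← s29_sl_smul_def]
  exact s29_an_smul N _ (inv_mem γ.2) f

/-- `σ_γ (β g) = δ_{σ_γ(∞)}⁻¹ • s29_an N g` for `γ ∈ Γ₀(N)`. -/
theorem s29_kh_sigma_beta (N ℓ : ℕ) [NeZero N] [NeZero ℓ] (hl : ℓ.Prime) (hlN : ¬ ℓ ∣ N)
    (γ : Gamma0 N) (g : modularFunctionFieldBar N) :
    s29_kh_sigma N ℓ (γ : SL(2, ℤ)) (heckeBetaBar Kbar N ℓ g) =
      (s29_kh_delta ℓ hl.ne_zero (s29_ch_perm N ℓ hl hlN γ none))⁻¹ • s29_an N g := by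
  rw [s29_kh_sigma_apply, s29_kh_an_beta, smul_smul, ← mul_inv_rev]
  have h1 : s29_kh_delta ℓ (NeZero.ne ℓ) none * s29_sl (γ : SL(2, ℤ)) =
      s29_sl (s29_ch_coc N ℓ hl hlN γ none : SL(2, ℤ)) *
        s29_kh_delta ℓ hl.ne_zero (s29_ch_perm N ℓ hl hlN γ none) :=
    s29_kh_spec N ℓ hl hlN γ none
  rw [h1, mul_inv_rev, mul_smul]
  congr 1
  rw [← map_inv, ← s29_sl_smul_def]
  exact s29_an_smul N _ (inv_mem (s29_ch_coc N ℓ hl hlN γ none).2) g

/-- `σ_γ = σ_γ'` forces the same coset. -/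
theorem s29_kh_sigma_inj (N ℓ : ℕ) [NeZero N] [NeZero ℓ] (hl : ℓ.Prime) (hlN : ¬ ℓ ∣ N)
    (γ γ' : Gamma0 N)
    (h : s29_kh_sigma N ℓ (γ : SL(2, ℤ)) = s29_kh_sigma N ℓ (γ' : SL(2, ℤ))) :
    s29_ch_perm N ℓ hl hlN γ none = s29_ch_perm N ℓ hl hlN γ' none := by
  have hη : ((γ' * γ⁻¹ : Gamma0 N) : SL(2, ℤ)) ∈ Gamma0 (N * ℓ) := by
    apply s29_an_stab (N * ℓ)
    intro f
    have h1 := congrArg (fun φ : modularFunctionFieldBar (N * ℓ) →+* s29_Mer => φ f) h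
    simp only [s29_kh_sigma_apply] at h1
    rw [s29_sl_smul_def]
    have h2 : s29_sl ((γ' * γ⁻¹ : Gamma0 N) : SL(2, ℤ)) =
        s29_sl (γ' : SL(2, ℤ)) * (s29_sl (γ : SL(2, ℤ)))⁻¹ := by
      rw [← map_inv, ← map_mul]
      rfl
    rw [h2, mul_smul, h1, smul_smul, mul_inv_cancel, one_smul]
  have h3 := s29_kh_perm_none_of_mem N ℓ hl hlN (γ' * γ⁻¹) hη
  have h4 : γ' = (γ' * γ⁻¹) * γ := by rw [inv_mul_cancel_right]
  have h5 : s29_ch_perm N ℓ hl hlN γ' = s29_ch_perm N ℓ hl hlN γ *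
      s29_ch_perm N ℓ hl hlN (γ' * γ⁻¹) := by
    conv_lhs => rw [h4]
    exact (s29_ch_data N ℓ hl hlN).perm_mul _ _
  rw [h5, Equiv.Perm.mul_apply, h3]

local notation "Qb" => AlgebraicClosure ℚ

/-- **The norm along `α` in the analytic realisation**:
`N_α (β g) = ∏_i g ∘ δ_i` as meromorphic functions on the upper half plane. -/
theorem s29_kh_an_normBeta (N ℓ : ℕ) [NeZero N] [NeZero ℓ] (hl : ℓ.Prime) (hlN : ¬ ℓ ∣ N)
    (g : modularFunctionFieldBar N) :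
    s29_an N (s29_kh_normBeta N ℓ g) = s29_kh_prod ℓ hl.ne_zero (s29_an N g) := by
  obtain ⟨hfin, hrank⟩ := Fermat.Agent.S37.s37_es_finrank_alpha N ℓ hl hlN
  letI := algebraAlong (heckeAlphaBar Qb N ℓ)
  haveI : FiniteDimensional (modularFunctionFieldBar N) (modularFunctionFieldBar (N * ℓ)) := hfin
  have hrank' : Module.finrank (modularFunctionFieldBar N) (modularFunctionFieldBar (N * ℓ)) =
      ℓ + 1 := hrank
  choose γ hγ using s29_kh_perm_trans N ℓ hl hlN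
  have hf : ∀ i, (s29_kh_sigma N ℓ (γ i : SL(2, ℤ))).comp
      (algebraMap (modularFunctionFieldBar N) (modularFunctionFieldBar (N * ℓ))) = s29_an N := by
    intro i
    ext f
    exact s29_kh_sigma_alpha N ℓ (γ i) f
  have hσ : Function.Injective (fun i => s29_kh_sigma N ℓ (γ i : SL(2, ℤ))) := by
    intro i j hij
    have := s29_kh_sigma_inj N ℓ hl hlN (γ i) (γ j) hij
    rwa [hγ, hγ] at this
  have hcard : Fintype.card (Option (Fin ℓ)) =
      Module.finrank (modularFunctionFieldBar N) (modularFunctionFieldBar (N * ℓ)) := by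
    rw [hrank', Fintype.card_option, Fintype.card_fin]
  have h := s29_kh_norm_map_eq_prod (s29_an N) (fun i => s29_kh_sigma N ℓ (γ i : SL(2, ℤ)))
    hf hσ hcard (heckeBetaBar Qb N ℓ g)
  have h2 : s29_kh_normBeta N ℓ g =
      Algebra.norm (modularFunctionFieldBar N) (heckeBetaBar Qb N ℓ g) := rfl
  rw [h2, h, s29_kh_prod]
  refine Finset.prod_congr rfl (fun i _ => ?_)
  rw [s29_kh_sigma_beta N ℓ hl hlN, hγ]

end Fermat.Agent.S29
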