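import Fermat.Agent.S29.Kappa
import Fermat.Agent.S29.KapHeckeNorm

/-!
# S29 (BRIDGE), block A4: `κ` is Hecke-equivariant

`s29_kh_kappa_hecke` : for a prime `ℓ ∤ N` and `x ∈ J₀(N)(ℚ̄)[m]`,
`κ (T_ℓ x) = T_ℓ^coh (κ x)` in `Hom(Γ₀(N), ℤ/m)`.
-/

set_option autoImplicit false
set_option linter.unusedSectionVars false
set_option linter.style.haveILetI false

open UpperHalfPlane ModularCurve AlgebraicCurve
open scoped MatrixGroups Manifold

noncomputable section

namespace Fermat.Agent.S29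

open Fermat.Agent.S24
open CongruenceSubgroup

attribute [local instance] algKC

theorem s29_kh_pow_sum (m : ℕ) [NeZero m] {ι : Type*} (s : Finset ι) (a : ι → ZMod m) :
    s29_ka_pow m (∑ i ∈ s, a i) = ∏ i ∈ s, s29_ka_pow m (a i) := by
  classical
  induction s using Finset.induction_on with
  | empty => rw [Finset.sum_empty, Finset.prod_empty, s29_ka_pow_zero]
  | insert i s hi ih => rw [Finset.sum_insert hi, Finset.prod_insert hi, s29_ka_pow_add, ih]

/-- the Hecke transform of a witness: if `(D, g, G)` is a witness for `x` then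
`(D', N_α (β g), ∏_i G ∘ δ_i)` is a witness for `T_ℓ x`. -/
theorem s29_kh_witness_hecke (N m : ℕ) [NeZero N] [NeZero m] (l : ℕ) [NeZero l] (hl : l.Prime)
    (hlN : ¬ l ∣ N) {x : JZero N}
    {D : Divisor.degZero (K := Kbar) (F := modularFunctionFieldBar N)}
    {g : modularFunctionFieldBar N} {G : s29_Mer} (h : s29_ka_IsWitness N m x D g G) :
    ∃ D' : Divisor.degZero (K := Kbar) (F := modularFunctionFieldBar N),
      s29_ka_IsWitness N m (heckeOperatorBar N ⟨l, hl⟩ x) D' (s29_kh_normBeta N l g)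
        (s29_kh_prod l hl.ne_zero G) := by
  obtain ⟨hx, hg, hdiv, hG⟩ := h
  obtain ⟨D', hD', hdiv'⟩ := s29_kh_hecke_div N ⟨l, hl⟩ (m : ℤ) D g hg (fun v => (hdiv v).symm)
  refine ⟨D', ?_, s29_kh_normBeta_ne_zero N l hg, fun P => (hdiv' P).symm, ?_⟩
  · rw [← hx, hD']
  · rw [← s29_kh_prod_pow, hG, s29_kh_an_normBeta N l hl hlN]

/-- the character of the Hecke transform of a root. -/
theorem s29_kh_isChar_prod (N m : ℕ) [NeZero m] (l : ℕ) (hl : l.Prime) (hlN : ¬ l ∣ N)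
    {G : s29_Mer} {χ : Additive (Gamma0 N) →+ ZMod m} (h : s29_ka_IsChar N m G χ) :
    s29_ka_IsChar N m (s29_kh_prod l hl.ne_zero G) (s29_ch_T N l hl hlN (ZMod m) χ) := by
  intro γ
  rw [s29_kh_char N l hl hlN G (fun γ => s29_ka_pow m (χ (Additive.ofMul γ))) h γ,
    s29_ch_T_apply, s29_kh_pow_sum]

/-- **`κ` is Hecke-equivariant**: `κ (T_ℓ x) = T_ℓ^coh (κ x)` for every prime `ℓ ∤ N`. -/
theorem s29_kh_kappa_hecke (N m : ℕ) [NeZero N] [NeZero m] (l : ℕ) (hl : l.Prime)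
    (hlN : ¬ l ∣ N) (x y : Pic0.torsion Kbar (modularFunctionFieldBar N) m)
    (hy : (y : JZero N) = heckeOperatorBar N ⟨l, hl⟩ (x : JZero N)) :
    s29_kappa N m y = s29_ch_T N l hl hlN (ZMod m) (s29_kappa N m x) := by
  haveI : NeZero l := ⟨hl.ne_zero⟩
  obtain ⟨D, g, G, hw⟩ := s29_ka_exists_witness N m (x : JZero N) (Pic0.mem_torsion.mp x.2)
  obtain ⟨D', hw'⟩ := s29_kh_witness_hecke N m l hl hlN hw
  rw [← hy] at hw'
  exact s29_kappa_eq_of_witness y hw'
    (s29_kh_isChar_prod N m l hl hlN (s29_kappaFun_spec x hw))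

/-- `T_ℓ` preserves the `m`-torsion. -/
theorem s29_kh_hecke_mem_torsion (N m : ℕ) [NeZero N] (ℓ : Nat.Primes)
    (x : Pic0.torsion Kbar (modularFunctionFieldBar N) m) :
    heckeOperatorBar N ℓ (x : JZero N) ∈ Pic0.torsion Kbar (modularFunctionFieldBar N) m := by
  rw [Pic0.mem_torsion, ← map_zsmul, Pic0.mem_torsion.mp x.2, map_zero]

/-- **`κ` is Hecke-equivariant**, subtype form. -/
theorem s29_kh_kappa_hecke' (N m : ℕ) [NeZero N] [NeZero m] (l : ℕ) (hl : l.Prime)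
    (hlN : ¬ l ∣ N) (x : Pic0.torsion Kbar (modularFunctionFieldBar N) m) :
    s29_kappa N m ⟨heckeOperatorBar N ⟨l, hl⟩ (x : JZero N),
        s29_kh_hecke_mem_torsion N m ⟨l, hl⟩ x⟩ =
      s29_ch_T N l hl hlN (ZMod m) (s29_kappa N m x) :=
  s29_kh_kappa_hecke N m l hl hlN x _ rfl

end Fermat.Agent.S29
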