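import Fermat.Agent.S29.ExGlue
import Fermat.Agent.S29.CohPar
import Fermat.Agent.S29.KapHecke
import Fermat.Prelude.Def_ModularCurve_HeckeModule

/-!
# S29 (project BRIDGE), node (BR-ι): the lattice of integral parabolic classes maps onto
`p`-torsion classes of `J₀(N)`

From

* (INJ) injectivity of `κ = s29_kappa N m`,
* (EX) existence: every `ψ mod m`, `ψ ∈ Λ = parabolicHoms ℤ (Gamma0 N) ℤ`, is `κ x`,
* (A4) Hecke-equivariance of `κ` (helper10's `s29_kh_kappa_hecke`),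

we get, at every level `m ≥ 1`, the additive map `ι : Λ → J₀(N)` with `m • ι ψ = 0`,
`ker ι = m Λ` and `ι (T_ℓ^coh ψ) = T_ℓ (ι ψ)` consumed by `s29_wa_main` (`m = p`).
-/

set_option autoImplicit false

open UpperHalfPlane ModularCurve AlgebraicCurve ModularCurve.Period
open scoped MatrixGroups Manifold IntermediateField

noncomputable section

namespace Fermat.Agent.S29

open Fermat.Agent.S24
open CongruenceSubgroup

attribute [local instance] algKC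

/-- an integral parabolic class which vanishes modulo `p` is `p` times an integral parabolic
class. -/
theorem s29_bi_div (N p : ℕ) (hp : 0 < p) (ψ : ↥(parabolicHoms ℤ (Gamma0 N) ℤ))
    (h : s29_xg_red N p (ψ : Additive (Gamma0 N) →+ ℤ) = 0) :
    ∃ ψ' : ↥(parabolicHoms ℤ (Gamma0 N) ℤ), ψ = p • ψ' := by
  have hp0 : (p : ℤ) ≠ 0 := by exact_mod_cast hp.ne'
  have hdvd : ∀ a : Additive (Gamma0 N), (p : ℤ) ∣ (ψ : Additive (Gamma0 N) →+ ℤ) a := by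
    intro a
    have h1 := DFunLike.congr_fun h a
    rw [s29_xg_red_apply, AddMonoidHom.zero_apply] at h1
    exact (ZMod.intCast_zmod_eq_zero_iff_dvd _ p).mp h1
  let ψ₀ : Additive (Gamma0 N) →+ ℤ :=
    { toFun := fun a => (ψ : Additive (Gamma0 N) →+ ℤ) a / (p : ℤ)
      map_zero' := by simp
      map_add' := fun a b => by
        rw [map_add]
        exact Int.add_ediv_of_dvd_left (hdvd a) }
  have hψ₀ : ∀ a, (ψ : Additive (Gamma0 N) →+ ℤ) a = (p : ℤ) * ψ₀ a := fun a =>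
    (Int.mul_ediv_cancel' (hdvd a)).symm
  have hpar : ψ₀ ∈ parabolicHoms ℤ (Gamma0 N) ℤ := by
    rw [mem_parabolicHoms_iff]
    intro γ hγ
    have h1 := (mem_parabolicHoms_iff.mp ψ.2) γ hγ
    rw [hψ₀] at h1
    rcases mul_eq_zero.mp h1 with h2 | h2
    · exact absurd h2 hp0
    · exact h2
  refine ⟨⟨ψ₀, hpar⟩, ?_⟩
  apply Subtype.ext
  refine DFunLike.ext _ _ fun a => ?_
  rw [Submodule.coe_smul_of_tower, AddMonoidHom.smul_apply, hψ₀ a, nsmul_eq_mul]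

/-- **(BR-ι) from (INJ) + (EX) + (A4).** -/
theorem s29_bi_of (N : ℕ) [NeZero N] (p : ℕ) [NeZero p]
    (hinj : Function.Injective (s29_kappa N p))
    (hex : ∀ ψ : ↥(parabolicHoms ℤ (Gamma0 N) ℤ),
      ∃ x : Pic0.torsion Kbar (modularFunctionFieldBar N) p,
        s29_kappa N p x = s29_xg_red N p (ψ : Additive (Gamma0 N) →+ ℤ))
    (hA4 : ∀ (l : ℕ) (hl : l.Prime) (hlN : ¬ l ∣ N)
      (x y : Pic0.torsion Kbar (modularFunctionFieldBar N) p),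
      (y : JZero N) = heckeOperatorBar N ⟨l, hl⟩ (x : JZero N) →
        s29_kappa N p y = s29_ch_T N l hl hlN (ZMod p) (s29_kappa N p x)) :
    ∃ ι : ↥(parabolicHoms ℤ (Gamma0 N) ℤ) →+ JZero N,
      (∀ ψ, p • ι ψ = 0) ∧
      (∀ ψ, ι ψ = 0 → ∃ ψ' : ↥(parabolicHoms ℤ (Gamma0 N) ℤ), ψ = p • ψ') ∧
      (∀ (l : ℕ) (hl : l.Prime) (hlN : ¬ l ∣ N) (ψ : ↥(parabolicHoms ℤ (Gamma0 N) ℤ)),
        ι (s29_cp_Tpar N l hl hlN ℤ ℤ ψ) = heckeOperatorBar N ⟨l, hl⟩ (ι ψ)) := by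
  choose ι₀ hι₀ using hex
  have hadd : ∀ ψ ψ' : ↥(parabolicHoms ℤ (Gamma0 N) ℤ), ι₀ (ψ + ψ') = ι₀ ψ + ι₀ ψ' := by
    intro ψ ψ'
    apply hinj
    rw [map_add, hι₀, hι₀, hι₀]
    refine DFunLike.ext _ _ fun a => ?_
    rw [AddMonoidHom.add_apply, s29_xg_red_apply, s29_xg_red_apply, s29_xg_red_apply,
      Submodule.coe_add, AddMonoidHom.add_apply, Int.cast_add]
  let ι₁ : ↥(parabolicHoms ℤ (Gamma0 N) ℤ) →+ Pic0.torsion Kbar (modularFunctionFieldBar N) p :=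
    AddMonoidHom.mk' ι₀ hadd
  have hι₁ : ∀ ψ, ι₁ ψ = ι₀ ψ := fun _ => rfl
  refine ⟨(AddSubgroup.subtype _).comp ι₁, fun ψ => ?_, fun ψ h0 => ?_, fun l hl hlN ψ => ?_⟩
  · have h1 := Pic0.mem_torsion.mp (ι₀ ψ).2
    rw [natCast_zsmul] at h1
    exact h1
  · have h1 : ι₀ ψ = 0 := Subtype.ext h0
    have h2 := hι₀ ψ
    rw [h1, map_zero] at h2
    exact s29_bi_div N p (Nat.pos_of_ne_zero (NeZero.ne p)) ψ h2.symm
  · -- the Hecke image of `ι₀ ψ` is again `p`-torsion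
    have hy : heckeOperatorBar N ⟨l, hl⟩ ((ι₀ ψ : Pic0.torsion Kbar (modularFunctionFieldBar N) p) :
        JZero N) ∈ Pic0.torsion Kbar (modularFunctionFieldBar N) p := by
      rw [Pic0.mem_torsion, ← map_zsmul, Pic0.mem_torsion.mp (ι₀ ψ).2, map_zero]
    have h1 := hA4 l hl hlN (ι₀ ψ) ⟨_, hy⟩ rfl
    have h2 : s29_kappa N p (ι₀ (s29_cp_Tpar N l hl hlN ℤ ℤ ψ)) = s29_kappa N p ⟨_, hy⟩ := by
      rw [h1, hι₀, hι₀, s29_cp_Tpar_coe]
      exact (s29_ch_T_comp N l hl hlN (Int.castAddHom (ZMod p))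
        (ψ : Additive (Gamma0 N) →+ ℤ)).symm
    have h3 := hinj h2
    show ((ι₀ (s29_cp_Tpar N l hl hlN ℤ ℤ ψ) : Pic0.torsion Kbar (modularFunctionFieldBar N) p) :
      JZero N) = _
    rw [h3]
    rfl

/-- **(BR-ι) from (INJ) + (EX)** at any level `m ≥ 1` ((A4) = `s29_kh_kappa_hecke` is on
main). -/
theorem s29_bi_of_ex (N : ℕ) [NeZero N] (m : ℕ) [NeZero m]
    (hinj : Function.Injective (s29_kappa N m))
    (hex : ∀ ψ : ↥(parabolicHoms ℤ (Gamma0 N) ℤ),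
      ∃ x : Pic0.torsion Kbar (modularFunctionFieldBar N) m,
        s29_kappa N m x = s29_xg_red N m (ψ : Additive (Gamma0 N) →+ ℤ)) :
    ∃ ι : ↥(parabolicHoms ℤ (Gamma0 N) ℤ) →+ JZero N,
      (∀ ψ, m • ι ψ = 0) ∧
      (∀ ψ, ι ψ = 0 → ∃ ψ' : ↥(parabolicHoms ℤ (Gamma0 N) ℤ), ψ = m • ψ') ∧
      (∀ (l : ℕ) (hl : l.Prime) (hlN : ¬ l ∣ N) (ψ : ↥(parabolicHoms ℤ (Gamma0 N) ℤ)),
        ι (s29_cp_Tpar N l hl hlN ℤ ℤ ψ) = heckeOperatorBar N ⟨l, hl⟩ (ι ψ)) :=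
  s29_bi_of N m hinj hex (fun l hl hlN x y hy => s29_kh_kappa_hecke N m l hl hlN x y hy)

end Fermat.Agent.S29
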