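import Mathlib

/-!
# S29 (G2): the quadratic lemma

If every element of a group `G` acts on a nonzero finite-dimensional space `W` over an
algebraically closed field through an operator killed by `X² - t X + δ(g)` (`δ` a character),
then there is a two-dimensional representation whose characteristic polynomials are exactly these
quadratics.
-/

open Polynomial

namespace Fermat.Agent.S29

section Core

variable {k : Type*} [Field k] {G : Type*} [Group G] {U : Type*} [AddCommGroup U] [Module k U]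

/-- The quadratic relation `ρ(g)² - t ρ(g) + δ(g) = 0`. -/
def s29_q_Rel (ρ : G →* Module.End k U) (δ : G →* kˣ) (g : G) (t : k) : Prop :=
  ρ g * ρ g - t • ρ g + ((δ g : kˣ) : k) • (1 : Module.End k U) = 0

theorem s29_q_rel_apply {ρ : G →* Module.End k U} {δ : G →* kˣ} {g : G} {t : k}
    (h : s29_q_Rel ρ δ g t) (w : U) :
    ρ g (ρ g w) - t • ρ g w + ((δ g : kˣ) : k) • w = 0 := by
  have := congrArg (fun f : Module.End k U => f w) h
  simpa [s29_q_Rel] using this

theorem s29_q_inv_apply (ρ : G →* Module.End k U) (g : G) (w : U) : ρ g (ρ g⁻¹ w) = w := by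
  have : ρ g * ρ g⁻¹ = 1 := by rw [← map_mul, mul_inv_cancel, map_one]
  have := congrArg (fun f : Module.End k U => f w) this
  simpa using this

theorem s29_q_inv_formula {ρ : G →* Module.End k U} {δ : G →* kˣ} {g : G} {t : k}
    (h : s29_q_Rel ρ δ g t) (w : U) :
    ((δ g : kˣ) : k) • ρ g⁻¹ w = t • w - ρ g w := by
  have h1 := s29_q_rel_apply h (ρ g⁻¹ w)
  rw [s29_q_inv_apply] at h1
  have : ((δ g : kˣ) : k) • ρ g⁻¹ w = t • w - ρ g w := by
    rw [eq_sub_iff_add_eq, ← sub_eq_zero]
    rw [← h1]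
    abel
  exact this

/-- The key identity `xy + yx = c + t_y x + t_x y`. -/
theorem s29_q_key {ρ : G →* Module.End k U} {δ : G →* kˣ} {g h : G} {tg th tgh : k}
    (hg : s29_q_Rel ρ δ g tg) (hh : s29_q_Rel ρ δ h th) (hgh : s29_q_Rel ρ δ (g * h) tgh) (w : U) :
    ρ g (ρ h w) + ρ h (ρ g w) = (tgh - tg * th) • w + th • ρ g w + tg • ρ h w := by
  have e1 := s29_q_inv_formula hgh w
  have e2 := s29_q_inv_formula hg w
  have e3 := s29_q_inv_formula hh (ρ g⁻¹ w)
  have e4 := s29_q_inv_formula hh w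
  have e5 := s29_q_inv_formula hh (ρ g w)
  have hmul : ρ (g * h) w = ρ g (ρ h w) := by rw [map_mul]; rfl
  have hinv : ρ (g * h)⁻¹ w = ρ h⁻¹ (ρ g⁻¹ w) := by rw [mul_inv_rev, map_mul]; rfl
  have hδ : ((δ (g * h) : kˣ) : k) = ((δ g : kˣ) : k) * ((δ h : kˣ) : k) := by
    rw [map_mul, Units.val_mul]
  rw [hmul, hinv, hδ] at e1
  -- δg δh ρ(h⁻¹)(ρ(g⁻¹) w) = δh ρ(h⁻¹) (δg ρ(g⁻¹) w)
  have e6 : (((δ g : kˣ) : k) * ((δ h : kˣ) : k)) • ρ h⁻¹ (ρ g⁻¹ w)
      = tg • (th • w - ρ h w) - (th • ρ g w - ρ h (ρ g w)) := by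
    have : (((δ g : kˣ) : k) * ((δ h : kˣ) : k)) • ρ h⁻¹ (ρ g⁻¹ w)
        = ((δ h : kˣ) : k) • ρ h⁻¹ (((δ g : kˣ) : k) • ρ g⁻¹ w) := by
      rw [map_smul, smul_smul, mul_comm]
    rw [this, e2, map_sub, map_smul, smul_sub, smul_comm, e4, e5]
  rw [e6] at e1
  have e7 : ρ g (ρ h w) + ρ h (ρ g w)
      = tgh • w - (tg • (th • w - ρ h w) - (th • ρ g w - ρ h (ρ g w))) + ρ h (ρ g w) := by
    rw [e1]; abel
  rw [e7]
  module

/-- Irreducibility of `(U, ρ)`. -/
def s29_q_Irr (ρ : G →* Module.End k U) : Prop :=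
  ∀ S : Submodule k U, (∀ g : G, ∀ w ∈ S, ρ g w ∈ S) → S = ⊥ ∨ S = ⊤

/-- If `u` is an eigenvector of `ρ g` for the root `lam`, then `ρ g - (t - lam)` has image in
the line `k u`. -/
theorem s29_q_star {ρ : G →* Module.End k U} {δ : G →* kˣ} (hirr : s29_q_Irr ρ)
    (hq : ∀ g : G, ∃ t : k, s29_q_Rel ρ δ g t) {g : G} {t : k} (hg : s29_q_Rel ρ δ g t)
    {lam : k} {u : U} (hu : u ≠ 0) (hev : ρ g u = lam • u) (w : U) :
    ρ g w - (t - lam) • w ∈ Submodule.span k {u} := by
  let O : Submodule k U := Submodule.span k (Set.range fun h : G => ρ h u)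
  have hO_stable : ∀ g' : G, ∀ w ∈ O, ρ g' w ∈ O := by
    intro g' w hw
    induction hw using Submodule.span_induction with
    | mem x hx =>
      obtain ⟨h, rfl⟩ := hx
      exact Submodule.subset_span ⟨g' * h, by simp [map_mul]⟩
    | zero => simp
    | add x y _ _ hx hy => rw [map_add]; exact add_mem hx hy
    | smul c x _ hx => rw [map_smul]; exact Submodule.smul_mem _ _ hx
  have huO : u ∈ O := Submodule.subset_span ⟨1, by simp⟩
  have hOtop : O = ⊤ := (hirr O hO_stable).resolve_left (fun h => hu (by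
    rw [h] at huO; simpa using huO))
  have hw : w ∈ O := hOtop ▸ Submodule.mem_top
  induction hw using Submodule.span_induction with
  | mem x hx =>
    obtain ⟨h, rfl⟩ := hx
    obtain ⟨th, hth⟩ := hq h
    obtain ⟨tgh, htgh⟩ := hq (g * h)
    have key := s29_q_key hg hth htgh u
    rw [hev, map_smul] at key
    have e : ρ g (ρ h u) - (t - lam) • ρ h u = (tgh - t * th + th * lam) • u := by
      have : ρ g (ρ h u) = (tgh - t * th) • u + th • lam • u + t • ρ h u - lam • ρ h u := by
        rw [← key]; abel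
      rw [this]; module
    show ρ g (ρ h u) - (t - lam) • ρ h u ∈ Submodule.span k {u}
    rw [e]
    exact Submodule.smul_mem _ _ (Submodule.mem_span_singleton_self u)
  | zero => simp
  | add x y _ _ hx hy =>
    have : ρ g (x + y) - (t - lam) • (x + y)
        = (ρ g x - (t - lam) • x) + (ρ g y - (t - lam) • y) := by
      rw [map_add, smul_add]; abel
    rw [this]; exact add_mem hx hy
  | smul c x _ hx =>
    have : ρ g (c • x) - (t - lam) • (c • x) = c • (ρ g x - (t - lam) • x) := by
      rw [map_smul, smul_sub, smul_comm]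
    rw [this]; exact Submodule.smul_mem _ _ hx

theorem s29_q_scalar_of_three [FiniteDimensional k U] [IsAlgClosed k]
    {ρ : G →* Module.End k U} {δ : G →* kˣ} (hirr : s29_q_Irr ρ)
    (hq : ∀ g : G, ∃ t : k, s29_q_Rel ρ δ g t) (h3 : 3 ≤ Module.finrank k U) (g : G) :
    ∃ c : k, ∀ w : U, ρ g w = c • w := by
  obtain ⟨t, ht⟩ := hq g
  haveI : Nontrivial U := Module.nontrivial_of_finrank_pos (R := k) (by omega)
  obtain ⟨lam, hlam⟩ := Module.End.exists_eigenvalue (ρ g)
  obtain ⟨u, hu⟩ := hlam.exists_hasEigenvector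
  have hu0 : u ≠ 0 := hu.2
  have hev : ρ g u = lam • u := hu.apply_eq_smul
  let f : Module.End k U := ρ g - (t - lam) • (1 : Module.End k U)
  have hf : ∀ w, f w = ρ g w - (t - lam) • w := fun w => by simp [f]
  have hrange : LinearMap.range f ≤ Submodule.span k {u} := by
    rintro _ ⟨w, rfl⟩
    rw [hf]
    exact s29_q_star hirr hq ht hu0 hev w
  have h1 : Module.finrank k (LinearMap.range f) ≤ 1 :=
    (Submodule.finrank_mono hrange).trans (finrank_span_singleton hu0).le
  have hk : Module.finrank k (LinearMap.range f) + Module.finrank k (LinearMap.ker f)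
      = Module.finrank k U := LinearMap.finrank_range_add_finrank_ker f
  have h2 : 2 ≤ Module.finrank k (LinearMap.ker f) := by omega
  obtain ⟨u1, hu1, hu1ne⟩ : ∃ u1 ∈ LinearMap.ker f, u1 ≠ 0 := by
    apply (Submodule.ne_bot_iff _).mp
    intro h
    rw [h, finrank_bot] at h2
    omega
  have hnot : ¬ ((LinearMap.ker f : Set U) ⊆ (Submodule.span k {u1} : Set U)) := by
    intro hle
    have hle' : LinearMap.ker f ≤ Submodule.span k {u1} := hle
    have := Submodule.finrank_mono hle'
    rw [finrank_span_singleton hu1ne] at this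
    omega
  obtain ⟨u2, hu2, hu2n⟩ := Set.not_subset.mp hnot
  have hu2ne : u2 ≠ 0 := by
    rintro rfl
    exact hu2n (Submodule.zero_mem _)
  have ev1 : ρ g u1 = (t - lam) • u1 := by
    have := LinearMap.mem_ker.mp hu1
    rw [hf, sub_eq_zero] at this
    exact this
  have ev2 : ρ g u2 = (t - lam) • u2 := by
    have := LinearMap.mem_ker.mp hu2
    rw [hf, sub_eq_zero] at this
    exact this
  refine ⟨lam, fun w => ?_⟩
  have s1 := s29_q_star hirr hq ht hu1ne ev1 w
  have s2 := s29_q_star hirr hq ht hu2ne ev2 w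
  rw [sub_sub_cancel] at s1 s2
  obtain ⟨a, ha⟩ := Submodule.mem_span_singleton.mp s1
  obtain ⟨b, hb⟩ := Submodule.mem_span_singleton.mp s2
  by_cases hb0 : b = 0
  · rw [hb0, zero_smul] at hb
    exact sub_eq_zero.mp hb.symm
  · exfalso
    apply hu2n
    have : u2 = (b⁻¹ * a) • u1 := by
      rw [mul_smul, ha, ← hb, smul_smul, inv_mul_cancel₀ hb0, one_smul]
    rw [this]
    exact Submodule.smul_mem _ _ (Submodule.mem_span_singleton_self u1)

theorem s29_q_finrank_le_one_of_scalar [FiniteDimensional k U]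
    {ρ : G →* Module.End k U} (hirr : s29_q_Irr ρ)
    (hs : ∀ g : G, ∃ c : k, ∀ w : U, ρ g w = c • w) : Module.finrank k U ≤ 1 := by
  by_cases hU : ∃ u0 : U, u0 ≠ 0
  · obtain ⟨u0, hu0⟩ := hU
    have hst : ∀ g : G, ∀ w ∈ Submodule.span k {u0}, ρ g w ∈ Submodule.span k {u0} := by
      intro g w hw
      obtain ⟨c, hc⟩ := hs g
      rw [hc]
      exact Submodule.smul_mem _ _ hw
    rcases hirr _ hst with h | h
    · exfalso
      have : u0 ∈ Submodule.span k {u0} := Submodule.mem_span_singleton_self u0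
      rw [h] at this
      exact hu0 (by simpa using this)
    · have := finrank_span_singleton (K := k) hu0
      rw [h, finrank_top] at this
      omega
  · push Not at hU
    haveI : Subsingleton U := ⟨fun a b => by rw [hU a, hU b]⟩
    rw [Module.finrank_zero_of_subsingleton]
    omega

theorem s29_q_finrank_le_two [FiniteDimensional k U] [IsAlgClosed k]
    {ρ : G →* Module.End k U} {δ : G →* kˣ} (hirr : s29_q_Irr ρ)
    (hq : ∀ g : G, ∃ t : k, s29_q_Rel ρ δ g t) : Module.finrank k U ≤ 2 := by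
  by_contra h
  have h3 : 3 ≤ Module.finrank k U := by omega
  have := s29_q_finrank_le_one_of_scalar hirr (fun g => s29_q_scalar_of_three hirr hq h3 g)
  omega

/-- Cayley–Hamilton for `2 × 2` matrices. -/
theorem s29_q_ch2 (A : Matrix (Fin 2) (Fin 2) k) :
    A * A - A.trace • A + A.det • (1 : Matrix (Fin 2) (Fin 2) k) = 0 := by
  ext i j
  fin_cases i <;> fin_cases j <;>
    simp [Matrix.mul_apply, Fin.sum_univ_two, Matrix.trace_fin_two, Matrix.det_fin_two] <;> ring

/-- In dimension two, every valid `t` is the trace and `δ` is the determinant. -/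
theorem s29_q_two [FiniteDimensional k U] {ρ : G →* Module.End k U} {δ : G →* kˣ}
    (hirr : s29_q_Irr ρ) (hq : ∀ g : G, ∃ t : k, s29_q_Rel ρ δ g t)
    (h2 : Module.finrank k U = 2) (g : G) (t : k) (hg : s29_q_Rel ρ δ g t) :
    LinearMap.charpoly (ρ g) = X ^ 2 - C t * X + C ((δ g : kˣ) : k) := by
  classical
  let b : Module.Basis (Fin 2) k U := Module.finBasisOfFinrankEq k U h2
  let M : G → Matrix (Fin 2) (Fin 2) k := fun g => LinearMap.toMatrix b b (ρ g)
  have hM_mul : ∀ g h : G, M (g * h) = M g * M h := fun g h => by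
    simp only [M, map_mul]
    exact LinearMap.toMatrix_mul b (ρ g) (ρ h)
  have hM_one : M 1 = 1 := by
    simp only [M, map_one]
    exact LinearMap.toMatrix_one b
  have hM_rel : ∀ (g : G) (t : k), s29_q_Rel ρ δ g t →
      M g * M g - t • M g + ((δ g : kˣ) : k) • (1 : Matrix (Fin 2) (Fin 2) k) = 0 := by
    intro g t h
    have h' := congrArg (LinearMap.toMatrix b b) h
    rw [map_add, map_sub, map_smul, map_smul, map_zero] at h'
    rw [show LinearMap.toMatrix b b (ρ g * ρ g) = M g * M g from LinearMap.toMatrix_mul b _ _,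
      show LinearMap.toMatrix b b (1 : Module.End k U) = 1 from LinearMap.toMatrix_one b] at h'
    exact h'
  have hscal : ∀ (g : G) (c : k), M g = c • (1 : Matrix (Fin 2) (Fin 2) k) →
      ∀ w : U, ρ g w = c • w := by
    intro g c h w
    have h1 : LinearMap.toMatrix b b (ρ g) = LinearMap.toMatrix b b (c • (1 : Module.End k U)) := by
      rw [map_smul]
      rw [show LinearMap.toMatrix b b (1 : Module.End k U) = 1 from LinearMap.toMatrix_one b]
      exact h
    have h2 := (LinearMap.toMatrix b b).injective h1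
    rw [h2]
    simp
  -- non-scalar elements
  have key2 : ∀ (g : G) (t : k), s29_q_Rel ρ δ g t →
      (¬ ∃ c : k, M g = c • (1 : Matrix (Fin 2) (Fin 2) k)) →
      (M g).trace = t ∧ (M g).det = ((δ g : kˣ) : k) := by
    intro g t h hns
    have h1 := hM_rel g t h
    have h2 := s29_q_ch2 (M g)
    have h3 : (t - (M g).trace) • M g
        = (((δ g : kˣ) : k) - (M g).det) • (1 : Matrix (Fin 2) (Fin 2) k) := by
      have e : (t - (M g).trace) • M g
          - (((δ g : kˣ) : k) - (M g).det) • (1 : Matrix (Fin 2) (Fin 2) k)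
          = (M g * M g - (M g).trace • M g + (M g).det • (1 : Matrix (Fin 2) (Fin 2) k))
            - (M g * M g - t • M g + ((δ g : kˣ) : k) • (1 : Matrix (Fin 2) (Fin 2) k)) := by
        simp only [sub_smul]
        abel
      rw [← sub_eq_zero, e, h1, h2, sub_zero]
    have ht : (M g).trace = t := by
      by_contra hne
      apply hns
      have hne' : t - (M g).trace ≠ 0 := sub_ne_zero.mpr (Ne.symm hne)
      refine ⟨(t - (M g).trace)⁻¹ * (((δ g : kˣ) : k) - (M g).det), ?_⟩
      calc M g = (t - (M g).trace)⁻¹ • ((t - (M g).trace) • M g) := by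
            rw [smul_smul, inv_mul_cancel₀ hne', one_smul]
        _ = _ := by rw [h3, smul_smul]
    refine ⟨ht, ?_⟩
    rw [ht, sub_self, zero_smul] at h3
    have h4 := congrFun (congrFun h3 0) 0
    simp at h4
    exact (sub_eq_zero.mp h4.symm).symm
  -- existence of a non-scalar element
  have hex : ∃ h0 : G, ¬ ∃ c : k, M h0 = c • (1 : Matrix (Fin 2) (Fin 2) k) := by
    by_contra hall
    push Not at hall
    have := s29_q_finrank_le_one_of_scalar hirr (fun g => by
      obtain ⟨c, hc⟩ := hall g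
      exact ⟨c, hscal g c hc⟩)
    omega
  obtain ⟨h0, hh0⟩ := hex
  have htd : (M g).trace = t ∧ (M g).det = ((δ g : kˣ) : k) := by
    by_cases hs : ∃ c : k, M g = c • (1 : Matrix (Fin 2) (Fin 2) k)
    · obtain ⟨c, hc⟩ := hs
      have hc0 : c ≠ 0 := by
        rintro rfl
        have h1 : M g * M g⁻¹ = 1 := by rw [← hM_mul, mul_inv_cancel, hM_one]
        rw [hc, zero_smul, zero_mul] at h1
        have := congrFun (congrFun h1 0) 0
        simp at this
      have hgh : ¬ ∃ c' : k, M (g * h0) = c' • (1 : Matrix (Fin 2) (Fin 2) k) := by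
        rintro ⟨c', hc'⟩
        apply hh0
        refine ⟨c⁻¹ * c', ?_⟩
        rw [hM_mul, hc, smul_mul_assoc, one_mul] at hc'
        calc M h0 = c⁻¹ • (c • M h0) := by rw [smul_smul, inv_mul_cancel₀ hc0, one_smul]
          _ = _ := by rw [hc', smul_smul]
      obtain ⟨t0, ht0⟩ := hq h0
      obtain ⟨t1, ht1⟩ := hq (g * h0)
      have d0 := (key2 h0 t0 ht0 hh0).2
      have d1 := (key2 (g * h0) t1 ht1 hgh).2
      rw [hM_mul, Matrix.det_mul, d0, map_mul, Units.val_mul] at d1
      have hdet : (M g).det = ((δ g : kˣ) : k) :=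
        mul_right_cancel₀ (Units.ne_zero (δ h0)) d1
      have hdet' : (M g).det = c ^ 2 := by
        rw [hc, Matrix.det_smul, Matrix.det_one, Fintype.card_fin, mul_one]
      have htr' : (M g).trace = 2 * c := by
        rw [hc, Matrix.trace_smul, Matrix.trace_one, Fintype.card_fin]
        simp [mul_comm]
      have hrel := congrFun (congrFun (hM_rel g t hg) 0) 0
      rw [hc] at hrel
      simp at hrel
      refine ⟨?_, hdet⟩
      rw [htr']
      have hδ : ((δ g : kˣ) : k) = c ^ 2 := by rw [← hdet, hdet']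
      rw [hδ] at hrel
      have : c * (2 * c - t) = 0 := by linear_combination hrel
      rcases mul_eq_zero.mp this with h | h
      · exact absurd h hc0
      · exact sub_eq_zero.mp h
    · exact key2 g t hg hs
  rw [← LinearMap.charpoly_toMatrix (ρ g) b, Matrix.charpoly_fin_two]
  show X ^ 2 - C (M g).trace * X + C (M g).det = _
  rw [htd.1, htd.2]

/-- In dimension one the representation is a character `ψ` which is a root of every valid
quadratic. -/
theorem s29_q_one [FiniteDimensional k U] {ρ : G →* Module.End k U} {δ : G →* kˣ}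
    (h1 : Module.finrank k U = 1) :
    ∃ ψ : G →* kˣ, (∀ (g : G) (t : k), s29_q_Rel ρ δ g t →
        ((ψ g : kˣ) : k) ^ 2 - t * ((ψ g : kˣ) : k) + ((δ g : kˣ) : k) = 0) ∧
      (∀ g : G, ρ g = 1 → ψ g = 1) := by
  obtain ⟨u, hu, hspan⟩ := finrank_eq_one_iff'.mp h1
  choose ψ0 hψ0 using fun g : G => hspan (ρ g u)
  have hinj : Function.Injective fun c : k => c • u := smul_left_injective k hu
  have hmul : ∀ g h : G, ψ0 (g * h) = ψ0 g * ψ0 h := by
    intro g h
    apply hinj
    show ψ0 (g * h) • u = (ψ0 g * ψ0 h) • u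
    rw [hψ0, map_mul, Module.End.mul_apply, ← hψ0 h, map_smul, ← hψ0 g, smul_smul, mul_comm]
  have hone : ψ0 1 = 1 := by
    apply hinj
    show ψ0 1 • u = (1 : k) • u
    rw [hψ0, map_one, one_smul, Module.End.one_apply]
  let ψm : G →* k := { toFun := ψ0, map_one' := hone, map_mul' := hmul }
  refine ⟨ψm.toHomUnits, ?_, ?_⟩
  · intro g t h
    have h2 := s29_q_rel_apply h u
    rw [← hψ0 g, map_smul, ← hψ0 g] at h2
    have h3 : (ψ0 g ^ 2 - t * ψ0 g + ((δ g : kˣ) : k)) • u = 0 := by
      rw [← h2]; module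
    rcases smul_eq_zero.mp h3 with h4 | h4
    · exact h4
    · exact absurd h4 hu
  · intro g hg
    apply Units.ext
    show ψ0 g = 1
    apply hinj
    show ψ0 g • u = (1 : k) • u
    rw [hψ0, hg, one_smul, Module.End.one_apply]

/-- The diagonal representation `ψ₁ ⊕ ψ₂` on `k²`. -/
noncomputable def s29_q_diag (ψ₁ ψ₂ : G →* kˣ) : G →* Module.End k (Fin 2 → k) where
  toFun g := Matrix.toLin' (Matrix.diagonal fun i : Fin 2 =>
    if i = 0 then ((ψ₁ g : kˣ) : k) else ((ψ₂ g : kˣ) : k))
  map_one' := by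
    have : (fun i : Fin 2 => if i = 0 then (((ψ₁ 1 : kˣ) : k)) else ((ψ₂ 1 : kˣ) : k))
        = fun _ => (1 : k) := by
      funext i; simp
    rw [this, Matrix.diagonal_one, Matrix.toLin'_one]
    rfl
  map_mul' g h := by
    rw [Module.End.mul_eq_comp, ← Matrix.toLin'_mul, Matrix.diagonal_mul_diagonal]
    congr 2
    funext i
    by_cases hi : i = 0 <;> simp [hi]

theorem s29_q_diag_apply (ψ₁ ψ₂ : G →* kˣ) (g : G) :
    s29_q_diag ψ₁ ψ₂ g = Matrix.toLin' (Matrix.diagonal fun i : Fin 2 =>
      if i = 0 then ((ψ₁ g : kˣ) : k) else ((ψ₂ g : kˣ) : k)) := rfl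

theorem s29_q_diag_charpoly (ψ₁ ψ₂ : G →* kˣ) (g : G) :
    LinearMap.charpoly (s29_q_diag ψ₁ ψ₂ g)
      = X ^ 2 - C (((ψ₁ g : kˣ) : k) + ((ψ₂ g : kˣ) : k)) * X
        + C (((ψ₁ g : kˣ) : k) * ((ψ₂ g : kˣ) : k)) := by
  rw [s29_q_diag_apply, Matrix.charpoly_toLin', Matrix.charpoly_fin_two, Matrix.trace_fin_two,
    Matrix.det_fin_two]
  simp

theorem s29_q_diag_one (ψ₁ ψ₂ : G →* kˣ) (g : G) (h1 : ψ₁ g = 1) (h2 : ψ₂ g = 1) :
    s29_q_diag ψ₁ ψ₂ g = 1 := by
  rw [s29_q_diag_apply]
  have : (fun i : Fin 2 => if i = 0 then (((ψ₁ g : kˣ) : k)) else ((ψ₂ g : kˣ) : k))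
      = fun _ => (1 : k) := by
    funext i; simp [h1, h2]
  rw [this, Matrix.diagonal_one, Matrix.toLin'_one]
  rfl

end Core

section Pow

variable {k : Type*} [Field k]

theorem s29_q_pow_comm {R : Type*} [CommRing R] [Algebra k R] (x : R) (t d : k)
    (h : x * x - t • x + d • (1 : R) = 0) (i : ℕ) :
    ∃ s : k, x ^ i * x ^ i - s • x ^ i + d ^ i • (1 : R) = 0 := by
  simp only [Algebra.smul_def, mul_one] at h ⊢
  set a := algebraMap k R with ha
  set y : R := a t - x with hy
  have hxy : x * y = a d := by rw [hy]; linear_combination (-1 : R) * h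
  have hxpy : x + y = a t := by rw [hy]; ring
  have claim : ∀ n : ℕ, ∃ s : k, x ^ n + y ^ n = a s := by
    intro n
    induction n using Nat.twoStepInduction with
    | zero => exact ⟨2, by rw [pow_zero, pow_zero, map_ofNat]; norm_num⟩
    | one => exact ⟨t, by rw [pow_one, pow_one, hxpy]⟩
    | more n h0 h1 =>
      obtain ⟨s0, hs0⟩ := h0
      obtain ⟨s1, hs1⟩ := h1
      refine ⟨t * s1 - d * s0, ?_⟩
      rw [map_sub, map_mul, map_mul]
      linear_combination (x + y) * hs1 - (x * y) * hs0 + (a s1) * hxpy - (a s0) * hxy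
  obtain ⟨s, hs⟩ := claim i
  refine ⟨s, ?_⟩
  have hpow : x ^ i * y ^ i = (a d) ^ i := by rw [← mul_pow, hxy]
  rw [map_pow]
  linear_combination (x ^ i) * hs - hpow

/-- Quadratic elements are stable under powers. -/
theorem s29_q_pow {B : Type*} [Ring B] [Algebra k B] (x : B) (t d : k)
    (h : x * x - t • x + d • (1 : B) = 0) (i : ℕ) :
    ∃ s : k, x ^ i * x ^ i - s • x ^ i + d ^ i • (1 : B) = 0 := by
  let A : Subalgebra k B := Algebra.adjoin k ({x} : Set B)
  letI : CommRing A := Algebra.adjoinCommRingOfComm k (by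
    intro a ha b hb
    rw [Set.mem_singleton_iff] at ha hb
    rw [ha, hb])
  let x' : A := ⟨x, Algebra.subset_adjoin (Set.mem_singleton x)⟩
  have h' : x' * x' - t • x' + d • (1 : A) = 0 := by
    apply Subtype.ext
    simpa using h
  obtain ⟨s, hs⟩ := s29_q_pow_comm x' t d h' i
  refine ⟨s, ?_⟩
  have := congrArg (fun z : A => (z : B)) hs
  simpa using this

end Pow

section Main

variable {k : Type} [Field k] [IsAlgClosed k] {G : Type} [Group G]
  {W : Type} [AddCommGroup W] [Module k W] [Module.Finite k W] [Nontrivial W]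

/-- **(G2)** The quadratic lemma. -/
theorem s29_q_main (ρ : G →* Module.End k W) (δ : G →* kˣ)
    (hq : ∀ g : G, ∃ t : k,
      ρ g * ρ g - t • ρ g + ((δ g : kˣ) : k) • (1 : Module.End k W) = 0) :
    ∃ (V : Type) (_ : AddCommGroup V) (_ : Module k V) (_ : Module.Finite k V)
      (ρ' : G →* Module.End k V),
      Module.finrank k V = 2 ∧
      (∀ (g : G) (t : k),
        ρ g * ρ g - t • ρ g + ((δ g : kˣ) : k) • (1 : Module.End k W) = 0 →
        LinearMap.charpoly (ρ' g) = X ^ 2 - C t * X + C ((δ g : kˣ) : k)) ∧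
      (∀ g : G, ρ g = 1 → δ g = 1 → ρ' g = 1) := by
  classical
  -- a stable nonzero subspace of minimal dimension
  let P : Submodule k W → Prop := fun S => S ≠ ⊥ ∧ ∀ g : G, ∀ w ∈ S, ρ g w ∈ S
  have hP : ∃ n : ℕ, ∃ S : Submodule k W, P S ∧ Module.finrank k S = n :=
    ⟨_, ⊤, ⟨top_ne_bot, fun _ _ _ => Submodule.mem_top⟩, rfl⟩
  obtain ⟨S, hS, hSn⟩ := Nat.find_spec hP
  have hmin : ∀ S' : Submodule k W, P S' → Module.finrank k S ≤ Module.finrank k S' := by
    intro S' hS'
    rw [hSn]
    exact Nat.find_min' hP ⟨S', hS', rfl⟩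
  -- the restricted representation
  let ρS : G →* Module.End k S :=
    { toFun := fun g => (ρ g).restrict (hS.2 g)
      map_one' := by
        ext w
        simp
      map_mul' := fun g h => by
        ext w
        simp [map_mul] }
  have hρS : ∀ (g : G) (w : S), ((ρS g w : S) : W) = ρ g (w : W) := fun g w => rfl
  have hirr : s29_q_Irr ρS := by
    intro T hT
    by_cases hTb : T = ⊥
    · exact Or.inl hTb
    · right
      have hP' : P (T.map S.subtype) := by
        refine ⟨?_, ?_⟩
        · intro h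
          apply hTb
          exact Submodule.map_injective_of_injective S.injective_subtype
            (h.trans (Submodule.map_bot _).symm)
        · rintro g _ ⟨x, hx, rfl⟩
          exact ⟨ρS g x, hT g x hx, rfl⟩
      have h1 := hmin _ hP'
      have h2 : Module.finrank k (T.map S.subtype) = Module.finrank k T :=
        (Submodule.equivSubtypeMap S T).symm.finrank_eq
      apply Submodule.eq_top_of_finrank_eq
      have h3 : Module.finrank k T ≤ Module.finrank k S := Submodule.finrank_le T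
      omega
  have hrelS : ∀ (g : G) (t : k),
      ρ g * ρ g - t • ρ g + ((δ g : kˣ) : k) • (1 : Module.End k W) = 0 →
      s29_q_Rel ρS δ g t := by
    intro g t h
    ext w
    have := congrArg (fun f : Module.End k W => f (w : W)) h
    simpa [s29_q_Rel, hρS] using this
  have hqS : ∀ g : G, ∃ t : k, s29_q_Rel ρS δ g t := fun g => by
    obtain ⟨t, ht⟩ := hq g
    exact ⟨t, hrelS g t ht⟩
  have hle2 : Module.finrank k S ≤ 2 := s29_q_finrank_le_two hirr hqS
  have hpos : 0 < Module.finrank k S := by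
    rw [Module.finrank_pos_iff_exists_ne_zero]
    obtain ⟨x, hx, hx0⟩ := (Submodule.ne_bot_iff _).mp hS.1
    exact ⟨⟨x, hx⟩, fun h => hx0 (congrArg Subtype.val h)⟩
  rcases (show Module.finrank k S = 2 ∨ Module.finrank k S = 1 by omega) with h2 | h1
  · refine ⟨S, inferInstance, inferInstance, inferInstance, ρS, h2, ?_, ?_⟩
    · intro g t h
      exact s29_q_two hirr hqS h2 g t (hrelS g t h)
    · intro g hg _
      ext w
      rw [hρS, hg]
      rfl
  · obtain ⟨ψ, hψ, hψ1⟩ := s29_q_one (ρ := ρS) (δ := δ) h1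
    refine ⟨Fin 2 → k, inferInstance, inferInstance, inferInstance, s29_q_diag ψ (δ / ψ),
      ?_, ?_, ?_⟩
    · exact Module.finrank_fin_fun k
    · intro g t h
      have hr := hψ g t (hrelS g t h)
      rw [s29_q_diag_charpoly]
      have hne : ((ψ g : kˣ) : k) ≠ 0 := Units.ne_zero _
      have e1 : (((δ / ψ) g : kˣ) : k) = ((δ g : kˣ) : k) / ((ψ g : kˣ) : k) := by
        rw [MonoidHom.div_apply, Units.val_div_eq_div_val]
      rw [e1]
      have e2 : ((ψ g : kˣ) : k) + ((δ g : kˣ) : k) / ((ψ g : kˣ) : k) = t := by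
        field_simp
        linear_combination hr
      have e3 : ((ψ g : kˣ) : k) * (((δ g : kˣ) : k) / ((ψ g : kˣ) : k)) = ((δ g : kˣ) : k) := by
        field_simp
      rw [e2, e3]
    · intro g hg hδ
      apply s29_q_diag_one
      · apply hψ1
        ext w
        rw [hρS, hg]
        rfl
      · rw [MonoidHom.div_apply, hδ, one_div, inv_eq_one]
        apply hψ1
        ext w
        rw [hρS, hg]
        rfl

end Main

end Fermat.Agent.S29
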