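import Mathlib
import Fermat.Prelude.Def_GaloisRep_Residual
import Fermat.Prelude.Def_ExtCitation_KummerBridge
import Fermat.Agent.S55.IfaceTwist
import Fermat.Agent.S29.Quad

/-!
# S29: the Galois-side assembly

From a nonzero finite-dimensional representation `W` of `Gal(ℚ̄/ℚ)` over an algebraically closed
field of characteristic `p`, of finite level, unramified outside `Np` and satisfying the
Eichler–Shimura relation `σ² - a_ℓ σ + ℓ = 0` at every Frobenius lift, we extract a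
two-dimensional residual representation with the exact characteristic polynomials
(`s29_asm_core`, modulo the weak Chebotarev statement `s29_asm_Cheb`).
-/

set_option autoImplicit false

open Polynomial

namespace Fermat.Agent.S29

local notation "Qb" => AlgebraicClosure ℚ
local notation "Γ" => (AlgebraicClosure ℚ ≃ₐ[ℚ] AlgebraicClosure ℚ)

/-- The weak Chebotarev statement consumed by the assembly (block (G1)). -/
def s29_asm_Cheb : Prop :=
  ∀ (K : IntermediateField ℚ Qb) [FiniteDimensional ℚ K] (S : Finset ℕ) (g : Γ),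
    ∃ (ℓ : ℕ) (A : ValuationSubring Qb) (σ : Γ) (j : ℕ), ℓ.Prime ∧ ℓ ∉ S ∧
      A.LiesOverPrime ℓ ∧ A.IsFrobeniusAt σ ℓ ∧ ∀ x ∈ K, g x = (σ ^ j) x

/-- A Frobenius element at `A` raises elements of `A` to the `ℓ`-th power modulo the maximal
ideal. -/
theorem s29_asm_frob_mem {A : ValuationSubring Qb} {σ : Γ} {ℓ : ℕ} (h : A.IsFrobeniusAt σ ℓ)
    (a : Qb) (ha : a ∈ A) : σ a - a ^ ℓ ∈ A.nonunits := by
  obtain ⟨hσ, hF⟩ := h
  have h1 := hF (IsLocalRing.residue A ⟨a, ha⟩)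
  rw [← IsLocalRing.ResidueField.residue_smul, ← map_pow, ← sub_eq_zero, ← map_sub,
    IsLocalRing.residue_eq_zero_iff, ← ValuationSubring.coe_mem_nonunits_iff] at h1
  exact h1

/-- Two `p`-th roots of unity which are congruent modulo a place over `q ≠ p` are equal. -/
theorem s29_asm_root_inj (p : ℕ) [Fact p.Prime] (q : ℕ) (hq : Nat.Coprime p q)
    (A : ValuationSubring Qb) (hA : A.LiesOverPrime q) (u v : Qb) (hu : u ^ p = 1)
    (hv : v ^ p = 1) (huv : u - v ∈ A.nonunits) : u = v := by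
  by_contra hne
  have hp : p ≠ 0 := (Fact.out : p.Prime).ne_zero
  have hv0 : v ≠ 0 := by
    rintro rfl
    rw [zero_pow hp] at hv
    exact zero_ne_one hv
  have hvinv : v⁻¹ ∈ A := Fermat.Agent.S55.pt_rootOfUnity_mem A p hp v⁻¹ (by
    rw [inv_pow, hv, inv_one])
  have huA : u ∈ A := Fermat.Agent.S55.pt_rootOfUnity_mem A p hp u hu
  set η : Qb := u * v⁻¹ with hη
  have hηp : η ^ p = 1 := by rw [hη, mul_pow, hu, inv_pow, hv, inv_one, mul_one]
  have hη1 : η ≠ 1 := by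
    intro h
    apply hne
    rw [hη] at h
    exact (mul_inv_eq_one₀ hv0).mp h
  have hηA : η ∈ A := mul_mem huA hvinv
  have hsub : η - 1 ∈ A.nonunits := by
    have h2 := Fermat.Agent.S55.pt_nonunits_mul_mem A _ _ huv hvinv
    have h3 : (u - v) * v⁻¹ = η - 1 := by
      rw [sub_mul, mul_inv_cancel₀ hv0]
    rw [h3] at h2
    exact h2
  have hsum : ∑ i ∈ Finset.range p, η ^ i = 0 := by
    have h1 : (η - 1) * ∑ i ∈ Finset.range p, η ^ i = 0 := by
      rw [mul_geom_sum, hηp, sub_self]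
    rcases mul_eq_zero.mp h1 with h | h
    · exact absurd (sub_eq_zero.mp h) hη1
    · exact h
  have hpm : (p : Qb) ∈ A.nonunits := by
    have h1 : (p : Qb) = - ∑ i ∈ Finset.range p, (η ^ i - 1) := by
      rw [Finset.sum_sub_distrib, hsum]
      simp
    rw [h1]
    refine neg_mem (sum_mem fun i _ => ?_)
    have h2 : η ^ i - 1 = (η - 1) * ∑ j ∈ Finset.range i, η ^ j := by
      rw [mul_geom_sum]
    rw [h2]
    exact Fermat.Agent.S55.pt_nonunits_mul_mem A _ _ hsub (sum_mem fun j _ => pow_mem hηA j)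
  have hqm : (q : Qb) ∈ A.nonunits := hA
  have hcop : IsCoprime (p : ℤ) (q : ℤ) := Nat.isCoprime_iff_coprime.mpr hq
  obtain ⟨a, b, hab⟩ := hcop
  have h1 : (1 : Qb) ∈ A.nonunits := by
    have h2 : (1 : Qb) = a • (p : Qb) + b • (q : Qb) := by
      have := congrArg (Int.cast : ℤ → Qb) hab
      push_cast at this
      rw [zsmul_eq_mul, zsmul_eq_mul]
      exact this.symm
    rw [h2]
    exact add_mem (zsmul_mem hpm a) (zsmul_mem hqm b)
  rw [ValuationSubring.mem_nonunits_iff, map_one] at h1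
  exact lt_irrefl _ h1

/-- A Frobenius lift at `ℓ ≠ p` acts on the `p`-th roots of unity by `t ↦ t ^ ℓ`. -/
theorem s29_asm_frob_root (p : ℕ) [Fact p.Prime] (ℓ : ℕ) (hℓ : Nat.Coprime p ℓ)
    (A : ValuationSubring Qb) (hA : A.LiesOverPrime ℓ) (σ : Γ) (h : A.IsFrobeniusAt σ ℓ)
    (t : Qb) (ht : t ^ p = 1) : σ t = t ^ ℓ := by
  have hp : p ≠ 0 := (Fact.out : p.Prime).ne_zero
  have htA : t ∈ A := Fermat.Agent.S55.pt_rootOfUnity_mem A p hp t ht
  refine s29_asm_root_inj p ℓ hℓ A hA (σ t) (t ^ ℓ) ?_ ?_ (s29_asm_frob_mem h t htA)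
  · rw [← map_pow, ht, map_one]
  · rw [← pow_mul, mul_comm, pow_mul, ht, one_pow]

/-- The mod `p` cyclotomic character of a Frobenius lift at `ℓ ≠ p` is `ℓ`. -/
theorem s29_asm_cycloChar_frob (p : ℕ) [Fact p.Prime] (ℓ : ℕ) (hℓ : Nat.Coprime p ℓ)
    (A : ValuationSubring Qb) (hA : A.LiesOverPrime ℓ) (σ : Γ) (h : A.IsFrobeniusAt σ ℓ) :
    ((ExtCitation.cycloChar p σ : (ZMod p)ˣ) : ZMod p) = (ℓ : ZMod p) := by
  have : NeZero p := ⟨(Fact.out : p.Prime).ne_zero⟩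
  have h1 : (ℓ : ZMod p) = modularCyclotomicCharacter Qb (ExtCitation.card_rootsOfUnity_eq_self p)
      (σ : Qb ≃+* Qb) := by
    apply modularCyclotomicCharacter.unique
    intro t ht
    have ht' : (t : Qb) ^ p = 1 := by
      have := (mem_rootsOfUnity p t).mp ht
      rw [← Units.val_pow_eq_pow_val, this, Units.val_one]
    have h2 := s29_asm_frob_root p ℓ hℓ A hA σ h (t : Qb) ht'
    rw [ZMod.val_natCast]
    have h3 : (t : Qb) ^ ℓ = (t : Qb) ^ (ℓ % p) := by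
      conv_lhs => rw [← Nat.mod_add_div ℓ p, pow_add, pow_mul, ht', one_pow, mul_one]
    rw [← h3]
    exact h2
  rw [h1]
  rfl

/-- The mod `p` cyclotomic character with values in a field of characteristic `p`. -/
noncomputable def s29_asm_delta (p : ℕ) [Fact p.Prime] (K0 : Type) [Field K0] [CharP K0 p] :
    Γ →* K0ˣ :=
  (Units.map ((ZMod.castHom (dvd_refl p) K0 : ZMod p →+* K0) : ZMod p →* K0)).comp
    (ExtCitation.cycloChar p)

theorem s29_asm_delta_coe (p : ℕ) [Fact p.Prime] (K0 : Type) [Field K0] [CharP K0 p] (σ : Γ) :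
    ((s29_asm_delta p K0 σ : K0ˣ) : K0)
      = ZMod.castHom (dvd_refl p) K0 ((ExtCitation.cycloChar p σ : (ZMod p)ˣ) : ZMod p) := rfl

theorem s29_asm_delta_frob (p : ℕ) [Fact p.Prime] (K0 : Type) [Field K0] [CharP K0 p]
    (ℓ : ℕ) (hℓ : Nat.Coprime p ℓ) (A : ValuationSubring Qb) (hA : A.LiesOverPrime ℓ) (σ : Γ)
    (h : A.IsFrobeniusAt σ ℓ) : ((s29_asm_delta p K0 σ : K0ˣ) : K0) = (ℓ : K0) := by
  rw [s29_asm_delta_coe, s29_asm_cycloChar_frob p ℓ hℓ A hA σ h, map_natCast]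

theorem s29_asm_delta_one (p : ℕ) [Fact p.Prime] (K0 : Type) [Field K0] [CharP K0 p] (σ : Γ)
    (h : ExtCitation.cycloChar p σ = 1) : s29_asm_delta p K0 σ = 1 := by
  show Units.map _ (ExtCitation.cycloChar p σ) = 1
  rw [h, map_one]

/-- **Galois-side assembly**, modulo weak Chebotarev. -/
theorem s29_asm_core (hcheb : s29_asm_Cheb) (p : ℕ) [Fact p.Prime] (N : ℕ) (hN : N ≠ 0)
    (K0 : Type) [Field K0] [IsAlgClosed K0] [CharP K0 p]
    (W : Type) [AddCommGroup W] [Module K0 W] [Module.Finite K0 W] [Nontrivial W]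
    (ρ : Γ →* Module.End K0 W) (hfin : GaloisFactorsThroughFiniteLevel ρ) (a : ℕ → K0)
    (hunr : ∀ ℓ : ℕ, ℓ.Prime → ¬ ℓ ∣ N * p → ∀ A : ValuationSubring Qb, A.LiesOverPrime ℓ →
      ∀ σ ∈ A.inertiaSubgroupIn ℚ, ρ σ = 1)
    (hES : ∀ ℓ : ℕ, ℓ.Prime → ¬ ℓ ∣ N * p → ∀ A : ValuationSubring Qb, A.LiesOverPrime ℓ →
      ∀ σ : Γ, A.IsFrobeniusAt σ ℓ →
        ρ σ * ρ σ - a ℓ • ρ σ + (ℓ : K0) • (1 : Module.End K0 W) = 0) :
    ∃ ρ' : ResidualGaloisRep K0,
      (∀ ℓ : ℕ, ℓ.Prime → ¬ ℓ ∣ N * p → ∀ A : ValuationSubring Qb, A.LiesOverPrime ℓ →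
        ∀ σ : Γ, A.IsFrobeniusAt σ ℓ →
          LinearMap.charpoly (ρ'.ρ σ) = X ^ 2 - C (a ℓ) * X + C (ℓ : K0)) ∧
      ∀ ℓ : ℕ, ℓ.Prime → ¬ ℓ ∣ N * p → ρ'.IsUnramifiedAt ℓ := by
  classical
  have hp : p.Prime := Fact.out
  obtain ⟨L1, hL1, hL1ρ⟩ := hfin
  obtain ⟨L2, hL2, hL2χ⟩ := Fermat.Agent.S55.pt_cycloChar_fin_level p
  haveI := hL1
  haveI := hL2
  let L : IntermediateField ℚ Qb := L1 ⊔ L2
  let δ : Γ →* K0ˣ := s29_asm_delta p K0
  have hcop : ∀ ℓ : ℕ, ℓ.Prime → ¬ ℓ ∣ N * p → Nat.Coprime p ℓ := by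
    intro ℓ hℓ hℓN
    refine (Nat.coprime_primes hp hℓ).mpr ?_
    rintro rfl
    exact hℓN (dvd_mul_left _ _)
  -- triviality on the fixing subgroup of `L`
  have hfixρ : ∀ τ : Γ, (∀ x ∈ L, τ x = x) → ρ τ = 1 := fun τ hτ =>
    hL1ρ τ fun x hx => hτ x ((le_sup_left : L1 ≤ L) hx)
  have hfixδ : ∀ τ : Γ, (∀ x ∈ L, τ x = x) → δ τ = 1 := fun τ hτ => by
    apply s29_asm_delta_one
    apply hL2χ
    rw [IntermediateField.mem_fixingSubgroup_iff]
    intro x hx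
    exact hτ x ((le_sup_right : L2 ≤ L) hx)
  -- every element is quadratic
  have key : ∀ g : Γ, ∃ t : K0,
      ρ g * ρ g - t • ρ g + ((δ g : K0ˣ) : K0) • (1 : Module.End K0 W) = 0 := by
    intro g
    obtain ⟨ℓ, A, σ, j, hℓ, hℓS, hA, hF, hag⟩ := hcheb L (N * p).primeFactors g
    have hℓN : ¬ ℓ ∣ N * p := fun h =>
      hℓS (Nat.mem_primeFactors.mpr ⟨hℓ, h, Nat.mul_ne_zero hN hp.ne_zero⟩)
    have hrel := hES ℓ hℓ hℓN A hA σ hF
    have hτ : ∀ x ∈ L, (g⁻¹ * σ ^ j) x = x := by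
      intro x hx
      rw [AlgEquiv.mul_apply, ← hag x hx]
      show g⁻¹ (g x) = x
      rw [AlgEquiv.aut_inv, AlgEquiv.symm_apply_apply]
    have h1 : ρ g = ρ σ ^ j := by
      have := hfixρ _ hτ
      rw [map_mul, map_pow] at this
      have h2 : ρ g * (ρ g⁻¹ * ρ σ ^ j) = ρ g := by rw [this, mul_one]
      rw [← mul_assoc, ← map_mul, mul_inv_cancel, map_one, one_mul] at h2
      exact h2.symm
    have h2 : δ g = δ σ ^ j := by
      have := hfixδ _ hτ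
      rw [map_mul, map_pow] at this
      have h3 : δ g * (δ g⁻¹ * δ σ ^ j) = δ g := by rw [this, mul_one]
      rw [← mul_assoc, ← map_mul, mul_inv_cancel, map_one, one_mul] at h3
      exact h3.symm
    have h3 : ((δ σ : K0ˣ) : K0) = (ℓ : K0) :=
      s29_asm_delta_frob p K0 ℓ (hcop ℓ hℓ hℓN) A hA σ hF
    obtain ⟨s, hs⟩ := s29_q_pow (ρ σ) (a ℓ) (ℓ : K0) hrel j
    refine ⟨s, ?_⟩
    rw [h1, h2, Units.val_pow_eq_pow_val, h3]
    exact hs
  obtain ⟨V, _, _, _, ρ', hV, hchar, hker⟩ := s29_q_main ρ δ key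
  refine ⟨{ V := V, finrank_eq := hV, ρ := ρ',
            factorsThroughFiniteLevel := ⟨L, inferInstance, fun τ hτ =>
              hker τ (hfixρ τ hτ) (hfixδ τ hτ)⟩ }, ?_, ?_⟩
  · intro ℓ hℓ hℓN A hA σ hF
    have h3 : ((δ σ : K0ˣ) : K0) = (ℓ : K0) :=
      s29_asm_delta_frob p K0 ℓ (hcop ℓ hℓ hℓN) A hA σ hF
    have h4 := hchar σ (a ℓ) (by rw [h3]; exact hES ℓ hℓ hℓN A hA σ hF)
    rw [h3] at h4
    exact h4
  · intro ℓ hℓ hℓN A hA σ hσ
    exact hker σ (hunr ℓ hℓ hℓN A hA σ hσ)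
      (s29_asm_delta_one p K0 σ
        (Fermat.Agent.S55.pt_cycloChar_inertia p ℓ (hcop ℓ hℓ hℓN) A hA σ hσ))

end Fermat.Agent.S29
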