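/-
BRIDGE block (G1) (helper13): **weak Chebotarev** — every element of a finite Galois group over `ℚ`
generates the same cyclic subgroup as a Frobenius lift at some prime outside a given finite set.

`s29_cheb` : for `K ⊆ ℚ̄` finite over `ℚ`, `S` a finite set of primes and `g ∈ Gal(ℚ̄/ℚ)` there are
a prime `ℓ ∉ S`, a valuation subring `A` of `ℚ̄` over `ℓ`, a Frobenius lift `σ` at `A`
(Prelude `IsFrobeniusAt`) and exponents `j`, `i` with `g = σ ^ j` and `σ = g ^ i` on `K`.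

Proof: `π : Γ → Gal(K/ℚ)` (`K` normal), `γ = π g`, `n = ord γ`, `U_m = π⁻¹⟨γ^m⟩`, `E_m` its fixed
field.  Degree-one primes `v` of `E = E_1` carry a relative Frobenius `σ_v ∈ U_1`
(`S55.evl_exists_frob_rel`); `D_m = {v : σ_v ∈ U_m}` has Dirichlet density `1/m`
(`s29_cheb_dens_D`, via S14's `primeSum_ge`/`psp_sum_le_log` for the field `E_m`), and the sieve
`s29_cheb_sieve` over the primes `r ∣ n` produces `v` with `σ_v ∉ U_r` for all `r`.
-/
import Fermat.Agent.S29.ChebCount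

set_option autoImplicit false
set_option linter.unusedSectionVars false
set_option linter.style.haveILetI false

open scoped Pointwise
open NumberField IsDedekindDomain

namespace Fermat.Agent.S29

noncomputable section

local notation "Qb" => AlgebraicClosure ℚ
local notation "Γ" => (AlgebraicClosure ℚ ≃ₐ[ℚ] AlgebraicClosure ℚ)
local notation "Zb" => integralClosure ℤ (AlgebraicClosure ℚ)

open Fermat.Agent.S54 Fermat.Agent.S13 Fermat.Agent.S05 Fermat.Agent.S14 Fermat.Agent.S55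

attribute [local instance] qbar_isAlgebraic qbar_isAlgClosure qbar_isGalois zbar_isInvariant
  zbarTopology zbar_discrete zbar_continuousSMul

variable (K : IntermediateField ℚ Qb) [FiniteDimensional ℚ K] [Normal ℚ K] (g : Γ)

/-- A finite set of primes outside of which all the fields `E_m`, `m ∣ n`, are unramified. -/
theorem s29_cheb_exists_bad (S : Finset ℕ) :
    ∃ Sbad : Finset ℕ, S ⊆ Sbad ∧ ∀ m : ℕ, m ∣ orderOf (s29_cheb_res K g) →
      ∀ ℓ : ℕ, ℓ.Prime → ℓ ∉ Sbad → ∀ B : ValuationSubring Qb,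
        (ℓ : Qb) ∈ B.nonunits → ∀ ρ : Γ,
          (∀ x : 𝓞 (s29_cheb_E K g m), ρ ((x : s29_cheb_E K g m) : Qb) -
            ((x : s29_cheb_E K g m) : Qb) ∈ B.nonunits) →
          ρ ∈ (s29_cheb_E K g m).fixingSubgroup := by
  classical
  have hch := fun m : ℕ => s29_cheb_unr (s29_cheb_E K g m)
  choose T hT using hch
  refine ⟨S ∪ (Nat.divisors (orderOf (s29_cheb_res K g))).biUnion T, Finset.subset_union_left, ?_⟩
  intro m hm ℓ hℓ hℓS
  apply hT m ℓ hℓ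
  intro hmem
  apply hℓS
  rw [Finset.mem_union]
  right
  rw [Finset.mem_biUnion]
  exact ⟨m, Nat.mem_divisors.2 ⟨hm, (orderOf_pos _).ne'⟩, hmem⟩

/-- The relative Frobenius at a valuation subring above a degree-one prime of `E`. -/
theorem s29_cheb_exists_frob (v : HeightOneSpectrum (𝓞 (s29_cheb_E K g 1)))
    (hv : (Ideal.absNorm v.asIdeal).Prime) (B : ValuationSubring Qb)
    (hB : pl_below (s29_cheb_E K g 1) B = v.asIdeal) :
    ∃ σ ∈ s29_cheb_U K g 1, σ • B = B ∧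
      ∀ a : Qb, a ∈ B → σ a - a ^ (Ideal.absNorm v.asIdeal) ∈ B.nonunits := by
  have hover := s29_cheb_over _ v B hB
  obtain ⟨σ, hσU, hσB, hσ⟩ := evl_exists_frob_rel (s29_cheb_E K g 1) B _ hv hover
  rw [s29_cheb_fixing_E] at hσU
  refine ⟨σ, hσU, hσB, ?_⟩
  have hcard : Nat.card (𝓞 (s29_cheb_E K g 1) ⧸ pl_below (s29_cheb_E K g 1) B) =
      Ideal.absNorm v.asIdeal := by
    rw [hB, Ideal.absNorm_apply, Submodule.cardQuot_apply]
  rw [hcard] at hσ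
  exact hσ

/-- For a Frobenius lift `σ` at `B` over a good prime: `σ ∈ U_m` iff the prime of `E_m` below `B`
has degree one. -/
theorem s29_cheb_frob_mem_U_iff (Sbad : Finset ℕ) (m : ℕ)
    (hbad : ∀ ℓ : ℕ, ℓ.Prime → ℓ ∉ Sbad → ∀ B : ValuationSubring Qb,
      (ℓ : Qb) ∈ B.nonunits → ∀ ρ : Γ,
        (∀ x : 𝓞 (s29_cheb_E K g m), ρ ((x : s29_cheb_E K g m) : Qb) -
          ((x : s29_cheb_E K g m) : Qb) ∈ B.nonunits) → ρ ∈ (s29_cheb_E K g m).fixingSubgroup)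
    (ℓ : ℕ) (hℓ : ℓ.Prime) (hℓS : ℓ ∉ Sbad) (B : ValuationSubring Qb)
    (hB : (ℓ : Qb) ∈ B.nonunits) (σ : Γ) (hσB : σ • B = B)
    (hσ : ∀ a : Qb, a ∈ B → σ a - a ^ ℓ ∈ B.nonunits) :
    σ ∈ s29_cheb_U K g m ↔ s29_cheb_Deg1 (s29_cheb_E K g m) B := by
  constructor
  · intro h
    exact s29_cheb_deg1_of_frob _ B ℓ hℓ hB σ (by rw [s29_cheb_fixing_E]; exact h) hσ
  · intro h
    have h1 := hbad ℓ hℓ hℓS B hB σ (s29_cheb_fix_of_deg1 _ B h σ hσB)
    rwa [s29_cheb_fixing_E] at h1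

theorem s29_cheb_prod_dvd (R : Finset ℕ)
    (hR : R ⊆ (orderOf (s29_cheb_res K g)).primeFactors) :
    ∏ r ∈ R, r ∣ orderOf (s29_cheb_res K g) :=
  Finset.prod_primes_dvd _ (fun _ hr => (Nat.prime_of_mem_primeFactors (hR hr)).prime)
    (fun _ hr => Nat.dvd_of_mem_primeFactors (hR hr))

/-- The sets `D_r` are "independent". -/
theorem s29_cheb_D_inter (Sbad : Finset ℕ)
    (hbad : ∀ m : ℕ, m ∣ orderOf (s29_cheb_res K g) →
      ∀ ℓ : ℕ, ℓ.Prime → ℓ ∉ Sbad → ∀ B : ValuationSubring Qb,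
        (ℓ : Qb) ∈ B.nonunits → ∀ ρ : Γ,
          (∀ x : 𝓞 (s29_cheb_E K g m), ρ ((x : s29_cheb_E K g m) : Qb) -
            ((x : s29_cheb_E K g m) : Qb) ∈ B.nonunits) →
          ρ ∈ (s29_cheb_E K g m).fixingSubgroup)
    (R : Finset ℕ) (hR : R ⊆ (orderOf (s29_cheb_res K g)).primeFactors) :
    s29_cheb_D K g Sbad 1 ∩ ⋂ r ∈ R, s29_cheb_D K g Sbad r =
      s29_cheb_D K g Sbad (∏ r ∈ R, r) := by
  have hRn := s29_cheb_prod_dvd K g R hR
  ext v
  simp only [Set.mem_inter_iff, Set.mem_iInter]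
  constructor
  · rintro ⟨⟨h1, h2, h3⟩, hall⟩
    refine ⟨h1, h2, fun B hB => ?_⟩
    obtain ⟨σ, hσU, hσB, hσ⟩ := s29_cheb_exists_frob K g v h1 B hB
    have hover := s29_cheb_over _ v B hB
    obtain ⟨i, hi⟩ : ∃ i : ℤ, s29_cheb_res K g ^ i = s29_cheb_res K σ := by
      rw [s29_cheb_mem_U, pow_one] at hσU
      exact Subgroup.mem_zpowers_iff.1 hσU
    have hdiv : ∀ r ∈ R, (r : ℤ) ∣ i := by
      intro r hr
      have hrn : r ∣ orderOf (s29_cheb_res K g) := Nat.dvd_of_mem_primeFactors (hR hr)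
      have hmem : σ ∈ s29_cheb_U K g r :=
        (s29_cheb_frob_mem_U_iff K g Sbad r (hbad r hrn) _ h1 h2 B hover σ hσB hσ).2
          ((hall r hr).2.2 B hB)
      exact (s29_cheb_mem_U_iff_dvd K g r hrn σ i hi.symm).1 hmem
    have hprod : ((∏ r ∈ R, r : ℕ) : ℤ) ∣ i := by
      rw [Int.natCast_dvd]
      exact Finset.prod_primes_dvd _
        (fun r hr => (Nat.prime_of_mem_primeFactors (hR hr)).prime)
        (fun r hr => Int.natCast_dvd.1 (hdiv r hr))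
    have hmem : σ ∈ s29_cheb_U K g (∏ r ∈ R, r) :=
      (s29_cheb_mem_U_iff_dvd K g _ hRn σ i hi.symm).2 hprod
    exact (s29_cheb_frob_mem_U_iff K g Sbad _ (hbad _ hRn) _ h1 h2 B hover σ hσB hσ).1 hmem
  · rintro ⟨h1, h2, h3⟩
    refine ⟨⟨h1, h2, fun B hB => ?_⟩, fun r hr => ⟨h1, h2, fun B hB => ?_⟩⟩
    · exact s29_cheb_deg1_mono (s29_cheb_E_mono K g (one_dvd (∏ r ∈ R, r))) B (h3 B hB)
    · have hdvd : r ∣ ∏ r ∈ R, r := Finset.dvd_prod_of_mem (fun r : ℕ => r) hr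
      exact s29_cheb_deg1_mono (s29_cheb_E_mono K g hdvd) B (h3 B hB)

/-- Weak Chebotarev for a normal finite level `K`. -/
theorem s29_cheb_normal (S : Finset ℕ) :
    ∃ (ℓ : ℕ) (A : ValuationSubring Qb) (σ : Γ) (j : ℕ), ℓ.Prime ∧ ℓ ∉ S ∧
      A.LiesOverPrime ℓ ∧ A.IsFrobeniusAt σ ℓ ∧ (∀ x ∈ K, g x = (σ ^ j) x) ∧
      ∃ i : ℕ, ∀ x ∈ K, σ x = (g ^ i) x := by
  classical
  set n := orderOf (s29_cheb_res K g) with hn
  have hn0 : 0 < n := orderOf_pos _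
  obtain ⟨Sbad, hS, hbad⟩ := s29_cheb_exists_bad K g S
  have hdens : ∀ R : Finset ℕ, R ⊆ n.primeFactors →
      s29_cheb_HasDens (s29_cheb_D K g Sbad 1 ∩ ⋂ r ∈ R, s29_cheb_D K g Sbad r)
        (∏ r ∈ R, (1 / (r : ℝ))) := by
    intro R hR
    have hRn := s29_cheb_prod_dvd K g R hR
    rw [s29_cheb_D_inter K g Sbad hbad R hR]
    have h1 := s29_cheb_dens_D K g Sbad (∏ r ∈ R, r) (Nat.pos_of_dvd_of_pos hRn hn0) hRn
      (hbad _ hRn)
    have h2 : (1 / ((∏ r ∈ R, r : ℕ) : ℝ)) = ∏ r ∈ R, (1 / (r : ℝ)) := by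
      push_cast
      rw [Finset.prod_div_distrib, Finset.prod_const_one]
    rw [← h2]
    exact h1
  have hsieve := s29_cheb_sieve n.primeFactors (s29_cheb_D K g Sbad 1)
    (fun r => s29_cheb_D K g Sbad r) (fun r => 1 / (r : ℝ)) hdens n.primeFactors ∅
    subset_rfl (Finset.empty_subset _) (Finset.disjoint_empty_right _)
  have hpos : 0 < (∏ r ∈ n.primeFactors, (1 - 1 / (r : ℝ))) *
      ∏ r ∈ (∅ : Finset ℕ), (1 / (r : ℝ)) := by
    rw [Finset.prod_empty, mul_one]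
    apply Finset.prod_pos
    intro r hr
    have h2 : 2 ≤ r := (Nat.prime_of_mem_primeFactors hr).two_le
    have h2' : (2 : ℝ) ≤ r := by exact_mod_cast h2
    have h3 : 1 / (r : ℝ) ≤ 1 / 2 := one_div_le_one_div_of_le (by norm_num) h2'
    linarith
  obtain ⟨v, ⟨hv1, hv2, hv3⟩, hvT, -⟩ := s29_cheb_dens_nonempty hsieve hpos
  have hB := s29_cheb_Bv_spec (s29_cheb_E K g 1) v
  set B := s29_cheb_Bv (s29_cheb_E K g 1) v with hBdef
  have hover := s29_cheb_over _ v B hB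
  obtain ⟨σ, hσU, hσB, hσ⟩ := s29_cheb_exists_frob K g v hv1 B hB
  obtain ⟨i, hi⟩ : ∃ i : ℕ, s29_cheb_res K g ^ i = s29_cheb_res K σ := by
    rw [s29_cheb_mem_U, pow_one] at hσU
    exact (Submonoid.mem_powers_iff _ _).1 (mem_powers_iff_mem_zpowers.2 hσU)
  have hcop : Nat.Coprime i n := by
    by_contra hnc
    obtain ⟨r, hr, hri, hrn⟩ := Nat.Prime.not_coprime_iff_dvd.1 hnc
    have hrmem : r ∈ n.primeFactors := Nat.mem_primeFactors.2 ⟨hr, hrn, hn0.ne'⟩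
    apply hvT r hrmem
    have hmem : σ ∈ s29_cheb_U K g r :=
      (s29_cheb_mem_U_iff_dvd K g r hrn σ i (by rw [zpow_natCast]; exact hi.symm)).2
        (Int.natCast_dvd_natCast.2 hri)
    have hdeg : s29_cheb_Deg1 (s29_cheb_E K g r) B :=
      (s29_cheb_frob_mem_U_iff K g Sbad r (hbad r hrn) _ hv1 hv2 B hover σ hσB hσ).1 hmem
    exact ⟨hv1, hv2, fun B' hB' => s29_cheb_deg1_conj K g r B B' (by rw [hB', hB]) hdeg⟩
  obtain ⟨j, hj⟩ : ∃ j : ℕ, s29_cheb_res K σ ^ j = s29_cheb_res K g := by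
    rcases Nat.lt_or_ge 1 n with h1 | h1
    · obtain ⟨j, -, hj⟩ := Nat.exists_mul_mod_eq_one_of_coprime hcop h1
      refine ⟨j, ?_⟩
      rw [← hi, ← pow_mul, ← pow_mod_orderOf, ← hn, hj, pow_one]
    · have hn1 : orderOf (s29_cheb_res K g) = 1 := by omega
      refine ⟨0, ?_⟩
      rw [pow_zero]
      exact (orderOf_eq_one_iff.1 hn1).symm
  refine ⟨Ideal.absNorm v.asIdeal, B, σ, j, hv1, fun h => hv2 (hS h), hover,
    s29_cheb_isFrobeniusAt B σ _ hσB hσ, ?_, i, ?_⟩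
  · rw [← s29_cheb_res_eq_iff, map_pow, hj]
  · rw [← s29_cheb_res_eq_iff, map_pow, hi]

omit [FiniteDimensional ℚ K] [Normal ℚ K] in
/-- **Weak Chebotarev (G1).**  For a finite extension `K ⊆ ℚ̄` of `ℚ`, a finite set `S` of primes
and `g ∈ Gal(ℚ̄/ℚ)` there are a prime `ℓ ∉ S`, a valuation subring `A` of `ℚ̄` over `ℓ` and a
Frobenius lift `σ` at `A` such that `g` and `σ` generate the same cyclic group on `K`:
`g = σ ^ j` and `σ = g ^ i` on `K`. -/
theorem s29_cheb [FiniteDimensional ℚ K] (S : Finset ℕ) :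
    ∃ (ℓ : ℕ) (A : ValuationSubring (AlgebraicClosure ℚ))
      (σ : AlgebraicClosure ℚ ≃ₐ[ℚ] AlgebraicClosure ℚ) (j : ℕ), ℓ.Prime ∧ ℓ ∉ S ∧
      A.LiesOverPrime ℓ ∧ A.IsFrobeniusAt σ ℓ ∧ (∀ x ∈ K, g x = (σ ^ j) x) ∧
      ∃ i : ℕ, ∀ x ∈ K, σ x = (g ^ i) x := by
  haveI : Normal ℚ (AlgebraicClosure ℚ) := qbar_isGalois.to_normal
  haveI : Normal ℚ ↥(IntermediateField.normalClosure ℚ K (AlgebraicClosure ℚ)) :=
    normalClosure.normal ℚ K (AlgebraicClosure ℚ)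
  obtain ⟨ℓ, A, σ, j, h1, h2, h3, h4, h5, i, h6⟩ :=
    s29_cheb_normal (IntermediateField.normalClosure ℚ K (AlgebraicClosure ℚ)) g S
  exact ⟨ℓ, A, σ, j, h1, h2, h3, h4,
    fun x hx => h5 x (IntermediateField.le_normalClosure K hx), i,
    fun x hx => h6 x (IntermediateField.le_normalClosure K hx)⟩

end

end Fermat.Agent.S29
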