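/-
BRIDGE block (G1) (helper13): the weak Chebotarev theorem `s29_cheb` in the exact shape
`s29_asm_Cheb` consumed by the Galois-side assembly (`Asm.lean`, `Final.lean`).
-/
import Fermat.Agent.S29.Cheb
import Fermat.Agent.S29.Asm

set_option autoImplicit false

namespace Fermat.Agent.S29

/-- Block (G1): the hypothesis `hcheb` of `s29_asm_core` / `s29_fin_residue` / `s29_fin_main`. -/
theorem s29_cheb_asm : s29_asm_Cheb := by
  intro K _ S g
  obtain ⟨ℓ, A, σ, j, h1, h2, h3, h4, h5, -⟩ := s29_cheb K g S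
  exact ⟨ℓ, A, σ, j, h1, h2, h3, h4, h5⟩

end Fermat.Agent.S29
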