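import Mathlib
import Fermat.Prelude.Def_GaloisRep_Residual
import Fermat.Agent.S29.Asm

/-!
# S29: final wiring

`s29_fin_main` : the frozen S29 statement from the two inputs
* `s29_asm_Cheb` (weak Chebotarev, block (G1)) and
* `s29_fin_BRW` (the module `W` cut out of `J₀(N)[p]`, block (BRW)).
-/

set_option autoImplicit false

open Polynomial

namespace Fermat.Agent.S29

local notation "Qb" => AlgebraicClosure ℚ
local notation "Γ" => (AlgebraicClosure ℚ ≃ₐ[ℚ] AlgebraicClosure ℚ)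
local notation "Zb" => integralClosure ℤ ℂ

/-- Block (BRW): the Galois module cut out of `J₀(N)[p]` by a Hecke eigensystem. -/
def s29_fin_BRW : Prop :=
  ∀ (N : ℕ) [NeZero N] (g : CuspForm (CongruenceSubgroup.Gamma0 N) 2), g.IsNormalizedEigenform →
    ∀ (p : ℕ) [Fact p.Prime] (K0 : Type) [Field K0] [CharP K0 p] (φ0 : Zb →+* K0),
      ∃ (W : Type) (_ : AddCommGroup W) (_ : Module K0 W) (_ : Module.Finite K0 W)
        (_ : Nontrivial W) (ρ : Γ →* Module.End K0 W),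
        GaloisFactorsThroughFiniteLevel ρ ∧
        (∀ ℓ : ℕ, ℓ.Prime → ¬ ℓ ∣ N * p → ∀ A : ValuationSubring Qb, A.LiesOverPrime ℓ →
          ∀ σ ∈ A.inertiaSubgroupIn ℚ, ρ σ = 1) ∧
        (∀ ℓ : ℕ, ℓ.Prime → ¬ ℓ ∣ N * p → ∀ A : ValuationSubring Qb, A.LiesOverPrime ℓ →
          ∀ σ : Γ, A.IsFrobeniusAt σ ℓ →
            ∃ a : Zb, (a : ℂ) = ModularFormClass.qCoeff g ℓ ∧
              ρ σ * ρ σ - φ0 a • ρ σ + (ℓ : K0) • (1 : Module.End K0 W) = 0)

/-- A prime ideal of `ℤ̄` containing a prime number is maximal. -/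
theorem s29_fin_isMaximal (P : Ideal Zb) [P.IsPrime] (p : ℕ) (hp : p.Prime)
    (hpP : (p : Zb) ∈ P) : P.IsMaximal := by
  apply Ideal.isMaximal_of_isIntegral_of_isMaximal_comap (R := ℤ) P
  have hprime : (P.comap (algebraMap ℤ Zb)).IsPrime := Ideal.comap_isPrime _ _
  apply Ideal.IsPrime.isMaximal hprime
  intro h
  have h1 : (p : ℤ) ∈ P.comap (algebraMap ℤ Zb) := by
    rw [Ideal.mem_comap]
    simpa using hpP
  rw [h, Ideal.mem_bot] at h1
  exact hp.ne_zero (by exact_mod_cast h1)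

/-- The residue fields of `ℤ̄` are algebraically closed. -/
theorem s29_fin_isAlgClosed (P : Ideal Zb) [P.IsMaximal] :
    @IsAlgClosed (Zb ⧸ P) (Ideal.Quotient.field P) := by
  letI : Field (Zb ⧸ P) := Ideal.Quotient.field P
  apply IsAlgClosed.of_exists_root
  intro f hf hirr
  have hlift : f ∈ Polynomial.lifts (Ideal.Quotient.mk P) := by
    rw [Polynomial.mem_lifts]
    exact Polynomial.map_surjective _ Ideal.Quotient.mk_surjective f
  obtain ⟨F, hFmap, hFdeg, hFmonic⟩ := Polynomial.lifts_and_natDegree_eq_and_monic hlift hf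
  have hdeg : F.natDegree ≠ 0 := by
    rw [hFdeg]
    exact fun h => hirr.natDegree_pos.ne' h
  have hdeg' : (F.map (algebraMap Zb ℂ)).degree ≠ 0 := by
    rw [Polynomial.degree_map_eq_of_injective (FaithfulSMul.algebraMap_injective Zb ℂ)]
    intro h
    exact hdeg (Polynomial.natDegree_eq_of_degree_eq_some h)
  obtain ⟨z, hz⟩ := IsAlgClosed.exists_root (F.map (algebraMap Zb ℂ)) hdeg'
  rw [Polynomial.IsRoot, Polynomial.eval_map] at hz
  have hzint : IsIntegral Zb z := ⟨F, hFmonic, hz⟩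
  have hzint' : IsIntegral ℤ z := isIntegral_trans z hzint
  let r : Zb := ⟨z, hzint'⟩
  have hr : Polynomial.eval r F = 0 := by
    apply FaithfulSMul.algebraMap_injective Zb ℂ
    rw [map_zero, ← hz]
    exact (Polynomial.eval₂_at_apply (algebraMap Zb ℂ) r).symm
  refine ⟨Ideal.Quotient.mk P r, ?_⟩
  rw [← hFmap, Polynomial.eval_map, Polynomial.eval₂_at_apply, hr, map_zero]

/-- The residue field `ℤ̄ ⧸ P`, as a type synonym carrying only its field structure. -/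
def s29_fin_K (P : Ideal Zb) : Type := Zb ⧸ P

noncomputable instance s29_fin_K_field (P : Ideal Zb) [P.IsMaximal] : Field (s29_fin_K P) :=
  Ideal.Quotient.field P

instance s29_fin_K_isAlgClosed (P : Ideal Zb) [P.IsMaximal] : IsAlgClosed (s29_fin_K P) :=
  s29_fin_isAlgClosed P

/-- The quotient map `ℤ̄ → ℤ̄ ⧸ P`. -/
noncomputable def s29_fin_mk (P : Ideal Zb) [P.IsMaximal] : Zb →+* s29_fin_K P :=
  Ideal.Quotient.mk P

theorem s29_fin_mk_surjective (P : Ideal Zb) [P.IsMaximal] :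
    Function.Surjective (s29_fin_mk P) := Ideal.Quotient.mk_surjective

theorem s29_fin_mk_eq_zero (P : Ideal Zb) [P.IsMaximal] (a : Zb) :
    s29_fin_mk P a = 0 ↔ a ∈ P := Ideal.Quotient.eq_zero_iff_mem

/-- The embedding `ℤ̄ ⧸ ker φ → k`. -/
noncomputable def s29_fin_lift {k : Type} [Field k] (φ : Zb →+* k) [(RingHom.ker φ).IsMaximal] :
    s29_fin_K (RingHom.ker φ) →+* k :=
  RingHom.kerLift φ

theorem s29_fin_lift_mk {k : Type} [Field k] (φ : Zb →+* k) [(RingHom.ker φ).IsMaximal]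
    (a : Zb) : s29_fin_lift φ (s29_fin_mk (RingHom.ker φ) a) = φ a :=
  RingHom.kerLift_mk φ a

theorem s29_fin_charP (P : Ideal Zb) [P.IsMaximal] (p : ℕ) (hpP : (p : Zb) ∈ P) (hp : p.Prime) :
    CharP (s29_fin_K P) p := by
  have h0 : ((p : ℕ) : s29_fin_K P) = 0 := by
    rw [← map_natCast (s29_fin_mk P), s29_fin_mk_eq_zero]
    exact hpP
  exact (CharP.charP_iff_prime_eq_zero hp).mpr h0

/-- The trivial two-dimensional residual representation. -/
noncomputable def s29_fin_trivial (k : Type) [Field k] : ResidualGaloisRep k where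
  V := Fin 2 → k
  finrank_eq := Module.finrank_fin_fun k
  ρ := 1
  factorsThroughFiniteLevel := ⟨⊥, inferInstance, fun _ _ => rfl⟩

/-- The residual representation over `ℤ̄ ⧸ P` attached to `g` (for `N ≠ 0`), from (G1) and (BRW). -/
theorem s29_fin_residue (hcheb : s29_asm_Cheb) (hW : s29_fin_BRW)
    {N : ℕ} (hN : N ≠ 0) {g : CuspForm (CongruenceSubgroup.Gamma0 N) 2}
    (hg : g.IsNormalizedEigenform) {p : ℕ} (hp : p.Prime) (P : Ideal Zb) [P.IsMaximal]
    (hpP : (p : Zb) ∈ P) :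
    ∃ ρ0 : ResidualGaloisRep (s29_fin_K P),
      (∀ ℓ : ℕ, ℓ.Prime → ¬ ℓ ∣ N * p → ∀ A : ValuationSubring Qb, A.LiesOverPrime ℓ →
        ∀ σ : Γ, A.IsFrobeniusAt σ ℓ →
          ∃ b : Zb, (b : ℂ) = ModularFormClass.qCoeff g ℓ ∧
            LinearMap.charpoly (ρ0.ρ σ)
              = X ^ 2 - C (s29_fin_mk P b) * X + C (ℓ : s29_fin_K P)) ∧
      ∀ ℓ : ℕ, ℓ.Prime → ¬ ℓ ∣ N * p → ρ0.IsUnramifiedAt ℓ := by
  classical
  haveI : NeZero N := ⟨hN⟩
  haveI : Fact p.Prime := ⟨hp⟩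
  haveI : CharP (s29_fin_K P) p := s29_fin_charP P p hpP hp
  obtain ⟨W, _, _, _, _, ρW, hfin, hunr, hES⟩ := hW N g hg p (s29_fin_K P) (s29_fin_mk P)
  let a : ℕ → s29_fin_K P := fun ℓ =>
    if h : ∃ a : Zb, (a : ℂ) = ModularFormClass.qCoeff g ℓ then s29_fin_mk P h.choose else 0
  have ha : ∀ (ℓ : ℕ) (b : Zb), (b : ℂ) = ModularFormClass.qCoeff g ℓ →
      a ℓ = s29_fin_mk P b := by
    intro ℓ b hb
    have h : ∃ a : Zb, (a : ℂ) = ModularFormClass.qCoeff g ℓ := ⟨b, hb⟩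
    have h2 : h.choose = b := Subtype.ext (h.choose_spec.trans hb.symm)
    simp only [a, dif_pos h, h2]
  obtain ⟨ρ0, hchar, hur⟩ := s29_asm_core hcheb p N hN (s29_fin_K P) W ρW hfin a
    hunr (by
      intro ℓ hℓ hℓN A hA σ hF
      obtain ⟨b, hb, hrel⟩ := hES ℓ hℓ hℓN A hA σ hF
      rw [ha ℓ b hb]
      exact hrel)
  refine ⟨ρ0, ?_, hur⟩
  intro ℓ hℓ hℓN A hA σ hF
  obtain ⟨b, hb, -⟩ := hES ℓ hℓ hℓN A hA σ hF
  refine ⟨b, hb, ?_⟩
  have h1 := hchar ℓ hℓ hℓN A hA σ hF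
  rw [ha ℓ b hb] at h1
  exact h1

/-- **S29 from (G1) and (BRW).** -/
theorem s29_fin_main (hcheb : s29_asm_Cheb) (hW : s29_fin_BRW)
    {N : ℕ} {g : CuspForm (CongruenceSubgroup.Gamma0 N) 2} (hg : g.IsNormalizedEigenform)
    {p : ℕ} (hp : p.Prime) {k : Type} [Field k] [CharP k p] (φ : Zb →+* k) :
    ∃ ρ : ResidualGaloisRep k, ρ.IsAttachedTo g φ ∧
      ∀ ℓ : ℕ, ℓ.Prime → ¬ ℓ ∣ N * p → ρ.IsUnramifiedAt ℓ := by
  classical
  rcases Nat.eq_zero_or_pos N with hN0 | hNpos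
  · subst hN0
    refine ⟨s29_fin_trivial k, ?_, ?_⟩
    · intro ℓ _ hℓN
      exact absurd (dvd_zero ℓ) hℓN
    · intro ℓ _ hℓN
      rw [zero_mul] at hℓN
      exact absurd (dvd_zero ℓ) hℓN
  · haveI hPprime : (RingHom.ker φ).IsPrime := RingHom.ker_isPrime φ
    have hpker : (p : Zb) ∈ RingHom.ker φ := by
      rw [RingHom.mem_ker, map_natCast]
      exact CharP.cast_eq_zero k p
    haveI hPmax : (RingHom.ker φ).IsMaximal := s29_fin_isMaximal _ p hp hpker
    obtain ⟨ρ0, hchar, hur⟩ :=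
      s29_fin_residue hcheb hW hNpos.ne' hg hp (RingHom.ker φ) hpker
    refine ⟨ρ0.baseChangeAlong (s29_fin_lift φ), ?_, ?_⟩
    · intro ℓ hℓ hℓN hℓk A hA σ hF
      have hℓNp : ¬ ℓ ∣ N * p := by
        intro h
        rcases (Nat.Prime.dvd_mul hℓ).mp h with h1 | h1
        · exact hℓN h1
        · have : ℓ = p := (Nat.prime_dvd_prime_iff_eq hℓ hp).mp h1
          rw [this] at hℓk
          exact hℓk (CharP.cast_eq_zero k p)
      obtain ⟨b, hb, h1⟩ := hchar ℓ hℓ hℓNp A hA σ hF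
      refine ⟨b, hb, ?_⟩
      letI : Algebra (s29_fin_K (RingHom.ker φ)) k := (s29_fin_lift φ).toAlgebra
      show LinearMap.charpoly ((ρ0.ρ σ).baseChange k) = _
      rw [LinearMap.charpoly_baseChange, h1]
      simp only [Polynomial.map_add, Polynomial.map_sub, Polynomial.map_mul, Polynomial.map_pow,
        Polynomial.map_X, Polynomial.map_C, Polynomial.map_natCast]
      rw [show algebraMap (s29_fin_K (RingHom.ker φ)) k (s29_fin_mk (RingHom.ker φ) b) = φ b from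
        s29_fin_lift_mk φ b, map_natCast]
    · intro ℓ hℓ hℓN A hA σ hσ
      have h1 := hur ℓ hℓ hℓN A hA σ hσ
      letI : Algebra (s29_fin_K (RingHom.ker φ)) k := (s29_fin_lift φ).toAlgebra
      show (ρ0.ρ σ).baseChange k = 1
      rw [h1, LinearMap.baseChange_one]

end Fermat.Agent.S29
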