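import Fermat.Agent.S29.KappaChar
import Fermat.Agent.S29.MerOrd
import Fermat.Agent.S24

/-!
# S29 (project BRIDGE), block (A2): the map `κ : J₀(N)[m] → Hom(Γ₀(N), ℤ/m)`

For `x ∈ J₀(N)(ℚ̄)[m]` choose a divisor `D` of degree `0` in the class `x`, a function
`g ∈ F_N` with `div g = m • D`, and a meromorphic `m`-th root `G` of (the analytic realisation
of) `g` on the upper half plane.  Then `G(γτ) = ζ_m ^ κ(x)(γ) · G(τ)` for `γ ∈ Γ₀(N)`.

* `s29_ka_IsWitness N m x D g G` : the data `(D, g, G)` for `x`;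
* `s29_ka_exists_witness` : witnesses exist for `m`-torsion classes ((K1) + (A1));
* `s29_ka_witness_indep` : the character does not depend on the witness;
* `s29_kappa N m : Pic0.torsion ℚ̄ F_N m →+ (Additive (Gamma0 N) →+ ZMod m)`;
* `s29_kappa_spec` (**any-witness spec**), `s29_kappa_eq_of_witness`;
* `s29_kappa_eq_zero_iff_invariant` : `κ x = 0` iff the root `G` of a (any) witness is
  `Γ₀(N)`-invariant.
-/

set_option autoImplicit false

open UpperHalfPlane ModularCurve AlgebraicCurve
open scoped MatrixGroups Manifold IntermediateField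

noncomputable section

namespace Fermat.Agent.S29

open Fermat.Agent.S24
open CongruenceSubgroup

attribute [local instance] algKC

/-- a function on `X₀(N)` without zeros and poles is constant. -/
theorem s29_ka_const_of_ord (N : ℕ) [NeZero N] (f : modularFunctionFieldBar N)
    (h : ∀ P : Place Kbar (modularFunctionFieldBar N), P.ord f = 0) :
    ∃ c : Kbar, f = algebraMap Kbar (modularFunctionFieldBar N) c := by
  by_cases hf : IsAlgebraic Kbar f
  · exact genus_exists_const_of_isAlgebraic hf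
  · exfalso
    have hfd0 : FiniteDimensional Kbar⟮jF N⟯ (modularFunctionFieldBar N) := (asm_generic N).1
    have hfd : FiniteDimensional Kbar⟮f⟯ (modularFunctionFieldBar N) :=
      finiteDimensional_adjoin_of_transcendental (jF N) (transcendental_jF N) f hf
    have h1 := sum_ord_zeros f hf
    have h2 : {v : Place Kbar (modularFunctionFieldBar N) | 0 < v.ord f} = ∅ := by
      ext v
      simp only [Set.mem_ofPred_eq, Set.mem_empty_iff_false, iff_false, not_lt]
      rw [h v]
    rw [h2] at h1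
    simp only [Set.mem_empty_iff_false, finsum_false, finsum_zero] at h1
    have h3 : 0 < Module.finrank Kbar⟮f⟯ (modularFunctionFieldBar N) := Module.finrank_pos
    have h4 : ((Module.finrank Kbar⟮f⟯ (modularFunctionFieldBar N) : ℕ) : ℤ) = 0 := h1.symm
    omega

/-- **witnesses**: `D` a divisor of degree `0` in the class `x`, `div g = m • D`, and `G` a
meromorphic `m`-th root of `g` on the upper half plane. -/
def s29_ka_IsWitness (N m : ℕ) [NeZero N] (x : JZero N)
    (D : Divisor.degZero (K := Kbar) (F := modularFunctionFieldBar N))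
    (g : modularFunctionFieldBar N) (G : s29_Mer) : Prop :=
  Pic0.mk D = x ∧ g ≠ 0 ∧
    (∀ P : Place Kbar (modularFunctionFieldBar N),
      P.ord g = (m : ℤ) * (D : Divisor Kbar (modularFunctionFieldBar N)) P) ∧
    G ^ m = s29_an N g

theorem s29_ka_witness_ne_zero {N m : ℕ} [NeZero N] [NeZero m] {x : JZero N}
    {D : Divisor.degZero (K := Kbar) (F := modularFunctionFieldBar N)}
    {g : modularFunctionFieldBar N} {G : s29_Mer} (h : s29_ka_IsWitness N m x D g G) : G ≠ 0 := by
  intro h0
  obtain ⟨-, hg, -, hG⟩ := h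
  have h1 : s29_an N g ≠ 0 := fun h2 => hg (s29_an_injective N (by rw [h2, map_zero]))
  rw [h0, zero_pow (NeZero.ne m)] at hG
  exact h1 hG.symm

theorem s29_an_ne_zero (N : ℕ) [NeZero N] {g : modularFunctionFieldBar N} (hg : g ≠ 0) :
    s29_an N g ≠ 0 := fun h2 => hg (s29_an_injective N (by rw [h2, map_zero]))

/-- the analytic realisation of a function on `X₀(N)` has trivial character. -/
theorem s29_ka_isChar_an (N m : ℕ) [NeZero N] [NeZero m] (h : modularFunctionFieldBar N) :
    s29_ka_IsChar N m (s29_an N h) 0 :=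
  s29_ka_isChar_zero_iff.2 fun γ hγ => s29_an_smul N γ hγ h

/-- **existence of witnesses** for `m`-torsion classes ((K1) + (A1)). -/
theorem s29_ka_exists_witness (N m : ℕ) [NeZero N] [NeZero m] (x : JZero N)
    (hx : (m : ℤ) • x = 0) :
    ∃ (D : Divisor.degZero (K := Kbar) (F := modularFunctionFieldBar N))
      (g : modularFunctionFieldBar N) (G : s29_Mer), s29_ka_IsWitness N m x D g G := by
  obtain ⟨D, rfl⟩ := Pic0.mk_surjective x
  have h1 : ((m : ℤ) • D : Divisor.degZero (K := Kbar) (F := modularFunctionFieldBar N)) ∈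
      (Divisor.principal (K := Kbar) (F := modularFunctionFieldBar N)).addSubgroupOf
        (Divisor.degZero (K := Kbar) (F := modularFunctionFieldBar N)) := by
    rw [← QuotientAddGroup.eq_zero_iff]
    exact hx
  rw [AddSubgroup.mem_addSubgroupOf] at h1
  obtain ⟨g, hg, hgD⟩ := h1
  have hdiv : ∀ P : Place Kbar (modularFunctionFieldBar N),
      P.ord g = (m : ℤ) * (D : Divisor Kbar (modularFunctionFieldBar N)) P := by
    intro P
    rw [← hgD P, AddSubgroup.coe_zsmul, Finsupp.smul_apply, smul_eq_mul]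
  have hord : ∀ τ : ℍ, (m : ℤ) ∣ s29_ord τ (s29_an N g) :=
    s29_ord_an_dvd N (m : ℤ) g hg (fun P => ⟨_, hdiv P⟩)
  obtain ⟨G, hG⟩ := s29_mer_root m (Nat.pos_of_ne_zero (NeZero.ne m)) (s29_an N g)
    (s29_an_ne_zero N hg) hord
  exact ⟨D, g, G, rfl, hg, hdiv, hG⟩

/-- a witness has a character. -/
theorem s29_ka_witness_exists_char {N m : ℕ} [NeZero N] [NeZero m] {x : JZero N}
    {D : Divisor.degZero (K := Kbar) (F := modularFunctionFieldBar N)}
    {g : modularFunctionFieldBar N} {G : s29_Mer} (h : s29_ka_IsWitness N m x D g G) :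
    ∃ χ : Additive (Gamma0 N) →+ ZMod m, s29_ka_IsChar N m G χ := by
  refine s29_ka_exists_char N m G (s29_ka_witness_ne_zero h) (fun γ hγ => ?_)
  rw [h.2.2.2, s29_an_smul N γ hγ]

/-- **independence of the witness.** -/
theorem s29_ka_witness_indep {N m : ℕ} [NeZero N] [NeZero m] {x : JZero N}
    {D D' : Divisor.degZero (K := Kbar) (F := modularFunctionFieldBar N)}
    {g g' : modularFunctionFieldBar N} {G G' : s29_Mer}
    (h : s29_ka_IsWitness N m x D g G) (h' : s29_ka_IsWitness N m x D' g' G')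
    {χ : Additive (Gamma0 N) →+ ZMod m} (hχ : s29_ka_IsChar N m G χ) :
    s29_ka_IsChar N m G' χ := by
  obtain ⟨hx, hg, hdiv, hG⟩ := h
  obtain ⟨hx', hg', hdiv', hG'⟩ := h'
  have hGne : G ≠ 0 := s29_ka_witness_ne_zero ⟨hx, hg, hdiv, hG⟩
  have hGne' : G' ≠ 0 := s29_ka_witness_ne_zero ⟨hx', hg', hdiv', hG'⟩
  -- `D' - D` is principal
  have h1 : (-D + D' : Divisor.degZero (K := Kbar) (F := modularFunctionFieldBar N)) ∈
      (Divisor.principal (K := Kbar) (F := modularFunctionFieldBar N)).addSubgroupOf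
        (Divisor.degZero (K := Kbar) (F := modularFunctionFieldBar N)) := by
    rw [← QuotientAddGroup.eq]
    exact hx.trans hx'.symm
  rw [AddSubgroup.mem_addSubgroupOf] at h1
  obtain ⟨u, hu, huD⟩ := h1
  have huD' : ∀ P : Place Kbar (modularFunctionFieldBar N),
      P.ord u = (D' : Divisor Kbar (modularFunctionFieldBar N)) P -
        (D : Divisor Kbar (modularFunctionFieldBar N)) P := by
    intro P
    rw [← huD P, AddSubgroup.coe_add, AddSubgroup.coe_neg, Finsupp.add_apply, Finsupp.neg_apply]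
    ring
  -- `g' = c * g * u ^ m`
  have hum : u ^ m ≠ 0 := pow_ne_zero _ hu
  have hden : g * u ^ m ≠ 0 := mul_ne_zero hg hum
  obtain ⟨c, hc⟩ := s29_ka_const_of_ord N (g' / (g * u ^ m)) (fun P => by
    rw [div_eq_mul_inv, P.ord_mul hg' (inv_ne_zero hden), P.ord_inv, P.ord_mul hg hum,
      ord_pow, hdiv P, hdiv' P, huD' P]
    ring)
  have hg'eq : g' = algebraMap Kbar (modularFunctionFieldBar N) c * (g * u ^ m) := by
    rw [← hc, div_mul_cancel₀ _ hden]
  obtain ⟨c', hc'⟩ := IsAlgClosed.exists_pow_nat_eq (iotaK c) (Nat.pos_of_ne_zero (NeZero.ne m))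
  have hc0 : c ≠ 0 := by
    rintro rfl
    rw [map_zero, zero_mul] at hg'eq
    exact hg' hg'eq
  have hc'0 : c' ≠ 0 := by
    rintro rfl
    rw [zero_pow (NeZero.ne m)] at hc'
    exact hc0 (iotaK_injective (by rw [← hc', map_zero]))
  -- `G' ^ m = (c' * G * an u) ^ m`
  set G1 : s29_Mer := algebraMap ℂ s29_Mer c' * (G * s29_an N u) with hG1
  have hpow : G' ^ m = G1 ^ m := by
    rw [hG', hg'eq, map_mul, map_mul, map_pow, s29_an_const, ← hc', hG1, mul_pow, mul_pow,
      hG, map_pow]
  have hG1ne : G1 ≠ 0 :=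
    mul_ne_zero (fun h0 => hc'0 ((algebraMap ℂ s29_Mer).injective (by rw [h0, map_zero])))
      (mul_ne_zero hGne (s29_an_ne_zero N hu))
  have hG1χ : s29_ka_IsChar N m G1 χ := by
    have h2 := s29_ka_isChar_mul (s29_ka_isChar_const N m c')
      (s29_ka_isChar_mul hχ (s29_ka_isChar_an N m u))
    rwa [zero_add, add_zero] at h2
  exact s29_ka_isChar_of_pow_eq hG1ne hpow hG1χ

/-- sums of witnesses. -/
theorem s29_ka_witness_add {N m : ℕ} [NeZero N] {x x' : JZero N}
    {D D' : Divisor.degZero (K := Kbar) (F := modularFunctionFieldBar N)}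
    {g g' : modularFunctionFieldBar N} {G G' : s29_Mer}
    (h : s29_ka_IsWitness N m x D g G) (h' : s29_ka_IsWitness N m x' D' g' G') :
    s29_ka_IsWitness N m (x + x') (D + D') (g * g') (G * G') := by
  obtain ⟨hx, hg, hdiv, hG⟩ := h
  obtain ⟨hx', hg', hdiv', hG'⟩ := h'
  refine ⟨by rw [Pic0.mk_add, hx, hx'], mul_ne_zero hg hg', fun P => ?_, ?_⟩
  · rw [P.ord_mul hg hg', hdiv P, hdiv' P, AddSubgroup.coe_add, Finsupp.add_apply]
    ring
  · rw [mul_pow, hG, hG', map_mul]

/-- existence of the character of a torsion class. -/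
theorem s29_kappa_exists (N m : ℕ) [NeZero N] [NeZero m]
    (x : Pic0.torsion Kbar (modularFunctionFieldBar N) m) :
    ∃ χ : Additive (Gamma0 N) →+ ZMod m,
      ∃ (D : Divisor.degZero (K := Kbar) (F := modularFunctionFieldBar N))
        (g : modularFunctionFieldBar N) (G : s29_Mer),
        s29_ka_IsWitness N m (x : JZero N) D g G ∧ s29_ka_IsChar N m G χ := by
  obtain ⟨D, g, G, hw⟩ := s29_ka_exists_witness N m (x : JZero N) (Pic0.mem_torsion.mp x.2)
  obtain ⟨χ, hχ⟩ := s29_ka_witness_exists_char hw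
  exact ⟨χ, D, g, G, hw, hχ⟩

/-- the character of an `m`-torsion class (as a function). -/
def s29_kappaFun (N m : ℕ) [NeZero N] [NeZero m]
    (x : Pic0.torsion Kbar (modularFunctionFieldBar N) m) : Additive (Gamma0 N) →+ ZMod m :=
  Classical.choose (s29_kappa_exists N m x)

/-- **any-witness spec of `κ`.** -/
theorem s29_kappaFun_spec {N m : ℕ} [NeZero N] [NeZero m]
    (x : Pic0.torsion Kbar (modularFunctionFieldBar N) m)
    {D : Divisor.degZero (K := Kbar) (F := modularFunctionFieldBar N)}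
    {g : modularFunctionFieldBar N} {G : s29_Mer}
    (h : s29_ka_IsWitness N m (x : JZero N) D g G) :
    s29_ka_IsChar N m G (s29_kappaFun N m x) := by
  obtain ⟨D0, g0, G0, hw0, hχ0⟩ := Classical.choose_spec (s29_kappa_exists N m x)
  exact s29_ka_witness_indep hw0 h hχ0

theorem s29_kappaFun_eq_of_witness {N m : ℕ} [NeZero N] [NeZero m]
    (x : Pic0.torsion Kbar (modularFunctionFieldBar N) m)
    {D : Divisor.degZero (K := Kbar) (F := modularFunctionFieldBar N)}
    {g : modularFunctionFieldBar N} {G : s29_Mer}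
    (h : s29_ka_IsWitness N m (x : JZero N) D g G)
    {χ : Additive (Gamma0 N) →+ ZMod m} (hχ : s29_ka_IsChar N m G χ) :
    s29_kappaFun N m x = χ :=
  s29_ka_char_unique (s29_ka_witness_ne_zero h) (s29_kappaFun_spec x h) hχ

theorem s29_kappaFun_add (N m : ℕ) [NeZero N] [NeZero m]
    (x y : Pic0.torsion Kbar (modularFunctionFieldBar N) m) :
    s29_kappaFun N m (x + y) = s29_kappaFun N m x + s29_kappaFun N m y := by
  obtain ⟨D, g, G, hw⟩ := s29_ka_exists_witness N m (x : JZero N) (Pic0.mem_torsion.mp x.2)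
  obtain ⟨D', g', G', hw'⟩ := s29_ka_exists_witness N m (y : JZero N) (Pic0.mem_torsion.mp y.2)
  exact s29_kappaFun_eq_of_witness (x + y) (s29_ka_witness_add hw hw')
    (s29_ka_isChar_mul (s29_kappaFun_spec x hw) (s29_kappaFun_spec y hw'))

/-- **The map `κ`** from the `m`-torsion of `J₀(N)(ℚ̄)` to `Hom(Γ₀(N), ℤ/m)`. -/
def s29_kappa (N m : ℕ) [NeZero N] [NeZero m] :
    Pic0.torsion Kbar (modularFunctionFieldBar N) m →+ (Additive (Gamma0 N) →+ ZMod m) :=
  AddMonoidHom.mk' (s29_kappaFun N m) (s29_kappaFun_add N m)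

theorem s29_kappa_apply (N m : ℕ) [NeZero N] [NeZero m]
    (x : Pic0.torsion Kbar (modularFunctionFieldBar N) m) :
    s29_kappa N m x = s29_kappaFun N m x := rfl

/-- **Any-witness spec of `κ`**: for ANY divisor `D` in the class `x`, any `g` with
`div g = m • D` and any meromorphic `m`-th root `G` of `g` on the upper half plane,
`G(γτ) = ζ_m ^ κ(x)(γ) · G(τ)` for all `γ ∈ Γ₀(N)`. -/
theorem s29_kappa_spec {N m : ℕ} [NeZero N] [NeZero m]
    (x : Pic0.torsion Kbar (modularFunctionFieldBar N) m)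
    {D : Divisor.degZero (K := Kbar) (F := modularFunctionFieldBar N)}
    {g : modularFunctionFieldBar N} {G : s29_Mer}
    (h : s29_ka_IsWitness N m (x : JZero N) D g G) (γ : Gamma0 N) :
    ((γ : SL(2, ℤ))⁻¹) • G =
      algebraMap ℂ s29_Mer (s29_ka_pow m (s29_kappa N m x (Additive.ofMul γ))) * G :=
  s29_kappaFun_spec x h γ

/-- conversely a character read off any witness is `κ x`. -/
theorem s29_kappa_eq_of_witness {N m : ℕ} [NeZero N] [NeZero m]
    (x : Pic0.torsion Kbar (modularFunctionFieldBar N) m)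
    {D : Divisor.degZero (K := Kbar) (F := modularFunctionFieldBar N)}
    {g : modularFunctionFieldBar N} {G : s29_Mer}
    (h : s29_ka_IsWitness N m (x : JZero N) D g G)
    {χ : Additive (Gamma0 N) →+ ZMod m} (hχ : s29_ka_IsChar N m G χ) :
    s29_kappa N m x = χ :=
  s29_kappaFun_eq_of_witness x h hχ

/-- `κ x = 0` iff the root of a (any) witness is `Γ₀(N)`-invariant. -/
theorem s29_kappa_eq_zero_iff_invariant {N m : ℕ} [NeZero N] [NeZero m]
    (x : Pic0.torsion Kbar (modularFunctionFieldBar N) m)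
    {D : Divisor.degZero (K := Kbar) (F := modularFunctionFieldBar N)}
    {g : modularFunctionFieldBar N} {G : s29_Mer}
    (h : s29_ka_IsWitness N m (x : JZero N) D g G) :
    s29_kappa N m x = 0 ↔ ∀ γ : SL(2, ℤ), γ ∈ Gamma0 N → γ • G = G := by
  constructor
  · intro h0
    have h1 := s29_kappaFun_spec x h
    rw [← s29_kappa_apply, h0] at h1
    exact s29_ka_isChar_zero_iff.1 h1
  · intro hinv
    exact s29_kappa_eq_of_witness x h (s29_ka_isChar_zero_iff.2 hinv)

end Fermat.Agent.S29
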