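import Mathlib
import Fermat.Prelude.Def_ModularCurve_LaurentCoeff

/-!
# BRIDGE (LD): linear disjointness for `laurentBaseChange`

If `k ⊆ L` are fields of characteristic zero and `s ∈ k((q))` becomes an element of
`L · F₀ ⊆ L((q))` after extending coefficients, then `s ∈ k · F₀` already.
-/

set_option autoImplicit false

noncomputable section

namespace Fermat.Agent.S29

open ModularCurve HahnSeries

section Generic

variable {k L : Type*} [Field k] [Field L]

theorem s29_ld_coeffMap_injective (ι : k →+* L) :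
    Function.Injective (coeffMap ι : LaurentSeries k → LaurentSeries L) := by
  intro x y h
  ext n
  have := congrArg (fun w => w.coeff n) h
  simp only [coeffMap_coeff] at this
  exact ι.injective this

/-- Coefficientwise application of a `k`-linear functional `L → k`. -/
def s29_ld_proj [Algebra k L] (π : L →ₗ[k] k) : LaurentSeries L →+ LaurentSeries k where
  toFun x := x.map π
  map_zero' := by ext n; simp
  map_add' x y := by ext n; simp

theorem s29_ld_proj_coeff [Algebra k L] (π : L →ₗ[k] k) (x : LaurentSeries L) (n : ℤ) :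
    (s29_ld_proj π x).coeff n = π (x.coeff n) := rfl

theorem s29_ld_proj_smul [Algebra k L] (π : L →ₗ[k] k) (c : L) (w : LaurentSeries k) :
    s29_ld_proj π (c • coeffMap (algebraMap k L) w) = π c • w := by
  ext n
  rw [s29_ld_proj_coeff, HahnSeries.coeff_smul, HahnSeries.coeff_smul, coeffMap_coeff,
    smul_eq_mul, smul_eq_mul, mul_comm c, ← Algebra.smul_def, map_smul, smul_eq_mul, mul_comm]

theorem s29_ld_algebraMap_mul (c : L) (x : LaurentSeries L) :
    algebraMap L (LaurentSeries L) c * x = c • x := by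
  rw [algebraMap_laurentSeries_eq_single, ← HahnSeries.C_apply, HahnSeries.C_mul_eq_smul]

theorem s29_ld_proj_algebraMap_mul [Algebra k L] (π : L →ₗ[k] k) (c : L) (w : LaurentSeries k) :
    s29_ld_proj π (algebraMap L (LaurentSeries L) c * coeffMap (algebraMap k L) w)
      = algebraMap k (LaurentSeries k) (π c) * w := by
  rw [s29_ld_algebraMap_mul, s29_ld_algebraMap_mul, s29_ld_proj_smul]

variable [Algebra ℚ k] [Algebra ℚ L]

/-- Extending coefficients of a rational series through `k` or directly gives the same. -/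
theorem s29_ld_coeffMap_coeffEmb (ι : k →+* L) (z : LaurentSeries ℚ) :
    coeffMap ι (coeffEmb k z) = coeffEmb L z := by
  rw [coeffEmb, coeffEmb, coeffMap_coeffMap]
  exact coeffMap_congr (RingHom.ext_rat _ _) z

theorem s29_ld_closure (F₀ : IntermediateField ℚ (LaurentSeries ℚ)) :
    (Submonoid.closure (⇑(coeffEmb L) '' (F₀ : Set (LaurentSeries ℚ))) : Set (LaurentSeries L))
      = ⇑(coeffEmb L) '' (F₀ : Set (LaurentSeries ℚ)) := by
  have h : (⇑(coeffEmb L) '' (F₀ : Set (LaurentSeries ℚ)))
      = ((F₀.toSubfield.toSubring.toSubmonoid.map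
          ((coeffEmb L : LaurentSeries ℚ →+* LaurentSeries L) : LaurentSeries ℚ →* LaurentSeries L)
          : Submonoid (LaurentSeries L)) : Set (LaurentSeries L)) := by
    ext x
    simp
  rw [h, Submonoid.closure_eq]

variable [Algebra k L]

theorem s29_ld_proj_adjoin (F₀ : IntermediateField ℚ (LaurentSeries ℚ)) (π : L →ₗ[k] k)
    (s : LaurentSeries k) (a : LaurentSeries L)
    (ha : a ∈ Algebra.adjoin L (⇑(coeffEmb L) '' (F₀ : Set (LaurentSeries ℚ)))) :
    ∀ c : L, s29_ld_proj π (algebraMap L (LaurentSeries L) c * a * coeffMap (algebraMap k L) s)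
        = s29_ld_proj π (algebraMap L (LaurentSeries L) c * a) * s ∧
      s29_ld_proj π (algebraMap L (LaurentSeries L) c * a) ∈ laurentBaseChange k F₀ := by
  have ha' : a ∈ Subalgebra.toSubmodule
      (Algebra.adjoin L (⇑(coeffEmb L) '' (F₀ : Set (LaurentSeries ℚ)))) := ha
  rw [Algebra.adjoin_eq_span, s29_ld_closure] at ha'
  clear ha
  induction ha' using Submodule.span_induction with
  | mem x hx =>
    obtain ⟨z, hz, rfl⟩ := hx
    intro c
    have h1 : s29_ld_proj π (algebraMap L (LaurentSeries L) c * coeffEmb L z)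
        = algebraMap k (LaurentSeries k) (π c) * coeffEmb k z := by
      rw [← s29_ld_coeffMap_coeffEmb (algebraMap k L), s29_ld_proj_algebraMap_mul]
    have h2 : algebraMap L (LaurentSeries L) c * coeffEmb L z * coeffMap (algebraMap k L) s
        = algebraMap L (LaurentSeries L) c * coeffMap (algebraMap k L) (coeffEmb k z * s) := by
      rw [map_mul, s29_ld_coeffMap_coeffEmb, mul_assoc]
    rw [h2, s29_ld_proj_algebraMap_mul, h1, mul_assoc]
    exact ⟨rfl, mul_mem ((laurentBaseChange k F₀).algebraMap_mem _)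
      (coeffEmb_mem_laurentBaseChange k hz)⟩
  | zero => intro c; simp
  | add x y _ _ hx hy =>
    intro c
    rw [mul_add, add_mul, map_add, map_add, (hx c).1, (hy c).1, add_mul]
    exact ⟨rfl, add_mem (hx c).2 (hy c).2⟩
  | smul c' x _ hx =>
    intro c
    rw [Algebra.smul_def, ← mul_assoc, ← map_mul]
    exact hx (c * c')

/-- **(LD), generic form.** -/
theorem s29_ld_generic (F₀ : IntermediateField ℚ (LaurentSeries ℚ)) (s : LaurentSeries k)
    (hs : coeffMap (algebraMap k L) s ∈ laurentBaseChange L F₀) :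
    s ∈ laurentBaseChange k F₀ := by
  rw [laurentBaseChange, IntermediateField.mem_adjoin_iff_div] at hs
  obtain ⟨a, ha, b, hb, hx⟩ := hs
  by_cases hb0 : b = 0
  · rw [hb0, div_zero] at hx
    have h0 : s = 0 := by
      apply s29_ld_coeffMap_injective (algebraMap k L)
      rw [hx, map_zero]
    rw [h0]
    exact zero_mem _
  · obtain ⟨n, hn⟩ : ∃ n, b.coeff n ≠ 0 := by
      by_contra h
      exact hb0 (HahnSeries.ext (funext fun n => not_not.1 (not_exists.1 h n)))
    obtain ⟨π, hπ⟩ : ∃ π : L →ₗ[k] k, π (b.coeff n) ≠ 0 := by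
      by_contra h
      exact hn ((Module.forall_dual_apply_eq_zero_iff k _).1
        (fun f => not_not.1 (not_exists.1 h f)))
    have hab : b * coeffMap (algebraMap k L) s = a := by
      rw [hx, mul_div_cancel₀ _ hb0]
    have h1 := s29_ld_proj_adjoin F₀ π s b hb 1
    have h2 := s29_ld_proj_adjoin F₀ π s a ha 1
    rw [map_one, one_mul] at h1 h2
    have hPb : s29_ld_proj π b ≠ 0 := by
      intro h0
      apply hπ
      have := congrArg (fun y => y.coeff n) h0
      simpa [s29_ld_proj_coeff] using this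
    have hs' : s = s29_ld_proj π a / s29_ld_proj π b := by
      rw [eq_div_iff hPb, mul_comm, ← h1.1, hab]
    rw [hs']
    exact div_mem h2.2 h1.2

end Generic

/-- **(LD), ring-hom form**: for any embedding `ι : k →+* L` of fields of characteristic zero. -/
theorem s29_ld_ringHom {k L : Type*} [Field k] [Field L] [Algebra ℚ k] [Algebra ℚ L]
    (F₀ : IntermediateField ℚ (LaurentSeries ℚ)) (ι : k →+* L) (s : LaurentSeries k)
    (hs : coeffMap ι s ∈ laurentBaseChange L F₀) : s ∈ laurentBaseChange k F₀ := by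
  let _ : Algebra k L := ι.toAlgebra
  exact s29_ld_generic F₀ s hs

/-- **(LD)** for `Q̄ ⊆ ℂ`. -/
theorem s29_ld (F₀ : IntermediateField ℚ (LaurentSeries ℚ)) (ι : AlgebraicClosure ℚ →+* ℂ)
    (s : LaurentSeries (AlgebraicClosure ℚ))
    (hs : coeffMap ι s ∈ laurentBaseChange ℂ F₀) :
    s ∈ laurentBaseChange (AlgebraicClosure ℚ) F₀ :=
  s29_ld_ringHom F₀ ι s hs

/-- The converse direction: extension of coefficients maps `k · F₀` into `L · F₀`. -/
theorem s29_ld_coeffMap_mem {k L : Type*} [Field k] [Field L] [Algebra ℚ k] [Algebra ℚ L]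
    (F₀ : IntermediateField ℚ (LaurentSeries ℚ)) (ι : k →+* L) (s : LaurentSeries k)
    (hs : s ∈ laurentBaseChange k F₀) : coeffMap ι s ∈ laurentBaseChange L F₀ := by
  rw [mem_laurentBaseChange_iff] at hs
  induction hs using Subfield.closure_induction with
  | mem y hy =>
      rcases hy with ⟨a, rfl⟩ | ⟨z, hz, rfl⟩
      · rw [algebraMap_laurentSeries_eq_single, coeffMap_single,
          ← algebraMap_laurentSeries_eq_single]
        exact (laurentBaseChange L F₀).algebraMap_mem _
      · rw [s29_ld_coeffMap_coeffEmb]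
        exact coeffEmb_mem_laurentBaseChange L hz
  | one => simp
  | add x y _ _ hx hy => simpa using add_mem hx hy
  | neg x _ hx => simpa using neg_mem hx
  | inv x _ hx => simpa using inv_mem hx
  | mul x y _ _ hx hy => simpa using mul_mem hx hy

/-- `ι s ∈ L · F₀ ↔ s ∈ k · F₀`. -/
theorem s29_ld_iff {k L : Type*} [Field k] [Field L] [Algebra ℚ k] [Algebra ℚ L]
    (F₀ : IntermediateField ℚ (LaurentSeries ℚ)) (ι : k →+* L) (s : LaurentSeries k) :
    coeffMap ι s ∈ laurentBaseChange L F₀ ↔ s ∈ laurentBaseChange k F₀ :=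
  ⟨s29_ld_ringHom F₀ ι s, s29_ld_coeffMap_mem F₀ ι s⟩

end Fermat.Agent.S29

end
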