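import Fermat.Agent.S29.MerField
import Fermat.Agent.S24.ModEmb

/-!
# S29 (project BRIDGE): the function field of `X₀(N)` inside the meromorphic functions on `ℍ`

* `s29_ofModRing N : modRing N →+* s29_hol` : the S24 ring `ℚ̄[J(dγτ)]` consists of holomorphic
  functions;
* `s29_ofModL N : ModL N →+* s29_Mer` : its fraction field inside the meromorphic functions,
  `SL₂(ℤ)`-equivariantly;
* `s29_an N : modularFunctionFieldBar N →+* s29_Mer` : the analytic realisation of the function
  field `ℚ̄(j(q^d) : d ∣ N) ⊆ ℚ̄((q))` of `X₀(N)`; its image is fixed by `Γ₀(N)`.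
-/

set_option autoImplicit false

open UpperHalfPlane ModularCurve
open scoped MatrixGroups Manifold

noncomputable section

namespace Fermat.Agent.S29

open Fermat.Agent.S24
open CongruenceSubgroup

attribute [local instance] algKC

/-- `modRing N ⊆ 𝒪(ℍ)`. -/
def s29_ofModRing (N : ℕ) [NeZero N] : modRing N →+* s29_hol where
  toFun g := ⟨(g : ℍ → ℂ), mdifferentiable_of_mem_modRing g.2⟩
  map_one' := rfl
  map_mul' _ _ := rfl
  map_zero' := rfl
  map_add' _ _ := rfl

theorem s29_ofModRing_apply (N : ℕ) [NeZero N] (g : modRing N) (τ : ℍ) :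
    (s29_ofModRing N g : ℍ → ℂ) τ = (g : ℍ → ℂ) τ := rfl

theorem s29_ofModRing_injective (N : ℕ) [NeZero N] : Function.Injective (s29_ofModRing N) := by
  intro a b h
  apply Subtype.ext
  exact congrArg (fun f : s29_hol => (f : ℍ → ℂ)) h

theorem s29_ofModRing_const (N : ℕ) [NeZero N] (c : Kbar) :
    s29_ofModRing N (algebraMap Kbar (modRing N) c) = algebraMap ℂ s29_hol (iotaK c) := rfl

theorem s29_ofModRing_smul (N : ℕ) [NeZero N] (γ : SL(2, ℤ)) (g : modRing N) :
    s29_ofModRing N (γ • g) = s29_sl γ • s29_ofModRing N g := by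
  apply s29_hol_ext
  intro τ
  rw [s29_hol_smul_apply, s29_sl_inv_smul]
  rfl

/-- `ModL N = Frac (modRing N)` inside the field of meromorphic functions. -/
def s29_ofModL (N : ℕ) [NeZero N] : ModL N →+* s29_Mer :=
  IsFractionRing.lift (g := (algebraMap s29_hol s29_Mer).comp (s29_ofModRing N))
    (s29_algebraMap_injective.comp (s29_ofModRing_injective N))

theorem s29_ofModL_algebraMap (N : ℕ) [NeZero N] (g : modRing N) :
    s29_ofModL N (algebraMap (modRing N) (ModL N) g) =
      algebraMap s29_hol s29_Mer (s29_ofModRing N g) :=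
  IsFractionRing.lift_algebraMap _ g

theorem s29_ofModL_injective (N : ℕ) [NeZero N] : Function.Injective (s29_ofModL N) :=
  (s29_ofModL N).injective

theorem s29_ofModL_const (N : ℕ) [NeZero N] (c : Kbar) :
    s29_ofModL N (algebraMap Kbar (ModL N) c) = algebraMap ℂ s29_Mer (iotaK c) := by
  rw [IsScalarTower.algebraMap_apply Kbar (modRing N) (ModL N), s29_ofModL_algebraMap,
    s29_ofModRing_const, ← IsScalarTower.algebraMap_apply ℂ s29_hol s29_Mer]

theorem s29_ofModL_smul (N : ℕ) [NeZero N] (γ : SL(2, ℤ)) (x : ModL N) :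
    s29_ofModL N (γ • x) = γ • s29_ofModL N x := by
  obtain ⟨a, b, hb, rfl⟩ := IsFractionRing.div_surjective (A := modRing N) x
  rw [smul_div₀', smul_algebraMap_modL, smul_algebraMap_modL, map_div₀, map_div₀,
    s29_ofModL_algebraMap, s29_ofModL_algebraMap, s29_ofModL_algebraMap, s29_ofModL_algebraMap,
    s29_ofModRing_smul, s29_ofModRing_smul, smul_div₀', s29_sl_smul_def, s29_sl_smul_def,
    s29_smul_algebraMap, s29_smul_algebraMap]

/-- **The analytic realisation** of the function field of `X₀(N)` over `ℚ̄`: every element of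
`ℚ̄(j(q^d) : d ∣ N) ⊆ ℚ̄((q))` as a meromorphic function on the upper half plane. -/
def s29_an (N : ℕ) [NeZero N] : modularFunctionFieldBar N →+* s29_Mer :=
  (s29_ofModL N).comp (embF N : modularFunctionFieldBar N →+* ModL N)

theorem s29_an_apply (N : ℕ) [NeZero N] (f : modularFunctionFieldBar N) :
    s29_an N f = s29_ofModL N (embF N f) := rfl

theorem s29_an_injective (N : ℕ) [NeZero N] : Function.Injective (s29_an N) :=
  (s29_an N).injective

theorem s29_an_const (N : ℕ) [NeZero N] (c : Kbar) :
    s29_an N (algebraMap Kbar (modularFunctionFieldBar N) c) = algebraMap ℂ s29_Mer (iotaK c) := by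
  rw [s29_an_apply, AlgHom.commutes, s29_ofModL_const]

/-- the analytic realisation of a function on `X₀(N)` is `Γ₀(N)`-invariant. -/
theorem s29_an_smul (N : ℕ) [NeZero N] (γ : SL(2, ℤ)) (hγ : γ ∈ Gamma0 N)
    (f : modularFunctionFieldBar N) : γ • s29_an N f = s29_an N f := by
  rw [s29_an_apply, ← s29_ofModL_smul, (embF_stab N γ).2 hγ f]

/-- conversely, an element of `SL₂(ℤ)` fixing all of `s29_an N` lies in `Γ₀(N)`. -/
theorem s29_an_stab (N : ℕ) [NeZero N] (γ : SL(2, ℤ))
    (h : ∀ f : modularFunctionFieldBar N, γ • s29_an N f = s29_an N f) : γ ∈ Gamma0 N := by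
  apply (embF_stab N γ).1
  intro f
  apply s29_ofModL_injective N
  rw [s29_ofModL_smul]
  exact h f

end Fermat.Agent.S29
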