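import Fermat.Agent.S29.DLite
import Fermat.Agent.S29.MerEmb
import Fermat.Agent.S29.LinDisj
import Fermat.Agent.S29.Kappa

/-!
# BRIDGE (hld): linear disjointness of `s29_an` and the `s29_Mer`-adapter of (D-lite)

`ℚ̄`-linearly independent elements of the function field of `X₀(N)` stay `ℂ`-linearly
independent as meromorphic functions on the upper half plane.
-/

set_option autoImplicit false

open UpperHalfPlane ModularCurve AlgebraicCurve
open scoped MatrixGroups Manifold

noncomputable section

namespace Fermat.Agent.S29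

open Fermat.Agent.S24
open CongruenceSubgroup

attribute [local instance] algKC

/-- finite `ℂ`-linear combinations of functions with `q`-expansions. -/
theorem s29_dla_hasQExp_sum (N : ℕ) {ι : Type*} (s : Finset ι) (c : ι → ℂ) (a : ι → ℍ → ℂ)
    (S : ι → LaurentSeries ℂ) (h : ∀ i ∈ s, Fermat.Agent.S28.HasQExp N (a i) (S i)) :
    Fermat.Agent.S28.HasQExp N (fun τ => ∑ i ∈ s, c i * a i τ)
      (∑ i ∈ s, HahnSeries.C (c i) * S i) := by
  classical
  induction s using Finset.induction_on with
  | empty =>
      simp only [Finset.sum_empty]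
      have h0 := Fermat.Agent.S28.hasQExp_const N (0 : ℂ)
      rwa [map_zero] at h0
  | insert i s hi ih =>
      simp only [Finset.sum_insert hi]
      exact ((Fermat.Agent.S28.hasQExp_const N (c i)).mul (h i (Finset.mem_insert_self i s))).add
        (ih fun j hj => h j (Finset.mem_insert_of_mem hj))

/-- coefficientwise linear disjointness: `k`-linearly independent Laurent series stay
linearly independent over `L` after extension of the coefficients. -/
theorem s29_dla_series {k L : Type*} [Field k] [Field L] [Algebra k L] {n : ℕ}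
    (s : Fin n → LaurentSeries k) (hs : LinearIndependent k s) (c : Fin n → L)
    (hc : ∑ i, HahnSeries.C (c i) * coeffMap (algebraMap k L) (s i) = 0) : ∀ i, c i = 0 := by
  by_contra hcon
  push Not at hcon
  obtain ⟨i0, hi0⟩ := hcon
  obtain ⟨π, hπ⟩ := LinearMap.exists_leftInverse_of_injective (Algebra.linearMap k L)
    (LinearMap.ker_eq_bot.mpr (algebraMap k L).injective)
  have hπ1 : π 1 = 1 := by
    have := congrArg (fun f => f 1) hπ
    simpa using this
  have h1 : ∑ i, ((c i0)⁻¹ * c i) • coeffMap (algebraMap k L) (s i) = 0 := by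
    have := congrArg (fun x => (c i0)⁻¹ • x) hc
    simp only [smul_zero, Finset.smul_sum] at this
    rw [← this]
    refine Finset.sum_congr rfl fun i _ => ?_
    rw [HahnSeries.C_mul_eq_smul, smul_smul]
  have h2 := congrArg (s29_ld_proj π) h1
  rw [map_sum, map_zero] at h2
  simp only [s29_ld_proj_smul] at h2
  have h3 := (Fintype.linearIndependent_iff.mp hs) (fun i => π ((c i0)⁻¹ * c i)) h2 i0
  rw [inv_mul_cancel₀ hi0, hπ1] at h3
  exact one_ne_zero h3

/-- **(hld)**: `ℚ̄`-linearly independent elements of the function field of `X₀(N)` stay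
`ℂ`-linearly independent as meromorphic functions on the upper half plane. -/
theorem s29_dla_hld (N : ℕ) [NeZero N] (n : ℕ) (f : Fin n → modularFunctionFieldBar N)
    (hf : LinearIndependent Kbar f) : LinearIndependent ℂ (fun i => s29_an N (f i)) := by
  classical
  rw [Fintype.linearIndependent_iff]
  intro c hc
  -- common denominator
  obtain ⟨d, hd⟩ := IsLocalization.exist_integer_multiples (nonZeroDivisors (modRing N))
    (Finset.univ : Finset (Fin n)) (fun i => embF N (f i))
  choose a ha using fun i => hd i (Finset.mem_univ i)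
  have hd0 : (d : modRing N) ≠ 0 := nonZeroDivisors.ne_zero d.2
  have ha' : ∀ i, algebraMap (modRing N) (ModL N) (a i) =
      algebraMap (modRing N) (ModL N) d * embF N (f i) := fun i => by
    rw [ha i, Algebra.smul_def]
  -- the relation among the holomorphic numerators
  have h1 : ∑ i, c i • s29_ofModRing N (a i) = 0 := by
    apply s29_algebraMap_injective
    rw [map_zero, map_sum]
    have h2 : ∀ i, algebraMap s29_hol s29_Mer (c i • s29_ofModRing N (a i)) =
        algebraMap s29_hol s29_Mer (s29_ofModRing N d) * (c i • s29_an N (f i)) := fun i => by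
      rw [Algebra.smul_def, map_mul, ← IsScalarTower.algebraMap_apply ℂ s29_hol s29_Mer,
        ← s29_ofModL_algebraMap, ha' i, map_mul, s29_ofModL_algebraMap, s29_an_apply,
        Algebra.smul_def]
      ring
    rw [Finset.sum_congr rfl fun i _ => h2 i, ← Finset.mul_sum, hc, mul_zero]
  have h3 : ∀ τ : ℍ, ∑ i, c i * ((a i : modRing N) : ℍ → ℂ) τ = 0 := fun τ => by
    have := congrArg (fun g : s29_hol => (g : ℍ → ℂ) τ) h1
    simp at this
    exact this
  -- q-expansions
  have h4 := s29_dla_hasQExp_sum N (Finset.univ : Finset (Fin n)) c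
    (fun i => ((a i : modRing N) : ℍ → ℂ)) (fun i => coeffMap iotaK (expHom N (a i)))
    (fun i _ => expHom_spec N (a i))
  have h5 : Fermat.Agent.S28.HasQExp N (fun τ => ∑ i, c i * ((a i : modRing N) : ℍ → ℂ) τ)
      0 := by
    have h0 := Fermat.Agent.S28.hasQExp_const N (0 : ℂ)
    rw [map_zero] at h0
    exact h0.congr fun τ => (h3 τ).symm
  have h6 := h4.unique h5
  -- the expansions are linearly independent over `ℚ̄`
  have h7 : LinearIndependent Kbar (fun i => expHom N (a i)) := by
    have e : ∀ i, expHom N (a i) = expHom N d * expL N (embF N (f i)) := fun i => by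
      rw [← expL_algebraMap, ha' i, map_mul, expL_algebraMap]
    have hd1 : expHom N (d : modRing N) ≠ 0 := fun h =>
      hd0 (expHom_injective N (by rw [h, map_zero]))
    rw [Fintype.linearIndependent_iff]
    intro k hk
    have h9 : expHom N (d : modRing N) * expL N (embF N (∑ i, k i • f i)) = 0 := by
      rw [← hk, map_sum, map_sum, Finset.mul_sum]
      refine Finset.sum_congr rfl fun i _ => ?_
      rw [← HahnSeries.C_mul_eq_smul, e i, Algebra.smul_def, map_mul, map_mul, AlgHom.commutes,
        AlgHom.commutes, algebraMap_laurentSeries_eq_single, ← HahnSeries.C_apply]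
      ring
    have h10 : ∑ i, k i • f i = 0 := by
      rcases mul_eq_zero.mp h9 with h | h
      · exact absurd h hd1
      · have h11 : embF N (∑ i, k i • f i) = 0 := expL_injective N (by rw [h, map_zero])
        exact (embF N).toRingHom.injective (by rw [map_zero]; exact h11)
    exact (Fintype.linearIndependent_iff.mp hf) k h10
  exact s29_dla_series (fun i => expHom N (a i)) h7 c h6

/-- **(D-lite) for `s29_an`**: a meromorphic function `y = A / B` on the upper half plane, with
`A`, `B` finite `ℂ`-linear combinations of elements of the function field of `X₀(N)`, whose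
`m`-th power lies in the function field is a constant multiple of an element of the
function field. -/
theorem s29_dla_root (N : ℕ) [NeZero N] (m : ℕ) (hm : 0 < m) (y A B : s29_Mer)
    (hA : A ∈ Submodule.span ℂ (Set.range (s29_an N)))
    (hB : B ∈ Submodule.span ℂ (Set.range (s29_an N))) (hB0 : B ≠ 0) (hy : y * B = A)
    (g : modularFunctionFieldBar N) (hyg : y ^ m = s29_an N g) :
    ∃ (c : ℂ) (h : modularFunctionFieldBar N), c ^ m = 1 ∧ h ^ m = g ∧
      y = algebraMap ℂ s29_Mer c * s29_an N h :=
  s29_dl_main_complex (K := Kbar) (s29_an N) (fun c => s29_an_const N c) (s29_dla_hld N) m hm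
    y A B hA hB hB0 hy g hyg

/-- **(INJ-core)**: if the root `G` of a witness `(D, g, G)` of `x` is a quotient of two finite
`ℂ`-linear combinations of elements of the function field, then `x = 0`. -/
theorem s29_dla_inj_core (N m : ℕ) [NeZero N] [NeZero m] {x : JZero N}
    {D : Divisor.degZero (K := Kbar) (F := modularFunctionFieldBar N)}
    {g : modularFunctionFieldBar N} {G : s29_Mer} (h : s29_ka_IsWitness N m x D g G)
    (A B : s29_Mer) (hA : A ∈ Submodule.span ℂ (Set.range (s29_an N)))
    (hB : B ∈ Submodule.span ℂ (Set.range (s29_an N))) (hB0 : B ≠ 0) (hG : G * B = A) :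
    x = 0 := by
  obtain ⟨hx, hg, hord, hGm⟩ := h
  have hm : 0 < m := Nat.pos_of_ne_zero (NeZero.ne m)
  obtain ⟨c, h0, -, hh, -⟩ := s29_dla_root N m hm G A B hA hB hB0 hG g hGm
  have hh0 : h0 ≠ 0 := by
    rintro rfl
    exact hg (by rw [← hh, zero_pow hm.ne'])
  have hD : ∀ P : Place Kbar (modularFunctionFieldBar N),
      (D : Divisor Kbar (modularFunctionFieldBar N)) P = P.ord h0 := by
    intro P
    have h1 := hord P
    rw [← hh, Fermat.Agent.S24.ord_pow] at h1
    exact (mul_left_cancel₀ (Int.natCast_ne_zero.mpr hm.ne') h1).symm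
  rw [← hx]
  show (QuotientAddGroup.mk D : Pic0 Kbar (modularFunctionFieldBar N)) = 0
  rw [QuotientAddGroup.eq_zero_iff, AddSubgroup.mem_addSubgroupOf]
  exact ⟨h0, hh0, hD⟩

/-- **(INJ)**, modulo (Z2): if every `Γ₀(N)`-invariant meromorphic `m`-th root of an element of
the function field is a quotient of two finite `ℂ`-linear combinations of elements of the
function field, then `κ` is injective on the `m`-torsion. -/
theorem s29_dla_kappa_injective (N m : ℕ) [NeZero N] [NeZero m]
    (hZ2 : ∀ G : s29_Mer, (∀ γ : SL(2, ℤ), γ ∈ Gamma0 N → γ • G = G) →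
      (∃ g : modularFunctionFieldBar N, g ≠ 0 ∧ G ^ m = s29_an N g) →
      ∃ A B : s29_Mer, A ∈ Submodule.span ℂ (Set.range (s29_an N)) ∧
        B ∈ Submodule.span ℂ (Set.range (s29_an N)) ∧ B ≠ 0 ∧ G * B = A) :
    Function.Injective (s29_kappa N m) := by
  rw [injective_iff_map_eq_zero]
  intro x hx
  have hxt : (m : ℤ) • (x : JZero N) = 0 := Pic0.mem_torsion.mp x.2
  obtain ⟨D, g, G, hw⟩ := s29_ka_exists_witness N m (x : JZero N) hxt
  have hinv := (s29_kappa_eq_zero_iff_invariant x hw).mp hx
  obtain ⟨A, B, hA, hB, hB0, hG⟩ := hZ2 G hinv ⟨g, hw.2.1, hw.2.2.2⟩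
  exact Subtype.ext (s29_dla_inj_core N m hw A B hA hB hB0 hG)

end Fermat.Agent.S29
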