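import Mathlib
import Fermat.Agent.S24.ModActionBase
import Fermat.Agent.S24.ModRing
import Fermat.Agent.S28.LevelOnePoly
import Fermat.Agent.S28.LevelOne
import Fermat.Agent.S28.Cosets

/-!
# S29 (project BRIDGE), block (Z1)/(Z2): modular functions of level `Γ₀(N)` lie in `ℂ(J, J_N)`

* `s29_z_CuspBdd h` : `h` has finite order at every cusp (`(h ∘ γ) · Δ ^ M` is bounded at `i∞`
  for every `γ ∈ SL₂(ℤ)`, `M` independent of `γ`);
* `s29_z_ev N P τ = P(J(τ), J(Nτ))` for a bivariate polynomial `P`;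
* `s29_z2_hol` : there is a universal denominator `D` with `D(J, J_N) ≢ 0` such that every
  holomorphic `Γ₀(N)`-invariant function `h` of finite order at the cusps satisfies
  `h · D(J, J_N) = H(J, J_N)` for a bivariate polynomial `H`.

The proof is by Lagrange interpolation over the cosets `SL₂(ℤ)/Γ₀(N)`: the conjugates of `J_N`
are pairwise distinct, and the symmetric coefficient functions are polynomials in `J`.
-/

set_option autoImplicit false

open UpperHalfPlane ModularForm Polynomial Filter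
open scoped MatrixGroups Manifold

noncomputable section

namespace Fermat.Agent.S29

open Fermat.Agent.S28 (Jfun scaleH HasQExp tParam)
open Fermat.Agent.S24 (modRing Jconj Jelt)

local notation "Δ" => ModularForm.discriminant

/-- `h` has finite order at every cusp. -/
def s29_z_CuspBdd (h : ℍ → ℂ) : Prop :=
  ∃ M : ℕ, ∀ γ : SL(2, ℤ), IsBoundedAtImInfty (fun τ : ℍ => h (γ • τ) * Δ τ ^ M)

/-- `Δ` is bounded at `i∞`. -/
theorem s29_z_bdd_discriminant : IsBoundedAtImInfty (fun τ : ℍ => Δ τ) := by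
  have h1 := Fermat.Agent.S28.lop_isBoundedAtImInfty_discriminant_div_q
  have h2 : IsBoundedAtImInfty (fun τ : ℍ => Function.Periodic.qParam 1 (τ : ℂ)) := by
    rw [isBoundedAtImInfty_iff]
    refine ⟨1, 0, fun τ _ => ?_⟩
    rw [Function.Periodic.norm_qParam]
    apply Real.exp_le_one_iff.mpr
    have := τ.im_pos
    have h3 : 0 ≤ 2 * Real.pi * (τ : ℂ).im / 1 := by
      rw [UpperHalfPlane.coe_im]; positivity
    linarith
  have h3 : (fun τ : ℍ => Δ τ) = fun τ : ℍ =>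
      (Δ τ / Function.Periodic.qParam 1 (τ : ℂ)) * Function.Periodic.qParam 1 (τ : ℂ) := by
    funext τ
    rw [div_mul_cancel₀]
    exact Complex.exp_ne_zero _
  rw [h3]
  exact BoundedAtFilter.mul h1 h2

theorem s29_z_bdd_discriminant_pow (m : ℕ) : IsBoundedAtImInfty (fun τ : ℍ => Δ τ ^ m) :=
  Fermat.Agent.S28.lop_isBoundedAtImInfty_pow s29_z_bdd_discriminant m

/-- Boundedness after multiplication by `Δ ^ M` is monotone in `M`. -/
theorem s29_z_bdd_mono {f : ℍ → ℂ} {M M' : ℕ} (hM : M ≤ M')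
    (h : IsBoundedAtImInfty (fun τ : ℍ => f τ * Δ τ ^ M)) :
    IsBoundedAtImInfty (fun τ : ℍ => f τ * Δ τ ^ M') := by
  have h1 : (fun τ : ℍ => f τ * Δ τ ^ M') =
      fun τ : ℍ => (f τ * Δ τ ^ M) * Δ τ ^ (M' - M) := by
    funext τ
    rw [mul_assoc, ← pow_add, Nat.add_sub_cancel' hM]
  rw [h1]
  exact BoundedAtFilter.mul h (s29_z_bdd_discriminant_pow _)

theorem s29_z_cuspBdd_const (c : ℂ) : s29_z_CuspBdd (fun _ => c) :=
  ⟨0, fun _ => by
    simp only [pow_zero, mul_one]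
    exact const_boundedAtFilter atImInfty c⟩

theorem s29_z_CuspBdd.mul {f g : ℍ → ℂ} (hf : s29_z_CuspBdd f) (hg : s29_z_CuspBdd g) :
    s29_z_CuspBdd (fun τ => f τ * g τ) := by
  obtain ⟨M, hM⟩ := hf
  obtain ⟨M', hM'⟩ := hg
  refine ⟨M + M', fun γ => ?_⟩
  have h1 : (fun τ : ℍ => f (γ • τ) * g (γ • τ) * Δ τ ^ (M + M')) =
      fun τ : ℍ => (f (γ • τ) * Δ τ ^ M) * (g (γ • τ) * Δ τ ^ M') := by
    funext τ
    rw [pow_add]; ring
  rw [h1]
  exact BoundedAtFilter.mul (hM γ) (hM' γ)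

theorem s29_z_CuspBdd.add {f g : ℍ → ℂ} (hf : s29_z_CuspBdd f) (hg : s29_z_CuspBdd g) :
    s29_z_CuspBdd (fun τ => f τ + g τ) := by
  obtain ⟨M, hM⟩ := hf
  obtain ⟨M', hM'⟩ := hg
  refine ⟨max M M', fun γ => ?_⟩
  have h1 : (fun τ : ℍ => (f (γ • τ) + g (γ • τ)) * Δ τ ^ (max M M')) =
      fun τ : ℍ => f (γ • τ) * Δ τ ^ (max M M') + g (γ • τ) * Δ τ ^ (max M M') := by
    funext τ
    ring
  rw [h1]
  exact BoundedAtFilter.add (s29_z_bdd_mono (le_max_left M M') (hM γ))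
    (s29_z_bdd_mono (le_max_right M M') (hM' γ))

theorem s29_z_CuspBdd.pow {f : ℍ → ℂ} (hf : s29_z_CuspBdd f) (n : ℕ) :
    s29_z_CuspBdd (fun τ => f τ ^ n) := by
  induction n with
  | zero => simpa using s29_z_cuspBdd_const 1
  | succ n ih =>
    simp only [pow_succ]
    exact ih.mul hf

/-- Precomposition with an element of `SL₂(ℤ)` preserves finite order at the cusps. -/
theorem s29_z_CuspBdd.comp_smul {f : ℍ → ℂ} (hf : s29_z_CuspBdd f) (γ₀ : SL(2, ℤ)) :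
    s29_z_CuspBdd (fun τ => f (γ₀ • τ)) := by
  obtain ⟨M, hM⟩ := hf
  refine ⟨M, fun γ => ?_⟩
  have h1 := hM (γ₀ * γ)
  simp only [mul_smul] at h1
  exact h1

/-- If `f ^ m` has finite order at the cusps (`m > 0`), so has `f`. -/
theorem s29_z_cuspBdd_of_pow {f : ℍ → ℂ} {m : ℕ} (hm : 0 < m)
    (hf : s29_z_CuspBdd (fun τ => f τ ^ m)) : s29_z_CuspBdd f := by
  obtain ⟨M, hM⟩ := hf
  refine ⟨M, fun γ => ?_⟩
  have h1 := hM γ
  -- `(f Δ^M)^m = (f^m Δ^M) Δ^(M(m-1))` is bounded, hence so is `f Δ^M`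
  have h2 : IsBoundedAtImInfty (fun τ : ℍ => (f (γ • τ) * Δ τ ^ M) ^ m) := by
    have e : (fun τ : ℍ => (f (γ • τ) * Δ τ ^ M) ^ m) =
        fun τ : ℍ => (f (γ • τ) ^ m * Δ τ ^ M) * Δ τ ^ (M * (m - 1)) := by
      funext τ
      rw [mul_pow, mul_assoc, ← pow_mul, ← pow_add]
      congr 2
      obtain ⟨k, rfl⟩ : ∃ k, m = k + 1 := ⟨m - 1, by omega⟩
      simp [mul_add, add_comm]
    rw [e]
    exact BoundedAtFilter.mul h1 (s29_z_bdd_discriminant_pow _)
  rw [isBoundedAtImInfty_iff] at h2 ⊢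
  obtain ⟨C, A, hCA⟩ := h2
  refine ⟨max C 1, A, fun τ hτ => ?_⟩
  have h3 := hCA τ hτ
  rw [norm_pow] at h3
  by_contra hcon
  push Not at hcon
  have h4 : (1 : ℝ) ≤ max C 1 := le_max_right _ _
  have h5 : max C 1 < ‖f (γ • τ) * Δ τ ^ M‖ ^ m := by
    calc max C 1 < ‖f (γ • τ) * Δ τ ^ M‖ := hcon
      _ = ‖f (γ • τ) * Δ τ ^ M‖ ^ 1 := (pow_one _).symm
      _ ≤ ‖f (γ • τ) * Δ τ ^ M‖ ^ m := pow_le_pow_right₀ (by linarith) hm
  have h6 : C ≤ max C 1 := le_max_left _ _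
  linarith

/-- A function with a level-`N` Laurent expansion becomes bounded at `i∞` after multiplication by
a power of `Δ`. -/
theorem s29_z_bdd_of_hasQExp (N : ℕ) [NeZero N] (g : ℍ → ℂ) (S : LaurentSeries ℂ)
    (hs : HasQExp N g S) : ∃ M : ℕ, IsBoundedAtImInfty (fun τ : ℍ => g τ * Δ τ ^ M) := by
  have hN : 0 < N := Nat.pos_of_ne_zero (NeZero.ne N)
  have ht0 : ∀ τ : ℍ, tParam N τ ≠ 0 := fun τ => Complex.exp_ne_zero _
  set M : ℕ := (-S.order).toNat with hMdef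
  have hM : ∀ n : ℤ, n < -(M : ℤ) → S.coeff n = 0 := by
    intro n hn
    apply HahnSeries.coeff_eq_zero_of_lt_order
    have : -S.order ≤ (M : ℤ) := Int.self_le_toNat _
    omega
  refine ⟨M, ?_⟩
  have h1 : IsBoundedAtImInfty (fun τ : ℍ => g τ * tParam N τ ^ M) := by
    have hc : (0 : ℝ) < 2 * Real.pi / N := by positivity
    apply Fermat.Agent.S28.lvl_isBoundedAtImInfty_of_hasSum (tParam N) (2 * Real.pi / N) hc
      (Fermat.Agent.S28.lvl_norm_tParam N) _ (fun k : ℕ => S.coeff ((k : ℤ) - M))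
    intro τ
    have hinj : Function.Injective (fun k : ℕ => (k : ℤ) - M) := by
      intro x y hxy
      simpa using hxy
    have h2 := (hinj.hasSum_iff (f := fun n : ℤ => S.coeff n * tParam N τ ^ n)
      (fun n hn => by
        have : n < -(M : ℤ) := by
          by_contra hcon
          push Not at hcon
          exact hn ⟨(n + M).toNat, by simp; omega⟩
        simp [hM n this])).mpr (hs τ)
    have h3 := h2.mul_right (tParam N τ ^ M)
    have hfun : (fun k : ℕ => S.coeff ((k : ℤ) - M) * tParam N τ ^ k) =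
        fun i => ((fun n : ℤ => S.coeff n * tParam N τ ^ n) ∘
          fun k : ℕ => (k : ℤ) - M) i * tParam N τ ^ M := by
      funext k
      simp only [Function.comp_apply]
      rw [mul_assoc, zpow_sub₀ (ht0 τ), zpow_natCast, zpow_natCast, div_mul_cancel₀]
      exact pow_ne_zero _ (ht0 τ)
    rw [hfun]
    exact h3
  have h2 : IsBoundedAtImInfty (fun τ : ℍ =>
      (Δ τ / Function.Periodic.qParam 1 (τ : ℂ)) ^ M * tParam N τ ^ (N * M - M)) := by
    apply BoundedAtFilter.mul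
      (Fermat.Agent.S28.lop_isBoundedAtImInfty_pow
        Fermat.Agent.S28.lop_isBoundedAtImInfty_discriminant_div_q M)
    show IsBoundedAtImInfty (fun τ : ℍ => tParam N τ ^ (N * M - M))
    rw [isBoundedAtImInfty_iff]
    refine ⟨1, 0, fun τ _ => ?_⟩
    rw [norm_pow, Fermat.Agent.S28.lvl_norm_tParam]
    apply pow_le_one₀ (Real.exp_pos _).le
    rw [Real.exp_le_one_iff]
    have : 0 ≤ 2 * Real.pi / N * τ.im := by
      have := τ.im_pos
      positivity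
    linarith
  have h3 : (fun τ : ℍ => g τ * Δ τ ^ M) = fun τ : ℍ => (g τ * tParam N τ ^ M) *
      ((Δ τ / Function.Periodic.qParam 1 (τ : ℂ)) ^ M * tParam N τ ^ (N * M - M)) := by
    funext τ
    have hq : Function.Periodic.qParam 1 (τ : ℂ) ≠ 0 := Complex.exp_ne_zero _
    have hle : M ≤ N * M := Nat.le_mul_of_pos_left M hN
    have e1 : tParam N τ ^ M * tParam N τ ^ (N * M - M) =
        Function.Periodic.qParam 1 (τ : ℂ) ^ M := by
      rw [← pow_add, Nat.add_sub_cancel' hle, pow_mul, Fermat.Agent.S28.lvl_tParam_pow]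
    rw [div_pow]
    calc g τ * Δ τ ^ M
        = g τ * (Δ τ ^ M / Function.Periodic.qParam 1 (τ : ℂ) ^ M *
            Function.Periodic.qParam 1 (τ : ℂ) ^ M) := by
          rw [div_mul_cancel₀ _ (pow_ne_zero M hq)]
      _ = _ := by rw [← e1]; ring
  rw [h3]
  exact BoundedAtFilter.mul h1 h2

/-- Elements of `modRing N` have finite order at every cusp. -/
theorem s29_z_cuspBdd_of_mem_modRing {N : ℕ} [NeZero N] {g : ℍ → ℂ} (hg : g ∈ modRing N) :
    s29_z_CuspBdd g := by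
  classical
  have hmod := Fermat.Agent.S24.isMod_of_mem_modRing hg
  have hex : ∀ c : Fermat.Agent.S28.CosetQ N, ∃ M : ℕ,
      IsBoundedAtImInfty (fun τ : ℍ => g (Fermat.Agent.S28.cosetRep c • τ) * Δ τ ^ M) := by
    intro c
    obtain ⟨s, hs⟩ := hmod (Fermat.Agent.S28.cosetRep c)
    exact s29_z_bdd_of_hasQExp N _ _ hs
  choose Mc hMc using hex
  refine ⟨Finset.univ.sup Mc, fun γ => ?_⟩
  set c : Fermat.Agent.S28.CosetQ N := QuotientGroup.mk γ with hc
  have hle : Mc c ≤ Finset.univ.sup Mc := Finset.le_sup (Finset.mem_univ c)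
  have h1 := s29_z_bdd_mono hle (hMc c)
  -- `g ∘ γ = g ∘ rep c`
  have h2 : ∀ τ : ℍ, g (γ • τ) = g (Fermat.Agent.S28.cosetRep c • τ) := by
    intro τ
    have h3 : (QuotientGroup.mk (Fermat.Agent.S28.cosetRep c) : Fermat.Agent.S28.CosetQ N) =
        QuotientGroup.mk γ := Fermat.Agent.S28.mk_cosetRep c
    have h4 : (Fermat.Agent.S28.cosetRep c)⁻¹ * γ ∈ CongruenceSubgroup.Gamma N :=
      QuotientGroup.eq.mp h3
    have hnorm : (CongruenceSubgroup.Gamma N).Normal := CongruenceSubgroup.Gamma_normal N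
    set r := Fermat.Agent.S28.cosetRep c with hr
    have h5 : r * (r⁻¹ * γ) * r⁻¹ ∈ CongruenceSubgroup.Gamma N := hnorm.conj_mem _ h4 r
    have h6 : γ • τ = (r * (r⁻¹ * γ) * r⁻¹) • (r • τ) := by
      rw [← mul_smul]
      congr 1
      group
    rw [h6]
    -- invariance of `g` under `Γ(N)`
    have h7 := Fermat.Agent.S24.smul_modRing_of_mem_Gamma N _ (inv_mem h5) (⟨g, hg⟩ : modRing N)
    have h8 := congrArg (fun x : modRing N => (x : ℍ → ℂ) (r • τ)) h7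
    simp only [Fermat.Agent.S24.act_smul_apply, inv_inv] at h8
    exact h8
  have h9 : (fun τ : ℍ => g (γ • τ) * Δ τ ^ Finset.univ.sup Mc) =
      fun τ : ℍ => g (Fermat.Agent.S28.cosetRep c • τ) * Δ τ ^ Finset.univ.sup Mc := by
    funext τ
    rw [h2]
  rw [h9]
  exact h1

/-! ### Cosets of `Γ₀(N)` and conjugates -/

/-- The coset space `SL₂(ℤ)/Γ₀(N)`. -/
abbrev s29_z_Q (N : ℕ) : Type := SL(2, ℤ) ⧸ CongruenceSubgroup.Gamma0 N

instance s29_z_fintypeQ (N : ℕ) [NeZero N] : Fintype (s29_z_Q N) :=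
  haveI : (CongruenceSubgroup.Gamma0 N).FiniteIndex :=
    Subgroup.finiteIndex_of_le (Fermat.Agent.S28.gamma_le_gamma0 N)
  haveI : Finite (s29_z_Q N) := Subgroup.finite_quotient_of_finiteIndex
  Fintype.ofFinite _

/-- The chosen representative of a coset. -/
def s29_z_rep {N : ℕ} (c : s29_z_Q N) : SL(2, ℤ) := Quotient.out c

theorem s29_z_mk_rep {N : ℕ} (c : s29_z_Q N) :
    (QuotientGroup.mk (s29_z_rep c) : s29_z_Q N) = c := Quotient.out_eq' c

/-- The trivial coset. -/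
def s29_z_c0 (N : ℕ) : s29_z_Q N := QuotientGroup.mk 1

theorem s29_z_rep_c0_mem (N : ℕ) :
    (s29_z_rep (s29_z_c0 N))⁻¹ ∈ CongruenceSubgroup.Gamma0 N := by
  have h : (QuotientGroup.mk (s29_z_rep (s29_z_c0 N)) : s29_z_Q N) = QuotientGroup.mk 1 :=
    s29_z_mk_rep _
  have h2 := QuotientGroup.eq.mp h
  rwa [mul_one] at h2

/-- The conjugate `h ∘ (rep c)⁻¹` of a function. -/
def s29_z_conj {N : ℕ} (h : ℍ → ℂ) (c : s29_z_Q N) : ℍ → ℂ :=
  fun τ => h ((s29_z_rep c)⁻¹ • τ)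

theorem s29_z_conj_apply {N : ℕ} (h : ℍ → ℂ) (c : s29_z_Q N) (τ : ℍ) :
    s29_z_conj h c τ = h ((s29_z_rep c)⁻¹ • τ) := rfl

/-- `SL₂(ℤ)` permutes the conjugates of a `Γ₀(N)`-invariant function. -/
theorem s29_z_conj_smul {N : ℕ} (h : ℍ → ℂ)
    (hinv : ∀ γ : SL(2, ℤ), γ ∈ CongruenceSubgroup.Gamma0 N → ∀ τ : ℍ, h (γ • τ) = h τ)
    (c : s29_z_Q N) (γ : SL(2, ℤ)) (τ : ℍ) :
    s29_z_conj h c (γ • τ) = s29_z_conj h (γ⁻¹ • c) τ := by
  rw [s29_z_conj_apply, s29_z_conj_apply]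
  set r := s29_z_rep c with hr
  set r' := s29_z_rep (γ⁻¹ • c) with hr'
  have h1 : (QuotientGroup.mk r' : s29_z_Q N) = QuotientGroup.mk (γ⁻¹ * r) := by
    rw [hr', s29_z_mk_rep, ← s29_z_mk_rep c, ← hr]
    rfl
  have h2 : r'⁻¹ * (γ⁻¹ * r) ∈ CongruenceSubgroup.Gamma0 N := QuotientGroup.eq.mp h1
  have h3 : r⁻¹ • γ • τ = (r'⁻¹ * (γ⁻¹ * r))⁻¹ • (r'⁻¹ • τ) := by
    rw [← mul_smul, ← mul_smul]
    congr 1
    group
  rw [h3, hinv _ (inv_mem h2)]

theorem s29_z_conj_c0 {N : ℕ} (h : ℍ → ℂ)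
    (hinv : ∀ γ : SL(2, ℤ), γ ∈ CongruenceSubgroup.Gamma0 N → ∀ τ : ℍ, h (γ • τ) = h τ)
    (τ : ℍ) : s29_z_conj h (s29_z_c0 N) τ = h τ := by
  rw [s29_z_conj_apply, hinv _ (s29_z_rep_c0_mem N)]

theorem s29_z_conj_mdiff {N : ℕ} {h : ℍ → ℂ} (hh : MDifferentiable 𝓘(ℂ) 𝓘(ℂ) h)
    (c : s29_z_Q N) : MDifferentiable 𝓘(ℂ) 𝓘(ℂ) (s29_z_conj h c) := by
  have hdet : 0 < ((Matrix.SpecialLinearGroup.mapGL ℝ (s29_z_rep c)⁻¹ : GL (Fin 2) ℝ)).det.val := by
    simp
  exact MDifferentiable.comp hh (mdifferentiable_smul hdet)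

/-! ### Finite sums and products -/

theorem s29_z_cuspBdd_sum {ι : Type*} (s : Finset ι) (f : ι → ℍ → ℂ)
    (hf : ∀ i ∈ s, s29_z_CuspBdd (f i)) : s29_z_CuspBdd (fun τ => ∑ i ∈ s, f i τ) := by
  classical
  induction s using Finset.induction_on with
  | empty => simpa using s29_z_cuspBdd_const 0
  | insert a s ha ih =>
    simp only [Finset.sum_insert ha]
    exact (hf a (Finset.mem_insert_self a s)).add
      (ih fun i hi => hf i (Finset.mem_insert_of_mem hi))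

theorem s29_z_cuspBdd_prod {ι : Type*} (s : Finset ι) (f : ι → ℍ → ℂ)
    (hf : ∀ i ∈ s, s29_z_CuspBdd (f i)) : s29_z_CuspBdd (fun τ => ∏ i ∈ s, f i τ) := by
  classical
  induction s using Finset.induction_on with
  | empty => simpa using s29_z_cuspBdd_const 1
  | insert a s ha ih =>
    simp only [Finset.prod_insert ha]
    exact (hf a (Finset.mem_insert_self a s)).mul
      (ih fun i hi => hf i (Finset.mem_insert_of_mem hi))

theorem s29_z_mdiff_sum {ι : Type*} (s : Finset ι) (f : ι → ℍ → ℂ)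
    (hf : ∀ i ∈ s, MDifferentiable 𝓘(ℂ) 𝓘(ℂ) (f i)) :
    MDifferentiable 𝓘(ℂ) 𝓘(ℂ) (fun τ => ∑ i ∈ s, f i τ) := by
  classical
  induction s using Finset.induction_on with
  | empty => simpa using (mdifferentiable_const : MDifferentiable 𝓘(ℂ) 𝓘(ℂ) (fun _ : ℍ => (0 : ℂ)))
  | insert a s ha ih =>
    simp only [Finset.sum_insert ha]
    exact (hf a (Finset.mem_insert_self a s)).add
      (ih fun i hi => hf i (Finset.mem_insert_of_mem hi))

theorem s29_z_mdiff_prod {ι : Type*} (s : Finset ι) (f : ι → ℍ → ℂ)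
    (hf : ∀ i ∈ s, MDifferentiable 𝓘(ℂ) 𝓘(ℂ) (f i)) :
    MDifferentiable 𝓘(ℂ) 𝓘(ℂ) (fun τ => ∏ i ∈ s, f i τ) := by
  classical
  induction s using Finset.induction_on with
  | empty => simpa using (mdifferentiable_const : MDifferentiable 𝓘(ℂ) 𝓘(ℂ) (fun _ : ℍ => (1 : ℂ)))
  | insert a s ha ih =>
    simp only [Finset.prod_insert ha]
    exact (hf a (Finset.mem_insert_self a s)).mul
      (ih fun i hi => hf i (Finset.mem_insert_of_mem hi))

theorem s29_z_CuspBdd.sub {f g : ℍ → ℂ} (hf : s29_z_CuspBdd f) (hg : s29_z_CuspBdd g) :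
    s29_z_CuspBdd (fun τ => f τ - g τ) := by
  have h1 := hf.add ((s29_z_cuspBdd_const (-1)).mul hg)
  have e : (fun τ => f τ - g τ) = fun τ => f τ + -1 * g τ := by
    funext τ; ring
  rw [e]
  exact h1

/-- A finite product of holomorphic functions on `ℍ` which vanishes identically has a factor which
vanishes identically. -/
theorem s29_z_prod_eq_zero {ι : Type*} (s : Finset ι) (f : ι → ℍ → ℂ)
    (hf : ∀ i ∈ s, MDifferentiable 𝓘(ℂ) 𝓘(ℂ) (f i))
    (h0 : ∀ τ : ℍ, ∏ i ∈ s, f i τ = 0) : ∃ i ∈ s, ∀ τ : ℍ, f i τ = 0 := by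
  classical
  induction s using Finset.induction_on with
  | empty => simp at h0
  | insert a s ha ih =>
    have h1 : f a * (fun τ => ∏ i ∈ s, f i τ) = 0 := by
      funext τ
      have := h0 τ
      rw [Finset.prod_insert ha] at this
      simpa using this
    have h2 := (UpperHalfPlane.mul_eq_zero_iff (hf a (Finset.mem_insert_self a s))
      (s29_z_mdiff_prod s f fun i hi => hf i (Finset.mem_insert_of_mem hi))).1 h1
    rcases h2 with h2 | h2
    · exact ⟨a, Finset.mem_insert_self a s, fun τ => congrFun h2 τ⟩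
    · obtain ⟨i, hi, hi0⟩ := ih (fun i hi => hf i (Finset.mem_insert_of_mem hi))
        (fun τ => congrFun h2 τ)
      exact ⟨i, Finset.mem_insert_of_mem hi, hi0⟩

/-! ### The function `J_N` -/

/-- The function `J_N : τ ↦ J(Nτ)`. -/
def s29_z_JN (N : ℕ) [NeZero N] : ℍ → ℂ := fun τ => Jfun (scaleH N τ)

theorem s29_z_JN_apply (N : ℕ) [NeZero N] (τ : ℍ) : s29_z_JN N τ = Jfun (scaleH N τ) := rfl

theorem s29_z_JN_inv (N : ℕ) [NeZero N] (γ : SL(2, ℤ))
    (hγ : γ ∈ CongruenceSubgroup.Gamma0 N) (τ : ℍ) : s29_z_JN N (γ • τ) = s29_z_JN N τ :=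
  Fermat.Agent.S28.Jfun_scaleH_smul N N dvd_rfl γ hγ τ

theorem s29_z_JN_mem (N : ℕ) [NeZero N] : s29_z_JN N ∈ modRing N := by
  have h := Fermat.Agent.S24.Jconj_mem_modRing N N dvd_rfl 1
  have e : Jconj N 1 = s29_z_JN N := by
    funext τ
    simp [Jconj, s29_z_JN]
  rwa [e] at h

theorem s29_z_JN_mdiff (N : ℕ) [NeZero N] : MDifferentiable 𝓘(ℂ) 𝓘(ℂ) (s29_z_JN N) :=
  Fermat.Agent.S24.mdifferentiable_of_mem_modRing (s29_z_JN_mem N)

theorem s29_z_JN_cuspBdd (N : ℕ) [NeZero N] : s29_z_CuspBdd (s29_z_JN N) :=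
  s29_z_cuspBdd_of_mem_modRing (s29_z_JN_mem N)

/-! ### Lagrange interpolation over the cosets -/

open scoped Classical in
/-- The Lagrange polynomial `∑_c h^c ∏_{c' ≠ c} (X - J_N^{c'})` at the point `τ`. -/
def s29_z_lag (N : ℕ) [NeZero N] (h : ℍ → ℂ) (τ : ℍ) : Polynomial ℂ :=
  ∑ c : s29_z_Q N, C (s29_z_conj h c τ) *
    ∏ c' ∈ Finset.univ.erase c, (X - C (s29_z_conj (s29_z_JN N) c' τ))

open scoped Classical in
/-- The universal denominator `∏_{c' ≠ c₀} (J_N - J_N^{c'})` as a function. -/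
def s29_z_Dfun (N : ℕ) [NeZero N] (τ : ℍ) : ℂ :=
  ∏ c' ∈ Finset.univ.erase (s29_z_c0 N), (s29_z_JN N τ - s29_z_conj (s29_z_JN N) c' τ)

open scoped Classical in
theorem s29_z_lag_eval (N : ℕ) [NeZero N] (h : ℍ → ℂ) (τ : ℍ) (x : ℂ) :
    (s29_z_lag N h τ).eval x = ∑ c : s29_z_Q N, s29_z_conj h c τ *
      ∏ c' ∈ Finset.univ.erase c, (x - s29_z_conj (s29_z_JN N) c' τ) := by
  unfold s29_z_lag
  simp only [Polynomial.eval_finsetSum, Polynomial.eval_mul, Polynomial.eval_C,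
    Polynomial.eval_prod, Polynomial.eval_sub, Polynomial.eval_X]

theorem s29_z_lag_smul (N : ℕ) [NeZero N] (h : ℍ → ℂ)
    (hinv : ∀ γ : SL(2, ℤ), γ ∈ CongruenceSubgroup.Gamma0 N → ∀ τ : ℍ, h (γ • τ) = h τ)
    (γ : SL(2, ℤ)) (τ : ℍ) : s29_z_lag N h (γ • τ) = s29_z_lag N h τ := by
  classical
  unfold s29_z_lag
  have e1 : ∀ c : s29_z_Q N, s29_z_conj h c (γ • τ) = s29_z_conj h (γ⁻¹ • c) τ :=
    fun c => s29_z_conj_smul h hinv c γ τ
  have e2 : ∀ c : s29_z_Q N, s29_z_conj (s29_z_JN N) c (γ • τ) =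
      s29_z_conj (s29_z_JN N) (γ⁻¹ • c) τ :=
    fun c => s29_z_conj_smul (s29_z_JN N) (s29_z_JN_inv N) c γ τ
  simp only [e1, e2]
  let e : s29_z_Q N ≃ s29_z_Q N := MulAction.toPerm γ⁻¹
  have he : ∀ c, e c = γ⁻¹ • c := fun c => rfl
  have key := Equiv.sum_comp e (fun c => C (s29_z_conj h c τ) *
    ∏ c' ∈ Finset.univ.erase c, (X - C (s29_z_conj (s29_z_JN N) c' τ)))
  rw [← key]
  refine Finset.sum_congr rfl fun c _ => ?_
  rw [he]
  refine congrArg (fun p => C (s29_z_conj h (γ⁻¹ • c) τ) * p) ?_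
  refine Finset.prod_equiv e ?_ ?_
  · intro i
    rw [Finset.mem_erase, Finset.mem_erase, he]
    simp only [Finset.mem_univ, and_true, ne_eq]
    exact not_congr (smul_left_cancel_iff γ⁻¹).symm
  · intro i _
    rw [he]

theorem s29_z_lag_degree (N : ℕ) [NeZero N] (h : ℍ → ℂ) (τ : ℍ) :
    (s29_z_lag N h τ).degree < (Fintype.card (s29_z_Q N) : ℕ) := by
  classical
  have : Nonempty (s29_z_Q N) := ⟨s29_z_c0 N⟩
  have hpos : 0 < Fintype.card (s29_z_Q N) := Fintype.card_pos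
  have h1 : (s29_z_lag N h τ).natDegree ≤ Fintype.card (s29_z_Q N) - 1 := by
    unfold s29_z_lag
    apply Polynomial.natDegree_sum_le_of_forall_le
    intro c _
    refine (Polynomial.natDegree_C_mul_le _ _).trans ?_
    rw [Polynomial.natDegree_finsetProd_X_sub_C_eq_card,
      Finset.card_erase_of_mem (Finset.mem_univ c), Finset.card_univ]
  have h2 : (s29_z_lag N h τ).natDegree < Fintype.card (s29_z_Q N) := by omega
  calc (s29_z_lag N h τ).degree ≤ ((s29_z_lag N h τ).natDegree : WithBot ℕ) :=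
        Polynomial.degree_le_natDegree
    _ < _ := by exact_mod_cast h2

theorem s29_z_lag_eval_JN (N : ℕ) [NeZero N] (h : ℍ → ℂ)
    (hinv : ∀ γ : SL(2, ℤ), γ ∈ CongruenceSubgroup.Gamma0 N → ∀ τ : ℍ, h (γ • τ) = h τ)
    (τ : ℍ) : (s29_z_lag N h τ).eval (s29_z_JN N τ) = h τ * s29_z_Dfun N τ := by
  classical
  rw [s29_z_lag_eval]
  rw [Finset.sum_eq_single (s29_z_c0 N)]
  · rw [s29_z_conj_c0 h hinv]
    rfl
  · intro c _ hc
    have h0 : ∏ c' ∈ Finset.univ.erase c,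
        (s29_z_JN N τ - s29_z_conj (s29_z_JN N) c' τ) = 0 := by
      apply Finset.prod_eq_zero (i := s29_z_c0 N)
        (Finset.mem_erase.mpr ⟨Ne.symm hc, Finset.mem_univ _⟩)
      rw [s29_z_conj_c0 _ (s29_z_JN_inv N), sub_self]
    rw [h0, mul_zero]
  · intro hc
    exact absurd (Finset.mem_univ _) hc

theorem s29_z_lag_eval_poly (N : ℕ) [NeZero N] (h : ℍ → ℂ)
    (hh : MDifferentiable 𝓘(ℂ) 𝓘(ℂ) h)
    (hinv : ∀ γ : SL(2, ℤ), γ ∈ CongruenceSubgroup.Gamma0 N → ∀ τ : ℍ, h (γ • τ) = h τ)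
    (hbd : s29_z_CuspBdd h) (x : ℂ) :
    ∃ P : Polynomial ℂ, ∀ τ : ℍ, (s29_z_lag N h τ).eval x = P.eval (Jfun τ) := by
  classical
  set F : ℍ → ℂ := fun τ => ∑ c : s29_z_Q N, s29_z_conj h c τ *
      ∏ c' ∈ Finset.univ.erase c, (x - s29_z_conj (s29_z_JN N) c' τ) with hF
  have hFe : ∀ τ, (s29_z_lag N h τ).eval x = F τ := fun τ => s29_z_lag_eval N h τ x
  have hFd : MDifferentiable 𝓘(ℂ) 𝓘(ℂ) F :=
    s29_z_mdiff_sum _ _ fun c _ => (s29_z_conj_mdiff hh c).mul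
      (s29_z_mdiff_prod _ _ fun c' _ =>
        mdifferentiable_const.sub (s29_z_conj_mdiff (s29_z_JN_mdiff N) c'))
  have hFb : s29_z_CuspBdd F :=
    s29_z_cuspBdd_sum _ _ fun c _ => (hbd.comp_smul _).mul
      (s29_z_cuspBdd_prod _ _ fun c' _ =>
        (s29_z_cuspBdd_const x).sub ((s29_z_JN_cuspBdd N).comp_smul _))
  have hFi : ∀ (γ : SL(2, ℤ)) (τ : ℍ), F (γ • τ) = F τ := by
    intro γ τ
    rw [← hFe, ← hFe, s29_z_lag_smul N h hinv]
  obtain ⟨M, hM⟩ := hFb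
  have h1 := hM 1
  simp only [one_smul] at h1
  obtain ⟨P, -, hP⟩ := Fermat.Agent.S28.lop_exists_polynomial M F hFd
    (fun γ τ => by rw [hFi γ τ, zpow_zero, one_mul]) h1
  exact ⟨P, fun τ => by rw [hFe, hP]; rfl⟩

/-- The key interpolation statement: the Lagrange polynomial has coefficients in `ℂ[J]`. -/
theorem s29_z_key (N : ℕ) [NeZero N] (h : ℍ → ℂ)
    (hh : MDifferentiable 𝓘(ℂ) 𝓘(ℂ) h)
    (hinv : ∀ γ : SL(2, ℤ), γ ∈ CongruenceSubgroup.Gamma0 N → ∀ τ : ℍ, h (γ • τ) = h τ)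
    (hbd : s29_z_CuspBdd h) :
    ∃ H : Polynomial (Polynomial ℂ), ∀ (τ : ℍ) (y : ℂ),
      H.evalEval (Jfun τ) y = (s29_z_lag N h τ).eval y := by
  classical
  choose P hP using s29_z_lag_eval_poly N h hh hinv hbd
  set n := Fintype.card (s29_z_Q N) with hn
  let v : ℕ → ℂ := fun l => (l : ℂ)
  have hv : Set.InjOn v (Finset.range n : Set ℕ) := fun a _ b _ hab => Nat.cast_injective hab
  refine ⟨∑ l ∈ Finset.range n, C (P (v l)) * (Lagrange.basis (Finset.range n) v l).map C,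
    fun τ y => ?_⟩
  have h1 := Lagrange.eq_interpolate (f := s29_z_lag N h τ) hv
    (by simpa using s29_z_lag_degree N h τ)
  rw [Polynomial.evalEval_finsetSum]
  conv_rhs => rw [h1, Lagrange.interpolate_apply, Polynomial.eval_finsetSum]
  refine Finset.sum_congr rfl fun l _ => ?_
  rw [Polynomial.evalEval_mul, Polynomial.evalEval_C, Polynomial.evalEval_map_C,
    Polynomial.eval_mul, Polynomial.eval_C, hP]

/-- The conjugates of `J_N` are pairwise distinct: the universal denominator is not identically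
zero. -/
theorem s29_z_Dfun_ne_zero (N : ℕ) [NeZero N] : ∃ τ : ℍ, s29_z_Dfun N τ ≠ 0 := by
  classical
  by_contra hcon
  push Not at hcon
  obtain ⟨c, hc, hc0⟩ := s29_z_prod_eq_zero (Finset.univ.erase (s29_z_c0 N))
    (fun c' τ => s29_z_JN N τ - s29_z_conj (s29_z_JN N) c' τ)
    (fun c' _ => (s29_z_JN_mdiff N).sub (s29_z_conj_mdiff (s29_z_JN_mdiff N) c')) hcon
  have h1 : s29_z_rep c • Jelt N N dvd_rfl = Jelt N N dvd_rfl := by
    apply Subtype.ext
    funext τ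
    rw [Fermat.Agent.S24.act_smul_apply]
    have h2 := hc0 τ
    rw [sub_eq_zero, s29_z_conj_apply] at h2
    show Jconj N 1 ((s29_z_rep c)⁻¹ • τ) = Jconj N 1 τ
    simp only [Jconj, one_smul]
    exact h2.symm
  have h2 := Fermat.Agent.S24.mem_Gamma0_of_smul_Jelt N _ h1
  have h3 : c = s29_z_c0 N := by
    rw [← s29_z_mk_rep c]
    exact QuotientGroup.eq.mpr (by simpa using inv_mem h2)
  exact (Finset.mem_erase.mp hc).1 h3

/-! ### The main theorem -/

/-- `P(J(τ), J(Nτ))` for a bivariate polynomial `P`. -/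
def s29_z_ev (N : ℕ) [NeZero N] (P : Polynomial (Polynomial ℂ)) (τ : ℍ) : ℂ :=
  P.evalEval (Jfun τ) (Jfun (scaleH N τ))

/-- **(Z2), holomorphic form.** There is a universal denominator `D` with `D(J, J_N) ≢ 0` such
that for every holomorphic `Γ₀(N)`-invariant function `h` of finite order at the cusps, the
function `h · D(J, J_N)` is a polynomial in `J` and `J_N`. -/
theorem s29_z2_hol (N : ℕ) [NeZero N] :
    ∃ D : Polynomial (Polynomial ℂ), (∃ τ : ℍ, s29_z_ev N D τ ≠ 0) ∧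
      ∀ h : ℍ → ℂ, MDifferentiable 𝓘(ℂ) 𝓘(ℂ) h →
        (∀ γ : SL(2, ℤ), γ ∈ CongruenceSubgroup.Gamma0 N → ∀ τ : ℍ, h (γ • τ) = h τ) →
        s29_z_CuspBdd h →
        ∃ H : Polynomial (Polynomial ℂ), ∀ τ : ℍ, h τ * s29_z_ev N D τ = s29_z_ev N H τ := by
  obtain ⟨D, hD⟩ := s29_z_key N (fun _ => 1) mdifferentiable_const (fun _ _ _ => rfl)
    (s29_z_cuspBdd_const 1)
  have hD' : ∀ τ, s29_z_ev N D τ = s29_z_Dfun N τ := by
    intro τ
    have h1 := hD τ (s29_z_JN N τ)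
    rw [s29_z_lag_eval_JN N _ (fun _ _ _ => rfl), one_mul] at h1
    exact h1
  refine ⟨D, ?_, fun h hh hinv hbd => ?_⟩
  · obtain ⟨τ, hτ⟩ := s29_z_Dfun_ne_zero N
    exact ⟨τ, by rwa [hD']⟩
  · obtain ⟨H, hH⟩ := s29_z_key N h hh hinv hbd
    refine ⟨H, fun τ => ?_⟩
    have h1 := hH τ (s29_z_JN N τ)
    rw [s29_z_lag_eval_JN N h hinv] at h1
    rw [hD']
    exact h1.symm

end Fermat.Agent.S29
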