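import Mathlib
import Fermat.Agent.S24.ModField
import Fermat.Agent.S29.ZHol

/-!
# S29 (project BRIDGE), block (Z2): adapters

Consequences of `s29_z2_hol` (every holomorphic `Γ₀(N)`-invariant function of finite order at
the cusps is `H(J, J_N) / D(J, J_N)`):

* `s29_z2_ratio`   : quotients `A / B` of two such functions;
* `s29_z2_modform` : quotients `a / b` of two holomorphic functions of the same weight `k` on
  `Γ₀(N)` which are bounded at all cusps;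
* `s29_z2_root`    : `A / b` with `b ∈ modRing N`, `A ^ m ∈ modRing N`, `A / b` invariant.

All conclusions have the shape `A · D(J, J_N) = B · H(J, J_N)` with `D(J, J_N) ≢ 0`.
-/

set_option autoImplicit false

open UpperHalfPlane ModularForm Polynomial Filter
open scoped MatrixGroups Manifold

noncomputable section

namespace Fermat.Agent.S29

open Fermat.Agent.S28 (Jfun scaleH HasQExp tParam)
open Fermat.Agent.S24 (modRing Jconj Jelt ModL)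

local notation "Δ" => ModularForm.discriminant

/-! ### Holomorphic functions on `ℍ`: identity theorem in cancellation form -/

theorem s29_z_mdiff_comp_smul {h : ℍ → ℂ} (hh : MDifferentiable 𝓘(ℂ) 𝓘(ℂ) h) (γ : SL(2, ℤ)) :
    MDifferentiable 𝓘(ℂ) 𝓘(ℂ) (fun τ => h (γ • τ)) := by
  have hdet : 0 < ((Matrix.SpecialLinearGroup.mapGL ℝ γ : GL (Fin 2) ℝ)).det.val := by
    simp
  exact MDifferentiable.comp hh (mdifferentiable_smul hdet)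

theorem s29_z_mul_ne_zero {f g : ℍ → ℂ} (hf : MDifferentiable 𝓘(ℂ) 𝓘(ℂ) f)
    (hg : MDifferentiable 𝓘(ℂ) 𝓘(ℂ) g) (hf0 : ∃ τ, f τ ≠ 0) (hg0 : ∃ τ, g τ ≠ 0) :
    ∃ τ, f τ * g τ ≠ 0 := by
  by_contra hcon
  push Not at hcon
  have h1 : f * g = 0 := funext hcon
  rcases (UpperHalfPlane.mul_eq_zero_iff hf hg).1 h1 with h2 | h2
  · obtain ⟨τ, hτ⟩ := hf0
    exact hτ (congrFun h2 τ)
  · obtain ⟨τ, hτ⟩ := hg0
    exact hτ (congrFun h2 τ)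

theorem s29_z_cancel {f g₁ g₂ : ℍ → ℂ} (hf : MDifferentiable 𝓘(ℂ) 𝓘(ℂ) f)
    (hg₁ : MDifferentiable 𝓘(ℂ) 𝓘(ℂ) g₁) (hg₂ : MDifferentiable 𝓘(ℂ) 𝓘(ℂ) g₂)
    (hf0 : ∃ τ, f τ ≠ 0) (h : ∀ τ, f τ * g₁ τ = f τ * g₂ τ) : ∀ τ, g₁ τ = g₂ τ := by
  have h1 : f * (g₁ - g₂) = 0 := by
    funext τ
    simp only [Pi.mul_apply, Pi.sub_apply, Pi.zero_apply]
    rw [mul_sub, h τ, sub_self]
  rcases (UpperHalfPlane.mul_eq_zero_iff hf (hg₁.sub hg₂)).1 h1 with h2 | h2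
  · obtain ⟨τ, hτ⟩ := hf0
    exact absurd (congrFun h2 τ) hτ
  · intro τ
    have h3 := congrFun h2 τ
    simpa [sub_eq_zero] using h3

/-! ### The functions `P(J, J_N)` -/

theorem s29_z_Jfun_mdiff : MDifferentiable 𝓘(ℂ) 𝓘(ℂ) Jfun :=
  Fermat.Agent.S28.lop_mdiff_J

theorem s29_z_Jfun_cuspBdd : s29_z_CuspBdd Jfun := by
  have h := Fermat.Agent.S24.Jconj_mem_modRing 1 1 dvd_rfl 1
  have e : Jconj 1 1 = Jfun := by
    funext τ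
    simp only [Jconj, one_smul]
    congr 1
    apply UpperHalfPlane.ext
    simp [scaleH]
  rw [e] at h
  exact s29_z_cuspBdd_of_mem_modRing h

theorem s29_z_eval_mdiff (p : Polynomial ℂ) (f : ℍ → ℂ) (hf : MDifferentiable 𝓘(ℂ) 𝓘(ℂ) f) :
    MDifferentiable 𝓘(ℂ) 𝓘(ℂ) (fun τ => p.eval (f τ)) := by
  simp only [Polynomial.eval_eq_sum_range]
  exact s29_z_mdiff_sum _ _ fun i _ => mdifferentiable_const.mul (hf.pow i)

theorem s29_z_eval_cuspBdd (p : Polynomial ℂ) (f : ℍ → ℂ) (hf : s29_z_CuspBdd f) :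
    s29_z_CuspBdd (fun τ => p.eval (f τ)) := by
  simp only [Polynomial.eval_eq_sum_range]
  exact s29_z_cuspBdd_sum _ _ fun i _ => (s29_z_cuspBdd_const _).mul (hf.pow i)

theorem s29_z_ev_eq_sum (N : ℕ) [NeZero N] (P : Polynomial (Polynomial ℂ)) (τ : ℍ) :
    s29_z_ev N P τ = ∑ i ∈ Finset.range (P.natDegree + 1),
      (P.coeff i).eval (Jfun τ) * s29_z_JN N τ ^ i := by
  unfold s29_z_ev Polynomial.evalEval
  rw [Polynomial.eval_eq_sum_range (p := P), Polynomial.eval_finsetSum]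
  refine Finset.sum_congr rfl fun i _ => ?_
  rw [Polynomial.eval_mul, Polynomial.eval_pow, Polynomial.eval_C]
  rfl

theorem s29_z_ev_mdiff (N : ℕ) [NeZero N] (P : Polynomial (Polynomial ℂ)) :
    MDifferentiable 𝓘(ℂ) 𝓘(ℂ) (s29_z_ev N P) := by
  have e : s29_z_ev N P = fun τ => ∑ i ∈ Finset.range (P.natDegree + 1),
      (P.coeff i).eval (Jfun τ) * s29_z_JN N τ ^ i := funext (s29_z_ev_eq_sum N P)
  rw [e]
  exact s29_z_mdiff_sum _ _ fun i _ =>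
    (s29_z_eval_mdiff _ _ s29_z_Jfun_mdiff).mul ((s29_z_JN_mdiff N).pow i)

theorem s29_z_ev_cuspBdd (N : ℕ) [NeZero N] (P : Polynomial (Polynomial ℂ)) :
    s29_z_CuspBdd (s29_z_ev N P) := by
  have e : s29_z_ev N P = fun τ => ∑ i ∈ Finset.range (P.natDegree + 1),
      (P.coeff i).eval (Jfun τ) * s29_z_JN N τ ^ i := funext (s29_z_ev_eq_sum N P)
  rw [e]
  exact s29_z_cuspBdd_sum _ _ fun i _ =>
    (s29_z_eval_cuspBdd _ _ s29_z_Jfun_cuspBdd).mul ((s29_z_JN_cuspBdd N).pow i)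

theorem s29_z_ev_inv (N : ℕ) [NeZero N] (P : Polynomial (Polynomial ℂ)) (γ : SL(2, ℤ))
    (hγ : γ ∈ CongruenceSubgroup.Gamma0 N) (τ : ℍ) : s29_z_ev N P (γ • τ) = s29_z_ev N P τ := by
  unfold s29_z_ev
  rw [Fermat.Agent.S28.Jfun_smul, Fermat.Agent.S28.Jfun_scaleH_smul N N dvd_rfl γ hγ τ]

theorem s29_z_ev_mul (N : ℕ) [NeZero N] (P Q : Polynomial (Polynomial ℂ)) (τ : ℍ) :
    s29_z_ev N (P * Q) τ = s29_z_ev N P τ * s29_z_ev N Q τ :=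
  Polynomial.evalEval_mul _ _ _ _

theorem s29_z_ev_add (N : ℕ) [NeZero N] (P Q : Polynomial (Polynomial ℂ)) (τ : ℍ) :
    s29_z_ev N (P + Q) τ = s29_z_ev N P τ + s29_z_ev N Q τ :=
  Polynomial.evalEval_add _ _ _ _

theorem s29_z_ev_pow (N : ℕ) [NeZero N] (P : Polynomial (Polynomial ℂ)) (n : ℕ) (τ : ℍ) :
    s29_z_ev N (P ^ n) τ = s29_z_ev N P τ ^ n :=
  Polynomial.evalEval_pow _ _ _ _

theorem s29_z_ev_one (N : ℕ) [NeZero N] (τ : ℍ) : s29_z_ev N 1 τ = 1 :=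
  Polynomial.evalEval_one _ _

theorem s29_z_ev_zero (N : ℕ) [NeZero N] (τ : ℍ) : s29_z_ev N 0 τ = 0 :=
  Polynomial.evalEval_zero _ _

theorem s29_z_ev_CC (N : ℕ) [NeZero N] (c : ℂ) (τ : ℍ) : s29_z_ev N (C (C c)) τ = c :=
  Polynomial.evalEval_CC _ _ _

theorem s29_z_ev_C (N : ℕ) [NeZero N] (p : Polynomial ℂ) (τ : ℍ) :
    s29_z_ev N (C p) τ = p.eval (Jfun τ) :=
  Polynomial.evalEval_C _ _ _

theorem s29_z_ev_CX (N : ℕ) [NeZero N] (τ : ℍ) :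
    s29_z_ev N (C X) τ = Jfun τ := by
  rw [s29_z_ev_C, Polynomial.eval_X]

theorem s29_z_ev_X (N : ℕ) [NeZero N] (τ : ℍ) :
    s29_z_ev N X τ = Jfun (scaleH N τ) :=
  Polynomial.evalEval_X _ _

/-! ### Quotients -/

/-- **(Z2), ratio form.** -/
theorem s29_z2_ratio (N : ℕ) [NeZero N] (A B : ℍ → ℂ)
    (hA : MDifferentiable 𝓘(ℂ) 𝓘(ℂ) A) (hB : MDifferentiable 𝓘(ℂ) 𝓘(ℂ) B)
    (hB0 : ∃ τ : ℍ, B τ ≠ 0)
    (hAinv : ∀ γ : SL(2, ℤ), γ ∈ CongruenceSubgroup.Gamma0 N → ∀ τ : ℍ, A (γ • τ) = A τ)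
    (hBinv : ∀ γ : SL(2, ℤ), γ ∈ CongruenceSubgroup.Gamma0 N → ∀ τ : ℍ, B (γ • τ) = B τ)
    (hAb : s29_z_CuspBdd A) (hBb : s29_z_CuspBdd B) :
    ∃ D H : Polynomial (Polynomial ℂ), (∃ τ : ℍ, s29_z_ev N D τ ≠ 0) ∧
      ∀ τ : ℍ, A τ * s29_z_ev N D τ = B τ * s29_z_ev N H τ := by
  obtain ⟨D₀, hD₀, hall⟩ := s29_z2_hol N
  obtain ⟨HA, hHA⟩ := hall A hA hAinv hAb
  obtain ⟨HB, hHB⟩ := hall B hB hBinv hBb
  refine ⟨HB, HA, ?_, fun τ => ?_⟩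
  · obtain ⟨τ, hτ⟩ := s29_z_mul_ne_zero hB (s29_z_ev_mdiff N D₀) hB0 hD₀
    exact ⟨τ, by rwa [← hHB]⟩
  · rw [← hHB, ← hHA]
    ring

/-- The weight zero function `a b¹¹ Δ^{k⁻} / Δ^{k⁺}` attached to two functions of weight `k`. -/
def s29_z_wt0fun (k : ℤ) (a b : ℍ → ℂ) : ℍ → ℂ :=
  fun τ => a τ * b τ ^ 11 * Δ τ ^ (-k).toNat / Δ τ ^ k.toNat

theorem s29_z_discriminant_mdiff : MDifferentiable 𝓘(ℂ) 𝓘(ℂ) (fun τ : ℍ => Δ τ) :=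
  CuspForm.discriminant.holo'

theorem s29_z_discriminant_smul (γ : SL(2, ℤ)) (τ : ℍ) :
    Δ (γ • τ) = denom γ τ ^ 12 * Δ τ := by
  have h := Fermat.Agent.S28.lop_WtInv_discriminant γ τ
  rw [h]
  norm_cast

theorem s29_z_denom_zpow (k : ℤ) (d : ℂ) (hd : d ≠ 0) :
    d ^ k = d ^ k.toNat / d ^ (-k).toNat := by
  have hk : k = (k.toNat : ℤ) - ((-k).toNat : ℤ) := by omega
  conv_lhs => rw [hk]
  rw [zpow_sub₀ hd, zpow_natCast, zpow_natCast]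

theorem s29_z_wt0 (N : ℕ) [NeZero N] (k : ℤ) (a b : ℍ → ℂ)
    (ha : MDifferentiable 𝓘(ℂ) 𝓘(ℂ) a) (hb : MDifferentiable 𝓘(ℂ) 𝓘(ℂ) b)
    (hak : ∀ γ : SL(2, ℤ), γ ∈ CongruenceSubgroup.Gamma0 N → ∀ τ : ℍ,
      a (γ • τ) = UpperHalfPlane.denom γ τ ^ k * a τ)
    (hbk : ∀ γ : SL(2, ℤ), γ ∈ CongruenceSubgroup.Gamma0 N → ∀ τ : ℍ,
      b (γ • τ) = UpperHalfPlane.denom γ τ ^ k * b τ)
    (habd : ∀ γ : SL(2, ℤ), IsBoundedAtImInfty (a ∣[k] γ))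
    (hbbd : ∀ γ : SL(2, ℤ), IsBoundedAtImInfty (b ∣[k] γ)) :
    MDifferentiable 𝓘(ℂ) 𝓘(ℂ) (s29_z_wt0fun k a b) ∧
    (∀ γ : SL(2, ℤ), γ ∈ CongruenceSubgroup.Gamma0 N → ∀ τ : ℍ,
      s29_z_wt0fun k a b (γ • τ) = s29_z_wt0fun k a b τ) ∧
    s29_z_CuspBdd (s29_z_wt0fun k a b) := by
  refine ⟨?_, ?_, ?_⟩
  · exact (((ha.mul (hb.pow 11)).mul (s29_z_discriminant_mdiff.pow _)).div
      (s29_z_discriminant_mdiff.pow _) (fun z => pow_ne_zero _ (discriminant_ne_zero z)))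
  · intro γ hγ τ
    have hd : denom γ τ ≠ 0 := denom_ne_zero γ τ
    have hΔ : Δ τ ≠ 0 := discriminant_ne_zero τ
    unfold s29_z_wt0fun
    rw [hak γ hγ τ, hbk γ hγ τ, s29_z_discriminant_smul, s29_z_denom_zpow k _ hd]
    have hd1 : denom γ τ ^ (-k).toNat ≠ 0 := pow_ne_zero _ hd
    have hd2 : denom γ τ ^ k.toNat ≠ 0 := pow_ne_zero _ hd
    field_simp
    ring
  · refine ⟨k.toNat, fun γ => ?_⟩
    have e : (fun τ : ℍ => s29_z_wt0fun k a b (γ • τ) * Δ τ ^ k.toNat) =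
        fun τ : ℍ => (a ∣[k] γ) τ * (b ∣[k] γ) τ ^ 11 * Δ τ ^ (-k).toNat := by
      funext τ
      have hd : denom γ τ ≠ 0 := denom_ne_zero γ τ
      have hΔ : Δ τ ≠ 0 := discriminant_ne_zero τ
      have hd1 : denom γ τ ^ (-k).toNat ≠ 0 := pow_ne_zero _ hd
      have hd2 : denom γ τ ^ k.toNat ≠ 0 := pow_ne_zero _ hd
      unfold s29_z_wt0fun
      rw [SL_slash_apply, SL_slash_apply, s29_z_discriminant_smul, zpow_neg,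
        s29_z_denom_zpow k _ hd]
      field_simp
      ring
    rw [e]
    exact BoundedAtFilter.mul (BoundedAtFilter.mul (habd γ)
      (Fermat.Agent.S28.lop_isBoundedAtImInfty_pow (hbbd γ) 11))
      (s29_z_bdd_discriminant_pow _)

/-- **(Z2), modular forms form.** The quotient of two holomorphic functions of the same weight
`k` on `Γ₀(N)` which are bounded at all cusps is `H(J, J_N) / D(J, J_N)`. -/
theorem s29_z2_modform (N : ℕ) [NeZero N] (k : ℤ) (a b : ℍ → ℂ)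
    (ha : MDifferentiable 𝓘(ℂ) 𝓘(ℂ) a) (hb : MDifferentiable 𝓘(ℂ) 𝓘(ℂ) b)
    (hb0 : ∃ τ : ℍ, b τ ≠ 0)
    (hak : ∀ γ : SL(2, ℤ), γ ∈ CongruenceSubgroup.Gamma0 N → ∀ τ : ℍ,
      a (γ • τ) = UpperHalfPlane.denom γ τ ^ k * a τ)
    (hbk : ∀ γ : SL(2, ℤ), γ ∈ CongruenceSubgroup.Gamma0 N → ∀ τ : ℍ,
      b (γ • τ) = UpperHalfPlane.denom γ τ ^ k * b τ)
    (habd : ∀ γ : SL(2, ℤ), IsBoundedAtImInfty (a ∣[k] γ))
    (hbbd : ∀ γ : SL(2, ℤ), IsBoundedAtImInfty (b ∣[k] γ)) :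
    ∃ D H : Polynomial (Polynomial ℂ), (∃ τ : ℍ, s29_z_ev N D τ ≠ 0) ∧
      ∀ τ : ℍ, a τ * s29_z_ev N D τ = b τ * s29_z_ev N H τ := by
  obtain ⟨hA1, hA2, hA3⟩ := s29_z_wt0 N k a b ha hb hak hbk habd hbbd
  obtain ⟨hB1, hB2, hB3⟩ := s29_z_wt0 N k b b hb hb hbk hbk hbbd hbbd
  obtain ⟨τ₀, hτ₀⟩ := hb0
  have hf0 : (fun τ : ℍ => b τ ^ 11 * Δ τ ^ (-k).toNat / Δ τ ^ k.toNat) τ₀ ≠ 0 :=
    div_ne_zero (mul_ne_zero (pow_ne_zero _ hτ₀) (pow_ne_zero _ (discriminant_ne_zero τ₀)))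
      (pow_ne_zero _ (discriminant_ne_zero τ₀))
  have hB0 : s29_z_wt0fun k b b τ₀ ≠ 0 :=
    div_ne_zero (mul_ne_zero (mul_ne_zero hτ₀ (pow_ne_zero _ hτ₀))
      (pow_ne_zero _ (discriminant_ne_zero τ₀))) (pow_ne_zero _ (discriminant_ne_zero τ₀))
  obtain ⟨D, H, hD, hDH⟩ := s29_z2_ratio N _ _ hA1 hB1 ⟨τ₀, hB0⟩ hA2 hB2 hA3 hB3
  refine ⟨D, H, hD, ?_⟩
  have hfd : MDifferentiable 𝓘(ℂ) 𝓘(ℂ)
      (fun τ : ℍ => b τ ^ 11 * Δ τ ^ (-k).toNat / Δ τ ^ k.toNat) :=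
    ((hb.pow 11).mul (s29_z_discriminant_mdiff.pow _)).div
      (s29_z_discriminant_mdiff.pow _) (fun z => pow_ne_zero _ (discriminant_ne_zero z))
  refine s29_z_cancel hfd (ha.mul (s29_z_ev_mdiff N D)) (hb.mul (s29_z_ev_mdiff N H))
    ⟨τ₀, hf0⟩ fun τ => ?_
  have h1 := hDH τ
  unfold s29_z_wt0fun at h1
  linear_combination h1

/-- **(Z2), root form.** If `A` is holomorphic, `A ^ m ∈ modRing N`, `b ∈ modRing N` is nonzero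
and the quotient `A / b` is `Γ₀(N)`-invariant, then `A / b = H(J, J_N) / D(J, J_N)`. -/
theorem s29_z2_root (N : ℕ) [NeZero N] (m : ℕ) (hm : 0 < m) (A b : ℍ → ℂ)
    (hA : MDifferentiable 𝓘(ℂ) 𝓘(ℂ) A) (hb : b ∈ modRing N) (hb0 : ∃ τ : ℍ, b τ ≠ 0)
    (hAm : (fun τ => A τ ^ m) ∈ modRing N)
    (hinv : ∀ γ : SL(2, ℤ), γ ∈ CongruenceSubgroup.Gamma0 N → ∀ τ : ℍ,
      A (γ • τ) * b τ = A τ * b (γ • τ)) :
    ∃ D H : Polynomial (Polynomial ℂ), (∃ τ : ℍ, s29_z_ev N D τ ≠ 0) ∧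
      ∀ τ : ℍ, A τ * s29_z_ev N D τ = b τ * s29_z_ev N H τ := by
  have hbm : (⟨b, hb⟩ : modRing N) ≠ 0 := fun h0 => by
    obtain ⟨τ, hτ⟩ := hb0
    exact hτ (congrFun (congrArg Subtype.val h0) τ)
  have hb0' : algebraMap (modRing N) (ModL N) ⟨b, hb⟩ ≠ 0 :=
    (map_ne_zero_iff _ (IsFractionRing.injective _ _)).mpr hbm
  obtain ⟨c, nb, hnb, hnb0, hnbinv⟩ := Fermat.Agent.S24.modfield_exists_norm N ⟨b, hb⟩ hb0'
  have hnbf : ∀ τ, (nb : ℍ → ℂ) τ = b τ * (c : ℍ → ℂ) τ := fun τ => by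
    rw [hnb]
    rfl
  have hnbinvf : ∀ (γ : SL(2, ℤ)) (τ : ℍ), (nb : ℍ → ℂ) (γ • τ) = (nb : ℍ → ℂ) τ := by
    intro γ τ
    have h1 := congrArg (fun x : modRing N => (x : ℍ → ℂ) (γ • τ)) (hnbinv γ)
    simp only [Fermat.Agent.S24.act_smul_apply, inv_smul_smul] at h1
    exact h1.symm
  have hcd : MDifferentiable 𝓘(ℂ) 𝓘(ℂ) (c : ℍ → ℂ) :=
    Fermat.Agent.S24.mdifferentiable_of_mem_modRing c.2
  have hbd : MDifferentiable 𝓘(ℂ) 𝓘(ℂ) b := Fermat.Agent.S24.mdifferentiable_of_mem_modRing hb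
  have hnbd : MDifferentiable 𝓘(ℂ) 𝓘(ℂ) (nb : ℍ → ℂ) :=
    Fermat.Agent.S24.mdifferentiable_of_mem_modRing nb.2
  have hnb0f : ∃ τ, (nb : ℍ → ℂ) τ ≠ 0 := by
    by_contra hcon
    push Not at hcon
    apply hnb0
    have : nb = 0 := Subtype.ext (funext hcon)
    rw [this, map_zero]
  have hc0 : ∃ τ, (c : ℍ → ℂ) τ ≠ 0 := by
    obtain ⟨τ, hτ⟩ := hnb0f
    refine ⟨τ, fun h0 => hτ ?_⟩
    rw [hnbf, h0, mul_zero]
  have hACusp : s29_z_CuspBdd A :=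
    s29_z_cuspBdd_of_pow hm (s29_z_cuspBdd_of_mem_modRing hAm)
  have hA'inv : ∀ γ : SL(2, ℤ), γ ∈ CongruenceSubgroup.Gamma0 N → ∀ τ : ℍ,
      A (γ • τ) * (c : ℍ → ℂ) (γ • τ) = A τ * (c : ℍ → ℂ) τ := by
    intro γ hγ
    have hbγ0 : ∃ τ, b (γ • τ) ≠ 0 := by
      obtain ⟨τ, hτ⟩ := hb0
      exact ⟨γ⁻¹ • τ, by rwa [smul_inv_smul]⟩
    refine s29_z_cancel (f := fun τ => b (γ • τ) * b τ)
      ((s29_z_mdiff_comp_smul hbd γ).mul hbd)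
      ((s29_z_mdiff_comp_smul hA γ).mul (s29_z_mdiff_comp_smul hcd γ)) (hA.mul hcd)
      (s29_z_mul_ne_zero (s29_z_mdiff_comp_smul hbd γ) hbd hbγ0 hb0) fun τ => ?_
    have h1 := hinv γ hγ τ
    have h2 := hnbinvf γ τ
    rw [hnbf, hnbf] at h2
    linear_combination ((c : ℍ → ℂ) (γ • τ) * b (γ • τ)) * h1 + (A τ * b (γ • τ)) * h2
  obtain ⟨D, H, hD, hDH⟩ := s29_z2_ratio N (fun τ => A τ * (c : ℍ → ℂ) τ) (nb : ℍ → ℂ)
    (hA.mul hcd) hnbd hnb0f hA'inv (fun γ _ τ => hnbinvf γ τ)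
    (hACusp.mul (s29_z_cuspBdd_of_mem_modRing c.2)) (s29_z_cuspBdd_of_mem_modRing nb.2)
  refine ⟨D, H, hD, ?_⟩
  refine s29_z_cancel hcd (hA.mul (s29_z_ev_mdiff N D)) (hbd.mul (s29_z_ev_mdiff N H)) hc0
    fun τ => ?_
  have h1 := hDH τ
  rw [hnbf] at h1
  linear_combination h1

end Fermat.Agent.S29
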