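import Fermat.Agent.S29.KappaInj
import Fermat.Agent.S29.ZRatio
import Fermat.Agent.S29.DLiteAn

/-!
# S29 (project BRIDGE), block (INJ): injectivity of `κ`

`s29_kappa N m : J₀(N)[m] →+ Hom(Γ₀(N), ℤ/m)` is injective: if `κ x = 0` then the meromorphic
`m`-th root `G` of a witness `(D, g, G)` of `x` is `Γ₀(N)`-invariant, hence (Z2-root) a quotient
of two polynomials in `J(τ)`, `J(Nτ)` with complex coefficients, hence (D-lite + linear
disjointness) `g = h ^ m` with `h ∈ F_N`, so `D = div h` is principal.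
-/

set_option autoImplicit false

open UpperHalfPlane ModularCurve AlgebraicCurve
open scoped MatrixGroups

noncomputable section

namespace Fermat.Agent.S29

open Fermat.Agent.S24
open CongruenceSubgroup

attribute [local instance] algKC

/-- **(INJ)**: `κ` is injective. -/
theorem s29_kappa_injective (N m : ℕ) [NeZero N] [NeZero m] :
    Function.Injective (s29_kappa N m) :=
  s29_kappa_injective_of N m
    (fun A b hA hb hb0 hAm hinv =>
      s29_z2_root N m (Nat.pos_of_ne_zero (NeZero.ne m)) A b hA hb hb0 hAm hinv)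
    (s29_dla_hld N)

/-- kernel form: `κ x = 0 ⟹ x = 0`. -/
theorem s29_kappa_eq_zero_iff (N m : ℕ) [NeZero N] [NeZero m]
    (x : Pic0.torsion Kbar (modularFunctionFieldBar N) m) : s29_kappa N m x = 0 ↔ x = 0 :=
  ⟨fun h => s29_kappa_injective N m (h.trans (map_zero _).symm), fun h => by rw [h, map_zero]⟩

/-- a `Γ₀(N)`-invariant meromorphic `m`-th root of `g ∈ F_N` (with `m ∣ div g`) is, up to an
`m`-th root of unity, the analytic realisation of an `m`-th root of `g` in `F_N`. -/
theorem s29_ki_root_invariant (N m : ℕ) [NeZero N] [NeZero m] (g : modularFunctionFieldBar N)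
    (hg : g ≠ 0) (hP : ∀ P : Place Kbar (modularFunctionFieldBar N), (m : ℤ) ∣ P.ord g)
    (G : s29_Mer) (hG : G ^ m = s29_an N g)
    (hinv : ∀ γ : SL(2, ℤ), γ ∈ Gamma0 N → γ • G = G) :
    ∃ (c : ℂ) (h : modularFunctionFieldBar N), c ^ m = 1 ∧ h ^ m = g ∧
      G = algebraMap ℂ s29_Mer c * s29_an N h :=
  s29_ki_root_of_invariant N m
    (fun A b hA hb hb0 hAm hinv =>
      s29_z2_root N m (Nat.pos_of_ne_zero (NeZero.ne m)) A b hA hb hb0 hAm hinv)
    (s29_dla_hld N) g hg hP G hG hinv

end Fermat.Agent.S29
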