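import Fermat.Agent.S29.CohHecke
import Fermat.Agent.S21.EsPrim
import Fermat.Prelude.Def_ModularForm_HeckeOperatorForms

/-!
# S29 (BRIDGE), block H1: the period map is Hecke-equivariant

`periodMap N (T_l f) = T_l^coh (periodMap N f)` for a prime `l ∤ N`, where `T_l^coh = s29_ch_T`
is the transfer Hecke operator on `Hom(Γ₀(N), ℂ)`.

Proof: the Eichler integral of `T_l f` is `τ ↦ ∑ i, F_f (δ_i τ)` (uniqueness of the primitive
vanishing at `i∞`), and `δ_i γ = γ_i δ_{σ(i)}` with `σ` a permutation.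
-/

set_option autoImplicit false

open UpperHalfPlane CongruenceSubgroup Filter Topology ModularCurve ModularCurve.Period ModularForm
open scoped MatrixGroups ModularForm Manifold

noncomputable section

namespace Fermat.Agent.S29

open Fermat.Agent.S21
open Fermat.Agent.S22 (HasDerivH)

theorem s29_hp_delta_some (l : ℕ) (j : Fin l) : s29_ch_delta l (some j) = heckeMatrix l j := rfl

theorem s29_hp_delta_none (l : ℕ) : s29_ch_delta l none = heckeDiagMatrix l := rfl

theorem s29_hp_det_pos (l : ℕ) (i : Option (Fin l)) :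
    0 < ((s29_ch_delta l i : GL (Fin 2) ℝ) : Matrix (Fin 2) (Fin 2) ℝ).det := by
  cases i with
  | none =>
    have h := det_heckeDiagMatrix_pos l
    rwa [Matrix.GeneralLinearGroup.val_det_apply] at h
  | some j =>
    have h := det_heckeMatrix_pos l j
    rwa [Matrix.GeneralLinearGroup.val_det_apply] at h

/-- the imaginary part of `δ_i τ` tends to infinity with that of `τ`. -/
theorem s29_hp_tendsto_smul {l : ℕ} (hl : l ≠ 0) (i : Option (Fin l)) :
    Tendsto (fun τ : ℍ => s29_ch_delta l i • τ) atImInfty atImInfty := by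
  have hl' : (0 : ℝ) < l := by exact_mod_cast Nat.pos_of_ne_zero hl
  have him : Tendsto (fun τ : ℍ => τ.im) atImInfty atTop := tendsto_comap
  rw [atImInfty, tendsto_comap_iff]
  cases i with
  | none =>
    have h1 : (UpperHalfPlane.im ∘ fun τ : ℍ => s29_ch_delta l none • τ) =
        fun τ : ℍ => (l : ℝ) * τ.im := by
      funext τ
      show ((heckeDiagMatrix l • τ : ℍ) : ℂ).im = _
      rw [coe_heckeDiagMatrix_smul hl]
      simp
    rw [h1]
    exact Tendsto.const_mul_atTop hl' him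
  | some j =>
    have h1 : (UpperHalfPlane.im ∘ fun τ : ℍ => s29_ch_delta l (some j) • τ) =
        fun τ : ℍ => τ.im / (l : ℝ) := by
      funext τ
      show ((heckeMatrix l j • τ : ℍ) : ℂ).im = _
      rw [coe_heckeMatrix_smul hl]
      simp [Complex.div_natCast_im]
    rw [h1]
    exact Tendsto.atTop_div_const hl' him

/-- `τ ↦ ∑ i, F_f (δ_i τ)` is a primitive of `T_l f`. -/
theorem s29_hp_hasDerivH {N : ℕ} [NeZero N] {l : ℕ} (hl : l ≠ 0) (f : CuspForm (Gamma0 N) 2) :
    HasDerivH (fun τ => ∑ i : Option (Fin l), esF f (s29_ch_delta l i • τ))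
      (heckeT 2 l (f : ℍ → ℂ)) := by
  have hl' : (l : ℂ) ≠ 0 := by exact_mod_cast hl
  have D : ∀ i ∈ (Finset.univ : Finset (Option (Fin l))),
      HasDerivH (fun τ => esF f (s29_ch_delta l i • τ))
        (fun τ => f (s29_ch_delta l i • τ) *
          ((((s29_ch_delta l i : GL (Fin 2) ℝ) : Matrix (Fin 2) (Fin 2) ℝ).det : ℝ) /
            denom (s29_ch_delta l i) τ ^ 2)) :=
    fun i _ => (esF_hasDerivH f).comp_smul (s29_hp_det_pos l i)
  refine (HasDerivH.sum Finset.univ D).congr_deriv fun τ => ?_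
  rw [heckeT_apply 2 hl, Fintype.sum_option, ← Fin.sum_univ_eq_sum_range
    (fun j => (f : ℍ → ℂ) (heckeMatrix l j • τ)), Finset.mul_sum, add_comm]
  congr 1
  · refine Finset.sum_congr rfl fun j _ => ?_
    rw [s29_hp_delta_some, denom_heckeMatrix hl, ← Matrix.GeneralLinearGroup.val_det_apply, det_heckeMatrix hl]
    push_cast
    field_simp
  · rw [s29_hp_delta_none, denom_heckeDiagMatrix hl, ← Matrix.GeneralLinearGroup.val_det_apply,
      det_heckeDiagMatrix hl]
    norm_num
    ring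

/-- the Eichler integral of `T_l f`. -/
theorem s29_hp_esF {N : ℕ} [NeZero N] {l : ℕ} (hl : l.Prime) (hlN : ¬ l ∣ N)
    (f : CuspForm (Gamma0 N) 2) :
    esF (CuspForm.heckeTLin 2 hl hlN f) =
      fun τ => ∑ i : Option (Fin l), esF f (s29_ch_delta l i • τ) := by
  symm
  refine esF_unique (f := CuspForm.heckeTLin 2 hl hlN f) (s29_hp_hasDerivH hl.ne_zero f) ?_
  have h0 : (0 : ℂ) = ∑ _i : Option (Fin l), (0 : ℂ) := by simp
  rw [h0]
  exact tendsto_finsetSum _ fun i _ =>
    (esF_tendsto f).comp (s29_hp_tendsto_smul hl.ne_zero i)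

/-- **(H1-per)** the period map intertwines `T_l` with the transfer Hecke operator. -/
theorem s29_hp_period (N : ℕ) [NeZero N] (l : ℕ) (hl : l.Prime) (hlN : ¬ l ∣ N)
    (f : CuspForm (Gamma0 N) 2) :
    periodMap N (CuspForm.heckeTLin 2 hl hlN f) = s29_ch_T N l hl hlN ℂ (periodMap N f) := by
  refine AddMonoidHom.ext fun γ' => ?_
  obtain ⟨γ, rfl⟩ := Additive.ofMul.surjective γ'
  rw [s29_ch_T_apply, periodMap_apply N _ γ UpperHalfPlane.I, s29_hp_esF hl hlN f]
  have key : ∀ i : Option (Fin l),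
      esF f (s29_ch_delta l i • ((γ : SL(2, ℤ)) • UpperHalfPlane.I)) =
        periodMap N f (Additive.ofMul (s29_ch_coc N l hl hlN γ i)) +
          esF f (s29_ch_delta l (s29_ch_perm N l hl hlN γ i) • UpperHalfPlane.I) := by
    intro i
    have h1 : s29_ch_delta l i • ((γ : SL(2, ℤ)) • UpperHalfPlane.I) =
        ((s29_ch_coc N l hl hlN γ i : Gamma0 N) : SL(2, ℤ)) •
          (s29_ch_delta l (s29_ch_perm N l hl hlN γ i) • UpperHalfPlane.I) := by
      have e1 : (γ : SL(2, ℤ)) • UpperHalfPlane.I =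
          ((γ : SL(2, ℤ)) : GL (Fin 2) ℝ) • UpperHalfPlane.I := rfl
      have e2 : ∀ w : ℍ, ((s29_ch_coc N l hl hlN γ i : Gamma0 N) : SL(2, ℤ)) • w =
          (((s29_ch_coc N l hl hlN γ i : Gamma0 N) : SL(2, ℤ)) : GL (Fin 2) ℝ) • w :=
        fun _ => rfl
      rw [e1, e2, ← mul_smul, ← mul_smul, s29_ch_spec N l hl hlN γ i]
    rw [h1, periodMap_apply N f (s29_ch_coc N l hl hlN γ i)
      (s29_ch_delta l (s29_ch_perm N l hl hlN γ i) • UpperHalfPlane.I)]
    ring
  simp only [key, Finset.sum_add_distrib]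
  rw [Equiv.sum_comp (s29_ch_perm N l hl hlN γ)
    (fun j => esF f (s29_ch_delta l j • UpperHalfPlane.I))]
  ring

end Fermat.Agent.S29
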