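import Fermat.Agent.S29.CohInv
import Fermat.Agent.S29.CohPar
import Fermat.Agent.S29.HeckePeriod
import Fermat.Agent.S21
import Fermat.Prelude.Thm_CuspForm_heckeTLin_comm

/-!
# S29 (BRIDGE), block H1: the transfer Hecke operators commute on parabolic homomorphisms

By S21 every parabolic homomorphism `Γ₀(N) → ℂ` is `periodHomPair N (f, g)`; by (H1-per) and
(H1-inv), `T_l^coh (periodHomPair N (f, g)) = periodHomPair N (T_l f, T_l g)`; the `T_l` commute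
on cusp forms (Prelude).  The integral statement follows since `ℤ ⊂ ℂ`.
-/

set_option autoImplicit false

open CongruenceSubgroup ModularForm ModularCurve ModularCurve.Period
open scoped MatrixGroups

noncomputable section

namespace Fermat.Agent.S29

/-- `T_l^coh` on `periodHomPair`. -/
theorem s29_cc_T_periodHomPair (N : ℕ) [NeZero N] (l : ℕ) (hl : l.Prime) (hlN : ¬ l ∣ N)
    (f g : CuspForm (Gamma0 N) 2) :
    s29_ch_T N l hl hlN ℂ (periodHomPair N (f, g)) =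
      periodHomPair N (CuspForm.heckeTLin 2 hl hlN f, CuspForm.heckeTLin 2 hl hlN g) := by
  rw [Fermat.Agent.S21.periodHomPair_eq]
  simp only [LinearMap.coprod_apply, LinearMap.comp_apply, LinearMap.add_apply,
    LinearMap.sub_apply, LinearMap.id_apply, Fermat.Agent.S21.pml_apply, map_add, map_sub,
    s29_ci_T_charInvolution N l hl hlN ℂ, s29_hp_period]

/-- the `T_l^coh` commute on parabolic homomorphisms with complex coefficients. -/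
theorem s29_cc_comm_complex (N : ℕ) [NeZero N] (l l' : ℕ) (hl : l.Prime) (hlN : ¬ l ∣ N)
    (hl' : l'.Prime) (hl'N : ¬ l' ∣ N) (ψ : Additive (Gamma0 N) →+ ℂ)
    (hψ : ψ ∈ parabolicHoms ℂ (Gamma0 N) ℂ) :
    s29_ch_T N l hl hlN ℂ (s29_ch_T N l' hl' hl'N ℂ ψ) =
      s29_ch_T N l' hl' hl'N ℂ (s29_ch_T N l hl hlN ℂ ψ) := by
  rw [← (Fermat.Agent.S21.result N).2] at hψ
  obtain ⟨⟨f, g⟩, rfl⟩ := hψ
  rw [s29_cc_T_periodHomPair, s29_cc_T_periodHomPair, s29_cc_T_periodHomPair,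
    s29_cc_T_periodHomPair]
  have hc := CuspForm.heckeTLin_comm (N := N) 2 hl hlN hl' hl'N
  have h1 : ∀ f : CuspForm (Gamma0 N) 2,
      CuspForm.heckeTLin 2 hl hlN (CuspForm.heckeTLin 2 hl' hl'N f) =
        CuspForm.heckeTLin 2 hl' hl'N (CuspForm.heckeTLin 2 hl hlN f) :=
    fun f => congrArg (fun T : Module.End ℂ (CuspForm (Gamma0 N) 2) => T f) hc.eq
  rw [h1 f, h1 g]

/-- extension of scalars `ℤ ⊂ ℂ` on homomorphisms. -/
theorem s29_cc_cast_injective (N : ℕ) (ψ ψ' : Additive (Gamma0 N) →+ ℤ)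
    (h : (Int.castAddHom ℂ).comp ψ = (Int.castAddHom ℂ).comp ψ') : ψ = ψ' := by
  refine AddMonoidHom.ext fun γ => ?_
  have h1 := DFunLike.congr_fun h γ
  simp only [AddMonoidHom.comp_apply, Int.coe_castAddHom] at h1
  exact_mod_cast h1

theorem s29_cc_cast_parabolic (N : ℕ) (ψ : Additive (Gamma0 N) →+ ℤ)
    (hψ : ψ ∈ parabolicHoms ℤ (Gamma0 N) ℤ) :
    (Int.castAddHom ℂ).comp ψ ∈ parabolicHoms ℂ (Gamma0 N) ℂ := by
  intro γ hγ
  show ((ψ (Additive.ofMul γ) : ℤ) : ℂ) = 0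
  rw [hψ γ hγ, Int.cast_zero]

/-- the `T_l^coh` commute on parabolic homomorphisms with integer coefficients. -/
theorem s29_cc_comm_int (N : ℕ) [NeZero N] (l l' : ℕ) (hl : l.Prime) (hlN : ¬ l ∣ N)
    (hl' : l'.Prime) (hl'N : ¬ l' ∣ N) (ψ : Additive (Gamma0 N) →+ ℤ)
    (hψ : ψ ∈ parabolicHoms ℤ (Gamma0 N) ℤ) :
    s29_ch_T N l hl hlN ℤ (s29_ch_T N l' hl' hl'N ℤ ψ) =
      s29_ch_T N l' hl' hl'N ℤ (s29_ch_T N l hl hlN ℤ ψ) := by
  apply s29_cc_cast_injective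
  rw [← s29_ch_T_comp, ← s29_ch_T_comp, ← s29_ch_T_comp, ← s29_ch_T_comp]
  exact s29_cc_comm_complex N l l' hl hlN hl' hl'N _ (s29_cc_cast_parabolic N ψ hψ)

/-- **(H1-comm)** the Hecke operators `T_l^coh`, `l ∤ N` prime, commute on the lattice of
integral parabolic homomorphisms. -/
theorem s29_cc_comm (N : ℕ) [NeZero N] (l l' : ℕ) (hl : l.Prime) (hlN : ¬ l ∣ N)
    (hl' : l'.Prime) (hl'N : ¬ l' ∣ N) :
    Commute (s29_cp_Tpar N l hl hlN ℤ ℤ) (s29_cp_Tpar N l' hl' hl'N ℤ ℤ) := by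
  refine LinearMap.ext fun ψ => Subtype.ext ?_
  show ((s29_cp_Tpar N l hl hlN ℤ ℤ (s29_cp_Tpar N l' hl' hl'N ℤ ℤ ψ) :
      ↥(parabolicHoms ℤ (Gamma0 N) ℤ)) : Additive (Gamma0 N) →+ ℤ) =
    ((s29_cp_Tpar N l' hl' hl'N ℤ ℤ (s29_cp_Tpar N l hl hlN ℤ ℤ ψ) :
      ↥(parabolicHoms ℤ (Gamma0 N) ℤ)) : Additive (Gamma0 N) →+ ℤ)
  rw [s29_cp_Tpar_coe, s29_cp_Tpar_coe, s29_cp_Tpar_coe, s29_cp_Tpar_coe]
  exact s29_cc_comm_int N l l' hl hlN hl' hl'N _ ψ.2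

/-- the complex version on `parabolicHoms ℂ (Gamma0 N) ℂ`. -/
theorem s29_cc_comm_par_complex (N : ℕ) [NeZero N] (l l' : ℕ) (hl : l.Prime) (hlN : ¬ l ∣ N)
    (hl' : l'.Prime) (hl'N : ¬ l' ∣ N) :
    Commute (s29_cp_Tpar N l hl hlN ℂ ℂ) (s29_cp_Tpar N l' hl' hl'N ℂ ℂ) := by
  refine LinearMap.ext fun ψ => Subtype.ext ?_
  show ((s29_cp_Tpar N l hl hlN ℂ ℂ (s29_cp_Tpar N l' hl' hl'N ℂ ℂ ψ) :
      ↥(parabolicHoms ℂ (Gamma0 N) ℂ)) : Additive (Gamma0 N) →+ ℂ) =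
    ((s29_cp_Tpar N l' hl' hl'N ℂ ℂ (s29_cp_Tpar N l hl hlN ℂ ℂ ψ) :
      ↥(parabolicHoms ℂ (Gamma0 N) ℂ)) : Additive (Gamma0 N) →+ ℂ)
  rw [s29_cp_Tpar_coe, s29_cp_Tpar_coe, s29_cp_Tpar_coe, s29_cp_Tpar_coe]
  exact s29_cc_comm_complex N l l' hl hlN hl' hl'N _ ψ.2

end Fermat.Agent.S29
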