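import Fermat.Agent.S29.HeckePeriod
import Fermat.Agent.S21
import Fermat.Prelude.Thm_ModularFormClass_qCoeff_heckeT
import Fermat.Prelude.Thm_CongruenceSubgroup_one_mem_strictPeriods_Gamma0
import Fermat.Prelude.Def_FLTPrelim_Modularity

/-!
# S29 (BRIDGE), block H1: a normalized eigenform is a Hecke eigenvector

`IsNormalizedEigenform` (Prelude) is a statement on `q`-coefficients.  With the Prelude formula
for the `q`-coefficients of `heckeT` and the `q`-expansion principle we get
`T_l g = a_l(g) • g` for primes `l ∤ N`, hence (H1-per) the period homomorphism of `g` is an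
eigenvector of the transfer operators `T_l^coh`, and it is nonzero by S21.
-/

set_option autoImplicit false

open UpperHalfPlane CongruenceSubgroup ModularCurve ModularCurve.Period ModularForm
open scoped MatrixGroups ModularForm Manifold

noncomputable section

namespace Fermat.Agent.S29

open ModularFormClass

/-- the constant `q`-coefficient of a cusp form vanishes. -/
theorem s29_he_qCoeff_zero {N : ℕ} (g : CuspForm (Gamma0 N) 2) : qCoeff g 0 = 0 :=
  CuspFormClass.qExpansion_coeff_zero g one_pos (CongruenceSubgroup.one_mem_strictPeriods_Gamma0 N)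

/-- the coefficient identity behind `T_l g = a_l g`. -/
theorem s29_he_coeff {N : ℕ} {g : CuspForm (Gamma0 N) 2} (hg : g.IsNormalizedEigenform)
    {l : ℕ} (hl : l.Prime) (hlN : ¬ l ∣ N) (n : ℕ) :
    coeffHeckeT 2 l (qCoeff g) n = qCoeff g l * qCoeff g n := by
  by_cases hln : l ∣ n
  · rw [coeffHeckeT_of_dvd 2 hln]
    have hz : ((l : ℂ)) ^ ((2 : ℤ) - 1) = l := by norm_num
    rw [hz]
    rcases eq_or_ne n 0 with rfl | hn0
    · simp [s29_he_qCoeff_zero g]
    · obtain ⟨e, m, hm, rfl⟩ := Nat.exists_eq_pow_mul_and_not_dvd hn0 l hl.ne_one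
      have he : e ≠ 0 := by
        rintro rfl
        rw [pow_zero, one_mul] at hln
        exact hm hln
      obtain ⟨r, rfl⟩ := Nat.exists_eq_succ_of_ne_zero he
      have hcop : ∀ j : ℕ, (l ^ j).Coprime m :=
        fun j => Nat.Coprime.pow_left j ((Nat.Prime.coprime_iff_not_dvd hl).2 hm)
      have e1 : l ^ (r + 1) * m * l = l ^ (r + 2) * m := by ring
      have e2 : l ^ (r + 1) * m / l = l ^ r * m := by
        rw [pow_succ, mul_assoc, mul_comm l m, ← mul_assoc]
        exact Nat.mul_div_cancel _ hl.pos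
      rw [e1, e2, hg.qCoeff_mul_of_coprime _ _ (hcop (r + 2)),
        hg.qCoeff_mul_of_coprime _ _ (hcop (r + 1)), hg.qCoeff_mul_of_coprime _ _ (hcop r),
        hg.qCoeff_prime_pow_of_not_dvd l r hl hlN]
      ring
  · rw [coeffHeckeT_of_not_dvd 2 hln]
    have hcop : n.Coprime l := ((Nat.Prime.coprime_iff_not_dvd hl).2 hln).symm
    rw [hg.qCoeff_mul_of_coprime _ _ hcop, mul_comm]

/-- `q`-expansion of a cusp form of level `Γ₀(N)` (period one). -/
theorem s29_he_hasSum {N : ℕ} [NeZero N] (g : CuspForm (Gamma0 N) 2) (τ : ℍ) :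
    HasSum (fun m : ℕ => qCoeff g m * Function.Periodic.qParam 1 τ ^ m) (g τ) := by
  have hΓ := CongruenceSubgroup.one_mem_strictPeriods_Gamma0 N
  have h := UpperHalfPlane.hasSum_qExpansion (f := (g : ℍ → ℂ)) one_pos
    (SlashInvariantFormClass.periodic_comp_ofComplex g hΓ) (ModularFormClass.holo g)
    (ModularFormClass.bdd_at_infty g) τ
  simpa [qCoeff] using h

/-- **a normalized eigenform is an eigenvector of `T_l`, `l ∤ N`, with eigenvalue `a_l`.** -/
theorem s29_he_hecke_eigen {N : ℕ} [NeZero N] {g : CuspForm (Gamma0 N) 2}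
    (hg : g.IsNormalizedEigenform) {l : ℕ} (hl : l.Prime) (hlN : ¬ l ∣ N) :
    CuspForm.heckeTLin 2 hl hlN g = qCoeff g l • g := by
  refine DFunLike.ext _ _ fun τ => ?_
  have h1 := s29_he_hasSum (CuspForm.heckeTLin 2 hl hlN g) τ
  have h2 := (s29_he_hasSum g τ).mul_left (qCoeff g l)
  have hc : ∀ m : ℕ, qCoeff (CuspForm.heckeTLin 2 hl hlN g) m = qCoeff g l * qCoeff g m := by
    intro m
    have := ModularFormClass.qCoeff_heckeT g (CongruenceSubgroup.one_mem_strictPeriods_Gamma0 N)
      hl.ne_zero m (k := 2)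
    rw [CuspForm.coe_heckeTLin_apply, this, s29_he_coeff hg hl hlN]
  have h3 : (fun m : ℕ => qCoeff (CuspForm.heckeTLin 2 hl hlN g) m *
      Function.Periodic.qParam 1 τ ^ m) =
      fun m : ℕ => qCoeff g l * (qCoeff g m * Function.Periodic.qParam 1 τ ^ m) := by
    funext m
    rw [hc, mul_assoc]
  rw [h3] at h1
  exact h1.unique h2

/-- the period homomorphism of a normalized eigenform is an eigenvector of `T_l^coh`. -/
theorem s29_he_period_eigen {N : ℕ} [NeZero N] {g : CuspForm (Gamma0 N) 2}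
    (hg : g.IsNormalizedEigenform) {l : ℕ} (hl : l.Prime) (hlN : ¬ l ∣ N) :
    s29_ch_T N l hl hlN ℂ (periodMap N g) = qCoeff g l • periodMap N g := by
  rw [← s29_hp_period, s29_he_hecke_eigen hg hl hlN, ← Fermat.Agent.S21.pml_apply,
    ← Fermat.Agent.S21.pml_apply, map_smul]

/-- the period homomorphism of a nonzero cusp form is nonzero (S21 injectivity at `(g, g)`). -/
theorem s29_he_periodMap_ne_zero {N : ℕ} [NeZero N] {g : CuspForm (Gamma0 N) 2} (hg0 : g ≠ 0) :
    periodMap N g ≠ 0 := by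
  intro h
  have h1 : periodHomPair N (g, g) = 0 := by
    rw [Fermat.Agent.S21.periodHomPair_eq]
    simp [LinearMap.coprod_apply, Fermat.Agent.S21.pml_apply, h]
  have h2 := (Fermat.Agent.S21.result N).1 (h1.trans (map_zero _).symm)
  exact hg0 (Prod.ext_iff.1 h2).1

/-- a normalized eigenform is nonzero. -/
theorem s29_he_ne_zero {N : ℕ} {g : CuspForm (Gamma0 N) 2} (hg : g.IsNormalizedEigenform) :
    g ≠ 0 := by
  rintro rfl
  have h0 : qCoeff (0 : CuspForm (Gamma0 N) 2) 1 = 0 := by
    have hcoe : ((0 : CuspForm (Gamma0 N) 2) : ℍ → ℂ) = (0 : ℍ → ℂ) := rfl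
    rw [qCoeff, hcoe, qExpansion_zero]
    simp
  exact zero_ne_one (h0 ▸ hg.qCoeff_one)

/-- the period homomorphism of a normalized eigenform is a nonzero parabolic homomorphism. -/
theorem s29_he_period_ne_zero {N : ℕ} [NeZero N] {g : CuspForm (Gamma0 N) 2}
    (hg : g.IsNormalizedEigenform) : periodMap N g ≠ 0 :=
  s29_he_periodMap_ne_zero (s29_he_ne_zero hg)

theorem s29_he_period_mem {N : ℕ} [NeZero N] (g : CuspForm (Gamma0 N) 2) :
    periodMap N g ∈ parabolicHoms ℂ (Gamma0 N) ℂ :=
  Fermat.Agent.S21.periodMap_mem_parabolicHoms N g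

end Fermat.Agent.S29
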