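import Mathlib
import Fermat.Prelude.Def_ModularCurve_PeriodMap

/-!
# BRIDGE (H1-int): the lattice of integral parabolic homomorphisms (helper2)

For a finitely generated subgroup `Γ ≤ SL(2, ℤ)` (e.g. `Γ₀(N)`, `N ≠ 0`), the lattice
`Λ = parabolicHoms ℤ Γ ℤ` is a finite free `ℤ`-module, the natural map
`ℂ ⊗ Λ → Hom(Γ, ℂ)` is injective and its image is the space of parabolic homomorphisms.
-/

set_option autoImplicit false
set_option linter.style.haveILetI false

open CongruenceSubgroup ModularCurve.Period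
open scoped MatrixGroups TensorProduct

namespace Fermat.Agent.S29

/-- `SL(2, ℤ)` is finitely generated. -/
theorem s29_pl_fg_SL2Z : Group.FG SL(2, ℤ) :=
  Group.fg_iff.mpr ⟨{ModularGroup.S, ModularGroup.T},
    _root_.SpecialLinearGroup.SL2Z_generators, by simp⟩

/-- `Γ₀(N)` is finitely generated (`N ≠ 0`). -/
theorem s29_pl_fg (N : ℕ) [NeZero N] : Group.FG (Gamma0 N) := by
  haveI := s29_pl_fg_SL2Z
  exact Subgroup.fg_of_index_ne_zero (Gamma0 N)

/-- An additive character vanishing on a generating set vanishes. -/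
theorem s29_pl_hom_ext {G : Type*} [Group G] {A : Type*} [AddCommGroup A] (S : Set G)
    (hS : Subgroup.closure S = ⊤) (f : Additive G →+ A)
    (h : ∀ s ∈ S, f (Additive.ofMul s) = 0) : f = 0 := by
  let K : Subgroup G :=
    { carrier := {g | f (Additive.ofMul g) = 0}
      mul_mem' := fun {a b} ha hb => by
        show f (Additive.ofMul (a * b)) = 0
        have ha' : f (Additive.ofMul a) = 0 := ha
        have hb' : f (Additive.ofMul b) = 0 := hb
        rw [ofMul_mul, map_add, ha', hb', add_zero]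
      one_mem' := by
        show f (Additive.ofMul 1) = 0
        rw [ofMul_one, map_zero]
      inv_mem' := fun {a} ha => by
        show f (Additive.ofMul a⁻¹) = 0
        have ha' : f (Additive.ofMul a) = 0 := ha
        rw [ofMul_inv, map_neg, ha', neg_zero] }
  have hK : K = ⊤ := top_unique (hS ▸ (Subgroup.closure_le K).mpr h)
  ext g
  obtain ⟨g, rfl⟩ := Additive.ofMul.surjective g
  have hg : g ∈ K := hK ▸ Subgroup.mem_top g
  exact hg

/-- `Hom(G, ℤ)` is a finitely generated abelian group for finitely generated `G`. -/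
theorem s29_pl_hom_finite (G : Type*) [Group G] [hG : Group.FG G] :
    Module.Finite ℤ (Additive G →+ ℤ) := by
  obtain ⟨S, hS, hSfin⟩ := Group.fg_iff.mp hG
  haveI : Finite S := hSfin.to_subtype
  let r : (Additive G →+ ℤ) →ₗ[ℤ] (S → ℤ) :=
    { toFun := fun f s => f (Additive.ofMul (s : G))
      map_add' := fun f g => rfl
      map_smul' := fun n f => rfl }
  have hr : Function.Injective r := by
    rw [← LinearMap.ker_eq_bot, LinearMap.ker_eq_bot']
    intro f hf
    apply s29_pl_hom_ext S hS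
    intro s hs
    exact congrFun hf ⟨s, hs⟩
  exact Module.Finite.of_injective r hr

section general

variable (Γ : Subgroup SL(2, ℤ))

instance s29_pl_torsionFree : IsAddTorsionFree ↥(parabolicHoms ℤ Γ ℤ) :=
  Function.Injective.isAddTorsionFree
    ((AddMonoidHom.coeFn (Additive Γ) ℤ).comp (parabolicHoms ℤ Γ ℤ).subtype.toAddMonoidHom)
    (fun _ _ h => Subtype.ext (DFunLike.coe_injective h))

/-- `Λ` is finitely generated. -/
theorem s29_pl_finite [Group.FG Γ] : Module.Finite ℤ ↥(parabolicHoms ℤ Γ ℤ) := by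
  haveI := s29_pl_hom_finite Γ
  exact Module.Finite.of_injective (parabolicHoms ℤ Γ ℤ).subtype Subtype.val_injective

/-- `Λ` is free. -/
theorem s29_pl_free [Group.FG Γ] : Module.Free ℤ ↥(parabolicHoms ℤ Γ ℤ) := by
  haveI := s29_pl_finite Γ
  exact Module.free_of_finite_type_torsion_free'

/-- Coefficient change `ℤ → ℂ` on the lattice, as a `ℤ`-linear map. -/
noncomputable def s29_pl_cast : ↥(parabolicHoms ℤ Γ ℤ) →ₗ[ℤ] (Additive Γ →+ ℂ) where
  toFun ψ := (Int.castAddHom ℂ).comp (ψ : Additive Γ →+ ℤ)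
  map_add' ψ ψ' := by
    refine AddMonoidHom.ext fun γ => ?_
    simp
  map_smul' n ψ := by
    refine AddMonoidHom.ext fun γ => ?_
    simp

theorem s29_pl_cast_apply (ψ : ↥(parabolicHoms ℤ Γ ℤ)) (γ : Additive Γ) :
    s29_pl_cast Γ ψ γ = (((ψ : Additive Γ →+ ℤ) γ : ℤ) : ℂ) := rfl

theorem s29_pl_cast_injective : Function.Injective (s29_pl_cast Γ) := by
  intro ψ ψ' h
  apply Subtype.ext
  refine AddMonoidHom.ext fun γ => ?_
  have h1 := DFunLike.congr_fun h γ
  rw [s29_pl_cast_apply, s29_pl_cast_apply] at h1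
  exact_mod_cast h1

theorem s29_pl_cast_parabolic (ψ : ↥(parabolicHoms ℤ Γ ℤ)) :
    IsParabolicHom Γ (s29_pl_cast Γ ψ) := by
  intro γ hγ
  have h1 : (ψ : Additive Γ →+ ℤ) (Additive.ofMul γ) = 0 := ψ.2 γ hγ
  rw [s29_pl_cast_apply, h1, Int.cast_zero]

/-- The comparison map `ℂ ⊗ Λ → Hom(Γ, ℂ)`. -/
noncomputable def s29_pl_Phi : ℂ ⊗[ℤ] ↥(parabolicHoms ℤ Γ ℤ) →ₗ[ℂ] (Additive Γ →+ ℂ) :=
  (s29_pl_cast Γ).liftBaseChange ℂ

theorem s29_pl_Phi_tmul (c : ℂ) (ψ : ↥(parabolicHoms ℤ Γ ℤ)) :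
    s29_pl_Phi Γ (c ⊗ₜ[ℤ] ψ) = c • s29_pl_cast Γ ψ := rfl

theorem s29_pl_Phi_parabolic (w : ℂ ⊗[ℤ] ↥(parabolicHoms ℤ Γ ℤ)) :
    IsParabolicHom Γ (s29_pl_Phi Γ w) := by
  induction w using TensorProduct.induction_on with
  | zero =>
    rw [map_zero]
    exact (parabolicHoms ℂ Γ ℂ).zero_mem
  | tmul c ψ =>
    rw [s29_pl_Phi_tmul]
    exact (parabolicHoms ℂ Γ ℂ).smul_mem c (s29_pl_cast_parabolic Γ ψ)
  | add x y hx hy =>
    rw [map_add]
    exact (parabolicHoms ℂ Γ ℂ).add_mem hx hy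

/-- `ℤ`-linearly independent integral characters are `ℂ`-linearly independent. -/
theorem s29_pl_linearIndependent {J : Type*} (b : J → ↥(parabolicHoms ℤ Γ ℤ))
    (hb : LinearIndependent ℤ b) : LinearIndependent ℂ (fun j => s29_pl_cast Γ (b j)) := by
  classical
  have h1 : LinearIndependent ℤ (fun j => s29_pl_cast Γ (b j)) :=
    hb.map' (s29_pl_cast Γ) (LinearMap.ker_eq_bot.mpr (s29_pl_cast_injective Γ))
  have h2 : LinearIndependent ℚ (fun j => s29_pl_cast Γ (b j)) :=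
    (LinearIndependent.iff_fractionRing ℤ ℚ).mp h1
  rw [linearIndependent_iff'] at h2 ⊢
  intro s c hc j hj
  apply (Module.forall_dual_apply_eq_zero_iff ℚ (c j)).mp
  intro lam
  refine h2 s (fun i => lam (c i)) ?_ j hj
  refine AddMonoidHom.ext fun γ => ?_
  have hγ := DFunLike.congr_fun hc γ
  rw [AddMonoidHom.zero_apply, AddMonoidHom.finsetSum_apply] at hγ
  rw [AddMonoidHom.zero_apply, AddMonoidHom.finsetSum_apply]
  have e1 : ∀ i ∈ s, (lam (c i) • s29_pl_cast Γ (b i)) γ =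
      ((((b i : Additive Γ →+ ℤ) γ : ℤ) • lam (c i) : ℚ) : ℂ) := by
    intro i _
    show (lam (c i) : ℚ) • (s29_pl_cast Γ (b i) γ) = _
    rw [s29_pl_cast_apply, Rat.smul_def, zsmul_eq_mul, Rat.cast_mul, Rat.cast_intCast, mul_comm]
  rw [Finset.sum_congr rfl e1, ← Rat.cast_sum]
  have e2 : ∑ i ∈ s, ((b i : Additive Γ →+ ℤ) γ : ℤ) • lam (c i) =
      lam (∑ i ∈ s, (c i • s29_pl_cast Γ (b i)) γ) := by
    rw [map_sum]
    refine Finset.sum_congr rfl fun i _ => ?_
    show _ = lam (c i • (s29_pl_cast Γ (b i) γ))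
    rw [s29_pl_cast_apply, smul_eq_mul, ← map_zsmul]
    congr 1
    rw [zsmul_eq_mul, mul_comm]
  rw [e2, hγ, map_zero, Rat.cast_zero]

/-- The comparison map `ℂ ⊗ Λ → Hom(Γ, ℂ)` is injective. -/
theorem s29_pl_Phi_injective [Group.FG Γ] : Function.Injective (s29_pl_Phi Γ) := by
  classical
  haveI := s29_pl_finite Γ
  haveI := s29_pl_free Γ
  let b := Module.Free.chooseBasis ℤ ↥(parabolicHoms ℤ Γ ℤ)
  have hli := s29_pl_linearIndependent Γ b b.linearIndependent
  rw [← LinearMap.ker_eq_bot, LinearMap.ker_eq_bot']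
  intro w hw
  have h1 := (Algebra.TensorProduct.basis ℂ b).sum_repr w
  rw [← h1, map_sum] at hw
  have h2 : ∀ j, s29_pl_Phi Γ (((Algebra.TensorProduct.basis ℂ b).repr w) j •
      (Algebra.TensorProduct.basis ℂ b) j) =
      ((Algebra.TensorProduct.basis ℂ b).repr w) j • s29_pl_cast Γ (b j) := by
    intro j
    rw [map_smul, Algebra.TensorProduct.basis_apply, s29_pl_Phi_tmul, one_smul]
  rw [Finset.sum_congr rfl fun j _ => h2 j] at hw
  have h3 := Fintype.linearIndependent_iff.mp hli _ hw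
  rw [← h1]
  exact Finset.sum_eq_zero fun j _ => by rw [h3 j, zero_smul]

/-- Every parabolic homomorphism `Γ → ℂ` lies in the image of `ℂ ⊗ Λ`. -/
theorem s29_pl_Phi_surj [Group.FG Γ] (P : Additive Γ →+ ℂ) (hP : IsParabolicHom Γ P) :
    ∃ v : ℂ ⊗[ℤ] ↥(parabolicHoms ℤ Γ ℤ), s29_pl_Phi Γ v = P := by
  classical
  haveI : AddGroup.FG (Additive Γ) := inferInstance
  haveI : AddGroup.FG ↥P.range := inferInstance
  haveI : Module.Finite ℤ ↥P.range := Module.Finite.iff_addGroup_fg.mpr inferInstance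
  haveI : Module.Free ℤ ↥P.range := Module.free_of_finite_type_torsion_free'
  let b := Module.Free.chooseBasis ℤ ↥P.range
  -- the coordinate characters
  let ψ : Module.Free.ChooseBasisIndex ℤ ↥P.range → (Additive Γ →+ ℤ) := fun j =>
    ((Finsupp.lapply j ∘ₗ b.repr.toLinearMap : ↥P.range →ₗ[ℤ] ℤ).toAddMonoidHom).comp
      P.rangeRestrict
  have hψ : ∀ j (γ : Additive Γ), ψ j γ = b.repr (P.rangeRestrict γ) j := fun j γ => rfl
  have hψpar : ∀ j, ψ j ∈ parabolicHoms ℤ Γ ℤ := by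
    intro j γ hγ
    have h0 : P.rangeRestrict (Additive.ofMul γ) = 0 := Subtype.ext (hP γ hγ)
    rw [hψ, h0, map_zero, Finsupp.zero_apply]
  refine ⟨∑ j, ((b j : ↥P.range) : ℂ) ⊗ₜ[ℤ] (⟨ψ j, hψpar j⟩ : ↥(parabolicHoms ℤ Γ ℤ)), ?_⟩
  rw [map_sum]
  refine AddMonoidHom.ext fun γ => ?_
  rw [AddMonoidHom.finsetSum_apply]
  have h1 := b.sum_repr (P.rangeRestrict γ)
  have h2 := congrArg (Subtype.val : ↥P.range → ℂ) h1
  rw [AddSubgroup.val_finsetSum] at h2
  have h3 : ((P.rangeRestrict γ : ↥P.range) : ℂ) = P γ := rfl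
  rw [h3] at h2
  rw [← h2]
  refine Finset.sum_congr rfl fun j _ => ?_
  rw [s29_pl_Phi_tmul]
  show ((b j : ↥P.range) : ℂ) * (s29_pl_cast Γ ⟨ψ j, hψpar j⟩ γ) = _
  rw [s29_pl_cast_apply]
  show ((b j : ↥P.range) : ℂ) * ((ψ j γ : ℤ) : ℂ) = _
  rw [hψ, AddSubgroup.coe_zsmul, zsmul_eq_mul, mul_comm]

end general

end Fermat.Agent.S29
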