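import Fermat.Agent.S29.Reduce
import Fermat.Agent.S29.ParLattice
import Fermat.Agent.S29.CohComm
import Fermat.Agent.S29.HeckeEig

/-!
# BRIDGE (H-eig): the mod `p` eigensystem of a normalized eigenform occurs in `k ⊗ Λ` (helper2)

`Λ = parabolicHoms ℤ (Gamma0 N) ℤ` with the transfer Hecke operators `s29_cp_Tpar`.  For a
normalized eigenform `g` on `Γ₀(N)`, a field `K0` of characteristic `p` and `φ0 : ℤ̄ → K0`, there
is a non-zero `w₀ ∈ K0 ⊗ Λ` with `T_l w₀ = φ0 (a_l(g)) w₀` for all primes `l ∤ N`.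

Inputs: (H1-per)/(H1-evl) the period map of `g` is an eigenvector of `T_l^coh` (`HeckeEig.lean`),
(H1-comm) the `T_l` commute on `Λ` (`CohComm.lean`), (H1-int) `ℂ ⊗ Λ ≅ Hom_par(Γ, ℂ)`
(`ParLattice.lean`) and (H2) reduction of eigensystems (`Reduce.lean`).
-/

set_option autoImplicit false
set_option linter.style.haveILetI false

open CongruenceSubgroup ModularCurve ModularCurve.Period ModularForm
open scoped MatrixGroups TensorProduct

namespace Fermat.Agent.S29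

/-- The comparison map `ℂ ⊗ Λ → Hom(Γ₀(N), ℂ)` intertwines the Hecke operators. -/
theorem s29_heig_Phi_T (N l : ℕ) (hl : l.Prime) (hlN : ¬ l ∣ N)
    (w : ℂ ⊗[ℤ] ↥(parabolicHoms ℤ (Gamma0 N) ℤ)) :
    s29_pl_Phi (Gamma0 N) ((s29_cp_Tpar N l hl hlN ℤ ℤ).baseChange ℂ w) =
      s29_ch_T N l hl hlN ℂ (s29_pl_Phi (Gamma0 N) w) := by
  induction w using TensorProduct.induction_on with
  | zero => simp
  | tmul c ψ =>
    rw [LinearMap.baseChange_tmul, s29_pl_Phi_tmul, s29_pl_Phi_tmul,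
      ← s29_cp_Tlin_apply N l hl hlN ℂ ℂ, map_smul, s29_cp_Tlin_apply]
    congr 1
    show (Int.castAddHom ℂ).comp ((s29_cp_Tpar N l hl hlN ℤ ℤ ψ :
        ↥(parabolicHoms ℤ (Gamma0 N) ℤ)) : Additive (Gamma0 N) →+ ℤ) =
      s29_ch_T N l hl hlN ℂ ((Int.castAddHom ℂ).comp (ψ : Additive (Gamma0 N) →+ ℤ))
    rw [s29_cp_Tpar_coe, s29_ch_T_comp]
  | add x y hx hy => rw [map_add, map_add, hx, hy, map_add, map_add]

/-- **(H-eig), complex form.** The period homomorphism of a normalized eigenform gives a non-zero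
common eigenvector of the transfer Hecke operators in `ℂ ⊗ Λ`. -/
theorem s29_heig_complex {N : ℕ} [NeZero N] {g : CuspForm (Gamma0 N) 2}
    (hg : g.IsNormalizedEigenform) :
    ∃ v : ℂ ⊗[ℤ] ↥(parabolicHoms ℤ (Gamma0 N) ℤ), v ≠ 0 ∧
      ∀ (l : ℕ) (hl : l.Prime) (hlN : ¬ l ∣ N),
        (s29_cp_Tpar N l hl hlN ℤ ℤ).baseChange ℂ v = ModularFormClass.qCoeff g l • v := by
  haveI := s29_pl_fg N
  obtain ⟨v, hv⟩ := s29_pl_Phi_surj (Gamma0 N) (periodMap N g) (s29_he_period_mem g)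
  refine ⟨v, ?_, ?_⟩
  · rintro rfl
    exact s29_he_period_ne_zero hg (by rw [← hv, map_zero])
  · intro l hl hlN
    apply s29_pl_Phi_injective (Gamma0 N)
    rw [s29_heig_Phi_T, map_smul, hv]
    exact s29_he_period_eigen hg hl hlN

/-- **(H-eig).** For a normalized eigenform `g` on `Γ₀(N)`, a field `K0` of characteristic `p` and
`φ0 : ℤ̄ → K0`, there is a non-zero `w₀ ∈ K0 ⊗ Λ` with `T_l w₀ = φ0 (a_l(g)) w₀` for all primes
`l ∤ N` (the eigenvalues `a_l(g)` being algebraic integers). -/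
theorem s29_heig {N : ℕ} [NeZero N] {g : CuspForm (Gamma0 N) 2} (hg : g.IsNormalizedEigenform)
    (p : ℕ) [Fact p.Prime] (K0 : Type*) [Field K0] [CharP K0 p]
    (φ0 : integralClosure ℤ ℂ →+* K0) :
    ∃ w₀ : K0 ⊗[ℤ] ↥(parabolicHoms ℤ (Gamma0 N) ℤ), w₀ ≠ 0 ∧
      ∀ (l : ℕ) (hl : l.Prime) (hlN : ¬ l ∣ N), ∃ a : integralClosure ℤ ℂ,
        (a : ℂ) = ModularFormClass.qCoeff g l ∧
        (s29_cp_Tpar N l hl hlN ℤ ℤ).baseChange K0 w₀ = φ0 a • w₀ := by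
  haveI := s29_pl_fg N
  haveI := s29_pl_finite (Gamma0 N)
  haveI := s29_pl_free (Gamma0 N)
  obtain ⟨v, hv0, hv⟩ := s29_heig_complex hg
  let T : {l : ℕ // l.Prime ∧ ¬ l ∣ N} → Module.End ℤ ↥(parabolicHoms ℤ (Gamma0 N) ℤ) :=
    fun i => s29_cp_Tpar N i.1 i.2.1 i.2.2 ℤ ℤ
  have hcomm : ∀ i j, Commute (T i) (T j) :=
    fun i j => s29_cc_comm N i.1 j.1 i.2.1 i.2.2 j.2.1 j.2.2
  obtain ⟨w, hw0, hw⟩ := s29_h2' T hcomm (fun i => ModularFormClass.qCoeff g i.1) v hv0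
    (fun i => hv i.1 i.2.1 i.2.2) p φ0
  exact ⟨w, hw0, fun l hl hlN => hw ⟨l, hl, hlN⟩⟩

/-- The eigenvalues `a_l(g)` (`l ∤ N` prime) of a normalized eigenform are algebraic integers. -/
theorem s29_heig_isIntegral {N : ℕ} [NeZero N] {g : CuspForm (Gamma0 N) 2}
    (hg : g.IsNormalizedEigenform) (l : ℕ) (hl : l.Prime) (hlN : ¬ l ∣ N) :
    IsIntegral ℤ (ModularFormClass.qCoeff g l) := by
  haveI := s29_pl_fg N
  haveI := s29_pl_finite (Gamma0 N)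
  haveI := s29_pl_free (Gamma0 N)
  obtain ⟨v, hv0, hv⟩ := s29_heig_complex hg
  exact s29_h2_isIntegral_tensor (s29_cp_Tpar N l hl hlN ℤ ℤ) _ v hv0 (hv l hl hlN)

end Fermat.Agent.S29
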