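import Fermat.Agent.S37.EsDeg

/-!
# BRIDGE (G3), degree leaf: `deg β = deg α` at every level

For every `N, ℓ ≥ 1` the two degeneracy maps `α, β : F̄(N) → F̄(N ℓ)` have the same degree:
with the Fricke involutions `W_M : j(q^d) ↦ j(q^(M/d))` of `F̄(M)` (the case `N = 1` of the
Atkin–Lehner swap of `S37/EsSwap.lean`) one has `α ∘ W_N = W_(N ℓ) ∘ β`.
-/

set_option autoImplicit false
set_option linter.style.haveILetI false

open ModularCurve AlgebraicCurve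

noncomputable section

namespace Fermat.Agent.S29

open Fermat.Agent.S24 Fermat.Agent.S37

attribute [local instance] algKC

/-- The Fricke involution on `F̄(M)`: `j(q^m) ↦ j(q^(M/m))` for `m ∣ M`. -/
theorem s29_hd_fricke (M : ℕ) [NeZero M] :
    ∃ W : modularFunctionFieldBar M ≃ₐ[Kbar] modularFunctionFieldBar M,
      ∀ (m : ℕ) (_ : m ∣ M) (h1 : s37_ew_s m ∈ modularFunctionFieldBar M),
        ((W ⟨s37_ew_s m, h1⟩ : modularFunctionFieldBar M) : LaurentSeries Kbar) =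
          s37_ew_s (M / m) := by
  have key : ∀ K : ℕ, K = M →
      (∃ W : modularFunctionFieldBar K ≃ₐ[Kbar] modularFunctionFieldBar K,
        ∀ (d m : ℕ) (_ : d ∣ 1) (_ : m ∣ M) (h1 : s37_ew_s (d * m) ∈ modularFunctionFieldBar K),
          ((W ⟨s37_ew_s (d * m), h1⟩ : modularFunctionFieldBar K) : LaurentSeries Kbar) =
            s37_ew_s (d * (M / m))) →
      ∃ W : modularFunctionFieldBar M ≃ₐ[Kbar] modularFunctionFieldBar M,
        ∀ (m : ℕ) (_ : m ∣ M) (h1 : s37_ew_s m ∈ modularFunctionFieldBar M),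
          ((W ⟨s37_ew_s m, h1⟩ : modularFunctionFieldBar M) : LaurentSeries Kbar) =
            s37_ew_s (M / m) := by
    rintro K rfl ⟨W, hW⟩
    refine ⟨W, fun m hm h1 => ?_⟩
    have h2 : s37_ew_s (1 * m) ∈ modularFunctionFieldBar K := by rwa [one_mul]
    have h3 := hW 1 m (dvd_refl 1) hm h2
    have e : (⟨s37_ew_s (1 * m), h2⟩ : modularFunctionFieldBar K) = ⟨s37_ew_s m, h1⟩ :=
      Subtype.ext (congrArg s37_ew_s (one_mul m))
    rw [e, one_mul] at h3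
    exact h3
  exact key (1 * M) (one_mul M) (s37_ew_swap_field 1 M (Nat.coprime_one_right M))

/-- `α ∘ W_N = W_(N ℓ) ∘ β` for the Fricke involutions. -/
theorem s29_hd_fricke_intertwine (N ℓ : ℕ) [NeZero N] [NeZero ℓ] :
    ∃ (W₁ : modularFunctionFieldBar N ≃ₐ[Kbar] modularFunctionFieldBar N)
      (W₂ : modularFunctionFieldBar (N * ℓ) ≃ₐ[Kbar] modularFunctionFieldBar (N * ℓ)),
      ∀ x, heckeAlphaBar Kbar N ℓ (W₁ x) = W₂ (heckeBetaBar Kbar N ℓ x) := by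
  haveI : NeZero (N * ℓ) := ⟨Nat.mul_ne_zero (NeZero.ne N) (NeZero.ne ℓ)⟩
  obtain ⟨W₁, hW₁⟩ := s29_hd_fricke N
  obtain ⟨W₂, hW₂⟩ := s29_hd_fricke (N * ℓ)
  refine ⟨W₁, W₂, ?_⟩
  have h : (heckeAlphaBar Kbar N ℓ).comp
      (W₁ : modularFunctionFieldBar N →ₐ[Kbar] modularFunctionFieldBar N) =
      (W₂ : modularFunctionFieldBar (N * ℓ) →ₐ[Kbar] modularFunctionFieldBar (N * ℓ)).comp
        (heckeBetaBar Kbar N ℓ) := by
    apply s37_ew_algHom_ext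
    intro d _ hd
    haveI : NeZero (d * ℓ) := ⟨Nat.mul_ne_zero (NeZero.ne d) (NeZero.ne ℓ)⟩
    haveI : NeZero (ℓ * d) := ⟨Nat.mul_ne_zero (NeZero.ne ℓ) (NeZero.ne d)⟩
    have hNd : N / d ∣ N := Nat.div_dvd_of_dvd hd
    haveI : NeZero (N / d) := ⟨ne_zero_of_dvd_ne_zero (NeZero.ne N) hNd⟩
    have hsd : s37_ew_s d = coeffEmb Kbar (qExpand ℚ d jq) := s37_ew_s_eq d
    have hmem1 : s37_ew_s d ∈ modularFunctionFieldBar N := by
      rw [hsd]
      exact s37_ew_s_mem N d hd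
    have hmem2 : s37_ew_s (d * ℓ) ∈ modularFunctionFieldBar (N * ℓ) := by
      rw [s37_ew_s_eq]
      exact s37_ew_s_mem (N * ℓ) (d * ℓ) (Nat.mul_dvd_mul hd dvd_rfl)
    have hsℓ : s37_ew_s (d * ℓ) = qExpand Kbar ℓ (coeffEmb Kbar (qExpand ℚ d jq)) := by
      rw [s37_ew_s_eq]
      show _ = qExpand Kbar ℓ (coeffMap (algebraMap ℚ Kbar) (qExpand ℚ d jq))
      rw [← coeffMap_qExpand, qExpand_qExpand, qExpand_congr (mul_comm ℓ d)]
      rfl
    have e1 : (⟨coeffEmb Kbar (qExpand ℚ d jq), s37_ew_s_mem N d hd⟩ :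
        modularFunctionFieldBar N) = ⟨s37_ew_s d, hmem1⟩ := Subtype.ext hsd.symm
    have e2 : heckeBetaBar Kbar N ℓ ⟨s37_ew_s d, hmem1⟩ = ⟨s37_ew_s (d * ℓ), hmem2⟩ := by
      apply Subtype.ext
      rw [coe_heckeBetaBar]
      show qExpand Kbar ℓ (s37_ew_s d) = s37_ew_s (d * ℓ)
      rw [hsd, hsℓ]
    have hdiv : N * ℓ / (d * ℓ) = N / d :=
      Nat.mul_div_mul_right N d (Nat.pos_of_ne_zero (NeZero.ne ℓ))
    rw [AlgHom.comp_apply, AlgHom.comp_apply, e1, e2]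
    apply Subtype.ext
    rw [coe_heckeAlphaBar]
    show ((W₁ ⟨s37_ew_s d, hmem1⟩ : modularFunctionFieldBar N) : LaurentSeries Kbar) =
      ((W₂ ⟨s37_ew_s (d * ℓ), hmem2⟩ : modularFunctionFieldBar (N * ℓ)) : LaurentSeries Kbar)
    rw [hW₁ d hd hmem1, hW₂ (d * ℓ) (Nat.mul_dvd_mul hd dvd_rfl) hmem2, hdiv]
  exact fun x => DFunLike.congr_fun h x

/-- **(DEG)**: `deg β = deg α` for the two degeneracy maps `F̄(N) → F̄(N ℓ)`, every `ℓ ≥ 1`. -/
theorem s29_hd_finrank_beta_eq_alpha (N ℓ : ℕ) [NeZero N] [NeZero ℓ] :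
    finrankAlong (AlgebraicClosure ℚ) (heckeBetaBar (AlgebraicClosure ℚ) N ℓ) =
      finrankAlong (AlgebraicClosure ℚ) (heckeAlphaBar (AlgebraicClosure ℚ) N ℓ) := by
  obtain ⟨W₁, W₂, h⟩ := s29_hd_fricke_intertwine N ℓ
  exact @Algebra.finrank_eq_of_equiv_equiv (modularFunctionFieldBar N)
    (modularFunctionFieldBar (N * ℓ)) _ _
    (algebraAlong (heckeBetaBar (AlgebraicClosure ℚ) N ℓ))
    (modularFunctionFieldBar N) (modularFunctionFieldBar (N * ℓ)) _ _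
    (algebraAlong (heckeAlphaBar (AlgebraicClosure ℚ) N ℓ))
    W₁.toRingEquiv W₂.toRingEquiv (RingHom.ext fun x => h x)

/-- `deg α · ψ(N) = ψ(N ℓ)`. -/
theorem s29_hd_finrank_alpha_mul (N ℓ : ℕ) [NeZero N] [NeZero ℓ] :
    finrankAlong (AlgebraicClosure ℚ) (heckeAlphaBar (AlgebraicClosure ℚ) N ℓ) * dedekindPsi N =
      dedekindPsi (N * ℓ) := by
  have hle : modularFunctionFieldBar N ≤ modularFunctionFieldBar (N * ℓ) :=
    Fermat.Agent.S18.s18_d5_le (Dvd.intro ℓ rfl)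
  rw [heckeAlphaBar_eq_inclusion N ℓ hle, s37_ew_finrankAlong_inclusion hle]
  exact Fermat.Agent.S18.s18_d5_relfinrank (Dvd.intro ℓ rfl)

/-- `deg β · ψ(N) = ψ(N ℓ)`. -/
theorem s29_hd_finrank_beta_mul (N ℓ : ℕ) [NeZero N] [NeZero ℓ] :
    finrankAlong (AlgebraicClosure ℚ) (heckeBetaBar (AlgebraicClosure ℚ) N ℓ) * dedekindPsi N =
      dedekindPsi (N * ℓ) := by
  rw [s29_hd_finrank_beta_eq_alpha]
  exact s29_hd_finrank_alpha_mul N ℓ

/-- The degree of `α` for a prime `ℓ`: `ℓ` if `ℓ ∣ N`, `ℓ + 1` otherwise. -/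
theorem s29_hd_finrank_alpha_prime (N ℓ : ℕ) [NeZero N] [NeZero ℓ] (hℓ : ℓ.Prime) :
    finrankAlong (AlgebraicClosure ℚ) (heckeAlphaBar (AlgebraicClosure ℚ) N ℓ) =
      if ℓ ∣ N then ℓ else ℓ + 1 := by
  have h1 := s29_hd_finrank_alpha_mul N ℓ
  have hpos : 0 < dedekindPsi N :=
    Nat.pos_of_ne_zero (Fermat.Agent.S18.s18_d5_dedekindPsi_ne_zero N)
  split_ifs with h
  · rw [idx_dedekindPsi_mul_of_dvd (NeZero.ne N) hℓ h, mul_comm] at h1
    exact Nat.eq_of_mul_eq_mul_left hpos h1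
  · rw [idx_dedekindPsi_mul_of_not_dvd (NeZero.ne N) hℓ h, mul_comm] at h1
    exact Nat.eq_of_mul_eq_mul_left hpos h1

/-- The degree of `β` for a prime `ℓ`: `ℓ` if `ℓ ∣ N`, `ℓ + 1` otherwise. -/
theorem s29_hd_finrank_beta_prime (N ℓ : ℕ) [NeZero N] [NeZero ℓ] (hℓ : ℓ.Prime) :
    finrankAlong (AlgebraicClosure ℚ) (heckeBetaBar (AlgebraicClosure ℚ) N ℓ) =
      if ℓ ∣ N then ℓ else ℓ + 1 := by
  rw [s29_hd_finrank_beta_eq_alpha]
  exact s29_hd_finrank_alpha_prime N ℓ hℓ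

/-- The degree of `β_ℓ` does not change when the level is multiplied by a prime `ℓ' ≠ ℓ`. -/
theorem s29_hd_finrank_beta_level (N ℓ ℓ' : ℕ) [NeZero N] [NeZero ℓ] [NeZero ℓ'] (hℓ : ℓ.Prime)
    (hℓ' : ℓ'.Prime) (hne : ℓ ≠ ℓ') :
    finrankAlong (AlgebraicClosure ℚ) (heckeBetaBar (AlgebraicClosure ℚ) (N * ℓ') ℓ) =
      finrankAlong (AlgebraicClosure ℚ) (heckeBetaBar (AlgebraicClosure ℚ) N ℓ) := by
  rw [s29_hd_finrank_beta_prime (N * ℓ') ℓ hℓ, s29_hd_finrank_beta_prime N ℓ hℓ]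
  have hiff : ℓ ∣ N * ℓ' ↔ ℓ ∣ N := by
    constructor
    · intro h
      rcases (Nat.Prime.dvd_mul hℓ).mp h with h | h
      · exact h
      · exact absurd ((Nat.prime_dvd_prime_iff_eq hℓ hℓ').mp h) hne
    · intro h
      exact h.mul_right ℓ'
  simp only [hiff]

/-- The degree of `α_ℓ` does not change when the level is multiplied by a prime `ℓ' ≠ ℓ`. -/
theorem s29_hd_finrank_alpha_level (N ℓ ℓ' : ℕ) [NeZero N] [NeZero ℓ] [NeZero ℓ'] (hℓ : ℓ.Prime)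
    (hℓ' : ℓ'.Prime) (hne : ℓ ≠ ℓ') :
    finrankAlong (AlgebraicClosure ℚ) (heckeAlphaBar (AlgebraicClosure ℚ) (N * ℓ') ℓ) =
      finrankAlong (AlgebraicClosure ℚ) (heckeAlphaBar (AlgebraicClosure ℚ) N ℓ) := by
  rw [← s29_hd_finrank_beta_eq_alpha, ← s29_hd_finrank_beta_eq_alpha]
  exact s29_hd_finrank_beta_level N ℓ ℓ' hℓ hℓ' hne

end Fermat.Agent.S29
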