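import Fermat.Agent.S37.TrMain
import Fermat.Prelude.Thm_ModularCurve_coeffMap_qExpand
import Fermat.Prelude.Def_ModularCurve_HeckeModule

/-!
# BRIDGE block (G3), part (GH): the Hecke operators on `J₀(N)` commute with the Galois action
(helper18)
-/

set_option synthInstance.maxHeartbeats 400000
set_option autoImplicit false
set_option linter.unusedSectionVars false
set_option linter.style.haveILetI false

open scoped Pointwise

namespace Fermat.Agent.S29

open ModularCurve AlgebraicCurve Fermat.Agent.S37

noncomputable section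

local notation "Qb" => AlgebraicClosure ℚ
local notation "Γ" => (AlgebraicClosure ℚ ≃ₐ[ℚ] AlgebraicClosure ℚ)

section Generic

variable {K F F' : Type*} [Field K] [Field F] [Field F'] [Algebra K F] [Algebra K F']
  [IsAlgClosed K] [CharZero K]

/-- Push-forward of divisors commutes with intertwining semilinear automorphisms. -/
theorem s29_hc_pushforwardAlong_smul (hF : s37_h_IsFF K F) (hF' : s37_h_IsFF K F')
    (φ : F →ₐ[K] F') (hφ : φ.toRingHom.IsIntegral) (g : SemilinearAut K F)
    (g' : SemilinearAut K F') (h : SemilinearAut.IntertwinesAlong φ.toRingHom g g')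
    (D : Divisor K F') :
    Divisor.pushforwardAlong φ hφ (g' • D) = g • Divisor.pushforwardAlong φ hφ D := by
  induction D using Finsupp.induction with
  | zero => rw [smul_zero, map_zero, smul_zero]
  | single_add w n D _ _ ih =>
    rw [smul_add, map_add, map_add, smul_add, ih, SemilinearAut.smul_single,
      hF.pushforwardAlong_single hF' φ hφ, hF.pushforwardAlong_single hF' φ hφ,
      SemilinearAut.smul_single, s37_tr_restrictAlong_smul φ hφ g g' h w]

/-- A correspondence on `Pic⁰` commutes with a pair of semilinear automorphisms intertwined by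
both of its legs. -/
theorem s29_hc_correspondence_smul [HasPrincipalDivisors K F'] (hF : s37_h_IsFF K F)
    (hF' : s37_h_IsFF K F') (φ ψ : F →ₐ[K] F') (hφ : φ.toRingHom.IsIntegral)
    (hψ : ψ.toRingHom.IsIntegral) (hFI : FundamentalIdentityAlong K φ hφ)
    (hfin : FiniteAlong K ψ) (hN : NormFormulaAlong K ψ hfin) (g : SemilinearAut K F)
    (g' : SemilinearAut K F') (h₁ : SemilinearAut.IntertwinesAlong φ.toRingHom g g')
    (h₂ : SemilinearAut.IntertwinesAlong ψ.toRingHom g g') (x : Pic0 K F) :
    Pic0.correspondence φ ψ hφ hψ hFI hfin hN (g • x)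
      = g • Pic0.correspondence φ ψ hφ hψ hFI hfin hN x := by
  obtain ⟨D, rfl⟩ := Pic0.mk_surjective x
  rw [SemilinearAut.pic0_smul_mk, Pic0.correspondence_mk, Pic0.correspondence_mk,
    SemilinearAut.pic0_smul_mk]
  refine congrArg Pic0.mk (Subtype.ext ?_)
  rw [Pic0.coe_degZeroCorrespondence, SemilinearAut.coe_degZeroSMulHom,
    SemilinearAut.coe_degZeroSMulHom, Pic0.coe_degZeroCorrespondence,
    Divisor.correspondence_apply, Divisor.correspondence_apply,
    s37_tr_pullbackAlong_smul φ hφ g g' h₁, s29_hc_pushforwardAlong_smul hF hF' ψ hψ g g' h₂]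

end Generic

/-- The arithmetic Galois actions on `F̄(N)` and `F̄(N * ℓ)` are intertwined by `q ↦ q^ℓ`. -/
theorem s29_hc_intertwines_beta (N ℓ : ℕ) [NeZero N] [NeZero ℓ] (σ : Γ) :
    SemilinearAut.IntertwinesAlong (heckeBetaBar Qb N ℓ).toRingHom
      (arithmeticGalois (modularFunctionFieldFull N) σ)
      (arithmeticGalois (modularFunctionFieldFull (N * ℓ)) σ) := by
  intro x
  apply Subtype.ext
  change ((arithmeticGalois (modularFunctionFieldFull (N * ℓ)) σ • (heckeBetaBar Qb N ℓ x)
      : modularFunctionFieldBar (N * ℓ)) : LaurentSeries Qb)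
    = ((heckeBetaBar Qb N ℓ (arithmeticGalois (modularFunctionFieldFull N) σ • x)
      : modularFunctionFieldBar (N * ℓ)) : LaurentSeries Qb)
  rw [coe_arithmeticGalois_smul, coe_heckeBetaBar, coe_heckeBetaBar, coe_arithmeticGalois_smul,
    ModularCurve.coeffMap_qExpand]

/-- **(GH)** The Hecke operator `T_ℓ` on `J₀(N)` commutes with the Galois action. -/
theorem s29_hc_galois_hecke (N ℓ : ℕ) [NeZero N] [NeZero ℓ] (σ : Γ) (x : JZero N) :
    heckeOperatorAlong Qb N ℓ (σ • x) = σ • heckeOperatorAlong Qb N ℓ x := by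
  have hF := s37_h_isFF_bar N
  have hF' := s37_h_isFF_bar (N * ℓ)
  obtain ⟨hα, hβ, hP, hfin, hFI, hNF⟩ := s37_h_heckeInputsAlong N ℓ
  haveI := hP
  rw [heckeOperatorAlong_eq hα hβ hFI hfin hNF, galois_smul_pic0_def, galois_smul_pic0_def]
  exact s29_hc_correspondence_smul hF hF' (heckeBetaBar Qb N ℓ) (heckeAlphaBar Qb N ℓ) hβ hα
    hFI hfin hNF _ _ (s29_hc_intertwines_beta N ℓ σ) (s37_tr_intertwines N ℓ σ) x

/-- (GH) for the operators `heckeOperatorBar`. -/
theorem s29_hc_galois_heckeBar (N : ℕ) [NeZero N] (ℓ : Nat.Primes) (σ : Γ) (x : JZero N) :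
    heckeOperatorBar N ℓ (σ • x) = σ • heckeOperatorBar N ℓ x := by
  haveI : NeZero (ℓ : ℕ) := ⟨ℓ.2.ne_zero⟩
  rw [heckeOperatorBar_apply, heckeOperatorBar_apply]
  exact s29_hc_galois_hecke N ℓ σ x

/-- **(GH')** The Galois action on `J₀(N)` commutes with the Hecke module structure. -/
theorem s29_hc_smulCommClass (N : ℕ) [NeZero N] :
    letI := heckeModuleBar N
    SMulCommClass Γ HeckeAlg (JZero N) := by
  letI := heckeModuleBar N
  refine ⟨fun σ t x => ?_⟩
  by_cases h : HeckeOperatorsCommuteBar N
  · rw [heckeModuleBar_smul_def h, heckeModuleBar_smul_def h]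
    induction t using MvPolynomial.induction_on generalizing x with
    | C a =>
      rw [heckeEvalBar_C, Module.End.intCast_apply, Module.End.intCast_apply]
      exact (SemilinearAut.smul_zsmul _ a x)
    | add p q hp hq =>
      rw [map_add, LinearMap.add_apply, LinearMap.add_apply, smul_add, hp, hq]
    | mul_X p ℓ hp =>
      rw [map_mul, Module.End.mul_apply, Module.End.mul_apply, hp]
      congr 1
      have h1 : heckeEvalBar h (MvPolynomial.X ℓ) = heckeOperatorBar N ℓ :=
        heckeEvalBar_heckeGen h ℓ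
      rw [h1]
      exact (s29_hc_galois_heckeBar N ℓ σ x).symm
  · rw [heckeModuleBar_smul_of_not h, heckeModuleBar_smul_of_not h]
    exact (SemilinearAut.smul_zsmul _ _ x)

end

end Fermat.Agent.S29
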