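import Fermat.Agent.S37.TrComp

/-!
# BRIDGE block (G3), part (HC), input 1: `F̄(K₀) = ℚ̄(j(q), j(q^K₀))` (helper18)

Every field of Laurent series inside `F̄(K₀)` containing `j(q)` and `j(q^K₀)` is all of `F̄(K₀)`
(Galois theory in the Galois closure `ModL K₀` of S24: an element of `SL₂(ℤ)` fixing `J(K₀ τ)`
lies in `Γ₀(K₀)`).
-/

set_option synthInstance.maxHeartbeats 200000
set_option autoImplicit false
set_option linter.unusedSectionVars false
set_option linter.style.haveILetI false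

open ModularCurve

noncomputable section

namespace Fermat.Agent.S29

open Fermat.Agent.S24 Fermat.Agent.S18 Fermat.Agent.S37 CongruenceSubgroup
open scoped MatrixGroups IntermediateField

attribute [local instance] Fermat.Agent.S24.algKC

/-- `F̄(K₀)` is generated over `ℚ̄` by `j(q)` and `j(q^K₀)`. -/
theorem s29_hc_generation (K₀ : ℕ) [NeZero K₀]
    (C : IntermediateField Kbar (LaurentSeries Kbar))
    (hj : coeffEmb Kbar jq ∈ C) (hJ : coeffEmb Kbar (qExpand ℚ K₀ jq) ∈ C)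
    (hC : C ≤ modularFunctionFieldBar K₀) : modularFunctionFieldBar K₀ ≤ C := by
  classical
  let eC : ↥C →ₐ[Kbar] ModL K₀ := (embF K₀).comp (IntermediateField.inclusion hC)
  letI : Algebra ↥C (ModL K₀) := eC.toRingHom.toAlgebra
  have halg : ∀ c : ↥C, algebraMap ↥C (ModL K₀) c = embF K₀ ⟨(c : LaurentSeries Kbar), hC c.2⟩ :=
    fun c => rfl
  have hG : ∀ x : ModL K₀, (∀ g : GG K₀, g • x = x) → x ∈ Set.range (algebraMap ↥C (ModL K₀)) := by
    intro x hx
    have h1 : x ∈ Kbar⟮jL K₀⟯ := modL_fixed K₀ x (fun γ => hx (rho K₀ γ))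
    have hle : Kbar⟮jL K₀⟯ ≤ eC.fieldRange := by
      rw [IntermediateField.adjoin_simple_le_iff]
      refine ⟨⟨coeffEmb Kbar jq, hj⟩, ?_⟩
      rw [← embF_jF]
      rfl
    obtain ⟨c, hc⟩ := hle h1
    exact ⟨c, hc⟩
  let H : Subgroup (GG K₀) := fixingSubgroup (GG K₀) (Set.range (algebraMap ↥C (ModL K₀)))
  have hH : ∀ g : GG K₀, g ∈ H ↔
      ∀ f : ↥C, g • algebraMap ↥C (ModL K₀) f = algebraMap ↥C (ModL K₀) f := by
    intro g
    show g ∈ fixingSubgroup (GG K₀) (Set.range (algebraMap ↥C (ModL K₀))) ↔ _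
    rw [mem_fixingSubgroup_iff]
    constructor
    · intro h f
      exact h _ ⟨f, rfl⟩
    · rintro h _ ⟨f, rfl⟩
      exact h f
  intro y hy
  have hx : ∀ h ∈ H, h • embF K₀ ⟨y, hy⟩ = embF K₀ ⟨y, hy⟩ := by
    intro h hh
    obtain ⟨γ, rfl⟩ := rho_surjective K₀ h
    have hfix := (hH _).mp hh
    have hγ : γ ∈ Gamma0 K₀ := by
      apply s37_tr_mem_Gamma0_of_smul K₀ K₀ dvd_rfl γ
      have h1 := hfix ⟨_, hJ⟩
      rw [halg, s37_tr_embF_Jelt K₀ K₀ dvd_rfl] at h1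
      exact h1
    exact (embF_stab K₀ γ).mpr hγ ⟨y, hy⟩
  obtain ⟨c, hc⟩ := cnt_fixed_mem hG H hH (embF K₀ ⟨y, hy⟩) hx
  rw [halg] at hc
  have h2 : (⟨(c : LaurentSeries Kbar), hC c.2⟩ : modularFunctionFieldBar K₀) = ⟨y, hy⟩ :=
    (embF K₀).toRingHom.injective hc
  have h3 : (c : LaurentSeries Kbar) = y := congrArg Subtype.val h2
  rw [← h3]
  exact c.2

end Fermat.Agent.S29
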