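import Fermat.Agent.S37.TrMain
import Fermat.Agent.S29.HcGen
import Fermat.Agent.S29.HcDeg
import Fermat.Agent.S29.HcGalois

/-!
# BRIDGE block (G3), part (HC): the Hecke operators on `J₀(N)` commute (helper18)

For distinct primes `ℓ ≠ ℓ'` the square of function fields

```
F̄(N)   --α_ℓ'-->  F̄(N ℓ')
 |β_ℓ               |β_ℓ
 v                  v
F̄(N ℓ) --incl--> F̄(N ℓ' ℓ)
```

is a "tensor" square (`F̄(N ℓ' ℓ) = ℚ̄(j(q), j(q^(N ℓ' ℓ)))`, degrees from `HcDeg`), so base change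
gives `β_ℓ^* α_ℓ'_* = incl_* β_ℓ^*` and
`T_ℓ T_ℓ' = (F̄(N) ⊆ F̄(N ℓ' ℓ))_* (q ↦ q^(ℓ ℓ'))^*`, which is symmetric in `ℓ, ℓ'`.
-/

set_option synthInstance.maxHeartbeats 400000
set_option autoImplicit false
set_option linter.unusedSectionVars false
set_option linter.style.haveILetI false

namespace Fermat.Agent.S29

open ModularCurve AlgebraicCurve Polynomial Fermat.Agent.S37 Fermat.Agent.S24

noncomputable section

local notation "Qb" => AlgebraicClosure ℚ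

section Generic

variable {K F F' F'' : Type*} [Field K] [Field F] [Field F'] [Field F''] [Algebra K F]
  [Algebra K F'] [Algebra K F''] [HasPrincipalDivisors K F'] [HasPrincipalDivisors K F'']

/-- Two correspondences commuting on divisors commute on `Pic⁰`. -/
theorem s29_hc_pic0_comm (φ ψ : F →ₐ[K] F') (hφ : φ.toRingHom.IsIntegral)
    (hψ : ψ.toRingHom.IsIntegral) (hFI : FundamentalIdentityAlong K φ hφ)
    (hfin : FiniteAlong K ψ) (hN : NormFormulaAlong K ψ hfin)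
    (φ' ψ' : F →ₐ[K] F'') (hφ' : φ'.toRingHom.IsIntegral) (hψ' : ψ'.toRingHom.IsIntegral)
    (hFI' : FundamentalIdentityAlong K φ' hφ') (hfin' : FiniteAlong K ψ')
    (hN' : NormFormulaAlong K ψ' hfin')
    (h : ∀ D : Divisor K F,
      Divisor.correspondence φ ψ hφ hψ (Divisor.correspondence φ' ψ' hφ' hψ' D)
        = Divisor.correspondence φ' ψ' hφ' hψ' (Divisor.correspondence φ ψ hφ hψ D))
    (x : Pic0 K F) :
    Pic0.correspondence φ ψ hφ hψ hFI hfin hN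
        (Pic0.correspondence φ' ψ' hφ' hψ' hFI' hfin' hN' x)
      = Pic0.correspondence φ' ψ' hφ' hψ' hFI' hfin' hN'
          (Pic0.correspondence φ ψ hφ hψ hFI hfin hN x) := by
  obtain ⟨D, rfl⟩ := Pic0.mk_surjective x
  rw [Pic0.correspondence_mk, Pic0.correspondence_mk, Pic0.correspondence_mk,
    Pic0.correspondence_mk]
  refine congrArg Pic0.mk (Subtype.ext ?_)
  rw [Pic0.coe_degZeroCorrespondence, Pic0.coe_degZeroCorrespondence,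
    Pic0.coe_degZeroCorrespondence, Pic0.coe_degZeroCorrespondence]
  exact h D

omit [HasPrincipalDivisors K F'] [HasPrincipalDivisors K F''] in
theorem s29_hc_pushforwardAlong_congr {φ φ' : F →ₐ[K] F'} (h : φ = φ')
    (hφ : φ.toRingHom.IsIntegral) (hφ' : φ'.toRingHom.IsIntegral) (D : Divisor K F') :
    Divisor.pushforwardAlong φ hφ D = Divisor.pushforwardAlong φ' hφ' D := by
  subst h
  rfl

end Generic

/-- `j(q^(d ℓ)) = (j(q^d))(q^ℓ)` over `ℚ̄`. -/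
theorem s29_hc_qExpand_coeffEmb (d ℓ : ℕ) [NeZero d] [NeZero ℓ] :
    qExpand Qb ℓ (coeffEmb Qb (qExpand ℚ d jq)) = coeffEmb Qb (qExpand ℚ (d * ℓ) jq) := by
  show qExpand Qb ℓ (coeffMap (algebraMap ℚ Qb) (qExpand ℚ d jq)) = _
  rw [← coeffMap_qExpand, qExpand_qExpand, qExpand_congr (mul_comm ℓ d)]
  rfl

/-- The characteristic polynomial identity in the square `N, N ℓ, N ℓ', N ℓ' ℓ` with vertical
maps `q ↦ q^ℓ`. -/
theorem s29_hc_chi (N ℓ ℓ' : ℕ) [NeZero N] [NeZero ℓ] [NeZero ℓ'] (hℓ : ℓ.Prime)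
    (hℓ' : ℓ'.Prime) (hne : ℓ ≠ ℓ')
    (hfin₂ : FiniteAlong Qb (heckeBetaBar Qb N ℓ))
    (hfin₁ : FiniteAlong Qb (heckeBetaBar Qb (N * ℓ') ℓ))
    (g : modularFunctionFieldBar (N * ℓ)) :
    s37_tr_chi (heckeBetaBar Qb (N * ℓ') ℓ) hfin₁ (s37_tr_incl (s37_tr_dvd N ℓ' ℓ) g)
      = (s37_tr_chi (heckeBetaBar Qb N ℓ) hfin₂ g).map (heckeAlphaBar Qb N ℓ').toRingHom := by
  have hr := s29_hd_finrank_beta_level N ℓ ℓ' hℓ hℓ' hne
  unfold finrankAlong at hr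
  unfold s37_tr_chi
  letI := algebraAlong (heckeBetaBar Qb N ℓ)
  letI := algebraAlong (heckeBetaBar Qb (N * ℓ') ℓ)
  haveI : Module.Finite ↥(modularFunctionFieldBar N) ↥(modularFunctionFieldBar (N * ℓ)) := hfin₂
  haveI : Module.Finite ↥(modularFunctionFieldBar (N * ℓ'))
      ↥(modularFunctionFieldBar (N * ℓ' * ℓ)) := hfin₁
  refine s37_tr_charpoly_baseChange (F := ↥(modularFunctionFieldBar N))
    (F₁ := ↥(modularFunctionFieldBar (N * ℓ'))) (F₂ := ↥(modularFunctionFieldBar (N * ℓ)))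
    (E := ↥(modularFunctionFieldBar (N * ℓ' * ℓ)))
    (heckeAlphaBar Qb N ℓ').toRingHom (s37_tr_incl (s37_tr_dvd N ℓ' ℓ)).toRingHom
    (fun c => DFunLike.congr_fun (s37_tr_comm_beta N ℓ' ℓ) c) hr ?_ g
  intro T hT1 hT2
  have halg : ∀ x : Qb, algebraMap Qb (LaurentSeries Qb) x ∈
      T.map ((modularFunctionFieldBar (N * ℓ' * ℓ)).val :
        ↥(modularFunctionFieldBar (N * ℓ' * ℓ)) →+* LaurentSeries Qb) := by
    intro x
    rw [Subfield.mem_map]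
    exact ⟨s37_tr_incl (s37_tr_dvd N ℓ' ℓ) (algebraMap Qb _ x), hT2 _, rfl⟩
  have hj1 : coeffEmb Qb jq ∈ modularFunctionFieldBar (N * ℓ) := (jF (N * ℓ)).2
  have hJ1 : coeffEmb Qb (qExpand ℚ (N * ℓ') jq) ∈ modularFunctionFieldBar (N * ℓ') :=
    s37_ew_s_mem (N * ℓ') (N * ℓ') dvd_rfl
  have hle := s29_hc_generation (N * ℓ' * ℓ)
    ((T.map ((modularFunctionFieldBar (N * ℓ' * ℓ)).val :
        ↥(modularFunctionFieldBar (N * ℓ' * ℓ)) →+* LaurentSeries Qb)).toIntermediateField halg)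
    (by
      show coeffEmb Qb jq ∈ T.map ((modularFunctionFieldBar (N * ℓ' * ℓ)).val :
        ↥(modularFunctionFieldBar (N * ℓ' * ℓ)) →+* LaurentSeries Qb)
      rw [Subfield.mem_map]
      exact ⟨s37_tr_incl (s37_tr_dvd N ℓ' ℓ) ⟨_, hj1⟩, hT2 _, rfl⟩)
    (by
      show coeffEmb Qb (qExpand ℚ (N * ℓ' * ℓ) jq) ∈
        T.map ((modularFunctionFieldBar (N * ℓ' * ℓ)).val :
          ↥(modularFunctionFieldBar (N * ℓ' * ℓ)) →+* LaurentSeries Qb)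
      rw [Subfield.mem_map]
      refine ⟨heckeBetaBar Qb (N * ℓ') ℓ ⟨_, hJ1⟩, hT1 _, ?_⟩
      show ((heckeBetaBar Qb (N * ℓ') ℓ ⟨_, hJ1⟩ : modularFunctionFieldBar (N * ℓ' * ℓ)) :
        LaurentSeries Qb) = _
      rw [coe_heckeBetaBar]
      exact s29_hc_qExpand_coeffEmb (N * ℓ') ℓ)
    (fun x hx => by
      have hx' : x ∈ T.map ((modularFunctionFieldBar (N * ℓ' * ℓ)).val :
          ↥(modularFunctionFieldBar (N * ℓ' * ℓ)) →+* LaurentSeries Qb) := hx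
      rw [Subfield.mem_map] at hx'
      obtain ⟨t, -, rfl⟩ := hx'
      exact t.2)
  rw [eq_top_iff]
  intro x _
  have hx : (x : LaurentSeries Qb) ∈ T.map ((modularFunctionFieldBar (N * ℓ' * ℓ)).val :
      ↥(modularFunctionFieldBar (N * ℓ' * ℓ)) →+* LaurentSeries Qb) := hle x.2
  rw [Subfield.mem_map] at hx
  obtain ⟨t, ht, htx⟩ := hx
  have : t = x := Subtype.ext htx
  rw [← this]
  exact ht

/-- Base change in the square `N, N ℓ, N ℓ', N ℓ' ℓ`: `β_ℓ^* ∘ α_ℓ'_* = incl_* ∘ β_ℓ^*`. -/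
theorem s29_hc_square (N ℓ ℓ' : ℕ) [NeZero N] [NeZero ℓ] [NeZero ℓ'] (hℓ : ℓ.Prime)
    (hℓ' : ℓ'.Prime) (hne : ℓ ≠ ℓ')
    [HasPrincipalDivisors Qb (modularFunctionFieldBar (N * ℓ))]
    [HasPrincipalDivisors Qb (modularFunctionFieldBar (N * ℓ' * ℓ))]
    (hα' : (heckeAlphaBar Qb N ℓ').toRingHom.IsIntegral)
    (hβ : (heckeBetaBar Qb N ℓ).toRingHom.IsIntegral)
    (hv₁ : (heckeBetaBar Qb (N * ℓ') ℓ).toRingHom.IsIntegral)
    (hv₂ : (s37_tr_incl (s37_tr_dvd N ℓ' ℓ)).toRingHom.IsIntegral)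
    (D : Divisor Qb (modularFunctionFieldBar (N * ℓ'))) :
    Divisor.pullbackAlong (heckeBetaBar Qb N ℓ) hβ
        (Divisor.pushforwardAlong (heckeAlphaBar Qb N ℓ') hα' D)
      = Divisor.pushforwardAlong (s37_tr_incl (s37_tr_dvd N ℓ' ℓ)) hv₂
          (Divisor.pullbackAlong (heckeBetaBar Qb (N * ℓ') ℓ) hv₁ D) := by
  have hF := s37_h_isFF_bar N
  have hF₁ := s37_h_isFF_bar (N * ℓ')
  have hF₂ := s37_h_isFF_bar (N * ℓ)
  have hE := s37_h_isFF_bar (N * ℓ' * ℓ)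
  have hfin₂ := hF.finiteAlong hF₂ (heckeBetaBar Qb N ℓ)
  have hfin₁ := hF₁.finiteAlong hE (heckeBetaBar Qb (N * ℓ') ℓ)
  exact s37_tr_baseChange (heckeAlphaBar Qb N ℓ') (heckeBetaBar Qb N ℓ)
    (heckeBetaBar Qb (N * ℓ') ℓ) (s37_tr_incl (s37_tr_dvd N ℓ' ℓ))
    (s37_tr_comm_beta N ℓ' ℓ).symm hα' hβ hv₁ hv₂ hF hF₁ hF₂ hE hfin₂ hfin₁
    (fun g => s29_hc_chi N ℓ ℓ' hℓ hℓ' hne hfin₂ hfin₁ g) D

/-- `T_ℓ ∘ T_ℓ'` on divisors is the correspondence through level `K₀ = N ℓ' ℓ` given by the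
inclusion `A` and `B : q ↦ q^(ℓ ℓ')`. -/
theorem s29_hc_comp_div (N ℓ ℓ' K₀ : ℕ) [NeZero N] [NeZero ℓ] [NeZero ℓ'] [NeZero K₀]
    (hK : K₀ = N * ℓ' * ℓ) (hℓ : ℓ.Prime) (hℓ' : ℓ'.Prime) (hne : ℓ ≠ ℓ')
    [HasPrincipalDivisors Qb (modularFunctionFieldBar (N * ℓ))]
    [HasPrincipalDivisors Qb (modularFunctionFieldBar (N * ℓ'))]
    [HasPrincipalDivisors Qb (modularFunctionFieldBar K₀)]
    (hα : (heckeAlphaBar Qb N ℓ).toRingHom.IsIntegral)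
    (hβ : (heckeBetaBar Qb N ℓ).toRingHom.IsIntegral)
    (hα' : (heckeAlphaBar Qb N ℓ').toRingHom.IsIntegral)
    (hβ' : (heckeBetaBar Qb N ℓ').toRingHom.IsIntegral)
    (A B : modularFunctionFieldBar N →ₐ[Qb] modularFunctionFieldBar K₀)
    (hA : ∀ x, (A x : LaurentSeries Qb) = x)
    (hB : ∀ x, (B x : LaurentSeries Qb) = qExpand Qb ℓ (qExpand Qb ℓ' (x : LaurentSeries Qb)))
    (hAi : A.toRingHom.IsIntegral) (hBi : B.toRingHom.IsIntegral)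
    (D : Divisor Qb (modularFunctionFieldBar N)) :
    Divisor.correspondence (heckeBetaBar Qb N ℓ) (heckeAlphaBar Qb N ℓ) hβ hα
        (Divisor.correspondence (heckeBetaBar Qb N ℓ') (heckeAlphaBar Qb N ℓ') hβ' hα' D)
      = Divisor.pushforwardAlong A hAi (Divisor.pullbackAlong B hBi D) := by
  subst hK
  have hF := s37_h_isFF_bar N
  have hF₁ := s37_h_isFF_bar (N * ℓ')
  have hF₂ := s37_h_isFF_bar (N * ℓ)
  have hE := s37_h_isFF_bar (N * ℓ' * ℓ)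
  have hv₁ := hF₁.isIntegral hE (heckeBetaBar Qb (N * ℓ') ℓ)
  have hv₂ := hF₂.isIntegral hE (s37_tr_incl (s37_tr_dvd N ℓ' ℓ))
  have hA' : A = (s37_tr_incl (s37_tr_dvd N ℓ' ℓ)).comp (heckeAlphaBar Qb N ℓ) := by
    apply AlgHom.ext
    intro x
    apply Subtype.ext
    rw [hA, AlgHom.comp_apply, s37_tr_coe_incl, coe_heckeAlphaBar]
  have hB' : B = (heckeBetaBar Qb (N * ℓ') ℓ).comp (heckeBetaBar Qb N ℓ') := by
    apply AlgHom.ext
    intro x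
    apply Subtype.ext
    rw [hB, AlgHom.comp_apply, coe_heckeBetaBar, coe_heckeBetaBar]
  subst hA' hB'
  rw [Divisor.correspondence_apply, Divisor.correspondence_apply,
    s29_hc_square N ℓ ℓ' hℓ hℓ' hne hα' hβ hv₁ hv₂,
    s37_h_pushforwardAlong_comp hF hF₂ hE (heckeAlphaBar Qb N ℓ)
      (s37_tr_incl (s37_tr_dvd N ℓ' ℓ)) hα hv₂ hAi,
    s37_h_pullbackAlong_comp (heckeBetaBar Qb N ℓ') (heckeBetaBar Qb (N * ℓ') ℓ) hβ' hv₁ hBi]

theorem s29_hc_dvd3 (N ℓ ℓ' : ℕ) : N ∣ N * ℓ' * ℓ := ⟨ℓ' * ℓ, Nat.mul_assoc N ℓ' ℓ⟩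

/-- `T_ℓ` and `T_ℓ'` commute on divisors for distinct primes `ℓ ≠ ℓ'`. -/
theorem s29_hc_comm_div (N ℓ ℓ' : ℕ) [NeZero N] [NeZero ℓ] [NeZero ℓ'] (hℓ : ℓ.Prime)
    (hℓ' : ℓ'.Prime) (hne : ℓ ≠ ℓ')
    [HasPrincipalDivisors Qb (modularFunctionFieldBar (N * ℓ))]
    [HasPrincipalDivisors Qb (modularFunctionFieldBar (N * ℓ'))]
    (hα : (heckeAlphaBar Qb N ℓ).toRingHom.IsIntegral)
    (hβ : (heckeBetaBar Qb N ℓ).toRingHom.IsIntegral)
    (hα' : (heckeAlphaBar Qb N ℓ').toRingHom.IsIntegral)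
    (hβ' : (heckeBetaBar Qb N ℓ').toRingHom.IsIntegral)
    (D : Divisor Qb (modularFunctionFieldBar N)) :
    Divisor.correspondence (heckeBetaBar Qb N ℓ) (heckeAlphaBar Qb N ℓ) hβ hα
        (Divisor.correspondence (heckeBetaBar Qb N ℓ') (heckeAlphaBar Qb N ℓ') hβ' hα' D)
      = Divisor.correspondence (heckeBetaBar Qb N ℓ') (heckeAlphaBar Qb N ℓ') hβ' hα'
          (Divisor.correspondence (heckeBetaBar Qb N ℓ) (heckeAlphaBar Qb N ℓ) hβ hα D) := by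
  have hF := s37_h_isFF_bar N
  have hE := s37_h_isFF_bar (N * ℓ' * ℓ)
  haveI := hE.hasPrincipalDivisors
  have hAi := hF.isIntegral hE (s37_tr_incl (s29_hc_dvd3 N ℓ ℓ'))
  have hBi := hF.isIntegral hE ((heckeBetaBar Qb (N * ℓ') ℓ).comp (heckeBetaBar Qb N ℓ'))
  rw [s29_hc_comp_div N ℓ ℓ' (N * ℓ' * ℓ) rfl hℓ hℓ' hne hα hβ hα' hβ'
      (s37_tr_incl (s29_hc_dvd3 N ℓ ℓ'))
      ((heckeBetaBar Qb (N * ℓ') ℓ).comp (heckeBetaBar Qb N ℓ'))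
      (fun x => s37_tr_coe_incl _ x)
      (fun x => by rw [AlgHom.comp_apply, coe_heckeBetaBar, coe_heckeBetaBar]) hAi hBi D,
    s29_hc_comp_div N ℓ' ℓ (N * ℓ' * ℓ) (Nat.mul_right_comm N ℓ' ℓ) hℓ' hℓ hne.symm hα' hβ' hα hβ
      (s37_tr_incl (s29_hc_dvd3 N ℓ ℓ'))
      ((heckeBetaBar Qb (N * ℓ') ℓ).comp (heckeBetaBar Qb N ℓ'))
      (fun x => s37_tr_coe_incl _ x)
      (fun x => by
        rw [AlgHom.comp_apply, coe_heckeBetaBar, coe_heckeBetaBar, qExpand_qExpand,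
          qExpand_qExpand, qExpand_congr (mul_comm ℓ ℓ')]) hAi hBi D]

/-- `T_ℓ` and `T_ℓ'` commute on `J₀(N)` for distinct primes. -/
theorem s29_hc_commute_along (N ℓ ℓ' : ℕ) [NeZero N] [NeZero ℓ] [NeZero ℓ'] (hℓ : ℓ.Prime)
    (hℓ' : ℓ'.Prime) (hne : ℓ ≠ ℓ') (x : JZero N) :
    heckeOperatorAlong Qb N ℓ (heckeOperatorAlong Qb N ℓ' x)
      = heckeOperatorAlong Qb N ℓ' (heckeOperatorAlong Qb N ℓ x) := by
  obtain ⟨hα, hβ, hP, hfin, hFI, hNF⟩ := s37_h_heckeInputsAlong N ℓ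
  obtain ⟨hα', hβ', hP', hfin', hFI', hNF'⟩ := s37_h_heckeInputsAlong N ℓ'
  rw [heckeOperatorAlong_eq hα hβ hFI hfin hNF, heckeOperatorAlong_eq hα' hβ' hFI' hfin' hNF']
  unfold heckePic0Bar
  change (heckeAlphaBar Qb N ℓ).toRingHom.IsIntegral at hα
  change (heckeBetaBar Qb N ℓ).toRingHom.IsIntegral at hβ
  change (heckeAlphaBar Qb N ℓ').toRingHom.IsIntegral at hα'
  change (heckeBetaBar Qb N ℓ').toRingHom.IsIntegral at hβ'
  exact s29_hc_pic0_comm (heckeBetaBar Qb N ℓ) (heckeAlphaBar Qb N ℓ) hβ hα hFI hfin hNF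
    (heckeBetaBar Qb N ℓ') (heckeAlphaBar Qb N ℓ') hβ' hα' hFI' hfin' hNF'
    (fun D => s29_hc_comm_div N ℓ ℓ' hℓ hℓ' hne hα hβ hα' hβ' D) x

/-- **(HC)** The Hecke operators `T_ℓ` (all primes `ℓ`, including `ℓ ∣ N`) on `J₀(N)(ℚ̄)`
commute pairwise. -/
theorem s29_hc_commute (N : ℕ) [NeZero N] : ModularCurve.HeckeOperatorsCommuteBar N := by
  intro ℓ ℓ'
  by_cases h : ℓ = ℓ'
  · rw [h]
  haveI : NeZero (ℓ : ℕ) := ⟨ℓ.2.ne_zero⟩
  haveI : NeZero (ℓ' : ℕ) := ⟨ℓ'.2.ne_zero⟩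
  apply LinearMap.ext
  intro x
  rw [Module.End.mul_apply, Module.End.mul_apply, heckeOperatorBar_apply,
    heckeOperatorBar_apply, heckeOperatorBar_apply, heckeOperatorBar_apply]
  exact s29_hc_commute_along N ℓ ℓ' ℓ.2 ℓ'.2 (fun h' => h (Subtype.ext h')) x

end

end Fermat.Agent.S29
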