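import Mathlib

/-!
# S29 bridge, block (WA), linear-algebra part

* `s29_wa_mkQ_baseChange_inj` : for a field `K0` of characteristic `p`, the map
  `K0 ⊗ Λ → K0 ⊗ (Λ / pΛ)` is injective.
* `s29_wa_baseChange_inj` : if `ι : Λ → M` is additive, `M` is killed by `p` and `ker ι ⊆ pΛ`,
  then `K0 ⊗ Λ → K0 ⊗ M` is injective.
-/

set_option autoImplicit false
set_option linter.style.haveILetI false

open TensorProduct

noncomputable section

namespace Fermat.Agent.S29

/-- `1 ⊗ (p • ·)` is zero on `K0 ⊗[ℤ] Λ` when `K0` has characteristic `p`. -/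
theorem s29_wa_lTensor_p_eq_zero (p : ℕ) (K0 : Type) [Field K0] [CharP K0 p]
    {Λ : Type} [AddCommGroup Λ] (y : K0 ⊗[ℤ] Λ) :
    LinearMap.lTensor K0 ((p : ℤ) • (LinearMap.id : Λ →ₗ[ℤ] Λ)) y = 0 := by
  induction y using TensorProduct.induction_on with
  | zero => rw [map_zero]
  | tmul c ψ =>
    rw [LinearMap.lTensor_tmul, LinearMap.smul_apply, LinearMap.id_apply,
      ← TensorProduct.smul_tmul]
    have h : (p : ℤ) • c = 0 := by
      rw [zsmul_eq_mul, Int.cast_natCast, CharP.cast_eq_zero, zero_mul]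
    rw [h, TensorProduct.zero_tmul]
  | add a b ha hb => rw [map_add, ha, hb, add_zero]

/-- `K0 ⊗ Λ → K0 ⊗ (Λ / pΛ)` is injective in characteristic `p`. -/
theorem s29_wa_mkQ_baseChange_inj (p : ℕ) (K0 : Type) [Field K0] [CharP K0 p]
    {Λ : Type} [AddCommGroup Λ] :
    Function.Injective
      ((LinearMap.range ((p : ℤ) • (LinearMap.id : Λ →ₗ[ℤ] Λ))).mkQ.baseChange K0) := by
  have hex : Function.Exact ((p : ℤ) • (LinearMap.id : Λ →ₗ[ℤ] Λ))
      (LinearMap.range ((p : ℤ) • (LinearMap.id : Λ →ₗ[ℤ] Λ))).mkQ := by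
    rw [LinearMap.exact_iff, Submodule.ker_mkQ]
  have hex2 := lTensor_exact K0 hex (Submodule.mkQ_surjective _)
  rw [injective_iff_map_eq_zero]
  intro x hx
  rw [LinearMap.baseChange_eq_ltensor] at hx
  obtain ⟨y, rfl⟩ := (hex2 x).mp hx
  exact s29_wa_lTensor_p_eq_zero p K0 y

/-- an injective additive map between `𝔽_p`-vector spaces has an additive retraction. -/
theorem s29_wa_retraction (p : ℕ) [Fact p.Prime] {V V' : Type} [AddCommGroup V]
    [AddCommGroup V'] (_i : Module (ZMod p) V) (_i' : Module (ZMod p) V') (f : V →+ V')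
    (hf : Function.Injective f) : ∃ r : V' →+ V, ∀ x, r (f x) = x := by
  obtain ⟨r, hr⟩ := LinearMap.exists_leftInverse_of_injective (AddMonoidHom.toZModLinearMap p f)
    (LinearMap.ker_eq_bot.mpr hf)
  refine ⟨r.toAddMonoidHom, fun x => ?_⟩
  have := congrArg (fun g => g x) hr
  simpa using this

/-- If `ι : Λ → M` is additive with `p • M = 0` and `ker ι ⊆ pΛ`, then
`K0 ⊗ Λ → K0 ⊗ M` is injective (`K0` a field of characteristic `p`). -/
theorem s29_wa_baseChange_inj (p : ℕ) [Fact p.Prime] (K0 : Type) [Field K0] [CharP K0 p]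
    {Λ M : Type} [AddCommGroup Λ] [AddCommGroup M] (ι : Λ →ₗ[ℤ] M)
    (hp : ∀ x : M, p • x = 0) (hker : ∀ ψ : Λ, ι ψ = 0 → ∃ ψ' : Λ, ψ = p • ψ') :
    Function.Injective (ι.baseChange K0) := by
  set f : Λ →ₗ[ℤ] Λ := (p : ℤ) • (LinearMap.id : Λ →ₗ[ℤ] Λ) with hf
  set P : Submodule ℤ Λ := LinearMap.range f with hP
  have hPker : P ≤ LinearMap.ker ι := by
    rintro _ ⟨ψ, rfl⟩
    rw [LinearMap.mem_ker, hf, LinearMap.smul_apply, LinearMap.id_apply, map_smul,
      natCast_zsmul, hp]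
  set ιb : (Λ ⧸ P) →ₗ[ℤ] M := P.liftQ ι hPker with hιb
  have hιb_inj : Function.Injective ιb := by
    rw [injective_iff_map_eq_zero]
    intro x hx
    obtain ⟨ψ, rfl⟩ := Submodule.mkQ_surjective P x
    rw [hιb, Submodule.mkQ_apply, Submodule.liftQ_apply] at hx
    obtain ⟨ψ', rfl⟩ := hker ψ hx
    rw [Submodule.mkQ_apply, Submodule.Quotient.mk_eq_zero]
    exact ⟨ψ', by rw [hf, LinearMap.smul_apply, LinearMap.id_apply, natCast_zsmul]⟩
  have hQ : ∀ x : Λ ⧸ P, p • x = 0 := by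
    intro x
    obtain ⟨ψ, rfl⟩ := Submodule.mkQ_surjective P x
    rw [← map_nsmul, Submodule.mkQ_apply, Submodule.Quotient.mk_eq_zero]
    exact ⟨ψ, by rw [hf, LinearMap.smul_apply, LinearMap.id_apply, natCast_zsmul]⟩
  obtain ⟨r, hr⟩ := s29_wa_retraction p (AddCommGroup.zmodModule hQ)
    (AddCommGroup.zmodModule hp) ιb.toAddMonoidHom hιb_inj
  have hcomp : r.toIntLinearMap.comp ι = P.mkQ := by
    ext ψ
    exact hr (P.mkQ ψ)
  intro x y hxy
  have h3 : (r.toIntLinearMap.comp ι).baseChange K0 x = (r.toIntLinearMap.comp ι).baseChange K0 y := by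
    rw [LinearMap.baseChange_comp, LinearMap.comp_apply, LinearMap.comp_apply, hxy]
  rw [hcomp] at h3
  exact s29_wa_mkQ_baseChange_inj p K0 h3

end Fermat.Agent.S29
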