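import Mathlib
import Fermat.Prelude.Def_GaloisRep_Residual
import Fermat.Agent.S18.NumField
import Fermat.Agent.S29.WAsmLin

/-!
# S29 bridge, block (WA), abstract assembly

Abstract form of the construction of the Galois module `W`:
given an abelian group `M` killed by `p` with commuting actions of `Γ = Gal(ℚ̄/ℚ)` and of
operators `T_ℓ`, every element being fixed by an open subgroup, and an additive map
`ι : Λ → M` with kernel `pΛ` intertwining operators `Tc ℓ` on `Λ` with the `T_ℓ`, a nonzero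
simultaneous eigenvector `w₀ ∈ K0 ⊗ Λ` produces a nonzero finite-dimensional `K0[Γ]`-module
`W ⊆ K0 ⊗ M` of finite level on which `T_ℓ ⊗ 1` acts through the eigenvalue.
-/

set_option autoImplicit false
set_option linter.style.haveILetI false

open TensorProduct
open Fermat.Agent.S18

noncomputable section

namespace Fermat.Agent.S29

local notation "Qb" => AlgebraicClosure ℚ
local notation "Γ" => (AlgebraicClosure ℚ ≃ₐ[ℚ] AlgebraicClosure ℚ)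

/-- a finite Galois subfield is stable under every automorphism. -/
theorem s29_wa_map_mem {K₁ : IntermediateField ℚ Qb} (hK₁ : s18_d1_IsGaloisNF K₁) (τ : Γ)
    {c : Qb} (hc : c ∈ K₁) : τ c ∈ K₁ := by
  have h := @AlgHom.fieldRange_of_normal ℚ Qb _ _ _ K₁ hK₁.normal'
    ((τ : Qb →ₐ[ℚ] Qb).comp K₁.val)
  rw [← h]
  exact ⟨⟨c, hc⟩, rfl⟩

/-- conjugates of automorphisms fixing a finite Galois subfield fix it. -/
theorem s29_wa_conj_fix {K₁ : IntermediateField ℚ Qb} (hK₁ : s18_d1_IsGaloisNF K₁) (σ τ : Γ)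
    (hσ : ∀ c ∈ K₁, σ c = c) : ∀ c ∈ K₁, (τ⁻¹ * σ * τ) c = c := by
  intro c hc
  have h1 : τ c ∈ K₁ := s29_wa_map_mem hK₁ τ hc
  change τ⁻¹ (σ (τ c)) = c
  rw [hσ _ h1]
  exact τ.symm_apply_apply c

/-- The orbit of a vector fixed by an open subgroup is finite. -/
theorem s29_wa_orbit_finite {K0 : Type} [Field K0] {W₀ : Type} [AddCommGroup W₀] [Module K0 W₀]
    (ρ₀ : Γ →* Module.End K0 W₀) (w : W₀) {K₁ : IntermediateField ℚ Qb}
    (hK₁ : s18_d1_IsGaloisNF K₁) (hfix : ∀ σ : Γ, (∀ c ∈ K₁, σ c = c) → ρ₀ σ w = w) :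
    (Set.range fun σ : Γ => ρ₀ σ w).Finite := by
  haveI := hK₁.finite'
  have hfac : Function.FactorsThrough (fun σ : Γ => ρ₀ σ w)
      (fun σ : Γ => (σ : Qb →ₐ[ℚ] Qb).comp K₁.val) := by
    intro σ τ hστ
    have h1 : ∀ c ∈ K₁, (τ⁻¹ * σ) c = c := by
      intro c hc
      have h2 : σ c = τ c := by
        have := congrArg (fun f : K₁ →ₐ[ℚ] Qb => f ⟨c, hc⟩) hστ
        exact this
      change τ⁻¹ (σ c) = c
      rw [h2]
      exact τ.symm_apply_apply c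
    have h3 := hfix _ h1
    rw [map_mul, Module.End.mul_apply] at h3
    have h4 : ρ₀ τ (ρ₀ τ⁻¹ (ρ₀ σ w)) = ρ₀ σ w := by
      rw [← Module.End.mul_apply, ← map_mul, mul_inv_cancel, map_one, Module.End.one_apply]
    change ρ₀ σ w = ρ₀ τ w
    rw [← h4, h3]
  obtain ⟨e, he⟩ := (Function.factorsThrough_iff _).mp hfac
  rw [he]
  exact (Set.finite_range e).subset (Set.range_comp_subset_range _ e)

/-- **Abstract (WA).** -/
theorem s29_wa_abs (p : ℕ) [Fact p.Prime] (K0 : Type) [Field K0] [CharP K0 p] (N : ℕ)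
    {M : Type} [AddCommGroup M] (gM : Γ →* Module.End ℤ M) (TM : Nat.Primes → Module.End ℤ M)
    (hGH : ∀ ℓ : Nat.Primes, ¬ (ℓ : ℕ) ∣ N * p → ∀ (σ : Γ) (x : M),
      TM ℓ (gM σ x) = gM σ (TM ℓ x))
    (hp : ∀ x : M, p • x = 0)
    (hfix : ∀ x : M, ∃ K₁ : IntermediateField ℚ Qb, s18_d1_IsGaloisNF K₁ ∧
      ∀ σ : Γ, (∀ c ∈ K₁, σ c = c) → gM σ x = x)
    (hunr : ∀ ℓ : ℕ, ℓ.Prime → ¬ ℓ ∣ N * p → ∀ A : ValuationSubring Qb, A.LiesOverPrime ℓ →
      ∀ σ ∈ A.inertiaSubgroupIn ℚ, ∀ x : M, gM σ x = x)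
    (hES : ∀ ℓ : Nat.Primes, ¬ (ℓ : ℕ) ∣ N * p → ∀ A : ValuationSubring Qb,
      A.LiesOverPrime ℓ → ∀ σ : Γ, A.IsFrobeniusAt σ ℓ → ∀ x : M,
        gM σ (gM σ x) - TM ℓ (gM σ x) + ((ℓ : ℕ) : ℤ) • x = 0)
    {Λ : Type} [AddCommGroup Λ] (Tc : Nat.Primes → Λ →+ Λ) (ι : Λ →+ M)
    (hker : ∀ ψ : Λ, ι ψ = 0 → ∃ ψ' : Λ, ψ = p • ψ')
    (hιT : ∀ ℓ : Nat.Primes, ¬ (ℓ : ℕ) ∣ N * p → ∀ ψ : Λ, ι (Tc ℓ ψ) = TM ℓ (ι ψ))
    (α : Nat.Primes → K0) (w₀ : K0 ⊗[ℤ] Λ) (hw₀ : w₀ ≠ 0)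
    (hev : ∀ ℓ : Nat.Primes, ¬ (ℓ : ℕ) ∣ N * p →
      (Tc ℓ).toIntLinearMap.baseChange K0 w₀ = α ℓ • w₀) :
    ∃ (W : Type) (_ : AddCommGroup W) (_ : Module K0 W) (_ : Module.Finite K0 W)
      (_ : Nontrivial W) (ρ : Γ →* Module.End K0 W),
      GaloisFactorsThroughFiniteLevel ρ ∧
      (∀ ℓ : ℕ, ℓ.Prime → ¬ ℓ ∣ N * p → ∀ A : ValuationSubring Qb, A.LiesOverPrime ℓ →
        ∀ σ ∈ A.inertiaSubgroupIn ℚ, ρ σ = 1) ∧
      (∀ ℓ : Nat.Primes, ¬ (ℓ : ℕ) ∣ N * p → ∀ A : ValuationSubring Qb,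
        A.LiesOverPrime ℓ → ∀ σ : Γ, A.IsFrobeniusAt σ ℓ →
          ρ σ * ρ σ - α ℓ • ρ σ + (((ℓ : ℕ) : K0)) • (1 : Module.End K0 W) = 0) := by
  classical
  -- the ambient representation
  let ρ₀ : Γ →* Module.End K0 (K0 ⊗[ℤ] M) :=
    { toFun := fun σ => (gM σ).baseChange K0
      map_one' := by rw [map_one, LinearMap.baseChange_one]
      map_mul' := fun σ τ => by rw [map_mul, LinearMap.baseChange_mul] }
  have hρ₀ : ∀ (σ : Γ) (c : K0) (x : M), ρ₀ σ (c ⊗ₜ[ℤ] x) = c ⊗ₜ[ℤ] gM σ x := fun σ c x => rfl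
  let τT : Nat.Primes → Module.End K0 (K0 ⊗[ℤ] M) := fun ℓ => (TM ℓ).baseChange K0
  have hτT : ∀ (ℓ : Nat.Primes) (c : K0) (x : M), τT ℓ (c ⊗ₜ[ℤ] x) = c ⊗ₜ[ℤ] TM ℓ x :=
    fun ℓ c x => rfl
  -- the eigenvector
  set w : K0 ⊗[ℤ] M := ι.toIntLinearMap.baseChange K0 w₀ with hw
  have hw_ne : w ≠ 0 := by
    intro h
    apply hw₀
    apply s29_wa_baseChange_inj p K0 ι.toIntLinearMap hp hker
    rw [map_zero]
    exact h
  have hw_eig : ∀ ℓ : Nat.Primes, ¬ (ℓ : ℕ) ∣ N * p → τT ℓ w = α ℓ • w := by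
    intro ℓ hℓ
    have h1 : (TM ℓ).comp ι.toIntLinearMap = ι.toIntLinearMap.comp (Tc ℓ).toIntLinearMap := by
      ext ψ
      exact (hιT ℓ hℓ ψ).symm
    change (TM ℓ).baseChange K0 (ι.toIntLinearMap.baseChange K0 w₀) = α ℓ • w
    rw [← LinearMap.comp_apply, ← LinearMap.baseChange_comp, h1, LinearMap.baseChange_comp,
      LinearMap.comp_apply, hev ℓ hℓ, map_smul]
  -- commutation of Hecke and Galois on the tensor product
  have hcomm : ∀ ℓ : Nat.Primes, ¬ (ℓ : ℕ) ∣ N * p → ∀ (σ : Γ) (u : K0 ⊗[ℤ] M),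
      τT ℓ (ρ₀ σ u) = ρ₀ σ (τT ℓ u) := by
    intro ℓ hℓ σ u
    induction u using TensorProduct.induction_on with
    | zero => rw [map_zero, map_zero, map_zero]
    | tmul c x => rw [hρ₀, hτT, hτT, hρ₀, hGH ℓ hℓ σ x]
    | add a b ha hb => rw [map_add, map_add, map_add, map_add, ha, hb]
  -- every vector is fixed by an open subgroup
  have hfixT : ∀ u : K0 ⊗[ℤ] M, ∃ K₁ : IntermediateField ℚ Qb, s18_d1_IsGaloisNF K₁ ∧
      ∀ σ : Γ, (∀ c ∈ K₁, σ c = c) → ρ₀ σ u = u := by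
    intro u
    induction u using TensorProduct.induction_on with
    | zero =>
      obtain ⟨K₁, hK₁, -⟩ := s18_d1_exists_galois 0
      exact ⟨K₁, hK₁, fun σ _ => map_zero _⟩
    | tmul c x =>
      obtain ⟨K₁, hK₁, h⟩ := hfix x
      exact ⟨K₁, hK₁, fun σ hσ => by rw [hρ₀, h σ hσ]⟩
    | add a b ha hb =>
      obtain ⟨K₁, hK₁, h1⟩ := ha
      obtain ⟨K₂, hK₂, h2⟩ := hb
      refine ⟨K₁ ⊔ K₂, hK₁.sup hK₂, fun σ hσ => ?_⟩
      rw [map_add, h1 σ (fun c hc => hσ c ((le_sup_left : K₁ ≤ K₁ ⊔ K₂) hc)),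
        h2 σ (fun c hc => hσ c ((le_sup_right : K₂ ≤ K₁ ⊔ K₂) hc))]
  obtain ⟨K₁, hK₁, hK₁fix⟩ := hfixT w
  -- the orbit span
  set W : Submodule K0 (K0 ⊗[ℤ] M) := Submodule.span K0 (Set.range fun σ : Γ => ρ₀ σ w) with hW
  have hwW : w ∈ W := by
    apply Submodule.subset_span
    exact ⟨1, by change ρ₀ 1 w = w; rw [map_one, Module.End.one_apply]⟩
  have hfin : Module.Finite K0 W :=
    FiniteDimensional.span_of_finite K0 (s29_wa_orbit_finite ρ₀ w hK₁ hK₁fix)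
  have hstab : ∀ σ : Γ, ∀ u ∈ W, ρ₀ σ u ∈ W := by
    intro σ
    have : W ≤ W.comap (ρ₀ σ) := by
      rw [hW, Submodule.span_le]
      rintro _ ⟨τ, rfl⟩
      change ρ₀ σ (ρ₀ τ w) ∈ W
      rw [← Module.End.mul_apply, ← map_mul]
      exact Submodule.subset_span ⟨σ * τ, rfl⟩
    exact fun u hu => this hu
  have heigW : ∀ ℓ : Nat.Primes, ¬ (ℓ : ℕ) ∣ N * p → ∀ u ∈ W, τT ℓ u = α ℓ • u := by
    intro ℓ hℓ
    have : W ≤ LinearMap.ker (τT ℓ - α ℓ • (1 : Module.End K0 (K0 ⊗[ℤ] M))) := by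
      rw [hW, Submodule.span_le]
      rintro _ ⟨τ, rfl⟩
      change ρ₀ τ w ∈ LinearMap.ker _
      rw [LinearMap.mem_ker, LinearMap.sub_apply, LinearMap.smul_apply, Module.End.one_apply,
        hcomm ℓ hℓ, hw_eig ℓ hℓ, map_smul, sub_self]
    intro u hu
    have h := this hu
    rw [LinearMap.mem_ker, LinearMap.sub_apply, LinearMap.smul_apply, Module.End.one_apply,
      sub_eq_zero] at h
    exact h
  have hlevW : ∀ σ : Γ, (∀ c ∈ K₁, σ c = c) → ∀ u ∈ W, ρ₀ σ u = u := by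
    intro σ hσ
    have : W ≤ LinearMap.ker (ρ₀ σ - (1 : Module.End K0 (K0 ⊗[ℤ] M))) := by
      rw [hW, Submodule.span_le]
      rintro _ ⟨τ, rfl⟩
      change ρ₀ τ w ∈ LinearMap.ker _
      have h1 := hK₁fix _ (s29_wa_conj_fix hK₁ σ τ hσ)
      rw [map_mul, map_mul, Module.End.mul_apply, Module.End.mul_apply] at h1
      have h2 : ρ₀ τ (ρ₀ τ⁻¹ (ρ₀ σ (ρ₀ τ w))) = ρ₀ σ (ρ₀ τ w) := by
        rw [← Module.End.mul_apply, ← map_mul, mul_inv_cancel, map_one, Module.End.one_apply]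
      rw [LinearMap.mem_ker, LinearMap.sub_apply, Module.End.one_apply, ← h2, h1, sub_self]
    intro u hu
    have h := this hu
    rw [LinearMap.mem_ker, LinearMap.sub_apply, Module.End.one_apply, sub_eq_zero] at h
    exact h
  -- the representation on `W`
  let ρ : Γ →* Module.End K0 W :=
    { toFun := fun σ => (ρ₀ σ).restrict (hstab σ)
      map_one' := by
        ext u
        rw [LinearMap.coe_restrict_apply, map_one]
        rfl
      map_mul' := fun σ τ => by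
        ext u
        rw [LinearMap.coe_restrict_apply, map_mul]
        rfl }
  have hρ : ∀ (σ : Γ) (u : W), ((ρ σ u : W) : K0 ⊗[ℤ] M) = ρ₀ σ (u : K0 ⊗[ℤ] M) :=
    fun σ u => rfl
  haveI : Nontrivial W := ⟨⟨⟨w, hwW⟩, 0, fun h => hw_ne (congrArg Subtype.val h)⟩⟩
  refine ⟨W, inferInstance, inferInstance, hfin, inferInstance, ρ, ?_, ?_, ?_⟩
  · refine ⟨K₁, hK₁.1, fun σ hσ => ?_⟩
    ext u
    rw [hρ, hlevW σ hσ u u.2]
    rfl
  · intro ℓ hℓ hℓN A hA σ hσ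
    ext u
    rw [hρ]
    have h1 : ρ₀ σ (u : K0 ⊗[ℤ] M) = u := by
      generalize (u : K0 ⊗[ℤ] M) = v
      induction v using TensorProduct.induction_on with
      | zero => rw [map_zero]
      | tmul c x => rw [hρ₀, hunr ℓ hℓ hℓN A hA σ hσ x]
      | add a b ha hb => rw [map_add, ha, hb]
    rw [h1]
    rfl
  · intro ℓ hℓ A hA σ hσ
    ext u
    have h1 : ∀ v : K0 ⊗[ℤ] M, ρ₀ σ (ρ₀ σ v) - τT ℓ (ρ₀ σ v) + ((ℓ : ℕ) : K0) • v = 0 := by
      intro v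
      induction v using TensorProduct.induction_on with
      | zero => simp
      | tmul c x =>
        have h2 : ((ℓ : ℕ) : K0) • (c ⊗ₜ[ℤ] x) = c ⊗ₜ[ℤ] ((((ℓ : ℕ) : ℤ)) • x) := by
          rw [TensorProduct.smul_tmul', ← TensorProduct.smul_tmul, smul_eq_mul, zsmul_eq_mul,
            Int.cast_natCast]
        rw [hρ₀, hρ₀, hτT, h2, ← TensorProduct.tmul_sub, ← TensorProduct.tmul_add,
          hES ℓ hℓ A hA σ hσ x, TensorProduct.tmul_zero]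
      | add a b ha hb =>
        have : ρ₀ σ (ρ₀ σ (a + b)) - τT ℓ (ρ₀ σ (a + b)) + ((ℓ : ℕ) : K0) • (a + b)
            = (ρ₀ σ (ρ₀ σ a) - τT ℓ (ρ₀ σ a) + ((ℓ : ℕ) : K0) • a)
              + (ρ₀ σ (ρ₀ σ b) - τT ℓ (ρ₀ σ b) + ((ℓ : ℕ) : K0) • b) := by
          rw [map_add, map_add, map_add, smul_add]
          abel
        rw [this, ha, hb, add_zero]
    have h3 := h1 (u : K0 ⊗[ℤ] M)
    rw [heigW ℓ hℓ _ (hstab σ _ u.2)] at h3
    rw [LinearMap.add_apply, LinearMap.sub_apply, LinearMap.smul_apply, LinearMap.smul_apply,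
      Module.End.mul_apply, Module.End.one_apply, LinearMap.zero_apply]
    rw [Submodule.coe_add, Submodule.coe_sub, Submodule.coe_smul, Submodule.coe_smul, hρ, hρ,
      Submodule.coe_zero]
    exact h3

end Fermat.Agent.S29
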