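import Mathlib
import Fermat.Prelude.Def_ModularCurve_HeckeModule
import Fermat.Agent.S37.RFix
import Fermat.Agent.S29.HcGalois
import Fermat.Agent.S29.WAsmAbs

/-!
# S29 bridge, block (WA): the Galois module `W` inside `K0 ⊗ J₀(N)[p]`

`s29_wa_main`: from the (frozen) statement S37 for `(N, p)`, the commutation of the Hecke
operators on `J₀(N)(ℚ̄)`, an additive map `ι : Λ → J₀(N)[p]` with kernel `pΛ` intertwining operators
`Tc ℓ` on `Λ` with the `T_ℓ` on `J₀(N)` (`ℓ ∤ Np`), and a nonzero simultaneous eigenvector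
`w₀ ∈ K0 ⊗ Λ` with eigenvalues `α ℓ`, we get a nonzero finite-dimensional representation `W` of
`Gal(ℚ̄/ℚ)` over `K0`, of finite level, unramified outside `Np`, on which every Frobenius lift
`σ` at `ℓ ∤ Np` satisfies `σ² - α_ℓ σ + ℓ = 0`.
-/

set_option autoImplicit false
set_option linter.style.haveILetI false

open TensorProduct AlgebraicCurve ModularCurve
open Fermat.Agent.S18 Fermat.Agent.S37

noncomputable section

namespace Fermat.Agent.S29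

local notation "Qb" => AlgebraicClosure ℚ
local notation "Γ" => (AlgebraicClosure ℚ ≃ₐ[ℚ] AlgebraicClosure ℚ)

/-- **(FIX)** every class in `J₀(N)(ℚ̄)` is fixed by an open subgroup of `Gal(ℚ̄/ℚ)`. -/
theorem s29_wa_fix (N : ℕ) [NeZero N] (x : JZero N) :
    ∃ K₁ : IntermediateField ℚ Qb, s18_d1_IsGaloisNF K₁ ∧
      ∀ σ : Γ, (∀ c ∈ K₁, σ c = c) → σ • x = x := by
  classical
  obtain ⟨D, rfl⟩ := Pic0.mk_surjective x
  obtain ⟨K₁, hK₁, h⟩ :=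
    s37_rf_exists_fixing N (D : Divisor Qb (modularFunctionFieldBar N)).support
  refine ⟨K₁, hK₁, fun σ hσ => ?_⟩
  rw [galois_smul_pic0_def, SemilinearAut.pic0_smul_mk]
  congr 1
  apply Subtype.ext
  rw [SemilinearAut.coe_degZeroSMulHom, SemilinearAut.divisor_smul_def]
  have h1 : Finsupp.mapDomain
      (fun P => arithmeticGalois (modularFunctionFieldFull N) σ • P)
      (D : Divisor Qb (modularFunctionFieldBar N))
      = Finsupp.mapDomain id (D : Divisor Qb (modularFunctionFieldBar N)) :=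
    Finsupp.mapDomain_congr (fun P hP => h P hP σ hσ)
  rw [h1, Finsupp.mapDomain_id]

/-- the Galois action commutes with multiplication by natural numbers. -/
theorem s29_wa_smul_nsmul (N : ℕ) [NeZero N] (σ : Γ) (n : ℕ) (x : JZero N) :
    σ • (n • x) = n • (σ • x) :=
  map_nsmul (DistribSMul.toAddMonoidHom (JZero N) σ) n x

theorem s29_wa_smul_zero (N : ℕ) [NeZero N] (σ : Γ) : σ • (0 : JZero N) = 0 :=
  map_zero (DistribSMul.toAddMonoidHom (JZero N) σ)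

theorem s29_wa_smul_add (N : ℕ) [NeZero N] (σ : Γ) (x y : JZero N) :
    σ • (x + y) = σ • x + σ • y :=
  map_add (DistribSMul.toAddMonoidHom (JZero N) σ) x y

/-- the Galois action preserves `p`-torsion. -/
theorem s29_wa_smul_tors (N : ℕ) [NeZero N] (σ : Γ) (p : ℕ) (x : JZero N) (hx : p • x = 0) :
    p • (σ • x) = 0 := by
  rw [← s29_wa_smul_nsmul, hx]
  exact s29_wa_smul_zero N σ

/-- S37 ⟹ inertia at `ℓ ∤ Np` acts trivially on `J₀(N)[p]`. -/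
theorem s29_wa_unr (N p : ℕ) [NeZero N]
    (hS37 : letI := heckeModuleBar N
      ∀ (_ : SMulCommClass Γ HeckeAlg (JZero N)),
        SpecializationExists (K := ℚ) (L := Qb) N p (JZero N))
    (ℓ : ℕ) (hℓ : ℓ.Prime) (hℓN : ¬ ℓ ∣ N * p) (A : ValuationSubring Qb)
    (hA : A.LiesOverPrime ℓ) (σ : Γ) (hσ : σ ∈ A.inertiaSubgroupIn ℚ) (x : JZero N)
    (hx : p • x = 0) : σ • x = x := by
  letI := heckeModuleBar N
  haveI := s29_hc_smulCommClass N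
  obtain ⟨J', _, _, sp, F, hsp, -⟩ := hS37 (s29_hc_smulCommClass N) ℓ hℓ hℓN A hA
  have h1 : sp (σ • x - x) = 0 := by
    rw [map_sub, hsp.inertia_comm σ hσ x, sub_self]
  have h2 : p ^ 1 • (σ • x - x) = 0 := by
    rw [pow_one, nsmul_sub, s29_wa_smul_tors N σ p x hx, hx, sub_self]
  exact sub_eq_zero.mp (hsp.injective_torsion _ ⟨1, h2⟩ h1)

/-- S37 ⟹ the Eichler–Shimura relation on `J₀(N)[p]` for Frobenius lifts at `ℓ ∤ Np`. -/
theorem s29_wa_es (N p : ℕ) [NeZero N] (hcomm : HeckeOperatorsCommuteBar N)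
    (hS37 : letI := heckeModuleBar N
      ∀ (_ : SMulCommClass Γ HeckeAlg (JZero N)),
        SpecializationExists (K := ℚ) (L := Qb) N p (JZero N))
    (ℓ : Nat.Primes) (hℓN : ¬ (ℓ : ℕ) ∣ N * p) (A : ValuationSubring Qb)
    (hA : A.LiesOverPrime ℓ) (σ : Γ) (hσ : A.IsFrobeniusAt σ ℓ) (x : JZero N)
    (hx : p • x = 0) :
    σ • σ • x - heckeOperatorBar N ℓ (σ • x) + (ℓ : ℕ) • x = 0 := by
  have h2 : p ^ 1 • (σ • σ • x - heckeOperatorBar N ℓ (σ • x) + (ℓ : ℕ) • x) = 0 := by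
    have ha : p • (σ • x) = 0 := s29_wa_smul_tors N σ p x hx
    have hb : p • (σ • σ • x) = 0 := s29_wa_smul_tors N σ p _ ha
    have hc : p • heckeOperatorBar N ℓ (σ • x) = 0 := by
      rw [← map_nsmul, ha, map_zero]
    have hd : p • ((ℓ : ℕ) • x) = 0 := by
      rw [nsmul_left_comm, hx, nsmul_zero]
    rw [pow_one, nsmul_add, nsmul_sub, hb, hc, hd, sub_self, add_zero]
  letI := heckeModuleBar N
  haveI := s29_hc_smulCommClass N
  obtain ⟨J', _, _, sp, F, hsp, hrel⟩ := hS37 (s29_hc_smulCommClass N) ℓ ℓ.2 hℓN A hA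
  have hT : heckeOperatorBar N ℓ (σ • x) = heckeGen ℓ • (σ • x) :=
    (heckeModuleBar_heckeGen_smul hcomm ℓ (σ • x)).symm
  have h1 : sp (σ • σ • x - heckeOperatorBar N ℓ (σ • x) + (ℓ : ℕ) • x) = 0 := by
    rw [hT, map_add, map_sub, map_nsmul, hsp.frobenius_comm σ hσ (σ • x), hsp.hecke_comm,
      hsp.frobenius_comm σ hσ x]
    exact hrel (sp x)
  exact hsp.injective_torsion _ ⟨1, h2⟩ h1

/-- the `p`-torsion of `J₀(N)(ℚ̄)`. -/
def s29_wa_Jp (N p : ℕ) : AddSubgroup (JZero N) :=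
  (nsmulAddMonoidHom (α := JZero N) p).ker

theorem s29_wa_mem_Jp {N p : ℕ} {x : JZero N} : x ∈ s29_wa_Jp N p ↔ p • x = 0 :=
  Iff.rfl

/-- the Galois action on the `p`-torsion, as additive maps. -/
def s29_wa_galAdd (N p : ℕ) [NeZero N] (σ : Γ) : s29_wa_Jp N p →+ s29_wa_Jp N p where
  toFun x := ⟨σ • (x : JZero N), s29_wa_smul_tors N σ p _ x.2⟩
  map_zero' := Subtype.ext (s29_wa_smul_zero N σ)
  map_add' x y := Subtype.ext (s29_wa_smul_add N σ (x : JZero N) (y : JZero N))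

/-- the Galois action on the `p`-torsion. -/
def s29_wa_gal (N p : ℕ) [NeZero N] : Γ →* Module.End ℤ (s29_wa_Jp N p) where
  toFun σ := (s29_wa_galAdd N p σ).toIntLinearMap
  map_one' := LinearMap.ext fun x => Subtype.ext (one_smul Γ (x : JZero N))
  map_mul' σ τ := LinearMap.ext fun x => Subtype.ext (mul_smul σ τ (x : JZero N))

theorem s29_wa_gal_coe (N p : ℕ) [NeZero N] (σ : Γ) (x : s29_wa_Jp N p) :
    ((s29_wa_gal N p σ x : s29_wa_Jp N p) : JZero N) = σ • (x : JZero N) := rfl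

/-- the Hecke operators on the `p`-torsion, as additive maps. -/
def s29_wa_heckeAdd (N p : ℕ) [NeZero N] (ℓ : Nat.Primes) : s29_wa_Jp N p →+ s29_wa_Jp N p where
  toFun x := ⟨heckeOperatorBar N ℓ (x : JZero N), by
    have hx : p • (x : JZero N) = 0 := x.2
    rw [s29_wa_mem_Jp, ← map_nsmul, hx, map_zero]⟩
  map_zero' := Subtype.ext (map_zero (heckeOperatorBar N ℓ))
  map_add' x y := Subtype.ext (map_add (heckeOperatorBar N ℓ) (x : JZero N) (y : JZero N))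

/-- the Hecke operators on the `p`-torsion. -/
def s29_wa_hecke (N p : ℕ) [NeZero N] (ℓ : Nat.Primes) : Module.End ℤ (s29_wa_Jp N p) :=
  (s29_wa_heckeAdd N p ℓ).toIntLinearMap

theorem s29_wa_hecke_coe (N p : ℕ) [NeZero N] (ℓ : Nat.Primes) (x : s29_wa_Jp N p) :
    ((s29_wa_hecke N p ℓ x : s29_wa_Jp N p) : JZero N) = heckeOperatorBar N ℓ (x : JZero N) :=
  rfl

/-- **(WA), main assembly.** -/
theorem s29_wa_main (N : ℕ) [NeZero N] (p : ℕ) [Fact p.Prime] (K0 : Type) [Field K0]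
    [CharP K0 p] (hcomm : HeckeOperatorsCommuteBar N)
    (hS37 : letI := heckeModuleBar N
      ∀ (_ : SMulCommClass Γ HeckeAlg (JZero N)),
        SpecializationExists (K := ℚ) (L := Qb) N p (JZero N))
    {Λ : Type} [AddCommGroup Λ] (Tc : Nat.Primes → Λ →+ Λ) (ι : Λ →+ JZero N)
    (hιp : ∀ ψ : Λ, p • ι ψ = 0)
    (hker : ∀ ψ : Λ, ι ψ = 0 → ∃ ψ' : Λ, ψ = p • ψ')
    (hιT : ∀ ℓ : Nat.Primes, ¬ (ℓ : ℕ) ∣ N * p → ∀ ψ : Λ,
      ι (Tc ℓ ψ) = heckeOperatorBar N ℓ (ι ψ))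
    (α : Nat.Primes → K0) (w₀ : K0 ⊗[ℤ] Λ) (hw₀ : w₀ ≠ 0)
    (hev : ∀ ℓ : Nat.Primes, ¬ (ℓ : ℕ) ∣ N * p →
      (Tc ℓ).toIntLinearMap.baseChange K0 w₀ = α ℓ • w₀) :
    ∃ (W : Type) (_ : AddCommGroup W) (_ : Module K0 W) (_ : Module.Finite K0 W)
      (_ : Nontrivial W) (ρ : Γ →* Module.End K0 W),
      GaloisFactorsThroughFiniteLevel ρ ∧
      (∀ ℓ : ℕ, ℓ.Prime → ¬ ℓ ∣ N * p → ∀ A : ValuationSubring Qb, A.LiesOverPrime ℓ →
        ∀ σ ∈ A.inertiaSubgroupIn ℚ, ρ σ = 1) ∧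
      (∀ ℓ : Nat.Primes, ¬ (ℓ : ℕ) ∣ N * p → ∀ A : ValuationSubring Qb,
        A.LiesOverPrime ℓ → ∀ σ : Γ, A.IsFrobeniusAt σ ℓ →
          ρ σ * ρ σ - α ℓ • ρ σ + (((ℓ : ℕ) : K0)) • (1 : Module.End K0 W) = 0) := by
  let ι' : Λ →+ s29_wa_Jp N p :=
    { toFun := fun ψ => ⟨ι ψ, s29_wa_mem_Jp.mpr (hιp ψ)⟩
      map_zero' := Subtype.ext (map_zero ι)
      map_add' := fun a b => Subtype.ext (map_add ι a b) }
  have h1 : ∀ ℓ : Nat.Primes, ¬ (ℓ : ℕ) ∣ N * p → ∀ (σ : Γ) (x : s29_wa_Jp N p),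
      s29_wa_hecke N p ℓ (s29_wa_gal N p σ x) = s29_wa_gal N p σ (s29_wa_hecke N p ℓ x) :=
    fun ℓ _ σ x => Subtype.ext (s29_hc_galois_heckeBar N ℓ σ (x : JZero N))
  have h2 : ∀ x : s29_wa_Jp N p, p • x = 0 := fun x => Subtype.ext x.2
  have h3 : ∀ x : s29_wa_Jp N p, ∃ K₁ : IntermediateField ℚ Qb, s18_d1_IsGaloisNF K₁ ∧
      ∀ σ : Γ, (∀ c ∈ K₁, σ c = c) → s29_wa_gal N p σ x = x := by
    intro x
    obtain ⟨K₁, hK₁, h⟩ := s29_wa_fix N (x : JZero N)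
    exact ⟨K₁, hK₁, fun σ hσ => Subtype.ext (h σ hσ)⟩
  have h4 : ∀ ℓ : ℕ, ℓ.Prime → ¬ ℓ ∣ N * p → ∀ A : ValuationSubring Qb, A.LiesOverPrime ℓ →
      ∀ σ ∈ A.inertiaSubgroupIn ℚ, ∀ x : s29_wa_Jp N p, s29_wa_gal N p σ x = x :=
    fun ℓ hℓ hℓN A hA σ hσ x =>
      Subtype.ext (s29_wa_unr N p hS37 ℓ hℓ hℓN A hA σ hσ (x : JZero N) x.2)
  have h5 : ∀ ℓ : Nat.Primes, ¬ (ℓ : ℕ) ∣ N * p → ∀ A : ValuationSubring Qb,
      A.LiesOverPrime ℓ → ∀ σ : Γ, A.IsFrobeniusAt σ ℓ → ∀ x : s29_wa_Jp N p,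
        s29_wa_gal N p σ (s29_wa_gal N p σ x) - s29_wa_hecke N p ℓ (s29_wa_gal N p σ x)
          + ((ℓ : ℕ) : ℤ) • x = 0 := by
    intro ℓ hℓN A hA σ hσ x
    rw [natCast_zsmul]
    exact Subtype.ext (s29_wa_es N p hcomm hS37 ℓ hℓN A hA σ hσ (x : JZero N) x.2)
  have h6 : ∀ ψ : Λ, ι' ψ = 0 → ∃ ψ' : Λ, ψ = p • ψ' :=
    fun ψ hψ => hker ψ (congrArg Subtype.val hψ)
  have h7 : ∀ ℓ : Nat.Primes, ¬ (ℓ : ℕ) ∣ N * p → ∀ ψ : Λ,
      ι' (Tc ℓ ψ) = s29_wa_hecke N p ℓ (ι' ψ) :=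
    fun ℓ hℓ ψ => Subtype.ext (hιT ℓ hℓ ψ)
  exact s29_wa_abs p K0 N (s29_wa_gal N p) (s29_wa_hecke N p) h1 h2 h3 h4 h5 Tc ι' h6 h7 α w₀
    hw₀ hev

end Fermat.Agent.S29
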