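import Mathlib
import Fermat.Agent.S37
import Fermat.Agent.S29.HcCommute
import Fermat.Agent.S29.CohPar
import Fermat.Agent.S29.HEig
import Fermat.Agent.S29.WAsmJ

/-!
# S29 bridge, block (WA): final wiring of (BRW)

`s29_wa_W_of_iota`: the Galois module `W` attached to a normalized eigenform `g` of level `N` and a
ring homomorphism `φ0 : ℤ̄ → K0` (`K0` a field of characteristic `p`), from

* the frozen statement S37 (`Fermat.Agent.S37.result`) and `s29_hc_commute`, `s29_hc_galois_heckeBar`,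
* the eigenvector `s29_heig` in `K0 ⊗ Λ`, `Λ` = integral parabolic homomorphisms of `Γ₀(N)`,
* **(BR-ι)** (hypothesis): an additive map `ι : Λ → J₀(N)(ℚ̄)` with `p • ι = 0`, kernel `pΛ`,
  intertwining `T_ℓ^coh` with `T_ℓ` for the primes `ℓ ∤ N`.
-/

set_option autoImplicit false
set_option linter.style.haveILetI false

open TensorProduct AlgebraicCurve ModularCurve ModularCurve.Period CongruenceSubgroup

noncomputable section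

namespace Fermat.Agent.S29

local notation "Qb" => AlgebraicClosure ℚ
local notation "Γ" => (AlgebraicClosure ℚ ≃ₐ[ℚ] AlgebraicClosure ℚ)

/-- `s29_wa_main` with S37 and (HC) discharged, for an arbitrary `ℤ`-module structure on `Λ`
and `ℤ`-linear operators. -/
theorem s29_wa_main2 (N : ℕ) [NeZero N] (p : ℕ) [Fact p.Prime] (K0 : Type) [Field K0]
    [CharP K0 p] {Λ : Type} [AddCommGroup Λ] [inst : Module ℤ Λ]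
    (Tc : Nat.Primes → Λ →ₗ[ℤ] Λ) (ι : Λ →+ JZero N)
    (hιp : ∀ ψ : Λ, p • ι ψ = 0)
    (hker : ∀ ψ : Λ, ι ψ = 0 → ∃ ψ' : Λ, ψ = p • ψ')
    (hιT : ∀ ℓ : Nat.Primes, ¬ (ℓ : ℕ) ∣ N * p → ∀ ψ : Λ,
      ι (Tc ℓ ψ) = heckeOperatorBar N ℓ (ι ψ))
    (α : Nat.Primes → K0) (w₀ : K0 ⊗[ℤ] Λ) (hw₀ : w₀ ≠ 0)
    (hev : ∀ ℓ : Nat.Primes, ¬ (ℓ : ℕ) ∣ N * p → (Tc ℓ).baseChange K0 w₀ = α ℓ • w₀) :
    ∃ (W : Type) (_ : AddCommGroup W) (_ : Module K0 W) (_ : Module.Finite K0 W)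
      (_ : Nontrivial W) (ρ : Γ →* Module.End K0 W),
      GaloisFactorsThroughFiniteLevel ρ ∧
      (∀ ℓ : ℕ, ℓ.Prime → ¬ ℓ ∣ N * p → ∀ A : ValuationSubring Qb, A.LiesOverPrime ℓ →
        ∀ σ ∈ A.inertiaSubgroupIn ℚ, ρ σ = 1) ∧
      (∀ ℓ : Nat.Primes, ¬ (ℓ : ℕ) ∣ N * p → ∀ A : ValuationSubring Qb,
        A.LiesOverPrime ℓ → ∀ σ : Γ, A.IsFrobeniusAt σ ℓ →
          ρ σ * ρ σ - α ℓ • ρ σ + (((ℓ : ℕ) : K0)) • (1 : Module.End K0 W) = 0) := by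
  obtain rfl : inst = AddCommGroup.toIntModule Λ := Subsingleton.elim _ _
  refine s29_wa_main N p K0 (s29_hc_commute N) (Fermat.Agent.S37.result N p (s29_hc_commute N))
    (fun ℓ => (Tc ℓ).toAddMonoidHom) ι hιp hker hιT α w₀ hw₀ (fun ℓ hℓ => ?_)
  have h1 : ((Tc ℓ).toAddMonoidHom).toIntLinearMap = Tc ℓ := LinearMap.ext fun _ => rfl
  rw [h1]
  exact hev ℓ hℓ

/-- **(BRW) from (BR-ι).** -/
theorem s29_wa_W_of_iota {N : ℕ} [NeZero N] {g : CuspForm (Gamma0 N) 2}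
    (hg : g.IsNormalizedEigenform) (p : ℕ) [Fact p.Prime] (K0 : Type) [Field K0] [CharP K0 p]
    (φ0 : integralClosure ℤ ℂ →+* K0)
    (hBR : ∃ ι : ↥(parabolicHoms ℤ (Gamma0 N) ℤ) →+ JZero N,
      (∀ ψ, p • ι ψ = 0) ∧ (∀ ψ, ι ψ = 0 → ∃ ψ', ψ = p • ψ') ∧
      ∀ (l : ℕ) (hl : l.Prime) (hlN : ¬ l ∣ N) (ψ : ↥(parabolicHoms ℤ (Gamma0 N) ℤ)),
        ι (s29_cp_Tpar N l hl hlN ℤ ℤ ψ) = heckeOperatorBar N ⟨l, hl⟩ (ι ψ)) :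
    ∃ (W : Type) (_ : AddCommGroup W) (_ : Module K0 W) (_ : Module.Finite K0 W)
      (_ : Nontrivial W) (ρ : Γ →* Module.End K0 W),
      GaloisFactorsThroughFiniteLevel ρ ∧
      (∀ ℓ : ℕ, ℓ.Prime → ¬ ℓ ∣ N * p → ∀ A : ValuationSubring Qb, A.LiesOverPrime ℓ →
        ∀ σ ∈ A.inertiaSubgroupIn ℚ, ρ σ = 1) ∧
      (∀ ℓ : ℕ, ℓ.Prime → ¬ ℓ ∣ N * p → ∀ A : ValuationSubring Qb, A.LiesOverPrime ℓ →
        ∀ σ : Γ, A.IsFrobeniusAt σ ℓ →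
          ∃ a : integralClosure ℤ ℂ, (a : ℂ) = ModularFormClass.qCoeff g ℓ ∧
            ρ σ * ρ σ - φ0 a • ρ σ + (ℓ : K0) • (1 : Module.End K0 W) = 0) := by
  classical
  obtain ⟨ι, hιp, hker, hιT⟩ := hBR
  obtain ⟨w₀, hw₀, hw⟩ := s29_heig hg p K0 φ0
  choose a ha hwa using hw
  let Tc : Nat.Primes → ↥(parabolicHoms ℤ (Gamma0 N) ℤ) →ₗ[ℤ] ↥(parabolicHoms ℤ (Gamma0 N) ℤ) :=
    fun ℓ => if h : ¬ (ℓ : ℕ) ∣ N then s29_cp_Tpar N ℓ ℓ.2 h ℤ ℤ else 0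
  let α : Nat.Primes → K0 := fun ℓ => if h : ¬ (ℓ : ℕ) ∣ N then φ0 (a ℓ ℓ.2 h) else 0
  have hNp : ∀ ℓ : ℕ, ¬ ℓ ∣ N * p → ¬ ℓ ∣ N := fun ℓ h h' => h (dvd_mul_of_dvd_left h' p)
  obtain ⟨W, i1, i2, i3, i4, ρ, h1, h2, h3⟩ := s29_wa_main2 N p K0 Tc ι hιp hker
    (fun ℓ hℓ ψ => by
      have hN := hNp ℓ hℓ
      have hTc : Tc ℓ = s29_cp_Tpar N ℓ ℓ.2 hN ℤ ℤ := dif_pos hN
      rw [hTc]
      exact hιT ℓ ℓ.2 hN ψ)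
    α w₀ hw₀
    (fun ℓ hℓ => by
      have hN := hNp ℓ hℓ
      have hTc : Tc ℓ = s29_cp_Tpar N ℓ ℓ.2 hN ℤ ℤ := dif_pos hN
      have hα : α ℓ = φ0 (a ℓ ℓ.2 hN) := dif_pos hN
      rw [hTc, hα]
      exact hwa ℓ ℓ.2 hN)
  refine ⟨W, i1, i2, i3, i4, ρ, h1, h2, fun ℓ hℓ hℓN A hA σ hσ => ?_⟩
  have hN := hNp ℓ hℓN
  refine ⟨a ℓ hℓ hN, ha ℓ hℓ hN, ?_⟩
  have h4 := h3 ⟨ℓ, hℓ⟩ hℓN A hA σ hσ
  have hα : α ⟨ℓ, hℓ⟩ = φ0 (a ℓ hℓ hN) := dif_pos hN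
  rw [hα] at h4
  exact h4

end Fermat.Agent.S29
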