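import Mathlib
import Fermat.Statements.S29
import Fermat.Agent.S29.ChebAsm
import Fermat.Agent.S29.Final
import Fermat.Agent.S29.WAsmFinal
import Fermat.Agent.S29.BrIota
import Fermat.Agent.S29.KappaInjMain

/-!
# S29: the final wiring, with block (EX) as the only hypothesis

`s29_wire_of_ex`: the frozen statement S29 from

* **(EX)** (hypothesis `hex`): every integral parabolic homomorphism `ψ` of `Γ₀(N)` has, for every
  `m`, an `m`-torsion point `x` of `J₀(N)` with `κ x = ψ mod m`;

everything else is on main: `s29_cheb_asm` (G1), `s29_fin_main` (G2 + ASM), `s29_wa_W_of_iota` (WA),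
`s29_bi_of_ex` (BR-ι from (EX), (INJ), (A4)), `s29_kappa_injective` (INJ).
-/

set_option autoImplicit false

set_option linter.style.haveILetI false

open CuspForm CuspForm.IsNormalizedEigenform AlgebraicCurve ModularCurve ModularCurve.Period
  CongruenceSubgroup
open Fermat.Agent.S24

noncomputable section

namespace Fermat.Agent.S29

/-- The frozen statement S29 from block (EX). -/
theorem s29_wire_of_ex
    (hex : ∀ (N : ℕ) [NeZero N] (m : ℕ) [NeZero m] (ψ : Additive (Gamma0 N) →+ ℤ),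
      ψ ∈ parabolicHoms ℤ (Gamma0 N) ℤ →
      ∃ x : Pic0.torsion Kbar (modularFunctionFieldBar N) m, s29_kappa N m x = s29_xg_red N m ψ)
    {N : ℕ} {g : CuspForm (CongruenceSubgroup.Gamma0 N) 2} (hg : g.IsNormalizedEigenform)
    {p : ℕ} (hp : p.Prime) {k : Type} [Field k] [CharP k p]
    (φ : integralClosure ℤ ℂ →+* k) :
    ∃ ρ : ResidualGaloisRep k, ρ.IsAttachedTo g φ ∧
      ∀ ℓ : ℕ, ℓ.Prime → ¬ ℓ ∣ N * p → ρ.IsUnramifiedAt ℓ := by
  refine s29_fin_main s29_cheb_asm ?_ hg hp φ
  intro N' _ g' hg' p' hp' K0 _ _ φ0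
  haveI : NeZero p' := ⟨hp'.out.ne_zero⟩
  exact s29_wa_W_of_iota hg' p' K0 φ0
    (s29_bi_of_ex N' p' (s29_kappa_injective N' p') (fun ψ => hex N' p' ψ ψ.2))

end Fermat.Agent.S29
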