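import Fermat.Agent.S24.JOrder

/-!
# S29 (project BRIDGE), block (AP): the order of vanishing of a holomorphic function on the
upper half plane

`s29_ap_fOrd g τ : ℤ` is the order of vanishing of `g : ℍ → ℂ` at `τ`; for holomorphic nonzero
functions it is an integer valuation, it is transported by `SL₂(ℤ)`, and the order of
`J - J(τ)` at `τ` is `1`, `2` or `3` for every `τ`.
-/

set_option autoImplicit false

open UpperHalfPlane ModularForm SlashInvariantForm SlashInvariantFormClass ModularFormClass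
  CuspFormClass MatrixGroups OnePoint Filter EisensteinSeries Asymptotics ModularGroup

open scoped Topology Manifold Real

noncomputable section

namespace Fermat.Agent.S29

open Fermat.Agent.S28 (Jfun)
open Fermat.Agent.S24 (jord_analyticAt)

local notation "Δ" => ModularForm.discriminant

/-- The order of vanishing of `g : ℍ → ℂ` at `τ` (junk if `g` vanishes identically). -/
def s29_ap_fOrd (g : ℍ → ℂ) (τ : ℍ) : ℤ :=
  ((analyticOrderAt (fun z : ℂ => g (ofComplex z)) (τ : ℂ)).toNat : ℤ)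

theorem s29_ap_fOrd_nonneg (g : ℍ → ℂ) (τ : ℍ) : 0 ≤ s29_ap_fOrd g τ := Int.natCast_nonneg _

theorem s29_ap_order_ne_top {g : ℍ → ℂ} (hg : MDifferentiable 𝓘(ℂ) 𝓘(ℂ) g) (hg0 : g ≠ 0)
    (τ : ℍ) : analyticOrderAt (fun z : ℂ => g (ofComplex z)) (τ : ℂ) ≠ ⊤ := by
  intro htop
  apply hg0
  rw [analyticOrderAt_eq_top] at htop
  have hdiff : DifferentiableOn ℂ (g ∘ ofComplex) {z | 0 < z.im} :=
    UpperHalfPlane.mdifferentiable_iff.mp hg
  have han := hdiff.analyticOnNhd isOpen_upperHalfPlaneSet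
  have hpre : IsPreconnected {z : ℂ | 0 < z.im} :=
    (Complex.isConnected_of_upperHalfPlane subset_rfl (by grind)).isPreconnected
  have h0 := han.eqOn_zero_of_preconnected_of_eventuallyEq_zero hpre τ.2 htop
  funext w
  have := h0 w.im_pos
  simpa [ofComplex_apply] using this

theorem s29_ap_fOrd_mul {g h : ℍ → ℂ} (hg : MDifferentiable 𝓘(ℂ) 𝓘(ℂ) g)
    (hh : MDifferentiable 𝓘(ℂ) 𝓘(ℂ) h) (hg0 : g ≠ 0) (hh0 : h ≠ 0) (τ : ℍ) :
    s29_ap_fOrd (g * h) τ = s29_ap_fOrd g τ + s29_ap_fOrd h τ := by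
  have e : (fun z : ℂ => (g * h) (ofComplex z))
      = (fun z : ℂ => g (ofComplex z)) * (fun z : ℂ => h (ofComplex z)) := by
    funext z
    simp
  unfold s29_ap_fOrd
  rw [e, analyticOrderAt_mul (jord_analyticAt hg τ) (jord_analyticAt hh τ),
    ENat.toNat_add (s29_ap_order_ne_top hg hg0 τ) (s29_ap_order_ne_top hh hh0 τ), Nat.cast_add]

theorem s29_ap_fOrd_add {g h : ℍ → ℂ} (hg : MDifferentiable 𝓘(ℂ) 𝓘(ℂ) g)
    (hh : MDifferentiable 𝓘(ℂ) 𝓘(ℂ) h) (hg0 : g ≠ 0) (hh0 : h ≠ 0) (hgh : g + h ≠ 0) (τ : ℍ) :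
    min (s29_ap_fOrd g τ) (s29_ap_fOrd h τ) ≤ s29_ap_fOrd (g + h) τ := by
  have e : (fun z : ℂ => (g + h) (ofComplex z))
      = (fun z : ℂ => g (ofComplex z)) + (fun z : ℂ => h (ofComplex z)) := by
    funext z
    simp
  have key := le_analyticOrderAt_add (f := fun z : ℂ => g (ofComplex z))
    (g := fun z : ℂ => h (ofComplex z)) (z₀ := (τ : ℂ))
  rw [← e] at key
  obtain ⟨a, ha⟩ := ENat.ne_top_iff_exists.mp (s29_ap_order_ne_top hg hg0 τ)
  obtain ⟨b, hb⟩ := ENat.ne_top_iff_exists.mp (s29_ap_order_ne_top hh hh0 τ)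
  obtain ⟨c, hc⟩ := ENat.ne_top_iff_exists.mp (s29_ap_order_ne_top (hg.add hh) hgh τ)
  unfold s29_ap_fOrd
  rw [← ha, ← hb, ← hc] at key ⊢
  simp only [ENat.toNat_natCast]
  rw [min_le_iff] at key ⊢
  rcases key with h1 | h1
  · left
    exact_mod_cast h1
  · right
    exact_mod_cast h1

theorem s29_ap_fOrd_eq_zero {g : ℍ → ℂ} (hg : MDifferentiable 𝓘(ℂ) 𝓘(ℂ) g) (τ : ℍ)
    (h : g τ ≠ 0) : s29_ap_fOrd g τ = 0 := by
  unfold s29_ap_fOrd
  rw [(jord_analyticAt hg τ).analyticOrderAt_eq_zero.mpr (by simpa using h)]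
  simp

theorem s29_ap_fOrd_pos {g : ℍ → ℂ} (hg : MDifferentiable 𝓘(ℂ) 𝓘(ℂ) g) (hg0 : g ≠ 0) (τ : ℍ)
    (h : g τ = 0) : 0 < s29_ap_fOrd g τ := by
  unfold s29_ap_fOrd
  obtain ⟨a, ha⟩ := ENat.ne_top_iff_exists.mp (s29_ap_order_ne_top hg hg0 τ)
  rw [← ha]
  simp only [ENat.toNat_natCast, Nat.cast_pos]
  rcases Nat.eq_zero_or_pos a with h0 | h0
  · exfalso
    rw [h0] at ha
    have h1 := (jord_analyticAt hg τ).analyticOrderAt_eq_zero.mp ha.symm
    apply h1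
    simpa using h
  · exact h0

theorem s29_ap_fOrd_const (c : ℂ) (hc : c ≠ 0) (τ : ℍ) : s29_ap_fOrd (fun _ => c) τ = 0 :=
  s29_ap_fOrd_eq_zero mdifferentiable_const τ hc

/-- Transport of the order by `SL₂(ℤ)`. -/
theorem s29_ap_fOrd_smul (γ : SL(2, ℤ)) (g : ℍ → ℂ) (τ : ℍ) :
    s29_ap_fOrd (fun z => g (γ • z)) τ = s29_ap_fOrd g (γ • τ) := by
  unfold s29_ap_fOrd
  congr 2
  let G : ℂ → ℂ := fun z => ((Matrix.SpecialLinearGroup.mapGL ℝ γ • ofComplex z : ℍ) : ℂ)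
  let F : ℂ → ℂ := fun z => g (ofComplex z)
  have hdet : 0 < (Matrix.SpecialLinearGroup.mapGL ℝ γ : GL (Fin 2) ℝ).val.det := by
    rw [← Matrix.GeneralLinearGroup.val_det_apply, Matrix.SpecialLinearGroup.det_mapGL]
    simp
  have h : (fun z : ℂ => g (γ • ofComplex z)) = F ∘ G := by
    funext z
    simp only [Function.comp_apply, F, G, ofComplex_apply]
    rfl
  rw [h, analyticOrderAt_comp_of_deriv_ne_zero (τ.analyticAt_smul hdet)
    (τ.deriv_smul_ne_zero hdet)]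
  have hG : ((Matrix.SpecialLinearGroup.mapGL ℝ γ • ofComplex (τ : ℂ) : ℍ) : ℂ)
      = ((γ • τ : ℍ) : ℂ) := by
    rw [ofComplex_apply]
    rfl
  rw [hG]

/-! ### The order of `J - J(τ)` -/

open Fermat.Agent.S24 in
/-- The order of `J - J(τ)` at `τ` is `1`, `2` or `3`. -/
theorem s29_ap_fOrd_J (τ : ℍ) :
    s29_ap_fOrd (fun z => Jfun z - Jfun τ) τ = 1 ∨ s29_ap_fOrd (fun z => Jfun z - Jfun τ) τ = 2 ∨
      s29_ap_fOrd (fun z => Jfun z - Jfun τ) τ = 3 := by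
  have h4 : MDifferentiable 𝓘(ℂ) 𝓘(ℂ) (E₄ : ℍ → ℂ) := ModularFormClass.holo E₄
  have h6 : MDifferentiable 𝓘(ℂ) 𝓘(ℂ) (E₆ : ℍ → ℂ) := ModularFormClass.holo E₆
  have hΔinv : MDifferentiable 𝓘(ℂ) 𝓘(ℂ) (fun τ : ℍ => (Δ τ)⁻¹) := jord_discriminant_inv_mdiff
  by_cases h0 : Jfun τ = 0
  · right; right
    have hE : E₄ τ = 0 := (jordJ_eq_zero_iff τ).mp h0
    have hfun : (fun z : ℂ => Jfun (ofComplex z) - Jfun τ)
        = (fun z : ℂ => E₄ (ofComplex z)) ^ 3 * (fun z : ℂ => (Δ (ofComplex z))⁻¹) := by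
      funext z
      simp only [Pi.mul_apply, Pi.pow_apply]
      rw [h0, sub_zero, Fermat.Agent.S28.Jfun, div_eq_mul_inv]
    unfold s29_ap_fOrd
    rw [hfun, analyticOrderAt_mul ((jord_analyticAt h4 _).pow 3) (jord_analyticAt hΔinv _),
      analyticOrderAt_pow (jord_analyticAt h4 _),
      jord_order_one h4 hE (D_E₄_ne_zero hE),
      jord_order_zero hΔinv (inv_ne_zero (discriminant_ne_zero _))]
    rfl
  · by_cases h1 : Jfun τ = 1728
    · right; left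
      have hE : E₆ τ = 0 := (jordJ_eq_iff τ).mp h1
      have hfun : (fun z : ℂ => Jfun (ofComplex z) - Jfun τ)
          = (fun z : ℂ => E₆ (ofComplex z)) ^ 2 * (fun z : ℂ => (Δ (ofComplex z))⁻¹) := by
        funext z
        have := jordJ_sub (ofComplex z)
        simp only [Pi.mul_apply, Pi.pow_apply]
        rw [h1, ← jordJ_eq_Jfun, this, div_eq_mul_inv]
      unfold s29_ap_fOrd
      rw [hfun, analyticOrderAt_mul ((jord_analyticAt h6 _).pow 2) (jord_analyticAt hΔinv _),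
        analyticOrderAt_pow (jord_analyticAt h6 _),
        jord_order_one h6 hE (D_E₆_ne_zero hE),
        jord_order_zero hΔinv (inv_ne_zero (discriminant_ne_zero _))]
      rfl
    · left
      unfold s29_ap_fOrd
      rw [Jfun_order_generic τ h0 h1]
      rfl

theorem s29_ap_fOrd_J_pos (τ : ℍ) : 0 < s29_ap_fOrd (fun z => Jfun z - Jfun τ) τ := by
  rcases s29_ap_fOrd_J τ with h | h | h <;> omega

theorem s29_ap_fOrd_J_dvd (τ : ℍ) : s29_ap_fOrd (fun z => Jfun z - Jfun τ) τ ∣ 6 := by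
  rcases s29_ap_fOrd_J τ with h | h | h <;> rw [h] <;> norm_num

end Fermat.Agent.S29
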