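import Mathlib
import Fermat.Agent.S24.PlaceBasic
import Fermat.Agent.S24.Extend

/-!
# S29 (BRIDGE), TRANSPORT: the abstract place-theoretic core

`K` a field of characteristic `0`, `F / K` a field, `L / F` a finite extension.

* `s29_ck_place_over`: an integer valuation `v` of `F`, trivial on `K` and non-trivial, is
  proportional to the restriction to `F` of the order function of a place `w` of `L`:
  `a * v f = b * w.ord f` with `a, b > 0`.
* `s29_ck_transport_abs`: if moreover every place `w` of `L` at which a given `u ∈ F` has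
  positive order is (proportional to) a member `V x` of a family of valuations of `F`, with
  `V x u = v u`, then `v = V x` for some `x`.
-/

set_option autoImplicit false
set_option linter.style.haveILetI false

namespace Fermat.Agent.S29

open AlgebraicCurve
open Fermat.Agent.S24

section ck

variable {K F L : Type*} [Field K] [CharZero K] [Field F] [Algebra K F] [Field L] [Algebra K L]
  [Algebra F L] [IsScalarTower K F L] [FiniteDimensional F L]

/-- An integer valuation of `F`, trivial on `K` and non-trivial, is proportional to the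
restriction of the order function of a place of the finite extension `L`. -/
theorem s29_ck_place_over (v : F → ℤ)
    (hmul : ∀ f g : F, f ≠ 0 → g ≠ 0 → v (f * g) = v f + v g)
    (hadd : ∀ f g : F, f ≠ 0 → g ≠ 0 → f + g ≠ 0 → min (v f) (v g) ≤ v (f + g))
    (hK : ∀ c : K, c ≠ 0 → v (algebraMap K F c) = 0)
    (hnt : ∃ f : F, f ≠ 0 ∧ v f ≠ 0) :
    ∃ (w : Place K L) (a b : ℤ), 0 < a ∧ 0 < b ∧
      ∀ f : F, f ≠ 0 → a * v f = b * w.ord (algebraMap F L f) := by
  haveI : CharZero F := charZero_of_injective_algebraMap (algebraMap K F).injective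
  obtain ⟨P, e, he, hP⟩ := exists_place_of_ord (K := K) (F := F) v hmul hadd hK hnt
  obtain ⟨w, hw⟩ := ext_exists_place_over_core (K := K) (F := F) (L := L) P
  have hw' : ∀ f : F, 0 ≤ w.ord (algebraMap F L f) ↔ 0 ≤ P.ord f := fun f => by
    rw [← mem_iff_ord_nonneg, ← mem_iff_ord_nonneg]
    exact hw f
  -- the restriction of `w` to `F` is non-trivial
  have hnt' : ∃ f : F, f ≠ 0 ∧ w.ord (algebraMap F L f) ≠ 0 := by
    obtain ⟨f, hf, hvf⟩ := hnt
    have hPf : P.ord f ≠ 0 := by
      intro h0
      rw [hP f hf, h0, mul_zero] at hvf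
      exact hvf rfl
    rcases lt_or_gt_of_ne hPf with h | h
    · refine ⟨f, hf, fun h0 => ?_⟩
      have := (hw' f).mp (by rw [h0])
      omega
    · refine ⟨f⁻¹, inv_ne_zero hf, fun h0 => ?_⟩
      have := (hw' f⁻¹).mp (by rw [h0])
      rw [P.ord_inv] at this
      omega
  obtain ⟨P', e', he', hP'⟩ := exists_restrict_place (K := K) (F := F) (L := L) w hnt'
  have hPP : P' = P := by
    refine place_ext_ord fun f => ?_
    rw [← hw' f, hP' f]
    constructor
    · intro h
      positivity
    · intro h
      by_contra hneg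
      push Not at hneg
      nlinarith
  refine ⟨w, e', e, he', he, fun f hf => ?_⟩
  rw [hP f hf, hP' f, hPP]
  ring

/-- **Abstract transport.**  `v` an integer valuation of `F` trivial on `K`, `u ∈ F` with
`0 < v u`, and `V : X → F → ℤ` a family such that every place `w` of `L` with `0 < w.ord u`
restricts on `F` to a positive multiple of some `V x` with `V x u = v u`.  Then `v = V x` for
some `x`. -/
theorem s29_ck_transport_abs {X : Type*} (V : X → F → ℤ) (v : F → ℤ)
    (hmul : ∀ f g : F, f ≠ 0 → g ≠ 0 → v (f * g) = v f + v g)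
    (hadd : ∀ f g : F, f ≠ 0 → g ≠ 0 → f + g ≠ 0 → min (v f) (v g) ≤ v (f + g))
    (hK : ∀ c : K, c ≠ 0 → v (algebraMap K F c) = 0)
    (u : F) (hu0 : u ≠ 0) (hu : 0 < v u)
    (hAP : ∀ w : Place K L, 0 < w.ord (algebraMap F L u) →
      ∃ (x : X) (e : ℤ), 0 < e ∧ (∀ f : F, f ≠ 0 → e * V x f = w.ord (algebraMap F L f)) ∧
        V x u = v u) :
    ∃ x : X, ∀ f : F, f ≠ 0 → v f = V x f := by
  obtain ⟨w, a, b, ha, hb, hw⟩ := s29_ck_place_over (K := K) (F := F) (L := L) v hmul hadd hK
    ⟨u, hu0, ne_of_gt hu⟩
  have hwu : 0 < w.ord (algebraMap F L u) := by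
    have h1 := hw u hu0
    have h2 : 0 < a * v u := mul_pos ha hu
    rw [h1] at h2
    by_contra hneg
    push Not at hneg
    nlinarith
  obtain ⟨x, e, he, hx, hxu⟩ := hAP w hwu
  refine ⟨x, fun f hf => ?_⟩
  -- `a = b * e`
  have h1 := hw u hu0
  have h2 := hx u hu0
  rw [hxu] at h2
  have hab : a = b * e := by
    have h3 : a * v u = (b * e) * v u := by
      rw [h1, ← h2]
      ring
    exact mul_right_cancel₀ (ne_of_gt hu) h3
  have h4 := hw f hf
  have h5 := hx f hf
  rw [← h5, hab] at h4
  have h6 : (b * e) * v f = (b * e) * V x f := by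
    rw [h4]
    ring
  exact mul_left_cancel₀ (ne_of_gt (mul_pos hb he)) h6

end ck

end Fermat.Agent.S29
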