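import Fermat.Agent.S29.ApEmb
import Fermat.Agent.S29.ApOrd
import Fermat.Agent.S29.CKeyAbs
import Fermat.Agent.S29.CPlaceL
import Fermat.Agent.S24.AnPlaceGen
import Fermat.Prelude.Def_ModularCurve_ArithmeticGalois

/-!
# S29 (project BRIDGE), block (AP): transport of analytic orders by `Aut(ℂ)`

`s29_ap_ordL N τ : s29_cm_L N → ℤ` is the analytic order at `τ` on `L_C = Frac ℂ[J(dγτ)]`.
Given (AP-L) — every place of `L_C` over a finite value `c` of `J` is the analytic place at some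
`τ'` with `J(τ') = c` — we prove **TRANSPORT**: for every automorphism `σ` of `ℂ` and every
`τ` there is `τ'` with `J(τ') = σ⁻¹(J(τ))` and
`ord_τ (σ f) = ord_τ' f` for all `f ∈ F_C = ℂ·F_N`.
-/

set_option autoImplicit false
set_option linter.style.haveILetI false

open UpperHalfPlane ModularCurve AlgebraicCurve
open scoped MatrixGroups IntermediateField Manifold

noncomputable section

namespace Fermat.Agent.S29

open Fermat.Agent.S28 (Jfun scaleH HasQExp)
open Fermat.Agent.S24 (anpOrd anpOrd_div anpOrd_mul anpOrd_add anpOrd_algebraMap anp_exists_div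
  anp_algebraMap_ne_zero)
open CongruenceSubgroup ModularGroup

/-! ### The exact order of `J - J(τ)` -/

local notation "Δ" => ModularForm.discriminant

open Fermat.Agent.S24 EisensteinSeries ModularForm in
/-- The order of `J - J(τ)` at `τ` is `3`, `2`, `1` according to `J(τ) = 0`, `1728`, other. -/
theorem s29_ap_fOrd_J_eq (τ : ℍ) :
    s29_ap_fOrd (fun z => Jfun z - Jfun τ) τ
      = if Jfun τ = 0 then 3 else if Jfun τ = 1728 then 2 else 1 := by
  have h4 : MDifferentiable 𝓘(ℂ) 𝓘(ℂ) (E₄ : ℍ → ℂ) := ModularFormClass.holo E₄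
  have h6 : MDifferentiable 𝓘(ℂ) 𝓘(ℂ) (E₆ : ℍ → ℂ) := ModularFormClass.holo E₆
  have hΔinv : MDifferentiable 𝓘(ℂ) 𝓘(ℂ) (fun τ : ℍ => (Δ τ)⁻¹) := jord_discriminant_inv_mdiff
  by_cases h0 : Jfun τ = 0
  · rw [if_pos h0]
    have hE : E₄ τ = 0 := (jordJ_eq_zero_iff τ).mp h0
    have hfun : (fun z : ℂ => Jfun (ofComplex z) - Jfun τ)
        = (fun z : ℂ => E₄ (ofComplex z)) ^ 3 * (fun z : ℂ => (Δ (ofComplex z))⁻¹) := by
      funext z
      simp only [Pi.mul_apply, Pi.pow_apply]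
      rw [h0, sub_zero, Fermat.Agent.S28.Jfun, div_eq_mul_inv]
    unfold s29_ap_fOrd
    rw [hfun, analyticOrderAt_mul ((jord_analyticAt h4 _).pow 3) (jord_analyticAt hΔinv _),
      analyticOrderAt_pow (jord_analyticAt h4 _),
      jord_order_one h4 hE (D_E₄_ne_zero hE),
      jord_order_zero hΔinv (inv_ne_zero (discriminant_ne_zero _))]
    rfl
  · rw [if_neg h0]
    by_cases h1 : Jfun τ = 1728
    · rw [if_pos h1]
      have hE : E₆ τ = 0 := (jordJ_eq_iff τ).mp h1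
      have hfun : (fun z : ℂ => Jfun (ofComplex z) - Jfun τ)
          = (fun z : ℂ => E₆ (ofComplex z)) ^ 2 * (fun z : ℂ => (Δ (ofComplex z))⁻¹) := by
        funext z
        have := jordJ_sub (ofComplex z)
        simp only [Pi.mul_apply, Pi.pow_apply]
        rw [h1, ← jordJ_eq_Jfun, this, div_eq_mul_inv]
      unfold s29_ap_fOrd
      rw [hfun, analyticOrderAt_mul ((jord_analyticAt h6 _).pow 2) (jord_analyticAt hΔinv _),
        analyticOrderAt_pow (jord_analyticAt h6 _),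
        jord_order_one h6 hE (D_E₆_ne_zero hE),
        jord_order_zero hΔinv (inv_ne_zero (discriminant_ne_zero _))]
      rfl
    · rw [if_neg h1]
      unfold s29_ap_fOrd
      rw [Jfun_order_generic τ h0 h1]
      rfl

/-- The order of `J - J(τ)` at `τ` only depends on `J(τ)` up to automorphisms of `ℂ`. -/
theorem s29_ap_fOrd_J_aut (σ : ℂ ≃ₐ[ℚ] ℂ) (τ τ' : ℍ) (h : Jfun τ' = σ.symm (Jfun τ)) :
    s29_ap_fOrd (fun z => Jfun z - Jfun τ') τ' = s29_ap_fOrd (fun z => Jfun z - Jfun τ) τ := by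
  rw [s29_ap_fOrd_J_eq, s29_ap_fOrd_J_eq, h]
  have e0 : σ.symm (Jfun τ) = 0 ↔ Jfun τ = 0 := map_eq_zero_iff _ σ.symm.injective
  have e1 : σ.symm (Jfun τ) = 1728 ↔ Jfun τ = 1728 := by
    constructor
    · intro h1
      have h2 : σ.symm (Jfun τ) = σ.symm 1728 := by rw [h1, map_ofNat]
      exact σ.symm.injective h2
    · intro h1
      rw [h1, map_ofNat]
  simp only [e0, e1]

/-! ### The analytic order on the ring and on `L_C` -/

variable (N : ℕ) [NeZero N]

/-- The analytic order at `τ` of an element of `s29_cm_ring N`. -/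
def s29_ap_vR (τ : ℍ) (x : s29_cm_ring N) : ℤ := s29_ap_fOrd (x : ℍ → ℂ) τ

omit [NeZero N] in
theorem s29_ap_coe_ne_zero {x : s29_cm_ring N} (hx : x ≠ 0) : (x : ℍ → ℂ) ≠ 0 :=
  fun h => hx (Subtype.ext h)

theorem s29_ap_vR_mul (τ : ℍ) (x y : s29_cm_ring N) (hx : x ≠ 0) (hy : y ≠ 0) :
    s29_ap_vR N τ (x * y) = s29_ap_vR N τ x + s29_ap_vR N τ y :=
  s29_ap_fOrd_mul (s29_cm_mdiff x.2) (s29_cm_mdiff y.2) (s29_ap_coe_ne_zero N hx)
    (s29_ap_coe_ne_zero N hy) τ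

theorem s29_ap_vR_add (τ : ℍ) (x y : s29_cm_ring N) (hx : x ≠ 0) (hy : y ≠ 0)
    (hxy : x + y ≠ 0) :
    min (s29_ap_vR N τ x) (s29_ap_vR N τ y) ≤ s29_ap_vR N τ (x + y) :=
  s29_ap_fOrd_add (s29_cm_mdiff x.2) (s29_cm_mdiff y.2) (s29_ap_coe_ne_zero N hx)
    (s29_ap_coe_ne_zero N hy) (s29_ap_coe_ne_zero N hxy) τ

omit [NeZero N] in
theorem s29_ap_vR_algebraMap (τ : ℍ) (c : ℂ) (hc : c ≠ 0) :
    s29_ap_vR N τ (algebraMap ℂ (s29_cm_ring N) c) = 0 :=
  s29_ap_fOrd_const c hc τ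

/-- The analytic order at `τ` on `L_C`. -/
def s29_ap_ordL (τ : ℍ) (f : s29_cm_L N) : ℤ := anpOrd (s29_cm_L N) (s29_ap_vR N τ) f

theorem s29_ap_ordL_div (τ : ℍ) {a b : s29_cm_ring N} (ha : a ≠ 0) (hb : b ≠ 0) :
    s29_ap_ordL N τ (algebraMap (s29_cm_ring N) (s29_cm_L N) a
      / algebraMap (s29_cm_ring N) (s29_cm_L N) b) = s29_ap_vR N τ a - s29_ap_vR N τ b :=
  anpOrd_div (s29_ap_vR N τ) (s29_ap_vR_mul N τ) ha hb

theorem s29_ap_ordL_algebraMap (τ : ℍ) {a : s29_cm_ring N} (ha : a ≠ 0) :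
    s29_ap_ordL N τ (algebraMap (s29_cm_ring N) (s29_cm_L N) a) = s29_ap_vR N τ a :=
  anpOrd_algebraMap (s29_ap_vR N τ) (s29_ap_vR_mul N τ) ha

theorem s29_ap_ordL_mul (τ : ℍ) {f g : s29_cm_L N} (hf : f ≠ 0) (hg : g ≠ 0) :
    s29_ap_ordL N τ (f * g) = s29_ap_ordL N τ f + s29_ap_ordL N τ g :=
  anpOrd_mul (s29_ap_vR N τ) (s29_ap_vR_mul N τ) hf hg

theorem s29_ap_ordL_add (τ : ℍ) {f g : s29_cm_L N} (hf : f ≠ 0) (hg : g ≠ 0)
    (hfg : f + g ≠ 0) :
    min (s29_ap_ordL N τ f) (s29_ap_ordL N τ g) ≤ s29_ap_ordL N τ (f + g) :=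
  anpOrd_add (s29_ap_vR N τ) (s29_ap_vR_mul N τ) (s29_ap_vR_add N τ) hf hg hfg

theorem s29_ap_ordL_const (τ : ℍ) (c : ℂ) (hc : c ≠ 0) :
    s29_ap_ordL N τ (algebraMap ℂ (s29_cm_L N) c) = 0 := by
  rw [IsScalarTower.algebraMap_apply ℂ (s29_cm_ring N) (s29_cm_L N),
    s29_ap_ordL_algebraMap N τ (fun h => hc ((algebraMap ℂ (s29_cm_ring N)).injective
      (by rw [h, map_zero]))), s29_ap_vR_algebraMap N τ c hc]

omit [NeZero N] in
/-- `J - c` as an element of the ring. -/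
theorem s29_ap_coe_Jelt_sub (c : ℂ) :
    ((s29_cm_Jelt N 1 (one_dvd N) - algebraMap ℂ (s29_cm_ring N) c : s29_cm_ring N) : ℍ → ℂ)
      = fun z => Jfun z - c := by
  funext z
  have h1 : scaleH 1 ((1 : SL(2, ℤ)) • z) = z := by
    apply UpperHalfPlane.ext
    simp
  show Jfun (scaleH 1 ((1 : SL(2, ℤ)) • z)) - c = _
  rw [h1]

omit [NeZero N] in
theorem s29_ap_Jelt_sub_ne_zero (c : ℂ) :
    s29_cm_Jelt N 1 (one_dvd N) - algebraMap ℂ (s29_cm_ring N) c ≠ 0 := by
  intro h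
  obtain ⟨τ, hτ⟩ := Fermat.Agent.S24.Jfun_surjective (c + 1)
  have h1 := congrFun (s29_ap_coe_Jelt_sub N c) τ
  rw [h] at h1
  have h2 : ((0 : s29_cm_ring N) : ℍ → ℂ) τ = 0 := rfl
  rw [h2, hτ] at h1
  simp at h1

theorem s29_ap_jL_sub (c : ℂ) :
    s29_cm_jL N - algebraMap ℂ (s29_cm_L N) c
      = algebraMap (s29_cm_ring N) (s29_cm_L N)
        (s29_cm_Jelt N 1 (one_dvd N) - algebraMap ℂ (s29_cm_ring N) c) := by
  rw [map_sub, ← IsScalarTower.algebraMap_apply ℂ (s29_cm_ring N) (s29_cm_L N)]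
  rfl

/-- The analytic order of `J - c` at `τ`. -/
theorem s29_ap_ordL_jL_sub (τ : ℍ) (c : ℂ) :
    s29_ap_ordL N τ (s29_cm_jL N - algebraMap ℂ (s29_cm_L N) c)
      = s29_ap_fOrd (fun z => Jfun z - c) τ := by
  rw [s29_ap_jL_sub, s29_ap_ordL_algebraMap N τ (s29_ap_Jelt_sub_ne_zero N c)]
  unfold s29_ap_vR
  rw [s29_ap_coe_Jelt_sub]

/-! ### `L_C` is finite over `F_C` -/

/-- `F_C → L_C`. -/
@[reducible] def s29_ap_algFL : Algebra (s29_ap_FC N) (s29_cm_L N) :=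
  (s29_ap_embFC N).toRingHom.toAlgebra

attribute [local instance] s29_ap_algFL

/-- local instance helper. -/
@[reducible] def s29_ap_smulFL : SMul (s29_ap_FC N) (s29_cm_L N) := (s29_ap_algFL N).toSMul

/-- local instance helper. -/
@[reducible] def s29_ap_moduleFL : Module (s29_ap_FC N) (s29_cm_L N) := (s29_ap_algFL N).toModule

attribute [local instance 10000] s29_ap_smulFL s29_ap_moduleFL

theorem s29_ap_algebraMap_FL (f : s29_ap_FC N) :
    algebraMap (s29_ap_FC N) (s29_cm_L N) f = s29_ap_embFC N f := rfl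

theorem s29_ap_towerFL : IsScalarTower ℂ (s29_ap_FC N) (s29_cm_L N) :=
  IsScalarTower.of_algebraMap_eq fun c => by
    rw [s29_ap_algebraMap_FL]
    exact ((s29_ap_embFC N).commutes c).symm

theorem s29_ap_fixed_mem_range (x : s29_cm_L N) (hx : ∀ γ : SL(2, ℤ), γ • x = x) :
    ∃ f : s29_ap_FC N, s29_ap_embFC N f = x := by
  have h1 : x ∈ ℂ⟮s29_cm_jL N⟯ := s29_cm_fixed N x hx
  have hle : ℂ⟮s29_cm_jL N⟯ ≤ (s29_ap_embFC N).fieldRange := by
    rw [IntermediateField.adjoin_simple_le_iff]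
    exact ⟨s29_ap_jFC N, s29_ap_embFC_jFC N⟩
  exact hle h1

theorem s29_ap_finiteFL : FiniteDimensional (s29_ap_FC N) (s29_cm_L N) := by
  classical
  let G : Subgroup (s29_cm_L N ≃ₐ[ℂ] s29_cm_L N) := (s29_cm_rho N).range
  haveI : Finite G := s29_cm_finite_range_rho N
  letI : MulSemiringAction G (s29_cm_L N) := Subgroup.mulSemiringAction G
  have hfin : FiniteDimensional (FixedPoints.subfield G (s29_cm_L N)) (s29_cm_L N) :=
    inferInstance
  obtain ⟨S, hS⟩ := Module.finite_def.mp hfin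
  refine Module.finite_def.mpr ⟨S, ?_⟩
  rw [eq_top_iff]
  rintro x -
  have hx : x ∈ Submodule.span (FixedPoints.subfield G (s29_cm_L N)) (S : Set (s29_cm_L N)) := by
    rw [hS]
    exact Submodule.mem_top
  induction hx using Submodule.span_induction with
  | mem y hy => exact Submodule.subset_span hy
  | zero => exact Submodule.zero_mem _
  | add y z _ _ hy hz => exact Submodule.add_mem _ hy hz
  | smul a y _ hy =>
    have ha : ∀ γ : SL(2, ℤ), γ • (a : s29_cm_L N) = a := by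
      intro γ
      exact a.2 ⟨s29_cm_rho N γ, γ, rfl⟩
    obtain ⟨f, hf⟩ := s29_ap_fixed_mem_range N (a : s29_cm_L N) ha
    have e : a • y = f • y := by
      rw [Algebra.smul_def f y, s29_ap_algebraMap_FL, hf]
      rfl
    rw [e]
    exact Submodule.smul_mem _ f hy

/-! ### TRANSPORT -/

/-- The statement (AP-L): every place of `L_C` over a finite value `c` of `J` is the analytic
place at some `τ` with `J(τ) = c`. -/
def s29_ap_APL : Prop :=
  ∀ (w : Place ℂ (s29_cm_L N)) (c : ℂ),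
    0 < w.ord (s29_cm_jL N - algebraMap ℂ (s29_cm_L N) c) →
    ∃ (τ : ℍ) (e : ℤ), 0 < e ∧ Jfun τ = c ∧ ∀ x : s29_cm_ring N, x ≠ 0 →
      ((analyticOrderAt (fun z : ℂ => (x : ℍ → ℂ) (ofComplex z)) (τ : ℂ)).toNat : ℤ)
        = e * w.ord (algebraMap (s29_cm_ring N) (s29_cm_L N) x)

/-- `j` is fixed by the coefficientwise action of `Aut(ℂ)`. -/
theorem s29_ap_aut_jFC (σ : ℂ ≃ₐ[ℚ] ℂ) :
    arithmeticRingAut (modularFunctionFieldFull N) σ (s29_ap_jFC N) = s29_ap_jFC N := by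
  apply Subtype.ext
  show coeffMap (σ : ℂ →+* ℂ) (coeffEmb ℂ jq) = coeffEmb ℂ jq
  rw [coeffMap_coeffEmb]

/-- **TRANSPORT** (given (AP-L)): for every automorphism `σ` of `ℂ` and every `τ` there is `τ'`
with `J(τ') = σ⁻¹(J(τ))` such that the analytic order at `τ` of `σ f` is the analytic order at
`τ'` of `f`, for every `f ∈ F_C`. -/
theorem s29_ap_transport_of_APL (hAPL : s29_ap_APL N) (σ : ℂ ≃ₐ[ℚ] ℂ) (τ : ℍ) :
    ∃ τ' : ℍ, Jfun τ' = σ.symm (Jfun τ) ∧ ∀ f : s29_ap_FC N, f ≠ 0 →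
      s29_ap_ordL N τ (s29_ap_embFC N (arithmeticRingAut (modularFunctionFieldFull N) σ f))
        = s29_ap_ordL N τ' (s29_ap_embFC N f) := by
  haveI := s29_ap_towerFL N
  haveI := s29_ap_finiteFL N
  set A := arithmeticRingAut (modularFunctionFieldFull N) σ with hA
  set v : s29_ap_FC N → ℤ := fun f => s29_ap_ordL N τ (s29_ap_embFC N (A f)) with hv
  have hinj : Function.Injective (s29_ap_embFC N) := (s29_ap_embFC N).toRingHom.injective
  have hne' : ∀ f : s29_ap_FC N, f ≠ 0 → s29_ap_embFC N f ≠ 0 := by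
    intro f hf h
    exact hf (hinj (by rw [h, map_zero]))
  have hne : ∀ f : s29_ap_FC N, f ≠ 0 → s29_ap_embFC N (A f) ≠ 0 := by
    intro f hf
    apply hne'
    intro h
    exact hf (A.injective (by rw [h, map_zero]))
  have hmul : ∀ f g : s29_ap_FC N, f ≠ 0 → g ≠ 0 → v (f * g) = v f + v g := by
    intro f g hf hg
    simp only [hv]
    rw [map_mul, map_mul]
    exact s29_ap_ordL_mul N τ (hne f hf) (hne g hg)
  have hadd : ∀ f g : s29_ap_FC N, f ≠ 0 → g ≠ 0 → f + g ≠ 0 →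
      min (v f) (v g) ≤ v (f + g) := by
    intro f g hf hg hfg
    simp only [hv]
    rw [map_add, map_add]
    have h := hne (f + g) hfg
    rw [map_add, map_add] at h
    exact s29_ap_ordL_add N τ (hne f hf) (hne g hg) h
  have hK : ∀ c : ℂ, c ≠ 0 → v (algebraMap ℂ (s29_ap_FC N) c) = 0 := by
    intro c hc
    simp only [hv, hA]
    rw [arithmeticRingAut_algebraMap, AlgHom.commutes]
    exact s29_ap_ordL_const N τ (σ c) (by rwa [Ne, map_eq_zero_iff _ σ.injective])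
  -- the element `u = j - σ⁻¹(J τ)`
  set c' : ℂ := σ.symm (Jfun τ) with hc'
  set u : s29_ap_FC N := s29_ap_jFC N - algebraMap ℂ (s29_ap_FC N) c' with hu
  have hAu : A u = s29_ap_jFC N - algebraMap ℂ (s29_ap_FC N) (Jfun τ) := by
    rw [hu, map_sub, hA, s29_ap_aut_jFC, arithmeticRingAut_algebraMap, hc',
      AlgEquiv.apply_symm_apply]
  have hembu : ∀ c : ℂ, s29_ap_embFC N (s29_ap_jFC N - algebraMap ℂ (s29_ap_FC N) c)
      = s29_cm_jL N - algebraMap ℂ (s29_cm_L N) c := by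
    intro c
    rw [map_sub, s29_ap_embFC_jFC, AlgHom.commutes]
  have hvu : v u = s29_ap_fOrd (fun z => Jfun z - Jfun τ) τ := by
    simp only [hv]
    rw [hAu, hembu, s29_ap_ordL_jL_sub]
  have hvu_pos : 0 < v u := by
    rw [hvu]
    exact s29_ap_fOrd_J_pos τ
  have hu0 : u ≠ 0 := by
    intro h
    have h1 : s29_ap_embFC N u = 0 := by rw [h, map_zero]
    rw [hu, hembu] at h1
    rw [s29_ap_jL_sub] at h1
    exact anp_algebraMap_ne_zero (s29_ap_Jelt_sub_ne_zero N c') h1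
  obtain ⟨w, a, b, ha, hb, hw⟩ := s29_ck_place_over (K := ℂ) (F := s29_ap_FC N)
    (L := s29_cm_L N) v hmul hadd hK ⟨u, hu0, ne_of_gt hvu_pos⟩
  have hwu : 0 < w.ord (s29_cm_jL N - algebraMap ℂ (s29_cm_L N) c') := by
    have h1 := hw u hu0
    rw [s29_ap_algebraMap_FL, hu, hembu] at h1
    have h2 : 0 < a * v u := mul_pos ha hvu_pos
    rw [h1] at h2
    by_contra hneg
    push Not at hneg
    nlinarith
  obtain ⟨τ', e, he, hJ, hτ'⟩ := hAPL w c' hwu
  refine ⟨τ', hJ, ?_⟩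
  -- the analytic order at `τ'` is `e * w.ord` on `L_C`
  have hL : ∀ g : s29_cm_L N, g ≠ 0 → s29_ap_ordL N τ' g = e * w.ord g := by
    intro g hg
    obtain ⟨x, y, hy, rfl⟩ := anp_exists_div (R := s29_cm_ring N) g
    have hx : x ≠ 0 := by
      rintro rfl
      simp at hg
    rw [s29_ap_ordL_div N τ' hx hy, div_eq_mul_inv,
      w.ord_mul (anp_algebraMap_ne_zero hx) (inv_ne_zero (anp_algebraMap_ne_zero hy)),
      w.ord_inv]
    have h1 := hτ' x hx
    have h2 := hτ' y hy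
    unfold s29_ap_vR s29_ap_fOrd
    rw [h1, h2]
    ring
  -- comparison at `u`
  have hu' : s29_ap_ordL N τ' (s29_ap_embFC N u) = v u := by
    rw [hvu, hu, hembu, s29_ap_ordL_jL_sub, ← hJ]
    exact s29_ap_fOrd_J_aut σ τ τ' hJ
  have h1 := hw u hu0
  rw [s29_ap_algebraMap_FL] at h1
  have h2 := hL _ (hne' u hu0)
  rw [hu'] at h2
  have hab : b = a * e := by
    have h3 : b * v u = (a * e) * v u := by
      rw [h2] at h1
      calc b * v u = b * (e * w.ord (s29_ap_embFC N u)) := by rw [h2]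
        _ = e * (b * w.ord (s29_ap_embFC N u)) := by ring
        _ = e * (a * (e * w.ord (s29_ap_embFC N u))) := by rw [← h1]
        _ = (a * e) * (e * w.ord (s29_ap_embFC N u)) := by ring
        _ = (a * e) * v u := by rw [h2]
    exact mul_right_cancel₀ (ne_of_gt hvu_pos) h3
  intro f hf
  have h4 := hw f hf
  rw [s29_ap_algebraMap_FL] at h4
  have h5 := hL _ (hne' f hf)
  have h6 : a * v f = a * s29_ap_ordL N τ' (s29_ap_embFC N f) := by
    rw [h4, h5, hab]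
    ring
  exact mul_left_cancel₀ (ne_of_gt ha) h6

/-- (AP-L) holds (helper24's `s29_cpl_analytic`). -/
theorem s29_ap_APL_holds : s29_ap_APL N :=
  fun w c hw => s29_cpl_analytic N w c hw

/-- **TRANSPORT**: for every automorphism `σ` of `ℂ` and every `τ` there is `τ'` with
`J(τ') = σ⁻¹(J(τ))` such that the analytic order at `τ` of `σ f` is the analytic order at `τ'`
of `f`, for every nonzero `f ∈ F_C`. -/
theorem s29_ap_transport (σ : ℂ ≃ₐ[ℚ] ℂ) (τ : ℍ) :
    ∃ τ' : ℍ, Jfun τ' = σ.symm (Jfun τ) ∧ ∀ f : s29_ap_FC N, f ≠ 0 →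
      s29_ap_ordL N τ (s29_ap_embFC N (arithmeticRingAut (modularFunctionFieldFull N) σ f))
        = s29_ap_ordL N τ' (s29_ap_embFC N f) :=
  s29_ap_transport_of_APL N (s29_ap_APL_holds N) σ τ

/-! ### The `s29_Mer` form -/

/-- Adapter: for a ring homomorphism `φ : L_C → s29_Mer` which is the inclusion on the ring
`s29_cm_ring N`, the order of `φ g` at `τ` is `s29_ap_ordL N τ g`. -/
theorem s29_ap_ord_eq_ordL (φ : s29_cm_L N →+* s29_Mer)
    (hφ : ∀ x : s29_cm_ring N, φ (algebraMap (s29_cm_ring N) (s29_cm_L N) x)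
      = algebraMap s29_hol s29_Mer (s29_cpl_toHol N x))
    (τ : ℍ) (g : s29_cm_L N) (hg : g ≠ 0) : s29_ord τ (φ g) = s29_ap_ordL N τ g := by
  obtain ⟨x, y, hy, rfl⟩ := anp_exists_div (R := s29_cm_ring N) g
  have hx : x ≠ 0 := by
    rintro rfl
    simp at hg
  have hx' : s29_cpl_toHol N x ≠ 0 := fun h =>
    hx (s29_cpl_toHol_injective N (by rw [h, map_zero]))
  have hy' : s29_cpl_toHol N y ≠ 0 := fun h =>
    hy (s29_cpl_toHol_injective N (by rw [h, map_zero]))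
  rw [map_div₀, hφ, hφ, s29_ord_div τ hx' hy', s29_ap_ordL_div N τ hx hy]
  rfl

/-- **TRANSPORT**, `s29_Mer` form: `an := φ.comp (s29_ap_embFC N)` for any ring homomorphism
`φ : L_C → s29_Mer` which is the inclusion on `s29_cm_ring N`.  The element
`⟨coeffMap σ f, _⟩` is `s29_ck_sig N σ f`. -/
theorem s29_ap_transport_mer (φ : s29_cm_L N →+* s29_Mer)
    (hφ : ∀ x : s29_cm_ring N, φ (algebraMap (s29_cm_ring N) (s29_cm_L N) x)
      = algebraMap s29_hol s29_Mer (s29_cpl_toHol N x))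
    (σ : ℂ ≃ₐ[ℚ] ℂ) (τ : ℍ) :
    ∃ τ' : ℍ, Jfun τ' = σ.symm (Jfun τ) ∧ ∀ f : s29_ap_FC N, f ≠ 0 →
      s29_ord τ (φ (s29_ap_embFC N (⟨coeffMap (σ : ℂ →+* ℂ) (f : LaurentSeries ℂ),
          coeffMap_mem_laurentBaseChange σ f.2⟩ : s29_ap_FC N)))
        = s29_ord τ' (φ (s29_ap_embFC N f)) := by
  obtain ⟨τ', hJ, h⟩ := s29_ap_transport N σ τ
  refine ⟨τ', hJ, fun f hf => ?_⟩
  have hinj : Function.Injective (s29_ap_embFC N) := (s29_ap_embFC N).toRingHom.injective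
  have h1 : s29_ap_embFC N f ≠ 0 := fun h0 => hf (hinj (by rw [h0, map_zero]))
  have h2 : s29_ap_embFC N (arithmeticRingAut (modularFunctionFieldFull N) σ f) ≠ 0 := by
    intro h0
    apply hf
    have h3 := hinj (h0.trans (map_zero _).symm)
    exact (arithmeticRingAut (modularFunctionFieldFull N) σ).injective (by rw [h3, map_zero])
  have e := h f hf
  rw [← s29_ap_ord_eq_ordL N φ hφ τ _ h2, ← s29_ap_ord_eq_ordL N φ hφ τ' _ h1] at e
  exact e

end Fermat.Agent.S29
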