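import Mathlib
import Fermat.Prelude.Def_ModularCurve_LaurentCoeff

/-!
# BRIDGE, block (D): numbers with a finite-index stabiliser in `Aut(ℂ/ℚ)` are algebraic

* `s29_da_exists_perm` : an algebraically closed field has an automorphism inducing a given
  permutation of a transcendence basis.
* `s29_da_exists_aut` : a transcendental complex number has infinitely many conjugates under
  `Aut(ℂ/ℚ)`.
* `s29_da_isAlgebraic_of_fixed` : a complex number fixed by a subgroup of finite index of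
  `Aut(ℂ/ℚ)` is algebraic.
* `s29_da_series_descend` : a Laurent series over `ℂ` fixed coefficientwise by a subgroup of finite
  index comes from a Laurent series over `AlgebraicClosure ℚ`.
-/

set_option autoImplicit false

open Cardinal

noncomputable section

namespace Fermat.Agent.S29

/-- An algebraically closed field has an automorphism inducing a given permutation of a
transcendence basis. -/
theorem s29_da_exists_perm {K : Type*} [Field K] [IsAlgClosed K] [Algebra ℚ K] {ι : Type*}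
    (v : ι → K) (hv : IsTranscendenceBasis ℚ v) (e : ι ≃ ι) :
    ∃ σ : K ≃ₐ[ℚ] K, ∀ i, σ (v i) = v (e i) := by
  have : IsAlgClosure (Algebra.adjoin ℚ (Set.range v)) K :=
    IsAlgClosed.isAlgClosure_of_transcendence_basis v hv
  let e₀ : Algebra.adjoin ℚ (Set.range v) ≃ₐ[ℚ] Algebra.adjoin ℚ (Set.range v) :=
    (hv.1.aevalEquiv.symm.trans (MvPolynomial.renameEquiv ℚ e)).trans hv.1.aevalEquiv
  let σ₀ : K ≃+* K := IsAlgClosure.equivOfEquiv K K e₀.toRingEquiv
  have hσ₀ : ∀ s : Algebra.adjoin ℚ (Set.range v),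
      σ₀ (algebraMap (Algebra.adjoin ℚ (Set.range v)) K s) =
        algebraMap (Algebra.adjoin ℚ (Set.range v)) K (e₀ s) :=
    fun s => IsAlgClosure.equivOfEquiv_algebraMap K K e₀.toRingEquiv s
  have hX : ∀ i, hv.1.aevalEquiv (MvPolynomial.X i) =
      (⟨v i, Algebra.subset_adjoin ⟨i, rfl⟩⟩ : Algebra.adjoin ℚ (Set.range v)) := by
    intro i
    apply Subtype.ext
    have h1 := hv.1.algebraMap_aevalEquiv (MvPolynomial.X i)
    rw [MvPolynomial.aeval_X] at h1
    exact h1
  refine ⟨AlgEquiv.ofRingEquiv (f := σ₀) (fun r => ?_), fun i => ?_⟩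
  · exact RingHom.congr_fun
      (RingHom.ext_rat ((σ₀ : K →+* K).comp (algebraMap ℚ K)) (algebraMap ℚ K)) r
  · have h1 : v i = algebraMap (Algebra.adjoin ℚ (Set.range v)) K
        ⟨v i, Algebra.subset_adjoin ⟨i, rfl⟩⟩ := rfl
    have h2 : e₀ ⟨v i, Algebra.subset_adjoin ⟨i, rfl⟩⟩ =
        (⟨v (e i), Algebra.subset_adjoin ⟨e i, rfl⟩⟩ : Algebra.adjoin ℚ (Set.range v)) := by
      show hv.1.aevalEquiv (MvPolynomial.renameEquiv ℚ e (hv.1.aevalEquiv.symm _)) = _
      rw [← hX i, AlgEquiv.symm_apply_apply, MvPolynomial.renameEquiv_apply,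
        MvPolynomial.rename_X, hX]
    show σ₀ (v i) = v (e i)
    rw [h1, hσ₀, h2]
    rfl

/-- A transcendental complex number has infinitely many conjugates under `Aut(ℂ/ℚ)`. -/
theorem s29_da_exists_aut (c : ℂ) (hc : Transcendental ℚ c) :
    ∃ s : Set ℂ, s.Infinite ∧ ∀ b ∈ s, ∃ σ : ℂ ≃ₐ[ℚ] ℂ, σ c = b := by
  classical
  have hind : AlgebraicIndepOn ℚ id ({c} : Set ℂ) :=
    (algebraicIndependent_singleton_iff (⟨c, rfl⟩ : ({c} : Set ℂ))).mpr hc
  obtain ⟨t, hct, ht⟩ := exists_isTranscendenceBasis_superset hind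
  have hcmem : c ∈ t := hct rfl
  refine ⟨t, ?_, fun b hb => ?_⟩
  · have hcard : #ℂ = #t :=
      IsAlgClosed.cardinal_eq_cardinal_transcendence_basis_of_aleph0_lt' ((↑) : t → ℂ) ht
        (le_of_eq Cardinal.mkRat) (by rw [Cardinal.mk_complex]; exact Cardinal.aleph0_lt_continuum)
    rw [← Set.infinite_coe_iff, Cardinal.infinite_iff, ← hcard, Cardinal.mk_complex]
    exact Cardinal.aleph0_le_continuum
  · obtain ⟨σ, hσ⟩ := s29_da_exists_perm ((↑) : t → ℂ) ht (Equiv.swap ⟨c, hcmem⟩ ⟨b, hb⟩)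
    refine ⟨σ, ?_⟩
    have h1 := hσ ⟨c, hcmem⟩
    rwa [Equiv.swap_apply_left] at h1

/-- A complex number fixed by a subgroup of finite index of `Aut(ℂ/ℚ)` is algebraic. -/
theorem s29_da_isAlgebraic_of_fixed (H : Subgroup (ℂ ≃ₐ[ℚ] ℂ)) [H.FiniteIndex] (c : ℂ)
    (hc : ∀ σ ∈ H, σ c = c) : IsAlgebraic ℚ c := by
  classical
  by_contra halg
  obtain ⟨s, hs, hσ⟩ := s29_da_exists_aut c halg
  choose! σ hσ' using hσ
  have : Infinite s := Set.infinite_coe_iff.mpr hs
  have : Finite ((ℂ ≃ₐ[ℚ] ℂ) ⧸ H) := Subgroup.finite_quotient_of_finiteIndex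
  obtain ⟨b, b', hne, heq⟩ := Finite.exists_ne_map_eq_of_infinite
    (fun b : s => (QuotientGroup.mk (σ b) : (ℂ ≃ₐ[ℚ] ℂ) ⧸ H))
  have h1 : (σ b)⁻¹ * σ b' ∈ H := QuotientGroup.eq.mp heq
  have h2 := hc _ h1
  have h3 : σ b' c = σ b c := by
    have h4 : σ b (((σ b)⁻¹ * σ b') c) = σ b c := by rw [h2]
    rw [AlgEquiv.mul_apply] at h4
    have h5 : σ b ((σ b)⁻¹ (σ b' c)) = σ b' c := by
      show (σ b * (σ b)⁻¹) (σ b' c) = σ b' c
      rw [mul_inv_cancel]
      rfl
    rw [h5] at h4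
    exact h4
  rw [hσ' b b.2, hσ' b' b'.2] at h3
  exact hne (Subtype.ext h3.symm)

open ModularCurve in
/-- A Laurent series over `ℂ` fixed coefficientwise by a subgroup of finite index of `Aut(ℂ/ℚ)`
comes from a Laurent series over `AlgebraicClosure ℚ`. -/
theorem s29_da_series_descend (ι : AlgebraicClosure ℚ →+* ℂ) (H : Subgroup (ℂ ≃ₐ[ℚ] ℂ))
    [H.FiniteIndex] (x : LaurentSeries ℂ)
    (hx : ∀ σ ∈ H, coeffMap ((σ : ℂ ≃ₐ[ℚ] ℂ) : ℂ →+* ℂ) x = x) :
    ∃ y : LaurentSeries (AlgebraicClosure ℚ), coeffMap ι y = x := by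
  classical
  -- every coefficient is algebraic, hence in the image of `ι`
  have hcoeff : ∀ n : ℤ, ∃ a : AlgebraicClosure ℚ, ι a = x.coeff n := by
    intro n
    have halg : IsAlgebraic ℚ (x.coeff n) := by
      refine s29_da_isAlgebraic_of_fixed H _ (fun σ hσ => ?_)
      exact congrArg (fun z : LaurentSeries ℂ => z.coeff n) (hx σ hσ)
    -- the minimal polynomial splits in `AlgebraicClosure ℚ`
    have hint : IsIntegral ℚ (x.coeff n) := halg.isIntegral
    have hsplit : ((minpoly ℚ (x.coeff n)).map (algebraMap ℚ (AlgebraicClosure ℚ))).Splits :=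
      IsAlgClosed.splits _
    have hι : ι.comp (algebraMap ℚ (AlgebraicClosure ℚ)) = algebraMap ℚ ℂ :=
      RingHom.ext_rat _ _
    have hroot : Polynomial.eval₂ ι (x.coeff n)
        ((minpoly ℚ (x.coeff n)).map (algebraMap ℚ (AlgebraicClosure ℚ))) = 0 := by
      rw [Polynomial.eval₂_map, hι]
      exact minpoly.aeval ℚ (x.coeff n)
    have hne : (minpoly ℚ (x.coeff n)).map (algebraMap ℚ (AlgebraicClosure ℚ)) ≠ 0 :=
      Polynomial.map_ne_zero (minpoly.ne_zero hint)
    -- a root of a split polynomial under an embedding comes from a root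
    have hmem : x.coeff n ∈ (((minpoly ℚ (x.coeff n)).map
        (algebraMap ℚ (AlgebraicClosure ℚ))).map ι).roots := by
      rw [Polynomial.mem_roots (Polynomial.map_ne_zero hne), Polynomial.IsRoot,
        Polynomial.eval_map]
      exact hroot
    rw [hsplit.roots_map ι, Multiset.mem_map] at hmem
    obtain ⟨a, -, ha⟩ := hmem
    exact ⟨a, ha⟩
  choose a ha using hcoeff
  refine ⟨HahnSeries.ofSuppBddBelow a ?_, ?_⟩
  · refine ⟨x.order, fun k hk => le_of_not_gt fun hlt => hk ?_⟩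
    have h0 : x.coeff k = 0 := HahnSeries.coeff_eq_zero_of_lt_order hlt
    have h1 : ι (a k) = 0 := by rw [ha, h0]
    exact (map_eq_zero ι).mp h1
  · ext k
    rw [coeffMap_coeff]
    exact ha k

end Fermat.Agent.S29
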