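import Mathlib
import Fermat.Agent.S24.Genus
import Fermat.Prelude.Def_AlgebraicCurve_BaseChangeGalois

/-!
# S29 (BRIDGE), block (D): descent of `m`-th power classes — the abstract canonical element

`K` algebraically closed of characteristic `0`, `F/K` a function field in one variable
(`x : F` transcendental, `F` finite over `K(x)`), `P∞` a pole of `x`, `g ∈ Fˣ`, `m ≥ 1`.

For `k : ℕ` let `𝓛_k(g)` be the `K`-space of all `h ∈ F` with
`m · ord_P h + ord_P g + m · k · [P pole of x] ≥ 0` at every place `P` (`s29_d_In`).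
Let `k₀` be the least `k` with `𝓛_k(g) ≠ 0` and `h₀ ∈ 𝓛_{k₀}(g)` of maximal order at `P∞`;
`h₀` is unique up to `Kˣ`.  Consequently (`s29_d_canonical`) the element `h₀ ^ m * g` of the class
of `g` modulo `m`-th powers is canonical up to `Kˣ`: every semilinear automorphism `τ` of `F`
fixing `x` and `P∞` and the class of `g` (`τ g = g * u ^ m`) multiplies `h₀ ^ m * g` by a
constant.
-/

set_option autoImplicit false

namespace Fermat.Agent.S29

open AlgebraicCurve
open scoped IntermediateField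
open Fermat.Agent.S24

section abs

variable (K : Type*) {F : Type*} [Field K] [Field F] [Algebra K F]

/-- `h ∈ 𝓛_k(g)`: `m · ord_P h + ord_P g + m · k · [P pole of x] ≥ 0` at every place `P`. -/
def s29_d_In (x g : F) (m k : ℕ) (h : F) : Prop :=
  h = 0 ∨ ∀ P : Place K F,
    0 ≤ (m : ℤ) * P.ord h + P.ord g + (if P.ord x < 0 then (m : ℤ) * k else 0)

variable {K}

lemma s29_d_In_zero (x g : F) (m k : ℕ) : s29_d_In K x g m k 0 := Or.inl rfl

/-- `𝓛_k(g)` is stable under `h₁ - c h₂`. -/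
lemma s29_d_In_sub_smul {x g : F} {m k : ℕ} {h₁ h₂ : F} (c : K)
    (H₁ : s29_d_In K x g m k h₁) (H₂ : s29_d_In K x g m k h₂) :
    s29_d_In K x g m k (h₁ - algebraMap K F c * h₂) := by
  rcases eq_or_ne (h₁ - algebraMap K F c * h₂) 0 with h0 | h0
  · exact Or.inl h0
  rcases eq_or_ne h₂ 0 with rfl | h2
  · simpa using H₁
  rcases eq_or_ne c 0 with rfl | hc
  · simpa using H₁
  have H₂' := H₂.resolve_left h2
  have ech : ∀ P : Place K F, P.ord (algebraMap K F c * h₂) = P.ord h₂ := fun P => by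
    rw [P.ord_mul ((map_ne_zero _).mpr hc) h2, ord_algebraMap, zero_add]
  rcases eq_or_ne h₁ 0 with rfl | h1
  · refine Or.inr fun P => ?_
    rw [zero_sub, ord_neg, ech]
    exact H₂' P
  have H₁' := H₁.resolve_left h1
  refine Or.inr fun P => ?_
  have hge : min (P.ord h₁) (P.ord (-(algebraMap K F c * h₂))) ≤
      P.ord (h₁ + -(algebraMap K F c * h₂)) :=
    ord_add_ge P (by rwa [← sub_eq_add_neg])
  rw [ord_neg, ech, ← sub_eq_add_neg] at hge
  have a1 := H₁' P
  have a2 := H₂' P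
  have hm : (m : ℤ) * min (P.ord h₁) (P.ord h₂) ≤
      (m : ℤ) * P.ord (h₁ - algebraMap K F c * h₂) :=
    mul_le_mul_of_nonneg_left hge (Int.natCast_nonneg m)
  rcases min_cases (P.ord h₁) (P.ord h₂) with ⟨e, _⟩ | ⟨e, _⟩ <;> rw [e] at hm <;> linarith

/-- transport of `𝓛_k` by a semilinear automorphism fixing `x`. -/
lemma s29_d_In_smul {x g : F} {m k : ℕ} {h : F} (τ : SemilinearAut K F) (hx : τ • x = x)
    (H : s29_d_In K x g m k h) : s29_d_In K x (τ • g) m k (τ • h) := by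
  rcases H with rfl | H
  · exact Or.inl (smul_zero τ)
  refine Or.inr fun P => ?_
  have h1 : ∀ f : F, P.ord (τ • f) = (τ⁻¹ • P).ord f := fun f => by
    have := SemilinearAut.ord_smul τ (τ⁻¹ • P) f
    rwa [smul_inv_smul] at this
  have h2 := H (τ⁻¹ • P)
  rw [h1 h, h1 g]
  have h3 : P.ord x = (τ⁻¹ • P).ord x := by
    rw [← h1 x, hx]
  rw [h3]
  exact h2

/-- `𝓛_k (u ^ m * g) = u⁻¹ 𝓛_k g` (for `g ≠ 0`). -/
lemma s29_d_In_mul_iff {x g : F} {m k : ℕ} {h u : F} (hu : u ≠ 0) (hg : g ≠ 0) :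
    s29_d_In K x (u ^ m * g) m k h ↔ s29_d_In K x g m k (u * h) := by
  rcases eq_or_ne h 0 with rfl | hh
  · simp [s29_d_In]
  have key : ∀ P : Place K F, (m : ℤ) * P.ord h + P.ord (u ^ m * g) =
      (m : ℤ) * P.ord (u * h) + P.ord g := fun P => by
    rw [P.ord_mul (pow_ne_zero m hu) hg, ord_pow, P.ord_mul hu hh]
    ring
  constructor
  · intro H
    refine Or.inr fun P => ?_
    rw [← key P]
    exact H.resolve_left hh P
  · intro H
    refine Or.inr fun P => ?_
    rw [key P]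
    exact H.resolve_left (mul_ne_zero hu hh) P

variable [IsAlgClosed K] [CharZero K]

/-- a function regular at the finite places (those where `x` is regular) which vanishes to
order `≥ n` at finitely many given finite places. -/
lemma s29_d_exists_vanish (x : F) (hx : Transcendental K x) [FiniteDimensional K⟮x⟯ F]
    (S : Finset (Place K F)) (hS : ∀ P ∈ S, 0 ≤ P.ord x) (n : ℕ) :
    ∃ h : F, h ≠ 0 ∧ (∀ P : Place K F, 0 ≤ P.ord x → 0 ≤ P.ord h) ∧
      ∀ P ∈ S, (n : ℤ) ≤ P.ord h := by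
  classical
  induction S using Finset.induction_on with
  | empty => exact ⟨1, one_ne_zero, fun P _ => by simp, by simp⟩
  | insert P₀ S hP₀ ih =>
    obtain ⟨h, h0, h1, h2⟩ := ih (fun P hP => hS P (Finset.mem_insert_of_mem hP))
    have hx0 : 0 ≤ P₀.ord x := hS P₀ (Finset.mem_insert_self _ _)
    obtain ⟨c, hc⟩ := exists_const_sub_mem_nonunits x hx P₀ x ((mem_iff_ord_nonneg P₀ x).2 hx0)
    have hxc : x - algebraMap K F c ≠ 0 := genus_sub_const_ne_zero hx c
    have hpos : 0 < P₀.ord (x - algebraMap K F c) := (mem_nonunits_iff_ord_pos P₀ hxc).1 hc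
    have hreg : ∀ P : Place K F, 0 ≤ P.ord x → 0 ≤ P.ord (x - algebraMap K F c) := by
      intro P hP
      rw [← mem_iff_ord_nonneg] at hP ⊢
      exact sub_mem hP (P.algebraMap_mem' c)
    have hpn : (x - algebraMap K F c) ^ n ≠ 0 := pow_ne_zero n hxc
    refine ⟨h * (x - algebraMap K F c) ^ n, mul_ne_zero h0 hpn, fun P hP => ?_, fun P hP => ?_⟩
    · rw [P.ord_mul h0 hpn, ord_pow]
      have a1 := h1 P hP
      have a2 := hreg P hP
      positivity
    · rw [P.ord_mul h0 hpn, ord_pow]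
      rcases Finset.mem_insert.mp hP with rfl | hP'
      · have a1 := h1 P hx0
        nlinarith
      · have a1 := h2 P hP'
        have a2 := hreg P (hS P hP)
        nlinarith

/-- `𝓛_k(g) ≠ 0` for `k` large. -/
lemma s29_d_exists_In (x : F) (hx : Transcendental K x) [FiniteDimensional K⟮x⟯ F]
    (g : F) (hg : g ≠ 0) (m : ℕ) (hm : 0 < m) :
    ∃ k : ℕ, ∃ h : F, h ≠ 0 ∧ s29_d_In K x g m k h := by
  classical
  have hx0 : x ≠ 0 := genus_transcendental_ne_zero hx
  have hfg : {v : Place K F | v.ord g ≠ 0}.Finite := finite_support_ord x hx g hg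
  have hfx : {v : Place K F | v.ord x ≠ 0}.Finite := finite_support_ord x hx x hx0
  set S : Finset (Place K F) := hfg.toFinset.filter (fun P => 0 ≤ P.ord x) with hS
  set n : ℕ := ∑ P ∈ S, (P.ord g).natAbs with hn
  obtain ⟨h, h0, h1, h2⟩ := s29_d_exists_vanish x hx S
    (fun P hP => (Finset.mem_filter.mp hP).2) n
  set A : Finset (Place K F) := hfx.toFinset with hA
  set k : ℕ := ∑ P ∈ A, ((m : ℤ) * P.ord h + P.ord g).natAbs with hk
  have hm1 : (1 : ℤ) ≤ m := by exact_mod_cast hm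
  refine ⟨k, h, h0, Or.inr fun P => ?_⟩
  by_cases hP : P.ord x < 0
  · rw [if_pos hP]
    have hPA : P ∈ A := by
      rw [hA, Set.Finite.mem_toFinset]
      exact ne_of_lt hP
    have hk1 : ((m : ℤ) * P.ord h + P.ord g).natAbs ≤ k :=
      Finset.single_le_sum (f := fun P : Place K F => ((m : ℤ) * P.ord h + P.ord g).natAbs)
        (fun _ _ => Nat.zero_le _) hPA
    have hk2 : (((m : ℤ) * P.ord h + P.ord g).natAbs : ℤ) ≤ k := by exact_mod_cast hk1
    have hk3 : -((m : ℤ) * P.ord h + P.ord g) ≤ (((m : ℤ) * P.ord h + P.ord g).natAbs : ℤ) := by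
      rw [Int.natCast_natAbs]
      exact neg_le_abs _
    have hk4 : (k : ℤ) ≤ (m : ℤ) * k := by
      have : (0 : ℤ) ≤ k := Int.natCast_nonneg k
      nlinarith
    linarith
  · rw [if_neg hP, add_zero]
    push Not at hP
    have hh := h1 P hP
    by_cases hPg : P.ord g < 0
    · have hPS : P ∈ S := by
        rw [hS, Finset.mem_filter, Set.Finite.mem_toFinset]
        exact ⟨ne_of_lt hPg, hP⟩
      have hn1 : (P.ord g).natAbs ≤ n :=
        Finset.single_le_sum (f := fun P : Place K F => (P.ord g).natAbs)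
          (fun _ _ => Nat.zero_le _) hPS
      have hn2 : ((P.ord g).natAbs : ℤ) ≤ n := by exact_mod_cast hn1
      have hn3 : -(P.ord g) ≤ ((P.ord g).natAbs : ℤ) := by
        rw [Int.natCast_natAbs]
        exact neg_le_abs _
      have hn4 := h2 P hPS
      nlinarith
    · push Not at hPg
      positivity

/-- the order at a pole `P∞` of `x` is bounded above on `𝓛_k(g) ∖ 0`. -/
lemma s29_d_bdd (x : F) (hx : Transcendental K x) [FiniteDimensional K⟮x⟯ F]
    (g : F) (hg : g ≠ 0) (m k : ℕ) (hm : 0 < m) (Pinf : Place K F) (hP : Pinf.ord x < 0) :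
    ∃ M : ℤ, ∀ h : F, h ≠ 0 → s29_d_In K x g m k h → Pinf.ord h ≤ M := by
  classical
  have hx0 : x ≠ 0 := genus_transcendental_ne_zero hx
  have hfx : {v : Place K F | v.ord x ≠ 0}.Finite := finite_support_ord x hx x hx0
  set A : Finset (Place K F) := hfx.toFinset with hA
  have hm1 : (1 : ℤ) ≤ m := by exact_mod_cast hm
  refine ⟨max 0 ((m : ℤ) * k * A.card - Pinf.ord g), fun h h0 hIn => ?_⟩
  have H := hIn.resolve_left h0
  have hf0 : h ^ m * g ≠ 0 := mul_ne_zero (pow_ne_zero m h0) hg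
  have hord : ∀ P : Place K F, P.ord (h ^ m * g) = (m : ℤ) * P.ord h + P.ord g := fun P => by
    rw [P.ord_mul (pow_ne_zero m h0) hg, ord_pow]
  have hsum := sum_ord_eq_zero x hx (h ^ m * g) hf0
  have hff : {v : Place K F | v.ord (h ^ m * g) ≠ 0}.Finite := finite_support_ord x hx _ hf0
  set S' : Finset (Place K F) := hff.toFinset ∪ A ∪ {Pinf} with hS'
  have e1 : ∑ v ∈ S', v.ord (h ^ m * g) = 0 := by
    rw [← hsum]
    symm
    apply finsum_eq_sum_of_support_subset
    intro v hv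
    rw [Function.mem_support] at hv
    rw [hS', Finset.coe_union, Finset.coe_union]
    left
    left
    rw [Finset.mem_coe, Set.Finite.mem_toFinset]
    exact hv
  set w : Place K F → ℤ := fun P => P.ord (h ^ m * g) + (if P.ord x < 0 then (m : ℤ) * k else 0)
    with hw
  have hw0 : ∀ P ∈ S', 0 ≤ w P := fun P _ => by
    rw [hw]
    simp only
    rw [hord]
    exact H P
  have hPinf : Pinf ∈ S' := by
    rw [hS']
    exact Finset.mem_union_right _ (Finset.mem_singleton_self _)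
  have e2 : w Pinf ≤ ∑ P ∈ S', w P := Finset.single_le_sum hw0 hPinf
  have e3 : ∑ P ∈ S', w P = ∑ P ∈ S', (if P.ord x < 0 then (m : ℤ) * k else 0) := by
    rw [hw, Finset.sum_add_distrib, e1, zero_add]
  have e4 : ∑ P ∈ S', (if P.ord x < 0 then (m : ℤ) * k else 0) ≤ (m : ℤ) * k * A.card := by
    rw [← Finset.sum_filter, Finset.sum_const, nsmul_eq_mul]
    have hsub : S'.filter (fun P => P.ord x < 0) ⊆ A := by
      intro P hP
      rw [Finset.mem_filter] at hP
      rw [hA, Set.Finite.mem_toFinset]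
      exact ne_of_lt hP.2
    have hc : ((S'.filter (fun P => P.ord x < 0)).card : ℤ) ≤ A.card := by
      exact_mod_cast Finset.card_le_card hsub
    have hmk : (0 : ℤ) ≤ (m : ℤ) * k := by positivity
    nlinarith
  have e5 : w Pinf = (m : ℤ) * Pinf.ord h + Pinf.ord g + (m : ℤ) * k := by
    rw [hw]
    simp only
    rw [if_pos hP, hord]
  have e6 : (m : ℤ) * Pinf.ord h ≤ (m : ℤ) * k * A.card - Pinf.ord g := by
    have hmk : (0 : ℤ) ≤ (m : ℤ) * k := by positivity
    linarith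
  rcases le_or_gt (Pinf.ord h) 0 with h1 | h1
  · exact le_trans h1 (le_max_left _ _)
  · refine le_trans ?_ (le_max_right _ _)
    nlinarith

/-- **The canonical element of a class modulo `m`-th powers.**  There is `h₀ ≠ 0` such that
every semilinear automorphism `τ` fixing `x`, the pole `P∞` of `x` and the class of `g`
multiplies `h₀ ^ m * g` by a non-zero constant. -/
theorem s29_d_canonical (x : F) (hx : Transcendental K x) [FiniteDimensional K⟮x⟯ F]
    (Pinf : Place K F) (hP : Pinf.ord x < 0) (g : F) (hg : g ≠ 0) (m : ℕ) (hm : 0 < m) :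
    ∃ h₀ : F, h₀ ≠ 0 ∧ ∀ τ : SemilinearAut K F, τ • x = x → τ • Pinf = Pinf →
      ∀ u : F, u ≠ 0 → τ • g = g * u ^ m →
      ∃ c : K, c ≠ 0 ∧ τ • (h₀ ^ m * g) = algebraMap K F c * (h₀ ^ m * g) := by
  classical
  have hex := s29_d_exists_In x hx g hg m hm
  set k₀ := Nat.find hex with hk₀
  obtain ⟨h', h'0, h'In⟩ := Nat.find_spec hex
  obtain ⟨M, hM⟩ := s29_d_bdd x hx g hg m k₀ hm Pinf hP
  obtain ⟨n, ⟨h₀, h₀0, h₀In, rfl⟩, hmax⟩ := Int.exists_greatest_of_bdd
    (P := fun z => ∃ h : F, h ≠ 0 ∧ s29_d_In K x g m k₀ h ∧ Pinf.ord h = z)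
    ⟨M, by
      rintro z ⟨h, h0, hIn, rfl⟩
      exact hM h h0 hIn⟩ ⟨_, h', h'0, h'In, rfl⟩
  have hmax' : ∀ h : F, h ≠ 0 → s29_d_In K x g m k₀ h → Pinf.ord h ≤ Pinf.ord h₀ :=
    fun h h0 hIn => hmax _ ⟨h, h0, hIn, rfl⟩
  -- uniqueness of the element of maximal order
  have huniq : ∀ h₁ : F, h₁ ≠ 0 → s29_d_In K x g m k₀ h₁ → Pinf.ord h₁ = Pinf.ord h₀ →
      ∃ c : K, c ≠ 0 ∧ h₁ = algebraMap K F c * h₀ := by
    intro h₁ h10 h1In hord
    have hr : h₁ / h₀ ∈ Pinf.toValuationSubring := by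
      rw [mem_iff_ord_nonneg, div_eq_mul_inv, Pinf.ord_mul h10 (inv_ne_zero h₀0), Pinf.ord_inv]
      omega
    obtain ⟨c, hc⟩ := exists_const_sub_mem_nonunits x hx Pinf (h₁ / h₀) hr
    have e2 : h₁ - algebraMap K F c * h₀ = (h₁ / h₀ - algebraMap K F c) * h₀ := by
      field_simp
    by_cases hz : h₁ / h₀ - algebraMap K F c = 0
    · have e : h₁ = algebraMap K F c * h₀ := by
        rw [hz, zero_mul, sub_eq_zero] at e2
        exact e2
      refine ⟨c, ?_, e⟩
      rintro rfl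
      rw [map_zero, zero_mul] at e
      exact h10 e
    · exfalso
      have hpos := (mem_nonunits_iff_ord_pos Pinf hz).1 hc
      have h20 : h₁ - algebraMap K F c * h₀ ≠ 0 := by
        rw [e2]
        exact mul_ne_zero hz h₀0
      have h3 := hmax' _ h20 (s29_d_In_sub_smul c h1In h₀In)
      rw [e2, Pinf.ord_mul hz h₀0] at h3
      omega
  refine ⟨h₀, h₀0, fun τ hτx hτP u hu hτg => ?_⟩
  have hordτ : ∀ f : F, Pinf.ord (τ • f) = Pinf.ord f := fun f => by
    have := SemilinearAut.ord_smul τ Pinf f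
    rwa [hτP] at this
  have hτinvx : τ⁻¹ • x = x := by rw [inv_smul_eq_iff, hτx]
  have hτinvP : τ⁻¹ • Pinf = Pinf := by rw [inv_smul_eq_iff, hτP]
  have hordτinv : ∀ f : F, Pinf.ord (τ⁻¹ • f) = Pinf.ord f := fun f => by
    have := SemilinearAut.ord_smul τ⁻¹ Pinf f
    rwa [hτinvP] at this
  have hτh₀ : τ • h₀ ≠ 0 := (smul_ne_zero_iff_ne τ).2 h₀0
  -- `u * τ h₀ ∈ 𝓛`
  have hIn1 : s29_d_In K x g m k₀ (u * τ • h₀) := by
    rw [← s29_d_In_mul_iff hu hg]
    have := s29_d_In_smul τ hτx h₀In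
    rwa [hτg, mul_comm] at this
  have h1ne : u * τ • h₀ ≠ 0 := mul_ne_zero hu hτh₀
  have hle1 := hmax' _ h1ne hIn1
  rw [Pinf.ord_mul hu hτh₀, hordτ] at hle1
  -- `τ⁻¹ (u⁻¹ h₀) ∈ 𝓛`
  have hIn2 : s29_d_In K x g m k₀ (τ⁻¹ • (u⁻¹ * h₀)) := by
    have a : s29_d_In K x (u ^ m * g) m k₀ (u⁻¹ * h₀) := by
      rw [s29_d_In_mul_iff hu hg, mul_inv_cancel_left₀ hu]
      exact h₀In
    have b := s29_d_In_smul τ⁻¹ hτinvx a
    have e : τ⁻¹ • (u ^ m * g) = g := by rw [inv_smul_eq_iff, hτg, mul_comm]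
    rwa [e] at b
  have h2ne : τ⁻¹ • (u⁻¹ * h₀) ≠ 0 :=
    (smul_ne_zero_iff_ne τ⁻¹).2 (mul_ne_zero (inv_ne_zero hu) h₀0)
  have hle2 := hmax' _ h2ne hIn2
  rw [hordτinv, Pinf.ord_mul (inv_ne_zero hu) h₀0, Pinf.ord_inv] at hle2
  have hu0 : Pinf.ord u = 0 := by omega
  obtain ⟨c, hc, hceq⟩ := huniq _ h1ne hIn1 (by rw [Pinf.ord_mul hu hτh₀, hordτ, hu0, zero_add])
  refine ⟨c ^ m, pow_ne_zero m hc, ?_⟩
  calc τ • (h₀ ^ m * g) = (τ • h₀) ^ m * (g * u ^ m) := by rw [smul_mul', smul_pow', hτg]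
    _ = (u * τ • h₀) ^ m * g := by ring
    _ = (algebraMap K F c * h₀) ^ m * g := by rw [hceq]
    _ = algebraMap K F (c ^ m) * (h₀ ^ m * g) := by rw [map_pow]; ring

end abs

end Fermat.Agent.S29
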