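import Mathlib
import Fermat.Agent.S29.DescentAbs
import Fermat.Agent.S29.DescAut
import Fermat.Agent.S29.LinDisj
import Fermat.Prelude.Def_ModularCurve_ArithmeticGalois

/-!
# S29 (BRIDGE), block (D): descent of `m`-th power classes from `ℂ` to `Q̄`

`F₀ ⊆ ℚ((q))` a field, `F_ℂ = ℂ · F₀ ⊆ ℂ((q))`, `F_Q̄ = Q̄ · F₀ ⊆ Q̄((q))`
(`laurentBaseChange`).  Assume `F₀` contains a series `x₀` of order `-1` and `F_ℂ` is finite over
`ℂ(x₀)`.  Let `g ∈ F_ℂˣ` and `m ≥ 1` be such that the class of `g` modulo `m`-th powers has a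
finite orbit under `Aut(ℂ/ℚ)` (acting on coefficients).  Then the class contains an element of
`F_Q̄`:  there is `h ∈ F_ℂˣ` with `h ^ m * g = ι(y)`, `y ∈ F_Q̄` (`s29_dd_descent`).

* `s29_dd_order_coeffMap` : injective coefficient maps preserve the order of a Laurent series;
* `s29_dd_qPlace` : the place "order of the `q`-expansion" of a subfield of `L((q))`
  containing a series of order `-1`;
* `s29_dd_descent_core` : the descent, for a finite-index subgroup fixing the class;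
* `s29_dd_descent` : the descent, finite-colouring form of the finite-orbit hypothesis;
* `s29_dd_descent_finset` : the descent, finite list of class representatives.
-/

set_option autoImplicit false

namespace Fermat.Agent.S29

open AlgebraicCurve ModularCurve
open scoped IntermediateField
open Fermat.Agent.S24

noncomputable section

/-- Injective coefficient maps preserve the order of a Laurent series. -/
theorem s29_dd_order_coeffMap {R S : Type*} [CommRing R] [CommRing S] (f : R →+* S)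
    (hf : Function.Injective f) (x : LaurentSeries R) : (coeffMap f x).order = x.order := by
  rcases eq_or_ne x 0 with rfl | hx
  · simp
  have hx' : coeffMap f x ≠ 0 := by
    intro h
    apply hx
    ext n
    have h1 := congrArg (fun w => w.coeff n) h
    simp only [coeffMap_coeff, HahnSeries.coeff_zero] at h1
    rw [HahnSeries.coeff_zero]
    exact hf (by rw [h1, map_zero])
  apply le_antisymm
  · apply HahnSeries.order_le_of_coeff_ne_zero
    rw [coeffMap_coeff]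
    intro h
    exact hx (HahnSeries.coeff_order_eq_zero.mp (hf (by rw [h, map_zero])))
  · apply HahnSeries.order_le_of_coeff_ne_zero
    intro h
    apply hx'
    apply HahnSeries.coeff_order_eq_zero.mp
    rw [coeffMap_coeff, h, map_zero]

/-- The place "order of the `q`-expansion" of a subfield of `L((q))` containing a series of
order `-1`. -/
theorem s29_dd_qPlace {L : Type*} [Field L] (E : IntermediateField L (LaurentSeries L))
    (x : E) (hx : (x : LaurentSeries L).order = -1) :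
    ∃ P : Place L E, ∀ f : E, f ≠ 0 → P.ord f = (f : LaurentSeries L).order := by
  have hx0 : x ≠ 0 := by
    rintro rfl
    have h1 : ((0 : E) : LaurentSeries L).order = 0 := HahnSeries.order_zero
    rw [h1] at hx
    norm_num at hx
  obtain ⟨v, e, he, hv⟩ := Fermat.Agent.S24.exists_place_of_ord (K := L) (F := E)
    (fun f => (f : LaurentSeries L).order)
    (fun f g hf hg => by
      show ((f : LaurentSeries L) * (g : LaurentSeries L)).order = _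
      exact HahnSeries.order_mul (fun h => hf (Subtype.ext h)) (fun h => hg (Subtype.ext h)))
    (fun f g hf hg hfg => by
      show _ ≤ ((f : LaurentSeries L) + (g : LaurentSeries L)).order
      exact HahnSeries.min_order_le_order_add (fun h => hfg (Subtype.ext h)))
    (fun c hc => by
      show (algebraMap L (LaurentSeries L) c).order = 0
      rw [algebraMap_laurentSeries_eq_single]
      exact HahnSeries.order_single hc)
    ⟨x, hx0, by
      show (x : LaurentSeries L).order ≠ 0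
      rw [hx]; norm_num⟩
  have he1 : e = 1 := by
    have h1 := hv x hx0
    have h2 : (x : LaurentSeries L).order = e * v.ord x := h1
    rw [hx] at h2
    have h3 : e ∣ 1 := ⟨-v.ord x, by linarith⟩
    exact Int.eq_one_of_dvd_one he.le h3
  refine ⟨v, fun f hf => ?_⟩
  have h1 := hv f hf
  have h2 : (f : LaurentSeries L).order = e * v.ord f := h1
  rw [h2, he1, one_mul]

local notation "Qb" => AlgebraicClosure ℚ

/-- Multiplying by a constant multiplies the coefficients. -/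
theorem s29_dd_coeff_algebraMap_mul {L : Type*} [Field L] (c : L) (x : LaurentSeries L) (n : ℤ) :
    (algebraMap L (LaurentSeries L) c * x).coeff n = c * x.coeff n := by
  rw [s29_ld_algebraMap_mul, HahnSeries.coeff_smul, smul_eq_mul]

section action

variable {L : Type*} [Field L] [Algebra ℚ L]

theorem s29_dd_coeffMap_one (x : LaurentSeries L) :
    coeffMap ((1 : L ≃ₐ[ℚ] L) : L →+* L) x = x := by
  rw [show ((1 : L ≃ₐ[ℚ] L) : L →+* L) = RingHom.id L from RingHom.ext fun _ => rfl, coeffMap_id]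

theorem s29_dd_coeffMap_mul (σ τ : L ≃ₐ[ℚ] L) (x : LaurentSeries L) :
    coeffMap ((σ * τ : L ≃ₐ[ℚ] L) : L →+* L) x
      = coeffMap (σ : L →+* L) (coeffMap (τ : L →+* L) x) := by
  rw [coeffMap_coeffMap]
  exact coeffMap_congr (RingHom.ext fun _ => rfl) _

theorem s29_dd_coeffMap_inv (σ : L ≃ₐ[ℚ] L) (x : LaurentSeries L) :
    coeffMap ((σ⁻¹ : L ≃ₐ[ℚ] L) : L →+* L) (coeffMap (σ : L →+* L) x) = x := by
  rw [← s29_dd_coeffMap_mul, inv_mul_cancel, s29_dd_coeffMap_one]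

end action

/-- A semilinear automorphism preserving the order function of a place fixes the place. -/
theorem s29_dd_smul_place_eq {K F : Type*} [Field K] [Field F] [Algebra K F]
    (τ : SemilinearAut K F) (P : Place K F) (h : ∀ f : F, P.ord (τ⁻¹ • f) = P.ord f) :
    τ • P = P := by
  apply place_ext_ord
  intro f
  have h1 := SemilinearAut.ord_smul τ P (τ⁻¹ • f)
  rw [smul_inv_smul] at h1
  rw [h1, h]

/-- **(D), subtype form.** -/
theorem s29_dd_descent_aux (F₀ : IntermediateField ℚ (LaurentSeries ℚ)) (ι : Qb →+* ℂ)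
    (xC : laurentBaseChange ℂ F₀) (hxord : (xC : LaurentSeries ℂ).order = -1)
    (hτx : ∀ σ : ℂ ≃ₐ[ℚ] ℂ, arithmeticGalois F₀ σ • xC = xC)
    [FiniteDimensional ℂ⟮xC⟯ (laurentBaseChange ℂ F₀)]
    (gC : laurentBaseChange ℂ F₀) (hgC0 : gC ≠ 0) (m : ℕ) (hm : 0 < m)
    (H : Subgroup (ℂ ≃ₐ[ℚ] ℂ)) [H.FiniteIndex]
    (hH : ∀ σ ∈ H, ∃ u : laurentBaseChange ℂ F₀, u ≠ 0 ∧
      arithmeticGalois F₀ σ • gC = gC * u ^ m) :
    ∃ h : laurentBaseChange ℂ F₀, h ≠ 0 ∧ ∃ y ∈ laurentBaseChange Qb F₀,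
      coeffMap ι y = ((h ^ m * gC : laurentBaseChange ℂ F₀) : LaurentSeries ℂ) := by
  classical
  obtain ⟨P, hP⟩ := s29_dd_qPlace (laurentBaseChange ℂ F₀) xC hxord
  have hxC0 : xC ≠ 0 := by
    intro h
    have h1 : (xC : LaurentSeries ℂ) = 0 := by rw [h]; rfl
    rw [h1, HahnSeries.order_zero] at hxord
    norm_num at hxord
  have hPx : P.ord xC < 0 := by
    rw [hP xC hxC0, hxord]; norm_num
  have hxtr : Transcendental ℂ xC := by
    intro halg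
    obtain ⟨c, hc⟩ := genus_exists_const_of_isAlgebraic halg
    rw [hc, ord_algebraMap] at hPx
    exact lt_irrefl _ hPx
  -- the Galois action
  have hτcoe : ∀ (σ : ℂ ≃ₐ[ℚ] ℂ) (f : laurentBaseChange ℂ F₀),
      ((arithmeticGalois F₀ σ • f : laurentBaseChange ℂ F₀) : LaurentSeries ℂ)
        = coeffMap (σ : ℂ →+* ℂ) (f : LaurentSeries ℂ) := fun σ f => rfl
  have hτord : ∀ (σ : ℂ ≃ₐ[ℚ] ℂ) (f : laurentBaseChange ℂ F₀),
      P.ord (arithmeticGalois F₀ σ • f) = P.ord f := by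
    intro σ f
    rcases eq_or_ne f 0 with rfl | hf
    · rw [smul_zero]
    have hf' : arithmeticGalois F₀ σ • f ≠ 0 := (smul_ne_zero_iff_ne _).mpr hf
    rw [hP _ hf', hP _ hf, hτcoe, s29_dd_order_coeffMap _ (σ : ℂ →+* ℂ).injective]
  have hτP : ∀ σ : ℂ ≃ₐ[ℚ] ℂ, arithmeticGalois F₀ σ • P = P := by
    intro σ
    refine s29_dd_smul_place_eq _ P (fun f => ?_)
    rw [← map_inv]
    exact hτord σ⁻¹ f
  -- the canonical element
  obtain ⟨h₀, hh₀, hcan⟩ := s29_d_canonical xC hxtr P hPx gC hgC0 m hm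
  obtain ⟨g₁, hg₁⟩ : ∃ g₁ : laurentBaseChange ℂ F₀, g₁ = h₀ ^ m * gC := ⟨_, rfl⟩
  rw [← hg₁] at hcan
  have hg₁0 : g₁ ≠ 0 := by
    rw [hg₁]
    exact mul_ne_zero (pow_ne_zero _ hh₀) hgC0
  have hg₁0' : (g₁ : LaurentSeries ℂ) ≠ 0 := fun h => hg₁0 (Subtype.ext h)
  obtain ⟨a, ha⟩ : ∃ a : ℂ, a = (g₁ : LaurentSeries ℂ).coeff (g₁ : LaurentSeries ℂ).order :=
    ⟨_, rfl⟩
  have ha0 : a ≠ 0 := by
    rw [ha]
    exact fun h => hg₁0' (HahnSeries.coeff_order_eq_zero.mp h)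
  -- `g₀ = a⁻¹ g₁` is fixed by `H`
  have hfix : ∀ σ ∈ H, coeffMap ((σ : ℂ ≃ₐ[ℚ] ℂ) : ℂ →+* ℂ)
      (algebraMap ℂ (LaurentSeries ℂ) a⁻¹ * (g₁ : LaurentSeries ℂ))
        = algebraMap ℂ (LaurentSeries ℂ) a⁻¹ * (g₁ : LaurentSeries ℂ) := by
    intro σ hσ
    obtain ⟨u, hu0, hgu⟩ := hH σ hσ
    obtain ⟨c, hc0, hc⟩ := hcan (arithmeticGalois F₀ σ) (hτx σ) (hτP σ) u hu0 hgu
    have hc' : coeffMap (σ : ℂ →+* ℂ) (g₁ : LaurentSeries ℂ)
        = algebraMap ℂ (LaurentSeries ℂ) c * (g₁ : LaurentSeries ℂ) := congrArg Subtype.val hc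
    have hσa : σ a = c * a := by
      have h1 := congrArg (fun w => w.coeff (g₁ : LaurentSeries ℂ).order) hc'
      simp only [coeffMap_coeff, s29_dd_coeff_algebraMap_mul] at h1
      rw [ha]
      exact h1
    have hσa' : σ a⁻¹ * c = a⁻¹ := by
      rw [map_inv₀, hσa]
      field_simp
    rw [map_mul, coeffMap_algebraMap, hc', ← mul_assoc, ← map_mul]
    exact congrArg (fun z => algebraMap ℂ (LaurentSeries ℂ) z * (g₁ : LaurentSeries ℂ)) hσa'
  obtain ⟨y, hy⟩ := s29_da_series_descend ι H _ hfix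
  have hymem : y ∈ laurentBaseChange Qb F₀ :=
    s29_ld F₀ ι y (by rw [hy]; exact mul_mem ((laurentBaseChange ℂ F₀).algebraMap_mem _) g₁.2)
  obtain ⟨b, hb⟩ := IsAlgClosed.exists_pow_nat_eq a⁻¹ hm
  have hb0 : b ≠ 0 := by
    rintro rfl
    rw [zero_pow hm.ne'] at hb
    exact inv_ne_zero ha0 hb.symm
  refine ⟨algebraMap ℂ (laurentBaseChange ℂ F₀) b * h₀,
    mul_ne_zero ((map_ne_zero _).mpr hb0) hh₀, y, hymem, ?_⟩
  rw [hy, mul_pow, ← map_pow, hb, mul_assoc, ← hg₁]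
  rfl

/-- **(D), core form.**  If the class of `g ∈ F_ℂˣ` modulo `m`-th powers is fixed by a subgroup
of finite index of `Aut(ℂ/ℚ)`, it contains an element defined over `Q̄`. -/
theorem s29_dd_descent_core (F₀ : IntermediateField ℚ (LaurentSeries ℚ)) (ι : Qb →+* ℂ)
    (x₀ : LaurentSeries ℚ) (hx₀ : x₀ ∈ F₀) (hord : x₀.order = -1)
    (hfin : FiniteDimensional
      ℂ⟮(⟨coeffEmb ℂ x₀, coeffEmb_mem_laurentBaseChange ℂ hx₀⟩ : laurentBaseChange ℂ F₀)⟯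
      (laurentBaseChange ℂ F₀))
    (g : LaurentSeries ℂ) (hg : g ∈ laurentBaseChange ℂ F₀) (hg0 : g ≠ 0) (m : ℕ) (hm : 0 < m)
    (H : Subgroup (ℂ ≃ₐ[ℚ] ℂ)) [H.FiniteIndex]
    (hH : ∀ σ ∈ H, ∃ u ∈ laurentBaseChange ℂ F₀, u ≠ 0 ∧
      coeffMap ((σ : ℂ ≃ₐ[ℚ] ℂ) : ℂ →+* ℂ) g = g * u ^ m) :
    ∃ h ∈ laurentBaseChange ℂ F₀, h ≠ 0 ∧ ∃ y ∈ laurentBaseChange Qb F₀,
      coeffMap ι y = h ^ m * g := by
  have hxord : ((⟨coeffEmb ℂ x₀, coeffEmb_mem_laurentBaseChange ℂ hx₀⟩ :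
      laurentBaseChange ℂ F₀) : LaurentSeries ℂ).order = -1 := by
    show (coeffMap (algebraMap ℚ ℂ) x₀).order = -1
    rw [s29_dd_order_coeffMap _ (algebraMap ℚ ℂ).injective, hord]
  obtain ⟨h, hh0, y, hy, hyh⟩ := s29_dd_descent_aux F₀ ι
    ⟨coeffEmb ℂ x₀, coeffEmb_mem_laurentBaseChange ℂ hx₀⟩ hxord
    (fun σ => Subtype.ext (coeffMap_coeffEmb σ x₀)) ⟨g, hg⟩
    (fun h => hg0 (congrArg Subtype.val h)) m hm H
    (fun σ hσ => by
      obtain ⟨u, hu, hu0, hgu⟩ := hH σ hσ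
      exact ⟨⟨u, hu⟩, fun h => hu0 (congrArg Subtype.val h), Subtype.ext hgu⟩)
  exact ⟨h, h.2, fun h0 => hh0 (Subtype.ext h0), y, hy, hyh⟩

/-- The stabiliser in `Aut(ℂ/ℚ)` of the class of `g` modulo `m`-th powers of `F_ℂˣ`. -/
def s29_dd_stab (F₀ : IntermediateField ℚ (LaurentSeries ℚ)) (g : LaurentSeries ℂ) (m : ℕ) :
    Subgroup (ℂ ≃ₐ[ℚ] ℂ) where
  carrier := {σ | ∃ u ∈ laurentBaseChange ℂ F₀, u ≠ 0 ∧
    coeffMap ((σ : ℂ ≃ₐ[ℚ] ℂ) : ℂ →+* ℂ) g = g * u ^ m}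
  one_mem' := ⟨1, one_mem _, one_ne_zero, by rw [s29_dd_coeffMap_one, one_pow, mul_one]⟩
  mul_mem' := by
    rintro σ τ ⟨u, hu, hu0, hσ⟩ ⟨v, hv, hv0, hτ⟩
    refine ⟨u * coeffMap (σ : ℂ →+* ℂ) v, mul_mem hu (coeffMap_mem_laurentBaseChange σ hv),
      mul_ne_zero hu0 ((map_ne_zero _).mpr hv0), ?_⟩
    rw [s29_dd_coeffMap_mul, hτ, map_mul, hσ, map_pow, mul_pow, mul_assoc]
  inv_mem' := by
    rintro σ ⟨u, hu, hu0, hσ⟩
    refine ⟨(coeffMap ((σ⁻¹ : ℂ ≃ₐ[ℚ] ℂ) : ℂ →+* ℂ) u)⁻¹,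
      inv_mem (coeffMap_mem_laurentBaseChange σ⁻¹ hu),
      inv_ne_zero ((map_ne_zero _).mpr hu0), ?_⟩
    have h1 := congrArg (coeffMap ((σ⁻¹ : ℂ ≃ₐ[ℚ] ℂ) : ℂ →+* ℂ)) hσ
    rw [s29_dd_coeffMap_inv, map_mul, map_pow] at h1
    have hne : coeffMap ((σ⁻¹ : ℂ ≃ₐ[ℚ] ℂ) : ℂ →+* ℂ) u ≠ 0 := (map_ne_zero _).mpr hu0
    rw [inv_pow, eq_mul_inv_iff_mul_eq₀ (pow_ne_zero _ hne)]
    exact h1.symm

theorem s29_dd_mem_stab (F₀ : IntermediateField ℚ (LaurentSeries ℚ)) (g : LaurentSeries ℂ)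
    (m : ℕ) (σ : ℂ ≃ₐ[ℚ] ℂ) :
    σ ∈ s29_dd_stab F₀ g m ↔ ∃ u ∈ laurentBaseChange ℂ F₀, u ≠ 0 ∧
      coeffMap ((σ : ℂ ≃ₐ[ℚ] ℂ) : ℂ →+* ℂ) g = g * u ^ m := Iff.rfl

/-- If the classes `σ(g) · (F_ℂˣ)^m` are governed by a finite colouring of `Aut(ℂ/ℚ)`, the
stabiliser of the class of `g` has finite index. -/
theorem s29_dd_stab_finiteIndex (F₀ : IntermediateField ℚ (LaurentSeries ℚ))
    (g : LaurentSeries ℂ) (m : ℕ) {X : Type*} [Finite X] (c : (ℂ ≃ₐ[ℚ] ℂ) → X)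
    (hc : ∀ σ σ' : ℂ ≃ₐ[ℚ] ℂ, c σ = c σ' → ∃ u ∈ laurentBaseChange ℂ F₀, u ≠ 0 ∧
      coeffMap (σ : ℂ →+* ℂ) g = coeffMap (σ' : ℂ →+* ℂ) g * u ^ m) :
    (s29_dd_stab F₀ g m).FiniteIndex := by
  classical
  have hsurj : Function.Surjective
      (fun x : Set.range c => (QuotientGroup.mk (Classical.choose x.2) :
        (ℂ ≃ₐ[ℚ] ℂ) ⧸ s29_dd_stab F₀ g m)) := by
    intro q
    induction q using QuotientGroup.induction_on with
    | H σ =>
      refine ⟨⟨c σ, σ, rfl⟩, ?_⟩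
      have h1 : c (Classical.choose (⟨c σ, σ, rfl⟩ : Set.range c).2) = c σ :=
        Classical.choose_spec (⟨c σ, σ, rfl⟩ : Set.range c).2
      obtain ⟨u, hu, hu0, h2⟩ := hc σ _ h1.symm
      show (QuotientGroup.mk _ : (ℂ ≃ₐ[ℚ] ℂ) ⧸ s29_dd_stab F₀ g m) = QuotientGroup.mk σ
      rw [QuotientGroup.eq]
      set σ' := Classical.choose (⟨c σ, σ, rfl⟩ : Set.range c).2 with hσ'
      refine ⟨coeffMap ((σ'⁻¹ : ℂ ≃ₐ[ℚ] ℂ) : ℂ →+* ℂ) u,
        coeffMap_mem_laurentBaseChange σ'⁻¹ hu, (map_ne_zero _).mpr hu0, ?_⟩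
      rw [s29_dd_coeffMap_mul, h2, map_mul, s29_dd_coeffMap_inv, map_pow]
  have : Finite ((ℂ ≃ₐ[ℚ] ℂ) ⧸ s29_dd_stab F₀ g m) := Finite.of_surjective _ hsurj
  exact Subgroup.finiteIndex_of_finite_quotient

/-- **(D), colouring form.**  If the classes of the conjugates `σ(g)` modulo `m`-th powers are
governed by a finite colouring of `Aut(ℂ/ℚ)` (e.g. finitely many classes occur), the class of
`g` contains an element defined over `Q̄`. -/
theorem s29_dd_descent (F₀ : IntermediateField ℚ (LaurentSeries ℚ)) (ι : Qb →+* ℂ)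
    (x₀ : LaurentSeries ℚ) (hx₀ : x₀ ∈ F₀) (hord : x₀.order = -1)
    (hfin : FiniteDimensional
      ℂ⟮(⟨coeffEmb ℂ x₀, coeffEmb_mem_laurentBaseChange ℂ hx₀⟩ : laurentBaseChange ℂ F₀)⟯
      (laurentBaseChange ℂ F₀))
    (g : LaurentSeries ℂ) (hg : g ∈ laurentBaseChange ℂ F₀) (hg0 : g ≠ 0) (m : ℕ) (hm : 0 < m)
    {X : Type*} [Finite X] (c : (ℂ ≃ₐ[ℚ] ℂ) → X)
    (hc : ∀ σ σ' : ℂ ≃ₐ[ℚ] ℂ, c σ = c σ' → ∃ u ∈ laurentBaseChange ℂ F₀, u ≠ 0 ∧
      coeffMap (σ : ℂ →+* ℂ) g = coeffMap (σ' : ℂ →+* ℂ) g * u ^ m) :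
    ∃ h ∈ laurentBaseChange ℂ F₀, h ≠ 0 ∧ ∃ y ∈ laurentBaseChange Qb F₀,
      coeffMap ι y = h ^ m * g := by
  have := s29_dd_stab_finiteIndex F₀ g m c hc
  exact s29_dd_descent_core F₀ ι x₀ hx₀ hord hfin g hg hg0 m hm (s29_dd_stab F₀ g m)
    (fun σ hσ => hσ)

/-- **(D), finite-list form.**  If every conjugate `σ(g)` is, modulo `m`-th powers of `F_ℂˣ`,
one of finitely many series, the class of `g` contains an element defined over `Q̄`. -/
theorem s29_dd_descent_finset (F₀ : IntermediateField ℚ (LaurentSeries ℚ)) (ι : Qb →+* ℂ)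
    (x₀ : LaurentSeries ℚ) (hx₀ : x₀ ∈ F₀) (hord : x₀.order = -1)
    (hfin : FiniteDimensional
      ℂ⟮(⟨coeffEmb ℂ x₀, coeffEmb_mem_laurentBaseChange ℂ hx₀⟩ : laurentBaseChange ℂ F₀)⟯
      (laurentBaseChange ℂ F₀))
    (g : LaurentSeries ℂ) (hg : g ∈ laurentBaseChange ℂ F₀) (hg0 : g ≠ 0) (m : ℕ) (hm : 0 < m)
    (T : Set (LaurentSeries ℂ)) (hTfin : T.Finite)
    (hT : ∀ σ : ℂ ≃ₐ[ℚ] ℂ, ∃ t ∈ T, ∃ u ∈ laurentBaseChange ℂ F₀, u ≠ 0 ∧
      coeffMap (σ : ℂ →+* ℂ) g = t * u ^ m) :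
    ∃ h ∈ laurentBaseChange ℂ F₀, h ≠ 0 ∧ ∃ y ∈ laurentBaseChange Qb F₀,
      coeffMap ι y = h ^ m * g := by
  classical
  choose t ht u hu hu0 hσ using hT
  have : Finite T := hTfin
  refine s29_dd_descent F₀ ι x₀ hx₀ hord hfin g hg hg0 m hm
    (fun σ => (⟨t σ, ht σ⟩ : T)) (fun σ σ' hσσ' => ?_)
  have h1 : t σ = t σ' := congrArg Subtype.val hσσ'
  refine ⟨u σ / u σ', div_mem (hu σ) (hu σ'), div_ne_zero (hu0 σ) (hu0 σ'), ?_⟩
  rw [hσ σ, hσ σ', h1, div_pow, mul_assoc, mul_div_cancel₀ _ (pow_ne_zero _ (hu0 σ'))]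

end

end Fermat.Agent.S29
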