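import Mathlib
import Fermat.Agent.S29.Descent
import Fermat.Agent.S18.HauptField
import Fermat.Prelude.Def_ModularCurve_JqCoeff

/-!
# S29 (BRIDGE), block (D): descent `ℂ → Q̄`, subtype and modular forms

* `s29_dd_descent_sub` : the descent theorem of `Descent.lean` for elements of the subtype
  `F_ℂ = laurentBaseChange ℂ F₀`, with the conjugates `σ(g)` given as a family `gs` and the
  finite-orbit hypothesis in the shape produced by `s29_fo_main` (`FinOrb.lean`);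
* `s29_dd_jq_mem`, `s29_dd_jq_order` : `j ∈ F_N` has order `-1`;
* `s29_dd_descent_mod`, `s29_dd_descent_mod_series` : the modular case
  `F₀ = modularFunctionFieldFull N`, `x₀ = j`.
-/

set_option autoImplicit false

namespace Fermat.Agent.S29

open AlgebraicCurve ModularCurve
open scoped IntermediateField
open Fermat.Agent.S24 Fermat.Agent.S18

noncomputable section

local notation "Qb" => AlgebraicClosure ℚ

/-- **(D), subtype form.**  `xC ∈ F_ℂ` is the image of a rational series `x₀` of order `-1`,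
`F_ℂ` is finite over `ℂ(xC)`, `g ∈ F_ℂˣ`, `gs σ = σ(g)`, and every `σ(g)` is, modulo `m`-th
powers of `F_ℂˣ`, in a finite set `T`.  Then `h ^ m * g` is defined over `Q̄` for some
`h ∈ F_ℂˣ`. -/
theorem s29_dd_descent_sub (F₀ : IntermediateField ℚ (LaurentSeries ℚ)) (ι : Qb →+* ℂ)
    (xC : laurentBaseChange ℂ F₀) (x₀ : LaurentSeries ℚ)
    (hxC : (xC : LaurentSeries ℂ) = coeffEmb ℂ x₀) (hord : x₀.order = -1)
    [FiniteDimensional ℂ⟮xC⟯ (laurentBaseChange ℂ F₀)]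
    (g : laurentBaseChange ℂ F₀) (hg0 : g ≠ 0) (m : ℕ) (hm : 0 < m)
    (gs : (ℂ ≃ₐ[ℚ] ℂ) → laurentBaseChange ℂ F₀)
    (hgs : ∀ σ : ℂ ≃ₐ[ℚ] ℂ,
      (gs σ : LaurentSeries ℂ) = coeffMap (σ : ℂ →+* ℂ) (g : LaurentSeries ℂ))
    (T : Set (laurentBaseChange ℂ F₀)) (hTfin : T.Finite)
    (hT : ∀ σ : ℂ ≃ₐ[ℚ] ℂ, ∃ t ∈ T, ∃ u : laurentBaseChange ℂ F₀, u ≠ 0 ∧ gs σ = t * u ^ m) :
    ∃ (y : laurentBaseChange Qb F₀) (h : laurentBaseChange ℂ F₀), h ≠ 0 ∧
      coeffMap ι (y : LaurentSeries Qb)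
        = ((h ^ m * g : laurentBaseChange ℂ F₀) : LaurentSeries ℂ) := by
  classical
  have hxord : (xC : LaurentSeries ℂ).order = -1 := by
    rw [hxC]
    show (coeffMap (algebraMap ℚ ℂ) x₀).order = -1
    rw [s29_dd_order_coeffMap _ (algebraMap ℚ ℂ).injective, hord]
  have hτx : ∀ σ : ℂ ≃ₐ[ℚ] ℂ, arithmeticGalois F₀ σ • xC = xC := by
    intro σ
    apply Subtype.ext
    show coeffMap (σ : ℂ →+* ℂ) (xC : LaurentSeries ℂ) = (xC : LaurentSeries ℂ)
    rw [hxC]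
    exact coeffMap_coeffEmb σ x₀
  choose t ht u hu0 hσ using hT
  have : Finite T := hTfin
  have hfi : (s29_dd_stab F₀ (g : LaurentSeries ℂ) m).FiniteIndex := by
    refine s29_dd_stab_finiteIndex F₀ (g : LaurentSeries ℂ) m
      (fun σ => (⟨t σ, ht σ⟩ : T)) (fun σ σ' hσσ' => ?_)
    have h1 : t σ = t σ' := congrArg Subtype.val hσσ'
    refine ⟨((u σ / u σ' : laurentBaseChange ℂ F₀) : LaurentSeries ℂ), (u σ / u σ').2,
      fun h => div_ne_zero (hu0 σ) (hu0 σ') (Subtype.ext h), ?_⟩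
    have h2 : gs σ = gs σ' * (u σ / u σ') ^ m := by
      rw [hσ σ, hσ σ', h1, div_pow, mul_assoc, mul_div_cancel₀ _ (pow_ne_zero _ (hu0 σ'))]
    have h3 := congrArg (Subtype.val : laurentBaseChange ℂ F₀ → LaurentSeries ℂ) h2
    rw [hgs σ] at h3
    rw [h3, ← hgs σ']
    rfl
  obtain ⟨h, hh0, y, hy, hyh⟩ := s29_dd_descent_aux F₀ ι xC hxord hτx g hg0 m hm
    (s29_dd_stab F₀ (g : LaurentSeries ℂ) m)
    (fun σ hσ' => by
      obtain ⟨v, hv, hv0, hgv⟩ := hσ'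
      exact ⟨⟨v, hv⟩, fun h => hv0 (congrArg Subtype.val h), Subtype.ext hgv⟩)
  exact ⟨⟨y, hy⟩, h, hh0, hyh⟩

/-- A series with leading term `q⁻ⁿ` has order `-n`. -/
theorem s29_dd_order_of_lead {R : Type*} [CommRing R] [Nontrivial R] {n : ℤ}
    {x : LaurentSeries R} (hx : s18h_lead n x) : x.order = -n := by
  have h1 : x.coeff (-n) = 1 := s18h_lead_coeff hx (-n) rfl
  have hx0 : x ≠ 0 := by
    rintro rfl
    rw [HahnSeries.coeff_zero] at h1
    exact zero_ne_one h1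
  refine le_antisymm (HahnSeries.order_le_of_coeff_ne_zero (by
    rw [h1]; exact one_ne_zero)) ?_
  by_contra hlt
  push Not at hlt
  exact hx0 (HahnSeries.coeff_order_eq_zero.mp (s18h_lead_coeff_lt hx _ hlt))

/-- `j(q) = q⁻¹ + 744 + …` has order `-1`. -/
theorem s29_dd_jq_order : jq.order = -1 := by
  have h : s18h_lead 1 (jqModC ℚ) := s18h_lead_jq
  rw [jqModC_rat] at h
  exact s29_dd_order_of_lead h

/-- `j ∈ F_N`. -/
theorem s29_dd_jq_mem (N : ℕ) [NeZero N] : jq ∈ modularFunctionFieldFull N := by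
  have h := jqd_mem_full N (one_dvd N)
  rwa [qExpand_one_apply] at h

/-- **(D), modular case, subtype form.**  `F_ℂ = ℂ · F_N`, `jC ∈ F_ℂ` the `j`-function with
`F_ℂ` finite over `ℂ(jC)`; `g ∈ F_ℂˣ` whose conjugates `gs σ = σ(g)` are, modulo `M`-th powers,
in a finite set.  Then `h ^ M * g = ι(g₀)` with `g₀ ∈ Q̄ · F_N` and `h ∈ F_ℂˣ`. -/
theorem s29_dd_descent_mod (N : ℕ) [NeZero N] (ι : Qb →+* ℂ)
    (jC : laurentBaseChange ℂ (modularFunctionFieldFull N))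
    (hjC : (jC : LaurentSeries ℂ) = coeffEmb ℂ jq)
    [FiniteDimensional ℂ⟮jC⟯ (laurentBaseChange ℂ (modularFunctionFieldFull N))]
    (g : laurentBaseChange ℂ (modularFunctionFieldFull N)) (hg0 : g ≠ 0) (M : ℕ) (hM : 0 < M)
    (gs : (ℂ ≃ₐ[ℚ] ℂ) → laurentBaseChange ℂ (modularFunctionFieldFull N))
    (hgs : ∀ σ : ℂ ≃ₐ[ℚ] ℂ,
      (gs σ : LaurentSeries ℂ) = coeffMap (σ : ℂ →+* ℂ) (g : LaurentSeries ℂ))
    (T : Finset (laurentBaseChange ℂ (modularFunctionFieldFull N)))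
    (hT : ∀ σ : ℂ ≃ₐ[ℚ] ℂ, ∃ t ∈ T,
      ∃ u : laurentBaseChange ℂ (modularFunctionFieldFull N), u ≠ 0 ∧ gs σ = t * u ^ M) :
    ∃ (g₀ : modularFunctionFieldBar N) (h : laurentBaseChange ℂ (modularFunctionFieldFull N)),
      h ≠ 0 ∧ coeffMap ι (g₀ : LaurentSeries Qb)
        = ((h ^ M * g : laurentBaseChange ℂ (modularFunctionFieldFull N)) : LaurentSeries ℂ) :=
  s29_dd_descent_sub (modularFunctionFieldFull N) ι jC jq hjC s29_dd_jq_order g hg0 M hM gs hgs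
    (T : Set (laurentBaseChange ℂ (modularFunctionFieldFull N))) T.finite_toSet
    (fun σ => by
      obtain ⟨t, ht, hu⟩ := hT σ
      exact ⟨t, Finset.mem_coe.mpr ht, hu⟩)

/-- **(D), modular case, series form.**  `g ∈ ℂ · F_N` non-zero whose conjugates `σ(g)`
(coefficientwise) are, modulo `M`-th powers of `(ℂ · F_N)ˣ`, in a finite set of series.  Then
`h ^ M * g = ι(g₀)` with `g₀ ∈ Q̄ · F_N` and `h ∈ (ℂ · F_N)ˣ`. -/
theorem s29_dd_descent_mod_series (N : ℕ) [NeZero N] (ι : Qb →+* ℂ)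
    (jC : laurentBaseChange ℂ (modularFunctionFieldFull N))
    (hjC : (jC : LaurentSeries ℂ) = coeffEmb ℂ jq)
    [FiniteDimensional ℂ⟮jC⟯ (laurentBaseChange ℂ (modularFunctionFieldFull N))]
    (g : LaurentSeries ℂ) (hg : g ∈ laurentBaseChange ℂ (modularFunctionFieldFull N))
    (hg0 : g ≠ 0) (M : ℕ) (hM : 0 < M)
    (T : Finset (LaurentSeries ℂ))
    (hT : ∀ σ : ℂ ≃ₐ[ℚ] ℂ, ∃ t ∈ T,
      ∃ u ∈ laurentBaseChange ℂ (modularFunctionFieldFull N), u ≠ 0 ∧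
        coeffMap (σ : ℂ →+* ℂ) g = t * u ^ M) :
    ∃ (g₀ : modularFunctionFieldBar N) (h : LaurentSeries ℂ),
      h ∈ laurentBaseChange ℂ (modularFunctionFieldFull N) ∧ h ≠ 0 ∧
        coeffMap ι (g₀ : LaurentSeries Qb) = h ^ M * g := by
  classical
  have hfin : FiniteDimensional
      ℂ⟮(⟨coeffEmb ℂ jq, coeffEmb_mem_laurentBaseChange ℂ (s29_dd_jq_mem N)⟩ :
        laurentBaseChange ℂ (modularFunctionFieldFull N))⟯
      (laurentBaseChange ℂ (modularFunctionFieldFull N)) := by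
    have e : jC = (⟨coeffEmb ℂ jq, coeffEmb_mem_laurentBaseChange ℂ (s29_dd_jq_mem N)⟩ :
        laurentBaseChange ℂ (modularFunctionFieldFull N)) := Subtype.ext hjC
    rw [← e]
    infer_instance
  obtain ⟨h, hh, hh0, y, hy, hyh⟩ := s29_dd_descent_finset (modularFunctionFieldFull N) ι jq
    (s29_dd_jq_mem N) s29_dd_jq_order hfin g hg hg0 M hM (T : Set (LaurentSeries ℂ))
    T.finite_toSet (fun σ => by
      obtain ⟨t, ht, hu⟩ := hT σ
      exact ⟨t, Finset.mem_coe.mpr ht, hu⟩)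
  exact ⟨⟨y, hy⟩, h, hh, hh0, hyh⟩

end

end Fermat.Agent.S29
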