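import Mathlib
import Fermat.Agent.S29.LinDisj

/-!
# BRIDGE (FF-C), generic part: finiteness over `L(x)` is inherited under extension of constants

If `Fk` is finite over `k(x)`, `φ : Fk → FL` is a homomorphism of fields over `ι : k → L` and
`FL` is generated by `L` and `φ(Fk)`, then `FL` is finite over `L(φ x)`, of degree at most
`[Fk : k(x)]`.  Applied to `Fk = k · F₀`, `FL = L · F₀` (`laurentBaseChange`).
-/

set_option autoImplicit false

noncomputable section

namespace Fermat.Agent.S29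

open ModularCurve
open scoped IntermediateField

theorem s29_ffc_abs {k L Fk FL : Type*} [Field k] [Field L] [Field Fk] [Field FL] [Algebra k Fk]
    [Algebra L FL] (ι : k →+* L) (φ : Fk →+* FL)
    (hφ : ∀ c, φ (algebraMap k Fk c) = algebraMap L FL (ι c))
    (x : Fk) [FiniteDimensional k⟮x⟯ Fk]
    (hgen : IntermediateField.adjoin L (Set.range φ) = ⊤) :
    FiniteDimensional L⟮φ x⟯ FL ∧ Module.finrank L⟮φ x⟯ FL ≤ Module.finrank k⟮x⟯ Fk := by
  classical
  -- Step 1: `φ` maps `k(x)` into `L(φ x)`.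
  have h1 : ∀ c : Fk, c ∈ k⟮x⟯ → φ c ∈ L⟮φ x⟯ := by
    intro c hc
    have hle : k⟮x⟯.toSubfield ≤ Subfield.comap φ L⟮φ x⟯.toSubfield := by
      rw [IntermediateField.adjoin_toSubfield, Subfield.closure_le]
      rintro y (⟨c, rfl⟩ | hy)
      · show φ (algebraMap k Fk c) ∈ L⟮φ x⟯
        rw [hφ]
        exact L⟮φ x⟯.algebraMap_mem _
      · rw [Set.mem_singleton_iff.1 hy]
        exact IntermediateField.mem_adjoin_simple_self L (φ x)
    exact hle hc
  let b : Module.Basis (Fin (Module.finrank k⟮x⟯ Fk)) k⟮x⟯ Fk := Module.finBasis k⟮x⟯ Fk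
  let V : Submodule L⟮φ x⟯ FL := Submodule.span L⟮φ x⟯ (Set.range (fun i => φ (b i)))
  -- Step 2: `φ(Fk) ⊆ V`.
  have h2 : ∀ f : Fk, φ f ∈ V := by
    intro f
    rw [← b.sum_repr f, map_sum]
    refine Submodule.sum_mem _ (fun i _ => ?_)
    have h : φ (b.repr f i • b i)
        = (⟨φ (b.repr f i : Fk), h1 _ (b.repr f i).2⟩ : L⟮φ x⟯) • φ (b i) := by
      rw [Algebra.smul_def, Algebra.smul_def, map_mul]
      rfl
    rw [h]
    exact Submodule.smul_mem _ _ (Submodule.subset_span ⟨i, rfl⟩)
  -- Step 3: `V` is closed under multiplication.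
  have h3 : ∀ u ∈ V, ∀ v ∈ V, u * v ∈ V := by
    intro u hu v hv
    induction hu using Submodule.span_induction with
    | mem u hu =>
      obtain ⟨i, rfl⟩ := hu
      induction hv using Submodule.span_induction with
      | mem v hv =>
        obtain ⟨j, rfl⟩ := hv
        show φ (b i) * φ (b j) ∈ V
        rw [← map_mul]
        exact h2 _
      | zero => rw [mul_zero]; exact zero_mem _
      | add v w _ _ hv hw => rw [mul_add]; exact add_mem hv hw
      | smul c v _ hv => rw [mul_smul_comm]; exact Submodule.smul_mem _ _ hv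
    | zero => rw [zero_mul]; exact zero_mem _
    | add u w _ _ hu hw => rw [add_mul]; exact add_mem hu hw
    | smul c u _ hu => rw [smul_mul_assoc]; exact Submodule.smul_mem _ _ hu
  have h1V : (1 : FL) ∈ V := by
    have := h2 1
    rwa [map_one] at this
  let A : Subalgebra L⟮φ x⟯ FL :=
    { carrier := V
      mul_mem' := fun {u v} hu hv => h3 u hu v hv
      one_mem' := h1V
      add_mem' := fun hu hv => add_mem hu hv
      zero_mem' := zero_mem V
      algebraMap_mem' := fun e => by
        have := Submodule.smul_mem V e h1V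
        rwa [Algebra.smul_def, mul_one] at this }
  have hAV : Subalgebra.toSubmodule A = V := rfl
  have hAfg : (Subalgebra.toSubmodule A).FG := by
    rw [hAV]
    exact Submodule.fg_span (Set.finite_range _)
  have hinv : ∀ u ∈ A, u⁻¹ ∈ A := by
    intro u hu
    exact A.inv_mem_of_algebraic (x := ⟨u, hu⟩) (IsIntegral.of_mem_of_fg A hAfg u hu).isAlgebraic
  have htop : ∀ y : FL, y ∈ V := by
    intro y
    have hy : y ∈ IntermediateField.adjoin L (Set.range φ) := by
      rw [hgen]
      trivial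
    let W : Subfield FL := { A.toSubring with inv_mem' := fun u hu => hinv u hu }
    have hle : (IntermediateField.adjoin L (Set.range φ)).toSubfield ≤ W := by
      rw [IntermediateField.adjoin_toSubfield, Subfield.closure_le]
      rintro z (⟨c, rfl⟩ | ⟨f, rfl⟩)
      · show algebraMap L FL c ∈ A
        have h : algebraMap L FL c = algebraMap L⟮φ x⟯ FL (algebraMap L L⟮φ x⟯ c) := rfl
        rw [h]
        exact A.algebraMap_mem _
      · exact h2 f
    exact hle hy
  have hVtop : V = ⊤ := eq_top_iff.2 (fun y _ => htop y)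
  have hfin : Module.Finite L⟮φ x⟯ FL :=
    Module.finite_def.2 (hVtop ▸ Submodule.fg_span (Set.finite_range _))
  refine ⟨hfin, ?_⟩
  have hcard := finrank_range_le_card (R := L⟮φ x⟯) (fun i => φ (b i))
  rw [Fintype.card_fin] at hcard
  calc Module.finrank L⟮φ x⟯ FL
      = Module.finrank L⟮φ x⟯ (⊤ : Submodule L⟮φ x⟯ FL) := (finrank_top L⟮φ x⟯ FL).symm
    _ = Module.finrank L⟮φ x⟯ V := by rw [hVtop]
    _ ≤ Module.finrank k⟮x⟯ Fk := hcard

section LBC

variable {k L : Type*} [Field k] [Field L] [Algebra ℚ k] [Algebra ℚ L]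

/-- Extension of coefficients `k · F₀ → L · F₀` as a homomorphism of fields. -/
def s29_ffc_emb (F₀ : IntermediateField ℚ (LaurentSeries ℚ)) (ι : k →+* L) :
    laurentBaseChange k F₀ →+* laurentBaseChange L F₀ where
  toFun f := ⟨coeffMap ι f, s29_ld_coeffMap_mem F₀ ι f f.2⟩
  map_one' := Subtype.ext (map_one _)
  map_mul' _ _ := Subtype.ext (map_mul _ _ _)
  map_zero' := Subtype.ext (map_zero _)
  map_add' _ _ := Subtype.ext (map_add _ _ _)

@[simp] theorem s29_ffc_emb_coe (F₀ : IntermediateField ℚ (LaurentSeries ℚ)) (ι : k →+* L)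
    (f : laurentBaseChange k F₀) :
    ((s29_ffc_emb F₀ ι f : laurentBaseChange L F₀) : LaurentSeries L) = coeffMap ι f := rfl

theorem s29_ffc_emb_algebraMap (F₀ : IntermediateField ℚ (LaurentSeries ℚ)) (ι : k →+* L)
    (c : k) :
    s29_ffc_emb F₀ ι (algebraMap k (laurentBaseChange k F₀) c)
      = algebraMap L (laurentBaseChange L F₀) (ι c) := by
  apply Subtype.ext
  show coeffMap ι (algebraMap k (LaurentSeries k) c) = algebraMap L (LaurentSeries L) (ι c)
  rw [algebraMap_laurentSeries_eq_single, coeffMap_single, ← algebraMap_laurentSeries_eq_single]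

/-- The image of a rational series. -/
theorem s29_ffc_emb_coeffEmb (F₀ : IntermediateField ℚ (LaurentSeries ℚ)) (ι : k →+* L)
    (z : LaurentSeries ℚ) (hz : z ∈ F₀) :
    s29_ffc_emb F₀ ι ⟨coeffEmb k z, coeffEmb_mem_laurentBaseChange k hz⟩
      = ⟨coeffEmb L z, coeffEmb_mem_laurentBaseChange L hz⟩ :=
  Subtype.ext (s29_ld_coeffMap_coeffEmb ι z)

/-- `L · F₀` is generated by `L` and the image of `k · F₀`. -/
theorem s29_ffc_adjoin_range (F₀ : IntermediateField ℚ (LaurentSeries ℚ)) (ι : k →+* L) :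
    IntermediateField.adjoin L (Set.range (s29_ffc_emb F₀ ι)) = ⊤ := by
  rw [eq_top_iff]
  rintro ⟨y, hy⟩ -
  -- push the subfield to `LaurentSeries L`
  let W : Subfield (LaurentSeries L) :=
    (IntermediateField.adjoin L (Set.range (s29_ffc_emb F₀ ι))).toSubfield.map
      (laurentBaseChange L F₀).val.toRingHom
  have hle : (laurentBaseChange L F₀).toSubfield ≤ W := by
    rw [laurentBaseChange, IntermediateField.adjoin_toSubfield, Subfield.closure_le]
    rintro z (⟨c, rfl⟩ | ⟨z, hz, rfl⟩)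
    · exact ⟨algebraMap L (laurentBaseChange L F₀) c,
        (IntermediateField.adjoin L (Set.range (s29_ffc_emb F₀ ι))).algebraMap_mem c, rfl⟩
    · refine ⟨⟨coeffEmb L z, coeffEmb_mem_laurentBaseChange L hz⟩,
        IntermediateField.subset_adjoin L _ ⟨⟨coeffEmb k z, coeffEmb_mem_laurentBaseChange k hz⟩,
          s29_ffc_emb_coeffEmb F₀ ι z hz⟩, rfl⟩
  obtain ⟨w, hw, hwy⟩ := hle hy
  have : w = ⟨y, hy⟩ := Subtype.ext hwy
  rw [← this]
  exact hw

/-- **(FF-C), generic form**: if `k · F₀` is finite over `k(x)` for a rational series `x ∈ F₀`,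
then `L · F₀` is finite over `L(x)`, of degree at most `[k · F₀ : k(x)]`. -/
theorem s29_ffc_generic (F₀ : IntermediateField ℚ (LaurentSeries ℚ)) (ι : k →+* L)
    (x₀ : LaurentSeries ℚ) (hx₀ : x₀ ∈ F₀)
    [FiniteDimensional
      k⟮(⟨coeffEmb k x₀, coeffEmb_mem_laurentBaseChange k hx₀⟩ : laurentBaseChange k F₀)⟯
      (laurentBaseChange k F₀)] :
    FiniteDimensional
        L⟮(⟨coeffEmb L x₀, coeffEmb_mem_laurentBaseChange L hx₀⟩ : laurentBaseChange L F₀)⟯
        (laurentBaseChange L F₀) ∧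
      Module.finrank
        L⟮(⟨coeffEmb L x₀, coeffEmb_mem_laurentBaseChange L hx₀⟩ : laurentBaseChange L F₀)⟯
        (laurentBaseChange L F₀) ≤
      Module.finrank
        k⟮(⟨coeffEmb k x₀, coeffEmb_mem_laurentBaseChange k hx₀⟩ : laurentBaseChange k F₀)⟯
        (laurentBaseChange k F₀) := by
  have h := s29_ffc_abs ι (s29_ffc_emb F₀ ι) (s29_ffc_emb_algebraMap F₀ ι)
    (⟨coeffEmb k x₀, coeffEmb_mem_laurentBaseChange k hx₀⟩ : laurentBaseChange k F₀)
    (s29_ffc_adjoin_range F₀ ι)
  rw [s29_ffc_emb_coeffEmb F₀ ι x₀ hx₀] at h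
  exact h

end LBC

end Fermat.Agent.S29

end
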