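import Mathlib
import Fermat.Agent.S29.FFCGen
import Fermat.Agent.S24
import Fermat.Agent.S24.JTrans
import Fermat.Agent.S37.HFunct
import Fermat.Prelude.Def_ModularCurve_ArithmeticGalois
import Fermat.Prelude.Thm_ModularCurve_coeff_jqModC_neg_one
import Fermat.Prelude.Thm_ModularCurve_coeff_jqModC_pow_of_lt

/-!
# BRIDGE (FF-C): `L · F_N` is a function field of one variable over `L`

For a field `L` of characteristic zero containing a copy of `Q̄` (e.g. `L = ℂ`), the field
`F_L := laurentBaseChange L (modularFunctionFieldFull N) ⊆ L((q))` is finite over `L(j)`, `j` is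
transcendental over `L`, the order of the `q`-expansion is a place `P∞` of `F_L / L` with
`ord_{P∞} j = -1`, and the coefficientwise Galois action (`arithmeticGalois`) fixes `j` and `P∞`.
These are exactly the inputs of `s29_d_canonical` (DescentAbs.lean) for `K := ℂ`.
-/

set_option autoImplicit false

noncomputable section

namespace Fermat.Agent.S29

open ModularCurve AlgebraicCurve
open Fermat.Agent.S24
open scoped IntermediateField

section Generic

variable (L : Type*) [Field L] [Algebra ℚ L] (N : ℕ)

theorem s29_ffc_jq_mem : jq ∈ modularFunctionFieldFull N := by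
  have h := jqd_mem_full N (one_dvd N)
  rwa [qExpand_one_apply] at h

/-- The function `j` as an element of `L · F_N`. -/
def s29_ffc_j : laurentBaseChange L (modularFunctionFieldFull N) :=
  ⟨coeffEmb L jq, coeffEmb_mem_laurentBaseChange L (s29_ffc_jq_mem N)⟩

theorem s29_ffc_j_coe :
    ((s29_ffc_j L N : laurentBaseChange L (modularFunctionFieldFull N)) : LaurentSeries L)
      = jqModC L := by
  show coeffEmb L jq = jqModC L
  rw [← jqModC_rat]
  exact map_jqModC _

/-- `j` is transcendental over `L`. -/
theorem s29_ffc_transcendental : Transcendental L (s29_ffc_j L N) := by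
  have h := jtrans_transcendental_jqModC L
  rw [← s29_ffc_j_coe L N] at h
  exact (transcendental_algebraMap_iff
    (algebraMap (laurentBaseChange L (modularFunctionFieldFull N)) (LaurentSeries L)).injective).mp h

omit [Algebra ℚ L] in
/-- The `q`-expansion of `j` has order `-1`. -/
theorem s29_ffc_order_jqModC : (jqModC L).order = -1 := by
  have h1 : (jqModC L).coeff (-1 : ℤ) = 1 := coeff_jqModC_neg_one L
  have hne : jqModC L ≠ 0 := by
    intro h
    rw [h, HahnSeries.coeff_zero] at h1
    exact zero_ne_one h1
  refine le_antisymm (HahnSeries.order_le_of_coeff_ne_zero (by rw [h1]; exact one_ne_zero)) ?_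
  by_contra hlt
  push Not at hlt
  have h2 : ((jqModC L) ^ 1).coeff (jqModC L).order = 0 :=
    coeff_jqModC_pow_of_lt L (by simpa using hlt)
  rw [pow_one] at h2
  exact hne (HahnSeries.coeff_order_eq_zero.mp h2)

theorem s29_ffc_j_ne_zero : s29_ffc_j L N ≠ 0 :=
  fun h => (s29_ffc_transcendental L N) (h ▸ isAlgebraic_zero)

/-- **The place `P∞`**: the order of the `q`-expansion is a place of `L · F_N` over `L`. -/
theorem s29_ffc_qPlace :
    ∃ P : Place L (laurentBaseChange L (modularFunctionFieldFull N)),
      ∀ f : laurentBaseChange L (modularFunctionFieldFull N), f ≠ 0 →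
        P.ord f = (f : LaurentSeries L).order := by
  have hjord : ((s29_ffc_j L N : laurentBaseChange L (modularFunctionFieldFull N)) :
      LaurentSeries L).order = -1 := by
    rw [s29_ffc_j_coe]
    exact s29_ffc_order_jqModC L
  have hj0 := s29_ffc_j_ne_zero L N
  obtain ⟨v, e, he, hv⟩ := Fermat.Agent.S24.exists_place_of_ord (K := L)
    (F := laurentBaseChange L (modularFunctionFieldFull N))
    (fun f => (f : LaurentSeries L).order)
    (fun f g hf hg => by
      show ((f : LaurentSeries L) * (g : LaurentSeries L)).order = _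
      exact HahnSeries.order_mul (fun h => hf (Subtype.ext h)) (fun h => hg (Subtype.ext h)))
    (fun f g _ _ hfg => by
      show _ ≤ ((f : LaurentSeries L) + (g : LaurentSeries L)).order
      exact HahnSeries.min_order_le_order_add (fun h => hfg (Subtype.ext h)))
    (fun c hc => by
      show (algebraMap L (LaurentSeries L) c).order = 0
      rw [algebraMap_laurentSeries_eq_single]
      exact HahnSeries.order_single hc)
    ⟨s29_ffc_j L N, hj0, by
      show ((s29_ffc_j L N : laurentBaseChange L (modularFunctionFieldFull N)) :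
        LaurentSeries L).order ≠ 0
      rw [hjord]; norm_num⟩
  have he1 : e = 1 := by
    have h2 : ((s29_ffc_j L N : laurentBaseChange L (modularFunctionFieldFull N)) :
        LaurentSeries L).order = e * v.ord (s29_ffc_j L N) := hv (s29_ffc_j L N) hj0
    rw [hjord] at h2
    have h3 : e ∣ 1 := ⟨-v.ord (s29_ffc_j L N), by linarith⟩
    exact Int.eq_one_of_dvd_one he.le h3
  refine ⟨v, fun f hf => ?_⟩
  have h2 : (f : LaurentSeries L).order = e * v.ord f := hv f hf
  rw [h2, he1, one_mul]

/-- `ord_{P∞} j = -1`. -/
theorem s29_ffc_qPlace_ord_j (P : Place L (laurentBaseChange L (modularFunctionFieldFull N)))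
    (hP : ∀ f : laurentBaseChange L (modularFunctionFieldFull N), f ≠ 0 →
      P.ord f = (f : LaurentSeries L).order) : P.ord (s29_ffc_j L N) = -1 := by
  rw [hP _ (s29_ffc_j_ne_zero L N), s29_ffc_j_coe]
  exact s29_ffc_order_jqModC L

/-- Coefficientwise maps along an injective ring hom preserve the order. -/
theorem s29_ffc_order_coeffMap {R S : Type*} [CommRing R] [CommRing S] (f : R →+* S)
    (hf : Function.Injective f) (x : LaurentSeries R) : (coeffMap f x).order = x.order := by
  rcases eq_or_ne x 0 with rfl | hx
  · simp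
  have hx' : coeffMap f x ≠ 0 := by
    intro h
    apply hx
    ext n
    have := congrArg (fun y => y.coeff n) h
    simp only [coeffMap_coeff, HahnSeries.coeff_zero] at this
    exact hf (by rw [this, HahnSeries.coeff_zero, map_zero])
  refine le_antisymm (HahnSeries.order_le_of_coeff_ne_zero ?_) ?_
  · rw [coeffMap_coeff]
    intro h
    exact (HahnSeries.coeff_order_eq_zero.not.mpr hx) (hf (by rw [h, map_zero]))
  · by_contra hlt
    push Not at hlt
    have h0 : x.coeff (coeffMap f x).order = 0 := HahnSeries.coeff_eq_zero_of_lt_order hlt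
    have h1 : (coeffMap f x).coeff (coeffMap f x).order = 0 := by
      rw [coeffMap_coeff, h0, map_zero]
    exact hx' (HahnSeries.coeff_order_eq_zero.mp h1)

/-- The Galois action fixes `j`. -/
theorem s29_ffc_galois_j (σ : L ≃ₐ[ℚ] L) :
    arithmeticGalois (modularFunctionFieldFull N) σ • s29_ffc_j L N = s29_ffc_j L N := by
  apply Subtype.ext
  rw [coe_arithmeticGalois_smul]
  exact coeffMap_coeffEmb σ jq

/-- The Galois action fixes `P∞`. -/
theorem s29_ffc_galois_qPlace (P : Place L (laurentBaseChange L (modularFunctionFieldFull N)))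
    (hP : ∀ f : laurentBaseChange L (modularFunctionFieldFull N), f ≠ 0 →
      P.ord f = (f : LaurentSeries L).order) (σ : L ≃ₐ[ℚ] L) :
    arithmeticGalois (modularFunctionFieldFull N) σ • P = P := by
  apply place_ext_ord
  intro f
  rcases eq_or_ne f 0 with rfl | hf
  · simp
  set τ := arithmeticGalois (modularFunctionFieldFull N) σ with hτ
  have h1 : (τ • P).ord f = P.ord (τ⁻¹ • f) := by
    have := SemilinearAut.ord_smul τ P (τ⁻¹ • f)
    rwa [smul_inv_smul] at this
  have hf' : τ⁻¹ • f ≠ 0 := by
    intro h
    apply hf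
    have := congrArg (fun y => τ • y) h
    simpa using this
  have h2 : ((τ⁻¹ • f : laurentBaseChange L (modularFunctionFieldFull N)) : LaurentSeries L).order
      = (f : LaurentSeries L).order := by
    have h3 : τ⁻¹ = arithmeticGalois (modularFunctionFieldFull N) σ⁻¹ := by
      rw [hτ, map_inv]
    rw [h3, coe_arithmeticGalois_smul]
    exact s29_ffc_order_coeffMap _ (σ⁻¹ : L ≃ₐ[ℚ] L).injective _
  rw [h1, hP _ hf', hP _ hf, h2]

/-- **(FF-C)**: `L · F_N` is finite over `L(j)`, of degree at most `ψ(N)`. -/
theorem s29_ffc_finite [NeZero N] (ι : Kbar →+* L) :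
    FiniteDimensional L⟮s29_ffc_j L N⟯ (laurentBaseChange L (modularFunctionFieldFull N)) ∧
      Module.finrank L⟮s29_ffc_j L N⟯ (laurentBaseChange L (modularFunctionFieldFull N))
        ≤ dedekindPsi N := by
  have : FiniteDimensional
      Kbar⟮(⟨coeffEmb Kbar jq, coeffEmb_mem_laurentBaseChange Kbar (s29_ffc_jq_mem N)⟩ :
        laurentBaseChange Kbar (modularFunctionFieldFull N))⟯
      (laurentBaseChange Kbar (modularFunctionFieldFull N)) := (asm_generic N).1
  have h := s29_ffc_generic (modularFunctionFieldFull N) ι jq (s29_ffc_jq_mem N)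
  refine ⟨h.1, h.2.trans (le_of_eq ?_)⟩
  exact (asm_generic N).2.1

theorem s29_ffc_finiteDimensional [NeZero N] (ι : Kbar →+* L) :
    FiniteDimensional L⟮s29_ffc_j L N⟯ (laurentBaseChange L (modularFunctionFieldFull N)) :=
  (s29_ffc_finite L N ι).1

theorem s29_ffc_finrank_le [NeZero N] (ι : Kbar →+* L) :
    Module.finrank L⟮s29_ffc_j L N⟯ (laurentBaseChange L (modularFunctionFieldFull N))
      ≤ dedekindPsi N :=
  (s29_ffc_finite L N ι).2

end Generic

section Complex

variable (N : ℕ) [NeZero N]

instance s29_ffc_finiteDimensional_complex :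
    FiniteDimensional ℂ⟮s29_ffc_j ℂ N⟯ (laurentBaseChange ℂ (modularFunctionFieldFull N)) :=
  s29_ffc_finiteDimensional ℂ N iotaK

/-- `ℂ · F_N` is a function field of one variable over `ℂ`. -/
theorem s29_ffc_isFF :
    Fermat.Agent.S37.s37_h_IsFF ℂ (laurentBaseChange ℂ (modularFunctionFieldFull N)) :=
  ⟨s29_ffc_j ℂ N, s29_ffc_transcendental ℂ N, s29_ffc_finiteDimensional ℂ N iotaK⟩

theorem s29_ffc_hasPrincipalDivisors :
    HasPrincipalDivisors ℂ (laurentBaseChange ℂ (modularFunctionFieldFull N)) :=
  (s29_ffc_isFF N).hasPrincipalDivisors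

end Complex

end Fermat.Agent.S29

end
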