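import Fermat.Agent.S29.FinOrb
import Fermat.Agent.S29.MerOrd
import Fermat.Agent.S29.ParLattice
import Fermat.Agent.S29.ApEmb
import Fermat.Agent.S29.DescentMod
import Fermat.Agent.S29.FFC

/-!
# S29 (BRIDGE): the finite-orbit hypothesis (hT) and the combined statement (E3)

`F_C = ℂ · F_N ⊆ ℂ((q))` (`s29_ap_FC N`), `an : F_C →+* s29_Mer` ANY ring homomorphism into the
field of meromorphic functions on `ℍ` (to be instantiated with the analytic realisation) such that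

* `hinv` : `an f` is `Γ₀(N)`-invariant;
* `hZ`   : a `Γ₀(N)`-invariant meromorphic function whose `M`-th power is in `an F_C` is in
  `an F_C`  (Z2-root over `ℂ`);
* `hTr`  : TRANSPORT — for `σ ∈ Aut(ℂ/ℚ)` and `τ ∈ ℍ` there is `τ'` with
  `ord_τ (an (σ f)) = ord_τ' (an f)` for all `f ≠ 0`.

Then for `g ∈ F_Cˣ` such that `an g` is an `M`-th power in `s29_Mer`:

* `s29_ck_root_conj` : every conjugate `an (σ g)` is an `M`-th power;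
* `s29_ck_hT` : the conjugates `σ g` lie in finitely many classes modulo `M`-th powers of `F_Cˣ`;
* `s29_ck_e3` : `h ^ M * g = ι(g₀)` for some `h ∈ F_Cˣ` and `g₀ ∈ Q̄ · F_N`.
-/

set_option autoImplicit false

open UpperHalfPlane ModularCurve CongruenceSubgroup
open scoped MatrixGroups

noncomputable section

namespace Fermat.Agent.S29

open Fermat.Agent.S24

/-- The action of `σ ∈ Aut(ℂ/ℚ)` on `F_C = ℂ · F_N` (coefficientwise). -/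
def s29_ck_sig (N : ℕ) (σ : ℂ ≃ₐ[ℚ] ℂ) (f : s29_ap_FC N) : s29_ap_FC N :=
  ⟨coeffMap (σ : ℂ →+* ℂ) (f : LaurentSeries ℂ), coeffMap_mem_laurentBaseChange σ f.2⟩

theorem s29_ck_sig_coe (N : ℕ) (σ : ℂ ≃ₐ[ℚ] ℂ) (f : s29_ap_FC N) :
    ((s29_ck_sig N σ f : s29_ap_FC N) : LaurentSeries ℂ)
      = coeffMap (σ : ℂ →+* ℂ) (f : LaurentSeries ℂ) := rfl

theorem s29_ck_sig_ne_zero (N : ℕ) (σ : ℂ ≃ₐ[ℚ] ℂ) {f : s29_ap_FC N} (hf : f ≠ 0) :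
    s29_ck_sig N σ f ≠ 0 := by
  intro h
  apply hf
  apply Subtype.ext
  have h1 : coeffMap (σ : ℂ →+* ℂ) (f : LaurentSeries ℂ) = 0 := congrArg Subtype.val h
  exact (map_eq_zero (coeffMap (σ : ℂ →+* ℂ))).mp h1

/-- the order of a power. -/
theorem s29_ck_ord_pow (τ : ℍ) {R : s29_Mer} (hR : R ≠ 0) (n : ℕ) :
    s29_ord τ (R ^ n) = n * s29_ord τ R := by
  induction n with
  | zero =>
    rw [pow_zero, ← map_one (algebraMap ℂ s29_Mer), s29_ord_const τ 1 one_ne_zero]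
    simp
  | succ n ih =>
    rw [pow_succ, s29_ord_mul τ (pow_ne_zero n hR) hR, ih]
    push_cast
    ring

variable (N : ℕ) [NeZero N] (M : ℕ) (hM : 0 < M) (an : s29_ap_FC N →+* s29_Mer)

omit [NeZero N] in
include hM in
/-- TRANSPORT ⟹ if `an g` is an `M`-th power, so is `an (σ g)` for every `σ ∈ Aut(ℂ/ℚ)`. -/
theorem s29_ck_root_conj
    (hTr : ∀ (σ : ℂ ≃ₐ[ℚ] ℂ) (τ : ℍ), ∃ τ' : ℍ, ∀ f : s29_ap_FC N, f ≠ 0 →
      s29_ord τ (an (s29_ck_sig N σ f)) = s29_ord τ' (an f))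
    (g : s29_ap_FC N) (hg0 : g ≠ 0) (hroot : ∃ R : s29_Mer, R ^ M = an g) (σ : ℂ ≃ₐ[ℚ] ℂ) :
    ∃ R : s29_Mer, R ^ M = an (s29_ck_sig N σ g) := by
  obtain ⟨R, hR⟩ := hroot
  have hang : an g ≠ 0 := (map_ne_zero an).mpr hg0
  have hR0 : R ≠ 0 := by
    rintro rfl
    rw [zero_pow hM.ne'] at hR
    exact hang hR.symm
  refine s29_mer_root M hM _ ((map_ne_zero an).mpr (s29_ck_sig_ne_zero N σ hg0)) (fun τ => ?_)
  obtain ⟨τ', hτ'⟩ := hTr σ τ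
  rw [hτ' g hg0, ← hR, s29_ck_ord_pow τ' hR0]
  exact dvd_mul_right _ _

include hM in
/-- **(hT).**  The conjugates `σ g` of `g ∈ F_Cˣ` (with `an g` an `M`-th power) lie in finitely
many classes modulo `M`-th powers of `F_Cˣ`. -/
theorem s29_ck_hT
    (hinv : ∀ γ : SL(2, ℤ), γ ∈ Gamma0 N → ∀ f : s29_ap_FC N, γ • an f = an f)
    (hZ : ∀ y : s29_Mer, (∀ γ : SL(2, ℤ), γ ∈ Gamma0 N → γ • y = y) →
      y ^ M ∈ Set.range an → y ∈ Set.range an)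
    (hTr : ∀ (σ : ℂ ≃ₐ[ℚ] ℂ) (τ : ℍ), ∃ τ' : ℍ, ∀ f : s29_ap_FC N, f ≠ 0 →
      s29_ord τ (an (s29_ck_sig N σ f)) = s29_ord τ' (an f))
    (g : s29_ap_FC N) (hg0 : g ≠ 0) (hroot : ∃ R : s29_Mer, R ^ M = an g) :
    ∃ T : Finset (s29_ap_FC N), ∀ σ : ℂ ≃ₐ[ℚ] ℂ, ∃ t ∈ T, ∃ u : s29_ap_FC N,
      u ≠ 0 ∧ s29_ck_sig N σ g = t * u ^ M := by
  have hfg : (Gamma0 N).FG := (Group.fg_iff_subgroup_fg _).mp (s29_pl_fg N)
  obtain ⟨T, -, hT⟩ := s29_fo_main an (Gamma0 N) hfg M hM hinv hZ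
    (fun σ : ℂ ≃ₐ[ℚ] ℂ => s29_ck_sig N σ g) (fun σ => s29_ck_sig_ne_zero N σ hg0)
    (fun σ => s29_ck_root_conj N M hM an hTr g hg0 hroot σ)
  exact ⟨T, hT⟩

include hM in
/-- **(E3).**  `g ∈ F_Cˣ` with `an g` an `M`-th power in `s29_Mer`: then `h ^ M * g` is defined
over `Q̄` for some `h ∈ F_Cˣ`. -/
theorem s29_ck_e3
    (hinv : ∀ γ : SL(2, ℤ), γ ∈ Gamma0 N → ∀ f : s29_ap_FC N, γ • an f = an f)
    (hZ : ∀ y : s29_Mer, (∀ γ : SL(2, ℤ), γ ∈ Gamma0 N → γ • y = y) →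
      y ^ M ∈ Set.range an → y ∈ Set.range an)
    (hTr : ∀ (σ : ℂ ≃ₐ[ℚ] ℂ) (τ : ℍ), ∃ τ' : ℍ, ∀ f : s29_ap_FC N, f ≠ 0 →
      s29_ord τ (an (s29_ck_sig N σ f)) = s29_ord τ' (an f))
    (g : s29_ap_FC N) (hg0 : g ≠ 0) (hroot : ∃ R : s29_Mer, R ^ M = an g) :
    ∃ (g₀ : modularFunctionFieldBar N) (h : s29_ap_FC N), h ≠ 0 ∧
      coeffMap iotaK (g₀ : LaurentSeries Kbar)
        = ((h ^ M * g : s29_ap_FC N) : LaurentSeries ℂ) := by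
  obtain ⟨T, hT⟩ := s29_ck_hT N M hM an hinv hZ hTr g hg0 hroot
  exact s29_dd_descent_mod N iotaK (s29_ffc_j ℂ N) rfl g hg0 M hM
    (fun σ => s29_ck_sig N σ g) (fun σ => rfl) T hT

end Fermat.Agent.S29
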