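import Fermat.Agent.S29.ApTransport
import Fermat.Agent.S29.CModEmb
import Fermat.Agent.S29.CKeyGlue

/-!
# S29 (project BRIDGE), block (AP): TRANSPORT for the analytic realisation `s29_anC`

`s29_anC N : F_C →+* s29_Mer` (helper17's `ℂ`-analytic model) factors through
`s29_ap_embFC N : F_C → s29_cm_L N`; hence TRANSPORT (`ApTransport.lean`) holds for it:
for `σ ∈ Aut(ℂ)` and `τ ∈ ℍ` there is `τ'` with
`s29_ord τ (s29_anC N (σ f)) = s29_ord τ' (s29_anC N f)` for all nonzero `f ∈ F_C`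
(`s29_ap_hTr`, exactly the hypothesis `hTr` of `s29_ck_hT` / `s29_ck_e3`).
-/

set_option autoImplicit false

open UpperHalfPlane ModularCurve AlgebraicCurve
open scoped MatrixGroups IntermediateField Manifold

noncomputable section

namespace Fermat.Agent.S29

open Fermat.Agent.S28 (Jfun scaleH HasQExp)

variable (N : ℕ) [NeZero N]

/-- The canonical map `s29_cm_L N = Frac ℂ[J(dγτ)] → s29_Mer`. -/
def s29_ap_ofL : s29_cm_L N →+* s29_Mer :=
  IsFractionRing.lift (g := (algebraMap s29_hol s29_Mer).comp (s29_cpl_toHol N))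
    (s29_algebraMap_injective.comp (s29_cpl_toHol_injective N))

theorem s29_ap_ofL_algebraMap (x : s29_cm_ring N) :
    s29_ap_ofL N (algebraMap (s29_cm_ring N) (s29_cm_L N) x)
      = algebraMap s29_hol s29_Mer (s29_cpl_toHol N x) :=
  IsFractionRing.lift_algebraMap _ x

/-- helper17's analytic realisation is `s29_ap_ofL ∘ s29_ap_embFC`. -/
theorem s29_ap_anC_eq (f : s29_ap_FC N) :
    s29_anC N f = s29_ap_ofL N (s29_ap_embFC N f) := by
  obtain ⟨a, b, hb, hfrac, hexp⟩ := s29_ap_exists_frac N f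
  let a' : s29_cRing N := ⟨(a : ℍ → ℂ), a.2⟩
  let b' : s29_cRing N := ⟨(b : ℍ → ℂ), b.2⟩
  have hea : s29_cExp N a' = s29_cm_exp N a := s29_cExp_eq N a' (s29_cm_exp_spec N a)
  have heb : s29_cExp N b' = s29_cm_exp N b := s29_cExp_eq N b' (s29_cm_exp_spec N b)
  have hb1 : s29_cm_exp N b ≠ 0 := fun h0 =>
    hb (s29_cm_exp_injective N (by rw [h0, map_zero]))
  have h1 : s29_anC N f = s29_cOfL N (algebraMap (s29_cRing N) (s29_cL N) a'
      / algebraMap (s29_cRing N) (s29_cL N) b') := by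
    rw [s29_anC_eq_iff, map_div₀, s29_cExpL_algebraMap, s29_cExpL_algebraMap, hea, heb, hexp,
      mul_div_cancel_right₀ _ hb1]
  have e1 : s29_cOfRing N a' = s29_cpl_toHol N a :=
    s29_hol_ext fun τ => by rw [s29_cOfRing_apply]; rfl
  have e2 : s29_cOfRing N b' = s29_cpl_toHol N b :=
    s29_hol_ext fun τ => by rw [s29_cOfRing_apply]; rfl
  rw [h1, hfrac, map_div₀, map_div₀, s29_cOfL_algebraMap, s29_cOfL_algebraMap,
    s29_ap_ofL_algebraMap, s29_ap_ofL_algebraMap, e1, e2]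

/-- **TRANSPORT** for `s29_anC`, with `J(τ') = σ⁻¹(J(τ))`. -/
theorem s29_ap_transport_anC (σ : ℂ ≃ₐ[ℚ] ℂ) (τ : ℍ) :
    ∃ τ' : ℍ, Jfun τ' = σ.symm (Jfun τ) ∧ ∀ f : s29_ap_FC N, f ≠ 0 →
      s29_ord τ (s29_anC N (s29_ck_sig N σ f)) = s29_ord τ' (s29_anC N f) := by
  obtain ⟨τ', hJ, h⟩ := s29_ap_transport_mer N (s29_ap_ofL N) (s29_ap_ofL_algebraMap N) σ τ
  refine ⟨τ', hJ, fun f hf => ?_⟩
  rw [s29_ap_anC_eq, s29_ap_anC_eq]
  exact h f hf

/-- **TRANSPORT** in the exact shape of the hypothesis `hTr` of `s29_ck_hT` / `s29_ck_e3`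
(with `an := s29_anC N`). -/
theorem s29_ap_hTr : ∀ (σ : ℂ ≃ₐ[ℚ] ℂ) (τ : ℍ), ∃ τ' : ℍ, ∀ f : s29_ap_FC N, f ≠ 0 →
    s29_ord τ (s29_anC N (s29_ck_sig N σ f)) = s29_ord τ' (s29_anC N f) := by
  intro σ τ
  obtain ⟨τ', -, h⟩ := s29_ap_transport_anC N σ τ
  exact ⟨τ', h⟩

end Fermat.Agent.S29
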