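import Fermat.Agent.S29.KapHecke
import Fermat.Agent.S29.CohPar
import Fermat.Agent.S29.ParLattice

/-!
# S29 (project BRIDGE): the comparison `Λ → J₀(N)[m]` at every level `m`, compatibly in `m`

`Λ := Hom_par(Γ₀(N), ℤ)`.  From

* (EX)  every `ψ mod m` (`ψ ∈ Λ`) is `κ_m x` for some `x ∈ J₀(N)[m]`, and
* (INJ) `κ_m` is injective,

(both taken as hypotheses here, for every `m ≥ 1`) we get additive maps `ι_m : Λ → J₀(N)(ℚ̄)`
with `m • ι_m = 0`, `ker ι_m ⊆ m Λ`, `ι_m ∘ T_ℓ^coh = T_ℓ ∘ ι_m` (`ℓ ∤ N`), and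
`d • ι_{d m} = ι_m`.

* `s29_bt_kappa_mul` : `κ_m (d • x) = κ_{d m} x mod m` (real content: any-witness spec);
* `s29_bt_tower'`, `s29_bt_tower`, `s29_bt_tower_p` : the compatible system;
* `s29_bt_torsion_finite` : `J₀(N)[m]` is finite (given (INJ)).
-/

set_option autoImplicit false
set_option linter.style.haveILetI false

open UpperHalfPlane ModularCurve AlgebraicCurve
open scoped MatrixGroups Manifold

noncomputable section

namespace Fermat.Agent.S29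

open Fermat.Agent.S24
open CongruenceSubgroup ModularCurve.Period

attribute [local instance] algKC

/-- `ζ_{d m} ^ d = ζ_m`. -/
theorem s29_bt_zeta_pow (m d : ℕ) [NeZero m] [NeZero d] :
    s29_ka_zeta (d * m) ^ d = s29_ka_zeta m := by
  have hm : (m : ℂ) ≠ 0 := Nat.cast_ne_zero.mpr (NeZero.ne m)
  have hd : (d : ℂ) ≠ 0 := Nat.cast_ne_zero.mpr (NeZero.ne d)
  rw [s29_ka_zeta, s29_ka_zeta, ← Complex.exp_nat_mul]
  congr 1
  rw [Nat.cast_mul]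
  field_simp

/-- `(ζ_{d m} ^ k) ^ d = ζ_m ^ (k mod m)`. -/
theorem s29_bt_pow_cast (m d : ℕ) [NeZero m] [NeZero d] (k : ZMod (d * m)) :
    s29_ka_pow (d * m) k ^ d =
      s29_ka_pow m (ZMod.castHom (Dvd.intro_left d rfl) (ZMod m) k) := by
  have h1 : ZMod.castHom (Dvd.intro_left d rfl) (ZMod m) k = ((k.val : ℕ) : ZMod m) := by
    rw [ZMod.castHom_apply, ZMod.natCast_val]
  rw [h1, s29_ka_pow_natCast, s29_ka_pow, ← pow_mul, mul_comm k.val d, pow_mul, s29_bt_zeta_pow]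

/-- the `d`-th power of a root with character `χ` at level `d m` has character `χ mod m`
at level `m`. -/
theorem s29_bt_isChar_pow {N m d : ℕ} [NeZero m] [NeZero d] {G : s29_Mer}
    {χ : Additive (Gamma0 N) →+ ZMod (d * m)} (h : s29_ka_IsChar N (d * m) G χ) :
    s29_ka_IsChar N m (G ^ d)
      ((ZMod.castHom (Dvd.intro_left d rfl) (ZMod m)).toAddMonoidHom.comp χ) := by
  intro γ
  rw [smul_pow', h γ, mul_pow, ← map_pow, s29_bt_pow_cast]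
  rfl

/-- a witness at level `d m` for `x` gives a witness at level `m` for `d • x`. -/
theorem s29_bt_witness_mul {N m d : ℕ} [NeZero N] {x : JZero N}
    {D : Divisor.degZero (K := Kbar) (F := modularFunctionFieldBar N)}
    {g : modularFunctionFieldBar N} {G : s29_Mer}
    (h : s29_ka_IsWitness N (d * m) x D g G) :
    s29_ka_IsWitness N m (d • x) (d • D) g (G ^ d) := by
  obtain ⟨hx, hg, hdiv, hG⟩ := h
  refine ⟨?_, hg, fun P => ?_, ?_⟩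
  · rw [← hx]
    rfl
  · rw [hdiv P, AddSubgroup.coe_nsmul, Finsupp.smul_apply, nsmul_eq_mul]
    push_cast
    ring
  · rw [← pow_mul, hG]

/-- **compatibility of `κ` between levels**: `κ_m (d • x) = κ_{d m} (x) mod m`. -/
theorem s29_bt_kappa_mul (N m d : ℕ) [NeZero N] [NeZero m] [NeZero d]
    (x : Pic0.torsion Kbar (modularFunctionFieldBar N) (d * m))
    (y : Pic0.torsion Kbar (modularFunctionFieldBar N) m)
    (hy : (y : JZero N) = d • (x : JZero N)) :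
    s29_kappa N m y =
      (ZMod.castHom (Dvd.intro_left d rfl) (ZMod m)).toAddMonoidHom.comp
        (s29_kappa N (d * m) x) := by
  obtain ⟨D, g, G, hw⟩ := s29_ka_exists_witness N (d * m) (x : JZero N)
    (Pic0.mem_torsion.mp x.2)
  have hw' := s29_bt_witness_mul hw
  rw [← hy] at hw'
  exact s29_kappa_eq_of_witness y hw' (s29_bt_isChar_pow (s29_kappaFun_spec x hw))

/-- `d • x` is `m`-torsion if `x` is `d m`-torsion. -/

theorem s29_bt_nsmul_mem (N m d : ℕ) [NeZero N]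
    (x : Pic0.torsion Kbar (modularFunctionFieldBar N) (d * m)) :
    d • (x : JZero N) ∈ Pic0.torsion Kbar (modularFunctionFieldBar N) m := by
  have hx := Pic0.mem_torsion.mp x.2
  rw [Pic0.mem_torsion, natCast_zsmul, ← mul_nsmul', ← natCast_zsmul, mul_comm]
  exact hx

/-- **compatibility of `κ` between levels**, subtype form. -/
theorem s29_bt_kappa_mul' (N m d : ℕ) [NeZero N] [NeZero m] [NeZero d]
    (x : Pic0.torsion Kbar (modularFunctionFieldBar N) (d * m)) :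
    s29_kappa N m ⟨d • (x : JZero N), s29_bt_nsmul_mem N m d x⟩ =
      (ZMod.castHom (Dvd.intro_left d rfl) (ZMod m)).toAddMonoidHom.comp
        (s29_kappa N (d * m) x) :=
  s29_bt_kappa_mul N m d x _ rfl

/-- one level: the section `ι_m` of `κ_m` over `Λ / m`. -/
theorem s29_bt_level (N m : ℕ) [NeZero N] [NeZero m]
    (hEX : ∀ ψ : Additive (Gamma0 N) →+ ℤ, ψ ∈ parabolicHoms ℤ (Gamma0 N) ℤ →
      ∃ x : Pic0.torsion Kbar (modularFunctionFieldBar N) m,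
        s29_kappa N m x = (Int.castAddHom (ZMod m)).comp ψ)
    (hINJ : Function.Injective (s29_kappa N m)) :
    ∃ ι : ↥(parabolicHoms ℤ (Gamma0 N) ℤ) →+ Pic0.torsion Kbar (modularFunctionFieldBar N) m,
      ∀ ψ : ↥(parabolicHoms ℤ (Gamma0 N) ℤ), s29_kappa N m (ι ψ) =
        (Int.castAddHom (ZMod m)).comp (ψ : Additive (Gamma0 N) →+ ℤ) := by
  choose f hf using fun ψ : ↥(parabolicHoms ℤ (Gamma0 N) ℤ) => hEX ψ ψ.2
  refine ⟨AddMonoidHom.mk' f fun a b => hINJ ?_, hf⟩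
  rw [map_add, hf, hf, hf, Submodule.coe_add, AddMonoidHom.comp_add]

/-- a parabolic hom with values divisible by `m` is `m` times a parabolic hom. -/
theorem s29_bt_div (N m : ℕ) [NeZero m] (ψ : ↥(parabolicHoms ℤ (Gamma0 N) ℤ))
    (h : (Int.castAddHom (ZMod m)).comp (ψ : Additive (Gamma0 N) →+ ℤ) = 0) :
    ∃ ψ' : ↥(parabolicHoms ℤ (Gamma0 N) ℤ), ψ = m • ψ' := by
  have hm : (m : ℤ) ≠ 0 := Int.natCast_ne_zero.mpr (NeZero.ne m)
  have hdvd : ∀ γ : Additive (Gamma0 N), (m : ℤ) ∣ (ψ : Additive (Gamma0 N) →+ ℤ) γ := by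
    intro γ
    have h1 := DFunLike.congr_fun h γ
    rw [AddMonoidHom.comp_apply, Int.coe_castAddHom, AddMonoidHom.zero_apply] at h1
    exact (ZMod.intCast_zmod_eq_zero_iff_dvd _ m).mp h1
  let φ : Additive (Gamma0 N) →+ ℤ :=
    { toFun := fun γ => (ψ : Additive (Gamma0 N) →+ ℤ) γ / (m : ℤ)
      map_zero' := by rw [map_zero, Int.zero_ediv]
      map_add' := fun a b => by
        rw [map_add, Int.add_ediv_of_dvd_left (hdvd a)] }
  have hφ : φ ∈ parabolicHoms ℤ (Gamma0 N) ℤ := by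
    intro γ hγ
    show (ψ : Additive (Gamma0 N) →+ ℤ) (Additive.ofMul γ) / (m : ℤ) = 0
    rw [ψ.2 γ hγ, Int.zero_ediv]
  refine ⟨⟨φ, hφ⟩, Subtype.ext (AddMonoidHom.ext fun γ => ?_)⟩
  show (ψ : Additive (Gamma0 N) →+ ℤ) γ = (m • φ) γ
  rw [AddMonoidHom.nsmul_apply, nsmul_eq_mul]
  exact (Int.mul_ediv_cancel' (hdvd γ)).symm

/-- **(BR-tower), with the spec**: from (EX) and (INJ) at every level. -/
theorem s29_bt_tower' (N : ℕ) [NeZero N]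
    (hEX : ∀ (m : ℕ) [NeZero m] (ψ : Additive (Gamma0 N) →+ ℤ),
      ψ ∈ parabolicHoms ℤ (Gamma0 N) ℤ →
        ∃ x : Pic0.torsion Kbar (modularFunctionFieldBar N) m,
          s29_kappa N m x = (Int.castAddHom (ZMod m)).comp ψ)
    (hINJ : ∀ (m : ℕ) [NeZero m], Function.Injective (s29_kappa N m)) :
    ∃ ι : ℕ → (↥(parabolicHoms ℤ (Gamma0 N) ℤ) →+ JZero N),
      (∀ (m : ℕ) [NeZero m] (ψ : ↥(parabolicHoms ℤ (Gamma0 N) ℤ)),
        ∃ hx : ι m ψ ∈ Pic0.torsion Kbar (modularFunctionFieldBar N) m,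
          s29_kappa N m ⟨ι m ψ, hx⟩ =
            (Int.castAddHom (ZMod m)).comp (ψ : Additive (Gamma0 N) →+ ℤ)) ∧
      (∀ m, m ≠ 0 → ∀ ψ : ↥(parabolicHoms ℤ (Gamma0 N) ℤ), m • ι m ψ = 0) ∧
      (∀ m, m ≠ 0 → ∀ ψ : ↥(parabolicHoms ℤ (Gamma0 N) ℤ), ι m ψ = 0 → ∃ ψ' : ↥(parabolicHoms ℤ (Gamma0 N) ℤ), ψ = m • ψ') ∧
      (∀ m, m ≠ 0 → ∀ (l : ℕ) (hl : l.Prime) (hlN : ¬ l ∣ N) (ψ : ↥(parabolicHoms ℤ (Gamma0 N) ℤ)),
        ι m (s29_cp_Tpar N l hl hlN ℤ ℤ ψ) = heckeOperatorBar N ⟨l, hl⟩ (ι m ψ)) ∧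
      (∀ m d, m ≠ 0 → d ≠ 0 → ∀ ψ : ↥(parabolicHoms ℤ (Gamma0 N) ℤ), d • ι (d * m) ψ = ι m ψ) := by
  classical
  have key : ∀ m : ℕ, ∃ ι : ↥(parabolicHoms ℤ (Gamma0 N) ℤ) →+ JZero N, ∀ (_ : NeZero m) (ψ : ↥(parabolicHoms ℤ (Gamma0 N) ℤ)),
      ∃ hx : ι ψ ∈ Pic0.torsion Kbar (modularFunctionFieldBar N) m,
        s29_kappa N m ⟨ι ψ, hx⟩ =
          (Int.castAddHom (ZMod m)).comp (ψ : Additive (Gamma0 N) →+ ℤ) := by
    intro m
    by_cases hm : m = 0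
    · exact ⟨0, fun h => absurd hm (NeZero.ne m)⟩
    · haveI : NeZero m := ⟨hm⟩
      obtain ⟨ι, hι⟩ := s29_bt_level N m (hEX m) (hINJ m)
      exact ⟨(Pic0.torsion Kbar (modularFunctionFieldBar N) m).subtype.comp ι,
        fun _ ψ => ⟨(ι ψ).2, hι ψ⟩⟩
  choose ι hι using key
  have hspec : ∀ (m : ℕ) [NeZero m] (ψ : ↥(parabolicHoms ℤ (Gamma0 N) ℤ)),
      ∃ hx : ι m ψ ∈ Pic0.torsion Kbar (modularFunctionFieldBar N) m,
        s29_kappa N m ⟨ι m ψ, hx⟩ =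
          (Int.castAddHom (ZMod m)).comp (ψ : Additive (Gamma0 N) →+ ℤ) :=
    fun m inst ψ => hι m inst ψ
  refine ⟨ι, hspec, ?_, ?_, ?_, ?_⟩
  · intro m hm ψ
    haveI : NeZero m := ⟨hm⟩
    obtain ⟨hx, -⟩ := hspec m ψ
    have h := Pic0.mem_torsion.mp hx
    rwa [natCast_zsmul] at h
  · intro m hm ψ h0
    haveI : NeZero m := ⟨hm⟩
    obtain ⟨hx, hk⟩ := hspec m ψ
    have h1 : (⟨ι m ψ, hx⟩ : Pic0.torsion Kbar (modularFunctionFieldBar N) m) = 0 :=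
      Subtype.ext h0
    rw [h1, map_zero] at hk
    exact s29_bt_div N m ψ hk.symm
  · intro m hm l hl hlN ψ
    haveI : NeZero m := ⟨hm⟩
    obtain ⟨hx, hk⟩ := hspec m ψ
    obtain ⟨hx', hk'⟩ := hspec m (s29_cp_Tpar N l hl hlN ℤ ℤ ψ)
    have h1 := s29_kh_kappa_hecke' N m l hl hlN ⟨ι m ψ, hx⟩
    rw [hk, s29_ch_T_comp, ← s29_cp_Tpar_coe N l hl hlN ℤ ℤ ψ, ← hk'] at h1
    exact (congrArg Subtype.val (hINJ m h1)).symm
  · intro m d hm hd ψ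
    haveI : NeZero m := ⟨hm⟩
    haveI : NeZero d := ⟨hd⟩
    have hh := hspec m ψ
    have hh' := hspec (d * m) ψ
    have hk := hh.choose_spec
    have hk' := hh'.choose_spec
    have h1 := s29_bt_kappa_mul' N m d ⟨ι (d * m) ψ, hh'.choose⟩
    have h2 : (ZMod.castHom (Dvd.intro_left d rfl) (ZMod m)).toAddMonoidHom.comp
        ((Int.castAddHom (ZMod (d * m))).comp (ψ : Additive (Gamma0 N) →+ ℤ)) =
        (Int.castAddHom (ZMod m)).comp (ψ : Additive (Gamma0 N) →+ ℤ) := by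
      refine AddMonoidHom.ext fun γ => ?_
      show ZMod.castHom (Dvd.intro_left d rfl) (ZMod m)
          (((ψ : Additive (Gamma0 N) →+ ℤ) γ : ℤ) : ZMod (d * m)) =
        (((ψ : Additive (Gamma0 N) →+ ℤ) γ : ℤ) : ZMod m)
      rw [map_intCast]
    have h3 := h1.trans ((congrArg _ hk').trans (h2.trans hk.symm))
    exact congrArg Subtype.val (hINJ m h3)

/-- **(BR-tower)**: the comparison maps `ι_m : Λ → J₀(N)(ℚ̄)` at every level `m ≥ 1`, with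
`m • ι_m = 0`, `ker ι_m ⊆ m Λ`, Hecke-equivariance, and `d • ι_{d m} = ι_m`. -/
theorem s29_bt_tower (N : ℕ) [NeZero N]
    (hEX : ∀ (m : ℕ) [NeZero m] (ψ : Additive (Gamma0 N) →+ ℤ),
      ψ ∈ parabolicHoms ℤ (Gamma0 N) ℤ →
        ∃ x : Pic0.torsion Kbar (modularFunctionFieldBar N) m,
          s29_kappa N m x = (Int.castAddHom (ZMod m)).comp ψ)
    (hINJ : ∀ (m : ℕ) [NeZero m], Function.Injective (s29_kappa N m)) :
    ∃ ι : ℕ → (↥(parabolicHoms ℤ (Gamma0 N) ℤ) →+ JZero N),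
      (∀ m, m ≠ 0 → ∀ ψ : ↥(parabolicHoms ℤ (Gamma0 N) ℤ), m • ι m ψ = 0) ∧
      (∀ m, m ≠ 0 → ∀ ψ : ↥(parabolicHoms ℤ (Gamma0 N) ℤ), ι m ψ = 0 → ∃ ψ' : ↥(parabolicHoms ℤ (Gamma0 N) ℤ), ψ = m • ψ') ∧
      (∀ m, m ≠ 0 → ∀ (l : ℕ) (hl : l.Prime) (hlN : ¬ l ∣ N) (ψ : ↥(parabolicHoms ℤ (Gamma0 N) ℤ)),
        ι m (s29_cp_Tpar N l hl hlN ℤ ℤ ψ) = heckeOperatorBar N ⟨l, hl⟩ (ι m ψ)) ∧
      (∀ m d, m ≠ 0 → d ≠ 0 → ∀ ψ : ↥(parabolicHoms ℤ (Gamma0 N) ℤ), d • ι (d * m) ψ = ι m ψ) := by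
  obtain ⟨ι, -, h⟩ := s29_bt_tower' N hEX hINJ
  exact ⟨ι, h⟩

/-- **(BR-tower) in `p`-power indexing**: `ι_n : Λ → J₀(N)[p^n]` with `p • ι_{n+1} = ι_n`. -/
theorem s29_bt_tower_p (N : ℕ) [NeZero N] (p : ℕ) (hp : p ≠ 0)
    (hEX : ∀ (m : ℕ) [NeZero m] (ψ : Additive (Gamma0 N) →+ ℤ),
      ψ ∈ parabolicHoms ℤ (Gamma0 N) ℤ →
        ∃ x : Pic0.torsion Kbar (modularFunctionFieldBar N) m,
          s29_kappa N m x = (Int.castAddHom (ZMod m)).comp ψ)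
    (hINJ : ∀ (m : ℕ) [NeZero m], Function.Injective (s29_kappa N m)) :
    ∃ ι : ℕ → (↥(parabolicHoms ℤ (Gamma0 N) ℤ) →+ JZero N),
      (∀ n (ψ : ↥(parabolicHoms ℤ (Gamma0 N) ℤ)), p ^ n • ι n ψ = 0) ∧
      (∀ n (ψ : ↥(parabolicHoms ℤ (Gamma0 N) ℤ)), ι n ψ = 0 → ∃ ψ' : ↥(parabolicHoms ℤ (Gamma0 N) ℤ), ψ = p ^ n • ψ') ∧
      (∀ n (l : ℕ) (hl : l.Prime) (hlN : ¬ l ∣ N) (ψ : ↥(parabolicHoms ℤ (Gamma0 N) ℤ)),
        ι n (s29_cp_Tpar N l hl hlN ℤ ℤ ψ) = heckeOperatorBar N ⟨l, hl⟩ (ι n ψ)) ∧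
      (∀ n (ψ : ↥(parabolicHoms ℤ (Gamma0 N) ℤ)), p • ι (n + 1) ψ = ι n ψ) := by
  obtain ⟨ι, h1, h2, h3, h4⟩ := s29_bt_tower N hEX hINJ
  have hpn : ∀ n : ℕ, p ^ n ≠ 0 := fun n => pow_ne_zero n hp
  refine ⟨fun n => ι (p ^ n), fun n ψ => h1 _ (hpn n) ψ, fun n ψ => h2 _ (hpn n) ψ,
    fun n l hl hlN ψ => h3 _ (hpn n) l hl hlN ψ, fun n ψ => ?_⟩
  have h := h4 (p ^ n) p (hpn n) hp ψ
  rwa [← pow_succ'] at h

/-- **`J₀(N)(ℚ̄)[m]` is finite** (given the injectivity of `κ_m`). -/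
theorem s29_bt_torsion_finite (N m : ℕ) [NeZero N] [NeZero m]
    (hINJ : Function.Injective (s29_kappa N m)) :
    Finite (Pic0.torsion Kbar (modularFunctionFieldBar N) m) := by
  haveI := s29_pl_fg N
  obtain ⟨S, hS, hSfin⟩ := Group.fg_iff.mp (s29_pl_fg N)
  haveI : Finite S := hSfin.to_subtype
  haveI : Finite (ZMod m) := inferInstance
  let r : (Additive (Gamma0 N) →+ ZMod m) → (S → ZMod m) :=
    fun f s => f (Additive.ofMul (s : Gamma0 N))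
  have hr : Function.Injective r := by
    intro f g hfg
    have h0 : f - g = 0 := by
      apply s29_pl_hom_ext S hS
      intro s hs
      have := congrFun hfg ⟨s, hs⟩
      show f (Additive.ofMul s) - g (Additive.ofMul s) = 0
      exact sub_eq_zero.mpr this
    exact sub_eq_zero.mp h0
  exact Finite.of_injective _ (hr.comp hINJ)

end Fermat.Agent.S29
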