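import Fermat.Agent.S29.BrTower
import Fermat.Agent.S29.KappaInjMain

/-!
# S29 (project BRIDGE): finiteness of `J₀(N)(ℚ̄)[m]`, and the tower with (INJ) discharged

* `s29_bt_finite` : `Pic0.torsion ℚ̄ F_N m` is finite for every `m ≥ 1` (unconditional);
* `s29_bt_finite_sub` : `{x : J₀(N)(ℚ̄) // m • x = 0}` is finite;
* `s29_bt_tower_of_ex`, `s29_bt_tower_p_of_ex` : the compatible system `ι_m : Λ → J₀(N)[m]`
  from (EX) alone.
-/

set_option autoImplicit false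

open UpperHalfPlane ModularCurve AlgebraicCurve
open scoped MatrixGroups Manifold

noncomputable section

namespace Fermat.Agent.S29

open Fermat.Agent.S24
open CongruenceSubgroup ModularCurve.Period

attribute [local instance] algKC

/-- **`J₀(N)(ℚ̄)[m]` is finite.** -/
theorem s29_bt_finite (N m : ℕ) [NeZero N] [NeZero m] :
    Finite (Pic0.torsion Kbar (modularFunctionFieldBar N) m) :=
  s29_bt_torsion_finite N m (s29_kappa_injective N m)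

/-- **`J₀(N)(ℚ̄)[m]` is finite**, as a subtype cut out by `m • x = 0`. -/
theorem s29_bt_finite_sub (N m : ℕ) [NeZero N] (hm : m ≠ 0) :
    Finite {x : JZero N // m • x = 0} := by
  haveI : NeZero m := ⟨hm⟩
  haveI := s29_bt_finite N m
  refine Finite.of_injective
    (fun x : {x : JZero N // m • x = 0} =>
      (⟨x.1, Pic0.mem_torsion.mpr (by rw [natCast_zsmul]; exact x.2)⟩ :
        Pic0.torsion Kbar (modularFunctionFieldBar N) m)) ?_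
  intro x y hxy
  exact Subtype.ext (congrArg Subtype.val hxy)

/-- **(BR-tower)** from (EX) alone. -/
theorem s29_bt_tower_of_ex (N : ℕ) [NeZero N]
    (hEX : ∀ (m : ℕ) [NeZero m] (ψ : Additive (Gamma0 N) →+ ℤ),
      ψ ∈ parabolicHoms ℤ (Gamma0 N) ℤ →
        ∃ x : Pic0.torsion Kbar (modularFunctionFieldBar N) m,
          s29_kappa N m x = (Int.castAddHom (ZMod m)).comp ψ) :
    ∃ ι : ℕ → (↥(parabolicHoms ℤ (Gamma0 N) ℤ) →+ JZero N),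
      (∀ m, m ≠ 0 → ∀ ψ : ↥(parabolicHoms ℤ (Gamma0 N) ℤ), m • ι m ψ = 0) ∧
      (∀ m, m ≠ 0 → ∀ ψ : ↥(parabolicHoms ℤ (Gamma0 N) ℤ), ι m ψ = 0 →
        ∃ ψ' : ↥(parabolicHoms ℤ (Gamma0 N) ℤ), ψ = m • ψ') ∧
      (∀ m, m ≠ 0 → ∀ (l : ℕ) (hl : l.Prime) (hlN : ¬ l ∣ N)
        (ψ : ↥(parabolicHoms ℤ (Gamma0 N) ℤ)),
        ι m (s29_cp_Tpar N l hl hlN ℤ ℤ ψ) = heckeOperatorBar N ⟨l, hl⟩ (ι m ψ)) ∧
      (∀ m d, m ≠ 0 → d ≠ 0 → ∀ ψ : ↥(parabolicHoms ℤ (Gamma0 N) ℤ),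
        d • ι (d * m) ψ = ι m ψ) :=
  s29_bt_tower N hEX (fun m _ => s29_kappa_injective N m)

/-- **(BR-tower) in `p`-power indexing** from (EX) alone. -/
theorem s29_bt_tower_p_of_ex (N : ℕ) [NeZero N] (p : ℕ) (hp : p ≠ 0)
    (hEX : ∀ (m : ℕ) [NeZero m] (ψ : Additive (Gamma0 N) →+ ℤ),
      ψ ∈ parabolicHoms ℤ (Gamma0 N) ℤ →
        ∃ x : Pic0.torsion Kbar (modularFunctionFieldBar N) m,
          s29_kappa N m x = (Int.castAddHom (ZMod m)).comp ψ) :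
    ∃ ι : ℕ → (↥(parabolicHoms ℤ (Gamma0 N) ℤ) →+ JZero N),
      (∀ n (ψ : ↥(parabolicHoms ℤ (Gamma0 N) ℤ)), p ^ n • ι n ψ = 0) ∧
      (∀ n (ψ : ↥(parabolicHoms ℤ (Gamma0 N) ℤ)), ι n ψ = 0 →
        ∃ ψ' : ↥(parabolicHoms ℤ (Gamma0 N) ℤ), ψ = p ^ n • ψ') ∧
      (∀ n (l : ℕ) (hl : l.Prime) (hlN : ¬ l ∣ N) (ψ : ↥(parabolicHoms ℤ (Gamma0 N) ℤ)),
        ι n (s29_cp_Tpar N l hl hlN ℤ ℤ ψ) = heckeOperatorBar N ⟨l, hl⟩ (ι n ψ)) ∧
      (∀ n (ψ : ↥(parabolicHoms ℤ (Gamma0 N) ℤ)), p • ι (n + 1) ψ = ι n ψ) :=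
  s29_bt_tower_p N p hp hEX (fun m _ => s29_kappa_injective N m)

end Fermat.Agent.S29
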