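import Fermat.Agent.S29.BrTowerFin
import Fermat.Agent.S29.CKeyEx

/-!
# S29/S30/S31 (project BRIDGE): the comparison `Λ → J₀(N)[m]` at every level, hypothesis-free

`Λ := Hom_par(Γ₀(N), ℤ)`.  There are additive maps `ι_m : Λ → J₀(N)(ℚ̄)` (`m ≥ 1`) with

* `m • ι_m ψ = 0`,
* `ι_m ψ = 0 → ψ ∈ m Λ`,
* `ι_m (T_ℓ^coh ψ) = T_ℓ (ι_m ψ)` for every prime `ℓ ∤ N`,
* `d • ι_{d m} ψ = ι_m ψ`.

`s29_bt_main` (all levels), `s29_bt_main_p` (`p`-power indexing, `p • ι_{n+1} = ι_n`).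
-/

set_option autoImplicit false

open UpperHalfPlane ModularCurve AlgebraicCurve
open scoped MatrixGroups Manifold

noncomputable section

namespace Fermat.Agent.S29

open Fermat.Agent.S24
open CongruenceSubgroup ModularCurve.Period

attribute [local instance] algKC

/-- **(BR-tower), hypothesis-free.** -/
theorem s29_bt_main (N : ℕ) [NeZero N] :
    ∃ ι : ℕ → (↥(parabolicHoms ℤ (Gamma0 N) ℤ) →+ JZero N),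
      (∀ m, m ≠ 0 → ∀ ψ : ↥(parabolicHoms ℤ (Gamma0 N) ℤ), m • ι m ψ = 0) ∧
      (∀ m, m ≠ 0 → ∀ ψ : ↥(parabolicHoms ℤ (Gamma0 N) ℤ), ι m ψ = 0 →
        ∃ ψ' : ↥(parabolicHoms ℤ (Gamma0 N) ℤ), ψ = m • ψ') ∧
      (∀ m, m ≠ 0 → ∀ (l : ℕ) (hl : l.Prime) (hlN : ¬ l ∣ N)
        (ψ : ↥(parabolicHoms ℤ (Gamma0 N) ℤ)),
        ι m (s29_cp_Tpar N l hl hlN ℤ ℤ ψ) = heckeOperatorBar N ⟨l, hl⟩ (ι m ψ)) ∧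
      (∀ m d, m ≠ 0 → d ≠ 0 → ∀ ψ : ↥(parabolicHoms ℤ (Gamma0 N) ℤ),
        d • ι (d * m) ψ = ι m ψ) :=
  s29_bt_tower_of_ex N (fun m _ ψ hψ => s29_ck_ex N m ψ hψ)

/-- **(BR-tower) in `p`-power indexing, hypothesis-free**: `ι_n : Λ → J₀(N)[p^n]` with
`ker ι_n = p^n Λ`, Hecke-equivariance and `p • ι_{n+1} = ι_n`. -/
theorem s29_bt_main_p (N : ℕ) [NeZero N] (p : ℕ) (hp : p ≠ 0) :
    ∃ ι : ℕ → (↥(parabolicHoms ℤ (Gamma0 N) ℤ) →+ JZero N),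
      (∀ n (ψ : ↥(parabolicHoms ℤ (Gamma0 N) ℤ)), p ^ n • ι n ψ = 0) ∧
      (∀ n (ψ : ↥(parabolicHoms ℤ (Gamma0 N) ℤ)), ι n ψ = 0 →
        ∃ ψ' : ↥(parabolicHoms ℤ (Gamma0 N) ℤ), ψ = p ^ n • ψ') ∧
      (∀ n (l : ℕ) (hl : l.Prime) (hlN : ¬ l ∣ N) (ψ : ↥(parabolicHoms ℤ (Gamma0 N) ℤ)),
        ι n (s29_cp_Tpar N l hl hlN ℤ ℤ ψ) = heckeOperatorBar N ⟨l, hl⟩ (ι n ψ)) ∧
      (∀ n (ψ : ↥(parabolicHoms ℤ (Gamma0 N) ℤ)), p • ι (n + 1) ψ = ι n ψ) :=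
  s29_bt_tower_p_of_ex N p hp (fun m _ ψ hψ => s29_ck_ex N m ψ hψ)

end Fermat.Agent.S29
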