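import Fermat.Agent.S29.CKeyAbs

/-!
# S29 (BRIDGE), TRANSPORT: the abstract core, with the multiplicity on the analytic side

Same as `s29_ck_transport_abs`, but the family `V x` of valuations of `F` is related to the
places `w` of `L` by `V x f = e * w.ord f` (an analytic order is a multiple of a place order).
-/

set_option autoImplicit false

namespace Fermat.Agent.S29

open AlgebraicCurve
open Fermat.Agent.S24

section ck2

variable {K F L : Type*} [Field K] [CharZero K] [Field F] [Algebra K F] [Field L] [Algebra K L]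
  [Algebra F L] [IsScalarTower K F L] [FiniteDimensional F L]

/-- **Abstract transport.**  `v` an integer valuation of `F` trivial on `K`, `u ∈ F` with
`0 < v u`, and `V : X → F → ℤ` a family such that every place `w` of `L` with `0 < w.ord u`
satisfies `V x f = e * w.ord f` on `F` for some `x` with `V x u = v u` and some `e > 0`.
Then `v = V x` for some `x`. -/
theorem s29_ck_transport_abs2 {X : Type*} (V : X → F → ℤ) (v : F → ℤ)
    (hmul : ∀ f g : F, f ≠ 0 → g ≠ 0 → v (f * g) = v f + v g)
    (hadd : ∀ f g : F, f ≠ 0 → g ≠ 0 → f + g ≠ 0 → min (v f) (v g) ≤ v (f + g))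
    (hK : ∀ c : K, c ≠ 0 → v (algebraMap K F c) = 0)
    (u : F) (hu0 : u ≠ 0) (hu : 0 < v u)
    (hAP : ∀ w : Place K L, 0 < w.ord (algebraMap F L u) →
      ∃ (x : X) (e : ℤ), 0 < e ∧ (∀ f : F, f ≠ 0 → V x f = e * w.ord (algebraMap F L f)) ∧
        V x u = v u) :
    ∃ x : X, ∀ f : F, f ≠ 0 → v f = V x f := by
  obtain ⟨w, a, b, ha, hb, hw⟩ := s29_ck_place_over (K := K) (F := F) (L := L) v hmul hadd hK
    ⟨u, hu0, ne_of_gt hu⟩
  have hwu : 0 < w.ord (algebraMap F L u) := by
    have h1 := hw u hu0
    have h2 : 0 < a * v u := mul_pos ha hu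
    rw [h1] at h2
    by_contra hneg
    push Not at hneg
    nlinarith
  obtain ⟨x, e, he, hx, hxu⟩ := hAP w hwu
  refine ⟨x, fun f hf => ?_⟩
  -- `a * e = b`
  have h1 := hw u hu0
  have h2 := hx u hu0
  rw [hxu] at h2
  have hab : a * e = b := by
    have h3 : (a * e) * w.ord (algebraMap F L u) = b * w.ord (algebraMap F L u) := by
      rw [← h1, h2]
      ring
    exact mul_right_cancel₀ (ne_of_gt hwu) h3
  have h4 := hw f hf
  have h5 := hx f hf
  have h6 : a * v f = a * V x f := by
    rw [h4, h5, ← hab]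
    ring
  exact mul_left_cancel₀ (ne_of_gt ha) h6

end ck2

end Fermat.Agent.S29
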