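import Fermat.Agent.S29.CPlaceL
import Fermat.Agent.S29.ApEmb
import Fermat.Agent.S29.ApOrd

/-!
# S29 (BRIDGE): adapters between the `ℂ`-model `s29_cm_L N` and the field `s29_Mer`

Everything is stated for an ARBITRARY ring homomorphism `φ : s29_cm_L N →+* s29_Mer` which is
"the identity on functions":
`hφ : ∀ x : s29_cm_ring N, φ (algebraMap _ _ x) = algebraMap s29_hol s29_Mer (s29_cpl_toHol N x)`
(so it applies to any definition of the realisation of `s29_cm_L N` in `s29_Mer`).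

* `s29_ck_ord_ofL` : `s29_ord τ (φ x) = anpOrd (s29_cm_L N) (s29_cpl_v N τ) x`;
* `s29_ck_ofL_smul` : `φ` is `SL₂(ℤ)`-equivariant;
* `s29_ck_embFC_smul` : the image of `F_C` in `s29_cm_L N` is fixed by `Γ₀(N)`;
* `s29_ck_an_smul` : `φ ∘ s29_ap_embFC N` takes `Γ₀(N)`-invariant values.
-/

set_option autoImplicit false

open UpperHalfPlane ModularCurve Polynomial AlgebraicCurve
open scoped MatrixGroups IntermediateField Manifold

noncomputable section

namespace Fermat.Agent.S29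

open Fermat.Agent.S24
open CongruenceSubgroup ModularGroup

/-- `s29_cpl_v` is the order of vanishing `s29_ap_fOrd`. -/
theorem s29_ck_v_eq_fOrd (N : ℕ) [NeZero N] (τ : ℍ) (x : s29_cm_ring N) :
    s29_cpl_v N τ x = s29_ap_fOrd (x : ℍ → ℂ) τ := rfl

/-- `s29_cpl_toHol` is `SL₂(ℤ)`-equivariant. -/
theorem s29_ck_toHol_smul (N : ℕ) [NeZero N] (γ : SL(2, ℤ)) (g : s29_cm_ring N) :
    s29_cpl_toHol N (γ • g) = s29_sl γ • s29_cpl_toHol N g := by
  apply s29_hol_ext
  intro τ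
  rw [s29_hol_smul_apply, s29_sl_inv_smul]
  rfl

section phi

variable (N : ℕ) [NeZero N] (φ : s29_cm_L N →+* s29_Mer)
  (hφ : ∀ x : s29_cm_ring N, φ (algebraMap (s29_cm_ring N) (s29_cm_L N) x)
    = algebraMap s29_hol s29_Mer (s29_cpl_toHol N x))

include hφ in
/-- **Adapter.**  The order at `τ` of the meromorphic function attached to `x ∈ s29_cm_L N` is
the order `anpOrd` built from the order of vanishing on the ring. -/
theorem s29_ck_ord_ofL (τ : ℍ) (x : s29_cm_L N) (hx : x ≠ 0) :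
    s29_ord τ (φ x) = anpOrd (s29_cm_L N) (s29_cpl_v N τ) x := by
  obtain ⟨a, b, hb, rfl⟩ := anp_exists_div (R := s29_cm_ring N) x
  have ha : a ≠ 0 := by
    rintro rfl
    simp at hx
  rw [map_div₀, hφ, hφ, s29_ord_div τ (s29_cpl_toHol_ne_zero N ha) (s29_cpl_toHol_ne_zero N hb),
    anpOrd_div (s29_cpl_v N τ) (s29_cpl_v_mul N τ) ha hb]
  rfl

include hφ in
/-- `φ` is `SL₂(ℤ)`-equivariant. -/
theorem s29_ck_ofL_smul (γ : SL(2, ℤ)) (x : s29_cm_L N) : γ • φ x = φ (γ • x) := by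
  obtain ⟨a, b, hb, rfl⟩ := anp_exists_div (R := s29_cm_ring N) x
  rw [smul_div₀', s29_cm_smul_algebraMap, s29_cm_smul_algebraMap, map_div₀, map_div₀, hφ, hφ,
    hφ, hφ, smul_div₀', s29_sl_smul_def, s29_sl_smul_def, s29_smul_algebraMap,
    s29_smul_algebraMap, s29_ck_toHol_smul, s29_ck_toHol_smul]

end phi

/-- The image of `F_C = ℂ · F_N` in `s29_cm_L N` is fixed by `Γ₀(N)`. -/
theorem s29_ck_embFC_smul (N : ℕ) [NeZero N] (γ : SL(2, ℤ)) (hγ : γ ∈ Gamma0 N)
    (f : s29_ap_FC N) : γ • s29_ap_embFC N f = s29_ap_embFC N f := by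
  classical
  set H : Subgroup (s29_cm_L N ≃ₐ[ℂ] s29_cm_L N) := (Gamma0 N).map (s29_cm_rho N) with hH
  set S : IntermediateField ℂ (s29_cm_L N) := IntermediateField.fixedField H with hS
  set E : IntermediateField ℂ (LaurentSeries ℂ) := S.map (s29_ap_expLC N) with hE
  have hmem : qExpand ℂ N (f : LaurentSeries ℂ) ∈ E := by
    refine s29_ap_qExpand_mem N E (fun d _ hd => ?_) f.2
    rw [hE, IntermediateField.mem_map]
    refine ⟨algebraMap (s29_cm_ring N) (s29_cm_L N) (s29_cm_Jelt N d hd), ?_, ?_⟩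
    · rw [hS, IntermediateField.mem_fixedField_iff]
      rintro g ⟨γ', hγ', rfl⟩
      rw [s29_cm_rho_apply, s29_cm_smul_algebraMap, s29_cm_smul_Jelt N d hd γ' hγ']
    · rw [← s29_cm_exp_Jelt N d hd]
      exact s29_ap_expLC_algebraMap N _
  rw [hE, IntermediateField.mem_map] at hmem
  obtain ⟨x, hxS, hx⟩ := hmem
  have hfx : s29_ap_embFC N f = x := (s29_ap_embFC_eq_iff N f x).mpr hx
  rw [hfx]
  rw [hS, IntermediateField.mem_fixedField_iff] at hxS
  have := hxS (s29_cm_rho N γ) ⟨γ, hγ, rfl⟩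
  rwa [s29_cm_rho_apply] at this

/-- For any realisation `φ` of `s29_cm_L N` in `s29_Mer` which is the identity on functions, the
realisation `φ ∘ s29_ap_embFC N` of `F_C` takes `Γ₀(N)`-invariant values. -/
theorem s29_ck_an_smul (N : ℕ) [NeZero N] (φ : s29_cm_L N →+* s29_Mer)
    (hφ : ∀ x : s29_cm_ring N, φ (algebraMap (s29_cm_ring N) (s29_cm_L N) x)
      = algebraMap s29_hol s29_Mer (s29_cpl_toHol N x))
    (γ : SL(2, ℤ)) (hγ : γ ∈ Gamma0 N) (f : s29_ap_FC N) :
    γ • φ (s29_ap_embFC N f) = φ (s29_ap_embFC N f) := by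
  rw [s29_ck_ofL_smul N φ hφ, s29_ck_embFC_smul N γ hγ]

end Fermat.Agent.S29
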