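import Fermat.Agent.S29.MerOrd
import Fermat.Agent.S24.JOrder

/-!
# BRIDGE (OJ): the order of `J - J(τ)` at `τ`

It is `3` if `J(τ) = 0`, `2` if `J(τ) = 1728`, and `1` otherwise.
-/

set_option autoImplicit false

open UpperHalfPlane ModularForm EisensteinSeries
open scoped MatrixGroups Manifold

noncomputable section

namespace Fermat.Agent.S29

open Fermat.Agent.S24 Fermat.Agent.S28

local notation "Δ" => ModularForm.discriminant

/-- The analytic order of `J - J(τ)` at `τ`. -/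
theorem s29_oj_order (τ : ℍ) :
    analyticOrderAt (fun z : ℂ => Jfun (ofComplex z) - Jfun τ) (τ : ℂ) =
      if Jfun τ = 0 then 3 else if Jfun τ = 1728 then 2 else 1 := by
  have hΔinv : MDifferentiable 𝓘(ℂ) 𝓘(ℂ) (fun τ : ℍ => (Δ τ)⁻¹) := jord_discriminant_inv_mdiff
  by_cases h0 : Jfun τ = 0
  · rw [if_pos h0, h0]
    have h4 : MDifferentiable 𝓘(ℂ) 𝓘(ℂ) (E₄ : ℍ → ℂ) := ModularFormClass.holo E₄
    have hE4 : E₄ τ = 0 := (jordJ_eq_zero_iff τ).mp (by rw [jordJ_eq_Jfun]; exact h0)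
    have hfun : (fun z : ℂ => Jfun (ofComplex z) - 0)
        = (fun z : ℂ => E₄ (ofComplex z)) ^ 3 * (fun z : ℂ => (Δ (ofComplex z))⁻¹) := by
      funext z
      simp only [Pi.mul_apply, Pi.pow_apply, sub_zero]
      rw [Jfun, div_eq_mul_inv]
    rw [hfun, analyticOrderAt_mul ((jord_analyticAt h4 _).pow 3) (jord_analyticAt hΔinv _),
      analyticOrderAt_pow (jord_analyticAt h4 _),
      jord_order_one h4 hE4 (D_E₄_ne_zero hE4),
      jord_order_zero hΔinv (inv_ne_zero (discriminant_ne_zero _))]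
    simp
  · rw [if_neg h0]
    by_cases h1 : Jfun τ = 1728
    · rw [if_pos h1, h1]
      have h6 : MDifferentiable 𝓘(ℂ) 𝓘(ℂ) (E₆ : ℍ → ℂ) := ModularFormClass.holo E₆
      have hE6 : E₆ τ = 0 := (jordJ_eq_iff τ).mp (by rw [jordJ_eq_Jfun]; exact h1)
      have hfun : (fun z : ℂ => Jfun (ofComplex z) - 1728)
          = (fun z : ℂ => E₆ (ofComplex z)) ^ 2 * (fun z : ℂ => (Δ (ofComplex z))⁻¹) := by
        funext z
        have := jordJ_sub (ofComplex z)
        simp only [Pi.mul_apply, Pi.pow_apply]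
        rw [← jordJ_eq_Jfun, this, div_eq_mul_inv]
      rw [hfun, analyticOrderAt_mul ((jord_analyticAt h6 _).pow 2) (jord_analyticAt hΔinv _),
        analyticOrderAt_pow (jord_analyticAt h6 _),
        jord_order_one h6 hE6 (D_E₆_ne_zero hE6),
        jord_order_zero hΔinv (inv_ne_zero (discriminant_ne_zero _))]
      simp
    · rw [if_neg h1]
      exact Jfun_order_generic τ h0 h1

/-- `J - J(τ)` as a holomorphic function is nonzero. -/
theorem s29_oj_ne_zero (τ : ℍ) :
    s29_mkHol Jfun jordJ_mdiff - algebraMap ℂ s29_hol (Jfun τ) ≠ 0 := by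
  intro h
  have h1 : analyticOrderAt (fun z : ℂ => Jfun (ofComplex z) - Jfun τ) (τ : ℂ) = ⊤ := by
    rw [analyticOrderAt_eq_top]
    have h2 : ∀ z : ℂ, Jfun (ofComplex z) - Jfun τ = 0 := fun z =>
      congrFun (congrArg Subtype.val h) (ofComplex z)
    exact Filter.Eventually.of_forall h2
  rw [s29_oj_order] at h1
  split_ifs at h1 <;> exact absurd h1 (by simp)

/-- **(OJ)**: the order at `τ` of the holomorphic function `J - J(τ)`. -/
theorem s29_oj_ordH (τ : ℍ) :
    s29_ordH τ (s29_mkHol Jfun jordJ_mdiff - algebraMap ℂ s29_hol (Jfun τ)) =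
      if Jfun τ = 0 then 3 else if Jfun τ = 1728 then 2 else 1 := by
  unfold s29_ordH
  have h : (fun z : ℂ => ((s29_mkHol Jfun jordJ_mdiff - algebraMap ℂ s29_hol (Jfun τ) : s29_hol) :
      ℍ → ℂ) (ofComplex z)) = fun z : ℂ => Jfun (ofComplex z) - Jfun τ := rfl
  rw [h, s29_oj_order]
  split_ifs <;> rfl

/-- **(OJ)**, in the field of meromorphic functions. -/
theorem s29_oj_ord (τ : ℍ) :
    s29_ord τ (algebraMap s29_hol s29_Mer (s29_mkHol Jfun jordJ_mdiff) -
      algebraMap ℂ s29_Mer (Jfun τ)) =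
      if Jfun τ = 0 then 3 else if Jfun τ = 1728 then 2 else 1 := by
  rw [IsScalarTower.algebraMap_apply ℂ s29_hol s29_Mer, ← map_sub,
    s29_ord_hol τ (s29_oj_ne_zero τ), s29_oj_ordH]

end Fermat.Agent.S29
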