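import Fermat.Agent.S29.CKeyAbs2
import Fermat.Agent.S29.CKeyAdapt
import Fermat.Agent.S29.CKeyGlue
import Fermat.Agent.S29.OrdJ

/-!
# S29 (BRIDGE): TRANSPORT of analytic orders under `Aut(ℂ/ℚ)`

`F_C = ℂ · F_N ⊆ ℂ((q))` (`s29_ap_FC N`) embedded in `s29_cm_L N = ℂ(J(d γ τ))`
(`s29_ap_embFC N`), `s29_ck_ordL N τ` the order at `τ ∈ ℍ` on `s29_cm_L N`.

* `s29_ck_transport` : for `σ ∈ Aut(ℂ/ℚ)` and `τ ∈ ℍ` there is `τ' ∈ ℍ` with
  `ord_τ (σ f) = ord_τ' f` for all `f ∈ F_Cˣ`.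
* `s29_ck_hTr` : the same for `s29_ord` and any realisation `φ ∘ s29_ap_embFC N` of `F_C` in
  `s29_Mer` which is the identity on functions — hypothesis `hTr` of `s29_ck_hT` / `s29_ck_e3`.
-/

set_option autoImplicit false
set_option linter.style.haveILetI false

open UpperHalfPlane ModularCurve Polynomial AlgebraicCurve
open scoped MatrixGroups IntermediateField Manifold

noncomputable section

namespace Fermat.Agent.S29

open Fermat.Agent.S24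
open Fermat.Agent.S28 (Jfun)
open CongruenceSubgroup ModularGroup

/-- The order at `τ` on `s29_cm_L N`. -/
def s29_ck_ordL (N : ℕ) [NeZero N] (τ : ℍ) (x : s29_cm_L N) : ℤ :=
  anpOrd (s29_cm_L N) (s29_cpl_v N τ) x

theorem s29_ck_ordL_mul (N : ℕ) [NeZero N] (τ : ℍ) {x y : s29_cm_L N} (hx : x ≠ 0)
    (hy : y ≠ 0) : s29_ck_ordL N τ (x * y) = s29_ck_ordL N τ x + s29_ck_ordL N τ y :=
  anpOrd_mul (s29_cpl_v N τ) (s29_cpl_v_mul N τ) hx hy

theorem s29_ck_ordL_add (N : ℕ) [NeZero N] (τ : ℍ) {x y : s29_cm_L N} (hx : x ≠ 0)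
    (hy : y ≠ 0) (hxy : x + y ≠ 0) :
    min (s29_ck_ordL N τ x) (s29_ck_ordL N τ y) ≤ s29_ck_ordL N τ (x + y) :=
  anpOrd_add (s29_cpl_v N τ) (s29_cpl_v_mul N τ) (s29_cpl_v_add N τ) hx hy hxy

theorem s29_ck_ordL_algebraMap (N : ℕ) [NeZero N] (τ : ℍ) {a : s29_cm_ring N} (ha : a ≠ 0) :
    s29_ck_ordL N τ (algebraMap (s29_cm_ring N) (s29_cm_L N) a) = s29_cpl_v N τ a :=
  anpOrd_algebraMap (s29_cpl_v N τ) (s29_cpl_v_mul N τ) ha

theorem s29_ck_ordL_const (N : ℕ) [NeZero N] (τ : ℍ) (c : ℂ) (hc : c ≠ 0) :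
    s29_ck_ordL N τ (algebraMap ℂ (s29_cm_L N) c) = 0 := by
  have hne : algebraMap ℂ (s29_cm_ring N) c ≠ 0 :=
    (map_ne_zero_iff _ (algebraMap ℂ (s29_cm_ring N)).injective).mpr hc
  rw [IsScalarTower.algebraMap_apply ℂ (s29_cm_ring N) (s29_cm_L N),
    s29_ck_ordL_algebraMap N τ hne, s29_cpl_v_const N τ c hc]

/-- If the order of vanishing at `τ'` is `e • w.ord` on the ring, it is on the field. -/
theorem s29_ck_ordL_eq_of_ring (N : ℕ) [NeZero N] (τ' : ℍ) (w : Place ℂ (s29_cm_L N)) (e : ℤ)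
    (hx : ∀ x : s29_cm_ring N, x ≠ 0 →
      s29_cpl_v N τ' x = e * w.ord (algebraMap (s29_cm_ring N) (s29_cm_L N) x))
    (y : s29_cm_L N) (hy : y ≠ 0) : s29_ck_ordL N τ' y = e * w.ord y := by
  obtain ⟨a, b, hb, rfl⟩ := anp_exists_div (R := s29_cm_ring N) y
  have ha : a ≠ 0 := by
    rintro rfl
    simp at hy
  have haL : algebraMap (s29_cm_ring N) (s29_cm_L N) a ≠ 0 := anp_algebraMap_ne_zero ha
  have hbL : algebraMap (s29_cm_ring N) (s29_cm_L N) b ≠ 0 := anp_algebraMap_ne_zero hb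
  unfold s29_ck_ordL
  rw [anpOrd_div (s29_cpl_v N τ') (s29_cpl_v_mul N τ') ha hb, hx a ha, hx b hb, div_eq_mul_inv,
    w.ord_mul haL (inv_ne_zero hbL), w.ord_inv]
  ring

/-- The order of `J - J(τ)` at `τ`. -/
theorem s29_ck_v_x (N : ℕ) [NeZero N] (τ : ℍ) :
    s29_cpl_v N τ (s29_cpl_x N (Jfun τ)) =
      if Jfun τ = 0 then 3 else if Jfun τ = 1728 then 2 else 1 := by
  have h : s29_cpl_toHol N (s29_cpl_x N (Jfun τ))
      = s29_mkHol Jfun jordJ_mdiff - algebraMap ℂ s29_hol (Jfun τ) := by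
    apply s29_hol_ext
    intro z
    rw [s29_cpl_toHol_apply, s29_cpl_x_apply]
    rfl
  unfold s29_cpl_v
  rw [h, s29_oj_ordH]

/-- `s29_cm_L N` as an algebra over `F_C`. -/
@[reducible] def s29_ck_algFL (N : ℕ) [NeZero N] : Algebra (s29_ap_FC N) (s29_cm_L N) :=
  (s29_ap_embFC N).toRingHom.toAlgebra

attribute [local instance] s29_ck_algFL

theorem s29_ck_algebraMap_FL (N : ℕ) [NeZero N] (f : s29_ap_FC N) :
    algebraMap (s29_ap_FC N) (s29_cm_L N) f = s29_ap_embFC N f := rfl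

instance s29_ck_tower (N : ℕ) [NeZero N] : IsScalarTower ℂ (s29_ap_FC N) (s29_cm_L N) :=
  IsScalarTower.of_algebraMap_eq (fun c => ((s29_ap_embFC N).commutes c).symm)

/-- `s29_cm_L N` is finite over (the image of) `F_C`. -/
instance s29_ck_finite_FL (N : ℕ) [NeZero N] :
    FiniteDimensional (s29_ap_FC N) (s29_cm_L N) := by
  set R : IntermediateField ℂ (s29_cm_L N) := (s29_ap_embFC N).fieldRange with hR
  have hjR : s29_cm_jL N ∈ R := ⟨s29_ap_jFC N, s29_ap_embFC_jFC N⟩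
  have hle : ℂ⟮s29_cpl_t N 0⟯ ≤ R := by
    rw [s29_cpl_adjoin_t, IntermediateField.adjoin_simple_le_iff]
    exact hjR
  haveI := s29_cpl_finiteDimensional N 0
  letI : Algebra ℂ⟮s29_cpl_t N 0⟯ R := (IntermediateField.inclusion hle).toRingHom.toAlgebra
  haveI : IsScalarTower ℂ⟮s29_cpl_t N 0⟯ R (s29_cm_L N) :=
    IsScalarTower.of_algebraMap_eq (fun x => rfl)
  haveI : Module.Finite R (s29_cm_L N) :=
    Module.Finite.of_restrictScalars_finite ℂ⟮s29_cpl_t N 0⟯ R (s29_cm_L N)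
  let e : s29_ap_FC N ≃ₐ[ℂ] R := AlgEquiv.ofInjectiveField (s29_ap_embFC N)
  refine Module.Finite.of_equiv_equiv (A₁ := R) (B₁ := s29_cm_L N) (A₂ := s29_ap_FC N)
    (B₂ := s29_cm_L N) e.symm.toRingEquiv (RingEquiv.refl _) ?_
  ext r
  show s29_ap_embFC N (e.symm r) = (r : s29_cm_L N)
  have h1 : ((e (e.symm r) : R) : s29_cm_L N) = s29_ap_embFC N (e.symm r) := rfl
  rw [← h1, AlgEquiv.apply_symm_apply]

theorem s29_ck_sig_mul (N : ℕ) (σ : ℂ ≃ₐ[ℚ] ℂ) (f g : s29_ap_FC N) :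
    s29_ck_sig N σ (f * g) = s29_ck_sig N σ f * s29_ck_sig N σ g :=
  Subtype.ext (map_mul (coeffMap (σ : ℂ →+* ℂ)) _ _)

theorem s29_ck_sig_add (N : ℕ) (σ : ℂ ≃ₐ[ℚ] ℂ) (f g : s29_ap_FC N) :
    s29_ck_sig N σ (f + g) = s29_ck_sig N σ f + s29_ck_sig N σ g :=
  Subtype.ext (map_add (coeffMap (σ : ℂ →+* ℂ)) _ _)

theorem s29_ck_sig_sub (N : ℕ) (σ : ℂ ≃ₐ[ℚ] ℂ) (f g : s29_ap_FC N) :
    s29_ck_sig N σ (f - g) = s29_ck_sig N σ f - s29_ck_sig N σ g :=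
  Subtype.ext (map_sub (coeffMap (σ : ℂ →+* ℂ)) _ _)

theorem s29_ck_sig_const (N : ℕ) (σ : ℂ ≃ₐ[ℚ] ℂ) (c : ℂ) :
    s29_ck_sig N σ (algebraMap ℂ (s29_ap_FC N) c) = algebraMap ℂ (s29_ap_FC N) (σ c) :=
  Subtype.ext (coeffMap_algebraMap (σ : ℂ →+* ℂ) c)

theorem s29_ck_sig_jFC (N : ℕ) [NeZero N] (σ : ℂ ≃ₐ[ℚ] ℂ) :
    s29_ck_sig N σ (s29_ap_jFC N) = s29_ap_jFC N :=
  Subtype.ext (coeffMap_coeffEmb σ jq)

/-- **TRANSPORT.**  For `σ ∈ Aut(ℂ/ℚ)` and `τ ∈ ℍ` there is `τ' ∈ ℍ` such that the order at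
`τ` of `σ f` is the order at `τ'` of `f`, for every `f ∈ F_Cˣ`. -/
theorem s29_ck_transport (N : ℕ) [NeZero N] (σ : ℂ ≃ₐ[ℚ] ℂ) (τ : ℍ) :
    ∃ τ' : ℍ, ∀ f : s29_ap_FC N, f ≠ 0 →
      s29_ck_ordL N τ (s29_ap_embFC N (s29_ck_sig N σ f)) =
        s29_ck_ordL N τ' (s29_ap_embFC N f) := by
  classical
  have hemb0 : ∀ f : s29_ap_FC N, f ≠ 0 → s29_ap_embFC N f ≠ 0 := fun f hf =>
    (map_ne_zero (s29_ap_embFC N)).mpr hf
  set c' : ℂ := σ.symm (Jfun τ) with hc'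
  have hσc' : σ c' = Jfun τ := σ.apply_symm_apply _
  set u : s29_ap_FC N := s29_ap_jFC N - algebraMap ℂ (s29_ap_FC N) c' with hu
  have hembu : s29_ap_embFC N u = s29_cpl_t N c' := by
    rw [hu, map_sub, s29_ap_embFC_jFC, AlgHom.commutes]
    rfl
  have hsigu : s29_ap_embFC N (s29_ck_sig N σ u) = s29_cpl_t N (Jfun τ) := by
    rw [hu, s29_ck_sig_sub, s29_ck_sig_jFC, s29_ck_sig_const, hσc', map_sub, s29_ap_embFC_jFC,
      AlgHom.commutes]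
    rfl
  have hu0 : u ≠ 0 := by
    intro h
    have h2 := s29_cpl_transcendental_t N c'
    rw [← hembu, h, map_zero] at h2
    exact h2 isAlgebraic_zero
  have hvu : s29_ck_ordL N τ (s29_ap_embFC N (s29_ck_sig N σ u))
      = s29_cpl_v N τ (s29_cpl_x N (Jfun τ)) := by
    rw [hsigu, ← s29_cpl_algebraMap_x, s29_ck_ordL_algebraMap N τ (s29_cpl_x_ne_zero N _)]
  obtain ⟨τ', hτ'⟩ := s29_ck_transport_abs2 (K := ℂ) (F := s29_ap_FC N) (L := s29_cm_L N)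
    (X := ℍ) (fun τ' f => s29_ck_ordL N τ' (s29_ap_embFC N f))
    (fun f => s29_ck_ordL N τ (s29_ap_embFC N (s29_ck_sig N σ f)))
    (fun f g hf hg => by
      show s29_ck_ordL N τ (s29_ap_embFC N (s29_ck_sig N σ (f * g))) = _
      rw [s29_ck_sig_mul, map_mul]
      exact s29_ck_ordL_mul N τ (hemb0 _ (s29_ck_sig_ne_zero N σ hf))
        (hemb0 _ (s29_ck_sig_ne_zero N σ hg)))
    (fun f g hf hg hfg => by
      show _ ≤ s29_ck_ordL N τ (s29_ap_embFC N (s29_ck_sig N σ (f + g)))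
      have h1 := hemb0 _ (s29_ck_sig_ne_zero N σ hfg)
      rw [s29_ck_sig_add, map_add] at h1 ⊢
      exact s29_ck_ordL_add N τ (hemb0 _ (s29_ck_sig_ne_zero N σ hf))
        (hemb0 _ (s29_ck_sig_ne_zero N σ hg)) h1)
    (fun c hc => by
      show s29_ck_ordL N τ (s29_ap_embFC N (s29_ck_sig N σ (algebraMap ℂ (s29_ap_FC N) c))) = 0
      rw [s29_ck_sig_const, AlgHom.commutes]
      exact s29_ck_ordL_const N τ (σ c) ((map_ne_zero σ).mpr hc))
    u hu0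
    (by
      show 0 < s29_ck_ordL N τ (s29_ap_embFC N (s29_ck_sig N σ u))
      rw [hvu, s29_cpl_v_pos_iff N τ _ (s29_cpl_x_ne_zero N _), s29_cpl_x_apply, sub_self])
    (fun w hw => by
      rw [s29_ck_algebraMap_FL, hembu] at hw
      obtain ⟨τ', e, he, hJ, hx⟩ := s29_cpl_analytic N w c' hw
      refine ⟨τ', e, he, fun f hf => ?_, ?_⟩
      · show s29_ck_ordL N τ' (s29_ap_embFC N f) = e * w.ord (s29_ap_embFC N f)
        exact s29_ck_ordL_eq_of_ring N τ' w e hx _ (hemb0 f hf)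
      · show s29_ck_ordL N τ' (s29_ap_embFC N u)
          = s29_ck_ordL N τ (s29_ap_embFC N (s29_ck_sig N σ u))
        rw [hvu, hembu, ← hJ, ← s29_cpl_algebraMap_x,
          s29_ck_ordL_algebraMap N τ' (s29_cpl_x_ne_zero N _), s29_ck_v_x, s29_ck_v_x]
        have h0 : Jfun τ' = 0 ↔ Jfun τ = 0 := by
          rw [hJ, hc']
          exact map_eq_zero_iff σ.symm σ.symm.injective
        have h1 : Jfun τ' = 1728 ↔ Jfun τ = 1728 := by
          rw [hJ, hc']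
          constructor
          · intro h
            have h2 : σ.symm (Jfun τ) = σ.symm 1728 := by rw [h, map_ofNat]
            exact σ.symm.injective h2
          · intro h
            rw [h, map_ofNat]
        simp only [h0, h1])
  exact ⟨τ', hτ'⟩

/-- **TRANSPORT in `s29_Mer`** — hypothesis `hTr` of `s29_ck_hT` / `s29_ck_e3` for the
realisation `φ ∘ s29_ap_embFC N` of `F_C`, `φ` any ring homomorphism `s29_cm_L N →+* s29_Mer`
which is the identity on functions. -/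
theorem s29_ck_hTr (N : ℕ) [NeZero N] (φ : s29_cm_L N →+* s29_Mer)
    (hφ : ∀ x : s29_cm_ring N, φ (algebraMap (s29_cm_ring N) (s29_cm_L N) x)
      = algebraMap s29_hol s29_Mer (s29_cpl_toHol N x))
    (σ : ℂ ≃ₐ[ℚ] ℂ) (τ : ℍ) :
    ∃ τ' : ℍ, ∀ f : s29_ap_FC N, f ≠ 0 →
      s29_ord τ ((φ.comp (s29_ap_embFC N : s29_ap_FC N →+* s29_cm_L N)) (s29_ck_sig N σ f))
        = s29_ord τ' ((φ.comp (s29_ap_embFC N : s29_ap_FC N →+* s29_cm_L N)) f) := by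
  obtain ⟨τ', hτ'⟩ := s29_ck_transport N σ τ
  refine ⟨τ', fun f hf => ?_⟩
  have h1 : s29_ap_embFC N f ≠ 0 := (map_ne_zero (s29_ap_embFC N)).mpr hf
  have h2 : s29_ap_embFC N (s29_ck_sig N σ f) ≠ 0 :=
    (map_ne_zero (s29_ap_embFC N)).mpr (s29_ck_sig_ne_zero N σ hf)
  show s29_ord τ (φ (s29_ap_embFC N (s29_ck_sig N σ f))) = s29_ord τ' (φ (s29_ap_embFC N f))
  rw [s29_ck_ord_ofL N φ hφ τ _ h2, s29_ck_ord_ofL N φ hφ τ' _ h1]
  exact hτ' f hf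

end Fermat.Agent.S29
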