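import Fermat.Agent.S24.ModAction
import Fermat.Agent.S24.ModEmb
import Fermat.Agent.S24.ModField

/-!
# S29 (project BRIDGE, block D): the `ℂ`-coefficient analytic model

`s29_cm_ring N = ℂ[J(d γ τ) : d ∣ N, γ ∈ SL₂(ℤ)]`, a ring of holomorphic functions on the upper
half plane (the `ℂ`-span of S24's `modRing N`), with its level-`N` expansion at `∞`, the action
of `SL₂(ℤ)` (through a finite quotient) and the computation of the invariants (polynomials in
`J`).
-/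

set_option autoImplicit false

open UpperHalfPlane ModularCurve Polynomial
open scoped MatrixGroups IntermediateField Manifold

noncomputable section

namespace Fermat.Agent.S29

open Fermat.Agent.S24
open Fermat.Agent.S28 (Jfun scaleH HasQExp)
open CongruenceSubgroup ModularGroup

/-- The ring `ℂ[J(d γ τ) : d ∣ N, γ ∈ SL₂(ℤ)]`. -/
def s29_cm_ring (N : ℕ) : Subalgebra ℂ (ℍ → ℂ) := Algebra.adjoin ℂ (gens N)

theorem s29_cm_Jconj_mem (N : ℕ) (d : ℕ) [NeZero d] (hd : d ∣ N) (γ : SL(2, ℤ)) :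
    Jconj d γ ∈ s29_cm_ring N :=
  Algebra.subset_adjoin ⟨d, inferInstance, γ, hd, rfl⟩

/-- `J(dτ)` as an element of `s29_cm_ring N`. -/
def s29_cm_Jelt (N : ℕ) (d : ℕ) [NeZero d] (hd : d ∣ N) : s29_cm_ring N :=
  ⟨Jconj d 1, s29_cm_Jconj_mem N d hd 1⟩

/-! ### Expansions at all cusps -/

/-- every `SL₂(ℤ)`-translate has a level-`N` expansion (complex coefficients). -/
def s29_cm_IsMod (N : ℕ) (g : ℍ → ℂ) : Prop :=
  ∀ γ : SL(2, ℤ), ∃ s : LaurentSeries ℂ, HasQExp N (fun τ => g (γ • τ)) s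

theorem s29_cm_isMod_of_mem {N : ℕ} [NeZero N] {g : ℍ → ℂ} (hg : g ∈ s29_cm_ring N) :
    s29_cm_IsMod N g := by
  unfold s29_cm_ring at hg
  induction hg using Algebra.adjoin_induction with
  | mem x hx =>
    obtain ⟨d, _, γ, hd, rfl⟩ := hx
    intro γ'
    obtain ⟨s, hs⟩ := isMod_Jconj N d hd γ γ'
    exact ⟨_, hs⟩
  | algebraMap r =>
    intro γ
    exact ⟨_, Fermat.Agent.S28.hasQExp_const N r⟩
  | add x y _ _ hx hy =>
    intro γ
    obtain ⟨s, hs⟩ := hx γ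
    obtain ⟨s', hs'⟩ := hy γ
    exact ⟨s + s', hs.add hs'⟩
  | mul x y _ _ hx hy =>
    intro γ
    obtain ⟨s, hs⟩ := hx γ
    obtain ⟨s', hs'⟩ := hy γ
    exact ⟨s * s', hs.mul hs'⟩

theorem s29_cm_exists_hasQExp {N : ℕ} [NeZero N] {g : ℍ → ℂ} (hg : g ∈ s29_cm_ring N) :
    ∃ s : LaurentSeries ℂ, HasQExp N g s := by
  obtain ⟨s, hs⟩ := s29_cm_isMod_of_mem hg 1
  exact ⟨s, hs.congr fun τ => by rw [one_smul]⟩

theorem s29_cm_mdiff {N : ℕ} [NeZero N] {g : ℍ → ℂ} (hg : g ∈ s29_cm_ring N) :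
    MDifferentiable 𝓘(ℂ) 𝓘(ℂ) g := by
  obtain ⟨s, hs⟩ := s29_cm_exists_hasQExp hg
  exact Fermat.Agent.S28.HasQExp.mdifferentiable hs

/-- The expansion at `∞` of an element of `s29_cm_ring N` (as a function). -/
def s29_cm_expFun (N : ℕ) [NeZero N] (g : s29_cm_ring N) : LaurentSeries ℂ :=
  Classical.choose (s29_cm_exists_hasQExp g.2)

theorem s29_cm_expFun_spec (N : ℕ) [NeZero N] (g : s29_cm_ring N) :
    HasQExp N (g : ℍ → ℂ) (s29_cm_expFun N g) :=
  Classical.choose_spec (s29_cm_exists_hasQExp g.2)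

/-- The level-`N` expansion at `∞`, as a `ℂ`-algebra homomorphism. -/
def s29_cm_exp (N : ℕ) [NeZero N] : s29_cm_ring N →ₐ[ℂ] LaurentSeries ℂ where
  toFun := s29_cm_expFun N
  map_one' := by
    refine (s29_cm_expFun_spec N 1).unique ?_
    have h := Fermat.Agent.S28.hasQExp_const N (1 : ℂ)
    rw [map_one] at h
    exact h
  map_mul' x y := by
    refine (s29_cm_expFun_spec N (x * y)).unique ?_
    exact (s29_cm_expFun_spec N x).mul (s29_cm_expFun_spec N y)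
  map_zero' := by
    refine (s29_cm_expFun_spec N 0).unique ?_
    have h := Fermat.Agent.S28.hasQExp_const N (0 : ℂ)
    rw [map_zero] at h
    exact h
  map_add' x y := by
    refine (s29_cm_expFun_spec N (x + y)).unique ?_
    exact (s29_cm_expFun_spec N x).add (s29_cm_expFun_spec N y)
  commutes' c := by
    refine (s29_cm_expFun_spec N (algebraMap ℂ (s29_cm_ring N) c)).unique ?_
    have h := Fermat.Agent.S28.hasQExp_const N c
    rw [algebraMap_laurentSeries_eq_single, ← HahnSeries.C_apply]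
    exact h

theorem s29_cm_exp_spec (N : ℕ) [NeZero N] (g : s29_cm_ring N) :
    HasQExp N (g : ℍ → ℂ) (s29_cm_exp N g) := s29_cm_expFun_spec N g

theorem s29_cm_exp_injective (N : ℕ) [NeZero N] : Function.Injective (s29_cm_exp N) := by
  rw [injective_iff_map_eq_zero]
  intro g hg
  have h := s29_cm_exp_spec N g
  rw [hg] at h
  have h0 : ∀ τ, (g : ℍ → ℂ) τ = 0 := by
    intro τ
    have h1 : HasSum (fun n : ℤ => (0 : LaurentSeries ℂ).coeff n *
        Fermat.Agent.S28.tParam N τ ^ n) 0 := by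
      simp
    exact (h τ).unique h1
  exact Subtype.ext (funext h0)

instance s29_cm_isDomain (N : ℕ) [NeZero N] : IsDomain (s29_cm_ring N) :=
  (s29_cm_exp_injective N).isDomain (s29_cm_exp N : s29_cm_ring N →+* LaurentSeries ℂ)

/-! ### The action of `SL₂(ℤ)` -/

theorem s29_cm_actFun_mem {N : ℕ} (γ : SL(2, ℤ)) {g : ℍ → ℂ} (hg : g ∈ s29_cm_ring N) :
    actFun γ g ∈ s29_cm_ring N := by
  unfold s29_cm_ring at hg ⊢
  induction hg using Algebra.adjoin_induction with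
  | mem x hx =>
    obtain ⟨d, hd0, γ', hd, rfl⟩ := hx
    rw [act_actFun_Jconj]
    exact Algebra.subset_adjoin ⟨d, hd0, γ' * γ⁻¹, hd, rfl⟩
  | algebraMap r =>
    have h : actFun γ (algebraMap ℂ (ℍ → ℂ) r) = algebraMap ℂ (ℍ → ℂ) r := rfl
    rw [h]
    exact Subalgebra.algebraMap_mem _ r
  | add x y hx hy hx' hy' =>
    have h : actFun γ (x + y) = actFun γ x + actFun γ y := rfl
    rw [h]
    exact add_mem hx' hy'
  | mul x y hx hy hx' hy' =>
    have h : actFun γ (x * y) = actFun γ x * actFun γ y := rfl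
    rw [h]
    exact mul_mem hx' hy'

instance s29_cm_ringAction (N : ℕ) : MulSemiringAction SL(2, ℤ) (s29_cm_ring N) where
  smul γ g := ⟨actFun γ g, s29_cm_actFun_mem γ g.2⟩
  one_smul _ := Subtype.ext (act_actFun_one _)
  mul_smul _ _ _ := Subtype.ext (act_actFun_mul _ _ _)
  smul_zero _ := Subtype.ext rfl
  smul_add _ _ _ := Subtype.ext rfl
  smul_one _ := Subtype.ext rfl
  smul_mul _ _ _ := Subtype.ext rfl

theorem s29_cm_smul_apply {N : ℕ} (γ : SL(2, ℤ)) (g : s29_cm_ring N) (τ : ℍ) :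
    ((γ • g : s29_cm_ring N) : ℍ → ℂ) τ = (g : ℍ → ℂ) (γ⁻¹ • τ) := rfl

instance s29_cm_ring_smulCommClass (N : ℕ) : SMulCommClass SL(2, ℤ) ℂ (s29_cm_ring N) :=
  ⟨fun _ _ _ => Subtype.ext rfl⟩

/-- The principal congruence subgroup acts trivially. -/
theorem s29_cm_smul_of_mem_Gamma (N : ℕ) [NeZero N] (γ : SL(2, ℤ)) (hγ : γ ∈ Gamma N)
    (g : s29_cm_ring N) : γ • g = g := by
  apply Subtype.ext
  show actFun γ (g : ℍ → ℂ) = (g : ℍ → ℂ)
  have hg := g.2
  generalize (g : ℍ → ℂ) = f at hg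
  unfold s29_cm_ring at hg
  induction hg using Algebra.adjoin_induction with
  | mem x hx =>
    obtain ⟨d, hd0, γ', hd, rfl⟩ := hx
    rw [act_actFun_Jconj]
    funext τ
    show Jfun (scaleH d ((γ' * γ⁻¹) • τ)) = Jfun (scaleH d (γ' • τ))
    have hnorm : γ' * γ⁻¹ * γ'⁻¹ ∈ Gamma N :=
      (Gamma_normal (N := N)).conj_mem _ (inv_mem hγ) γ'
    have h1 : (γ' * γ⁻¹) • τ = (γ' * γ⁻¹ * γ'⁻¹) • (γ' • τ) := by
      rw [← mul_smul, inv_mul_cancel_right]
    rw [h1]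
    exact Fermat.Agent.S28.Jfun_scaleH_smul N d hd _ (act_Gamma_le_Gamma0 N hnorm) (γ' • τ)
  | algebraMap r => rfl
  | add x y hx hy hx' hy' =>
    have h : actFun γ (x + y) = actFun γ x + actFun γ y := rfl
    rw [h, hx', hy']
  | mul x y hx hy hx' hy' =>
    have h : actFun γ (x * y) = actFun γ x * actFun γ y := rfl
    rw [h, hx', hy']

/-- `Γ₀(N)` fixes the `J(dτ)`, `d ∣ N`. -/
theorem s29_cm_smul_Jelt (N : ℕ) [NeZero N] (d : ℕ) [NeZero d] (hd : d ∣ N)
    (γ : SL(2, ℤ)) (hγ : γ ∈ Gamma0 N) : γ • s29_cm_Jelt N d hd = s29_cm_Jelt N d hd := by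
  apply Subtype.ext
  funext τ
  show Jfun (scaleH d ((1 : SL(2, ℤ)) • γ⁻¹ • τ)) = Jfun (scaleH d ((1 : SL(2, ℤ)) • τ))
  rw [one_smul, one_smul]
  exact Fermat.Agent.S28.Jfun_scaleH_smul N d hd γ⁻¹ (inv_mem hγ) τ

/-! ### Invariants are polynomials in `J` -/

theorem s29_cm_exp_Jelt (N : ℕ) [NeZero N] (d : ℕ) [NeZero d] (hd : d ∣ N) :
    s29_cm_exp N (s29_cm_Jelt N d hd) = qExpand ℂ N (coeffEmb ℂ (qExpand ℚ d jq)) := by
  refine (s29_cm_exp_spec N _).unique ?_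
  have h := hasKExp_Jconj_one N d
  unfold HasKExp at h
  have e : coeffMap iotaK (qExpand Kbar N (coeffEmb Kbar (qExpand ℚ d jq))) =
      qExpand ℂ N (coeffEmb ℂ (qExpand ℚ d jq)) := by
    rw [coeffMap_qExpand, coeffEmb, coeffEmb, coeffMap_coeffMap,
      coeffMap_congr (RingHom.ext_rat (iotaK.comp (algebraMap ℚ Kbar)) (algebraMap ℚ ℂ))]
  rw [e] at h
  exact h

theorem s29_cm_exp_Jelt_one (N : ℕ) [NeZero N] :
    s29_cm_exp N (s29_cm_Jelt N 1 (one_dvd N)) = Fermat.Agent.S28.jN ℂ N := by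
  rw [s29_cm_exp_Jelt, qExpand_one_apply]
  show qExpand ℂ N (coeffMap (algebraMap ℚ ℂ) jq) = _
  rw [← jqModC_rat, coeffMap_jqModC]

theorem s29_cm_invariant (N : ℕ) [NeZero N] (g : s29_cm_ring N)
    (h : ∀ γ : SL(2, ℤ), γ • g = g) :
    ∃ P : ℂ[X], g = Polynomial.aeval (s29_cm_Jelt N 1 (one_dvd N)) P := by
  have hinv : ∀ (γ : SL(2, ℤ)) (τ : ℍ), (g : ℍ → ℂ) (γ • τ) = (g : ℍ → ℂ) τ := by
    intro γ τ
    have h1 := congrArg (fun x : s29_cm_ring N => (x : ℍ → ℂ) (γ • τ)) (h γ)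
    simp only [s29_cm_smul_apply, inv_smul_smul] at h1
    exact h1.symm
  have hdiff := s29_cm_mdiff g.2
  have he : Function.Bijective ((RingHom.id ℂ).rangeRestrict) :=
    ⟨fun x y hxy => congrArg Subtype.val hxy, (RingHom.id ℂ).rangeRestrict_surjective⟩
  have hs' : HasQExp N (g : ℍ → ℂ)
      (coeffMap ((RingHom.id ℂ).range).subtype
        (coeffMap (RingHom.id ℂ).rangeRestrict (s29_cm_exp N g))) := by
    rw [coeffMap_coeffMap]
    have h2 : ((RingHom.id ℂ).range).subtype.comp (RingHom.id ℂ).rangeRestrict = RingHom.id ℂ :=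
      RingHom.ext fun x => rfl
    rw [h2]
    have h3 : coeffMap (RingHom.id ℂ) (s29_cm_exp N g) = s29_cm_exp N g := by
      ext n
      simp
    rw [h3]
    exact s29_cm_exp_spec N g
  obtain ⟨P', hP'⟩ := Fermat.Agent.S28.levelOne_eq_poly N (RingHom.id ℂ).range (g : ℍ → ℂ)
    hdiff hinv (coeffMap (RingHom.id ℂ).rangeRestrict (s29_cm_exp N g)) hs'
  refine ⟨P'.map ((RingEquiv.ofBijective _ he).symm : (RingHom.id ℂ).range →+* ℂ), ?_⟩
  apply s29_cm_exp_injective N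
  rw [← Polynomial.aeval_algHom_apply, s29_cm_exp_Jelt_one]
  apply act_coeffMap_injective _ he.1
  have hC : algebraMap ℂ (LaurentSeries ℂ) = HahnSeries.C := by
    refine RingHom.ext fun x => ?_
    rw [algebraMap_laurentSeries_eq_single, HahnSeries.C_apply]
  rw [hP', Polynomial.aeval_def, hC,
    Fermat.Agent.S28.coeffMap_eval₂_jN, Polynomial.map_map]
  congr 1
  conv_lhs => rw [← Polynomial.map_id (p := P')]
  congr 1
  refine RingHom.ext fun x => ?_
  exact ((RingEquiv.ofBijective _ he).apply_symm_apply x).symm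

/-! ### The fraction field -/

/-- The field `ℂ(J(d γ τ))`. -/
abbrev s29_cm_L (N : ℕ) [NeZero N] : Type := FractionRing (s29_cm_ring N)

instance s29_cm_LAction (N : ℕ) [NeZero N] : MulSemiringAction SL(2, ℤ) (s29_cm_L N) :=
  IsFractionRing.mulSemiringAction SL(2, ℤ) (s29_cm_ring N) (s29_cm_L N)

theorem s29_cm_smul_algebraMap (N : ℕ) [NeZero N] (γ : SL(2, ℤ)) (g : s29_cm_ring N) :
    γ • algebraMap (s29_cm_ring N) (s29_cm_L N) g = algebraMap (s29_cm_ring N) (s29_cm_L N) (γ • g) :=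
  IsFractionRing.ringEquivOfRingEquiv_algebraMap _ _

instance s29_cm_L_smulCommClass (N : ℕ) [NeZero N] : SMulCommClass SL(2, ℤ) ℂ (s29_cm_L N) :=
  ⟨fun γ c f => by
    rw [Algebra.smul_def, Algebra.smul_def, smul_mul']
    congr 1
    rw [IsScalarTower.algebraMap_apply ℂ (s29_cm_ring N) (s29_cm_L N), s29_cm_smul_algebraMap]
    congr 1⟩

/-- The action as a homomorphism to the automorphism group. -/
def s29_cm_rho (N : ℕ) [NeZero N] : SL(2, ℤ) →* (s29_cm_L N ≃ₐ[ℂ] s29_cm_L N) :=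
  MulSemiringAction.toAlgAut SL(2, ℤ) ℂ (s29_cm_L N)

theorem s29_cm_rho_apply (N : ℕ) [NeZero N] (γ : SL(2, ℤ)) (f : s29_cm_L N) :
    s29_cm_rho N γ f = γ • f := rfl

theorem s29_cm_smul_L_of_mem_Gamma (N : ℕ) [NeZero N] (γ : SL(2, ℤ)) (hγ : γ ∈ Gamma N)
    (f : s29_cm_L N) : γ • f = f := by
  obtain ⟨a, b, hb, rfl⟩ := IsFractionRing.div_surjective (A := s29_cm_ring N) f
  rw [smul_div₀', s29_cm_smul_algebraMap, s29_cm_smul_algebraMap,
    s29_cm_smul_of_mem_Gamma N γ hγ, s29_cm_smul_of_mem_Gamma N γ hγ]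

theorem s29_cm_finite_range_rho (N : ℕ) [NeZero N] : Finite (s29_cm_rho N).range := by
  have hker : Gamma N ≤ (s29_cm_rho N).ker := by
    intro γ hγ
    rw [MonoidHom.mem_ker]
    ext f
    rw [s29_cm_rho_apply, s29_cm_smul_L_of_mem_Gamma N γ hγ]
    rfl
  have hfin2 : (s29_cm_rho N).ker.FiniteIndex := Subgroup.finiteIndex_of_le hker
  have hfin3 : Finite (SL(2, ℤ) ⧸ (s29_cm_rho N).ker) := Subgroup.finite_quotient_of_finiteIndex
  exact Finite.of_equiv _ (QuotientGroup.quotientKerEquivRange (s29_cm_rho N)).toEquiv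

/-- `J` as an element of `L`. -/
def s29_cm_jL (N : ℕ) [NeZero N] : s29_cm_L N :=
  algebraMap (s29_cm_ring N) (s29_cm_L N) (s29_cm_Jelt N 1 (one_dvd N))

theorem s29_cm_aeval_mem (N : ℕ) [NeZero N] (P : ℂ[X]) :
    algebraMap (s29_cm_ring N) (s29_cm_L N) (Polynomial.aeval (s29_cm_Jelt N 1 (one_dvd N)) P)
      ∈ ℂ⟮s29_cm_jL N⟯ := by
  rw [← Polynomial.aeval_algebraMap_apply]
  have h1 : Polynomial.aeval (algebraMap (s29_cm_ring N) (s29_cm_L N)
      (s29_cm_Jelt N 1 (one_dvd N))) P ∈ Algebra.adjoin ℂ {s29_cm_jL N} :=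
    Polynomial.aeval_mem_adjoin_singleton _ _
  exact IntermediateField.algebra_adjoin_le_adjoin ℂ _ h1

/-- The norm of a denominator: an invariant multiple. -/
theorem s29_cm_exists_norm (N : ℕ) [NeZero N] (b : s29_cm_ring N)
    (hb0 : algebraMap (s29_cm_ring N) (s29_cm_L N) b ≠ 0) :
    ∃ c nb : s29_cm_ring N, nb = b * c ∧ algebraMap (s29_cm_ring N) (s29_cm_L N) nb ≠ 0 ∧
      ∀ γ : SL(2, ℤ), γ • nb = nb := by
  classical
  have : Finite (s29_cm_rho N).range := s29_cm_finite_range_rho N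
  have := Fintype.ofFinite (s29_cm_rho N).range
  choose sec hsec using fun g : (s29_cm_rho N).range => g.2
  have hterm : ∀ g : (s29_cm_rho N).range,
      algebraMap (s29_cm_ring N) (s29_cm_L N) (sec g • b)
      = (g : s29_cm_L N ≃ₐ[ℂ] s29_cm_L N) (algebraMap (s29_cm_ring N) (s29_cm_L N) b) := by
    intro g
    rw [← s29_cm_smul_algebraMap, ← s29_cm_rho_apply, hsec g]
  have hnb : algebraMap (s29_cm_ring N) (s29_cm_L N) (∏ g : (s29_cm_rho N).range, sec g • b)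
      = ∏ g : (s29_cm_rho N).range,
        (g : s29_cm_L N ≃ₐ[ℂ] s29_cm_L N) (algebraMap (s29_cm_ring N) (s29_cm_L N) b) := by
    rw [map_prod]
    exact Finset.prod_congr rfl fun g _ => hterm g
  refine ⟨∏ g ∈ (Finset.univ.erase (1 : (s29_cm_rho N).range)), sec g • b,
    ∏ g : (s29_cm_rho N).range, sec g • b, ?_, ?_, ?_⟩
  · have h1 := Finset.mul_prod_erase (Finset.univ : Finset (s29_cm_rho N).range)
      (fun g => sec g • b) (Finset.mem_univ 1)
    have h2 : sec 1 • b = b := by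
      apply IsFractionRing.injective (s29_cm_ring N) (s29_cm_L N)
      rw [hterm]
      rfl
    rw [h2] at h1
    exact h1.symm
  · rw [hnb, Finset.prod_ne_zero_iff]
    intro g _
    exact (map_ne_zero_iff _ (AlgEquiv.injective _)).mpr hb0
  · intro γ
    apply IsFractionRing.injective (s29_cm_ring N) (s29_cm_L N)
    rw [← s29_cm_smul_algebraMap, hnb, ← s29_cm_rho_apply, map_prod]
    exact Fintype.prod_equiv (Equiv.mulLeft (⟨s29_cm_rho N γ, γ, rfl⟩ : (s29_cm_rho N).range)) _ _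
      (fun g => rfl)

/-- The fixed field of `SL₂(ℤ)` in `L` is `ℂ(J)`. -/
theorem s29_cm_fixed (N : ℕ) [NeZero N] (f : s29_cm_L N) (h : ∀ γ : SL(2, ℤ), γ • f = f) :
    f ∈ ℂ⟮s29_cm_jL N⟯ := by
  obtain ⟨a, b, hb, rfl⟩ := IsFractionRing.div_surjective (A := s29_cm_ring N) f
  have hb0 : algebraMap (s29_cm_ring N) (s29_cm_L N) b ≠ 0 :=
    IsFractionRing.to_map_ne_zero_of_mem_nonZeroDivisors hb
  obtain ⟨c, nb, hnbc, hnb0, hnbinv⟩ := s29_cm_exists_norm N b hb0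
  have hnbc' : algebraMap (s29_cm_ring N) (s29_cm_L N) nb
      = algebraMap (s29_cm_ring N) (s29_cm_L N) b * algebraMap (s29_cm_ring N) (s29_cm_L N) c := by
    rw [hnbc, map_mul]
  have hc0 : algebraMap (s29_cm_ring N) (s29_cm_L N) c ≠ 0 := by
    intro h0
    rw [hnbc', h0, mul_zero] at hnb0
    exact hnb0 rfl
  obtain ⟨e1, e2⟩ := modfield_frac_aux (algebraMap (s29_cm_ring N) (s29_cm_L N) a) _ _ hb0 hc0
  have hac : ∀ γ : SL(2, ℤ), γ • (a * c) = a * c := by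
    intro γ
    apply IsFractionRing.injective (s29_cm_ring N) (s29_cm_L N)
    rw [← s29_cm_smul_algebraMap, map_mul, e2, smul_mul', h γ, ← hnbc', s29_cm_smul_algebraMap,
      hnbinv γ]
  obtain ⟨P, hP⟩ := s29_cm_invariant N (a * c) hac
  obtain ⟨Q, hQ⟩ := s29_cm_invariant N nb hnbinv
  rw [e1, ← map_mul, ← hnbc', hP, hQ]
  exact div_mem (s29_cm_aeval_mem N P) (s29_cm_aeval_mem N Q)

end Fermat.Agent.S29
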