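import Fermat.Agent.S29.CModRing
import Fermat.Agent.S29.MerEmb

/-!
# S29 (project BRIDGE), block (C1): the field `Frac ℂ[J(d γ τ)]` inside the meromorphic functions

The `ℂ`-coefficient twin of `S24/ModField.lean` and of the first half of `S29/MerEmb.lean`:

* `s29_cL N = Frac (s29_cRing N)` with its `SL₂(ℤ)`-action and the expansion
  `s29_cExpL N : s29_cL N →ₐ[ℂ] ℂ((t))` at `∞`;
* `s29_cOfL N : s29_cL N →+* s29_Mer`, injective, `SL₂(ℤ)`-equivariant, `ℂ`-linear;
* `s29_cInclL N : ModL N →+* s29_cL N`, compatible with everything.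
-/

set_option autoImplicit false

open UpperHalfPlane ModularCurve Polynomial
open scoped MatrixGroups Manifold

noncomputable section

namespace Fermat.Agent.S29

open Fermat.Agent.S24
open Fermat.Agent.S28 (Jfun scaleH HasQExp)
open CongruenceSubgroup

attribute [local instance] algKC

/-- The field `Frac ℂ[J(d γ τ)]`. -/
abbrev s29_cL (N : ℕ) [NeZero N] : Type := FractionRing (s29_cRing N)

instance s29_cLAction (N : ℕ) [NeZero N] : MulSemiringAction SL(2, ℤ) (s29_cL N) :=
  IsFractionRing.mulSemiringAction SL(2, ℤ) (s29_cRing N) (s29_cL N)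

theorem s29_cL_smul_algebraMap (N : ℕ) [NeZero N] (γ : SL(2, ℤ)) (g : s29_cRing N) :
    γ • algebraMap (s29_cRing N) (s29_cL N) g = algebraMap (s29_cRing N) (s29_cL N) (γ • g) :=
  IsFractionRing.ringEquivOfRingEquiv_algebraMap _ _

instance s29_cL_smulCommClass (N : ℕ) [NeZero N] : SMulCommClass SL(2, ℤ) ℂ (s29_cL N) :=
  ⟨fun γ c f => by
    rw [Algebra.smul_def, Algebra.smul_def, smul_mul']
    congr 1
    rw [IsScalarTower.algebraMap_apply ℂ (s29_cRing N) (s29_cL N), s29_cL_smul_algebraMap]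
    apply congrArg
    rw [Algebra.algebraMap_eq_smul_one, smul_comm, smul_one]⟩

theorem s29_cL_smul_const (N : ℕ) [NeZero N] (γ : SL(2, ℤ)) (c : ℂ) :
    γ • algebraMap ℂ (s29_cL N) c = algebraMap ℂ (s29_cL N) c := by
  rw [Algebra.algebraMap_eq_smul_one, smul_comm, smul_one]

theorem s29_cL_smul_of_mem_Gamma (N : ℕ) [NeZero N] (γ : SL(2, ℤ)) (hγ : γ ∈ Gamma N)
    (f : s29_cL N) : γ • f = f := by
  obtain ⟨a, b, hb, rfl⟩ := IsFractionRing.div_surjective (A := s29_cRing N) f
  rw [smul_div₀', s29_cL_smul_algebraMap, s29_cL_smul_algebraMap,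
    s29_cRing_smul_of_mem_Gamma N γ hγ, s29_cRing_smul_of_mem_Gamma N γ hγ]

/-! ## The expansion at `∞` on `s29_cL N` -/

/-- The expansion at `∞`, extended to the fraction field. -/
def s29_cExpL (N : ℕ) [NeZero N] : s29_cL N →ₐ[ℂ] LaurentSeries ℂ :=
  IsFractionRing.liftAlgHom (g := s29_cExp N) (s29_cExp_injective N)

theorem s29_cExpL_algebraMap (N : ℕ) [NeZero N] (g : s29_cRing N) :
    s29_cExpL N (algebraMap (s29_cRing N) (s29_cL N) g) = s29_cExp N g :=
  IsFractionRing.lift_algebraMap (s29_cExp_injective N) g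

theorem s29_cExpL_injective (N : ℕ) [NeZero N] : Function.Injective (s29_cExpL N) :=
  (s29_cExpL N).toRingHom.injective

/-! ## `s29_cL N` inside the meromorphic functions -/

/-- `s29_cRing N ⊆ 𝒪(ℍ)`. -/
def s29_cOfRing (N : ℕ) [NeZero N] : s29_cRing N →+* s29_hol :=
  s29_c_inclGen (s29_cRing N) s29_hol (fun _ hx => s29_cRing_mdifferentiable hx)

theorem s29_cOfRing_coe (N : ℕ) [NeZero N] (g : s29_cRing N) :
    (s29_cOfRing N g : ℍ → ℂ) = (g : ℍ → ℂ) := s29_c_inclGen_coe _ _ _ g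

theorem s29_cOfRing_apply (N : ℕ) [NeZero N] (g : s29_cRing N) (τ : ℍ) :
    (s29_cOfRing N g : ℍ → ℂ) τ = (g : ℍ → ℂ) τ := by rw [s29_cOfRing_coe]

theorem s29_cOfRing_injective (N : ℕ) [NeZero N] : Function.Injective (s29_cOfRing N) :=
  s29_c_inclGen_injective _ _ _

theorem s29_cOfRing_const (N : ℕ) [NeZero N] (c : ℂ) :
    s29_cOfRing N (algebraMap ℂ (s29_cRing N) c) = algebraMap ℂ s29_hol c := by
  apply Subtype.ext
  rw [s29_cOfRing_coe, Subalgebra.coe_algebraMap, Subalgebra.coe_algebraMap]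

theorem s29_cOfRing_smul (N : ℕ) [NeZero N] (γ : SL(2, ℤ)) (g : s29_cRing N) :
    s29_cOfRing N (γ • g) = s29_sl γ • s29_cOfRing N g := by
  apply s29_hol_ext
  intro τ
  rw [s29_hol_smul_apply, s29_sl_inv_smul, s29_cOfRing_apply, s29_cOfRing_apply,
    s29_cRing_smul_apply]

theorem s29_cOfRing_incl (N : ℕ) [NeZero N] (g : modRing N) :
    s29_cOfRing N (s29_cIncl N g) = s29_ofModRing N g := by
  apply s29_hol_ext
  intro τ
  rw [s29_cOfRing_apply, s29_cIncl_coe, s29_ofModRing_apply]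

/-- `s29_cL N = Frac (s29_cRing N)` inside the field of meromorphic functions. -/
def s29_cOfL (N : ℕ) [NeZero N] : s29_cL N →+* s29_Mer :=
  IsFractionRing.lift (g := (algebraMap s29_hol s29_Mer).comp (s29_cOfRing N))
    (s29_algebraMap_injective.comp (s29_cOfRing_injective N))

theorem s29_cOfL_algebraMap (N : ℕ) [NeZero N] (g : s29_cRing N) :
    s29_cOfL N (algebraMap (s29_cRing N) (s29_cL N) g) =
      algebraMap s29_hol s29_Mer (s29_cOfRing N g) :=
  IsFractionRing.lift_algebraMap _ g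

theorem s29_cOfL_injective (N : ℕ) [NeZero N] : Function.Injective (s29_cOfL N) :=
  (s29_cOfL N).injective

theorem s29_cOfL_const (N : ℕ) [NeZero N] (c : ℂ) :
    s29_cOfL N (algebraMap ℂ (s29_cL N) c) = algebraMap ℂ s29_Mer c := by
  rw [IsScalarTower.algebraMap_apply ℂ (s29_cRing N) (s29_cL N), s29_cOfL_algebraMap,
    s29_cOfRing_const, ← IsScalarTower.algebraMap_apply ℂ s29_hol s29_Mer]

theorem s29_cOfL_smul (N : ℕ) [NeZero N] (γ : SL(2, ℤ)) (x : s29_cL N) :
    s29_cOfL N (γ • x) = γ • s29_cOfL N x := by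
  obtain ⟨a, b, hb, rfl⟩ := IsFractionRing.div_surjective (A := s29_cRing N) x
  rw [smul_div₀', s29_cL_smul_algebraMap, s29_cL_smul_algebraMap, map_div₀, map_div₀,
    s29_cOfL_algebraMap, s29_cOfL_algebraMap, s29_cOfL_algebraMap, s29_cOfL_algebraMap,
    s29_cOfRing_smul, s29_cOfRing_smul, smul_div₀', s29_sl_smul_def, s29_sl_smul_def,
    s29_smul_algebraMap, s29_smul_algebraMap]

/-! ## `ModL N ⊆ s29_cL N` -/

/-- The inclusion `ModL N = Frac (modRing N) ⊆ Frac (s29_cRing N) = s29_cL N`. -/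
def s29_cInclL (N : ℕ) [NeZero N] : ModL N →+* s29_cL N :=
  IsFractionRing.lift (g := (algebraMap (s29_cRing N) (s29_cL N)).comp (s29_cIncl N))
    ((IsFractionRing.injective (s29_cRing N) (s29_cL N)).comp (s29_cIncl_injective N))

theorem s29_cInclL_algebraMap (N : ℕ) [NeZero N] (g : modRing N) :
    s29_cInclL N (algebraMap (modRing N) (ModL N) g) =
      algebraMap (s29_cRing N) (s29_cL N) (s29_cIncl N g) :=
  IsFractionRing.lift_algebraMap _ g

theorem s29_cInclL_smul (N : ℕ) [NeZero N] (γ : SL(2, ℤ)) (x : ModL N) :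
    s29_cInclL N (γ • x) = γ • s29_cInclL N x := by
  obtain ⟨a, b, hb, rfl⟩ := IsFractionRing.div_surjective (A := modRing N) x
  rw [smul_div₀', smul_algebraMap_modL, smul_algebraMap_modL, map_div₀, map_div₀,
    s29_cInclL_algebraMap, s29_cInclL_algebraMap, s29_cInclL_algebraMap, s29_cInclL_algebraMap,
    s29_cIncl_smul, s29_cIncl_smul, smul_div₀', s29_cL_smul_algebraMap, s29_cL_smul_algebraMap]

/-- the analytic realisations agree on `ModL N` -/
theorem s29_cOfL_inclL (N : ℕ) [NeZero N] (x : ModL N) :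
    s29_cOfL N (s29_cInclL N x) = s29_ofModL N x := by
  obtain ⟨a, b, hb, rfl⟩ := IsFractionRing.div_surjective (A := modRing N) x
  rw [map_div₀, map_div₀, map_div₀, s29_cInclL_algebraMap, s29_cInclL_algebraMap,
    s29_cOfL_algebraMap, s29_cOfL_algebraMap, s29_ofModL_algebraMap, s29_ofModL_algebraMap,
    s29_cOfRing_incl, s29_cOfRing_incl]

/-- the expansions agree on `ModL N` -/
theorem s29_cExpL_inclL (N : ℕ) [NeZero N] (x : ModL N) :
    s29_cExpL N (s29_cInclL N x) = coeffMap iotaK (expL N x) := by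
  obtain ⟨a, b, hb, rfl⟩ := IsFractionRing.div_surjective (A := modRing N) x
  rw [map_div₀, map_div₀, map_div₀, map_div₀, s29_cInclL_algebraMap, s29_cInclL_algebraMap,
    s29_cExpL_algebraMap, s29_cExpL_algebraMap, expL_algebraMap, expL_algebraMap,
    s29_cExp_incl, s29_cExp_incl]

end Fermat.Agent.S29
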