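import Fermat.Agent.S24.ModField

/-!
# S29 (project BRIDGE), block (C1): the ring `ℂ[J(d γ τ)]` of modular functions with complex
coefficients

The `ℂ`-coefficient twin of `S24/ModRing.lean`, `S24/ModActionBase.lean`:

* `s29_cRing N = ℂ[J(d γ τ) : d ∣ N, γ ∈ SL₂(ℤ)]`, a `ℂ`-subalgebra of `ℍ → ℂ` containing
  `modRing N`;
* the level-`N` expansion `s29_cExp N : s29_cRing N →ₐ[ℂ] ℂ((t))` at `∞`, injective;
* the `SL₂(ℤ)`-action `(γ • f)(τ) = f(γ⁻¹τ)`.
-/

set_option autoImplicit false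

open UpperHalfPlane ModularCurve Polynomial
open scoped MatrixGroups Manifold

noncomputable section

namespace Fermat.Agent.S29

open Fermat.Agent.S24
open Fermat.Agent.S28 (Jfun scaleH HasQExp)
open CongruenceSubgroup

attribute [local instance] algKC

/-- The ring `ℂ[J(d γ τ)]` of modular functions of level `N` with complex coefficients. -/
def s29_cRing (N : ℕ) : Subalgebra ℂ (ℍ → ℂ) := Algebra.adjoin ℂ (gens N)

/-- every `SL₂(ℤ)`-translate has a level-`N` expansion with complex coefficients -/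
def s29_cIsMod (N : ℕ) (g : ℍ → ℂ) : Prop :=
  ∀ γ : SL(2, ℤ), ∃ s : LaurentSeries ℂ, HasQExp N (fun τ => g (γ • τ)) s

theorem s29_cIsMod_const (N : ℕ) (c : ℂ) : s29_cIsMod N (fun _ => c) :=
  fun _ => ⟨HahnSeries.C c, Fermat.Agent.S28.hasQExp_const N c⟩

theorem s29_cIsMod_add {N : ℕ} {g g' : ℍ → ℂ} (h : s29_cIsMod N g) (h' : s29_cIsMod N g') :
    s29_cIsMod N (g + g') := by
  intro γ
  obtain ⟨s, hs⟩ := h γ
  obtain ⟨s', hs'⟩ := h' γ
  exact ⟨s + s', Fermat.Agent.S28.HasQExp.add hs hs'⟩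

theorem s29_cIsMod_mul {N : ℕ} {g g' : ℍ → ℂ} (h : s29_cIsMod N g) (h' : s29_cIsMod N g') :
    s29_cIsMod N (g * g') := by
  intro γ
  obtain ⟨s, hs⟩ := h γ
  obtain ⟨s', hs'⟩ := h' γ
  exact ⟨s * s', Fermat.Agent.S28.HasQExp.mul hs hs'⟩

theorem s29_cIsMod_of_isMod {N : ℕ} {g : ℍ → ℂ} (h : IsMod N g) : s29_cIsMod N g := by
  intro γ
  obtain ⟨s, hs⟩ := h γ
  exact ⟨coeffMap iotaK s, hs⟩

theorem s29_cIsMod_of_mem {N : ℕ} [NeZero N] {g : ℍ → ℂ} (hg : g ∈ s29_cRing N) :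
    s29_cIsMod N g := by
  unfold s29_cRing at hg
  induction hg using Algebra.adjoin_induction with
  | mem x hx =>
    obtain ⟨d, _, γ, hd, rfl⟩ := hx
    exact s29_cIsMod_of_isMod (isMod_Jconj N d hd γ)
  | algebraMap r => exact s29_cIsMod_const N r
  | add x y _ _ hx hy => exact s29_cIsMod_add hx hy
  | mul x y _ _ hx hy => exact s29_cIsMod_mul hx hy

/-- The expansion at `∞` of an element of `s29_cRing N`. -/
theorem s29_cRing_exists_hasQExp {N : ℕ} [NeZero N] {g : ℍ → ℂ} (hg : g ∈ s29_cRing N) :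
    ∃ s : LaurentSeries ℂ, HasQExp N g s := by
  obtain ⟨s, hs⟩ := s29_cIsMod_of_mem hg 1
  exact ⟨s, Fermat.Agent.S28.HasQExp.congr hs fun τ => by rw [one_smul]⟩

theorem s29_cRing_mdifferentiable {N : ℕ} [NeZero N] {g : ℍ → ℂ} (hg : g ∈ s29_cRing N) :
    MDifferentiable 𝓘(ℂ) 𝓘(ℂ) g := by
  obtain ⟨s, hs⟩ := s29_cRing_exists_hasQExp hg
  exact Fermat.Agent.S28.HasQExp.mdifferentiable hs

/-- The expansion at `∞` of an element of `s29_cRing N` (as a function). -/
def s29_cExpFun (N : ℕ) [NeZero N] (g : s29_cRing N) : LaurentSeries ℂ :=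
  Classical.choose (s29_cRing_exists_hasQExp g.2)

theorem s29_cExpFun_spec (N : ℕ) [NeZero N] (g : s29_cRing N) :
    HasQExp N (g : ℍ → ℂ) (s29_cExpFun N g) :=
  Classical.choose_spec (s29_cRing_exists_hasQExp g.2)

/-- The level-`N` expansion at `∞`, as a `ℂ`-algebra homomorphism. -/
def s29_cExp (N : ℕ) [NeZero N] : s29_cRing N →ₐ[ℂ] LaurentSeries ℂ where
  toFun := s29_cExpFun N
  map_one' := by
    refine Fermat.Agent.S28.HasQExp.unique (s29_cExpFun_spec N 1) ?_
    have h := Fermat.Agent.S28.hasQExp_const N (1 : ℂ)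
    rw [map_one] at h
    exact h
  map_mul' x y := by
    refine Fermat.Agent.S28.HasQExp.unique (s29_cExpFun_spec N (x * y)) ?_
    exact Fermat.Agent.S28.HasQExp.mul (s29_cExpFun_spec N x) (s29_cExpFun_spec N y)
  map_zero' := by
    refine Fermat.Agent.S28.HasQExp.unique (s29_cExpFun_spec N 0) ?_
    have h := Fermat.Agent.S28.hasQExp_const N (0 : ℂ)
    rw [map_zero] at h
    exact h
  map_add' x y := by
    refine Fermat.Agent.S28.HasQExp.unique (s29_cExpFun_spec N (x + y)) ?_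
    exact Fermat.Agent.S28.HasQExp.add (s29_cExpFun_spec N x) (s29_cExpFun_spec N y)
  commutes' c := by
    refine Fermat.Agent.S28.HasQExp.unique (s29_cExpFun_spec N (algebraMap ℂ (s29_cRing N) c)) ?_
    have h := Fermat.Agent.S28.hasQExp_const N c
    rw [algebraMap_laurentSeries_eq_single, ← HahnSeries.C_apply]
    exact h

theorem s29_cExp_spec (N : ℕ) [NeZero N] (g : s29_cRing N) :
    HasQExp N (g : ℍ → ℂ) (s29_cExp N g) := s29_cExpFun_spec N g

theorem s29_cExp_eq (N : ℕ) [NeZero N] (g : s29_cRing N) {s : LaurentSeries ℂ}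
    (h : HasQExp N (g : ℍ → ℂ) s) : s29_cExp N g = s :=
  Fermat.Agent.S28.HasQExp.unique (s29_cExp_spec N g) h

theorem s29_cExp_injective (N : ℕ) [NeZero N] : Function.Injective (s29_cExp N) := by
  rw [injective_iff_map_eq_zero]
  intro g hg
  have h := s29_cExp_spec N g
  rw [hg] at h
  have h0 : ∀ τ, (g : ℍ → ℂ) τ = 0 := by
    intro τ
    have h1 : HasSum (fun n : ℤ => (0 : LaurentSeries ℂ).coeff n *
        Fermat.Agent.S28.tParam N τ ^ n) 0 := by
      simp
    exact (h τ).unique h1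
  exact Subtype.ext (funext h0)

instance s29_cRing_isDomain (N : ℕ) [NeZero N] : IsDomain (s29_cRing N) :=
  (s29_cExp_injective N).isDomain (s29_cExp N : s29_cRing N →+* LaurentSeries ℂ)

/-! ### `modRing N ⊆ s29_cRing N` -/

theorem s29_modRing_le {N : ℕ} {g : ℍ → ℂ} (hg : g ∈ modRing N) : g ∈ s29_cRing N := by
  unfold modRing at hg
  induction hg using Algebra.adjoin_induction with
  | mem x hx => exact Algebra.subset_adjoin hx
  | algebraMap r =>
    have h : algebraMap Kbar (ℍ → ℂ) r = algebraMap ℂ (ℍ → ℂ) (iotaK r) := rfl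
    rw [h]
    exact Subalgebra.algebraMap_mem _ _
  | add x y _ _ hx hy => exact add_mem hx hy
  | mul x y _ _ hx hy => exact mul_mem hx hy

/-- generic inclusion of sub-semiring-like subsets of a semiring (kept generic so that the
kernel never has to compare two concrete carrier predicates) -/
def s29_c_inclGen {R σ τ : Type*} [Semiring R] [SetLike σ R] [SubsemiringClass σ R]
    [SetLike τ R] [SubsemiringClass τ R] (S : σ) (T : τ) (h : ∀ x : R, x ∈ S → x ∈ T) :
    S →+* T where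
  toFun x := ⟨x.1, h _ x.2⟩
  map_one' := rfl
  map_mul' _ _ := rfl
  map_zero' := rfl
  map_add' _ _ := rfl

theorem s29_c_inclGen_coe {R σ τ : Type*} [Semiring R] [SetLike σ R] [SubsemiringClass σ R]
    [SetLike τ R] [SubsemiringClass τ R] (S : σ) (T : τ) (h : ∀ x : R, x ∈ S → x ∈ T) (x : S) :
    ((s29_c_inclGen S T h x : T) : R) = (x : R) := rfl

theorem s29_c_inclGen_injective {R σ τ : Type*} [Semiring R] [SetLike σ R]
    [SubsemiringClass σ R] [SetLike τ R] [SubsemiringClass τ R] (S : σ) (T : τ)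
    (h : ∀ x : R, x ∈ S → x ∈ T) : Function.Injective (s29_c_inclGen S T h) := by
  intro a b hab
  apply Subtype.ext
  rw [← s29_c_inclGen_coe S T h a, ← s29_c_inclGen_coe S T h b, hab]

/-- The inclusion `modRing N ⊆ s29_cRing N`. -/
def s29_cIncl (N : ℕ) : modRing N →+* s29_cRing N :=
  s29_c_inclGen (modRing N) (s29_cRing N) (fun _ hx => s29_modRing_le hx)

theorem s29_cIncl_coe (N : ℕ) (g : modRing N) : (s29_cIncl N g : ℍ → ℂ) = (g : ℍ → ℂ) :=
  s29_c_inclGen_coe _ _ _ g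

theorem s29_cIncl_injective (N : ℕ) : Function.Injective (s29_cIncl N) :=
  s29_c_inclGen_injective _ _ _

theorem s29_cIncl_const (N : ℕ) (c : Kbar) :
    s29_cIncl N (algebraMap Kbar (modRing N) c) = algebraMap ℂ (s29_cRing N) (iotaK c) := by
  apply Subtype.ext
  rw [s29_cIncl_coe, Subalgebra.coe_algebraMap, Subalgebra.coe_algebraMap]
  rfl

theorem s29_cExp_incl (N : ℕ) [NeZero N] (g : modRing N) :
    s29_cExp N (s29_cIncl N g) = coeffMap iotaK (expHom N g) := by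
  apply s29_cExp_eq N
  rw [s29_cIncl_coe]
  exact expHom_spec N g

/-! ### The `SL₂(ℤ)`-action -/

theorem s29_actFun_mem_cRing {N : ℕ} (γ : SL(2, ℤ)) {g : ℍ → ℂ} (hg : g ∈ s29_cRing N) :
    actFun γ g ∈ s29_cRing N := by
  unfold s29_cRing at hg ⊢
  induction hg using Algebra.adjoin_induction with
  | mem x hx =>
    obtain ⟨d, hd0, γ', hd, rfl⟩ := hx
    rw [act_actFun_Jconj]
    exact Algebra.subset_adjoin ⟨d, hd0, γ' * γ⁻¹, hd, rfl⟩
  | algebraMap r =>
    have h : actFun γ (algebraMap ℂ (ℍ → ℂ) r) = algebraMap ℂ (ℍ → ℂ) r := rfl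
    rw [h]
    exact Subalgebra.algebraMap_mem _ r
  | add x y hx hy hx' hy' =>
    have h : actFun γ (x + y) = actFun γ x + actFun γ y := rfl
    rw [h]
    exact add_mem hx' hy'
  | mul x y hx hy hx' hy' =>
    have h : actFun γ (x * y) = actFun γ x * actFun γ y := rfl
    rw [h]
    exact mul_mem hx' hy'

instance s29_cRingAction (N : ℕ) : MulSemiringAction SL(2, ℤ) (s29_cRing N) where
  smul γ g := ⟨actFun γ g, s29_actFun_mem_cRing γ g.2⟩
  one_smul _ := Subtype.ext (act_actFun_one _)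
  mul_smul _ _ _ := Subtype.ext (act_actFun_mul _ _ _)
  smul_zero _ := Subtype.ext rfl
  smul_add _ _ _ := Subtype.ext rfl
  smul_one _ := Subtype.ext rfl
  smul_mul _ _ _ := Subtype.ext rfl

theorem s29_cRing_coe_smul {N : ℕ} (γ : SL(2, ℤ)) (g : s29_cRing N) :
    ((γ • g : s29_cRing N) : ℍ → ℂ) = actFun γ (g : ℍ → ℂ) := rfl

theorem s29_cRing_smul_apply {N : ℕ} (γ : SL(2, ℤ)) (g : s29_cRing N) (τ : ℍ) :
    ((γ • g : s29_cRing N) : ℍ → ℂ) τ = (g : ℍ → ℂ) (γ⁻¹ • τ) := rfl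

instance s29_cRing_smulCommClass (N : ℕ) : SMulCommClass SL(2, ℤ) ℂ (s29_cRing N) :=
  ⟨fun _ _ _ => Subtype.ext rfl⟩

theorem s29_cIncl_smul (N : ℕ) (γ : SL(2, ℤ)) (g : modRing N) :
    s29_cIncl N (γ • g) = γ • s29_cIncl N g :=
  Subtype.ext ((s29_cIncl_coe N (γ • g)).trans ((coe_smul_modRing γ g).trans
    ((congrArg (actFun γ) (s29_cIncl_coe N g).symm).trans
      (s29_cRing_coe_smul γ (s29_cIncl N g)).symm)))

/-- The principal congruence subgroup acts trivially. -/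
theorem s29_cRing_smul_of_mem_Gamma (N : ℕ) [NeZero N] (γ : SL(2, ℤ)) (hγ : γ ∈ Gamma N)
    (g : s29_cRing N) : γ • g = g := by
  apply Subtype.ext
  show actFun γ (g : ℍ → ℂ) = (g : ℍ → ℂ)
  have hg := g.2
  generalize (g : ℍ → ℂ) = f at hg
  unfold s29_cRing at hg
  induction hg using Algebra.adjoin_induction with
  | mem x hx =>
    obtain ⟨d, hd0, γ', hd, rfl⟩ := hx
    have h1 := smul_modRing_of_mem_Gamma N γ hγ ⟨Jconj d γ', Jconj_mem_modRing N d hd γ'⟩
    exact congrArg (fun f : modRing N => (f : ℍ → ℂ)) h1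
  | algebraMap r => rfl
  | add x y hx hy hx' hy' =>
    have h : actFun γ (x + y) = actFun γ x + actFun γ y := rfl
    rw [h, hx', hy']
  | mul x y hx hy hx' hy' =>
    have h : actFun γ (x * y) = actFun γ x * actFun γ y := rfl
    rw [h, hx', hy']

/-- `J(dτ)` as an element of `s29_cRing N`. -/
def s29_cJ (N : ℕ) (d : ℕ) [NeZero d] (hd : d ∣ N) : s29_cRing N := s29_cIncl N (Jelt N d hd)

theorem s29_cJ_smul_of_mem_Gamma0 (N : ℕ) [NeZero N] (d : ℕ) [NeZero d] (hd : d ∣ N)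
    (γ : SL(2, ℤ)) (hγ : γ ∈ Gamma0 N) : γ • s29_cJ N d hd = s29_cJ N d hd := by
  rw [s29_cJ, ← s29_cIncl_smul, smul_Jelt_of_mem_Gamma0 N d hd γ hγ]

end Fermat.Agent.S29
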