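/-
BRIDGE block (G1), part 2 (helper13): local facts at a valuation subring `B` of `ℚ̄` over `ℓ`.

* `s29_cheb_isFrobeniusAt` : the congruence form of a Frobenius lift gives the Prelude predicate;
* `s29_cheb_Deg1 F B`      : every integer of `F` is congruent mod `B` to a rational integer
                             (the prime of `F` below `B` has degree one);
* `s29_cheb_deg1_of_frob`  : a Frobenius lift at `B` fixing `F` forces degree one;
* `s29_cheb_absNorm_of_deg1`, `s29_cheb_deg1_of_absNorm` : degree one ⟺ norm `ℓ`;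
* `s29_cheb_unr`           : for almost all `ℓ`, an automorphism acting trivially mod `B` on the
                             integers of `F` fixes `F` (no ramification);
* `s29_cheb_fix_of_deg1`   : hence a decomposition element at a degree-one prime fixes `F`.
-/
import Fermat.Agent.S55.EvLocal

set_option autoImplicit false
set_option linter.unusedSectionVars false
set_option linter.style.haveILetI false

open scoped Pointwise
open NumberField

namespace Fermat.Agent.S29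

noncomputable section

local notation "Qb" => AlgebraicClosure ℚ
local notation "Γ" => (AlgebraicClosure ℚ ≃ₐ[ℚ] AlgebraicClosure ℚ)
local notation "Zb" => integralClosure ℤ (AlgebraicClosure ℚ)

open Fermat.Agent.S54 Fermat.Agent.S13 Fermat.Agent.S05 Fermat.Agent.S14 Fermat.Agent.S55

attribute [local instance] qbar_isAlgebraic qbar_isAlgClosure qbar_isGalois zbar_isInvariant
  zbarTopology zbar_discrete zbar_continuousSMul

/-- The congruence form of "Frobenius lift" gives the Prelude predicate. -/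
theorem s29_cheb_isFrobeniusAt (A : ValuationSubring Qb) (σ : Γ) (ℓ : ℕ) (hσ : σ • A = A)
    (h : ∀ a : Qb, a ∈ A → σ a - a ^ ℓ ∈ A.nonunits) : A.IsFrobeniusAt σ ℓ := by
  refine ⟨hσ, ?_⟩
  intro x
  obtain ⟨a, rfl⟩ := IsLocalRing.residue_surjective x
  rw [← IsLocalRing.ResidueField.residue_smul, ← map_pow, ← sub_eq_zero, ← map_sub,
    IsLocalRing.residue_eq_zero_iff, ← ValuationSubring.coe_mem_nonunits_iff]
  exact h a a.2

theorem s29_cheb_neg_mem (B : ValuationSubring Qb) {x : Qb} (hx : x ∈ B.nonunits) :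
    -x ∈ B.nonunits := by
  rw [B.mem_nonunits_iff] at hx ⊢
  rwa [Valuation.map_neg]

/-- An algebraic integer fixed mod `B` by the `ℓ`-th power map is congruent to a rational
integer. -/
theorem s29_cheb_exists_int (B : ValuationSubring Qb) (ℓ : ℕ) (hℓ : ℓ.Prime)
    (hB : (ℓ : Qb) ∈ B.nonunits) (η : Zb) (h : (η : Qb) ^ ℓ - (η : Qb) ∈ B.nonunits) :
    ∃ k : ℤ, (η : Qb) - (k : Qb) ∈ B.nonunits := by
  classical
  have hQprime := centerIdeal_isPrime B
  haveI : Fact ℓ.Prime := ⟨hℓ⟩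
  haveI := charP_quotient_centerIdeal B ℓ hℓ hB
  have hx : (Ideal.Quotient.mk (centerIdeal B) η) ^ Fintype.card (ZMod ℓ) =
      Ideal.Quotient.mk (centerIdeal B) η := by
    rw [ZMod.card, ← map_pow, Ideal.Quotient.eq, mem_centerIdeal]
    exact h
  obtain ⟨a, ha⟩ := evl_roots_aux (ZMod.castHom (dvd_refl ℓ) (Zb ⧸ centerIdeal B)) _ hx
  refine ⟨(a.val : ℤ), ?_⟩
  have h1 : (ZMod.castHom (dvd_refl ℓ) (Zb ⧸ centerIdeal B)) a =
      Ideal.Quotient.mk (centerIdeal B) ((a.val : ℕ) : Zb) := by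
    rw [map_natCast]
    conv_lhs => rw [← ZMod.natCast_zmod_val a]
    rw [map_natCast]
  rw [h1, Ideal.Quotient.eq, mem_centerIdeal] at ha
  have h2 : (η : Qb) - (((a.val : ℕ) : ℤ) : Qb) = -((((a.val : ℕ) : Zb) - η : Zb) : Qb) := by
    push_cast
    ring
  rw [h2]
  exact s29_cheb_neg_mem B ha

/-- Degree-one predicate: every integer of `F` is congruent mod `B` to a rational integer. -/
def s29_cheb_Deg1 (F : IntermediateField ℚ Qb) (B : ValuationSubring Qb) : Prop :=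
  ∀ x : 𝓞 F, ∃ k : ℤ, ((x : F) : Qb) - (k : Qb) ∈ B.nonunits

/-- A Frobenius lift at `B` which fixes `F` forces the prime of `F` below `B` to have degree
one. -/
theorem s29_cheb_deg1_of_frob (F : IntermediateField ℚ Qb) (B : ValuationSubring Qb) (ℓ : ℕ)
    (hℓ : ℓ.Prime) (hB : (ℓ : Qb) ∈ B.nonunits) (σ : Γ) (hσF : σ ∈ F.fixingSubgroup)
    (hσ : ∀ a : Qb, a ∈ B → σ a - a ^ ℓ ∈ B.nonunits) : s29_cheb_Deg1 F B := by
  intro x
  have hfix : σ ((x : F) : Qb) = ((x : F) : Qb) :=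
    (IntermediateField.mem_fixingSubgroup_iff F σ).1 hσF _ (x : F).2
  have h1 := hσ _ (zbar_mem B (pl_toZb F x))
  rw [pl_toZb_coe, hfix] at h1
  have h2 : ((pl_toZb F x : Zb) : Qb) ^ ℓ - ((pl_toZb F x : Zb) : Qb) ∈ B.nonunits := by
    rw [pl_toZb_coe]
    have := s29_cheb_neg_mem B h1
    rwa [neg_sub] at this
  exact s29_cheb_exists_int B ℓ hℓ hB (pl_toZb F x) h2

/-- Degree one is preserved by automorphisms normalising `F`. -/
theorem s29_cheb_deg1_smul (F : IntermediateField ℚ Qb) (B : ValuationSubring Qb) (u : Γ)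
    (hu : ∀ x ∈ F, u⁻¹ x ∈ F) (h : s29_cheb_Deg1 F B) : s29_cheb_Deg1 F (u • B) := by
  intro x
  have hyF : u⁻¹ ((x : F) : Qb) ∈ F := hu _ (x : F).2
  have hyint : IsIntegral ℤ (⟨u⁻¹ ((x : F) : Qb), hyF⟩ : F) := by
    have h0 : IsIntegral ℤ ((x : F) : Qb) :=
      (RingOfIntegers.isIntegral_coe x).map (F.val.restrictScalars ℤ)
    have h1 : IsIntegral ℤ (u⁻¹ ((x : F) : Qb)) :=
      h0.map ((u⁻¹ : Γ).toAlgHom.restrictScalars ℤ)
    exact (isIntegral_algebraMap_iff (algebraMap F Qb).injective).mp h1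
  obtain ⟨k, hk⟩ := h ⟨⟨_, hyF⟩, hyint⟩
  refine ⟨k, ?_⟩
  rw [pt_mem_nonunits_smul_iff, map_sub, map_intCast]
  exact hk

/-- Degree one is inherited by subfields. -/
theorem s29_cheb_deg1_mono {F F' : IntermediateField ℚ Qb} (hFF' : F ≤ F')
    (B : ValuationSubring Qb) (h : s29_cheb_Deg1 F' B) : s29_cheb_Deg1 F B := by
  intro x
  have hint : IsIntegral ℤ (⟨((x : F) : Qb), hFF' (x : F).2⟩ : F') := by
    have h0 : IsIntegral ℤ ((x : F) : Qb) :=
      (RingOfIntegers.isIntegral_coe x).map (F.val.restrictScalars ℤ)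
    exact (isIntegral_algebraMap_iff (algebraMap F' Qb).injective).mp h0
  exact h ⟨⟨_, hFF' (x : F).2⟩, hint⟩

theorem s29_cheb_charP_below (F : IntermediateField ℚ Qb) [NumberField F]
    (B : ValuationSubring Qb) (ℓ : ℕ) (hℓ : ℓ.Prime) (hB : (ℓ : Qb) ∈ B.nonunits) :
    CharP (𝓞 F ⧸ pl_below F B) ℓ := by
  obtain ⟨c, hc⟩ := CharP.exists (𝓞 F ⧸ pl_below F B)
  have h0 : ((ℓ : ℕ) : 𝓞 F ⧸ pl_below F B) = 0 := by
    have := Ideal.Quotient.eq_zero_iff_mem.mpr (pl_natCast_mem_below F B ℓ hB)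
    simpa using this
  have h1 : c ∣ ℓ := (CharP.cast_eq_zero_iff (𝓞 F ⧸ pl_below F B) c ℓ).mp h0
  have h2 : c ≠ 1 := CharP.char_ne_one (𝓞 F ⧸ pl_below F B) c
  have h3 : c = ℓ := ((Nat.dvd_prime hℓ).mp h1).resolve_left h2
  exact h3 ▸ hc

/-- Degree one means norm `ℓ`. -/
theorem s29_cheb_absNorm_of_deg1 (F : IntermediateField ℚ Qb) [NumberField F]
    (B : ValuationSubring Qb) (ℓ : ℕ) (hℓ : ℓ.Prime) (hB : (ℓ : Qb) ∈ B.nonunits)
    (h : s29_cheb_Deg1 F B) : Ideal.absNorm (pl_below F B) = ℓ := by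
  haveI : Fact ℓ.Prime := ⟨hℓ⟩
  haveI := s29_cheb_charP_below F B ℓ hℓ hB
  set f : ZMod ℓ →+* (𝓞 F ⧸ pl_below F B) := ZMod.castHom (dvd_refl ℓ) _ with hf
  have hinj : Function.Injective f := f.injective
  have hsurj : Function.Surjective f := by
    intro y
    obtain ⟨x, rfl⟩ := Ideal.Quotient.mk_surjective y
    obtain ⟨k, hk⟩ := h x
    refine ⟨(k : ZMod ℓ), ?_⟩
    rw [map_intCast]
    have h1 : ((k : ℤ) : 𝓞 F ⧸ pl_below F B) = Ideal.Quotient.mk (pl_below F B) ((k : ℤ) : 𝓞 F) := by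
      rw [map_intCast]
    rw [h1, eq_comm, Ideal.Quotient.eq, pl_mem_below_iff]
    simpa using hk
  have hcard : Nat.card (ZMod ℓ) = Nat.card (𝓞 F ⧸ pl_below F B) :=
    Nat.card_eq_of_bijective f ⟨hinj, hsurj⟩
  rw [Ideal.absNorm_apply, Submodule.cardQuot_apply, ← hcard, Nat.card_zmod]

/-- Norm `ℓ` means degree one. -/
theorem s29_cheb_deg1_of_absNorm (F : IntermediateField ℚ Qb) [NumberField F]
    (B : ValuationSubring Qb) (ℓ : ℕ) (hℓ : ℓ.Prime) (hB : (ℓ : Qb) ∈ B.nonunits)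
    (h : Ideal.absNorm (pl_below F B) = ℓ) : s29_cheb_Deg1 F B := by
  haveI : Fact ℓ.Prime := ⟨hℓ⟩
  haveI := s29_cheb_charP_below F B ℓ hℓ hB
  rw [Ideal.absNorm_apply, Submodule.cardQuot_apply] at h
  haveI : Finite (𝓞 F ⧸ pl_below F B) := Nat.finite_of_card_ne_zero (by rw [h]; exact hℓ.ne_zero)
  set f : ZMod ℓ →+* (𝓞 F ⧸ pl_below F B) := ZMod.castHom (dvd_refl ℓ) _ with hf
  have hbij : Function.Bijective f :=
    Function.Injective.bijective_of_nat_card_le f.injective (by rw [h, Nat.card_zmod])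
  intro x
  obtain ⟨a, ha⟩ := hbij.2 (Ideal.Quotient.mk (pl_below F B) x)
  refine ⟨(a.val : ℤ), ?_⟩
  have h1 : f a = Ideal.Quotient.mk (pl_below F B) ((a.val : ℕ) : 𝓞 F) := by
    rw [map_natCast]
    conv_lhs => rw [← ZMod.natCast_zmod_val a]
    rw [map_natCast]
  rw [h1, Ideal.Quotient.eq, pl_mem_below_iff] at ha
  have h2 : ((x : F) : Qb) - (((a.val : ℕ) : ℤ) : Qb) =
      -((((((a.val : ℕ) : 𝓞 F) - x : 𝓞 F) : 𝓞 F) : F) : Qb) := by
    push_cast
    ring
  rw [h2]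
  exact s29_cheb_neg_mem B ha

/-- A nonzero algebraic integer divides a nonzero rational integer. -/
theorem s29_cheb_exists_int_multiple (z : Zb) (hz : z ≠ 0) :
    ∃ N : ℤ, N ≠ 0 ∧ ∃ w : Zb, (N : Zb) = z * w := by
  have h1 : (Ideal.span {z}).comap (algebraMap ℤ Zb) ≠ ⊥ :=
    Ideal.comap_ne_bot_of_integral_mem hz (Ideal.subset_span rfl)
      (Algebra.IsIntegral.isIntegral z)
  obtain ⟨N, hN, hN0⟩ := Submodule.exists_mem_ne_zero_of_ne_bot h1
  rw [Ideal.mem_comap, Ideal.mem_span_singleton'] at hN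
  obtain ⟨w, hw⟩ := hN
  refine ⟨N, hN0, w, ?_⟩
  rw [mul_comm, hw]
  simp

/-- **No ramification at almost all primes.**  For a number field `F ⊆ ℚ̄` there is a finite set
`T` of primes such that for `ℓ ∉ T` and `B` over `ℓ`, an automorphism acting trivially mod `B` on
the integers of `F` fixes `F` pointwise. -/
theorem s29_cheb_unr (F : IntermediateField ℚ Qb) [FiniteDimensional ℚ F] :
    ∃ T : Finset ℕ, ∀ ℓ : ℕ, ℓ.Prime → ℓ ∉ T → ∀ B : ValuationSubring Qb,
      (ℓ : Qb) ∈ B.nonunits → ∀ ρ : Γ,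
        (∀ x : 𝓞 F, ρ ((x : F) : Qb) - ((x : F) : Qb) ∈ B.nonunits) → ρ ∈ F.fixingSubgroup := by
  classical
  obtain ⟨θ₀, hθ₀⟩ := Field.exists_primitive_element ℚ F
  have halg : IsAlgebraic ℤ θ₀ := by
    have h1 : IsAlgebraic ℚ θ₀ := Algebra.IsAlgebraic.isAlgebraic θ₀
    exact (IsFractionRing.isAlgebraic_iff ℤ ℚ F).2 h1
  obtain ⟨y, hy0, hyint⟩ := halg.exists_integral_multiple
  set θ : Qb := ((y • θ₀ : F) : Qb) with hθ
  have hθint : IsIntegral ℤ θ := hyint.map (F.val.restrictScalars ℤ)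
  set f := minpoly ℚ θ with hf
  have hf0 : f ≠ 0 := minpoly.ne_zero (Algebra.IsIntegral.isIntegral θ)
  set R : Finset Qb := (f.aroots Qb).toFinset with hR
  have hRmem : ∀ a, a ∈ R ↔ Polynomial.aeval a f = 0 := by
    intro a
    rw [hR, Multiset.mem_toFinset, Polynomial.mem_aroots]
    simp [hf0]
  have hRint : ∀ a ∈ R, IsIntegral ℤ a := by
    intro a ha
    rw [hRmem] at ha
    rw [hf, minpoly.isIntegrallyClosed_eq_field_fractions' ℚ hθint,
      Polynomial.aeval_map_algebraMap] at ha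
    exact ⟨minpoly ℤ θ, minpoly.monic hθint, ha⟩
  set d : Qb := ∏ p ∈ R.offDiag, (p.1 - p.2) with hd
  have hdint : IsIntegral ℤ d := IsIntegral.prod _ (fun p hp => by
    rw [Finset.mem_offDiag] at hp
    exact (hRint _ hp.1).sub (hRint _ hp.2.1))
  have hd0 : d ≠ 0 := by
    rw [hd, Finset.prod_ne_zero_iff]
    intro p hp
    rw [Finset.mem_offDiag] at hp
    exact sub_ne_zero.2 hp.2.2
  obtain ⟨N, hN0, w, hw⟩ := s29_cheb_exists_int_multiple ⟨d, hdint⟩
    (by intro h; exact hd0 (congrArg Subtype.val h))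
  refine ⟨N.natAbs.primeFactors, ?_⟩
  intro ℓ hℓ hℓT B hB ρ hρ
  have hρθ : ρ θ = θ := by
    by_contra hne
    have h1 : (ρ θ, θ) ∈ R.offDiag := by
      rw [Finset.mem_offDiag]
      refine ⟨?_, ?_, hne⟩
      · rw [hRmem]
        have h2 : Polynomial.aeval (ρ θ) f = ρ (Polynomial.aeval θ f) :=
          (Polynomial.aeval_algHom_apply (ρ : Qb →ₐ[ℚ] Qb) θ f)
        rw [h2, hf, minpoly.aeval, map_zero]
      · rw [hRmem]
        exact minpoly.aeval ℚ θ
    have h2 : ρ θ - θ ∈ B.nonunits := hρ ⟨y • θ₀, hyint⟩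
    have h3 : d ∈ B.nonunits := by
      rw [hd, ← Finset.mul_prod_erase _ _ h1, mul_comm]
      refine val_mul_lt_one B (zbar_mem B ⟨_, IsIntegral.prod _ (fun p hp => ?_)⟩) h2
      have hp' := Finset.mem_of_mem_erase hp
      rw [Finset.mem_offDiag] at hp'
      exact (hRint _ hp'.1).sub (hRint _ hp'.2.1)
    have h4 : ((N : ℤ) : Qb) ∈ B.nonunits := by
      have h5 : ((N : ℤ) : Qb) = (w : Qb) * d := by
        have h6 := congrArg (fun z : Zb => (z : Qb)) hw
        simp only [MulMemClass.coe_mul] at h6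
        rw [mul_comm, ← h6]
        simp
      rw [h5]
      exact val_mul_lt_one B (zbar_mem B w) h3
    rw [pl_intCast_mem_nonunits_iff ℓ hℓ B hB] at h4
    apply hℓT
    rw [Nat.mem_primeFactors]
    exact ⟨hℓ, Int.natCast_dvd.1 h4, Int.natAbs_ne_zero.2 hN0⟩
  rw [IntermediateField.mem_fixingSubgroup_iff]
  intro x hx
  have hρθ₀ : ρ ((θ₀ : F) : Qb) = ((θ₀ : F) : Qb) := by
    have h1 : θ = (y : Qb) * ((θ₀ : F) : Qb) := by
      rw [hθ]
      simp [zsmul_eq_mul]
    rw [h1, map_mul, map_intCast] at hρθ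
    exact mul_left_cancel₀ (by exact_mod_cast hy0) hρθ
  have hmem : (⟨x, hx⟩ : F) ∈ IntermediateField.adjoin ℚ {θ₀} := by
    rw [hθ₀]
    trivial
  have key : ∀ z : F, z ∈ IntermediateField.adjoin ℚ {θ₀} → ρ (z : Qb) = (z : Qb) := by
    intro z hz
    induction hz using IntermediateField.adjoin_induction with
    | mem z hz =>
      rw [Set.mem_singleton_iff.1 hz]
      exact hρθ₀
    | algebraMap q =>
      have h1 : ((algebraMap ℚ F q : F) : Qb) = algebraMap ℚ Qb q := rfl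
      rw [h1, AlgEquiv.commutes]
    | add a b _ _ ha hb =>
      push_cast
      rw [map_add, ha, hb]
    | inv a _ ha =>
      push_cast
      rw [map_inv₀, ha]
    | mul a b _ _ ha hb =>
      push_cast
      rw [map_mul, ha, hb]
  exact key ⟨x, hx⟩ hmem

/-- A decomposition element at a degree-one prime of `F` (over a good `ℓ`) fixes `F`. -/
theorem s29_cheb_fix_of_deg1 (F : IntermediateField ℚ Qb) (B : ValuationSubring Qb)
    (h : s29_cheb_Deg1 F B) (ρ : Γ) (hρ : ρ • B = B) (x : 𝓞 F) :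
    ρ ((x : F) : Qb) - ((x : F) : Qb) ∈ B.nonunits := by
  obtain ⟨k, hk⟩ := h x
  have h1 : ρ (((x : F) : Qb) - (k : Qb)) ∈ B.nonunits := by
    have h2 : ρ (((x : F) : Qb) - (k : Qb)) ∈ (ρ • B).nonunits := by
      rw [pt_mem_nonunits_smul_iff]
      have h3 : ρ⁻¹ (ρ (((x : F) : Qb) - (k : Qb))) = ((x : F) : Qb) - (k : Qb) := by
        show (ρ⁻¹ * ρ) (((x : F) : Qb) - (k : Qb)) = _
        rw [inv_mul_cancel]
        rfl
      rw [h3]
      exact hk
    rwa [hρ] at h2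
  have h4 : ρ ((x : F) : Qb) - ((x : F) : Qb) =
      ρ (((x : F) : Qb) - (k : Qb)) - (((x : F) : Qb) - (k : Qb)) := by
    rw [map_sub, map_intCast]
    ring
  rw [h4]
  exact B.nonunits.sub_mem h1 hk

end

end Fermat.Agent.S29
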