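/-
BRIDGE block (G1), part 3 (helper13): the analytic frame of the weak Chebotarev theorem.

* `s29_cheb_HasDens A c` : `∑_{v ∈ A} N(v)^{-s} = c · log (1/(s-1)) + O(1)` as `s → 1⁺`;
* `s29_cheb_dens_diff`, `s29_cheb_dens_nonempty`;
* `s29_cheb_sieve`       : the inclusion–exclusion sieve for "independent" sets;
* `s29_cheb_dens_deg1`   : the primes of degree one (outside finitely many residue
                           characteristics) have density `1`;
* `s29_cheb_dens_of_equiv` : an `m`-to-one norm-preserving correspondence divides densities by `m`.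
-/
import Fermat.Agent.S14.PrimeSums
import Fermat.Agent.S14.PrimeSumsPow
import Fermat.Agent.S14.DensityCore

set_option autoImplicit false

open NumberField IsDedekindDomain
open scoped nonZeroDivisors

namespace Fermat.Agent.S29

open Fermat.Agent.S14

section general

variable {F : Type} [Field F] [NumberField F]

/-- Logarithmic (Dirichlet) density with a bounded error term. -/
def s29_cheb_HasDens (A : Set (HeightOneSpectrum (𝓞 F))) (c : ℝ) : Prop :=
  ∃ C δ : ℝ, 0 < δ ∧ ∀ s : ℝ, 1 < s → s < 1 + δ →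
    |primeSum A s - c * Real.log (1 / (s - 1))| ≤ C

theorem s29_cheb_primeSum_diff (A B : Set (HeightOneSpectrum (𝓞 F))) (hBA : B ⊆ A) (s : ℝ)
    (hs : 1 < s) : primeSum (A \ B) s = primeSum A s - primeSum B s := by
  rw [density_primeSum_eq, density_primeSum_eq, density_primeSum_eq, eq_sub_iff_add_eq,
    ← Summable.tsum_add (density_summable_indicator F _ s hs)
      (density_summable_indicator F _ s hs)]
  congr 1
  ext v
  by_cases hB : v ∈ B
  · have hA := hBA hB
    simp [hB, hA]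
  · by_cases hA : v ∈ A <;> simp [hA, hB]

theorem s29_cheb_dens_diff {A B : Set (HeightOneSpectrum (𝓞 F))} {a b : ℝ}
    (hA : s29_cheb_HasDens A a) (hB : s29_cheb_HasDens B b) (hBA : B ⊆ A) :
    s29_cheb_HasDens (A \ B) (a - b) := by
  obtain ⟨C1, δ1, hδ1, h1⟩ := hA
  obtain ⟨C2, δ2, hδ2, h2⟩ := hB
  refine ⟨C1 + C2, min δ1 δ2, lt_min hδ1 hδ2, fun s hs hs' => ?_⟩
  have e1 := h1 s hs (lt_of_lt_of_le hs' (by linarith [min_le_left δ1 δ2]))
  have e2 := h2 s hs (lt_of_lt_of_le hs' (by linarith [min_le_right δ1 δ2]))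
  rw [s29_cheb_primeSum_diff A B hBA s hs]
  rw [abs_le] at e1 e2 ⊢
  constructor <;> nlinarith [e1.1, e1.2, e2.1, e2.2]

theorem s29_cheb_dens_nonempty {A : Set (HeightOneSpectrum (𝓞 F))} {c : ℝ}
    (hA : s29_cheb_HasDens A c) (hc : 0 < c) : A.Nonempty := by
  by_contra hne
  rw [Set.not_nonempty_iff_eq_empty] at hne
  obtain ⟨C, δ, hδ, h⟩ := hA
  have h0 : ∀ s, primeSum (∅ : Set (HeightOneSpectrum (𝓞 F))) s = 0 := by
    intro s
    unfold primeSum
    exact tsum_empty
  set t := min (δ / 2) (Real.exp (-(C + 1) / c)) with ht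
  have ht0 : 0 < t := lt_min (by linarith) (Real.exp_pos _)
  have e := h (1 + t) (by linarith) (by
    have := min_le_left (δ / 2) (Real.exp (-(C + 1) / c))
    linarith)
  rw [hne, h0, zero_sub, abs_neg] at e
  have hlog : (C + 1) / c ≤ Real.log (1 / (1 + t - 1)) := by
    rw [add_sub_cancel_left, one_div, Real.log_inv]
    have h1 : Real.log t ≤ -(C + 1) / c := by
      calc Real.log t ≤ Real.log (Real.exp (-(C + 1) / c)) :=
            Real.log_le_log ht0 (min_le_right _ _)
        _ = _ := Real.log_exp _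
    have h' : -(C + 1) / c = -((C + 1) / c) := by ring
    linarith
  have h2 : C + 1 ≤ c * Real.log (1 / (1 + t - 1)) := by
    rw [div_le_iff₀ hc] at hlog
    linarith
  have h3 := le_abs_self (c * Real.log (1 / (1 + t - 1)))
  linarith

/-- **The sieve.**  If all finite intersections of the `D r` inside `D₀` have the "independent"
densities `∏ c r`, then the set of elements of `D₀` lying in no `D r` (`r ∈ T`) and in all `D r`
(`r ∈ R`) has density `∏_T (1 - c r) · ∏_R c r`. -/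
theorem s29_cheb_sieve {ι : Type*} [DecidableEq ι] (T₀ : Finset ι)
    (D₀ : Set (HeightOneSpectrum (𝓞 F))) (D : ι → Set (HeightOneSpectrum (𝓞 F))) (c : ι → ℝ)
    (h : ∀ R : Finset ι, R ⊆ T₀ → s29_cheb_HasDens (D₀ ∩ ⋂ r ∈ R, D r) (∏ r ∈ R, c r)) :
    ∀ T R : Finset ι, T ⊆ T₀ → R ⊆ T₀ → Disjoint T R →
      s29_cheb_HasDens {v | v ∈ D₀ ∧ (∀ r ∈ T, v ∉ D r) ∧ (∀ r ∈ R, v ∈ D r)}
        ((∏ r ∈ T, (1 - c r)) * ∏ r ∈ R, c r) := by
  intro T
  induction T using Finset.induction_on with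
  | empty =>
    intro R _ hR _
    have h1 := h R hR
    have hset : {v | v ∈ D₀ ∧ (∀ r ∈ (∅ : Finset ι), v ∉ D r) ∧ (∀ r ∈ R, v ∈ D r)} =
        D₀ ∩ ⋂ r ∈ R, D r := by
      ext v
      simp [Set.mem_iInter]
    rw [hset, Finset.prod_empty, one_mul]
    exact h1
  | insert r₀ T' hr₀ ih =>
    intro R hT hR hdisj
    have hT' : T' ⊆ T₀ := (Finset.subset_insert _ _).trans hT
    have hr₀T₀ : r₀ ∈ T₀ := hT (Finset.mem_insert_self _ _)
    have hr₀R : r₀ ∉ R := Finset.disjoint_left.1 hdisj (Finset.mem_insert_self _ _)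
    have hdisj' : Disjoint T' R := hdisj.mono_left (Finset.subset_insert _ _)
    have h1 := ih R hT' hR hdisj'
    have h2 := ih (insert r₀ R) hT' (Finset.insert_subset hr₀T₀ hR)
      (by rw [Finset.disjoint_insert_right]; exact ⟨hr₀, hdisj'⟩)
    have h3 := s29_cheb_dens_diff h1 h2 (by
      intro v hv
      exact ⟨hv.1, hv.2.1, fun r hr => hv.2.2 r (Finset.mem_insert_of_mem hr)⟩)
    have hset : {v | v ∈ D₀ ∧ (∀ r ∈ insert r₀ T', v ∉ D r) ∧ (∀ r ∈ R, v ∈ D r)} =
        {v | v ∈ D₀ ∧ (∀ r ∈ T', v ∉ D r) ∧ (∀ r ∈ R, v ∈ D r)} \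
          {v | v ∈ D₀ ∧ (∀ r ∈ T', v ∉ D r) ∧ (∀ r ∈ insert r₀ R, v ∈ D r)} := by
      ext v
      simp only [Set.mem_setOf_eq, Set.mem_diff, Finset.mem_insert, forall_eq_or_imp]
      tauto
    have hval : (∏ r ∈ insert r₀ T', (1 - c r)) * ∏ r ∈ R, c r =
        (∏ r ∈ T', (1 - c r)) * ∏ r ∈ R, c r -
          (∏ r ∈ T', (1 - c r)) * ∏ r ∈ insert r₀ R, c r := by
      rw [Finset.prod_insert hr₀, Finset.prod_insert hr₀R]
      ring
    rw [hset, hval]
    exact h3

/-- Any sum over primes is bounded by `log ζ_F(s)`. -/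
theorem s29_cheb_primeSum_le_log (A : Set (HeightOneSpectrum (𝓞 F))) (s : ℝ) (hs : 1 < s) :
    primeSum A s ≤ Real.log (idealZeta F s) := by
  classical
  unfold primeSum
  refine Real.tsum_le_of_sum_le (fun v => Real.rpow_nonneg (Nat.cast_nonneg _) _) (fun T => ?_)
  have h1 := psp_sum_le_log F s hs (T.map (Function.Embedding.subtype _))
  rwa [Finset.sum_map] at h1

variable (F)

/-- The primes of degree one, outside finitely many residue characteristics, have density `1`. -/
theorem s29_cheb_dens_deg1 (S : Finset ℕ) :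
    s29_cheb_HasDens {w : HeightOneSpectrum (𝓞 F) | (Ideal.absNorm w.asIdeal).Prime ∧
      Ideal.absNorm w.asIdeal ∉ S} 1 := by
  classical
  obtain ⟨C1, δ1, hδ1, hge⟩ := primeSum_ge F
  obtain ⟨c, C2, δ2, hc, hδ2, hb⟩ := idealZeta_bounds F
  set P : Set (HeightOneSpectrum (𝓞 F)) := {w | (Ideal.absNorm w.asIdeal).Prime ∧
      Ideal.absNorm w.asIdeal ∉ S} with hP
  set A : Set (HeightOneSpectrum (𝓞 F)) := {w | (Ideal.absNorm w.asIdeal).Prime} with hA
  set V : Set (HeightOneSpectrum (𝓞 F)) := {w | (Ideal.absNorm w.asIdeal).Prime ∧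
      Ideal.absNorm w.asIdeal ∈ S} with hV
  have hVfin : V.Finite := by
    have hsub : V ⊆ ⋃ q ∈ (S.filter (fun q => q ≠ 0) : Finset ℕ),
        {v : HeightOneSpectrum (𝓞 F) | (q : 𝓞 F) ∈ v.asIdeal} := by
      intro w hw
      simp only [Set.mem_iUnion, Set.mem_setOf_eq, exists_prop]
      refine ⟨Ideal.absNorm w.asIdeal, ?_, Ideal.absNorm_mem _⟩
      rw [Finset.mem_filter]
      exact ⟨hw.2, hw.1.ne_zero⟩
    refine Set.Finite.subset ?_ hsub
    refine Set.Finite.biUnion (Finset.finite_toSet _) (fun q hq => ?_)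
    have hq' : q ≠ 0 := (Finset.mem_filter.1 hq).2
    exact density_finite_primes_over F q hq'
  have hPeq : P = A \ V := by
    ext w
    simp only [hP, hA, hV, Set.mem_setOf_eq, Set.mem_diff]
    tauto
  have hVA : V ⊆ A := fun w hw => hw.1
  refine ⟨max (C1 + hVfin.toFinset.card) (Real.log (max C2 1)), min δ1 δ2, lt_min hδ1 hδ2,
    fun s hs hs' => ?_⟩
  have hs1 : s < 1 + δ1 := lt_of_lt_of_le hs' (by linarith [min_le_left δ1 δ2])
  have hs2 : s < 1 + δ2 := lt_of_lt_of_le hs' (by linarith [min_le_right δ1 δ2])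
  have e1 := hge s hs hs1
  obtain ⟨hb1, hb2⟩ := hb s hs hs2
  have hs0 : 0 < s - 1 := by linarith
  have hZpos : 0 < idealZeta F s := lt_of_lt_of_le (div_pos hc hs0) hb1
  have hmax : 0 < max C2 1 := lt_of_lt_of_le one_pos (le_max_right _ _)
  have hlog : Real.log (idealZeta F s) ≤ Real.log (1 / (s - 1)) + Real.log (max C2 1) := by
    rw [← Real.log_mul (one_div_pos.mpr hs0).ne' hmax.ne']
    apply Real.log_le_log hZpos
    calc idealZeta F s ≤ C2 / (s - 1) := hb2
      _ ≤ max C2 1 / (s - 1) := div_le_div_of_nonneg_right (le_max_left _ _) hs0.le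
      _ = 1 / (s - 1) * max C2 1 := by ring
  have hup := s29_cheb_primeSum_le_log P s hs
  have hVle := density_primeSum_finite_le F V hVfin s (by linarith)
  have hdiff := s29_cheb_primeSum_diff A V hVA s hs
  rw [← hPeq] at hdiff
  rw [one_mul, abs_le]
  constructor
  · have := le_max_left (C1 + (hVfin.toFinset.card : ℝ)) (Real.log (max C2 1))
    linarith
  · have := le_max_right (C1 + (hVfin.toFinset.card : ℝ)) (Real.log (max C2 1))
    linarith

end general

/-- An `m`-to-one norm-preserving correspondence multiplies prime sums by `m`. -/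
theorem s29_cheb_primeSum_of_equiv {F F' : Type} [Field F] [NumberField F] [Field F']
    [NumberField F'] (A : Set (HeightOneSpectrum (𝓞 F))) (A' : Set (HeightOneSpectrum (𝓞 F')))
    (m : ℕ) (e : A × Fin m ≃ A')
    (he : ∀ x, Ideal.absNorm (e x).1.asIdeal = Ideal.absNorm x.1.1.asIdeal) (s : ℝ)
    (hs : 1 < s) : primeSum A' s = m * primeSum A s := by
  unfold primeSum
  rw [← e.tsum_eq]
  have h1 : ∀ x : A × Fin m, (Ideal.absNorm (e x).1.asIdeal : ℝ) ^ (-s) =
      (Ideal.absNorm x.1.1.asIdeal : ℝ) ^ (-s) := fun x => by rw [he]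
  rw [tsum_congr h1]
  have hsum : Summable (fun x : A × Fin m => (Ideal.absNorm x.1.1.asIdeal : ℝ) ^ (-s)) := by
    have h2 := (e.summable_iff).2 (summable_primeSum F' A' s hs)
    exact h2.congr (fun x => h1 x)
  rw [hsum.tsum_prod]
  simp only [tsum_fintype, Finset.sum_const, Finset.card_univ, Fintype.card_fin, nsmul_eq_mul]
  rw [tsum_mul_left]

theorem s29_cheb_dens_of_equiv {F F' : Type} [Field F] [NumberField F] [Field F']
    [NumberField F'] (A : Set (HeightOneSpectrum (𝓞 F))) (A' : Set (HeightOneSpectrum (𝓞 F')))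
    (m : ℕ) (hm : 0 < m) (e : A × Fin m ≃ A')
    (he : ∀ x, Ideal.absNorm (e x).1.asIdeal = Ideal.absNorm x.1.1.asIdeal)
    (hA' : s29_cheb_HasDens A' 1) : s29_cheb_HasDens A (1 / (m : ℝ)) := by
  obtain ⟨C, δ, hδ, h⟩ := hA'
  have hm0 : (0 : ℝ) < m := by exact_mod_cast hm
  have hm1 : (1 : ℝ) ≤ m := by exact_mod_cast hm
  refine ⟨|C|, δ, hδ, fun s hs hs' => ?_⟩
  have e1 := h s hs hs'
  rw [s29_cheb_primeSum_of_equiv A A' m e he s hs, one_mul] at e1
  have h2 : primeSum A s - 1 / (m : ℝ) * Real.log (1 / (s - 1)) =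
      (1 / (m : ℝ)) * ((m : ℝ) * primeSum A s - Real.log (1 / (s - 1))) := by
    field_simp
  rw [h2, abs_mul]
  have h3 : |1 / (m : ℝ)| ≤ 1 := by
    rw [abs_of_pos (by positivity)]
    rw [div_le_one hm0]
    exact hm1
  calc |1 / (m : ℝ)| * |(m : ℝ) * primeSum A s - Real.log (1 / (s - 1))|
      ≤ 1 * |C| := mul_le_mul h3 (e1.trans (le_abs_self C)) (abs_nonneg _) zero_le_one
    _ = |C| := one_mul _

end Fermat.Agent.S29
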