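/-
BRIDGE block (G1), part 4 (helper13): counting primes.

With `E = s29_cheb_E K g 1` and `E_m = s29_cheb_E K g m` (`m ∣ ord (g|_K)`), the set
`s29_cheb_D K g Sbad m` of degree-one primes `v` of `E` (residue characteristic outside `Sbad`)
such that the primes of `E_m` above `v` have degree one is in an `m`-to-one norm-preserving
correspondence with the degree-one primes of `E_m`: `s29_cheb_equiv`.  Hence it has density
`1 / m`: `s29_cheb_dens_D`.
-/
import Fermat.Agent.S29.ChebGroup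
import Fermat.Agent.S29.ChebLocal
import Fermat.Agent.S29.ChebSieve

set_option autoImplicit false
set_option linter.unusedSectionVars false
set_option linter.style.haveILetI false

open scoped Pointwise
open NumberField IsDedekindDomain

namespace Fermat.Agent.S29

noncomputable section

local notation "Qb" => AlgebraicClosure ℚ
local notation "Γ" => (AlgebraicClosure ℚ ≃ₐ[ℚ] AlgebraicClosure ℚ)
local notation "Zb" => integralClosure ℤ (AlgebraicClosure ℚ)

open Fermat.Agent.S54 Fermat.Agent.S13 Fermat.Agent.S05 Fermat.Agent.S14 Fermat.Agent.S55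

attribute [local instance] qbar_isAlgebraic qbar_isAlgClosure qbar_isGalois zbar_isInvariant
  zbarTopology zbar_discrete zbar_continuousSMul

/-- `B` lies over the norm of a prime below it (when that norm is the residue characteristic). -/
theorem s29_cheb_over (F : IntermediateField ℚ Qb) [NumberField F]
    (v : HeightOneSpectrum (𝓞 F)) (B : ValuationSubring Qb) (hB : pl_below F B = v.asIdeal) :
    ((Ideal.absNorm v.asIdeal : ℕ) : Qb) ∈ B.nonunits := by
  have h1 : ((Ideal.absNorm v.asIdeal : ℕ) : 𝓞 F) ∈ pl_below F B := by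
    rw [hB]
    exact Ideal.absNorm_mem _
  rw [pl_mem_below_iff] at h1
  simpa using h1

theorem s29_cheb_natCast_smul (B : ValuationSubring Qb) (u : Γ) (ℓ : ℕ)
    (hB : (ℓ : Qb) ∈ B.nonunits) : (ℓ : Qb) ∈ (u • B).nonunits := by
  rw [pt_mem_nonunits_smul_iff, map_natCast]
  exact hB

/-- The prime below `B` in a subfield is determined by the prime below `B` in a larger field. -/
theorem s29_cheb_below_eq_of_le {F F' : IntermediateField ℚ Qb} (hFF' : F ≤ F')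
    (B B' : ValuationSubring Qb) (h : pl_below F' B = pl_below F' B') :
    pl_below F B = pl_below F B' := by
  ext x
  rw [pl_mem_below_iff, pl_mem_below_iff]
  have hint : IsIntegral ℤ (⟨((x : F) : Qb), hFF' (x : F).2⟩ : F') := by
    have h0 : IsIntegral ℤ ((x : F) : Qb) :=
      (RingOfIntegers.isIntegral_coe x).map (F.val.restrictScalars ℤ)
    exact (isIntegral_algebraMap_iff (algebraMap F' Qb).injective).mp h0
  have h1 : (⟨⟨_, hFF' (x : F).2⟩, hint⟩ : 𝓞 F') ∈ pl_below F' B ↔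
      (⟨⟨_, hFF' (x : F).2⟩, hint⟩ : 𝓞 F') ∈ pl_below F' B' := by rw [h]
  exact h1

/-- The degree-one primes with residue characteristic outside `Sbad`. -/
def s29_cheb_P (F : IntermediateField ℚ Qb) [NumberField F] (Sbad : Finset ℕ) :
    Set (HeightOneSpectrum (𝓞 F)) :=
  {w | (Ideal.absNorm w.asIdeal).Prime ∧ Ideal.absNorm w.asIdeal ∉ Sbad}

/-- A chosen valuation subring of `ℚ̄` above a prime of `F`. -/
def s29_cheb_Bv (F : IntermediateField ℚ Qb) [NumberField F] (v : HeightOneSpectrum (𝓞 F)) :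
    ValuationSubring Qb :=
  haveI := v.isMaximal
  Classical.choose (pl_exists_valuationSubring F v.asIdeal)

theorem s29_cheb_Bv_spec (F : IntermediateField ℚ Qb) [NumberField F]
    (v : HeightOneSpectrum (𝓞 F)) : pl_below F (s29_cheb_Bv F v) = v.asIdeal :=
  haveI := v.isMaximal
  Classical.choose_spec (pl_exists_valuationSubring F v.asIdeal)

variable (K : IntermediateField ℚ Qb) [FiniteDimensional ℚ K] [Normal ℚ K] (g : Γ)

/-- The degree-one primes `v` of `E = E_1` (residue characteristic outside `Sbad`) over which the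
primes of `E_m` have degree one. -/
def s29_cheb_D (Sbad : Finset ℕ) (m : ℕ) : Set (HeightOneSpectrum (𝓞 (s29_cheb_E K g 1))) :=
  {v | (Ideal.absNorm v.asIdeal).Prime ∧ Ideal.absNorm v.asIdeal ∉ Sbad ∧
    ∀ B : ValuationSubring Qb, pl_below (s29_cheb_E K g 1) B = v.asIdeal →
      s29_cheb_Deg1 (s29_cheb_E K g m) B}

/-- Degree one in `E_m` only depends on the prime of `E` below. -/
theorem s29_cheb_deg1_conj (m : ℕ) (B B' : ValuationSubring Qb)
    (h : pl_below (s29_cheb_E K g 1) B' = pl_below (s29_cheb_E K g 1) B)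
    (hB : s29_cheb_Deg1 (s29_cheb_E K g m) B) : s29_cheb_Deg1 (s29_cheb_E K g m) B' := by
  obtain ⟨u, hu, huB⟩ := pl_exists_fixing_of_below_eq (s29_cheb_E K g 1) B' B h
  rw [s29_cheb_fixing_E] at hu
  rw [← huB]
  exact s29_cheb_deg1_smul _ B u
    (fun x hx => s29_cheb_E_stable K g m u⁻¹ (inv_mem hu) x hx) hB

theorem s29_cheb_pow_mem_U_one (j : ℕ) : g ^ j ∈ s29_cheb_U K g 1 :=
  pow_mem (s29_cheb_g_mem_U_one K g) j

variable (Sbad : Finset ℕ) (m : ℕ)

theorem s29_cheb_phi_aux (x : s29_cheb_D K g Sbad m × Fin m) :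
    ((Ideal.absNorm x.1.1.asIdeal : ℕ) : Qb) ∈
        ((g ^ (x.2 : ℕ)) • s29_cheb_Bv (s29_cheb_E K g 1) x.1.1).nonunits ∧
      s29_cheb_Deg1 (s29_cheb_E K g m)
        ((g ^ (x.2 : ℕ)) • s29_cheb_Bv (s29_cheb_E K g 1) x.1.1) := by
  obtain ⟨h1, h2, h3⟩ := x.1.2
  have hspec := s29_cheb_Bv_spec (s29_cheb_E K g 1) x.1.1
  refine ⟨s29_cheb_natCast_smul _ _ _ (s29_cheb_over _ _ _ hspec), ?_⟩
  refine s29_cheb_deg1_smul _ _ _ (fun y hy => ?_) (h3 _ hspec)
  exact s29_cheb_E_stable K g m _ (inv_mem (s29_cheb_pow_mem_U_one K g _)) y hy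

/-- The correspondence `(v, j) ↦` the prime of `E_m` below `g ^ j • B_v`. -/
def s29_cheb_phi (x : s29_cheb_D K g Sbad m × Fin m) :
    s29_cheb_P (s29_cheb_E K g m) Sbad :=
  ⟨⟨pl_below (s29_cheb_E K g m) ((g ^ (x.2 : ℕ)) • s29_cheb_Bv (s29_cheb_E K g 1) x.1.1),
      inferInstance,
      pl_below_ne_bot _ _ (Ideal.absNorm x.1.1.asIdeal) x.1.2.1 (s29_cheb_phi_aux K g Sbad m x).1⟩,
    by
      show (Ideal.absNorm (pl_below (s29_cheb_E K g m)
          ((g ^ (x.2 : ℕ)) • s29_cheb_Bv (s29_cheb_E K g 1) x.1.1))).Prime ∧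
        Ideal.absNorm (pl_below (s29_cheb_E K g m)
          ((g ^ (x.2 : ℕ)) • s29_cheb_Bv (s29_cheb_E K g 1) x.1.1)) ∉ Sbad
      rw [s29_cheb_absNorm_of_deg1 _ _ _ x.1.2.1 (s29_cheb_phi_aux K g Sbad m x).1
        (s29_cheb_phi_aux K g Sbad m x).2]
      exact ⟨x.1.2.1, x.1.2.2.1⟩⟩

theorem s29_cheb_phi_asIdeal (x : s29_cheb_D K g Sbad m × Fin m) :
    (s29_cheb_phi K g Sbad m x).1.asIdeal =
      pl_below (s29_cheb_E K g m) ((g ^ (x.2 : ℕ)) • s29_cheb_Bv (s29_cheb_E K g 1) x.1.1) :=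
  rfl

theorem s29_cheb_phi_norm (x : s29_cheb_D K g Sbad m × Fin m) :
    Ideal.absNorm (s29_cheb_phi K g Sbad m x).1.asIdeal = Ideal.absNorm x.1.1.asIdeal := by
  rw [s29_cheb_phi_asIdeal]
  exact s29_cheb_absNorm_of_deg1 _ _ _ x.1.2.1 (s29_cheb_phi_aux K g Sbad m x).1
    (s29_cheb_phi_aux K g Sbad m x).2

/-- The prime of `E` below `g ^ j • B_v` is `v`. -/
theorem s29_cheb_below_pow (v : HeightOneSpectrum (𝓞 (s29_cheb_E K g 1))) (j : ℕ) :
    pl_below (s29_cheb_E K g 1) ((g ^ j) • s29_cheb_Bv (s29_cheb_E K g 1) v) = v.asIdeal := by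
  rw [pl_below_smul_of_mem_fixingSubgroup _ _ _
    (by rw [s29_cheb_fixing_E]; exact s29_cheb_pow_mem_U_one K g j)]
  exact s29_cheb_Bv_spec _ v

theorem s29_cheb_phi_injective (hm : m ∣ orderOf (s29_cheb_res K g))
    (hbad : ∀ ℓ : ℕ, ℓ.Prime → ℓ ∉ Sbad → ∀ B : ValuationSubring Qb,
      (ℓ : Qb) ∈ B.nonunits → ∀ ρ : Γ,
        (∀ x : 𝓞 (s29_cheb_E K g m), ρ ((x : s29_cheb_E K g m) : Qb) -
          ((x : s29_cheb_E K g m) : Qb) ∈ B.nonunits) → ρ ∈ (s29_cheb_E K g m).fixingSubgroup) :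
    Function.Injective (s29_cheb_phi K g Sbad m) := by
  rintro ⟨⟨v, hv⟩, i⟩ ⟨⟨v', hv'⟩, j⟩ hxy
  have hid : pl_below (s29_cheb_E K g m) ((g ^ (i : ℕ)) • s29_cheb_Bv (s29_cheb_E K g 1) v) =
      pl_below (s29_cheb_E K g m) ((g ^ (j : ℕ)) • s29_cheb_Bv (s29_cheb_E K g 1) v') := by
    have := congrArg (fun w : s29_cheb_P (s29_cheb_E K g m) Sbad => w.1.asIdeal) hxy
    exact this
  have hvv' : v = v' := by
    have h1 := s29_cheb_below_eq_of_le (s29_cheb_E_mono K g (one_dvd m)) _ _ hid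
    rw [s29_cheb_below_pow, s29_cheb_below_pow] at h1
    exact HeightOneSpectrum.ext h1
  subst hvv'
  obtain ⟨h1, h2, h3⟩ := hv
  have hspec := s29_cheb_Bv_spec (s29_cheb_E K g 1) v
  set B := s29_cheb_Bv (s29_cheb_E K g 1) v with hBdef
  have hover := s29_cheb_over _ _ _ hspec
  obtain ⟨u, hu, huB⟩ := pl_exists_fixing_of_below_eq (s29_cheb_E K g m) _ _ hid
  rw [s29_cheb_fixing_E] at hu
  have hρB : ((g ^ (i : ℕ))⁻¹ * u * g ^ (j : ℕ)) • B = B := by
    rw [mul_smul, mul_smul, huB, inv_smul_smul]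
  have hρ := hbad _ h1 h2 B hover _
    (s29_cheb_fix_of_deg1 (s29_cheb_E K g m) B (h3 B hspec) _ hρB)
  rw [s29_cheb_fixing_E] at hρ
  have hdvd := s29_cheb_conj_dvd K g m hm u hu i j hρ
  have hi := i.2
  have hj := j.2
  have h0 : (j : ℤ) - (i : ℤ) = 0 := by
    apply Int.eq_zero_of_abs_lt_dvd hdvd
    rw [abs_lt]
    constructor <;> omega
  have hij : i = j := by
    apply Fin.ext
    omega
  subst hij
  rfl

theorem s29_cheb_phi_surjective (hm0 : 0 < m) :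
    Function.Surjective (s29_cheb_phi K g Sbad m) := by
  rintro ⟨w, hw1, hw2⟩
  set ℓ := Ideal.absNorm w.asIdeal with hℓ
  have hspec' := s29_cheb_Bv_spec (s29_cheb_E K g m) w
  set B' := s29_cheb_Bv (s29_cheb_E K g m) w with hB'def
  have hover' : (ℓ : Qb) ∈ B'.nonunits := s29_cheb_over _ _ _ hspec'
  have hdeg' : s29_cheb_Deg1 (s29_cheb_E K g m) B' :=
    s29_cheb_deg1_of_absNorm _ B' ℓ hw1 hover' (by rw [hspec'])
  have hdeg1 : s29_cheb_Deg1 (s29_cheb_E K g 1) B' :=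
    s29_cheb_deg1_mono (s29_cheb_E_mono K g (one_dvd m)) B' hdeg'
  have hnorm1 : Ideal.absNorm (pl_below (s29_cheb_E K g 1) B') = ℓ :=
    s29_cheb_absNorm_of_deg1 _ B' ℓ hw1 hover' hdeg1
  set v : HeightOneSpectrum (𝓞 (s29_cheb_E K g 1)) :=
    ⟨pl_below (s29_cheb_E K g 1) B', inferInstance, pl_below_ne_bot _ _ ℓ hw1 hover'⟩ with hvdef
  have hvD : v ∈ s29_cheb_D K g Sbad m := by
    refine ⟨?_, ?_, ?_⟩
    · show (Ideal.absNorm (pl_below (s29_cheb_E K g 1) B')).Prime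
      rw [hnorm1]
      exact hw1
    · show Ideal.absNorm (pl_below (s29_cheb_E K g 1) B') ∉ Sbad
      rw [hnorm1]
      exact hw2
    · intro B hB
      exact s29_cheb_deg1_conj K g m B' B hB hdeg'
  have hspec := s29_cheb_Bv_spec (s29_cheb_E K g 1) v
  obtain ⟨u, hu, huB⟩ := pl_exists_fixing_of_below_eq (s29_cheb_E K g 1) B'
    (s29_cheb_Bv (s29_cheb_E K g 1) v) hspec.symm
  rw [s29_cheb_fixing_E] at hu
  obtain ⟨j, hj, h, hh, rfl⟩ := s29_cheb_coset K g m hm0 u hu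
  refine ⟨⟨⟨v, hvD⟩, ⟨j, hj⟩⟩, ?_⟩
  apply Subtype.ext
  apply HeightOneSpectrum.ext
  rw [s29_cheb_phi_asIdeal]
  show pl_below (s29_cheb_E K g m) ((g ^ j) • s29_cheb_Bv (s29_cheb_E K g 1) v) = w.asIdeal
  rw [← hspec', ← huB, mul_smul,
    pl_below_smul_of_mem_fixingSubgroup _ _ h (by rw [s29_cheb_fixing_E]; exact hh)]

/-- The `m`-to-one correspondence. -/
def s29_cheb_equiv (hm0 : 0 < m) (hm : m ∣ orderOf (s29_cheb_res K g))
    (hbad : ∀ ℓ : ℕ, ℓ.Prime → ℓ ∉ Sbad → ∀ B : ValuationSubring Qb,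
      (ℓ : Qb) ∈ B.nonunits → ∀ ρ : Γ,
        (∀ x : 𝓞 (s29_cheb_E K g m), ρ ((x : s29_cheb_E K g m) : Qb) -
          ((x : s29_cheb_E K g m) : Qb) ∈ B.nonunits) → ρ ∈ (s29_cheb_E K g m).fixingSubgroup) :
    s29_cheb_D K g Sbad m × Fin m ≃ s29_cheb_P (s29_cheb_E K g m) Sbad :=
  Equiv.ofBijective (s29_cheb_phi K g Sbad m)
    ⟨s29_cheb_phi_injective K g Sbad m hm hbad, s29_cheb_phi_surjective K g Sbad m hm0⟩

/-- The set `D_m` has density `1 / m`. -/
theorem s29_cheb_dens_D (hm0 : 0 < m) (hm : m ∣ orderOf (s29_cheb_res K g))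
    (hbad : ∀ ℓ : ℕ, ℓ.Prime → ℓ ∉ Sbad → ∀ B : ValuationSubring Qb,
      (ℓ : Qb) ∈ B.nonunits → ∀ ρ : Γ,
        (∀ x : 𝓞 (s29_cheb_E K g m), ρ ((x : s29_cheb_E K g m) : Qb) -
          ((x : s29_cheb_E K g m) : Qb) ∈ B.nonunits) → ρ ∈ (s29_cheb_E K g m).fixingSubgroup) :
    s29_cheb_HasDens (s29_cheb_D K g Sbad m) (1 / (m : ℝ)) :=
  s29_cheb_dens_of_equiv (s29_cheb_D K g Sbad m) (s29_cheb_P (s29_cheb_E K g m) Sbad) m hm0
    (s29_cheb_equiv K g Sbad m hm0 hm hbad)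
    (fun x => s29_cheb_phi_norm K g Sbad m x)
    (s29_cheb_dens_deg1 (s29_cheb_E K g m) Sbad)

end

end Fermat.Agent.S29
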