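/-
BRIDGE block (G1), part 1 (helper13): the group-theoretic frame of the weak Chebotarev theorem.

`K ⊆ ℚ̄` finite normal over `ℚ`, `g ∈ Γ = Gal(ℚ̄/ℚ)`, `γ = g|_K`.
`s29_cheb_U K g m` is the group of all `σ ∈ Γ` with `σ|_K ∈ ⟨γ ^ m⟩` and `s29_cheb_E K g m` is its
fixed field (a number field inside `K`).
-/
import Fermat.Agent.S55.EvLocal

set_option autoImplicit false
set_option linter.unusedSectionVars false

open scoped Pointwise
open NumberField

namespace Fermat.Agent.S29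

noncomputable section

local notation "Qb" => AlgebraicClosure ℚ
local notation "Γ" => (AlgebraicClosure ℚ ≃ₐ[ℚ] AlgebraicClosure ℚ)
local notation "Zb" => integralClosure ℤ (AlgebraicClosure ℚ)

open Fermat.Agent.S54 Fermat.Agent.S13 Fermat.Agent.S05 Fermat.Agent.S14 Fermat.Agent.S55

attribute [local instance] qbar_isAlgebraic qbar_isAlgClosure qbar_isGalois zbar_isInvariant
  zbarTopology zbar_discrete zbar_continuousSMul

variable (K : IntermediateField ℚ Qb) [FiniteDimensional ℚ K] [Normal ℚ K] (g : Γ)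

/-- Restriction to `K`. -/
def s29_cheb_res : Γ →* (K ≃ₐ[ℚ] K) := AlgEquiv.restrictNormalHom K

theorem s29_cheb_res_apply (σ : Γ) (x : K) : ((s29_cheb_res K σ x : K) : Qb) = σ (x : Qb) :=
  AlgEquiv.restrictNormal_commutes σ K x

theorem s29_cheb_res_eq_iff (σ τ : Γ) :
    s29_cheb_res K σ = s29_cheb_res K τ ↔ ∀ x ∈ K, σ x = τ x := by
  constructor
  · intro h x hx
    have h1 := s29_cheb_res_apply K σ ⟨x, hx⟩
    have h2 := s29_cheb_res_apply K τ ⟨x, hx⟩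
    rw [h] at h1
    exact h1.symm.trans h2
  · intro h
    ext x
    rw [s29_cheb_res_apply, s29_cheb_res_apply]
    exact h _ x.2

/-- The group of all `σ` whose restriction to `K` is a power of `(g|_K) ^ m`. -/
def s29_cheb_U (m : ℕ) : Subgroup Γ :=
  (Subgroup.zpowers (s29_cheb_res K g ^ m)).comap (s29_cheb_res K)

theorem s29_cheb_mem_U (m : ℕ) (σ : Γ) :
    σ ∈ s29_cheb_U K g m ↔ s29_cheb_res K σ ∈ Subgroup.zpowers (s29_cheb_res K g ^ m) :=
  Iff.rfl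

theorem s29_cheb_fix_le_U (m : ℕ) : K.fixingSubgroup ≤ s29_cheb_U K g m := by
  intro σ hσ
  rw [s29_cheb_mem_U]
  have h1 : s29_cheb_res K σ = 1 := by
    ext x
    rw [s29_cheb_res_apply]
    exact (IntermediateField.mem_fixingSubgroup_iff K σ).1 hσ _ x.2
  rw [h1]
  exact one_mem _

theorem s29_cheb_U_isClosed (m : ℕ) : IsClosed (s29_cheb_U K g m : Set Γ) := by
  have h1 : IsOpen (K.fixingSubgroup : Set Γ) := K.fixingSubgroup_isOpen
  have h2 : IsOpen (s29_cheb_U K g m : Set Γ) :=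
    Subgroup.isOpen_mono (s29_cheb_fix_le_U K g m) h1
  exact Subgroup.isClosed_of_isOpen _ h2

/-- The fixed field of `s29_cheb_U K g m`. -/
def s29_cheb_E (m : ℕ) : IntermediateField ℚ Qb :=
  IntermediateField.fixedField (s29_cheb_U K g m)

theorem s29_cheb_fixing_E (m : ℕ) : (s29_cheb_E K g m).fixingSubgroup = s29_cheb_U K g m :=
  InfiniteGalois.fixingSubgroup_fixedField ⟨s29_cheb_U K g m, s29_cheb_U_isClosed K g m⟩

theorem s29_cheb_E_le (m : ℕ) : s29_cheb_E K g m ≤ K := by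
  have h1 : IntermediateField.fixedField K.fixingSubgroup = K :=
    InfiniteGalois.fixedField_fixingSubgroup K
  intro x hx
  have h2 : x ∈ IntermediateField.fixedField K.fixingSubgroup := fun σ =>
    hx ⟨σ.1, s29_cheb_fix_le_U K g m σ.2⟩
  rwa [h1] at h2

instance s29_cheb_E_finite (m : ℕ) : FiniteDimensional ℚ (s29_cheb_E K g m) :=
  FiniteDimensional.of_injective (IntermediateField.inclusion (s29_cheb_E_le K g m)).toLinearMap
    (IntermediateField.inclusion (s29_cheb_E_le K g m)).injective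

instance s29_cheb_E_numberField (m : ℕ) : NumberField (s29_cheb_E K g m) where
  to_charZero := inferInstance
  to_finiteDimensional := s29_cheb_E_finite K g m

theorem s29_cheb_mem_E (m : ℕ) (x : Qb) :
    x ∈ s29_cheb_E K g m ↔ ∀ σ ∈ s29_cheb_U K g m, σ x = x := by
  constructor
  · intro hx σ hσ
    exact hx ⟨σ, hσ⟩
  · intro h σ
    exact h σ.1 σ.2

/-- Elements of `U m` are restrictions of powers of `γ`. -/
theorem s29_cheb_U_le_one (m : ℕ) : s29_cheb_U K g m ≤ s29_cheb_U K g 1 := by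
  intro σ hσ
  rw [s29_cheb_mem_U] at hσ ⊢
  obtain ⟨k, hk⟩ := Subgroup.mem_zpowers_iff.1 hσ
  rw [pow_one]
  rw [← hk, ← zpow_natCast, ← zpow_mul]
  exact Subgroup.zpow_mem_zpowers _ _

theorem s29_cheb_U_mono {m m' : ℕ} (h : m ∣ m') : s29_cheb_U K g m' ≤ s29_cheb_U K g m := by
  intro σ hσ
  rw [s29_cheb_mem_U] at hσ ⊢
  obtain ⟨k, hk⟩ := Subgroup.mem_zpowers_iff.1 hσ
  obtain ⟨c, rfl⟩ := h
  rw [← hk, pow_mul, ← zpow_natCast (s29_cheb_res K g ^ m) c, ← zpow_mul]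
  exact Subgroup.zpow_mem_zpowers _ _

theorem s29_cheb_E_mono {m m' : ℕ} (h : m ∣ m') : s29_cheb_E K g m ≤ s29_cheb_E K g m' := by
  intro x hx
  rw [s29_cheb_mem_E] at hx ⊢
  exact fun σ hσ => hx σ (s29_cheb_U_mono K g h hσ)

theorem s29_cheb_g_mem_U_one : g ∈ s29_cheb_U K g 1 := by
  rw [s29_cheb_mem_U, pow_one]
  exact Subgroup.mem_zpowers _

/-- `U 1` normalises `U m`, hence preserves `E m`. -/
theorem s29_cheb_E_stable (m : ℕ) (u : Γ) (hu : u ∈ s29_cheb_U K g 1) (x : Qb)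
    (hx : x ∈ s29_cheb_E K g m) : u x ∈ s29_cheb_E K g m := by
  rw [s29_cheb_mem_E] at hx ⊢
  intro σ hσ
  have h1 : u⁻¹ * σ * u ∈ s29_cheb_U K g m := by
    rw [s29_cheb_mem_U] at hσ ⊢
    rw [s29_cheb_mem_U, pow_one] at hu
    obtain ⟨a, ha⟩ := Subgroup.mem_zpowers_iff.1 hu
    obtain ⟨b, hb⟩ := Subgroup.mem_zpowers_iff.1 hσ
    have h2 : s29_cheb_res K (u⁻¹ * σ * u) = s29_cheb_res K σ := by
      rw [map_mul, map_mul, map_inv, ← ha, ← hb, ← zpow_natCast, ← zpow_mul, ← zpow_neg,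
        ← zpow_add, ← zpow_add]
      congr 1
      ring
    rw [h2]
    exact hσ
  have h3 := hx _ h1
  have h4 : (u⁻¹ * σ * u) x = u⁻¹ (σ (u x)) := rfl
  rw [h4] at h3
  have h5 : u (u⁻¹ (σ (u x))) = σ (u x) := by
    show (u * u⁻¹) (σ (u x)) = σ (u x)
    rw [mul_inv_cancel]
    rfl
  rw [← h5, h3]

/-- Coset representatives of `U m` in `U 1`. -/
theorem s29_cheb_coset (m : ℕ) (hm : 0 < m) (u : Γ) (hu : u ∈ s29_cheb_U K g 1) :
    ∃ j : ℕ, j < m ∧ ∃ h ∈ s29_cheb_U K g m, u = h * g ^ j := by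
  rw [s29_cheb_mem_U, pow_one] at hu
  obtain ⟨a, ha⟩ := Subgroup.mem_zpowers_iff.1 hu
  have hm' : (m : ℤ) ≠ 0 := by exact_mod_cast hm.ne'
  refine ⟨(a % m).toNat, ?_, u * (g ^ (a % m).toNat)⁻¹, ?_, by group⟩
  · have := Int.emod_lt_of_pos a (by exact_mod_cast hm : (0 : ℤ) < m)
    have h0 := Int.emod_nonneg a hm'
    omega
  · rw [s29_cheb_mem_U, map_mul, map_inv, map_pow, ← ha]
    have h0 := Int.emod_nonneg a hm'
    have h1 : ((a % m).toNat : ℤ) = a % m := Int.toNat_of_nonneg h0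
    rw [← zpow_natCast (s29_cheb_res K g) (a % m).toNat, h1, ← zpow_neg, ← zpow_add]
    have h2 : a + -(a % m) = m * (a / m) := by
      have := Int.emod_add_mul_ediv a m
      linarith
    rw [h2, zpow_mul, zpow_natCast]
    exact Subgroup.zpow_mem_zpowers _ _

/-- For `m ∣ ord γ`: a power `γ ^ d` lies in `⟨γ ^ m⟩` iff `m ∣ d`. -/
theorem s29_cheb_zpow_mem_iff (m : ℕ) (hm : m ∣ orderOf (s29_cheb_res K g)) (d : ℤ) :
    s29_cheb_res K g ^ d ∈ Subgroup.zpowers (s29_cheb_res K g ^ m) ↔ (m : ℤ) ∣ d := by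
  constructor
  · intro h
    obtain ⟨b, hb⟩ := Subgroup.mem_zpowers_iff.1 h
    rw [← zpow_natCast (s29_cheb_res K g) m, ← zpow_mul] at hb
    have h1 : s29_cheb_res K g ^ ((m : ℤ) * b - d) = 1 := by
      rw [zpow_sub, hb, mul_inv_cancel]
    have h2 := orderOf_dvd_iff_zpow_eq_one.2 h1
    have h3 : (m : ℤ) ∣ (m : ℤ) * b - d := (Int.natCast_dvd_natCast.2 hm).trans h2
    have h4 : (m : ℤ) ∣ (m : ℤ) * b := dvd_mul_right _ _
    exact (Int.dvd_iff_dvd_of_dvd_sub h3).1 h4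
  · rintro ⟨c, rfl⟩
    rw [zpow_mul, zpow_natCast]
    exact Subgroup.zpow_mem_zpowers _ _

theorem s29_cheb_mem_U_iff_dvd (m : ℕ) (hm : m ∣ orderOf (s29_cheb_res K g)) (σ : Γ) (i : ℤ)
    (hσ : s29_cheb_res K σ = s29_cheb_res K g ^ i) : σ ∈ s29_cheb_U K g m ↔ (m : ℤ) ∣ i := by
  rw [s29_cheb_mem_U, hσ]
  exact s29_cheb_zpow_mem_iff K g m hm i

/-- If `u` and `g⁻ⁱ u gʲ` both lie in `U m` (`m ∣ ord γ`), then `m ∣ j - i`. -/
theorem s29_cheb_conj_dvd (m : ℕ) (hm : m ∣ orderOf (s29_cheb_res K g)) (u : Γ)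
    (hu : u ∈ s29_cheb_U K g m) (i j : ℕ) (h : (g ^ i)⁻¹ * u * g ^ j ∈ s29_cheb_U K g m) :
    (m : ℤ) ∣ (j : ℤ) - i := by
  rw [s29_cheb_mem_U] at hu h
  obtain ⟨a, ha⟩ := Subgroup.mem_zpowers_iff.1 hu
  rw [← zpow_natCast (s29_cheb_res K g) m, ← zpow_mul] at ha
  have h1 : s29_cheb_res K ((g ^ i)⁻¹ * u * g ^ j) =
      s29_cheb_res K g ^ ((m : ℤ) * a + ((j : ℤ) - i)) := by
    rw [map_mul, map_mul, map_inv, map_pow, map_pow, ← ha, ← zpow_natCast, ← zpow_natCast,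
      ← zpow_neg, ← zpow_add, ← zpow_add]
    congr 1
    ring
  rw [h1, s29_cheb_zpow_mem_iff K g m hm] at h
  have h4 : (m : ℤ) ∣ (m : ℤ) * a := dvd_mul_right _ _
  exact (Int.dvd_add_right h4).1 h

end

end Fermat.Agent.S29
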