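import Fermat.Agent.S29.CohHeckeAbs
import Fermat.Prelude.Def_ModularForm_HeckeOperator
import Fermat.Prelude.Def_ModularCurve_PeriodMap

/-!
# S29 (BRIDGE), block H1: the transfer Hecke operator `T_l^coh` on `Hom(Γ₀(N), A)`

For a prime `l ∤ N`: coset representatives `δ (some j) = [[1, j], [0, l]]` (`j < l`),
`δ none = [[l, 0], [0, 1]]` — the Prelude matrices `ModularForm.heckeMatrix l j`,
`ModularForm.heckeDiagMatrix l` of `ModularForm.heckeT`.  For `γ ∈ Γ₀(N)`: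
`δ i * γ = γ_i * δ (σ_γ i)` with `γ_i = s29_ch_coc N l hl hlN γ i ∈ Γ₀(N)` and
`σ_γ = s29_ch_perm N l hl hlN γ`, and `(T χ)(γ) = ∑ i, χ (γ_i)`.
-/

set_option autoImplicit false

open CongruenceSubgroup ModularForm
open scoped MatrixGroups

namespace Fermat.Agent.S29

/-- the integral coset representatives. -/
def s29_ch_deltaZ (l : ℕ) : Option (Fin l) → Matrix (Fin 2) (Fin 2) ℤ
  | some j => !![1, (j : ℕ); 0, l]
  | none => !![l, 0; 0, 1]

/-- the coset representatives of `T_l`: the Prelude matrices of `heckeT`. -/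
noncomputable def s29_ch_delta (l : ℕ) : Option (Fin l) → GL (Fin 2) ℝ
  | some j => heckeMatrix l j
  | none => heckeDiagMatrix l

theorem s29_ch_delta_val {l : ℕ} (hl : l ≠ 0) (i : Option (Fin l)) :
    ((s29_ch_delta l i : GL (Fin 2) ℝ) : Matrix (Fin 2) (Fin 2) ℝ) =
      (s29_ch_deltaZ l i).map (Int.castRingHom ℝ) := by
  cases i with
  | none =>
    rw [s29_ch_delta, val_heckeDiagMatrix hl, s29_ch_deltaZ]
    ext a b
    fin_cases a <;> fin_cases b <;> simp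
  | some j =>
    rw [s29_ch_delta, val_heckeMatrix hl, s29_ch_deltaZ]
    ext a b
    fin_cases a <;> fin_cases b <;> simp

/-- the embedding `Γ₀(N) → GL₂(ℝ)` (the coercion used by the slash action). -/
noncomputable def s29_ch_iota (N : ℕ) : Gamma0 N →* GL (Fin 2) ℝ :=
  (Matrix.SpecialLinearGroup.mapGL ℝ).comp (Gamma0 N).subtype

theorem s29_ch_iota_apply (N : ℕ) (γ : Gamma0 N) :
    s29_ch_iota N γ = ((γ : SL(2, ℤ)) : GL (Fin 2) ℝ) := rfl

theorem s29_ch_iota_val (N : ℕ) (γ : Gamma0 N) :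
    ((s29_ch_iota N γ : GL (Fin 2) ℝ) : Matrix (Fin 2) (Fin 2) ℝ) =
      ((γ : SL(2, ℤ)) : Matrix (Fin 2) (Fin 2) ℤ).map (Int.castRingHom ℝ) := by
  ext a b
  rfl

theorem s29_ch_iota_injective (N : ℕ) : Function.Injective (s29_ch_iota N) :=
  Matrix.SpecialLinearGroup.mapGL_injective.comp Subtype.val_injective

/-- real matrix identities from integral ones. -/
theorem s29_ch_real_of_int {N l : ℕ} (hl : l ≠ 0) (γ γ' : Gamma0 N) (i j : Option (Fin l))
    (h : s29_ch_deltaZ l i * ((γ : SL(2, ℤ)) : Matrix (Fin 2) (Fin 2) ℤ) =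
      ((γ' : SL(2, ℤ)) : Matrix (Fin 2) (Fin 2) ℤ) * s29_ch_deltaZ l j) :
    s29_ch_delta l i * s29_ch_iota N γ = s29_ch_iota N γ' * s29_ch_delta l j := by
  apply Units.ext
  rw [Units.val_mul, Units.val_mul, s29_ch_delta_val hl, s29_ch_delta_val hl, s29_ch_iota_val,
    s29_ch_iota_val, ← Matrix.map_mul, ← Matrix.map_mul, h]

theorem s29_ch_int_of_real {N l : ℕ} (hl : l ≠ 0) (γ : Gamma0 N) (i j : Option (Fin l))
    (h : s29_ch_delta l i = s29_ch_iota N γ * s29_ch_delta l j) :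
    s29_ch_deltaZ l i = ((γ : SL(2, ℤ)) : Matrix (Fin 2) (Fin 2) ℤ) * s29_ch_deltaZ l j := by
  have h1 := congrArg (fun g : GL (Fin 2) ℝ => (g : Matrix (Fin 2) (Fin 2) ℝ)) h
  simp only [Units.val_mul] at h1
  rw [s29_ch_delta_val hl, s29_ch_delta_val hl, s29_ch_iota_val, ← Matrix.map_mul] at h1
  exact Matrix.map_injective (Int.castRingHom ℝ).injective_int h1

/-- an element of `Γ₀(N)` from its entries. -/
def s29_ch_mk (N : ℕ) (a b c d : ℤ) (hdet : a * d - b * c = 1) (hc : (N : ℤ) ∣ c) : Gamma0 N :=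
  ⟨(⟨!![a, b; c, d], by rw [Matrix.det_fin_two_of]; exact hdet⟩ : SL(2, ℤ)),
    Gamma0_mem.2 ((ZMod.intCast_zmod_eq_zero_iff_dvd c N).2 hc)⟩

theorem s29_ch_mk_val (N : ℕ) (a b c d : ℤ) (hdet : a * d - b * c = 1) (hc : (N : ℤ) ∣ c) :
    (((s29_ch_mk N a b c d hdet hc : Gamma0 N) : SL(2, ℤ)) : Matrix (Fin 2) (Fin 2) ℤ) =
      !![a, b; c, d] := rfl

theorem s29_ch_val_eq {N : ℕ} (γ : Gamma0 N) :
    (((γ : SL(2, ℤ)) : Matrix (Fin 2) (Fin 2) ℤ)) =
      !![(γ : SL(2, ℤ)) 0 0, (γ : SL(2, ℤ)) 0 1; (γ : SL(2, ℤ)) 1 0, (γ : SL(2, ℤ)) 1 1] := by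
  ext a b
  fin_cases a <;> fin_cases b <;> rfl

theorem s29_ch_det {N : ℕ} (γ : Gamma0 N) :
    (γ : SL(2, ℤ)) 0 0 * (γ : SL(2, ℤ)) 1 1 - (γ : SL(2, ℤ)) 0 1 * (γ : SL(2, ℤ)) 1 0 = 1 := by
  have h := (γ : SL(2, ℤ)).det_coe
  rw [Matrix.det_fin_two] at h
  exact h

theorem s29_ch_dvd {N : ℕ} (γ : Gamma0 N) : (N : ℤ) ∣ (γ : SL(2, ℤ)) 1 0 := by
  have h := Gamma0_mem.1 γ.2
  exact (ZMod.intCast_zmod_eq_zero_iff_dvd _ N).1 h

theorem s29_ch_of_eq {a b c d a' b' c' d' : ℤ} (h1 : a = a') (h2 : b = b') (h3 : c = c')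
    (h4 : d = d') : !![a, b; c, d] = !![a', b'; c', d'] := by
  subst h1 h2 h3 h4
  rfl

theorem s29_ch_exZ_aux (N l : ℕ) (hl : l.Prime) (hlN : ¬ l ∣ N) (a b c d : ℤ)
    (hdet : a * d - b * c = 1) (hN : (N : ℤ) ∣ c) (i : Option (Fin l)) :
    ∃ (j : Option (Fin l)) (γ' : Gamma0 N),
      s29_ch_deltaZ l i * !![a, b; c, d] =
        ((γ' : SL(2, ℤ)) : Matrix (Fin 2) (Fin 2) ℤ) * s29_ch_deltaZ l j := by
  have : Fact l.Prime := ⟨hl⟩
  -- solving `u * x ≡ v mod l` for `l ∤ u`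
  have hsolve : ∀ u v : ℤ, ¬ (l : ℤ) ∣ u → ∃ j : Fin l, (l : ℤ) ∣ v - (j : ℕ) * u := by
    intro u v hu
    have hu' : ((u : ℤ) : ZMod l) ≠ 0 := fun h => hu ((ZMod.intCast_zmod_eq_zero_iff_dvd u l).1 h)
    refine ⟨⟨(((v : ZMod l)) * ((u : ZMod l))⁻¹).val, ZMod.val_lt _⟩, ?_⟩
    rw [← ZMod.intCast_zmod_eq_zero_iff_dvd]
    push_cast
    rw [ZMod.natCast_zmod_val, mul_assoc, inv_mul_cancel₀ hu', mul_one, sub_self]
  cases i with
  | some j =>
    by_cases hu : (l : ℤ) ∣ a + (j : ℕ) * c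
    · -- `j' = none`
      obtain ⟨u, hu⟩ := hu
      refine ⟨none, s29_ch_mk N u (b + (j : ℕ) * d) c (l * d) ?_ hN, ?_⟩
      · have : u * (l * d) = (l * u) * d := by ring
        rw [this, ← hu]
        linear_combination hdet
      · simp only [s29_ch_mk_val, s29_ch_deltaZ, Matrix.mul_fin_two]
        exact s29_ch_of_eq (by linear_combination hu) (by ring) (by ring) (by ring)
    · obtain ⟨j', w, hj'⟩ := hsolve (a + (j : ℕ) * c) (b + (j : ℕ) * d) hu
      refine ⟨some j', s29_ch_mk N (a + (j : ℕ) * c) w (l * c) (d - (j' : ℕ) * c) ?_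
        (Dvd.dvd.mul_left hN _), ?_⟩
      · have : w * (l * c) = (l * w) * c := by ring
        rw [this, ← hj']
        linear_combination hdet
      · simp only [s29_ch_mk_val, s29_ch_deltaZ, Matrix.mul_fin_two]
        exact s29_ch_of_eq (by ring) (by linear_combination hj') (by ring) (by ring)
  | none =>
    by_cases hu : (l : ℤ) ∣ c
    · -- `j' = none`
      obtain ⟨u, hu⟩ := hu
      have hNu : (N : ℤ) ∣ u := by
        have h1 : (N : ℤ) ∣ l * u := hu ▸ hN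
        have hcop : IsCoprime (N : ℤ) (l : ℤ) := by
          rw [Int.isCoprime_iff_gcd_eq_one, Int.gcd_natCast_natCast]
          exact (Nat.Coprime.symm ((Nat.Prime.coprime_iff_not_dvd hl).2 hlN))
        exact hcop.dvd_of_dvd_mul_left h1
      refine ⟨none, s29_ch_mk N a (l * b) u d ?_ hNu, ?_⟩
      · have : l * b * u = b * (l * u) := by ring
        rw [this, ← hu]
        exact hdet
      · simp only [s29_ch_mk_val, s29_ch_deltaZ, Matrix.mul_fin_two]
        exact s29_ch_of_eq (by ring) (by ring) (by linear_combination hu) (by ring)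
    · obtain ⟨j', w, hj'⟩ := hsolve c d hu
      refine ⟨some j', s29_ch_mk N (l * a) (b - (j' : ℕ) * a) c w ?_ hN, ?_⟩
      · linear_combination hdet - a * hj'
      · simp only [s29_ch_mk_val, s29_ch_deltaZ, Matrix.mul_fin_two]
        exact s29_ch_of_eq (by ring) (by ring) (by ring) (by linear_combination hj')

/-- existence of the coset decomposition (integral form). -/
theorem s29_ch_exZ (N l : ℕ) (hl : l.Prime) (hlN : ¬ l ∣ N) (γ : Gamma0 N)
    (i : Option (Fin l)) :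
    ∃ (j : Option (Fin l)) (γ' : Gamma0 N),
      s29_ch_deltaZ l i * ((γ : SL(2, ℤ)) : Matrix (Fin 2) (Fin 2) ℤ) =
        ((γ' : SL(2, ℤ)) : Matrix (Fin 2) (Fin 2) ℤ) * s29_ch_deltaZ l j := by
  rw [s29_ch_val_eq γ]
  exact s29_ch_exZ_aux N l hl hlN _ _ _ _ (s29_ch_det γ) (s29_ch_dvd γ) i

theorem s29_ch_uniqZ_aux (l : ℕ) (hl : l.Prime) (a b c d : ℤ) (i j : Option (Fin l))
    (h : s29_ch_deltaZ l i = !![a, b; c, d] * s29_ch_deltaZ l j) : i = j := by
  have hl2 : (2 : ℤ) ≤ l := by exact_mod_cast hl.two_le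
  have h00 := congrFun (congrFun h 0) 0
  have h01 := congrFun (congrFun h 0) 1
  have h10 := congrFun (congrFun h 1) 0
  have h11 := congrFun (congrFun h 1) 1
  cases i with
  | some j1 =>
    cases j with
    | some j2 =>
      simp only [s29_ch_deltaZ, Matrix.mul_fin_two] at h00 h01 h10 h11
      simp at h00 h01 h10 h11
      -- a = 1, c = 0, d = 1, j1 = j2 + b l
      subst h10
      have hb0 : b = 0 := by
        have h1 : ((j1 : ℕ) : ℤ) < l := by exact_mod_cast j1.2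
        have h2 : ((j2 : ℕ) : ℤ) < l := by exact_mod_cast j2.2
        have h3 : (0 : ℤ) ≤ (j1 : ℕ) := by positivity
        have h4 : (0 : ℤ) ≤ (j2 : ℕ) := by positivity
        have h5 : ((j1 : ℕ) : ℤ) = (j2 : ℕ) + b * l := by rw [h01, ← h00, one_mul]
        by_contra hb0
        rcases lt_or_gt_of_ne hb0 with hlt | hgt
        · have : b * l ≤ -1 * l := mul_le_mul_of_nonneg_right (by omega) (by positivity)
          linarith
        · have : 1 * (l : ℤ) ≤ b * l := mul_le_mul_of_nonneg_right (by omega) (by positivity)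
          linarith
      rw [hb0, zero_mul, add_zero, ← h00, one_mul] at h01
      congr 1
      exact Fin.ext (by exact_mod_cast h01)
    | none =>
      simp only [s29_ch_deltaZ, Matrix.mul_fin_two] at h00 h01 h10 h11
      simp at h00 h01 h10 h11
      -- 1 = a l impossible
      exfalso
      have : (l : ℤ) ∣ 1 := ⟨a, by linarith⟩
      have := Int.le_of_dvd one_pos this
      omega
  | none =>
    cases j with
    | some j2 =>
      simp only [s29_ch_deltaZ, Matrix.mul_fin_two] at h00 h01 h10 h11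
      simp at h00 h01 h10 h11
      exfalso
      subst h10
      have : (l : ℤ) ∣ 1 := ⟨d, by linarith⟩
      have := Int.le_of_dvd one_pos this
      omega
    | none => rfl

/-- distinctness of the cosets (integral form). -/
theorem s29_ch_uniqZ (N l : ℕ) (hl : l.Prime) (γ : Gamma0 N) (i j : Option (Fin l))
    (h : s29_ch_deltaZ l i = ((γ : SL(2, ℤ)) : Matrix (Fin 2) (Fin 2) ℤ) * s29_ch_deltaZ l j) :
    i = j := by
  rw [s29_ch_val_eq γ] at h
  exact s29_ch_uniqZ_aux l hl _ _ _ _ i j h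

/-- the Hecke data of `T_l` on `Γ₀(N)`, `l ∤ N` prime. -/
noncomputable def s29_ch_data (N l : ℕ) (hl : l.Prime) (hlN : ¬ l ∣ N) :
    s29_ch_Data (Gamma0 N) (GL (Fin 2) ℝ) (Option (Fin l)) where
  ι := s29_ch_iota N
  ι_inj := s29_ch_iota_injective N
  δ := s29_ch_delta l
  ex γ i := by
    obtain ⟨j, γ', h⟩ := s29_ch_exZ N l hl hlN γ i
    exact ⟨j, γ', s29_ch_real_of_int hl.ne_zero γ γ' i j h⟩
  uniq i j γ h := s29_ch_uniqZ N l hl γ i j (s29_ch_int_of_real hl.ne_zero γ i j h)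

/-- the permutation `σ_γ` of the cosets. -/
noncomputable def s29_ch_perm (N l : ℕ) (hl : l.Prime) (hlN : ¬ l ∣ N) (γ : Gamma0 N) :
    Equiv.Perm (Option (Fin l)) := (s29_ch_data N l hl hlN).perm γ

/-- the cocycle `γ_i`. -/
noncomputable def s29_ch_coc (N l : ℕ) (hl : l.Prime) (hlN : ¬ l ∣ N) (γ : Gamma0 N)
    (i : Option (Fin l)) : Gamma0 N := (s29_ch_data N l hl hlN).coc γ i

/-- `δ_i γ = γ_i δ_{σ(i)}`. -/
theorem s29_ch_spec (N l : ℕ) (hl : l.Prime) (hlN : ¬ l ∣ N) (γ : Gamma0 N)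
    (i : Option (Fin l)) :
    s29_ch_delta l i * ((γ : SL(2, ℤ)) : GL (Fin 2) ℝ) =
      ((s29_ch_coc N l hl hlN γ i : SL(2, ℤ)) : GL (Fin 2) ℝ) *
        s29_ch_delta l (s29_ch_perm N l hl hlN γ i) :=
  (s29_ch_data N l hl hlN).spec' γ i

/-- **the transfer Hecke operator `T_l^coh`** on `Hom(Γ₀(N), A)`. -/
noncomputable def s29_ch_T (N l : ℕ) (hl : l.Prime) (hlN : ¬ l ∣ N) (A : Type*) [AddCommGroup A] :
    (Additive (Gamma0 N) →+ A) →+ (Additive (Gamma0 N) →+ A) :=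
  (s29_ch_data N l hl hlN).T A

theorem s29_ch_T_apply (N l : ℕ) (hl : l.Prime) (hlN : ¬ l ∣ N) {A : Type*} [AddCommGroup A]
    (χ : Additive (Gamma0 N) →+ A) (γ : Gamma0 N) :
    s29_ch_T N l hl hlN A χ (Additive.ofMul γ) =
      ∑ i : Option (Fin l), χ (Additive.ofMul (s29_ch_coc N l hl hlN γ i)) := rfl

theorem s29_ch_T_comp (N l : ℕ) (hl : l.Prime) (hlN : ¬ l ∣ N) {A B : Type*} [AddCommGroup A]
    [AddCommGroup B] (f : A →+ B) (χ : Additive (Gamma0 N) →+ A) :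
    s29_ch_T N l hl hlN B (f.comp χ) = f.comp (s29_ch_T N l hl hlN A χ) :=
  (s29_ch_data N l hl hlN).T_comp f χ

end Fermat.Agent.S29
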