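import Mathlib

/-!
# S29 (BRIDGE), block H1: the abstract transfer ("double coset") Hecke operator

`ι : Γ →* G` an injective group hom, `δ : I → G` a finite family such that the cosets `ι(Γ) δ i`
are pairwise distinct and their union is stable under right multiplication by `ι(Γ)`.
Then `δ i * ι γ = ι (coc γ i) * δ (perm γ i)` for a unique permutation `perm γ` of `I` and unique
`coc γ i : Γ`, and `(T χ)(γ) := ∑ i, χ (coc γ i)` is an endomorphism of `Hom(Γ, A)` for every
abelian group `A`, natural in `A`.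
-/

set_option autoImplicit false

namespace Fermat.Agent.S29

/-- Abstract Hecke (transfer) data. -/
structure s29_ch_Data (Γ G I : Type*) [Group Γ] [Group G] where
  /-- the embedding of `Γ` -/
  ι : Γ →* G
  ι_inj : Function.Injective ι
  /-- the coset representatives -/
  δ : I → G
  ex : ∀ (γ : Γ) (i : I), ∃ (j : I) (γ' : Γ), δ i * ι γ = ι γ' * δ j
  uniq : ∀ (i j : I) (γ : Γ), δ i = ι γ * δ j → i = j

namespace s29_ch_Data

variable {Γ G I : Type*} [Group Γ] [Group G] (D : s29_ch_Data Γ G I)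

/-- the index `σ_γ(i)`. -/
noncomputable def idx (γ : Γ) (i : I) : I := (D.ex γ i).choose

/-- the cocycle `γ_i`. -/
noncomputable def coc (γ : Γ) (i : I) : Γ := (D.ex γ i).choose_spec.choose

theorem spec (γ : Γ) (i : I) : D.δ i * D.ι γ = D.ι (D.coc γ i) * D.δ (D.idx γ i) :=
  (D.ex γ i).choose_spec.choose_spec

theorem eq_of_spec {γ γ' : Γ} {i j : I} (h : D.δ i * D.ι γ = D.ι γ' * D.δ j) :
    j = D.idx γ i ∧ γ' = D.coc γ i := by
  have h1 := D.spec γ i
  rw [h] at h1
  have h2 : D.δ j = D.ι (γ'⁻¹ * D.coc γ i) * D.δ (D.idx γ i) := by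
    rw [map_mul, map_inv, mul_assoc, ← h1, inv_mul_cancel_left]
  have hj : j = D.idx γ i := D.uniq _ _ _ h2
  refine ⟨hj, ?_⟩
  rw [← hj] at h1
  exact D.ι_inj (mul_right_cancel h1)

theorem idx_one (i : I) : D.idx 1 i = i :=
  ((D.eq_of_spec (γ := 1) (γ' := 1) (i := i) (j := i) (by simp)).1).symm

theorem coc_one (i : I) : D.coc 1 i = 1 :=
  ((D.eq_of_spec (γ := 1) (γ' := 1) (i := i) (j := i) (by simp)).2).symm

theorem spec_mul (γ γ' : Γ) (i : I) :
    D.δ i * D.ι (γ * γ') =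
      D.ι (D.coc γ i * D.coc γ' (D.idx γ i)) * D.δ (D.idx γ' (D.idx γ i)) := by
  rw [map_mul, ← mul_assoc, D.spec γ i, mul_assoc, D.spec γ' (D.idx γ i), ← mul_assoc, map_mul]

theorem idx_mul (γ γ' : Γ) (i : I) : D.idx (γ * γ') i = D.idx γ' (D.idx γ i) :=
  ((D.eq_of_spec (D.spec_mul γ γ' i)).1).symm

theorem coc_mul (γ γ' : Γ) (i : I) :
    D.coc (γ * γ') i = D.coc γ i * D.coc γ' (D.idx γ i) :=
  ((D.eq_of_spec (D.spec_mul γ γ' i)).2).symm

/-- the permutation `σ_γ` of the index set. -/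
noncomputable def perm (γ : Γ) : Equiv.Perm I where
  toFun := D.idx γ
  invFun := D.idx γ⁻¹
  left_inv i := by rw [← D.idx_mul, mul_inv_cancel, D.idx_one]
  right_inv i := by rw [← D.idx_mul, inv_mul_cancel, D.idx_one]

@[simp] theorem perm_apply (γ : Γ) (i : I) : D.perm γ i = D.idx γ i := rfl

theorem spec' (γ : Γ) (i : I) : D.δ i * D.ι γ = D.ι (D.coc γ i) * D.δ (D.perm γ i) :=
  D.spec γ i

theorem perm_mul (γ γ' : Γ) : D.perm (γ * γ') = D.perm γ' * D.perm γ := by
  ext i
  simp [D.idx_mul]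

theorem perm_one : D.perm 1 = 1 := by
  ext i
  simp [D.idx_one]

theorem perm_pow (γ : Γ) (n : ℕ) : D.perm (γ ^ n) = D.perm γ ^ n := by
  induction n with
  | zero => simp [D.perm_one]
  | succ n ih => rw [pow_succ, D.perm_mul, ih, pow_succ']

/-- if `σ_γ` fixes `i` then `γ_i = δ_i γ δ_i⁻¹`. -/
theorem coc_conj {γ : Γ} {i : I} (h : D.idx γ i = i) :
    D.ι (D.coc γ i) = D.δ i * D.ι γ * (D.δ i)⁻¹ := by
  have h1 := D.spec γ i
  rw [h] at h1
  rw [h1, mul_inv_cancel_right]

/-- if `σ_γ ^ n = 1` then `(γ ^ n)_i = δ_i γ ^ n δ_i⁻¹`. -/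
theorem coc_pow_conj {γ : Γ} {n : ℕ} (h : D.perm γ ^ n = 1) (i : I) :
    D.ι (D.coc (γ ^ n) i) = D.δ i * D.ι (γ ^ n) * (D.δ i)⁻¹ := by
  apply D.coc_conj
  rw [← D.perm_apply, D.perm_pow, h]
  rfl

variable [Fintype I]

/-- **the transfer Hecke operator** on `Hom(Γ, A)`. -/
noncomputable def T (A : Type*) [AddCommGroup A] :
    (Additive Γ →+ A) →+ (Additive Γ →+ A) where
  toFun χ :=
    { toFun := fun γ => ∑ i : I, χ (Additive.ofMul (D.coc (Additive.toMul γ) i))
      map_zero' := by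
        show ∑ i : I, χ (Additive.ofMul (D.coc 1 i)) = 0
        simp [D.coc_one]
      map_add' := fun γ γ' => by
        show ∑ i : I, χ (Additive.ofMul (D.coc (Additive.toMul γ * Additive.toMul γ') i)) = _
        simp only [D.coc_mul, ofMul_mul, map_add, Finset.sum_add_distrib]
        congr 1
        exact Equiv.sum_comp (D.perm (Additive.toMul γ))
          (fun j => χ (Additive.ofMul (D.coc (Additive.toMul γ') j))) }
  map_zero' := by
    ext γ
    simp
  map_add' χ χ' := by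
    ext γ
    simp [Finset.sum_add_distrib]

theorem T_apply {A : Type*} [AddCommGroup A] (χ : Additive Γ →+ A) (γ : Γ) :
    D.T A χ (Additive.ofMul γ) = ∑ i : I, χ (Additive.ofMul (D.coc γ i)) := rfl

/-- naturality in the coefficient group. -/
theorem T_comp {A B : Type*} [AddCommGroup A] [AddCommGroup B] (f : A →+ B)
    (χ : Additive Γ →+ A) : D.T B (f.comp χ) = f.comp (D.T A χ) := by
  ext γ
  show ∑ i : I, f (χ _) = f (∑ i : I, χ _)
  rw [map_sum]

end s29_ch_Data

end Fermat.Agent.S29
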