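import Fermat.Agent.S29.CohHecke
import Fermat.Prelude.Def_ModularCurve_PeriodHomPair

/-!
# S29 (BRIDGE), block H1: `T_l^coh` commutes with the involution `charInvolution`

`charInvolution N R A χ = χ ∘ c`, `c = jConjGamma0 N` = conjugation by `J = diag(1, -1)`.
Conjugating `δ_i γ = γ_i δ_{σ i}` by `J` and writing `J δ_i J⁻¹ = u_i δ_{π i}` with `u_i ∈ Γ₀(N)`
(`u_i` a translation), uniqueness of the coset decomposition gives
`(c γ)_{π i} = u_i⁻¹ c(γ_i) u_{σ i}`; summing over `i` the `u`-terms cancel because `σ` is a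
permutation.  No parabolicity is needed.
-/

set_option autoImplicit false

open CongruenceSubgroup ModularForm ModularCurve.Period
open scoped MatrixGroups

namespace Fermat.Agent.S29

section abstract

variable {Γ G I : Type*} [Group Γ] [Group G] (D : s29_ch_Data Γ G I)

/-- transport of the coset decomposition along an automorphism. -/
theorem s29_ci_abs_coc (c : Γ →* Γ) (C : G →* G) (hC : ∀ γ, C (D.ι γ) = D.ι (c γ))
    (π : I → I) (u : I → Γ) (hu : ∀ i, C (D.δ i) = D.ι (u i) * D.δ (π i)) (γ : Γ) (i : I) :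
    D.idx (c γ) (π i) = π (D.idx γ i) ∧
      D.coc (c γ) (π i) = (u i)⁻¹ * c (D.coc γ i) * u (D.idx γ i) := by
  have h := congrArg C (D.spec γ i)
  rw [map_mul, map_mul, hC, hC, hu, hu] at h
  have h' : D.δ (π i) * D.ι (c γ) =
      D.ι ((u i)⁻¹ * c (D.coc γ i) * u (D.idx γ i)) * D.δ (π (D.idx γ i)) := by
    rw [map_mul, map_mul, map_inv]
    have e : D.δ (π i) * D.ι (c γ) = (D.ι (u i))⁻¹ * (D.ι (u i) * D.δ (π i) * D.ι (c γ)) := by
      group
    rw [e, h]
    group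
  obtain ⟨h1, h2⟩ := D.eq_of_spec h'
  exact ⟨h1.symm, h2.symm⟩

variable [Fintype I]

/-- the transfer operator evaluated on `c γ`. -/
theorem s29_ci_abs (c : Γ →* Γ) (C : G →* G) (hC : ∀ γ, C (D.ι γ) = D.ι (c γ))
    (π : Equiv.Perm I) (u : I → Γ) (hu : ∀ i, C (D.δ i) = D.ι (u i) * D.δ (π i))
    {A : Type*} [AddCommGroup A] (χ : Additive Γ →+ A) (γ : Γ) :
    D.T A χ (Additive.ofMul (c γ)) = ∑ i, χ (Additive.ofMul (c (D.coc γ i))) := by
  rw [D.T_apply, ← Equiv.sum_comp π]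
  have key : ∀ i, χ (Additive.ofMul (D.coc (c γ) (π i))) =
      χ (Additive.ofMul (c (D.coc γ i))) +
        (χ (Additive.ofMul (u (D.perm γ i))) - χ (Additive.ofMul (u i))) := by
    intro i
    rw [(s29_ci_abs_coc D c C hC π u hu γ i).2, ofMul_mul, ofMul_mul, ofMul_inv, map_add,
      map_add, map_neg, D.perm_apply]
    abel
  simp only [key, Finset.sum_add_distrib, Finset.sum_sub_distrib]
  rw [Equiv.sum_comp (D.perm γ) (fun j => χ (Additive.ofMul (u j))), sub_self, add_zero]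

end abstract

/-- the integral matrix `diag(1, -1)`. -/
def s29_ci_JZ : Matrix (Fin 2) (Fin 2) ℤ := !![1, 0; 0, -1]

theorem s29_ci_JZ_mul : s29_ci_JZ * s29_ci_JZ = 1 := by
  ext a b
  fin_cases a <;> fin_cases b <;> simp [s29_ci_JZ, Matrix.mul_apply, Fin.sum_univ_two]

/-- `J = diag(1, -1)` in `GL₂(ℝ)`. -/
noncomputable def s29_ci_J : GL (Fin 2) ℝ where
  val := s29_ci_JZ.map (Int.castRingHom ℝ)
  inv := s29_ci_JZ.map (Int.castRingHom ℝ)
  val_inv := by rw [← Matrix.map_mul, s29_ci_JZ_mul, Matrix.map_one] <;> simp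
  inv_val := by rw [← Matrix.map_mul, s29_ci_JZ_mul, Matrix.map_one] <;> simp

theorem s29_ci_J_val :
    ((s29_ci_J : GL (Fin 2) ℝ) : Matrix (Fin 2) (Fin 2) ℝ) =
      s29_ci_JZ.map (Int.castRingHom ℝ) := rfl

theorem s29_ci_J_inv_val :
    (((s29_ci_J)⁻¹ : GL (Fin 2) ℝ) : Matrix (Fin 2) (Fin 2) ℝ) =
      s29_ci_JZ.map (Int.castRingHom ℝ) := rfl

/-- conjugation by `J` on integral matrices is `jConjMat`. -/
theorem s29_ci_conjZ (M : Matrix (Fin 2) (Fin 2) ℤ) :
    s29_ci_JZ * M * s29_ci_JZ = jConjMat M := by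
  conv_lhs => rw [Matrix.eta_fin_two M]
  simp only [s29_ci_JZ, jConjMat, Matrix.mul_fin_two]
  ext a b
  fin_cases a <;> fin_cases b <;> simp

/-- conjugation by `J` restricts to `jConjGamma0` on `Γ₀(N)`. -/
theorem s29_ci_conj_iota (N : ℕ) (γ : Gamma0 N) :
    s29_ci_J * s29_ch_iota N γ * s29_ci_J⁻¹ = s29_ch_iota N (jConjGamma0 N γ) := by
  apply Units.ext
  rw [Units.val_mul, Units.val_mul, s29_ci_J_val, s29_ci_J_inv_val, s29_ch_iota_val,
    s29_ch_iota_val, ← Matrix.map_mul, ← Matrix.map_mul, s29_ci_conjZ]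
  rfl

/-- the index involution `j ↦ -j mod l`. -/
def s29_ci_pi (l : ℕ) : Option (Fin l) → Option (Fin l)
  | some j => some ⟨(l - (j : ℕ)) % l, Nat.mod_lt _ j.pos⟩
  | none => none

theorem s29_ci_pi_invol (l : ℕ) : Function.Involutive (s29_ci_pi l) := by
  intro i
  cases i with
  | none => rfl
  | some j =>
    show some _ = some j
    congr 1
    apply Fin.ext
    show (l - (l - (j : ℕ)) % l) % l = j
    have hj := j.2
    by_cases h0 : (j : ℕ) = 0
    · rw [h0]
      simp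
    · rw [Nat.mod_eq_of_lt (by omega : l - (j : ℕ) < l), Nat.mod_eq_of_lt (by omega)]
      omega

/-- the index involution as a permutation. -/
def s29_ci_perm (l : ℕ) : Equiv.Perm (Option (Fin l)) := (s29_ci_pi_invol l).toPerm _

theorem s29_ci_perm_apply (l : ℕ) (i : Option (Fin l)) : s29_ci_perm l i = s29_ci_pi l i := rfl

/-- the translations `u_i`. -/
def s29_ci_u (N l : ℕ) : Option (Fin l) → Gamma0 N
  | some j => if (j : ℕ) = 0 then 1 else s29_ch_mk N 1 (-1) 0 1 (by norm_num) (dvd_zero _)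
  | none => 1

/-- `J δ_i J = u_i δ_{π i}` (integral form). -/
theorem s29_ci_conj_deltaZ (N l : ℕ) (i : Option (Fin l)) :
    s29_ci_JZ * s29_ch_deltaZ l i * s29_ci_JZ =
      (((s29_ci_u N l i : Gamma0 N) : SL(2, ℤ)) : Matrix (Fin 2) (Fin 2) ℤ) *
        s29_ch_deltaZ l (s29_ci_pi l i) := by
  rw [s29_ci_conjZ]
  cases i with
  | none =>
    have h1 : (((s29_ci_u N l none : Gamma0 N) : SL(2, ℤ)) : Matrix (Fin 2) (Fin 2) ℤ) = 1 := rfl
    rw [h1, one_mul]
    show jConjMat !![(l : ℤ), 0; 0, 1] = !![(l : ℤ), 0; 0, 1]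
    ext a b
    fin_cases a <;> fin_cases b <;> simp [jConjMat]
  | some j =>
    have hj := j.2
    by_cases h0 : (j : ℕ) = 0
    · have h1 : (((s29_ci_u N l (some j) : Gamma0 N) : SL(2, ℤ)) : Matrix (Fin 2) (Fin 2) ℤ)
          = 1 := by
        simp only [s29_ci_u, if_pos h0]
        rfl
      rw [h1, one_mul]
      show jConjMat !![1, ((j : ℕ) : ℤ); 0, (l : ℤ)] =
        !![1, (((l - (j : ℕ)) % l : ℕ) : ℤ); 0, (l : ℤ)]
      rw [h0]
      ext a b
      fin_cases a <;> fin_cases b <;> simp [jConjMat]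
    · have h1 : (((s29_ci_u N l (some j) : Gamma0 N) : SL(2, ℤ)) : Matrix (Fin 2) (Fin 2) ℤ)
          = !![1, -1; 0, 1] := by
        simp only [s29_ci_u, if_neg h0]
        rfl
      rw [h1]
      show jConjMat !![1, ((j : ℕ) : ℤ); 0, (l : ℤ)] =
        !![1, -1; 0, 1] * !![1, (((l - (j : ℕ)) % l : ℕ) : ℤ); 0, (l : ℤ)]
      rw [Nat.mod_eq_of_lt (by omega : l - (j : ℕ) < l), Nat.cast_sub hj.le]
      ext a b
      fin_cases a <;> fin_cases b <;> simp [jConjMat, Matrix.mul_apply, Fin.sum_univ_two]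
      ring

/-- `J δ_i J⁻¹ = u_i δ_{π i}` in `GL₂(ℝ)`. -/
theorem s29_ci_conj_delta (N : ℕ) {l : ℕ} (hl : l ≠ 0) (i : Option (Fin l)) :
    s29_ci_J * s29_ch_delta l i * s29_ci_J⁻¹ =
      s29_ch_iota N (s29_ci_u N l i) * s29_ch_delta l (s29_ci_pi l i) := by
  apply Units.ext
  rw [Units.val_mul, Units.val_mul, Units.val_mul, s29_ci_J_val, s29_ci_J_inv_val,
    s29_ch_delta_val hl, s29_ch_delta_val hl, s29_ch_iota_val, ← Matrix.map_mul, ← Matrix.map_mul,
    ← Matrix.map_mul, s29_ci_conj_deltaZ N l i]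

/-- **(H1-inv)** `T_l^coh` commutes with `charInvolution` (all coefficients, all `χ`). -/
theorem s29_ci_T_charInvolution (N l : ℕ) (hl : l.Prime) (hlN : ¬ l ∣ N) (R : Type*) [Semiring R]
    {A : Type*} [AddCommGroup A] [Module R A] (χ : Additive (Gamma0 N) →+ A) :
    s29_ch_T N l hl hlN A (charInvolution N R A χ) =
      charInvolution N R A (s29_ch_T N l hl hlN A χ) := by
  refine AddMonoidHom.ext fun γ' => ?_
  obtain ⟨γ, rfl⟩ := Additive.ofMul.surjective γ'
  rw [charInvolution_apply, toMul_ofMul]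
  have h := s29_ci_abs (s29_ch_data N l hl hlN) (jConjGamma0 N)
    ((MulAut.conj s29_ci_J).toMonoidHom)
    (fun γ => by
      show s29_ci_J * s29_ch_iota N γ * s29_ci_J⁻¹ = _
      exact s29_ci_conj_iota N γ)
    (s29_ci_perm l) (s29_ci_u N l)
    (fun i => by
      show s29_ci_J * s29_ch_delta l i * s29_ci_J⁻¹ = _
      exact s29_ci_conj_delta N hl.ne_zero i) χ γ
  exact h.symm ▸ rfl

end Fermat.Agent.S29
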