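import Fermat.Agent.S28.QExp

/-!
# BRIDGE (CUSP): the local cusp lemma for roots

If `A` is holomorphic on the upper half plane, `N`-periodic, and `A ^ M` has a level-`N`
expansion (finitely many negative terms), then `A` itself has a level-`N` expansion `s'`, and
`s' ^ M` is the expansion of `A ^ M`.  In particular the order of the expansion of `A ^ M` is
divisible by `M`.
-/

set_option autoImplicit false

open UpperHalfPlane Complex Filter Topology Metric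
open scoped Real MatrixGroups Manifold

noncomputable section

namespace Fermat.Agent.S29

open Fermat.Agent.S28 (HasQExp tParam DiscPS discFun)

/-- `A ∘ ofComplex` is periodic when `A` is. -/
theorem s29_cr_periodic (N : ℕ) (A : ℍ → ℂ) (hper : ∀ τ : ℍ, A ((N : ℝ) +ᵥ τ) = A τ) :
    Function.Periodic (A ∘ ofComplex) ((N : ℝ) : ℂ) := by
  intro w
  by_cases hw : 0 < w.im
  · have hw' : 0 < (w + ((N : ℝ) : ℂ)).im := by simpa using hw
    simp only [Function.comp_apply, ofComplex_apply_of_im_pos hw, ofComplex_apply_of_im_pos hw']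
    rw [← hper ⟨w, hw⟩]
    congr 1
    ext1
    simp [add_comm]
  · have hw' : ¬ 0 < (w + ((N : ℝ) : ℂ)).im := by simpa using hw
    simp only [Function.comp_apply, ofComplex_apply_of_im_nonpos (not_lt.mp hw),
      ofComplex_apply_of_im_nonpos (not_lt.mp hw')]

/-- The local cusp lemma: an `N`-periodic holomorphic function whose `M`-th power has a level-`N`
expansion has itself a level-`N` expansion. -/
theorem s29_cr_root (N : ℕ) [NeZero N] (M : ℕ) (hM : 0 < M) (A : ℍ → ℂ)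
    (hA : MDifferentiable 𝓘(ℂ) 𝓘(ℂ) A) (hper : ∀ τ : ℍ, A ((N : ℝ) +ᵥ τ) = A τ)
    (s : LaurentSeries ℂ) (hs : HasQExp N (fun τ => A τ ^ M) s) :
    ∃ s' : LaurentSeries ℂ, HasQExp N A s' ∧ s' ^ M = s := by
  have hN : (0 : ℝ) < N := by exact_mod_cast Nat.pos_of_ne_zero (NeZero.ne N)
  have hN0 : (N : ℝ) ≠ 0 := hN.ne'
  have hperf := s29_cr_periodic N A hper
  set f : ℂ → ℂ := A ∘ ofComplex with hf
  set F : ℂ → ℂ := Function.Periodic.cuspFunction (N : ℝ) f with hF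
  -- the expansion of `A ^ M`
  obtain ⟨p, -, hp, -, hAp⟩ := hs.rep s.order
    (fun n hn => HahnSeries.coeff_eq_zero_of_lt_order hn)
  set k0 : ℤ := s.order with hk0
  set K : ℕ := k0.natAbs with hK
  have hK0 : (0 : ℤ) ≤ (K : ℤ) + k0 := by
    rw [hK]
    omega
  obtain ⟨e, he⟩ : ∃ e : ℕ, (e : ℤ) = ((K + 1) * M : ℕ) + k0 := by
    refine ⟨(((K + 1) * M : ℕ) + k0).toNat, Int.toNat_of_nonneg ?_⟩
    have h1 : ((K + 1 : ℕ) : ℤ) ≤ ((K + 1) * M : ℕ) := by
      exact_mod_cast Nat.le_mul_of_pos_right (K + 1) hM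
    push_cast at h1 ⊢
    omega
  have he1 : 1 ≤ e := by
    have h1 : ((K + 1 : ℕ) : ℤ) ≤ ((K + 1) * M : ℕ) := by
      exact_mod_cast Nat.le_mul_of_pos_right (K + 1) hM
    have : (1 : ℤ) ≤ (e : ℤ) := by
      rw [he]
      push_cast at h1 ⊢
      omega
    exact_mod_cast this
  -- the function on the disc
  set H : ℂ → ℂ := fun q => q ^ (K + 1) * F q with hH
  have hFt : ∀ τ : ℍ, F (tParam N τ) = A τ := by
    intro τ
    rw [Fermat.Agent.S28.tParam_eq_qParam, hF,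
      Function.Periodic.eq_cuspFunction hN0 hperf (τ : ℂ), hf, Function.comp_apply,
      ofComplex_apply]
  have hHt : ∀ τ : ℍ, H (tParam N τ) = tParam N τ ^ (K + 1) * A τ := by
    intro τ
    simp only [hH, hFt]
  -- `H ^ M = q ^ e * discFun p q` on the disc
  have hHM : ∀ q : ℂ, ‖q‖ < 1 → H q ^ M = q ^ e * discFun p q := by
    intro q hq
    rcases eq_or_ne q 0 with rfl | hq0
    · simp only [hH]
      rw [zero_pow (Nat.succ_ne_zero K), zero_mul, zero_pow hM.ne', zero_pow (by omega), zero_mul]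
    · obtain ⟨τ, rfl⟩ := Fermat.Agent.S28.exists_tParam_eq N hq hq0
      rw [hHt, mul_pow, hAp τ, ← pow_mul, ← mul_assoc]
      congr 1
      rw [← zpow_natCast (tParam N τ) ((K + 1) * M), ← zpow_add₀ hq0, ← zpow_natCast _ e, he]
  have hR : ContinuousOn (fun q : ℂ => q ^ e * discFun p q) (ball 0 1) :=
    (continuous_pow e).continuousOn.mul hp.differentiableOn.continuousOn
  have hball : ball (0 : ℂ) 1 ∈ 𝓝 (0 : ℂ) := ball_mem_nhds 0 one_pos
  -- continuity of `H` at `0`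
  have hHc : ContinuousAt H 0 := by
    have hH0 : H 0 = 0 := by simp [hH]
    rw [ContinuousAt, hH0, tendsto_zero_iff_norm_tendsto_zero]
    have hRt : Tendsto (fun q : ℂ => q ^ e * discFun p q) (𝓝 0) (𝓝 0) := by
      have h1 := (hR.continuousAt hball).tendsto
      simpa [zero_pow (by omega : e ≠ 0)] using h1
    have hRn : Tendsto (fun q : ℂ => ‖q ^ e * discFun p q‖ ^ ((M : ℝ)⁻¹)) (𝓝 0) (𝓝 0) := by
      have h1 := hRt.norm
      rw [norm_zero] at h1
      have h2 := h1.rpow_const (p := (M : ℝ)⁻¹) (Or.inr (by positivity))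
      rwa [Real.zero_rpow (by positivity)] at h2
    refine hRn.congr' ?_
    filter_upwards [hball] with q hq
    have hq' : ‖q‖ < 1 := by simpa using hq
    rw [← hHM q hq', norm_pow, Real.pow_rpow_inv_natCast (norm_nonneg _) hM.ne']
  -- differentiability of `H` away from `0`
  have hHd : DifferentiableOn ℂ H (ball 0 1 \ {0}) := by
    intro q hq
    have hq' : ‖q‖ < 1 := by simpa using hq.1
    have hq0 : q ≠ 0 := by simpa using hq.2
    have hz : 0 < (Function.Periodic.invQParam (N : ℝ) q).im :=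
      Function.Periodic.im_invQParam_pos_of_norm_lt_one hN hq' hq0
    have hfd : DifferentiableAt ℂ f (Function.Periodic.invQParam (N : ℝ) q) := by
      have h1 := UpperHalfPlane.mdifferentiable_iff.mp hA
      exact (h1 _ hz).differentiableAt (isOpen_upperHalfPlaneSet.mem_nhds hz)
    have hFd := Function.Periodic.differentiableAt_cuspFunction hN0 hperf hfd
    rw [Function.Periodic.qParam_right_inv hN0 hq0] at hFd
    exact ((differentiableAt_pow (K + 1)).mul hFd).differentiableWithinAt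
  have hHD : DifferentiableOn ℂ H (ball 0 1) :=
    (Complex.differentiableOn_compl_singleton_and_continuousAt_iff hball).mp ⟨hHd, hHc⟩
  obtain ⟨pH, hpH⟩ := DiscPS.exists_of_differentiableOn hHD
  have hexp : HasQExp N A (HahnSeries.single (-((K : ℤ) + 1)) (1 : ℂ) *
      HahnSeries.ofPowerSeries ℤ ℂ pH) := by
    refine Fermat.Agent.S28.hasQExp_of_discPS hpH (-((K : ℤ) + 1)) fun τ => ?_
    have ht := Fermat.Agent.S28.tParam_ne_zero N τ
    rw [hHt, ← mul_assoc, ← zpow_natCast (tParam N τ) (K + 1), ← zpow_add₀ ht]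
    simp
  exact ⟨_, hexp, Fermat.Agent.S28.HasQExp.unique (hexp.pow M) hs⟩

/-- Divisibility of the order: if an `N`-periodic holomorphic `A` has `A ^ M` with level-`N`
expansion `s`, then `M ∣ ord s`. -/
theorem s29_cr_dvd_order (N : ℕ) [NeZero N] (M : ℕ) (hM : 0 < M) (A : ℍ → ℂ)
    (hA : MDifferentiable 𝓘(ℂ) 𝓘(ℂ) A) (hper : ∀ τ : ℍ, A ((N : ℝ) +ᵥ τ) = A τ)
    (s : LaurentSeries ℂ) (hs : HasQExp N (fun τ => A τ ^ M) s) :
    (M : ℤ) ∣ s.order := by
  obtain ⟨s', -, rfl⟩ := s29_cr_root N M hM A hA hper s hs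
  rw [HahnSeries.order_pow]
  exact ⟨s'.order, by simp⟩

/-- Ratio form: if `A ^ M = a * b ^ (M - 1)` (so that `A / b` is an `M`-th root of `a / b`) with
`A` holomorphic and `N`-periodic, and `a`, `b` have level-`N` expansions `sa`, `sb ≠ 0`, then
`M ∣ ord sa - ord sb`. -/
theorem s29_cr_dvd_order_ratio (N : ℕ) [NeZero N] (M : ℕ) (hM : 0 < M) (A a b : ℍ → ℂ)
    (hA : MDifferentiable 𝓘(ℂ) 𝓘(ℂ) A) (hper : ∀ τ : ℍ, A ((N : ℝ) +ᵥ τ) = A τ)
    (sa sb : LaurentSeries ℂ) (ha : HasQExp N a sa) (hb : HasQExp N b sb)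
    (hsa : sa ≠ 0) (hsb : sb ≠ 0) (hAab : ∀ τ, A τ ^ M = a τ * b τ ^ (M - 1)) :
    (M : ℤ) ∣ sa.order - sb.order := by
  have hs : HasQExp N (fun τ => A τ ^ M) (sa * sb ^ (M - 1)) :=
    (ha.mul (hb.pow (M - 1))).congr fun τ => (hAab τ).symm
  have h1 := s29_cr_dvd_order N M hM A hA hper _ hs
  rw [HahnSeries.order_mul hsa (pow_ne_zero _ hsb), HahnSeries.order_pow] at h1
  obtain ⟨c, hc⟩ := h1
  refine ⟨c - sb.order, ?_⟩
  have h2 : ((M - 1 : ℕ) : ℤ) = (M : ℤ) - 1 := by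
    rw [Nat.cast_sub hM]; simp
  rw [nsmul_eq_mul, h2] at hc
  linear_combination hc

/-! ### The translate form, at the cusp `γ ∞` -/

/-- Translates of holomorphic functions are holomorphic. -/
theorem s29_cr_mdiff_smul (γ : SL(2, ℤ)) {A : ℍ → ℂ} (hA : MDifferentiable 𝓘(ℂ) 𝓘(ℂ) A) :
    MDifferentiable 𝓘(ℂ) 𝓘(ℂ) (fun τ : ℍ => A (γ • τ)) := by
  have hdet : 0 < (Matrix.SpecialLinearGroup.mapGL ℝ γ : GL (Fin 2) ℝ).det.val := by simp
  exact MDifferentiable.comp hA (mdifferentiable_smul hdet)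

theorem s29_cr_conjT_mem (N : ℕ) (γ : SL(2, ℤ)) :
    γ * ModularGroup.T ^ N * γ⁻¹ ∈ CongruenceSubgroup.Gamma0 N := by
  have h1 : ModularGroup.T ^ N ∈ CongruenceSubgroup.Gamma N := by
    have := CongruenceSubgroup.ModularGroup_T_pow_mem_Gamma (N : ℤ) (N : ℤ) dvd_rfl
    simpa using this
  have h2 : γ * ModularGroup.T ^ N * γ⁻¹ ∈ CongruenceSubgroup.Gamma N :=
    (CongruenceSubgroup.Gamma_normal N).conj_mem _ h1 γ
  rw [CongruenceSubgroup.Gamma_mem] at h2
  rw [CongruenceSubgroup.Gamma0_mem]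
  exact h2.2.2.1

/-- The parabolic element `γ T^N γ⁻¹` of `Γ₀(N)` (it fixes the cusp `γ ∞`). -/
def s29_cr_conjT (N : ℕ) (γ : SL(2, ℤ)) : CongruenceSubgroup.Gamma0 N :=
  ⟨γ * ModularGroup.T ^ N * γ⁻¹, s29_cr_conjT_mem N γ⟩

theorem s29_cr_conjT_coe (N : ℕ) (γ : SL(2, ℤ)) :
    ((s29_cr_conjT N γ : CongruenceSubgroup.Gamma0 N) : SL(2, ℤ)) =
      γ * ModularGroup.T ^ N * γ⁻¹ := rfl

theorem s29_cr_conjT_smul (N : ℕ) (γ : SL(2, ℤ)) (τ : ℍ) :
    ((s29_cr_conjT N γ : CongruenceSubgroup.Gamma0 N) : SL(2, ℤ)) • (γ • τ) =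
      γ • ((N : ℝ) +ᵥ τ) := by
  rw [s29_cr_conjT_coe, mul_smul, mul_smul, inv_smul_smul, ← zpow_natCast,
    UpperHalfPlane.modular_T_zpow_smul]
  simp

/-- `γ T^N γ⁻¹` is parabolic: its trace is `2`. -/
theorem s29_cr_conjT_trace (N : ℕ) (γ : SL(2, ℤ)) :
    (((s29_cr_conjT N γ : CongruenceSubgroup.Gamma0 N) : SL(2, ℤ)) :
      Matrix (Fin 2) (Fin 2) ℤ).trace = 2 := by
  rw [s29_cr_conjT_coe, Matrix.SpecialLinearGroup.coe_mul, Matrix.trace_mul_comm,
    ← Matrix.SpecialLinearGroup.coe_mul, inv_mul_cancel_left, ← zpow_natCast,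
    ModularGroup.coe_T_zpow]
  simp [Matrix.trace_fin_two]

theorem s29_cr_conjT_trace_sq (N : ℕ) (γ : SL(2, ℤ)) :
    (((s29_cr_conjT N γ : CongruenceSubgroup.Gamma0 N) : SL(2, ℤ)) :
      Matrix (Fin 2) (Fin 2) ℤ).trace ^ 2 = 4 := by
  rw [s29_cr_conjT_trace]; norm_num

/-- The local cusp lemma at the cusp `γ ∞`. -/
theorem s29_cr_root_smul (N : ℕ) [NeZero N] (M : ℕ) (hM : 0 < M) (γ : SL(2, ℤ)) (A : ℍ → ℂ)
    (hA : MDifferentiable 𝓘(ℂ) 𝓘(ℂ) A)
    (hper : ∀ τ : ℍ, A (((s29_cr_conjT N γ : CongruenceSubgroup.Gamma0 N) : SL(2, ℤ)) • τ) = A τ)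
    (s : LaurentSeries ℂ) (hs : HasQExp N (fun τ => A (γ • τ) ^ M) s) :
    ∃ s' : LaurentSeries ℂ, HasQExp N (fun τ => A (γ • τ)) s' ∧ s' ^ M = s :=
  s29_cr_root N M hM (fun τ => A (γ • τ)) (s29_cr_mdiff_smul γ hA)
    (fun τ => by rw [← s29_cr_conjT_smul, hper]) s hs

/-- Ratio form at the cusp `γ ∞`: if `A / b` is an `M`-th root of `a / b` (`A ^ M = a b^(M-1)`),
`A` is holomorphic and invariant under the parabolic element `γ T^N γ⁻¹`, and the translates
`a ∘ γ`, `b ∘ γ` have level-`N` expansions `sa`, `sb ≠ 0`, then `M ∣ ord sa - ord sb`. -/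
theorem s29_cr_dvd_order_ratio_smul (N : ℕ) [NeZero N] (M : ℕ) (hM : 0 < M) (γ : SL(2, ℤ))
    (A a b : ℍ → ℂ) (hA : MDifferentiable 𝓘(ℂ) 𝓘(ℂ) A)
    (hper : ∀ τ : ℍ, A (((s29_cr_conjT N γ : CongruenceSubgroup.Gamma0 N) : SL(2, ℤ)) • τ) = A τ)
    (sa sb : LaurentSeries ℂ) (ha : HasQExp N (fun τ => a (γ • τ)) sa)
    (hb : HasQExp N (fun τ => b (γ • τ)) sb) (hsa : sa ≠ 0) (hsb : sb ≠ 0)
    (hAab : ∀ τ, A τ ^ M = a τ * b τ ^ (M - 1)) :
    (M : ℤ) ∣ sa.order - sb.order :=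
  s29_cr_dvd_order_ratio N M hM (fun τ => A (γ • τ)) (fun τ => a (γ • τ)) (fun τ => b (γ • τ))
    (s29_cr_mdiff_smul γ hA) (fun τ => by rw [← s29_cr_conjT_smul, hper]) sa sb ha hb hsa hsb
    (fun τ => hAab (γ • τ))

end Fermat.Agent.S29
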