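import Mathlib

/-!
# BRIDGE (D-lite): specialisation lemma

`K ⊆ L` fields, `K` algebraically closed, `F / K` and `M / L` field extensions, `an : F → M`
compatible with `K → L`, and linearly disjoint in the sense that `K`-linearly independent
elements of `F` stay `L`-linearly independent in `M`.  If `y = A / B` with `A`, `B` in the
`L`-span of `an F` and `y ^ m = an g`, then `g = h ^ m` for some `h : F` and `y = c * an h`
with `c ∈ L`, `c ^ m = 1`.
-/

namespace Fermat.Agent.S29

open scoped TensorProduct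

/-- A nontrivial finitely generated algebra over an algebraically closed field has a rational
point. -/
theorem s29_dl_exists_point {K A : Type*} [Field K] [IsAlgClosed K] [CommRing A] [Algebra K A]
    [Algebra.FiniteType K A] [Nontrivial A] : Nonempty (A →ₐ[K] K) := by
  obtain ⟨𝔪, h𝔪⟩ := Ideal.exists_maximal A
  let _ := Ideal.Quotient.field 𝔪
  have : Module.Finite K (A ⧸ 𝔪) := finite_of_finite_type_of_isJacobsonRing K (A ⧸ 𝔪)
  have : Algebra.IsIntegral K (A ⧸ 𝔪) := Algebra.IsIntegral.of_finite K (A ⧸ 𝔪)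
  have hbij : Function.Bijective (algebraMap K (A ⧸ 𝔪)) :=
    IsAlgClosed.algebraMap_bijective_of_isIntegral
  exact ⟨((AlgEquiv.ofBijective (Algebra.ofId K (A ⧸ 𝔪)) hbij).symm : (A ⧸ 𝔪) →ₐ[K] K).comp
    (Ideal.Quotient.mkₐ K 𝔪)⟩

/-- Linear disjointness in finite-family form gives it for arbitrary families. -/
theorem s29_dl_linearIndependent {K L F M : Type*} [Field K] [Field L] [Field F] [Field M]
    [Algebra K F] [Algebra L M] (an : F → M)
    (hld : ∀ (n : ℕ) (f : Fin n → F), LinearIndependent K f →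
      LinearIndependent L (fun i => an (f i)))
    {ι : Type*} (b : ι → F) (hb : LinearIndependent K b) :
    LinearIndependent L (fun i => an (b i)) := by
  rw [linearIndependent_iff_finset_linearIndependent]
  intro s
  have e := s.equivFin
  have h1 : LinearIndependent K (fun j : Fin s.card => b (e.symm j)) :=
    hb.comp _ (Subtype.val_injective.comp e.symm.injective)
  have h2 := (hld _ _ h1).comp e e.injective
  convert h2 using 1
  funext x
  simp

/-- The core of (D-lite): existence of an `m`-th root of `g` in `F`. -/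
theorem s29_dl_core {K L F M : Type*} [Field K] [IsAlgClosed K] [Field L] [Field F] [Field M]
    [Algebra K L] [Algebra K F] [Algebra L M] [Algebra K M] [IsScalarTower K L M]
    (an : F →ₐ[K] M)
    (hld : ∀ (n : ℕ) (f : Fin n → F), LinearIndependent K f →
      LinearIndependent L (fun i => an (f i)))
    (m : ℕ)
    (y A B : M) (hA : A ∈ Submodule.span L (Set.range an))
    (hB : B ∈ Submodule.span L (Set.range an)) (hB0 : B ≠ 0) (hy : y * B = A)
    (g : F) (hyg : y ^ m = an g) :
    ∃ h : F, h ^ m = g := by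
  classical
  -- a `K`-basis of `F`
  obtain ⟨ι, ⟨b⟩⟩ : ∃ ι : Type _, Nonempty (Module.Basis ι K F) :=
    ⟨_, ⟨Module.Basis.ofVectorSpace K F⟩⟩
  have hLI : LinearIndependent L (fun i => an (b i)) :=
    s29_dl_linearIndependent (fun x => an x) hld b b.linearIndependent
  -- the comparison map `L ⊗ F → M`
  let Φ : L ⊗[K] F →ₐ[L] M :=
    Algebra.TensorProduct.lift (Algebra.ofId L M) an (fun _ _ => Commute.all _ _)
  have hΦ : ∀ (l : L) (f : F), Φ (l ⊗ₜ[K] f) = algebraMap L M l * an f := fun l f => by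
    simp [Φ, Algebra.ofId_apply]
  let bL : Module.Basis ι L (L ⊗[K] F) := Algebra.TensorProduct.basis L b
  have hΦrepr : ∀ x : L ⊗[K] F,
      Φ x = Finsupp.linearCombination L (fun i => an (b i)) (bL.repr x) := by
    have : Φ.toLinearMap =
        (Finsupp.linearCombination L (fun i => an (b i))) ∘ₗ bL.repr.toLinearMap := by
      apply bL.ext
      intro i
      simp [bL, hΦ]
    intro x
    exact congrArg (fun f => f x) this
  have hΦinj : Function.Injective Φ := by
    rw [injective_iff_map_eq_zero]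
    intro x hx
    rw [hΦrepr] at hx
    have := (linearIndependent_iff.mp hLI) _ hx
    simpa using this
  have hrange : Submodule.span L (Set.range an) ≤ LinearMap.range Φ.toLinearMap := by
    rw [Submodule.span_le]
    rintro _ ⟨u, rfl⟩
    exact ⟨1 ⊗ₜ u, by simp [hΦ]⟩
  obtain ⟨At, hAt⟩ := hrange hA
  obtain ⟨Bt, hBt⟩ := hrange hB
  replace hAt : Φ At = A := hAt
  replace hBt : Φ Bt = B := hBt
  have hBt0 : Bt ≠ 0 := by
    rintro rfl
    exact hB0 (by rw [← hBt, map_zero])
  -- the identity upstairs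
  have hE1 : At ^ m = (1 ⊗ₜ[K] g) * Bt ^ m := by
    apply hΦinj
    rw [map_pow, map_mul, map_pow, hAt, hBt, hΦ, map_one, one_mul, ← hyg, ← hy, mul_pow]
  -- coefficients
  set α : ι →₀ L := bL.repr At with hα
  set β : ι →₀ L := bL.repr Bt with hβ
  have hβ0 : β ≠ 0 := by
    intro h
    apply hBt0
    have : bL.repr Bt = 0 := h
    simpa using this
  obtain ⟨i0, hi0⟩ : ∃ i0, β i0 ≠ 0 := by
    by_contra hcon
    exact hβ0 (Finsupp.ext fun i => by
      by_contra h
      exact hcon ⟨i, h⟩)
  let s : Finset ι := α.support ∪ β.support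
  have hi0s : i0 ∈ s := Finset.mem_union_right _ (Finsupp.mem_support_iff.mpr hi0)
  have hAsum : At = ∑ i ∈ s, α i ⊗ₜ[K] b i := by
    have h1 : At = Finsupp.linearCombination L bL α := (bL.linearCombination_repr At).symm
    rw [h1, Finsupp.linearCombination_apply,
      Finsupp.sum_of_support_subset α Finset.subset_union_left _ (by simp)]
    refine Finset.sum_congr rfl fun i _ => ?_
    exact Algebra.TensorProduct.basis_repr_symm_apply' b (α i) i
  have hBsum : Bt = ∑ i ∈ s, β i ⊗ₜ[K] b i := by
    have h1 : Bt = Finsupp.linearCombination L bL β := (bL.linearCombination_repr Bt).symm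
    rw [h1, Finsupp.linearCombination_apply,
      Finsupp.sum_of_support_subset β Finset.subset_union_right _ (by simp)]
    refine Finset.sum_congr rfl fun i _ => ?_
    exact Algebra.TensorProduct.basis_repr_symm_apply' b (β i) i
  -- the finitely generated subalgebra of coefficients
  let S : Finset L := s.image α ∪ s.image β ∪ {(β i0)⁻¹}
  let R : Subalgebra K L := Algebra.adjoin K (S : Set L)
  have hαR : ∀ i ∈ s, α i ∈ R := fun i hi => Algebra.subset_adjoin (by
    simp only [S, Finset.coe_union, Finset.coe_image, Set.mem_union, Set.mem_image,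
      Finset.mem_coe]
    exact Or.inl (Or.inl ⟨i, hi, rfl⟩))
  have hβR : ∀ i ∈ s, β i ∈ R := fun i hi => Algebra.subset_adjoin (by
    simp only [S, Finset.coe_union, Finset.coe_image, Set.mem_union, Set.mem_image,
      Finset.mem_coe]
    exact Or.inl (Or.inr ⟨i, hi, rfl⟩))
  have hinvR : (β i0)⁻¹ ∈ R := Algebra.subset_adjoin (by simp [S])
  have : Algebra.FiniteType K R :=
    (Subalgebra.fg_iff_finiteType R).mp (Subalgebra.fg_adjoin_finset S)
  obtain ⟨φ⟩ := s29_dl_exists_point (K := K) (A := R)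
  -- lifts of the coefficients to `R`
  let αR : ι → R := fun i => if h : i ∈ s then ⟨α i, hαR i h⟩ else 0
  let βR : ι → R := fun i => if h : i ∈ s then ⟨β i, hβR i h⟩ else 0
  have hαRv : ∀ i ∈ s, (αR i : L) = α i := fun i hi => by simp [αR, hi]
  have hβRv : ∀ i ∈ s, (βR i : L) = β i := fun i hi => by simp [βR, hi]
  let AR : R ⊗[K] F := ∑ i ∈ s, αR i ⊗ₜ[K] b i
  let BR : R ⊗[K] F := ∑ i ∈ s, βR i ⊗ₜ[K] b i
  let ψ : R ⊗[K] F →ₐ[K] L ⊗[K] F := Algebra.TensorProduct.map R.val (AlgHom.id K F)
  have hψinj : Function.Injective ψ := by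
    have h := Module.Flat.rTensor_preserves_injective_linearMap (M := F) R.val.toLinearMap
      Subtype.val_injective
    have h2 : ∀ x, ψ x = LinearMap.rTensor F R.val.toLinearMap x := by
      intro x
      induction x using TensorProduct.induction_on with
      | zero => simp
      | tmul r f => simp [ψ]
      | add x y hx hy => rw [map_add, map_add, hx, hy]
    intro x y hxy
    apply h
    rw [← h2, ← h2, hxy]
  have hψA : ψ AR = At := by
    rw [hAsum]
    simp only [AR, map_sum, ψ, Algebra.TensorProduct.map_tmul, AlgHom.id_apply]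
    exact Finset.sum_congr rfl fun i hi => by rw [Subalgebra.val_apply, hαRv i hi]
  have hψB : ψ BR = Bt := by
    rw [hBsum]
    simp only [BR, map_sum, ψ, Algebra.TensorProduct.map_tmul, AlgHom.id_apply]
    exact Finset.sum_congr rfl fun i hi => by rw [Subalgebra.val_apply, hβRv i hi]
  have hE2 : AR ^ m = (1 ⊗ₜ[K] g) * BR ^ m := by
    apply hψinj
    rw [map_pow, map_mul, map_pow, hψA, hψB, hE1]
    simp [ψ]
  -- specialise
  let θ : R ⊗[K] F →ₐ[K] F :=
    (Algebra.TensorProduct.lid K F : K ⊗[K] F →ₐ[K] F).comp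
      (Algebra.TensorProduct.map φ (AlgHom.id K F))
  have hθ : ∀ (r : R) (f : F), θ (r ⊗ₜ[K] f) = φ r • f := fun r f => by simp [θ]
  let A0 : F := ∑ i ∈ s, φ (αR i) • b i
  let B0 : F := ∑ i ∈ s, φ (βR i) • b i
  have hθA : θ AR = A0 := by simp [AR, A0, map_sum, hθ]
  have hθB : θ BR = B0 := by simp [BR, B0, map_sum, hθ]
  have hE3 : A0 ^ m = g * B0 ^ m := by
    have := congrArg θ hE2
    rw [map_pow, map_mul, map_pow, hθA, hθB, hθ, map_one, one_smul] at this
    exact this
  have hφ0 : φ (βR i0) ≠ 0 := by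
    have h1 : βR i0 * ⟨(β i0)⁻¹, hinvR⟩ = 1 := by
      apply Subtype.ext
      simp [hβRv i0 hi0s, hi0]
    have h2 := congrArg φ h1
    rw [map_mul, map_one] at h2
    exact left_ne_zero_of_mul_eq_one h2
  have hB00 : B0 ≠ 0 := by
    intro h
    exact hφ0 (linearIndependent_iff'.mp b.linearIndependent s (fun i => φ (βR i)) h i0 hi0s)
  refine ⟨A0 / B0, ?_⟩
  rw [div_pow, hE3, mul_div_assoc, div_self (pow_ne_zero m hB00), mul_one]

/-- **(D-lite)**: if `y = A / B` with `A`, `B` in the `L`-span of `an F`, and `y ^ m = an g`,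
then `g` is an `m`-th power `h ^ m` in `F` and `y = c * an h` with `c ∈ L` an `m`-th root of
unity. -/
theorem s29_dl_main {K L F M : Type*} [Field K] [IsAlgClosed K] [Field L] [Field F] [Field M]
    [Algebra K L] [Algebra K F] [Algebra L M]
    (an : F →+* M) (han : ∀ c : K, an (algebraMap K F c) = algebraMap L M (algebraMap K L c))
    (hld : ∀ (n : ℕ) (f : Fin n → F), LinearIndependent K f →
      LinearIndependent L (fun i => an (f i)))
    (m : ℕ) (hm : 0 < m) {ζ : L} (hζ : IsPrimitiveRoot ζ m)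
    (y A B : M) (hA : A ∈ Submodule.span L (Set.range an))
    (hB : B ∈ Submodule.span L (Set.range an)) (hB0 : B ≠ 0) (hy : y * B = A)
    (g : F) (hyg : y ^ m = an g) :
    ∃ (c : L) (h : F), c ^ m = 1 ∧ h ^ m = g ∧ y = algebraMap L M c * an h := by
  let _ : Algebra K M := ((algebraMap L M).comp (algebraMap K L)).toAlgebra
  have : IsScalarTower K L M := IsScalarTower.of_algebraMap_eq (fun _ => rfl)
  let anK : F →ₐ[K] M := { an with commutes' := han }
  obtain ⟨h, hh⟩ := s29_dl_core (K := K) (L := L) anK hld m y A B hA hB hB0 hy g hyg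
  by_cases hanh : an h = 0
  · refine ⟨1, h, one_pow m, hh, ?_⟩
    have : y ^ m = 0 := by rw [hyg, ← hh, map_pow, hanh, zero_pow hm.ne']
    rw [pow_eq_zero_iff hm.ne'] at this
    rw [this, hanh, mul_zero]
  · have : NeZero m := ⟨hm.ne'⟩
    have hζ' : IsPrimitiveRoot (algebraMap L M ζ) m :=
      hζ.map_of_injective (algebraMap L M).injective
    have h1 : (y / an h) ^ m = 1 := by
      rw [div_pow, hyg, ← hh, map_pow, div_self (pow_ne_zero m hanh)]
    obtain ⟨k, -, hk⟩ := hζ'.eq_pow_of_pow_eq_one h1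
    refine ⟨ζ ^ k, h, ?_, hh, ?_⟩
    · rw [← pow_mul, mul_comm, pow_mul, hζ.pow_eq_one, one_pow]
    · rw [map_pow, hk, div_mul_cancel₀ _ hanh]

/-- `ℂ`-form of `s29_dl_main`: `L = ℂ`, no root of unity needs to be supplied. -/
theorem s29_dl_main_complex {K F M : Type*} [Field K] [IsAlgClosed K] [Field F] [Field M]
    [Algebra K ℂ] [Algebra K F] [Algebra ℂ M]
    (an : F →+* M) (han : ∀ c : K, an (algebraMap K F c) = algebraMap ℂ M (algebraMap K ℂ c))
    (hld : ∀ (n : ℕ) (f : Fin n → F), LinearIndependent K f →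
      LinearIndependent ℂ (fun i => an (f i)))
    (m : ℕ) (hm : 0 < m)
    (y A B : M) (hA : A ∈ Submodule.span ℂ (Set.range an))
    (hB : B ∈ Submodule.span ℂ (Set.range an)) (hB0 : B ≠ 0) (hy : y * B = A)
    (g : F) (hyg : y ^ m = an g) :
    ∃ (c : ℂ) (h : F), c ^ m = 1 ∧ h ^ m = g ∧ y = algebraMap ℂ M c * an h :=
  s29_dl_main an han hld m hm (Complex.isPrimitiveRoot_exp m hm.ne') y A B hA hB hB0 hy g hyg

end Fermat.Agent.S29
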