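import Mathlib
import Fermat.Prelude.Def_ModularCurve_LaurentCoeff

/-!
# S29 (BRIDGE), block (D-lite): roots descend from `K·F₀` to `k·F₀`

`k` an algebraically closed field of characteristic zero, `K ⊇ k` any field, `F₀ ⊆ ℚ((q))` a field.
If `y ∈ K·F₀ ⊆ K((q))` (`= laurentBaseChange K F₀`) satisfies `y ^ m = g` with
`g ∈ k((q))`, then `y ∈ k·F₀` (`= laurentBaseChange k F₀`).

Proof: `y = A / B` with `A`, `B` in the `K`-algebra generated by `F₀`; their coefficients lie in a
finitely generated `k`-subalgebra `R ⊆ K`.  A `k`-point `φ : R → k` with `φ (B.coeff j₀) ≠ 0`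
(Nullstellensatz), applied coefficientwise, turns `A ^ m = g * B ^ m` into `A₀ ^ m = g * B₀ ^ m`
with `A₀, B₀ ∈ k·F₀`, `B₀ ≠ 0`.  Finally the `m`-th roots of unity of `K((q))` lie in `k`.
-/

set_option autoImplicit false
set_option linter.style.haveILetI false

open ModularCurve

namespace Fermat.Agent.S29

/-- Nullstellensatz: a finite type domain over an algebraically closed field has a `k`-point at
which a given nonzero element does not vanish. -/
theorem s29_dls_exists_point {k R : Type*} [Field k] [IsAlgClosed k] [CommRing R] [IsDomain R]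
    [Algebra k R] [Algebra.FiniteType k R] (r : R) (hr : r ≠ 0) : ∃ φ : R →ₐ[k] k, φ r ≠ 0 := by
  let S := Localization.Away r
  have hinj : Function.Injective (algebraMap R S) :=
    IsLocalization.injective S (powers_le_nonZeroDivisors_of_noZeroDivisors hr)
  haveI : Nontrivial S := hinj.nontrivial
  haveI : Algebra.FinitePresentation R S := IsLocalization.Away.finitePresentation r
  haveI : Algebra.FiniteType R S := Algebra.FiniteType.of_finitePresentation
  haveI : Algebra.FiniteType k S :=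
    Algebra.FiniteType.trans (R := k) (S := R) (A := S) inferInstance inferInstance
  obtain ⟨M, hM⟩ := Ideal.exists_maximal S
  letI := Ideal.Quotient.field M
  haveI : Algebra.FiniteType k (S ⧸ M) :=
    Algebra.FiniteType.of_surjective (Ideal.Quotient.mkₐ k M) (Ideal.Quotient.mkₐ_surjective k M)
  haveI : Module.Finite k (S ⧸ M) := finite_of_finite_type_of_isJacobsonRing k (S ⧸ M)
  have hbij : Function.Bijective (algebraMap k (S ⧸ M)) :=
    IsAlgClosed.algebraMap_bijective_of_isIntegral
  let e : k ≃ₐ[k] (S ⧸ M) := AlgEquiv.ofBijective (Algebra.ofId k (S ⧸ M)) hbij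
  refine ⟨(e.symm : (S ⧸ M) →ₐ[k] k).comp ((Ideal.Quotient.mkₐ k M).comp
    (IsScalarTower.toAlgHom k R S)), ?_⟩
  intro h0
  have h1 : (Ideal.Quotient.mk M) (algebraMap R S r) = 0 := by
    have := e.symm.injective (a₁ := (Ideal.Quotient.mk M) (algebraMap R S r)) (a₂ := 0)
      (by simpa using h0)
    exact this
  rw [Ideal.Quotient.eq_zero_iff_mem] at h1
  have hu : IsUnit (algebraMap R S r) := IsLocalization.Away.algebraMap_isUnit r
  exact hM.ne_top (Ideal.eq_top_of_isUnit_mem _ h1 hu)

theorem s29_dls_coeffMap_injective {R S : Type*} [CommRing R] [CommRing S] (f : R →+* S)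
    (hf : Function.Injective f) : Function.Injective (coeffMap f) := by
  intro x y h
  ext n
  apply hf
  have := congrArg (fun z : LaurentSeries S => z.coeff n) h
  simpa using this

section

set_option linter.unusedSectionVars false

variable {k K : Type*} [Field k] [Field K] [Algebra ℚ k] [Algebra ℚ K] [Algebra k K]

/-- `A : K((q))` has its coefficients in every `k`-subalgebra `R ⊇ S` of `K`, and all its
`k`-specialisations lie in `F`. -/
def s29_dls_Good (F : IntermediateField k (LaurentSeries k)) (A : LaurentSeries K) : Prop :=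
  ∃ S : Finset K, ∀ R : Subalgebra k K, (S : Set K) ⊆ R →
    ∃ AR : LaurentSeries R, coeffMap (R.val : R →+* K) AR = A ∧
      ∀ φ : R →ₐ[k] k, coeffMap (φ : R →+* k) AR ∈ F

theorem s29_dls_good_add (F : IntermediateField k (LaurentSeries k)) {A B : LaurentSeries K}
    (hA : s29_dls_Good F A) (hB : s29_dls_Good F B) : s29_dls_Good F (A + B) := by
  classical
  obtain ⟨SA, hSA⟩ := hA
  obtain ⟨SB, hSB⟩ := hB
  refine ⟨SA ∪ SB, fun R hR => ?_⟩
  rw [Finset.coe_union] at hR
  obtain ⟨AR, hAR, hAφ⟩ := hSA R (Set.subset_union_left.trans hR)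
  obtain ⟨BR, hBR, hBφ⟩ := hSB R (Set.subset_union_right.trans hR)
  exact ⟨AR + BR, by rw [map_add, hAR, hBR], fun φ => by
    rw [map_add]; exact add_mem (hAφ φ) (hBφ φ)⟩

theorem s29_dls_good_mul (F : IntermediateField k (LaurentSeries k)) {A B : LaurentSeries K}
    (hA : s29_dls_Good F A) (hB : s29_dls_Good F B) : s29_dls_Good F (A * B) := by
  classical
  obtain ⟨SA, hSA⟩ := hA
  obtain ⟨SB, hSB⟩ := hB
  refine ⟨SA ∪ SB, fun R hR => ?_⟩
  rw [Finset.coe_union] at hR
  obtain ⟨AR, hAR, hAφ⟩ := hSA R (Set.subset_union_left.trans hR)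
  obtain ⟨BR, hBR, hBφ⟩ := hSB R (Set.subset_union_right.trans hR)
  exact ⟨AR * BR, by rw [map_mul, hAR, hBR], fun φ => by
    rw [map_mul]; exact mul_mem (hAφ φ) (hBφ φ)⟩

theorem s29_dls_good_const (F : IntermediateField k (LaurentSeries k)) (c : K) :
    s29_dls_Good F (algebraMap K (LaurentSeries K) c) := by
  classical
  refine ⟨{c}, fun R hR => ?_⟩
  have hc : c ∈ R := hR (by simp)
  refine ⟨HahnSeries.single 0 (⟨c, hc⟩ : R), ?_, fun φ => ?_⟩
  · rw [coeffMap_single, algebraMap_laurentSeries_eq_single]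
    rfl
  · rw [coeffMap_single, ← algebraMap_laurentSeries_eq_single]
    exact F.algebraMap_mem _

theorem s29_dls_good_gen (F₀ : IntermediateField ℚ (LaurentSeries ℚ)) {x : LaurentSeries ℚ}
    (hx : x ∈ F₀) : s29_dls_Good (K := K) (laurentBaseChange k F₀) (coeffEmb K x) := by
  refine ⟨∅, fun R _ => ?_⟩
  refine ⟨coeffMap ((algebraMap k R).comp (algebraMap ℚ k)) x, ?_, fun φ => ?_⟩
  · rw [coeffMap_coeffMap, coeffEmb]
    exact coeffMap_congr (Subsingleton.elim _ _) x
  · rw [coeffMap_coeffMap]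
    have h1 : ((φ : R →+* k).comp ((algebraMap k R).comp (algebraMap ℚ k))) = algebraMap ℚ k :=
      Subsingleton.elim _ _
    rw [h1]
    exact coeffEmb_mem_laurentBaseChange k hx

theorem s29_dls_good_of_mem (F₀ : IntermediateField ℚ (LaurentSeries ℚ)) {A : LaurentSeries K}
    (hA : A ∈ Algebra.adjoin K (⇑(coeffEmb K) '' (F₀ : Set (LaurentSeries ℚ)))) :
    s29_dls_Good (laurentBaseChange k F₀) A := by
  induction hA using Algebra.adjoin_induction with
  | mem x hx =>
    obtain ⟨z, hz, rfl⟩ := hx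
    exact s29_dls_good_gen F₀ hz
  | algebraMap c => exact s29_dls_good_const _ c
  | add x y _ _ hx hy => exact s29_dls_good_add _ hx hy
  | mul x y _ _ hx hy => exact s29_dls_good_mul _ hx hy

end

/-- **(D-lite)**: an `m`-th root in `K·F₀` of an element of `k·F₀` lies in `k·F₀`
(`k` algebraically closed of characteristic zero). -/
theorem s29_dls_root {k K : Type*} [Field k] [Field K] [Algebra ℚ k] [Algebra ℚ K] [IsAlgClosed k]
    (ι : k →+* K) (F₀ : IntermediateField ℚ (LaurentSeries ℚ)) (m : ℕ) (hm : 0 < m)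
    (g : LaurentSeries k)
    (y : LaurentSeries K) (hy : y ∈ laurentBaseChange K F₀) (hpow : y ^ m = coeffMap ι g) :
    ∃ h ∈ laurentBaseChange k F₀, coeffMap ι h = y := by
  classical
  letI : Algebra k K := ι.toAlgebra
  have hιinj : Function.Injective (coeffMap ι) := s29_dls_coeffMap_injective ι ι.injective
  -- the case `g = 0`
  by_cases hg0 : g = 0
  · refine ⟨0, zero_mem _, ?_⟩
    rw [hg0, map_zero] at hpow
    rw [map_zero, eq_comm]
    exact pow_eq_zero_iff (hm.ne') |>.1 hpow
  have hy0 : y ≠ 0 := by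
    rintro rfl
    rw [zero_pow hm.ne'] at hpow
    exact hg0 (hιinj (by rw [← hpow, map_zero]))
  -- `y = A / B`
  obtain ⟨A, hA, B, hB, hyAB⟩ := IntermediateField.mem_adjoin_iff_div.1 hy
  have hB0 : B ≠ 0 := by
    rintro rfl
    rw [div_zero] at hyAB
    exact hy0 hyAB
  obtain ⟨SA, hSA⟩ := s29_dls_good_of_mem (k := k) F₀ hA
  obtain ⟨SB, hSB⟩ := s29_dls_good_of_mem (k := k) F₀ hB
  set R : Subalgebra k K := Algebra.adjoin k ((SA ∪ SB : Finset K) : Set K) with hR
  have hsub : ((SA ∪ SB : Finset K) : Set K) ⊆ R := Algebra.subset_adjoin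
  rw [Finset.coe_union] at hsub
  obtain ⟨AR, hAR, hAφ⟩ := hSA R (Set.subset_union_left.trans hsub)
  obtain ⟨BR, hBR, hBφ⟩ := hSB R (Set.subset_union_right.trans hsub)
  haveI : Algebra.FiniteType k R :=
    (Subalgebra.fg_iff_finiteType R).1 (Subalgebra.fg_adjoin_finset _)
  -- a coefficient of `B` which does not vanish
  obtain ⟨j₀, hj₀⟩ : ∃ j₀ : ℤ, BR.coeff j₀ ≠ 0 := by
    by_contra hcon
    rw [not_exists] at hcon
    have hcon : ∀ j : ℤ, BR.coeff j = 0 := fun j => not_not.1 (hcon j)
    apply hB0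
    rw [← hBR]
    have : BR = 0 := HahnSeries.ext (funext hcon)
    rw [this, map_zero]
  obtain ⟨φ, hφ⟩ := s29_dls_exists_point (k := k) (BR.coeff j₀) hj₀
  set A₀ := coeffMap (φ : R →+* k) AR with hA₀
  set B₀ := coeffMap (φ : R →+* k) BR with hB₀
  have hB₀0 : B₀ ≠ 0 := by
    intro h
    apply hφ
    have := congrArg (fun z : LaurentSeries k => z.coeff j₀) h
    simpa [hB₀] using this
  -- the relation in `R((q))`
  have hrelK : A ^ m = coeffMap ι g * B ^ m := by
    rw [← hpow, hyAB, div_pow, div_mul_cancel₀]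
    exact pow_ne_zero _ hB0
  have hval : (R.val : R →+* K).comp (algebraMap k R) = ι := rfl
  have hrelR : AR ^ m = coeffMap (algebraMap k R) g * BR ^ m := by
    apply s29_dls_coeffMap_injective (R.val : R →+* K) Subtype.val_injective
    rw [map_pow, map_mul, map_pow, hAR, hBR, coeffMap_coeffMap, hval]
    exact hrelK
  have hrel : A₀ ^ m = g * B₀ ^ m := by
    have h1 := congrArg (coeffMap (φ : R →+* k)) hrelR
    rw [map_pow, map_mul, map_pow, coeffMap_coeffMap] at h1
    have h2 : ((φ : R →+* k).comp (algebraMap k R)) = RingHom.id k := by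
      ext c
      exact φ.commutes c
    rw [h2, coeffMap_id] at h1
    exact h1
  -- a root in `k·F₀`
  set h₁ : LaurentSeries k := A₀ / B₀ with hh₁
  have hh₁mem : h₁ ∈ laurentBaseChange k F₀ := div_mem (hAφ φ) (hBφ φ)
  have hh₁pow : h₁ ^ m = g := by
    rw [hh₁, div_pow, hrel, mul_div_cancel_right₀]
    exact pow_ne_zero _ hB₀0
  have hh₁0 : h₁ ≠ 0 := by
    rintro h
    rw [h, zero_pow hm.ne'] at hh₁pow
    exact hg0 hh₁pow.symm
  -- roots of unity
  haveI : CharZero k := charZero_of_injective_algebraMap (algebraMap ℚ k).injective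
  haveI : NeZero (m : k) := ⟨by exact_mod_cast hm.ne'⟩
  haveI : NeZero m := ⟨hm.ne'⟩
  obtain ⟨ω, hω⟩ := HasEnoughRootsOfUnity.exists_primitiveRoot k m
  have hΩ : IsPrimitiveRoot (coeffMap ι (algebraMap k (LaurentSeries k) ω)) m := by
    have h1 : IsPrimitiveRoot (algebraMap k (LaurentSeries k) ω) m :=
      hω.map_of_injective (algebraMap k (LaurentSeries k)).injective
    exact h1.map_of_injective hιinj
  have hu : (y / coeffMap ι h₁) ^ m = 1 := by
    rw [div_pow, hpow, ← map_pow, hh₁pow, div_self]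
    intro h
    exact hg0 (hιinj (by rw [h, map_zero]))
  obtain ⟨i, -, hi⟩ := hΩ.eq_pow_of_pow_eq_one hu
  refine ⟨algebraMap k (LaurentSeries k) ω ^ i * h₁,
    mul_mem (pow_mem ((laurentBaseChange k F₀).algebraMap_mem ω) i) hh₁mem, ?_⟩
  rw [map_mul, map_pow, hi, div_mul_cancel₀]
  intro h
  exact hh₁0 (hιinj (by rw [h, map_zero]))

end Fermat.Agent.S29
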