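import Fermat.Agent.S29.DLiteAn

/-!
# BRIDGE: polynomials in `J(τ)`, `J(Nτ)` with complex coefficients lie in the `ℂ`-span of the
function field of `X₀(N)` inside the meromorphic functions
-/

set_option autoImplicit false

open UpperHalfPlane ModularCurve AlgebraicCurve Polynomial
open scoped MatrixGroups Manifold

noncomputable section

namespace Fermat.Agent.S29

open Fermat.Agent.S24
open Fermat.Agent.S28 (Jfun scaleH)
open CongruenceSubgroup

attribute [local instance] algKC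

/-- `j(q^d)`, `d ∣ N`, as an element of the function field of `X₀(N)`. -/
def s29_dlz_jd (N : ℕ) [NeZero N] (d : ℕ) [NeZero d] (hd : d ∣ N) : modularFunctionFieldBar N :=
  ⟨coeffEmb Kbar (qExpand ℚ d jq), coeffEmb_mem_laurentBaseChange Kbar (jqd_mem_full N hd)⟩

/-- the holomorphic function `τ ↦ J(dτ)`. -/
def s29_dlz_Jd (N : ℕ) [NeZero N] (d : ℕ) [NeZero d] (hd : d ∣ N) : s29_hol :=
  s29_ofModRing N (Jelt N d hd)

theorem s29_dlz_Jd_apply (N : ℕ) [NeZero N] (d : ℕ) [NeZero d] (hd : d ∣ N) (τ : ℍ) :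
    (s29_dlz_Jd N d hd : ℍ → ℂ) τ = Jfun (scaleH d τ) := by
  show Jfun (scaleH d ((1 : SL(2, ℤ)) • τ)) = _
  rw [one_smul]

theorem s29_dlz_J1_apply (N : ℕ) [NeZero N] (τ : ℍ) :
    (s29_dlz_Jd N 1 (one_dvd N) : ℍ → ℂ) τ = Jfun τ := by
  rw [s29_dlz_Jd_apply]
  congr 1
  apply UpperHalfPlane.ext
  simp [scaleH]

theorem s29_dlz_an_jd (N : ℕ) [NeZero N] (d : ℕ) [NeZero d] (hd : d ∣ N) :
    s29_an N (s29_dlz_jd N d hd) = algebraMap s29_hol s29_Mer (s29_dlz_Jd N d hd) := by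
  have h1 : embF N (s29_dlz_jd N d hd) = algebraMap (modRing N) (ModL N) (Jelt N d hd) := by
    rw [embF_eq_iff, expL_algebraMap, modfield_expHom_Jelt]
    rfl
  rw [s29_an_apply, h1, s29_ofModL_algebraMap]
  rfl

/-- the `ℂ`-span of the function field is a subalgebra. -/
theorem s29_dlz_span_eq (N : ℕ) [NeZero N] :
    Submodule.span ℂ (Set.range (s29_an N)) =
      Subalgebra.toSubmodule (Algebra.adjoin ℂ (Set.range (s29_an N))) := by
  rw [Algebra.adjoin_eq_span]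
  congr 1
  have h := Submonoid.closure_eq (MonoidHom.mrange (s29_an N).toMonoidHom)
  have h2 : ((MonoidHom.mrange (s29_an N).toMonoidHom : Submonoid s29_Mer) : Set s29_Mer) =
      Set.range (s29_an N) := by
    ext x
    simp
  rw [← h2, h]

/-- evaluation of a bivariate polynomial with complex coefficients at `(J(τ), J(Nτ))`, as a
holomorphic function. -/
def s29_dlz_ev (N : ℕ) [NeZero N] (P : Polynomial (Polynomial ℂ)) : s29_hol :=
  aevalAeval (s29_dlz_Jd N 1 (one_dvd N)) (s29_dlz_Jd N N dvd_rfl) P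

theorem s29_dlz_ev_apply (N : ℕ) [NeZero N] (P : Polynomial (Polynomial ℂ)) (τ : ℍ) :
    (s29_dlz_ev N P : ℍ → ℂ) τ = P.evalEval (Jfun τ) (Jfun (scaleH N τ)) := by
  let ev : s29_hol →ₐ[ℂ] ℂ := (Pi.evalAlgHom ℂ (fun _ : ℍ => ℂ) τ).comp s29_hol.val
  have h1 : ev.comp (aevalAeval (s29_dlz_Jd N 1 (one_dvd N)) (s29_dlz_Jd N N dvd_rfl)) =
      aevalAeval (Jfun τ) (Jfun (scaleH N τ)) := by
    have h := (aevalAevalEquiv ℂ ℂ).apply_symm_apply
      (ev.comp (aevalAeval (s29_dlz_Jd N 1 (one_dvd N)) (s29_dlz_Jd N N dvd_rfl)))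
    rw [← h]
    congr 1
    apply Prod.ext
    · simp only [aevalAevalEquiv_symm_apply, AlgHom.comp_apply, aevalAeval_X]
      exact s29_dlz_J1_apply N τ
    · simp only [aevalAevalEquiv_symm_apply, AlgHom.comp_apply, aevalAeval_Y]
      exact s29_dlz_Jd_apply N N dvd_rfl τ
  have h2 := congrArg (fun f => f P) h1
  rw [← coe_aevalAeval_eq_evalEval]
  exact h2

theorem s29_dlz_ev_mem (N : ℕ) [NeZero N] (P : Polynomial (Polynomial ℂ)) :
    algebraMap s29_hol s29_Mer (s29_dlz_ev N P) ∈ Submodule.span ℂ (Set.range (s29_an N)) := by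
  rw [s29_dlz_span_eq]
  set S : Subalgebra ℂ s29_Mer := Algebra.adjoin ℂ (Set.range (s29_an N)) with hS
  have hx : algebraMap s29_hol s29_Mer (s29_dlz_Jd N 1 (one_dvd N)) ∈ S :=
    Algebra.subset_adjoin ⟨_, s29_dlz_an_jd N 1 (one_dvd N)⟩
  have hy : algebraMap s29_hol s29_Mer (s29_dlz_Jd N N dvd_rfl) ∈ S :=
    Algebra.subset_adjoin ⟨_, s29_dlz_an_jd N N dvd_rfl⟩
  have h1 : (IsScalarTower.toAlgHom ℂ s29_hol s29_Mer).comp
      (aevalAeval (s29_dlz_Jd N 1 (one_dvd N)) (s29_dlz_Jd N N dvd_rfl)) =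
      S.val.comp (aevalAeval (⟨_, hx⟩ : S) ⟨_, hy⟩) := by
    apply (aevalAevalEquiv ℂ s29_Mer).symm.injective
    apply Prod.ext
    · simp only [aevalAevalEquiv_symm_apply, AlgHom.comp_apply, aevalAeval_X]
      rfl
    · simp only [aevalAevalEquiv_symm_apply, AlgHom.comp_apply, aevalAeval_Y]
      rfl
  have h2 := congrArg (fun f => f P) h1
  simp only [AlgHom.comp_apply] at h2
  show algebraMap s29_hol s29_Mer (s29_dlz_ev N P) ∈ S
  have h3 : algebraMap s29_hol s29_Mer (s29_dlz_ev N P) =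
      (S.val ((aevalAeval (⟨_, hx⟩ : S) ⟨_, hy⟩) P)) := h2
  rw [h3]
  exact Subtype.property _

/-- **(Z2) adapter**: a meromorphic function `G = A / b` (`A`, `b` holomorphic) with
`A · D(J, J_N) = b · H(J, J_N)` for bivariate polynomials `D ≠ 0`, `H` over `ℂ` is a quotient
of two elements of the `ℂ`-span of the function field of `X₀(N)`. -/
theorem s29_dlz_adapter (N : ℕ) [NeZero N] (G : s29_Mer) (A b : s29_hol) (hb : b ≠ 0)
    (hG : G * algebraMap s29_hol s29_Mer b = algebraMap s29_hol s29_Mer A)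
    (D H : Polynomial (Polynomial ℂ))
    (hD : ∃ τ : ℍ, D.evalEval (Jfun τ) (Jfun (scaleH N τ)) ≠ 0)
    (hDH : ∀ τ : ℍ, (A : ℍ → ℂ) τ * D.evalEval (Jfun τ) (Jfun (scaleH N τ)) =
      (b : ℍ → ℂ) τ * H.evalEval (Jfun τ) (Jfun (scaleH N τ))) :
    ∃ A' B' : s29_Mer, A' ∈ Submodule.span ℂ (Set.range (s29_an N)) ∧
      B' ∈ Submodule.span ℂ (Set.range (s29_an N)) ∧ B' ≠ 0 ∧ G * B' = A' := by
  refine ⟨algebraMap s29_hol s29_Mer (s29_dlz_ev N H), algebraMap s29_hol s29_Mer (s29_dlz_ev N D),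
    s29_dlz_ev_mem N H, s29_dlz_ev_mem N D, ?_, ?_⟩
  · obtain ⟨τ, hτ⟩ := hD
    intro h0
    have h1 : s29_dlz_ev N D = 0 := s29_algebraMap_injective (by rw [h0, map_zero])
    apply hτ
    rw [← s29_dlz_ev_apply, h1]
    rfl
  · have h1 : A * s29_dlz_ev N D = b * s29_dlz_ev N H := by
      apply s29_hol_ext
      intro τ
      show (A : ℍ → ℂ) τ * (s29_dlz_ev N D : ℍ → ℂ) τ = (b : ℍ → ℂ) τ * (s29_dlz_ev N H : ℍ → ℂ) τ
      rw [s29_dlz_ev_apply, s29_dlz_ev_apply]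
      exact hDH τ
    have hb' : algebraMap s29_hol s29_Mer b ≠ 0 := fun h =>
      hb (s29_algebraMap_injective (by rw [h, map_zero]))
    apply mul_right_cancel₀ hb'
    rw [mul_right_comm, hG, ← map_mul, ← map_mul, h1, mul_comm]

end Fermat.Agent.S29
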