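import Mathlib
import Fermat.Prelude.Def_ModularCurve_LaurentCoeff

/-!
# BRIDGE, block (D): descent from `ℂ` to `AlgebraicClosure ℚ` — automorphisms fixing `ι(Q̄)`

* `s29_daf_exists_perm` : an algebraically closed field `K` over a field `R` has an
  `R`-automorphism inducing a given permutation of a transcendence basis of `K / R`.
* `s29_daf_exists_aut` : if `R` is countable, an element of `ℂ` transcendental over `R` has
  infinitely many conjugates under `Aut(ℂ/R)`.
* `s29_daf_mem_range_of_finite_orbit` : a complex number with finitely many conjugates under the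
  automorphisms of `ℂ` fixing `ι(Q̄)` pointwise lies in `ι(Q̄)`.
* `s29_daf_series_descend` : the same for Laurent series (coefficientwise action).
-/

set_option autoImplicit false

open Cardinal

noncomputable section

namespace Fermat.Agent.S29

/-- An algebraically closed field has an `R`-automorphism inducing a given permutation of a
transcendence basis over `R`. -/
theorem s29_daf_exists_perm {R K : Type*} [Field R] [Field K] [IsAlgClosed K] [Algebra R K]
    {ι : Type*} (v : ι → K) (hv : IsTranscendenceBasis R v) (e : ι ≃ ι) :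
    ∃ σ : K ≃ₐ[R] K, ∀ i, σ (v i) = v (e i) := by
  have : IsAlgClosure (Algebra.adjoin R (Set.range v)) K :=
    IsAlgClosed.isAlgClosure_of_transcendence_basis v hv
  let e₀ : Algebra.adjoin R (Set.range v) ≃ₐ[R] Algebra.adjoin R (Set.range v) :=
    (hv.1.aevalEquiv.symm.trans (MvPolynomial.renameEquiv R e)).trans hv.1.aevalEquiv
  let σ₀ : K ≃+* K := IsAlgClosure.equivOfEquiv K K e₀.toRingEquiv
  have hσ₀ : ∀ s : Algebra.adjoin R (Set.range v),
      σ₀ (algebraMap (Algebra.adjoin R (Set.range v)) K s) =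
        algebraMap (Algebra.adjoin R (Set.range v)) K (e₀ s) :=
    fun s => IsAlgClosure.equivOfEquiv_algebraMap K K e₀.toRingEquiv s
  have hX : ∀ i, hv.1.aevalEquiv (MvPolynomial.X i) =
      (⟨v i, Algebra.subset_adjoin ⟨i, rfl⟩⟩ : Algebra.adjoin R (Set.range v)) := by
    intro i
    apply Subtype.ext
    have h1 := hv.1.algebraMap_aevalEquiv (MvPolynomial.X i)
    rw [MvPolynomial.aeval_X] at h1
    exact h1
  refine ⟨AlgEquiv.ofRingEquiv (f := σ₀) (fun r => ?_), fun i => ?_⟩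
  · have h1 : algebraMap R K r = algebraMap (Algebra.adjoin R (Set.range v)) K
        (algebraMap R (Algebra.adjoin R (Set.range v)) r) := rfl
    rw [h1, hσ₀, e₀.commutes]
  · have h1 : v i = algebraMap (Algebra.adjoin R (Set.range v)) K
        ⟨v i, Algebra.subset_adjoin ⟨i, rfl⟩⟩ := rfl
    have h2 : e₀ ⟨v i, Algebra.subset_adjoin ⟨i, rfl⟩⟩ =
        (⟨v (e i), Algebra.subset_adjoin ⟨e i, rfl⟩⟩ : Algebra.adjoin R (Set.range v)) := by
      show hv.1.aevalEquiv (MvPolynomial.renameEquiv R e (hv.1.aevalEquiv.symm _)) = _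
      rw [← hX i, AlgEquiv.symm_apply_apply, MvPolynomial.renameEquiv_apply,
        MvPolynomial.rename_X, hX]
    show σ₀ (v i) = v (e i)
    rw [h1, hσ₀, h2]
    rfl

/-- Over a countable field `R ⊆ ℂ`, a complex number transcendental over `R` has infinitely many
conjugates under `Aut(ℂ/R)`. -/
theorem s29_daf_exists_aut {R : Type} [Field R] [Algebra R ℂ] (hR : #R ≤ ℵ₀) (c : ℂ)
    (hc : Transcendental R c) :
    ∃ s : Set ℂ, s.Infinite ∧ ∀ b ∈ s, ∃ σ : ℂ ≃ₐ[R] ℂ, σ c = b := by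
  classical
  have hind : AlgebraicIndepOn R id ({c} : Set ℂ) :=
    (algebraicIndependent_singleton_iff (⟨c, rfl⟩ : ({c} : Set ℂ))).mpr hc
  obtain ⟨t, hct, ht⟩ := exists_isTranscendenceBasis_superset hind
  have hcmem : c ∈ t := hct rfl
  refine ⟨t, ?_, fun b hb => ?_⟩
  · have hcard : #ℂ = #t :=
      IsAlgClosed.cardinal_eq_cardinal_transcendence_basis_of_aleph0_lt' ((↑) : t → ℂ) ht
        hR (by rw [Cardinal.mk_complex]; exact Cardinal.aleph0_lt_continuum)
    rw [← Set.infinite_coe_iff, Cardinal.infinite_iff, ← hcard, Cardinal.mk_complex]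
    exact Cardinal.aleph0_le_continuum
  · obtain ⟨σ, hσ⟩ := s29_daf_exists_perm ((↑) : t → ℂ) ht (Equiv.swap ⟨c, hcmem⟩ ⟨b, hb⟩)
    refine ⟨σ, ?_⟩
    have h1 := hσ ⟨c, hcmem⟩
    rwa [Equiv.swap_apply_left] at h1

/-- `AlgebraicClosure ℚ` is countable. -/
theorem s29_daf_card_Qb : #(AlgebraicClosure ℚ) ≤ ℵ₀ := by
  have : Algebra.IsAlgebraic ℚ (AlgebraicClosure ℚ) := AlgebraicClosure.isAlgebraic ℚ
  have h := Algebra.IsAlgebraic.cardinalMk_le_max ℚ (AlgebraicClosure ℚ)
  rwa [Cardinal.mkRat, max_self] at h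

/-- **(T), finite-orbit form.** A complex number with finitely many conjugates under the
automorphisms of `ℂ` fixing `ι(Q̄)` pointwise lies in `ι(Q̄)`. -/
theorem s29_daf_mem_range_of_finite_orbit (ι : AlgebraicClosure ℚ →+* ℂ) (c : ℂ) (T : Set ℂ)
    (hT : T.Finite)
    (hc : ∀ σ : ℂ ≃ₐ[ℚ] ℂ, (∀ a, σ (ι a) = ι a) → σ c ∈ T) : c ∈ Set.range ι := by
  classical
  let _ : Algebra (AlgebraicClosure ℚ) ℂ := ι.toAlgebra
  by_contra hcr
  have htr : Transcendental (AlgebraicClosure ℚ) c := by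
    intro halg
    have hint : IsIntegral (AlgebraicClosure ℚ) c := halg.isIntegral
    have hdeg : (minpoly (AlgebraicClosure ℚ) c).degree = 1 :=
      IsAlgClosed.degree_eq_one_of_irreducible _ (minpoly.irreducible hint)
    obtain ⟨a, ha⟩ := minpoly.mem_range_of_degree_eq_one (AlgebraicClosure ℚ) c hdeg
    exact hcr ⟨a, ha⟩
  obtain ⟨s, hs, hσ⟩ := s29_daf_exists_aut s29_daf_card_Qb c htr
  refine hs (hT.subset fun b hb => ?_)
  obtain ⟨σ, rfl⟩ := hσ b hb
  have h1 := hc (AlgEquiv.ofRingEquiv (f := σ.toRingEquiv) (fun r =>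
    RingHom.congr_fun (RingHom.ext_rat ((σ.toRingEquiv : ℂ →+* ℂ).comp (algebraMap ℚ ℂ))
      (algebraMap ℚ ℂ)) r)) (fun a => σ.commutes a)
  exact h1

/-- The fixing form: a complex number fixed by every automorphism of `ℂ` that fixes `ι(Q̄)`
pointwise lies in `ι(Q̄)`. -/
theorem s29_daf_mem_range_of_fixed (ι : AlgebraicClosure ℚ →+* ℂ) (c : ℂ)
    (hc : ∀ σ : ℂ ≃ₐ[ℚ] ℂ, (∀ a, σ (ι a) = ι a) → σ c = c) : c ∈ Set.range ι :=
  s29_daf_mem_range_of_finite_orbit ι c {c} (Set.finite_singleton c) (fun σ hσ => hc σ hσ)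

open ModularCurve in
/-- **(T), series form.** A Laurent series over `ℂ` with finitely many conjugates under the
coefficientwise action of the automorphisms of `ℂ` fixing `ι(Q̄)` comes from a Laurent series
over `AlgebraicClosure ℚ`. -/
theorem s29_daf_series_descend (ι : AlgebraicClosure ℚ →+* ℂ) (x : LaurentSeries ℂ)
    (T : Set (LaurentSeries ℂ)) (hT : T.Finite)
    (hx : ∀ σ : ℂ ≃ₐ[ℚ] ℂ, (∀ a, σ (ι a) = ι a) →
      coeffMap ((σ : ℂ ≃ₐ[ℚ] ℂ) : ℂ →+* ℂ) x ∈ T) :
    ∃ y : LaurentSeries (AlgebraicClosure ℚ), coeffMap ι y = x := by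
  classical
  have hcoeff : ∀ n : ℤ, ∃ a : AlgebraicClosure ℚ, ι a = x.coeff n := by
    intro n
    refine s29_daf_mem_range_of_finite_orbit ι (x.coeff n)
      ((fun z : LaurentSeries ℂ => z.coeff n) '' T) (hT.image _) (fun σ hσ => ?_)
    exact ⟨_, hx σ hσ, rfl⟩
  choose a ha using hcoeff
  refine ⟨HahnSeries.ofSuppBddBelow a ?_, ?_⟩
  · refine ⟨x.order, fun k hk => le_of_not_gt fun hlt => hk ?_⟩
    have h0 : x.coeff k = 0 := HahnSeries.coeff_eq_zero_of_lt_order hlt
    have h1 : ι (a k) = 0 := by rw [ha, h0]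
    exact (map_eq_zero ι).mp h1
  · ext k
    rw [coeffMap_coeff]
    exact ha k

end Fermat.Agent.S29

end
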