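import Mathlib
import Fermat.Agent.S29.DescentMod
import Fermat.Agent.S29.FFC

/-!
# S29 (BRIDGE), block (D): descent `ℂ → Q̄` for `ℂ · F_N`, final form

The theorems of `DescentMod.lean` with the finiteness of `ℂ · F_N` over `ℂ(j)` supplied by
`FFC.lean`: if `g ∈ (ℂ · F_N)ˣ` and the conjugates `σ(g)`, `σ ∈ Aut(ℂ/ℚ)`, lie in finitely many
classes modulo `M`-th powers of `(ℂ · F_N)ˣ`, then `h ^ M * g = ι(g₀)` for some
`h ∈ (ℂ · F_N)ˣ` and `g₀ ∈ Q̄ · F_N`.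
-/

set_option autoImplicit false

namespace Fermat.Agent.S29

open AlgebraicCurve ModularCurve
open scoped IntermediateField

noncomputable section

local notation "Qb" => AlgebraicClosure ℚ

/-- **(D), final subtype form.** -/
theorem s29_dd_descent_fin (N : ℕ) [NeZero N] (ι : Qb →+* ℂ)
    (g : laurentBaseChange ℂ (modularFunctionFieldFull N)) (hg0 : g ≠ 0) (M : ℕ) (hM : 0 < M)
    (gs : (ℂ ≃ₐ[ℚ] ℂ) → laurentBaseChange ℂ (modularFunctionFieldFull N))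
    (hgs : ∀ σ : ℂ ≃ₐ[ℚ] ℂ,
      (gs σ : LaurentSeries ℂ) = coeffMap (σ : ℂ →+* ℂ) (g : LaurentSeries ℂ))
    (T : Finset (laurentBaseChange ℂ (modularFunctionFieldFull N)))
    (hT : ∀ σ : ℂ ≃ₐ[ℚ] ℂ, ∃ t ∈ T,
      ∃ u : laurentBaseChange ℂ (modularFunctionFieldFull N), u ≠ 0 ∧ gs σ = t * u ^ M) :
    ∃ (g₀ : modularFunctionFieldBar N) (h : laurentBaseChange ℂ (modularFunctionFieldFull N)),
      h ≠ 0 ∧ coeffMap ι (g₀ : LaurentSeries Qb)
        = ((h ^ M * g : laurentBaseChange ℂ (modularFunctionFieldFull N)) : LaurentSeries ℂ) :=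
  s29_dd_descent_mod N ι (s29_ffc_j ℂ N) rfl g hg0 M hM gs hgs T hT

/-- **(D), final series form.** -/
theorem s29_dd_descent_fin_series (N : ℕ) [NeZero N] (ι : Qb →+* ℂ)
    (g : LaurentSeries ℂ) (hg : g ∈ laurentBaseChange ℂ (modularFunctionFieldFull N))
    (hg0 : g ≠ 0) (M : ℕ) (hM : 0 < M)
    (T : Finset (LaurentSeries ℂ))
    (hT : ∀ σ : ℂ ≃ₐ[ℚ] ℂ, ∃ t ∈ T,
      ∃ u ∈ laurentBaseChange ℂ (modularFunctionFieldFull N), u ≠ 0 ∧
        coeffMap (σ : ℂ →+* ℂ) g = t * u ^ M) :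
    ∃ (g₀ : modularFunctionFieldBar N) (h : LaurentSeries ℂ),
      h ∈ laurentBaseChange ℂ (modularFunctionFieldFull N) ∧ h ≠ 0 ∧
        coeffMap ι (g₀ : LaurentSeries Qb) = h ^ M * g :=
  s29_dd_descent_mod_series N ι (s29_ffc_j ℂ N) rfl g hg hg0 M hM T hT

end

end Fermat.Agent.S29
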