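import Mathlib
import Fermat.Agent.S29.FFC
import Fermat.Agent.S29.DescentAbs
import Fermat.Agent.S29.DescAutFix
import Fermat.Agent.S29.LinDisj
import Fermat.Agent.S29.DescentMod

/-!
# BRIDGE, block (D): descent of `m`-th power classes from `ℂ · F_N` to `Q̄ · F_N`

`s29_dm_main`: let `g ∈ F_ℂ := ℂ · F_N ⊆ ℂ((q))` be non-zero and `m ≥ 1`.  If the class of `g`
modulo `m`-th powers has a finite orbit under the coefficientwise action of the automorphisms of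
`ℂ` fixing `ι(Q̄)`, then there is `h ∈ F_ℂ`, `h ≠ 0`, such that `h ^ m * g` is the extension of
coefficients of an element of `Q̄ · F_N = modularFunctionFieldBar N`.

Proof: the canonical element `h₀ ^ m * g` of the class (`s29_d_canonical`), normalised to have
leading `q`-coefficient `1`, is fixed by the stabiliser of the class; hence it has a finite orbit,
so its coefficients lie in `ι(Q̄)` (`s29_daf_series_descend`), and linear disjointness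
(`s29_ld`) puts the descended series into `Q̄ · F_N`.
-/

set_option autoImplicit false

noncomputable section

namespace Fermat.Agent.S29

open ModularCurve AlgebraicCurve

theorem s29_dm_coeffMap_mul (σ τ : ℂ ≃ₐ[ℚ] ℂ) (x : LaurentSeries ℂ) :
    coeffMap ((σ * τ : ℂ ≃ₐ[ℚ] ℂ) : ℂ →+* ℂ) x
      = coeffMap ((σ : ℂ ≃ₐ[ℚ] ℂ) : ℂ →+* ℂ) (coeffMap ((τ : ℂ ≃ₐ[ℚ] ℂ) : ℂ →+* ℂ) x) := by
  rw [coeffMap_coeffMap]
  exact coeffMap_congr (RingHom.ext fun _ => rfl) x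

theorem s29_dm_coeffMap_one (x : LaurentSeries ℂ) :
    coeffMap ((1 : ℂ ≃ₐ[ℚ] ℂ) : ℂ →+* ℂ) x = x := by
  have h : ((1 : ℂ ≃ₐ[ℚ] ℂ) : ℂ →+* ℂ) = RingHom.id ℂ := RingHom.ext fun _ => rfl
  rw [h, coeffMap_id]

theorem s29_dm_coeffMap_inv_self (σ : ℂ ≃ₐ[ℚ] ℂ) (x : LaurentSeries ℂ) :
    coeffMap ((σ⁻¹ : ℂ ≃ₐ[ℚ] ℂ) : ℂ →+* ℂ) (coeffMap ((σ : ℂ ≃ₐ[ℚ] ℂ) : ℂ →+* ℂ) x) = x := by
  rw [← s29_dm_coeffMap_mul, inv_mul_cancel, s29_dm_coeffMap_one]

theorem s29_dm_coeffMap_C (σ : ℂ →+* ℂ) (c : ℂ) :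
    coeffMap σ (HahnSeries.C c : LaurentSeries ℂ) = HahnSeries.C (σ c) := by
  rw [HahnSeries.C_apply, coeffMap_single, HahnSeries.C_apply]

/-- **(D-alg), final form.** -/
theorem s29_dm_main (N : ℕ) [NeZero N] (ι : AlgebraicClosure ℚ →+* ℂ) (m : ℕ) (hm : 0 < m)
    (g : LaurentSeries ℂ) (hg : g ∈ laurentBaseChange ℂ (modularFunctionFieldFull N))
    (hg0 : g ≠ 0) (T : Set (LaurentSeries ℂ)) (hT : T.Finite)
    (horb : ∀ σ : ℂ ≃ₐ[ℚ] ℂ, (∀ a, σ (ι a) = ι a) →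
      ∃ t ∈ T, ∃ u ∈ laurentBaseChange ℂ (modularFunctionFieldFull N), u ≠ 0 ∧
        coeffMap ((σ : ℂ ≃ₐ[ℚ] ℂ) : ℂ →+* ℂ) g = t * u ^ m) :
    ∃ h ∈ laurentBaseChange ℂ (modularFunctionFieldFull N), h ≠ 0 ∧
      ∃ y ∈ modularFunctionFieldBar N, coeffMap ι y = h ^ m * g := by
  classical
  let gF : laurentBaseChange ℂ (modularFunctionFieldFull N) := ⟨g, hg⟩
  have hgF : gF ≠ 0 := fun h => hg0 (congrArg Subtype.val h)
  obtain ⟨P, hP⟩ := s29_ffc_qPlace ℂ N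
  obtain ⟨h₀, h0, H⟩ := s29_d_canonical (s29_ffc_j ℂ N) (s29_ffc_transcendental ℂ N) P
    (by rw [s29_ffc_qPlace_ord_j ℂ N P hP]; norm_num) gF hgF m hm
  have h0' : (h₀ : LaurentSeries ℂ) ≠ 0 := fun h => h0 (Subtype.ext h)
  -- the canonical element as a series
  set w : LaurentSeries ℂ := (h₀ : LaurentSeries ℂ) ^ m * g with hw
  have hw0 : w ≠ 0 := mul_ne_zero (pow_ne_zero m h0') hg0
  have ha : w.coeff w.order ≠ 0 := HahnSeries.coeff_order_eq_zero.not.mpr hw0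
  obtain ⟨r, hr⟩ := IsAlgClosed.exists_pow_nat_eq (w.coeff w.order)⁻¹ hm
  have hr0 : r ≠ 0 := by
    rintro rfl
    rw [zero_pow hm.ne'] at hr
    exact inv_ne_zero ha hr.symm
  -- the normalised element
  set g0 : LaurentSeries ℂ := HahnSeries.C (w.coeff w.order)⁻¹ * w with hg0def
  have hg0n : g0.coeff w.order = 1 := by
    rw [hg0def, HahnSeries.C_mul_eq_smul, HahnSeries.coeff_smul, smul_eq_mul]
    exact inv_mul_cancel₀ ha
  -- the stabiliser of the class fixes `g0`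
  have Hs : ∀ τ : ℂ ≃ₐ[ℚ] ℂ, ∀ v ∈ laurentBaseChange ℂ (modularFunctionFieldFull N), v ≠ 0 →
      coeffMap ((τ : ℂ ≃ₐ[ℚ] ℂ) : ℂ →+* ℂ) g = g * v ^ m →
      coeffMap ((τ : ℂ ≃ₐ[ℚ] ℂ) : ℂ →+* ℂ) g0 = g0 := by
    intro τ v hv hv0 hτ
    obtain ⟨c, -, hcw⟩ := H (arithmeticGalois (modularFunctionFieldFull N) τ)
      (s29_ffc_galois_j ℂ N τ) (s29_ffc_galois_qPlace ℂ N P hP τ) ⟨v, hv⟩
      (fun h => hv0 (congrArg Subtype.val h)) (Subtype.ext hτ)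
    have hcw' : coeffMap ((τ : ℂ ≃ₐ[ℚ] ℂ) : ℂ →+* ℂ) w = HahnSeries.C c * w := by
      have h1 := congrArg Subtype.val hcw
      rw [coe_arithmeticGalois_smul] at h1
      have h2 : ((algebraMap ℂ (laurentBaseChange ℂ (modularFunctionFieldFull N)) c *
          (h₀ ^ m * gF) : laurentBaseChange ℂ (modularFunctionFieldFull N)) : LaurentSeries ℂ)
          = HahnSeries.C c * w := by
        show algebraMap ℂ (LaurentSeries ℂ) c * ((h₀ : LaurentSeries ℂ) ^ m * g) = _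
        rw [algebraMap_laurentSeries_eq_single, HahnSeries.C_apply]
      rw [h2] at h1
      exact h1
    have h1 : coeffMap ((τ : ℂ ≃ₐ[ℚ] ℂ) : ℂ →+* ℂ) g0
        = HahnSeries.C (τ (w.coeff w.order)⁻¹ * c) * w := by
      rw [hg0def, map_mul, hcw', s29_dm_coeffMap_C, ← mul_assoc, ← map_mul]
      rfl
    have h2 : τ (w.coeff w.order)⁻¹ * c * w.coeff w.order = 1 := by
      have h3 := congrArg (fun x : LaurentSeries ℂ => x.coeff w.order) h1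
      simp only [coeffMap_coeff, HahnSeries.C_mul_eq_smul, HahnSeries.coeff_smul,
        smul_eq_mul] at h3
      rw [hg0n] at h3
      rw [← h3]
      exact map_one τ
    rw [h1, hg0def, eq_inv_of_mul_eq_one_left h2]
  -- the orbit of `g0` is finite
  let S : Set (LaurentSeries ℂ) :=
    {x | ∃ σ : ℂ ≃ₐ[ℚ] ℂ, (∀ a, σ (ι a) = ι a) ∧ x = coeffMap ((σ : ℂ ≃ₐ[ℚ] ℂ) : ℂ →+* ℂ) g0}
  have hS : S.Finite := by
    -- choose an automorphism for each element of the orbit, and the class representative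
    have hex : ∀ x : S, ∃ σ : ℂ ≃ₐ[ℚ] ℂ, (∀ a, σ (ι a) = ι a) ∧
        (x : LaurentSeries ℂ) = coeffMap ((σ : ℂ ≃ₐ[ℚ] ℂ) : ℂ →+* ℂ) g0 := fun x => x.2
    choose σs hσfix hσx using hex
    have hex2 : ∀ x : S, ∃ t ∈ T, ∃ u ∈ laurentBaseChange ℂ (modularFunctionFieldFull N), u ≠ 0 ∧
        coeffMap ((σs x : ℂ ≃ₐ[ℚ] ℂ) : ℂ →+* ℂ) g = t * u ^ m := fun x => horb (σs x) (hσfix x)
    choose ts htT us husF hus0 hus using hex2
    have : Finite T := hT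
    have hinj : Function.Injective (fun x : S => (⟨ts x, htT x⟩ : T)) := by
      intro x y hxy
      have hxy' : ts x = ts y := congrArg Subtype.val hxy
      apply Subtype.ext
      rw [hσx x, hσx y]
      -- `τ := (σs y)⁻¹ * σs x` stabilises the class of `g`
      have hux := hus x
      have huy := hus y
      rw [hxy'] at hux
      have e1 : g = coeffMap (((σs y)⁻¹ : ℂ ≃ₐ[ℚ] ℂ) : ℂ →+* ℂ) (ts y) *
          coeffMap (((σs y)⁻¹ : ℂ ≃ₐ[ℚ] ℂ) : ℂ →+* ℂ) (us y) ^ m := by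
        rw [← map_pow, ← map_mul, ← huy, s29_dm_coeffMap_inv_self]
      have huy0 : coeffMap (((σs y)⁻¹ : ℂ ≃ₐ[ℚ] ℂ) : ℂ →+* ℂ) (us y) ≠ 0 := by
        intro h
        have h' := congrArg (coeffMap ((σs y : ℂ ≃ₐ[ℚ] ℂ) : ℂ →+* ℂ)) h
        rw [← s29_dm_coeffMap_mul, mul_inv_cancel, s29_dm_coeffMap_one, map_zero] at h'
        exact hus0 y h'
      have hux0 : coeffMap (((σs y)⁻¹ : ℂ ≃ₐ[ℚ] ℂ) : ℂ →+* ℂ) (us x) ≠ 0 := by
        intro h
        have h' := congrArg (coeffMap ((σs y : ℂ ≃ₐ[ℚ] ℂ) : ℂ →+* ℂ)) h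
        rw [← s29_dm_coeffMap_mul, mul_inv_cancel, s29_dm_coeffMap_one, map_zero] at h'
        exact hus0 x h'
      have e2 : coeffMap ((((σs y)⁻¹ * σs x : ℂ ≃ₐ[ℚ] ℂ)) : ℂ →+* ℂ) g
          = g * (coeffMap (((σs y)⁻¹ : ℂ ≃ₐ[ℚ] ℂ) : ℂ →+* ℂ) (us x) /
              coeffMap (((σs y)⁻¹ : ℂ ≃ₐ[ℚ] ℂ) : ℂ →+* ℂ) (us y)) ^ m := by
        rw [s29_dm_coeffMap_mul, hux, map_mul, map_pow, div_pow]
        conv_rhs => rw [e1]
        field_simp
      have e3 := Hs ((σs y)⁻¹ * σs x) _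
        (div_mem (coeffMap_mem_laurentBaseChange (σs y)⁻¹ (husF x))
          (coeffMap_mem_laurentBaseChange (σs y)⁻¹ (husF y)))
        (div_ne_zero hux0 huy0) e2
      have e4 := congrArg (coeffMap ((σs y : ℂ ≃ₐ[ℚ] ℂ) : ℂ →+* ℂ)) e3
      rw [← s29_dm_coeffMap_mul, mul_inv_cancel_left] at e4
      exact e4
    have : Finite S := Finite.of_injective _ hinj
    exact Set.toFinite S
  obtain ⟨y, hy⟩ := s29_daf_series_descend ι g0 S hS (fun σ hσ => ⟨σ, hσ, rfl⟩)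
  -- `g0 = h ^ m * g` with `h = r • h₀`
  have hg0eq : g0 = (HahnSeries.C r * (h₀ : LaurentSeries ℂ)) ^ m * g := by
    rw [hg0def, hw, mul_pow, ← map_pow, hr, mul_assoc]
  have hCmem : (HahnSeries.C r : LaurentSeries ℂ) ∈
      laurentBaseChange ℂ (modularFunctionFieldFull N) := by
    rw [HahnSeries.C_apply, ← algebraMap_laurentSeries_eq_single]
    exact (laurentBaseChange ℂ (modularFunctionFieldFull N)).algebraMap_mem r
  have hhmem : HahnSeries.C r * (h₀ : LaurentSeries ℂ) ∈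
      laurentBaseChange ℂ (modularFunctionFieldFull N) := mul_mem hCmem h₀.2
  have hC0 : (HahnSeries.C r : LaurentSeries ℂ) ≠ 0 := by
    rw [HahnSeries.C_apply]
    exact HahnSeries.single_ne_zero hr0
  refine ⟨HahnSeries.C r * (h₀ : LaurentSeries ℂ), hhmem, mul_ne_zero hC0 h0', y, ?_, ?_⟩
  · apply s29_ld (modularFunctionFieldFull N) ι y
    rw [hy, hg0eq]
    exact mul_mem (pow_mem hhmem m) hg
  · rw [hy, hg0eq]

/-- helper16's `s29_dd_descent_mod_series` with the finiteness hypothesis discharged by (FF-C):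
`g ∈ ℂ · F_N` non-zero whose conjugates `σ(g)` are, modulo `M`-th powers, in a finite set of
series.  Then `h ^ M * g = ι(g₀)` with `g₀ ∈ Q̄ · F_N` and `h ∈ (ℂ · F_N)ˣ`. -/
theorem s29_dm_descent_mod_series (N : ℕ) [NeZero N] (ι : AlgebraicClosure ℚ →+* ℂ)
    (g : LaurentSeries ℂ) (hg : g ∈ laurentBaseChange ℂ (modularFunctionFieldFull N))
    (hg0 : g ≠ 0) (M : ℕ) (hM : 0 < M)
    (T : Finset (LaurentSeries ℂ))
    (hT : ∀ σ : ℂ ≃ₐ[ℚ] ℂ, ∃ t ∈ T,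
      ∃ u ∈ laurentBaseChange ℂ (modularFunctionFieldFull N), u ≠ 0 ∧
        coeffMap ((σ : ℂ ≃ₐ[ℚ] ℂ) : ℂ →+* ℂ) g = t * u ^ M) :
    ∃ (g₀ : modularFunctionFieldBar N) (h : LaurentSeries ℂ),
      h ∈ laurentBaseChange ℂ (modularFunctionFieldFull N) ∧ h ≠ 0 ∧
        coeffMap ι (g₀ : LaurentSeries (AlgebraicClosure ℚ)) = h ^ M * g :=
  s29_dd_descent_mod_series N ι (s29_ffc_j ℂ N) rfl g hg hg0 M hM T hT

/-- helper16's `s29_dd_descent_mod` (subtype form) with the finiteness hypothesis discharged. -/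
theorem s29_dm_descent_mod (N : ℕ) [NeZero N] (ι : AlgebraicClosure ℚ →+* ℂ)
    (g : laurentBaseChange ℂ (modularFunctionFieldFull N)) (hg0 : g ≠ 0) (M : ℕ) (hM : 0 < M)
    (gs : (ℂ ≃ₐ[ℚ] ℂ) → laurentBaseChange ℂ (modularFunctionFieldFull N))
    (hgs : ∀ σ : ℂ ≃ₐ[ℚ] ℂ,
      (gs σ : LaurentSeries ℂ) = coeffMap ((σ : ℂ ≃ₐ[ℚ] ℂ) : ℂ →+* ℂ) (g : LaurentSeries ℂ))
    (T : Finset (laurentBaseChange ℂ (modularFunctionFieldFull N)))
    (hT : ∀ σ : ℂ ≃ₐ[ℚ] ℂ, ∃ t ∈ T,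
      ∃ u : laurentBaseChange ℂ (modularFunctionFieldFull N), u ≠ 0 ∧ gs σ = t * u ^ M) :
    ∃ (g₀ : modularFunctionFieldBar N) (h : laurentBaseChange ℂ (modularFunctionFieldFull N)),
      h ≠ 0 ∧ coeffMap ι (g₀ : LaurentSeries (AlgebraicClosure ℚ))
        = ((h ^ M * g : laurentBaseChange ℂ (modularFunctionFieldFull N)) : LaurentSeries ℂ) :=
  s29_dd_descent_mod N ι (s29_ffc_j ℂ N) rfl g hg0 M hM gs hgs T hT

end Fermat.Agent.S29

end
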