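import Mathlib

/-!
# S29 (project BRIDGE), block B1-core: Eisenstein series with a character of `Γ₀(N)`

For a character `χ : Γ₀(N) →* ℂˣ` which is trivial on the stabiliser `Γ_∞ = {±Tⁿ}` of `∞`
(matrices with lower left entry `0`) and of absolute value `1`, and a weight `k ≥ 3`:

* `s29_eis N χ k : ℍ → ℂ`, the series `∑ χ(γ)⁻¹ (cτ + d)^(-k)` over the bottom rows `(c, d)` of
  `Γ_∞ \ Γ₀(N)` (each row counted once, so for `χ = 1` and even `k` this is twice the usual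
  normalisation);
* `s29_eis_mdiff` : it is holomorphic on `ℍ`;
* `s29_eis_smul` : `E(γ τ) = χ(γ) (cτ + d)^k E(τ)` for `γ ∈ Γ₀(N)`;
* `s29_eis_bdd` : `E ∣[k] A` is bounded at `i∞` for every `A ∈ SL(2, ℤ)`;
* `s29_eis_tendsto`, `s29_eis_ne_zero` : for even `k`, `E(iy) → 2` as `y → ∞`; in particular
  `E ≠ 0`.
-/

set_option autoImplicit false

open UpperHalfPlane EisensteinSeries ModularForm CongruenceSubgroup Matrix Filter Topology
open scoped MatrixGroups Manifold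

noncomputable section

namespace Fermat.Agent.S29

variable (N : ℕ)

/-- The bottom rows of `Γ₀(N)`: coprime pairs `(c, d)` with `N ∣ c`. -/
def s29_eis_rows : Set (Fin 2 → ℤ) := {v | IsCoprime (v 0) (v 1) ∧ (N : ℤ) ∣ v 0}

/-- The bottom row of an element of `Γ₀(N)` is a row. -/
theorem s29_eis_row_mem (γ : Gamma0 N) :
    ((γ : SL(2, ℤ)) : Matrix (Fin 2) (Fin 2) ℤ) 1 ∈ s29_eis_rows N := by
  refine ⟨ModularGroup.bottom_row_coprime (γ : SL(2, ℤ)), ?_⟩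
  have h := γ.2
  rw [Gamma0_mem] at h
  exact (ZMod.intCast_zmod_eq_zero_iff_dvd _ _).1 h

/-- Every row is the bottom row of an element of `Γ₀(N)`. -/
theorem s29_eis_exists_lift {v : Fin 2 → ℤ} (hv : v ∈ s29_eis_rows N) :
    ∃ γ : Gamma0 N, ((γ : SL(2, ℤ)) : Matrix (Fin 2) (Fin 2) ℤ) 1 = v := by
  obtain ⟨g, -, hg⟩ := ModularGroup.bottom_row_surj hv.1
  have hg' : (g : Matrix (Fin 2) (Fin 2) ℤ) 1 = v := hg
  refine ⟨⟨g, ?_⟩, hg'⟩
  rw [Gamma0_mem]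
  have h0 : (g : Matrix (Fin 2) (Fin 2) ℤ) 1 0 = v 0 := congrFun hg' 0
  rw [h0]
  exact (ZMod.intCast_zmod_eq_zero_iff_dvd _ _).2 hv.2

variable {N}

/-- Two elements of `Γ₀(N)` with the same bottom row differ by an element of `Γ_∞`. -/
theorem s29_eis_char_eq_of_row_eq (χ : Gamma0 N →* ℂˣ)
    (hχ : ∀ γ : Gamma0 N, ((γ : SL(2, ℤ)) : Matrix (Fin 2) (Fin 2) ℤ) 1 0 = 0 → χ γ = 1)
    (γ γ' : Gamma0 N)
    (h : ((γ' : SL(2, ℤ)) : Matrix (Fin 2) (Fin 2) ℤ) 1 =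
      ((γ : SL(2, ℤ)) : Matrix (Fin 2) (Fin 2) ℤ) 1) : χ γ' = χ γ := by
  have h1 : χ (γ' * γ⁻¹) = 1 := by
    apply hχ
    have e : (((γ' * γ⁻¹ : Gamma0 N) : SL(2, ℤ)) : Matrix (Fin 2) (Fin 2) ℤ) =
        ((γ' : SL(2, ℤ)) : Matrix (Fin 2) (Fin 2) ℤ) *
          (((γ : SL(2, ℤ))⁻¹ : SL(2, ℤ)) : Matrix (Fin 2) (Fin 2) ℤ) := rfl
    rw [e, Matrix.SpecialLinearGroup.SL2_inv_expl, Matrix.mul_apply, Fin.sum_univ_two]
    have h0 := congrFun h 0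
    have h1 := congrFun h 1
    simp only [Matrix.cons_val_zero, Matrix.cons_val_one,
      Matrix.cons_val', Matrix.empty_val', Matrix.cons_val_fin_one]
    rw [h0, h1]
    ring
  rw [map_mul, map_inv, mul_inv_eq_one] at h1
  exact h1

variable (N)

open Classical in
/-- The weight of a row: `χ(γ)⁻¹` for any `γ ∈ Γ₀(N)` with that bottom row, and `0` outside the
set of rows. -/
def s29_eis_w (χ : Gamma0 N →* ℂˣ) (v : Fin 2 → ℤ) : ℂ :=
  if hv : v ∈ s29_eis_rows N then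
    (((χ (Classical.choose (s29_eis_exists_lift N hv)))⁻¹ : ℂˣ) : ℂ)
  else 0

variable {N}

theorem s29_eis_w_of_notMem (χ : Gamma0 N →* ℂˣ) {v : Fin 2 → ℤ} (hv : v ∉ s29_eis_rows N) :
    s29_eis_w N χ v = 0 := by
  rw [s29_eis_w, dif_neg hv]

/-- The weight of the bottom row of `γ ∈ Γ₀(N)` is `χ(γ)⁻¹`. -/
theorem s29_eis_w_row (χ : Gamma0 N →* ℂˣ)
    (hχ : ∀ γ : Gamma0 N, ((γ : SL(2, ℤ)) : Matrix (Fin 2) (Fin 2) ℤ) 1 0 = 0 → χ γ = 1)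
    (γ : Gamma0 N) :
    s29_eis_w N χ (((γ : SL(2, ℤ)) : Matrix (Fin 2) (Fin 2) ℤ) 1) = (((χ γ)⁻¹ : ℂˣ) : ℂ) := by
  rw [s29_eis_w, dif_pos (s29_eis_row_mem N γ)]
  rw [s29_eis_char_eq_of_row_eq χ hχ γ _
    (Classical.choose_spec (s29_eis_exists_lift N (s29_eis_row_mem N γ)))]

/-- The bottom row of a product. -/
theorem s29_eis_row_mul (δ γ : Gamma0 N) :
    (((δ * γ : Gamma0 N) : SL(2, ℤ)) : Matrix (Fin 2) (Fin 2) ℤ) 1 =
      (((δ : SL(2, ℤ)) : Matrix (Fin 2) (Fin 2) ℤ) 1) ᵥ*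
        ((γ : SL(2, ℤ)) : Matrix (Fin 2) (Fin 2) ℤ) := by
  have e : (((δ * γ : Gamma0 N) : SL(2, ℤ)) : Matrix (Fin 2) (Fin 2) ℤ) =
      ((δ : SL(2, ℤ)) : Matrix (Fin 2) (Fin 2) ℤ) *
        ((γ : SL(2, ℤ)) : Matrix (Fin 2) (Fin 2) ℤ) := rfl
  rw [e]
  ext j
  simp [Matrix.mul_apply, Matrix.vecMul, dotProduct]

/-- The set of rows is stable under right multiplication by `Γ₀(N)`. -/
theorem s29_eis_rows_vecMul (γ : Gamma0 N) {v : Fin 2 → ℤ} (hv : v ∈ s29_eis_rows N) :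
    v ᵥ* ((γ : SL(2, ℤ)) : Matrix (Fin 2) (Fin 2) ℤ) ∈ s29_eis_rows N := by
  obtain ⟨δ, rfl⟩ := s29_eis_exists_lift N hv
  rw [← s29_eis_row_mul]
  exact s29_eis_row_mem N _

theorem s29_eis_vecMul_inv (γ : Gamma0 N) (v : Fin 2 → ℤ) :
    (v ᵥ* ((γ : SL(2, ℤ)) : Matrix (Fin 2) (Fin 2) ℤ)) ᵥ*
      (((γ⁻¹ : Gamma0 N) : SL(2, ℤ)) : Matrix (Fin 2) (Fin 2) ℤ) = v := by
  have e : ((γ : SL(2, ℤ)) : Matrix (Fin 2) (Fin 2) ℤ) *
      (((γ⁻¹ : Gamma0 N) : SL(2, ℤ)) : Matrix (Fin 2) (Fin 2) ℤ) = 1 := by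
    have h : ((γ : SL(2, ℤ)) * ((γ⁻¹ : Gamma0 N) : SL(2, ℤ))) = 1 := by
      rw [← Subgroup.coe_mul, mul_inv_cancel, Subgroup.coe_one]
    rw [← Matrix.SpecialLinearGroup.coe_mul, h, Matrix.SpecialLinearGroup.coe_one]
  rw [Matrix.vecMul_vecMul, e, Matrix.vecMul_one]

/-- Equivariance of the weights: `w (v γ) = w v · χ(γ)⁻¹` for `γ ∈ Γ₀(N)`. -/
theorem s29_eis_w_vecMul (χ : Gamma0 N →* ℂˣ)
    (hχ : ∀ γ : Gamma0 N, ((γ : SL(2, ℤ)) : Matrix (Fin 2) (Fin 2) ℤ) 1 0 = 0 → χ γ = 1)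
    (γ : Gamma0 N) (v : Fin 2 → ℤ) :
    s29_eis_w N χ (v ᵥ* ((γ : SL(2, ℤ)) : Matrix (Fin 2) (Fin 2) ℤ)) =
      s29_eis_w N χ v * (((χ γ)⁻¹ : ℂˣ) : ℂ) := by
  by_cases hv : v ∈ s29_eis_rows N
  · obtain ⟨δ, rfl⟩ := s29_eis_exists_lift N hv
    rw [← s29_eis_row_mul, s29_eis_w_row χ hχ, s29_eis_w_row χ hχ, map_mul, mul_inv,
      Units.val_mul]
  · have hv' : v ᵥ* ((γ : SL(2, ℤ)) : Matrix (Fin 2) (Fin 2) ℤ) ∉ s29_eis_rows N := by
      intro h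
      apply hv
      have := s29_eis_rows_vecMul γ⁻¹ h
      rwa [s29_eis_vecMul_inv] at this
    rw [s29_eis_w_of_notMem χ hv, s29_eis_w_of_notMem χ hv', zero_mul]

/-- The weights have norm at most `1`. -/
theorem s29_eis_w_norm_le (χ : Gamma0 N →* ℂˣ) (hχ1 : ∀ γ, ‖((χ γ : ℂˣ) : ℂ)‖ = 1)
    (v : Fin 2 → ℤ) : ‖s29_eis_w N χ v‖ ≤ 1 := by
  by_cases hv : v ∈ s29_eis_rows N
  · rw [s29_eis_w, dif_pos hv, Units.val_inv_eq_inv_val, norm_inv, hχ1, inv_one]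
  · rw [s29_eis_w_of_notMem χ hv, norm_zero]
    exact zero_le_one

variable (N)

/-- **The Eisenstein series of weight `k` for `Γ₀(N)` with character `χ`.** -/
def s29_eis (χ : Gamma0 N →* ℂˣ) (k : ℤ) (z : ℍ) : ℂ :=
  ∑' v : Fin 2 → ℤ, s29_eis_w N χ v * eisSummand k v z

variable {N}

theorem s29_eis_norm_term_le (χ : Gamma0 N →* ℂˣ) (hχ1 : ∀ γ, ‖((χ γ : ℂˣ) : ℂ)‖ = 1)
    (k : ℤ) (v : Fin 2 → ℤ) (z : ℍ) :
    ‖s29_eis_w N χ v * eisSummand k v z‖ ≤ ‖eisSummand k v z‖ := by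
  rw [norm_mul]
  exact mul_le_of_le_one_left (norm_nonneg _) (s29_eis_w_norm_le χ hχ1 v)

/-- Absolute convergence. -/
theorem s29_eis_summable (χ : Gamma0 N →* ℂˣ) (hχ1 : ∀ γ, ‖((χ γ : ℂˣ) : ℂ)‖ = 1)
    {k : ℤ} (hk : 3 ≤ k) (z : ℍ) :
    Summable fun v : Fin 2 → ℤ => s29_eis_w N χ v * eisSummand k v z :=
  Summable.of_norm_bounded (summable_norm_eisSummand hk z)
    (fun v => s29_eis_norm_term_le χ hχ1 k v z)

/-! ### Holomorphy -/

/-- The defining sum converges locally uniformly on `ℍ`. -/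
theorem s29_eis_tendstoLocallyUniformly (χ : Gamma0 N →* ℂˣ)
    (hχ1 : ∀ γ, ‖((χ γ : ℂˣ) : ℂ)‖ = 1) {k : ℤ} (hk : 3 ≤ k) :
    TendstoLocallyUniformly
      (fun (s : Finset (Fin 2 → ℤ)) ↦ (∑ x ∈ s, s29_eis_w N χ x * eisSummand k x ·))
      (s29_eis N χ k ·) Filter.atTop := by
  have hk' : (2 : ℝ) < k := by norm_cast
  have p_sum : Summable fun x : Fin 2 → ℤ ↦ ‖x‖ ^ (-k) :=
    mod_cast (summable_one_div_norm_rpow hk')
  simp only [tendstoLocallyUniformly_iff_forall_isCompact, s29_eis]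
  intro K hK
  obtain ⟨A, B, hB, HABK⟩ := subset_verticalStrip_of_isCompact hK
  refine (tendstoUniformlyOn_tsum (hu := p_sum.mul_left <| r ⟨⟨A, B⟩, hB⟩ ^ (-k : ℝ))
    (fun p z hz ↦ ?_)).mono HABK
  refine (s29_eis_norm_term_le χ hχ1 k p z).trans ?_
  simpa only [eisSummand, one_div, ← _root_.zpow_neg, norm_zpow, ← Real.rpow_intCast,
    Int.cast_neg] using summand_bound_of_mem_verticalStrip (by positivity) p hB hz

/-- Variant with maps `ℂ → ℂ`. -/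
theorem s29_eis_tendstoLocallyUniformlyOn (χ : Gamma0 N →* ℂˣ)
    (hχ1 : ∀ γ, ‖((χ γ : ℂˣ) : ℂ)‖ = 1) {k : ℤ} (hk : 3 ≤ k) :
    TendstoLocallyUniformlyOn (fun (s : Finset (Fin 2 → ℤ)) ↦
      ↑ₕ(fun (z : ℍ) ↦ ∑ x ∈ s, s29_eis_w N χ x * eisSummand k x z)) (↑ₕ(s29_eis N χ k))
          Filter.atTop {z : ℂ | 0 < z.im} := by
  rw [← upperHalfPlaneSet, ← range_coe, ← Set.image_univ]
  apply TendstoLocallyUniformlyOn.comp (s := ⊤) _ _ _ (OpenPartialHomeomorph.continuousOn_symm _)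
  · simp only [Set.top_eq_univ, tendstoLocallyUniformlyOn_univ]
    apply s29_eis_tendstoLocallyUniformly χ hχ1 hk
  · simp only [IsOpenEmbedding.toOpenPartialHomeomorph_target, Set.top_eq_univ,
      Set.mapsTo_range_iff, Set.mem_univ, forall_const]

/-- **(E1)** The Eisenstein series with character is holomorphic on `ℍ`. -/
theorem s29_eis_mdiff (χ : Gamma0 N →* ℂˣ) (hχ1 : ∀ γ, ‖((χ γ : ℂˣ) : ℂ)‖ = 1) {k : ℤ}
    (hk : 3 ≤ k) : MDiff (s29_eis N χ k) := by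
  intro τ
  suffices DifferentiableAt ℂ (↑ₕ(s29_eis N χ k)) τ.1 by
    convert!
      MDifferentiableAt.comp τ (DifferentiableAt.mdifferentiableAt this) τ.mdifferentiable_coe
    exact funext fun z ↦ (comp_ofComplex (s29_eis N χ k) z).symm
  refine DifferentiableOn.differentiableAt ?_ (isOpen_upperHalfPlaneSet.mem_nhds τ.2)
  refine (s29_eis_tendstoLocallyUniformlyOn χ hχ1 hk).differentiableOn
    (Eventually.of_forall fun s ↦ ?_) isOpen_upperHalfPlaneSet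
  have h : ∀ x ∈ s, DifferentiableOn ℂ
      (fun z : ℂ => s29_eis_w N χ x * (↑ₕ(eisSummand k x)) z) {z : ℂ | 0 < z.im} :=
    fun x _ => (eisSummand_extension_differentiableOn k x).const_mul _
  refine (DifferentiableOn.fun_sum h).congr fun z hz => ?_
  simp

/-! ### The transformation law -/

/-- Right multiplication by an element of `SL(2, ℤ)` as a permutation of `ℤ²`. -/
def s29_eis_vecMulEquiv (A : SL(2, ℤ)) : (Fin 2 → ℤ) ≃ (Fin 2 → ℤ) where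
  toFun v := v ᵥ* (A : Matrix (Fin 2) (Fin 2) ℤ)
  invFun v := v ᵥ* ((A⁻¹ : SL(2, ℤ)) : Matrix (Fin 2) (Fin 2) ℤ)
  left_inv v := by
    show (v ᵥ* (A : Matrix (Fin 2) (Fin 2) ℤ)) ᵥ*
      ((A⁻¹ : SL(2, ℤ)) : Matrix (Fin 2) (Fin 2) ℤ) = v
    rw [Matrix.vecMul_vecMul, ← Matrix.SpecialLinearGroup.coe_mul, mul_inv_cancel,
      Matrix.SpecialLinearGroup.coe_one, Matrix.vecMul_one]
  right_inv v := by
    show (v ᵥ* ((A⁻¹ : SL(2, ℤ)) : Matrix (Fin 2) (Fin 2) ℤ)) ᵥ*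
      (A : Matrix (Fin 2) (Fin 2) ℤ) = v
    rw [Matrix.vecMul_vecMul, ← Matrix.SpecialLinearGroup.coe_mul, inv_mul_cancel,
      Matrix.SpecialLinearGroup.coe_one, Matrix.vecMul_one]

@[simp] theorem s29_eis_vecMulEquiv_apply (A : SL(2, ℤ)) (v : Fin 2 → ℤ) :
    s29_eis_vecMulEquiv A v = v ᵥ* (A : Matrix (Fin 2) (Fin 2) ℤ) := rfl

/-- **(E2)** The transformation law: `E(γ τ) = χ(γ) (cτ + d)^k E(τ)` for `γ ∈ Γ₀(N)`. -/
theorem s29_eis_smul (χ : Gamma0 N →* ℂˣ)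
    (hχ : ∀ γ : Gamma0 N, ((γ : SL(2, ℤ)) : Matrix (Fin 2) (Fin 2) ℤ) 1 0 = 0 → χ γ = 1)
    (k : ℤ) (γ : Gamma0 N) (z : ℍ) :
    s29_eis N χ k ((γ : SL(2, ℤ)) • z) =
      ((χ γ : ℂˣ) : ℂ) * denom (γ : SL(2, ℤ)) z ^ k * s29_eis N χ k z := by
  unfold s29_eis
  have h1 : ∀ v : Fin 2 → ℤ, s29_eis_w N χ v * eisSummand k v ((γ : SL(2, ℤ)) • z) =
      (((χ γ : ℂˣ) : ℂ) * denom (γ : SL(2, ℤ)) z ^ k) *
        (s29_eis_w N χ (s29_eis_vecMulEquiv (γ : SL(2, ℤ)) v) *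
          eisSummand k (s29_eis_vecMulEquiv (γ : SL(2, ℤ)) v) z) := by
    intro v
    rw [eisSummand_SL2_apply, s29_eis_vecMulEquiv_apply, s29_eis_w_vecMul χ hχ]
    have hu : ((χ γ : ℂˣ) : ℂ) * (((χ γ)⁻¹ : ℂˣ) : ℂ) = 1 := by
      rw [← Units.val_mul, mul_inv_cancel, Units.val_one]
    linear_combination (-(s29_eis_w N χ v * denom (γ : SL(2, ℤ)) z ^ k *
      eisSummand k (v ᵥ* ((γ : SL(2, ℤ)) : Matrix (Fin 2) (Fin 2) ℤ)) z)) * hu
  rw [tsum_congr h1, tsum_mul_left]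
  congr 1
  exact (s29_eis_vecMulEquiv (γ : SL(2, ℤ))).tsum_eq
    (fun v => s29_eis_w N χ v * eisSummand k v z)

/-! ### Boundedness at the cusps -/

/-- The slash of the series by an arbitrary element of `SL(2, ℤ)`. -/
theorem s29_eis_slash_apply (χ : Gamma0 N →* ℂˣ) (k : ℤ) (A : SL(2, ℤ)) (z : ℍ) :
    (s29_eis N χ k ∣[k] A) z =
      ∑' v : Fin 2 → ℤ, s29_eis_w N χ v * eisSummand k (s29_eis_vecMulEquiv A v) z := by
  rw [SL_slash_apply]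
  unfold s29_eis
  rw [← tsum_mul_right]
  refine tsum_congr fun v => ?_
  rw [eisSummand_SL2_apply, s29_eis_vecMulEquiv_apply]
  have hd : denom A z ≠ 0 := denom_ne_zero A z
  have h1 : denom A z ^ k * denom A z ^ (-k) = 1 := by
    rw [← zpow_add₀ hd, add_neg_cancel, zpow_zero]
  linear_combination (s29_eis_w N χ v * eisSummand k (v ᵥ* (A : Matrix (Fin 2) (Fin 2) ℤ)) z) * h1

/-- The shear `(c, d) ↦ (c, c n + d)` of `ℤ²`. -/
def s29_eis_shear (n : ℤ) : (Fin 2 → ℤ) ≃ (Fin 2 → ℤ) where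
  toFun v := ![v 0, v 0 * n + v 1]
  invFun v := ![v 0, v 1 - v 0 * n]
  left_inv v := by
    ext i
    fin_cases i <;> simp
  right_inv v := by
    ext i
    fin_cases i <;> simp

/-- The full lattice sum of the norms of the summands is invariant under `τ ↦ τ + n`. -/
theorem s29_eis_tsum_norm_T (k : ℤ) (n : ℤ) (z : ℍ) :
    ∑' v : Fin 2 → ℤ, ‖eisSummand k v (ModularGroup.T ^ n • z)‖ =
      ∑' v : Fin 2 → ℤ, ‖eisSummand k v z‖ := by
  have h1 : ∀ v : Fin 2 → ℤ, ‖eisSummand k v (ModularGroup.T ^ n • z)‖ =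
      ‖eisSummand k (s29_eis_shear n v) z‖ := by
    intro v
    have e : ((v 0 : ℤ) : ℂ) * ((ModularGroup.T ^ n • z : ℍ) : ℂ) + ((v 1 : ℤ) : ℂ) =
        (((s29_eis_shear n v) 0 : ℤ) : ℂ) * (z : ℂ) + (((s29_eis_shear n v) 1 : ℤ) : ℂ) := by
      rw [ModularGroup.coe_T_zpow_smul_eq]
      show ((v 0 : ℤ) : ℂ) * ((z : ℂ) + n) + ((v 1 : ℤ) : ℂ) =
        ((v 0 : ℤ) : ℂ) * (z : ℂ) + ((v 0 * n + v 1 : ℤ) : ℂ)
      push_cast
      ring
    unfold eisSummand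
    rw [e]
  rw [tsum_congr h1]
  exact (s29_eis_shear n).tsum_eq (fun v => ‖eisSummand k v z‖)

/-- **(E3)** The Eisenstein series with character is bounded at every cusp. -/
theorem s29_eis_bdd (χ : Gamma0 N →* ℂˣ) (hχ1 : ∀ γ, ‖((χ γ : ℂˣ) : ℂ)‖ = 1) {k : ℤ}
    (hk : 3 ≤ k) (A : SL(2, ℤ)) : IsBoundedAtImInfty (s29_eis N χ k ∣[k] A) := by
  rw [UpperHalfPlane.isBoundedAtImInfty_iff]
  have hk' : (2 : ℝ) < k := by norm_cast
  refine ⟨∑' (x : Fin 2 → ℤ), r ⟨⟨1, 2⟩, Nat.ofNat_pos⟩ ^ (-k) * ‖x‖ ^ (-k), 2, ?_⟩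
  intro z hz
  obtain ⟨n, hn⟩ := ModularGroup_T_zpow_mem_verticalStrip z (N := 1) Nat.one_pos
  rw [s29_eis_slash_apply]
  have hsum : Summable fun v : Fin 2 → ℤ => ‖eisSummand k (s29_eis_vecMulEquiv A v) z‖ :=
    ((s29_eis_vecMulEquiv A).summable_iff (f := fun v => ‖eisSummand k v z‖)).2
      (summable_norm_eisSummand hk z)
  have h1 : ‖∑' v : Fin 2 → ℤ, s29_eis_w N χ v * eisSummand k (s29_eis_vecMulEquiv A v) z‖ ≤
      ∑' v : Fin 2 → ℤ, ‖eisSummand k (s29_eis_vecMulEquiv A v) z‖ := by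
    refine (norm_tsum_le_tsum_norm (hsum.of_nonneg_of_le (fun _ => norm_nonneg _)
      (fun v => ?_))).trans (Summable.tsum_le_tsum (fun v => ?_)
        (hsum.of_nonneg_of_le (fun _ => norm_nonneg _) (fun v => ?_)) hsum)
    all_goals
      rw [norm_mul]
      exact mul_le_of_le_one_left (norm_nonneg _) (s29_eis_w_norm_le χ hχ1 v)
  refine h1.trans ?_
  rw [(s29_eis_vecMulEquiv A).tsum_eq (fun v => ‖eisSummand k v z‖),
    ← s29_eis_tsum_norm_T k ((1 : ℕ) * n) z]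
  apply (summable_norm_eisSummand hk _).tsum_le_tsum _
  · exact_mod_cast (summable_one_div_norm_rpow hk').mul_left <| r ⟨⟨1, 2⟩, Nat.ofNat_pos⟩ ^ (-k)
  · intro x
    simp_rw [eisSummand, norm_zpow]
    exact_mod_cast
      summand_bound_of_mem_verticalStrip (lt_trans two_pos hk').le x two_pos
      (verticalStrip_anti_right _ hz hn)

/-! ### The value at `i∞` -/

/-- The point `i · max y 1` of the upper half plane. -/
def s29_eis_pt (y : ℝ) : ℍ :=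
  ⟨⟨0, max y 1⟩, lt_of_lt_of_le one_pos (le_max_right y 1)⟩

theorem s29_eis_pt_coe (y : ℝ) : ((s29_eis_pt y : ℍ) : ℂ) = ⟨0, max y 1⟩ := rfl

/-- `|c · it + d|² = d² + c² t²`. -/
theorem s29_eis_normSq (v : Fin 2 → ℤ) (t : ℝ) :
    Complex.normSq (((v 0 : ℤ) : ℂ) * (⟨0, t⟩ : ℂ) + ((v 1 : ℤ) : ℂ)) =
      (v 1 : ℝ) ^ 2 + ((v 0 : ℝ) * t) ^ 2 := by
  rw [Complex.normSq_apply]
  simp
  ring

theorem s29_eis_norm_le_norm (v : Fin 2 → ℤ) {t : ℝ} (ht : 1 ≤ t) :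
    ‖((v 0 : ℤ) : ℂ) * (⟨0, 1⟩ : ℂ) + ((v 1 : ℤ) : ℂ)‖ ≤
      ‖((v 0 : ℤ) : ℂ) * (⟨0, t⟩ : ℂ) + ((v 1 : ℤ) : ℂ)‖ := by
  rw [Complex.norm_def, Complex.norm_def]
  apply Real.sqrt_le_sqrt
  rw [s29_eis_normSq, s29_eis_normSq]
  have h : ((v 0 : ℝ) * 1) ^ 2 ≤ ((v 0 : ℝ) * t) ^ 2 := by
    rw [mul_one, mul_pow]
    nlinarith [sq_nonneg (v 0 : ℝ), sq_nonneg (t - 1)]
  linarith

theorem s29_eis_le_norm (v : Fin 2 → ℤ) (t : ℝ) :
    |(v 0 : ℝ) * t| ≤ ‖((v 0 : ℤ) : ℂ) * (⟨0, t⟩ : ℂ) + ((v 1 : ℤ) : ℂ)‖ := by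
  have h := Complex.abs_im_le_norm (((v 0 : ℤ) : ℂ) * (⟨0, t⟩ : ℂ) + ((v 1 : ℤ) : ℂ))
  simpa using h

/-- Termwise domination by the summands at `i`. -/
theorem s29_eis_term_bound {k : ℤ} (hk : 3 ≤ k) (v : Fin 2 → ℤ) (y : ℝ) :
    ‖eisSummand k v (s29_eis_pt y)‖ ≤ ‖eisSummand k v UpperHalfPlane.I‖ := by
  unfold eisSummand
  rw [norm_zpow, norm_zpow, s29_eis_pt_coe]
  have hI : ((UpperHalfPlane.I : ℍ) : ℂ) = ⟨0, 1⟩ := rfl
  rw [hI]
  have hab := s29_eis_norm_le_norm v (le_max_right y 1)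
  by_cases hv : v 0 = 0 ∧ v 1 = 0
  · simp [hv.1, hv.2]
  · have ha : 0 < ‖((v 0 : ℤ) : ℂ) * (⟨0, 1⟩ : ℂ) + ((v 1 : ℤ) : ℂ)‖ := by
      rw [norm_pos_iff]
      intro h
      have h2 := s29_eis_normSq v 1
      rw [h, map_zero] at h2
      have h3 : (v 1 : ℝ) ^ 2 = 0 ∧ ((v 0 : ℝ) * 1) ^ 2 = 0 := by
        constructor <;> nlinarith [sq_nonneg (v 1 : ℝ), sq_nonneg ((v 0 : ℝ) * 1)]
      apply hv
      constructor
      · have := h3.2
        rw [mul_one, sq_eq_zero_iff] at this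
        exact_mod_cast this
      · have := h3.1
        rw [sq_eq_zero_iff] at this
        exact_mod_cast this
    rw [_root_.zpow_neg, _root_.zpow_neg]
    exact inv_anti₀ (zpow_pos ha k) (zpow_le_zpow_left₀ (by omega) ha.le hab)

/-- The summands with `c ≠ 0` tend to `0` at `i∞`. -/
theorem s29_eis_term_tendsto_zero {k : ℤ} (hk : 3 ≤ k) (v : Fin 2 → ℤ) (hv : v 0 ≠ 0) :
    Tendsto (fun y : ℝ => eisSummand k v (s29_eis_pt y)) atTop (𝓝 0) := by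
  rw [tendsto_zero_iff_norm_tendsto_zero]
  have h1 : Tendsto (fun y : ℝ =>
      ‖((v 0 : ℤ) : ℂ) * (⟨0, max y 1⟩ : ℂ) + ((v 1 : ℤ) : ℂ)‖) atTop atTop := by
    refine tendsto_atTop_mono (fun y => ?_) tendsto_id
    have h2 := s29_eis_le_norm v (max y 1)
    have h3 : (1 : ℝ) ≤ |(v 0 : ℝ)| := by exact_mod_cast Int.one_le_abs hv
    have h4 : (1 : ℝ) ≤ max y 1 := le_max_right y 1
    calc y ≤ max y 1 := le_max_left _ _
      _ ≤ |(v 0 : ℝ)| * max y 1 := by nlinarith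
      _ = |(v 0 : ℝ) * max y 1| := by rw [abs_mul, abs_of_pos (lt_of_lt_of_le one_pos h4)]
      _ ≤ _ := h2
  have h4 := (tendsto_zpow_atTop_zero (𝕜 := ℝ) (n := -k) (by omega)).comp h1
  refine h4.congr fun y => ?_
  simp [eisSummand, norm_zpow, s29_eis_pt_coe]

/-- The weight of a row `(0, ±1)` is `1`. -/
theorem s29_eis_w_eq_one (χ : Gamma0 N →* ℂˣ)
    (hχ : ∀ γ : Gamma0 N, ((γ : SL(2, ℤ)) : Matrix (Fin 2) (Fin 2) ℤ) 1 0 = 0 → χ γ = 1)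
    {v : Fin 2 → ℤ} (hv : v ∈ s29_eis_rows N) (h0 : v 0 = 0) : s29_eis_w N χ v = 1 := by
  obtain ⟨γ, rfl⟩ := s29_eis_exists_lift N hv
  rw [s29_eis_w_row χ hχ γ, hχ γ h0]
  simp

/-- **(E4)** For even weight, `E(iy) → 2` as `y → ∞`. -/
theorem s29_eis_tendsto (χ : Gamma0 N →* ℂˣ)
    (hχ : ∀ γ : Gamma0 N, ((γ : SL(2, ℤ)) : Matrix (Fin 2) (Fin 2) ℤ) 1 0 = 0 → χ γ = 1)
    (hχ1 : ∀ γ, ‖((χ γ : ℂˣ) : ℂ)‖ = 1) {k : ℤ} (hk : 3 ≤ k) (hk2 : Even k) :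
    Tendsto (fun y : ℝ => s29_eis N χ k (s29_eis_pt y)) atTop (𝓝 2) := by
  classical
  set g : (Fin 2 → ℤ) → ℂ :=
    fun v => if v 0 = 0 then s29_eis_w N χ v * ((v 1 : ℤ) : ℂ) ^ (-k) else 0 with hg
  have hlim := tendsto_tsum_of_dominated_convergence (𝓕 := atTop)
    (f := fun (y : ℝ) (v : Fin 2 → ℤ) => s29_eis_w N χ v * eisSummand k v (s29_eis_pt y))
    (g := g) (bound := fun v => ‖eisSummand k v UpperHalfPlane.I‖)
    (summable_norm_eisSummand hk UpperHalfPlane.I) ?_ ?_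
  · have hsupp : ∀ v ∉ ({![0, 1], ![0, -1]} : Finset (Fin 2 → ℤ)), g v = 0 := by
      intro v hv
      simp only [hg]
      by_cases h0 : v 0 = 0
      · rw [if_pos h0]
        by_cases hr : v ∈ s29_eis_rows N
        · exfalso
          have hu : IsUnit (v 1) := by
            have := hr.1
            rw [h0] at this
            exact isCoprime_zero_left.1 this
          apply hv
          rcases Int.isUnit_iff.1 hu with h1 | h1
          · have e : v = ![0, 1] := by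
              ext i
              fin_cases i <;> simp [h0, h1]
            rw [e]
            simp
          · have e : v = ![0, -1] := by
              ext i
              fin_cases i <;> simp [h0, h1]
            rw [e]
            simp
        · rw [s29_eis_w_of_notMem χ hr, zero_mul]
      · rw [if_neg h0]
    have hne : (![0, 1] : Fin 2 → ℤ) ≠ ![0, -1] := by
      intro h
      have := congrFun h 1
      simp at this
    have hr1 : (![0, 1] : Fin 2 → ℤ) ∈ s29_eis_rows N := by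
      refine ⟨?_, ?_⟩
      · simp [isCoprime_zero_left]
      · simp
    have hr2 : (![0, -1] : Fin 2 → ℤ) ∈ s29_eis_rows N := by
      refine ⟨?_, ?_⟩
      · simp [isCoprime_zero_left]
      · simp
    have hg1 : g ![0, 1] = 1 := by
      simp only [hg]
      rw [if_pos (by simp), s29_eis_w_eq_one χ hχ hr1 (by simp)]
      simp
    have hg2 : g ![0, -1] = 1 := by
      simp only [hg]
      rw [if_pos (by simp), s29_eis_w_eq_one χ hχ hr2 (by simp)]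
      have : (((![0, -1] : Fin 2 → ℤ) 1 : ℤ) : ℂ) = -1 := by simp
      rw [this, one_mul]
      exact hk2.neg.neg_one_zpow
    have hsum : ∑' v, g v = 2 := by
      rw [tsum_eq_sum hsupp, Finset.sum_pair hne, hg1, hg2]
      norm_num
    rw [hsum] at hlim
    exact hlim
  · intro v
    by_cases hv : v 0 = 0
    · have hc : ∀ y : ℝ, s29_eis_w N χ v * eisSummand k v (s29_eis_pt y) = g v := by
        intro y
        simp [hg, hv, eisSummand]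
      simp only [hc]
      exact tendsto_const_nhds
    · have hgv : g v = 0 := by simp [hg, hv]
      rw [hgv]
      have := (s29_eis_term_tendsto_zero hk v hv).const_mul (s29_eis_w N χ v)
      simpa using this
  · exact Eventually.of_forall fun y v =>
      (s29_eis_norm_term_le χ hχ1 k v _).trans (s29_eis_term_bound hk v y)

/-- The Eisenstein series with character (even weight `k ≥ 4`) is not identically zero. -/
theorem s29_eis_ne_zero (χ : Gamma0 N →* ℂˣ)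
    (hχ : ∀ γ : Gamma0 N, ((γ : SL(2, ℤ)) : Matrix (Fin 2) (Fin 2) ℤ) 1 0 = 0 → χ γ = 1)
    (hχ1 : ∀ γ, ‖((χ γ : ℂˣ) : ℂ)‖ = 1) {k : ℤ} (hk : 3 ≤ k) (hk2 : Even k) :
    ∃ z : ℍ, s29_eis N χ k z ≠ 0 := by
  have h := (s29_eis_tendsto χ hχ hχ1 hk hk2).eventually_ne (two_ne_zero)
  obtain ⟨y, hy⟩ := h.exists
  exact ⟨s29_eis_pt y, hy⟩

end Fermat.Agent.S29
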