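import Mathlib

/-!
# S29 (project BRIDGE): the field of meromorphic functions on the upper half plane

* `s29_hol` : the ring `𝒪(ℍ)` of holomorphic functions `ℍ → ℂ` (a `ℂ`-subalgebra of `ℍ → ℂ`),
  an integral domain (identity theorem);
* the action of `GL₂⁺(ℝ)` on `𝒪(ℍ)`: `(g • f) τ = f (g⁻¹ • τ)`;
* `s29_Mer := FractionRing s29_hol` : the field of meromorphic functions on `ℍ` (every element
  is a quotient of two holomorphic functions), with the induced action of `GL₂⁺(ℝ)` by field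
  automorphisms fixing the constants; the action of `SL₂(ℤ)` through `s29_sl`.
-/

set_option autoImplicit false

open UpperHalfPlane
open scoped MatrixGroups Manifold

noncomputable section

namespace Fermat.Agent.S29

/-- The ring of holomorphic functions on the upper half plane. -/
def s29_hol : Subalgebra ℂ (ℍ → ℂ) where
  carrier := {f | MDifferentiable 𝓘(ℂ) 𝓘(ℂ) f}
  mul_mem' := fun ha hb => ha.mul hb
  add_mem' := fun ha hb => ha.add hb
  algebraMap_mem' := fun _ => mdifferentiable_const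

theorem s29_mem_hol {f : ℍ → ℂ} : f ∈ s29_hol ↔ MDifferentiable 𝓘(ℂ) 𝓘(ℂ) f := Iff.rfl

theorem s29_hol_mdiff (f : s29_hol) : MDifferentiable 𝓘(ℂ) 𝓘(ℂ) (f : ℍ → ℂ) := f.2

/-- a holomorphic function as an element of `𝒪(ℍ)`. -/
def s29_mkHol (f : ℍ → ℂ) (hf : MDifferentiable 𝓘(ℂ) 𝓘(ℂ) f) : s29_hol := ⟨f, hf⟩

@[simp] theorem s29_mkHol_apply (f : ℍ → ℂ) (hf : MDifferentiable 𝓘(ℂ) 𝓘(ℂ) f) (τ : ℍ) :
    (s29_mkHol f hf : ℍ → ℂ) τ = f τ := rfl

theorem s29_hol_ext {f g : s29_hol} (h : ∀ τ, (f : ℍ → ℂ) τ = (g : ℍ → ℂ) τ) : f = g :=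
  Subtype.ext (funext h)

theorem s29_hol_coe_algebraMap (c : ℂ) (τ : ℍ) : ((algebraMap ℂ s29_hol c : s29_hol) : ℍ → ℂ) τ = c :=
  rfl

instance s29_hol_isDomain : IsDomain s29_hol := by
  have h1 : Nontrivial s29_hol := ⟨⟨0, 1, fun h => by
    have h1 := congrArg (fun f : s29_hol => (f : ℍ → ℂ) I) h
    simp at h1⟩⟩
  have h2 : NoZeroDivisors s29_hol := ⟨fun {a b} hab => by
    have h1 : (a : ℍ → ℂ) * (b : ℍ → ℂ) = 0 := congrArg Subtype.val hab
    rcases (UpperHalfPlane.mul_eq_zero_iff a.2 b.2).1 h1 with h | h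
    · exact Or.inl (Subtype.ext h)
    · exact Or.inr (Subtype.ext h)⟩
  exact NoZeroDivisors.to_isDomain _

/-! ### The action of `GL₂⁺(ℝ)` -/

/-- The action of `GL₂⁺(ℝ)` on functions on the upper half plane: `(g • f) τ = f (g⁻¹ • τ)`. -/
def s29_act (g : GL(2, ℝ)⁺) (f : ℍ → ℂ) : ℍ → ℂ := fun τ => f (g⁻¹ • τ)

theorem s29_act_apply (g : GL(2, ℝ)⁺) (f : ℍ → ℂ) (τ : ℍ) : s29_act g f τ = f (g⁻¹ • τ) := rfl

theorem s29_act_mem (g : GL(2, ℝ)⁺) {f : ℍ → ℂ} (hf : f ∈ s29_hol) : s29_act g f ∈ s29_hol := by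
  have hdet : 0 < ((g⁻¹ : GL(2, ℝ)⁺) : GL (Fin 2) ℝ).det.val := (g⁻¹).2
  exact MDifferentiable.comp hf (mdifferentiable_smul hdet)

instance s29_holAction : MulSemiringAction GL(2, ℝ)⁺ s29_hol where
  smul g f := ⟨s29_act g f, s29_act_mem g f.2⟩
  one_smul f := Subtype.ext (funext fun τ => by
    show (f : ℍ → ℂ) ((1 : GL(2, ℝ)⁺)⁻¹ • τ) = (f : ℍ → ℂ) τ
    rw [inv_one, one_smul])
  mul_smul g h f := Subtype.ext (funext fun τ => by
    show (f : ℍ → ℂ) ((g * h)⁻¹ • τ) = (f : ℍ → ℂ) (h⁻¹ • g⁻¹ • τ)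
    rw [mul_inv_rev, mul_smul])
  smul_zero _ := Subtype.ext rfl
  smul_add _ _ _ := Subtype.ext rfl
  smul_one _ := Subtype.ext rfl
  smul_mul _ _ _ := Subtype.ext rfl

theorem s29_hol_smul_apply (g : GL(2, ℝ)⁺) (f : s29_hol) (τ : ℍ) :
    ((g • f : s29_hol) : ℍ → ℂ) τ = (f : ℍ → ℂ) (g⁻¹ • τ) := rfl

instance s29_hol_smulCommClass : SMulCommClass GL(2, ℝ)⁺ ℂ s29_hol :=
  ⟨fun _ _ _ => Subtype.ext rfl⟩

/-! ### The field of meromorphic functions -/

/-- The field of meromorphic functions on the upper half plane: quotients of holomorphic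
functions. -/
def s29_Mer : Type := FractionRing s29_hol

instance s29_merField : Field s29_Mer := inferInstanceAs (Field (FractionRing s29_hol))

instance s29_merAlgHol : Algebra s29_hol s29_Mer :=
  inferInstanceAs (Algebra s29_hol (FractionRing s29_hol))

instance s29_merIsFrac : IsFractionRing s29_hol s29_Mer :=
  inferInstanceAs (IsFractionRing s29_hol (FractionRing s29_hol))

instance s29_merAlgC : Algebra ℂ s29_Mer :=
  inferInstanceAs (Algebra ℂ (FractionRing s29_hol))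

instance s29_merTower : IsScalarTower ℂ s29_hol s29_Mer :=
  inferInstanceAs (IsScalarTower ℂ s29_hol (FractionRing s29_hol))

instance s29_merAction : MulSemiringAction GL(2, ℝ)⁺ s29_Mer :=
  IsFractionRing.mulSemiringAction GL(2, ℝ)⁺ s29_hol s29_Mer

theorem s29_smul_algebraMap (g : GL(2, ℝ)⁺) (f : s29_hol) :
    g • algebraMap s29_hol s29_Mer f = algebraMap s29_hol s29_Mer (g • f) :=
  IsFractionRing.ringEquivOfRingEquiv_algebraMap _ _

/-- constants are fixed by the action. -/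
theorem s29_smul_const (g : GL(2, ℝ)⁺) (c : ℂ) :
    g • algebraMap ℂ s29_Mer c = algebraMap ℂ s29_Mer c := by
  rw [IsScalarTower.algebraMap_apply ℂ s29_hol s29_Mer, s29_smul_algebraMap]
  congr 1

instance s29_mer_smulCommClass : SMulCommClass GL(2, ℝ)⁺ ℂ s29_Mer :=
  ⟨fun g c f => by
    rw [Algebra.smul_def, Algebra.smul_def, smul_mul', s29_smul_const]⟩

/-- every meromorphic function is a quotient of holomorphic functions. -/
theorem s29_mer_exists_div (f : s29_Mer) :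
    ∃ a b : s29_hol, b ≠ 0 ∧ f = algebraMap s29_hol s29_Mer a / algebraMap s29_hol s29_Mer b := by
  obtain ⟨a, b, hb, h⟩ := IsFractionRing.div_surjective (A := s29_hol) f
  exact ⟨a, b, nonZeroDivisors.ne_zero hb, h.symm⟩

theorem s29_algebraMap_injective : Function.Injective (algebraMap s29_hol s29_Mer) :=
  IsFractionRing.injective s29_hol s29_Mer

/-! ### `SL₂(ℤ)` -/

/-- `SL₂(ℤ) → GL₂⁺(ℝ)`. -/
def s29_sl : SL(2, ℤ) →* GL(2, ℝ)⁺ :=
  Matrix.SpecialLinearGroup.toGLPos.comp (Matrix.SpecialLinearGroup.map (Int.castRingHom ℝ))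

theorem s29_sl_smul (γ : SL(2, ℤ)) (τ : ℍ) : s29_sl γ • τ = γ • τ := rfl

theorem s29_sl_inv_smul (γ : SL(2, ℤ)) (τ : ℍ) : (s29_sl γ)⁻¹ • τ = γ⁻¹ • τ := by
  rw [← map_inv]
  rfl

instance s29_merActionSL : MulSemiringAction SL(2, ℤ) s29_Mer :=
  MulSemiringAction.compHom s29_Mer s29_sl

theorem s29_sl_smul_def (γ : SL(2, ℤ)) (f : s29_Mer) : γ • f = s29_sl γ • f := rfl

theorem s29_slsmul_const (γ : SL(2, ℤ)) (c : ℂ) :
    γ • algebraMap ℂ s29_Mer c = algebraMap ℂ s29_Mer c := s29_smul_const _ c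

theorem s29_slsmul_algebraMap_apply (γ : SL(2, ℤ)) (f : s29_hol) :
    ∃ f' : s29_hol, γ • algebraMap s29_hol s29_Mer f = algebraMap s29_hol s29_Mer f' ∧
      ∀ τ, (f' : ℍ → ℂ) τ = (f : ℍ → ℂ) (γ⁻¹ • τ) :=
  ⟨s29_sl γ • f, s29_smul_algebraMap _ f, fun τ => by
    rw [s29_hol_smul_apply, s29_sl_inv_smul]⟩

end Fermat.Agent.S29
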