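import Mathlib
import Fermat.Prelude.Def_ModularCurve_PeriodMap
import Fermat.Agent.S29.MerField
import Fermat.Agent.S29.EisChar

/-!
# BRIDGE (B1-wire): characters `Γ₀(N) → μ_m` attached to parabolic homomorphisms, and the
hand-over of the Eisenstein series with character to the `κ`-calculus and to `(Z2)`

* (W1) `s29_ew_zeta m = exp(2πi/m)`, the character `s29_ew_chi m ψ : Γ →* ℂˣ`,
  `γ ↦ ζ_m ^ (ψ γ).val`, attached to `ψ : Γ → ℤ/m`; it has values of norm one, is trivial exactly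
  on the kernel of `ψ`, and (for parabolic `ψ` on `Γ₀(N)`) is trivial on the stabiliser of `i∞`.
* (W2) for holomorphic `Φ, Φ₁` of weight `k` with characters `χ`, `1`: the quotient
  `G = Φ / Φ₁` in the field of meromorphic functions satisfies `γ⁻¹ • G = χ(γ) G`, and the
  powers `Φ ^ m`, `Φ₁ ^ m` are of weight `k m` with trivial character, bounded at all cusps.
* (W3) the packaging for the weight four Eisenstein series with character.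
-/

open UpperHalfPlane ModularForm CongruenceSubgroup Matrix Filter Topology
open scoped MatrixGroups Manifold

noncomputable section

namespace Fermat.Agent.S29

/-! ### (W1) characters -/

/-- `ζ_m = exp(2πi/m)` as a unit of `ℂ`. -/
def s29_ew_zeta (m : ℕ) : ℂˣ :=
  Units.mk0 (Complex.exp (2 * Real.pi * Complex.I / m)) (Complex.exp_ne_zero _)

theorem s29_ew_zeta_coe (m : ℕ) :
    ((s29_ew_zeta m : ℂˣ) : ℂ) = Complex.exp (2 * Real.pi * Complex.I / m) := rfl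

theorem s29_ew_zeta_prim (m : ℕ) [NeZero m] : IsPrimitiveRoot (s29_ew_zeta m) m := by
  rw [← IsPrimitiveRoot.coe_units_iff]
  exact Complex.isPrimitiveRoot_exp m (NeZero.ne m)

theorem s29_ew_zeta_pow (m : ℕ) [NeZero m] : s29_ew_zeta m ^ m = 1 :=
  (s29_ew_zeta_prim m).pow_eq_one

/-- The character `γ ↦ ζ_m ^ ψ(γ)` attached to a homomorphism `ψ : Γ → ℤ/m`. -/
def s29_ew_chi (m : ℕ) [NeZero m] {Γ : Type*} [Group Γ] (ψ : Additive Γ →+ ZMod m) : Γ →* ℂˣ where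
  toFun γ := s29_ew_zeta m ^ (ψ (Additive.ofMul γ)).val
  map_one' := by simp
  map_mul' γ δ := by
    rw [ofMul_mul, map_add, ← pow_add, ZMod.val_add]
    exact (pow_eq_pow_mod _ (s29_ew_zeta_pow m)).symm

section chi

variable (m : ℕ) [NeZero m] {Γ : Type*} [Group Γ] (ψ : Additive Γ →+ ZMod m)

theorem s29_ew_chi_apply (γ : Γ) :
    s29_ew_chi m ψ γ = s29_ew_zeta m ^ (ψ (Additive.ofMul γ)).val := rfl

theorem s29_ew_chi_pow (γ : Γ) : s29_ew_chi m ψ γ ^ m = 1 := by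
  rw [s29_ew_chi_apply, ← pow_mul, mul_comm, pow_mul, s29_ew_zeta_pow, one_pow]

theorem s29_ew_chi_norm (γ : Γ) : ‖((s29_ew_chi m ψ γ : ℂˣ) : ℂ)‖ = 1 := by
  refine Complex.norm_eq_one_of_pow_eq_one (n := m) ?_ (NeZero.ne m)
  rw [← Units.val_pow_eq_pow_val, s29_ew_chi_pow, Units.val_one]

theorem s29_ew_chi_eq_one_iff (γ : Γ) :
    s29_ew_chi m ψ γ = 1 ↔ ψ (Additive.ofMul γ) = 0 := by
  rw [s29_ew_chi_apply, (s29_ew_zeta_prim m).pow_eq_one_iff_dvd, ← ZMod.val_eq_zero]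
  constructor
  · intro h
    exact Nat.eq_zero_of_dvd_of_lt h (ZMod.val_lt _)
  · intro h
    rw [h]
    exact dvd_zero m

theorem s29_ew_chi_injective :
    Function.Injective (s29_ew_chi m : (Additive Γ →+ ZMod m) → (Γ →* ℂˣ)) := by
  intro ψ ψ' h
  refine AddMonoidHom.ext fun γ => ?_
  have h1 : s29_ew_chi m ψ (Additive.toMul γ) = s29_ew_chi m ψ' (Additive.toMul γ) := by rw [h]
  rw [s29_ew_chi_apply, s29_ew_chi_apply] at h1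
  exact ZMod.val_injective m
    ((s29_ew_zeta_prim m).pow_inj (ZMod.val_lt _) (ZMod.val_lt _) h1)

/-- Reduction modulo `m` of an integral homomorphism. -/
def s29_ew_red (m : ℕ) {Γ : Type*} [Group Γ] (ψ : Additive Γ →+ ℤ) : Additive Γ →+ ZMod m :=
  (Int.castAddHom (ZMod m)).comp ψ

theorem s29_ew_red_apply (m : ℕ) {Γ : Type*} [Group Γ] (ψ : Additive Γ →+ ℤ) (γ : Additive Γ) :
    s29_ew_red m ψ γ = ((ψ γ : ℤ) : ZMod m) := rfl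

omit [NeZero m] in
theorem s29_ew_red_add (ψ ψ' : Additive Γ →+ ℤ) :
    s29_ew_red m (ψ + ψ') = s29_ew_red m ψ + s29_ew_red m ψ' := by
  refine AddMonoidHom.ext fun γ => ?_
  simp [s29_ew_red_apply]

/-- The character of the reduction of an integral homomorphism `ψ` is `γ ↦ exp(2πi ψ(γ)/m)`. -/
theorem s29_ew_chi_red (ψ : Additive Γ →+ ℤ) (γ : Γ) :
    ((s29_ew_chi m (s29_ew_red m ψ) γ : ℂˣ) : ℂ) =
      Complex.exp (2 * Real.pi * Complex.I * (ψ (Additive.ofMul γ) : ℤ) / m) := by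
  have hm : (m : ℂ) ≠ 0 := Nat.cast_ne_zero.2 (NeZero.ne m)
  rw [s29_ew_chi_apply, Units.val_pow_eq_pow_val, s29_ew_zeta_coe, ← Complex.exp_nat_mul,
    s29_ew_red_apply]
  set a : ℤ := ψ (Additive.ofMul γ) with ha
  have h1 : (((a : ZMod m).val : ℤ)) = a % m := ZMod.val_intCast a
  have h2 : a = ((a : ZMod m).val : ℤ) + m * (a / m) := by
    rw [h1]; exact (Int.emod_add_mul_ediv a m).symm
  have h3 : (a : ℂ) = (((a : ZMod m).val : ℕ) : ℂ) + m * ((a / m : ℤ) : ℂ) := by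
    conv_lhs => rw [h2]
    push_cast
    ring
  rw [h3]
  have h4 : 2 * (Real.pi : ℂ) * Complex.I * ((((a : ZMod m).val : ℕ) : ℂ) + m * ((a / m : ℤ) : ℂ)) / m
      = (((a : ZMod m).val : ℕ) : ℂ) * (2 * Real.pi * Complex.I / m) +
        ((a / m : ℤ) : ℂ) * (2 * Real.pi * Complex.I) := by
    field_simp
  rw [h4, Complex.exp_add, Complex.exp_int_mul_two_pi_mul_I, mul_one]

end chi

/-- The reduction modulo `m` of an integral parabolic homomorphism is parabolic. -/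
theorem s29_ew_red_parabolic (N m : ℕ) (ψ : Additive (Gamma0 N) →+ ℤ)
    (hψ : ψ ∈ ModularCurve.Period.parabolicHoms ℤ (Gamma0 N) ℤ) :
    ModularCurve.Period.IsParabolicHom (Gamma0 N) (s29_ew_red m ψ) := by
  intro γ hγ
  rw [s29_ew_red_apply, hψ γ hγ, Int.cast_zero]

/-- An upper triangular element of `SL(2, ℤ)` has trace `±2`. -/
theorem s29_ew_trace_sq (γ : SL(2, ℤ)) (hγ : (γ : Matrix (Fin 2) (Fin 2) ℤ) 1 0 = 0) :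
    (γ : Matrix (Fin 2) (Fin 2) ℤ).trace ^ 2 = 4 := by
  have hdet := γ.det_coe
  rw [Matrix.det_fin_two, hγ, mul_zero, sub_zero] at hdet
  rw [Matrix.trace_fin_two]
  rcases Int.eq_one_or_neg_one_of_mul_eq_one' hdet with ⟨h1, h2⟩ | ⟨h1, h2⟩
  · rw [h1, h2]; norm_num
  · rw [h1, h2]; norm_num

/-- **(hχ∞)** The character of a parabolic homomorphism is trivial on the stabiliser of `i∞`. -/
theorem s29_ew_chi_inf (N m : ℕ) [NeZero m] (ψ : Additive (Gamma0 N) →+ ZMod m)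
    (hψ : ModularCurve.Period.IsParabolicHom (Gamma0 N) ψ) (γ : Gamma0 N)
    (hγ : ((γ : SL(2, ℤ)) : Matrix (Fin 2) (Fin 2) ℤ) 1 0 = 0) : s29_ew_chi m ψ γ = 1 := by
  rw [s29_ew_chi_eq_one_iff]
  exact hψ γ (s29_ew_trace_sq _ hγ)

/-! ### (W2) generic hand-over -/

section generic

variable {Φ Φ₁ : ℍ → ℂ}

/-- The quotient `Φ / Φ₁` of two holomorphic functions as a meromorphic function. -/
def s29_ew_G (Φ Φ₁ : ℍ → ℂ) (hΦ : MDifferentiable 𝓘(ℂ) 𝓘(ℂ) Φ)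
    (hΦ₁ : MDifferentiable 𝓘(ℂ) 𝓘(ℂ) Φ₁) : s29_Mer :=
  algebraMap s29_hol s29_Mer (s29_mkHol Φ hΦ) / algebraMap s29_hol s29_Mer (s29_mkHol Φ₁ hΦ₁)

theorem s29_ew_mkHol_ne_zero (hΦ : MDifferentiable 𝓘(ℂ) 𝓘(ℂ) Φ) (h0 : ∃ τ, Φ τ ≠ 0) :
    algebraMap s29_hol s29_Mer (s29_mkHol Φ hΦ) ≠ 0 := by
  intro h
  obtain ⟨τ, hτ⟩ := h0
  have h1 : s29_mkHol Φ hΦ = 0 := s29_algebraMap_injective (by rw [h, map_zero])
  exact hτ (congrArg (fun f : s29_hol => (f : ℍ → ℂ) τ) h1)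

theorem s29_ew_G_ne_zero (hΦ : MDifferentiable 𝓘(ℂ) 𝓘(ℂ) Φ)
    (hΦ₁ : MDifferentiable 𝓘(ℂ) 𝓘(ℂ) Φ₁) (h0 : ∃ τ, Φ τ ≠ 0) (h1 : ∃ τ, Φ₁ τ ≠ 0) :
    s29_ew_G Φ Φ₁ hΦ hΦ₁ ≠ 0 :=
  div_ne_zero (s29_ew_mkHol_ne_zero hΦ h0) (s29_ew_mkHol_ne_zero hΦ₁ h1)

theorem s29_ew_pow_mdiff (hΦ : MDifferentiable 𝓘(ℂ) 𝓘(ℂ) Φ) (m : ℕ) :
    MDifferentiable 𝓘(ℂ) 𝓘(ℂ) (fun τ => Φ τ ^ m) :=
  (s29_mkHol Φ hΦ ^ m).2

theorem s29_ew_pow_ne_zero (h0 : ∃ τ, Φ τ ≠ 0) (m : ℕ) : ∃ τ, Φ τ ^ m ≠ 0 := by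
  obtain ⟨τ, hτ⟩ := h0
  exact ⟨τ, pow_ne_zero m hτ⟩

theorem s29_ew_G_pow (hΦ : MDifferentiable 𝓘(ℂ) 𝓘(ℂ) Φ)
    (hΦ₁ : MDifferentiable 𝓘(ℂ) 𝓘(ℂ) Φ₁) (m : ℕ) :
    s29_ew_G Φ Φ₁ hΦ hΦ₁ ^ m =
      s29_ew_G (fun τ => Φ τ ^ m) (fun τ => Φ₁ τ ^ m) (s29_ew_pow_mdiff hΦ m)
        (s29_ew_pow_mdiff hΦ₁ m) := by
  unfold s29_ew_G
  rw [div_pow, ← map_pow, ← map_pow]
  rfl

/-- **(to κ)** If `Φ` has weight `k` and character `χ` and `Φ₁ ≠ 0` has weight `k` and trivial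
character for `γ`, then `G = Φ / Φ₁` satisfies `γ⁻¹ • G = χ(γ) G`, i.e. `G(γ τ) = χ(γ) G(τ)`. -/
theorem s29_ew_G_smul_aux (hΦ : MDifferentiable 𝓘(ℂ) 𝓘(ℂ) Φ)
    (hΦ₁ : MDifferentiable 𝓘(ℂ) 𝓘(ℂ) Φ₁) (h1 : ∃ τ, Φ₁ τ ≠ 0) (γ : SL(2, ℤ)) (d : ℍ → ℂ)
    (c0 : ℂ) (hc : ∀ z, Φ (γ • z) = c0 * d z * Φ z) (hc₁ : ∀ z, Φ₁ (γ • z) = d z * Φ₁ z) :
    (γ⁻¹ : SL(2, ℤ)) • s29_ew_G Φ Φ₁ hΦ hΦ₁ = algebraMap ℂ s29_Mer c0 * s29_ew_G Φ Φ₁ hΦ hΦ₁ := by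
  have hb : algebraMap s29_hol s29_Mer (s29_mkHol Φ₁ hΦ₁) ≠ 0 := s29_ew_mkHol_ne_zero hΦ₁ h1
  have hb' : (γ⁻¹ : SL(2, ℤ)) • algebraMap s29_hol s29_Mer (s29_mkHol Φ₁ hΦ₁) ≠ 0 := by
    rw [s29_sl_smul_def]
    exact (smul_ne_zero_iff_ne _).2 hb
  unfold s29_ew_G
  rw [smul_div₀', div_eq_iff hb', mul_assoc, div_mul_eq_mul_div, mul_div_assoc', eq_div_iff hb,
    s29_sl_smul_def, s29_sl_smul_def, s29_smul_algebraMap, s29_smul_algebraMap,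
    IsScalarTower.algebraMap_apply ℂ s29_hol s29_Mer, ← map_mul, ← map_mul, ← map_mul]
  congr 1
  refine s29_hol_ext fun τ => ?_
  show Φ ((s29_sl γ⁻¹)⁻¹ • τ) * Φ₁ τ = c0 * (Φ τ * Φ₁ ((s29_sl γ⁻¹)⁻¹ • τ))
  rw [s29_sl_inv_smul, inv_inv, hc, hc₁]
  ring

/-- **(to κ)** If `Φ` has weight `k` and character `χ` on `Γ₀(N)` and `Φ₁ ≠ 0` has weight `k` and
trivial character, then `G = Φ / Φ₁` satisfies `γ⁻¹ • G = χ(γ) G` (i.e. `G(γ τ) = χ(γ) G(τ)`) for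
`γ ∈ Γ₀(N)`. -/
theorem s29_ew_G_smul {N : ℕ} (χ : Gamma0 N →* ℂˣ) (k : ℤ)
    (hΦ : MDifferentiable 𝓘(ℂ) 𝓘(ℂ) Φ) (hΦ₁ : MDifferentiable 𝓘(ℂ) 𝓘(ℂ) Φ₁)
    (h1 : ∃ τ, Φ₁ τ ≠ 0)
    (hχ : ∀ (γ : Gamma0 N) (z : ℍ), Φ ((γ : SL(2, ℤ)) • z) =
      ((χ γ : ℂˣ) : ℂ) * denom (γ : SL(2, ℤ)) z ^ k * Φ z)
    (hχ₁ : ∀ (γ : Gamma0 N) (z : ℍ), Φ₁ ((γ : SL(2, ℤ)) • z) =
      denom (γ : SL(2, ℤ)) z ^ k * Φ₁ z) (γ : Gamma0 N) :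
    ((γ : SL(2, ℤ))⁻¹ : SL(2, ℤ)) • s29_ew_G Φ Φ₁ hΦ hΦ₁ =
      algebraMap ℂ s29_Mer ((χ γ : ℂˣ) : ℂ) * s29_ew_G Φ Φ₁ hΦ hΦ₁ :=
  s29_ew_G_smul_aux hΦ hΦ₁ h1 (γ : SL(2, ℤ)) (fun z => denom (γ : SL(2, ℤ)) z ^ k) _
    (hχ γ) (hχ₁ γ)

/-- the same for `γ` itself acting: `γ • G = χ(γ)⁻¹ G`. -/
theorem s29_ew_G_smul' {N : ℕ} (χ : Gamma0 N →* ℂˣ) (k : ℤ)
    (hΦ : MDifferentiable 𝓘(ℂ) 𝓘(ℂ) Φ) (hΦ₁ : MDifferentiable 𝓘(ℂ) 𝓘(ℂ) Φ₁)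
    (h1 : ∃ τ, Φ₁ τ ≠ 0)
    (hχ : ∀ (γ : Gamma0 N) (z : ℍ), Φ ((γ : SL(2, ℤ)) • z) =
      ((χ γ : ℂˣ) : ℂ) * denom (γ : SL(2, ℤ)) z ^ k * Φ z)
    (hχ₁ : ∀ (γ : Gamma0 N) (z : ℍ), Φ₁ ((γ : SL(2, ℤ)) • z) =
      denom (γ : SL(2, ℤ)) z ^ k * Φ₁ z) (γ : Gamma0 N) :
    (γ : SL(2, ℤ)) • s29_ew_G Φ Φ₁ hΦ hΦ₁ =
      algebraMap ℂ s29_Mer (((χ γ)⁻¹ : ℂˣ) : ℂ) * s29_ew_G Φ Φ₁ hΦ hΦ₁ := by
  have h := s29_ew_G_smul χ k hΦ hΦ₁ h1 hχ hχ₁ γ⁻¹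
  rw [map_inv] at h
  simpa using h

/-- **(to Z2)** the `m`-th power of a function of weight `k` with a character `χ` killed by `m`
has weight `k m` and trivial character. -/
theorem s29_ew_pow_smul {N : ℕ} (χ : Gamma0 N →* ℂˣ) (k : ℤ) (m : ℕ)
    (hχm : ∀ γ : Gamma0 N, χ γ ^ m = 1)
    (hχ : ∀ (γ : Gamma0 N) (z : ℍ), Φ ((γ : SL(2, ℤ)) • z) =
      ((χ γ : ℂˣ) : ℂ) * denom (γ : SL(2, ℤ)) z ^ k * Φ z) :
    ∀ γ : SL(2, ℤ), γ ∈ Gamma0 N → ∀ τ : ℍ,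
      Φ (γ • τ) ^ m = denom γ τ ^ (k * m) * Φ τ ^ m := by
  intro γ hγ τ
  have h := hχ ⟨γ, hγ⟩ τ
  have h1 : ((χ ⟨γ, hγ⟩ : ℂˣ) : ℂ) ^ m = 1 := by
    rw [← Units.val_pow_eq_pow_val, hχm, Units.val_one]
  show Φ (γ • τ) ^ m = _
  rw [h, mul_pow, mul_pow, h1, one_mul, _root_.zpow_mul, zpow_natCast]

/-- **(to Z2)** the slash of a power is the power of the slash. -/
theorem s29_ew_pow_slash (Φ : ℍ → ℂ) (k : ℤ) (m : ℕ) (A : SL(2, ℤ)) :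
    (fun τ => Φ τ ^ m) ∣[k * m] A = (Φ ∣[k] A) ^ m := by
  funext τ
  rw [Pi.pow_apply, SL_slash_apply, SL_slash_apply, mul_pow, ← zpow_natCast (_ ^ (-k)) m,
    ← _root_.zpow_mul, neg_mul]

/-- **(to Z2)** the powers of a function bounded at all cusps in weight `k` are bounded at all
cusps in weight `k m`. -/
theorem s29_ew_pow_bdd (k : ℤ) (m : ℕ)
    (hb : ∀ A : SL(2, ℤ), IsBoundedAtImInfty (Φ ∣[k] A)) (A : SL(2, ℤ)) :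
    IsBoundedAtImInfty ((fun τ => Φ τ ^ m) ∣[k * m] A) := by
  rw [s29_ew_pow_slash]
  induction m with
  | zero =>
    rw [pow_zero]
    exact Filter.const_boundedAtFilter _ (1 : ℂ)
  | succ n ih =>
    rw [pow_succ]
    exact Filter.BoundedAtFilter.mul ih (hb A)

end generic

/-! ### (W3) the weight four Eisenstein series with character -/

section eis

variable (N m : ℕ) [NeZero m] (ψ : Additive (Gamma0 N) →+ ZMod m)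

/-- The weight four Eisenstein series with the character of `ψ`. -/
def s29_ew_E : ℍ → ℂ := s29_eis N (s29_ew_chi m ψ) 4

/-- The weight four Eisenstein series with trivial character on `Γ₀(N)`. -/
def s29_ew_E1 : ℍ → ℂ := s29_eis N 1 4

theorem s29_ew_E_mdiff : MDifferentiable 𝓘(ℂ) 𝓘(ℂ) (s29_ew_E N m ψ) :=
  s29_eis_mdiff _ (s29_ew_chi_norm m ψ) (by norm_num)

theorem s29_ew_E1_mdiff : MDifferentiable 𝓘(ℂ) 𝓘(ℂ) (s29_ew_E1 N) :=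
  s29_eis_mdiff _ (fun _ => by simp) (by norm_num)

variable {N m ψ}

/-- weight four, character `χ_ψ`. -/
theorem s29_ew_E_smul (hψ : ModularCurve.Period.IsParabolicHom (Gamma0 N) ψ) (γ : Gamma0 N)
    (z : ℍ) : s29_ew_E N m ψ ((γ : SL(2, ℤ)) • z) =
      ((s29_ew_chi m ψ γ : ℂˣ) : ℂ) * denom (γ : SL(2, ℤ)) z ^ (4 : ℤ) * s29_ew_E N m ψ z :=
  s29_eis_smul _ (s29_ew_chi_inf N m ψ hψ) 4 γ z

variable (N) in
/-- weight four, trivial character. -/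
theorem s29_ew_E1_smul (γ : Gamma0 N) (z : ℍ) :
    s29_ew_E1 N ((γ : SL(2, ℤ)) • z) = denom (γ : SL(2, ℤ)) z ^ (4 : ℤ) * s29_ew_E1 N z := by
  have h := s29_eis_smul (1 : Gamma0 N →* ℂˣ) (fun _ _ => rfl) 4 γ z
  rw [MonoidHom.one_apply, Units.val_one, one_mul] at h
  exact h

variable (N m ψ) in
/-- bounded at every cusp. -/
theorem s29_ew_E_bdd (A : SL(2, ℤ)) : IsBoundedAtImInfty (s29_ew_E N m ψ ∣[(4 : ℤ)] A) :=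
  s29_eis_bdd _ (s29_ew_chi_norm m ψ) (by norm_num) A

variable (N) in
theorem s29_ew_E1_bdd (A : SL(2, ℤ)) : IsBoundedAtImInfty (s29_ew_E1 N ∣[(4 : ℤ)] A) :=
  s29_eis_bdd _ (fun _ => by simp) (by norm_num) A

/-- value `2` at `i∞`. -/
theorem s29_ew_E_tendsto (hψ : ModularCurve.Period.IsParabolicHom (Gamma0 N) ψ) :
    Tendsto (fun y : ℝ => s29_ew_E N m ψ (s29_eis_pt y)) atTop (𝓝 2) :=
  s29_eis_tendsto _ (s29_ew_chi_inf N m ψ hψ) (s29_ew_chi_norm m ψ) (by norm_num)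
    ⟨2, by norm_num⟩

variable (N) in
theorem s29_ew_E1_tendsto :
    Tendsto (fun y : ℝ => s29_ew_E1 N (s29_eis_pt y)) atTop (𝓝 2) :=
  s29_eis_tendsto _ (fun _ _ => rfl) (fun _ => by simp) (by norm_num) ⟨2, by norm_num⟩

theorem s29_ew_E_ne_zero (hψ : ModularCurve.Period.IsParabolicHom (Gamma0 N) ψ) :
    ∃ z : ℍ, s29_ew_E N m ψ z ≠ 0 :=
  s29_eis_ne_zero _ (s29_ew_chi_inf N m ψ hψ) (s29_ew_chi_norm m ψ) (by norm_num)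
    ⟨2, by norm_num⟩

variable (N) in
theorem s29_ew_E1_ne_zero : ∃ z : ℍ, s29_ew_E1 N z ≠ 0 :=
  s29_eis_ne_zero _ (fun _ _ => rfl) (fun _ => by simp) (by norm_num) ⟨2, by norm_num⟩

variable (N m ψ) in
/-- The meromorphic function `G_ψ = E_{4,χ_ψ} / E_{4,1}`. -/
def s29_ew_Gchi : s29_Mer :=
  s29_ew_G (s29_ew_E N m ψ) (s29_ew_E1 N) (s29_ew_E_mdiff N m ψ) (s29_ew_E1_mdiff N)

theorem s29_ew_Gchi_ne_zero (hψ : ModularCurve.Period.IsParabolicHom (Gamma0 N) ψ) :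
    s29_ew_Gchi N m ψ ≠ 0 :=
  s29_ew_G_ne_zero _ _ (s29_ew_E_ne_zero hψ) (s29_ew_E1_ne_zero N)

/-- **(existence, to κ)** `G_ψ (γ τ) = χ_ψ(γ) G_ψ(τ)` for `γ ∈ Γ₀(N)`. -/
theorem s29_ew_Gchi_smul (hψ : ModularCurve.Period.IsParabolicHom (Gamma0 N) ψ)
    (γ : Gamma0 N) :
    ((γ : SL(2, ℤ))⁻¹ : SL(2, ℤ)) • s29_ew_Gchi N m ψ =
      algebraMap ℂ s29_Mer ((s29_ew_chi m ψ γ : ℂˣ) : ℂ) * s29_ew_Gchi N m ψ :=
  s29_ew_G_smul (s29_ew_chi m ψ) 4 _ _ (s29_ew_E1_ne_zero N) (s29_ew_E_smul hψ)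
    (s29_ew_E1_smul N) γ

/-- `G_ψ ^ m` is the quotient of the `m`-th powers. -/
theorem s29_ew_Gchi_pow :
    s29_ew_Gchi N m ψ ^ m =
      s29_ew_G (fun τ => s29_ew_E N m ψ τ ^ m) (fun τ => s29_ew_E1 N τ ^ m)
        (s29_ew_pow_mdiff (s29_ew_E_mdiff N m ψ) m) (s29_ew_pow_mdiff (s29_ew_E1_mdiff N) m) :=
  s29_ew_G_pow _ _ m

/-- **(to Z2)** `a = E_{4,χ_ψ} ^ m` is of weight `4 m` for `Γ₀(N)` with trivial character. -/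
theorem s29_ew_Em_smul (hψ : ModularCurve.Period.IsParabolicHom (Gamma0 N) ψ) :
    ∀ γ : SL(2, ℤ), γ ∈ Gamma0 N → ∀ τ : ℍ,
      s29_ew_E N m ψ (γ • τ) ^ m = denom γ τ ^ ((4 : ℤ) * m) * s29_ew_E N m ψ τ ^ m :=
  s29_ew_pow_smul (s29_ew_chi m ψ) 4 m (s29_ew_chi_pow m ψ) (s29_ew_E_smul hψ)

variable (N) in
/-- **(to Z2)** `b = E_{4,1} ^ m` is of weight `4 m` for `Γ₀(N)`. -/
theorem s29_ew_E1m_smul (m : ℕ) :
    ∀ γ : SL(2, ℤ), γ ∈ Gamma0 N → ∀ τ : ℍ,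
      s29_ew_E1 N (γ • τ) ^ m = denom γ τ ^ ((4 : ℤ) * m) * s29_ew_E1 N τ ^ m :=
  s29_ew_pow_smul (1 : Gamma0 N →* ℂˣ) 4 m (fun _ => one_pow m) (fun γ z => by
    rw [MonoidHom.one_apply, Units.val_one, one_mul]; exact s29_ew_E1_smul N γ z)

variable (N m ψ) in
/-- **(to Z2)** `a = E_{4,χ_ψ} ^ m` is bounded at every cusp. -/
theorem s29_ew_Em_bdd (A : SL(2, ℤ)) :
    IsBoundedAtImInfty ((fun τ => s29_ew_E N m ψ τ ^ m) ∣[(4 : ℤ) * m] A) :=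
  s29_ew_pow_bdd 4 m (s29_ew_E_bdd N m ψ) A

variable (N) in
/-- **(to Z2)** `b = E_{4,1} ^ m` is bounded at every cusp. -/
theorem s29_ew_E1m_bdd (m : ℕ) (A : SL(2, ℤ)) :
    IsBoundedAtImInfty ((fun τ => s29_ew_E1 N τ ^ m) ∣[(4 : ℤ) * m] A) :=
  s29_ew_pow_bdd 4 m (s29_ew_E1_bdd N) A

end eis

end Fermat.Agent.S29
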