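import Fermat.Agent.S29.MerField

/-!
# S29 (project BRIDGE), block (A2): the character of an `m`-th root

`G` a nonzero meromorphic function on `ℍ` (an element of the field `s29_Mer`) whose `m`-th power
is `Γ₀(N)`-invariant.  Then `G(γτ) = ζ_m ^ χ(γ) · G(τ)` for a unique homomorphism
`χ : Γ₀(N) → ℤ/m` (`ζ_m = exp(2πi/m)`):

* `s29_ka_IsChar N m G χ` : the relation `γ⁻¹ • G = ζ_m ^ χ(γ) · G` for all `γ ∈ Γ₀(N)`;
* `s29_ka_exists_char`, `s29_ka_char_unique`;
* `s29_ka_isChar_mul`, `s29_ka_isChar_inv`, `s29_ka_isChar_const`, `s29_ka_isChar_zero_iff`.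

Pure algebra in the field `s29_Mer`: `X ^ m - 1` has at most `m` roots and the constants
`ζ_m ^ i` are `m` roots.
-/

set_option autoImplicit false

open UpperHalfPlane
open scoped MatrixGroups Manifold

noncomputable section

namespace Fermat.Agent.S29

open CongruenceSubgroup

/-- `ζ_m = exp(2πi/m)`. -/
def s29_ka_zeta (m : ℕ) : ℂ := Complex.exp (2 * Real.pi * Complex.I / m)

theorem s29_ka_zeta_prim (m : ℕ) [NeZero m] : IsPrimitiveRoot (s29_ka_zeta m) m :=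
  Complex.isPrimitiveRoot_exp m (NeZero.ne m)

/-- `k ↦ ζ_m ^ k`, `k ∈ ℤ/m`. -/
def s29_ka_pow (m : ℕ) (k : ZMod m) : ℂ := s29_ka_zeta m ^ k.val

theorem s29_ka_pow_zero (m : ℕ) [NeZero m] : s29_ka_pow m 0 = 1 := by
  rw [s29_ka_pow, ZMod.val_zero, pow_zero]

theorem s29_ka_pow_add (m : ℕ) [NeZero m] (a b : ZMod m) :
    s29_ka_pow m (a + b) = s29_ka_pow m a * s29_ka_pow m b := by
  rw [s29_ka_pow, s29_ka_pow, s29_ka_pow, ZMod.val_add, ← pow_add,
    ← pow_eq_pow_mod _ (s29_ka_zeta_prim m).pow_eq_one]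

theorem s29_ka_pow_ne_zero (m : ℕ) [NeZero m] (a : ZMod m) : s29_ka_pow m a ≠ 0 :=
  pow_ne_zero _ ((s29_ka_zeta_prim m).ne_zero (NeZero.ne m))

theorem s29_ka_pow_neg (m : ℕ) [NeZero m] (a : ZMod m) :
    s29_ka_pow m (-a) = (s29_ka_pow m a)⁻¹ := by
  have h := s29_ka_pow_add m a (-a)
  rw [add_neg_cancel, s29_ka_pow_zero] at h
  exact eq_inv_of_mul_eq_one_right h.symm

theorem s29_ka_pow_injective (m : ℕ) [NeZero m] : Function.Injective (s29_ka_pow m) := by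
  intro a b h
  exact ZMod.val_injective m
    ((s29_ka_zeta_prim m).pow_inj (ZMod.val_lt a) (ZMod.val_lt b) h)

theorem s29_ka_pow_pow (m : ℕ) [NeZero m] (a : ZMod m) : s29_ka_pow m a ^ m = 1 := by
  rw [s29_ka_pow, ← pow_mul, mul_comm, pow_mul, (s29_ka_zeta_prim m).pow_eq_one, one_pow]

theorem s29_ka_pow_natCast (m : ℕ) [NeZero m] (i : ℕ) :
    s29_ka_pow m (i : ZMod m) = s29_ka_zeta m ^ i := by
  rw [s29_ka_pow, ZMod.val_natCast, ← pow_eq_pow_mod _ (s29_ka_zeta_prim m).pow_eq_one]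

/-- the `m`-th roots of unity of the field of meromorphic functions are the constants
`ζ_m ^ k`. -/
theorem s29_ka_root_of_unity (m : ℕ) [NeZero m] (u : s29_Mer) (hu : u ^ m = 1) :
    ∃ k : ZMod m, u = algebraMap ℂ s29_Mer (s29_ka_pow m k) := by
  have hprim : IsPrimitiveRoot (algebraMap ℂ s29_Mer (s29_ka_zeta m)) m :=
    (s29_ka_zeta_prim m).map_of_injective (algebraMap ℂ s29_Mer).injective
  obtain ⟨i, -, hi⟩ := hprim.eq_pow_of_pow_eq_one hu
  refine ⟨(i : ZMod m), ?_⟩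
  rw [s29_ka_pow_natCast, map_pow, hi]

/-- **the character relation**: `G(γτ) = ζ_m ^ χ(γ) · G(τ)` for all `γ ∈ Γ₀(N)`, written in the
field of meromorphic functions (`(γ⁻¹ • G)(τ) = G(γτ)`). -/
def s29_ka_IsChar (N m : ℕ) (G : s29_Mer) (χ : Additive (Gamma0 N) →+ ZMod m) : Prop :=
  ∀ γ : Gamma0 N, ((γ : SL(2, ℤ))⁻¹) • G =
    algebraMap ℂ s29_Mer (s29_ka_pow m (χ (Additive.ofMul γ))) * G

theorem s29_ka_isChar_iff {N m : ℕ} {G : s29_Mer} {χ : Additive (Gamma0 N) →+ ZMod m} :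
    s29_ka_IsChar N m G χ ↔ ∀ γ : Gamma0 N, ((γ : SL(2, ℤ))⁻¹) • G =
      algebraMap ℂ s29_Mer (s29_ka_pow m (χ (Additive.ofMul γ))) * G := Iff.rfl

/-- **existence of the character.** -/
theorem s29_ka_exists_char (N m : ℕ) [NeZero m] (G : s29_Mer) (hG : G ≠ 0)
    (hinv : ∀ γ : SL(2, ℤ), γ ∈ Gamma0 N → γ • (G ^ m) = G ^ m) :
    ∃ χ : Additive (Gamma0 N) →+ ZMod m, s29_ka_IsChar N m G χ := by
  have key : ∀ γ : Gamma0 N, ∃ k : ZMod m,
      ((γ : SL(2, ℤ))⁻¹) • G = algebraMap ℂ s29_Mer (s29_ka_pow m k) * G := by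
    intro γ
    have h1 : (((γ : SL(2, ℤ))⁻¹) • G / G) ^ m = 1 := by
      rw [div_pow, ← smul_pow', hinv _ (inv_mem γ.2), div_self (pow_ne_zero _ hG)]
    obtain ⟨k, hk⟩ := s29_ka_root_of_unity m _ h1
    exact ⟨k, by rw [← hk, div_mul_cancel₀ _ hG]⟩
  choose k hk using key
  have hadd : ∀ a b : Additive (Gamma0 N),
      k (Additive.toMul (a + b)) = k (Additive.toMul a) + k (Additive.toMul b) := by
    intro a b
    set γ : Gamma0 N := Additive.toMul a with hγ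
    set γ' : Gamma0 N := Additive.toMul b with hγ'
    have h1 : Additive.toMul (a + b) = γ * γ' := rfl
    rw [h1]
    have h2 : (((γ * γ' : Gamma0 N) : SL(2, ℤ))⁻¹) • G =
        algebraMap ℂ s29_Mer (s29_ka_pow m (k γ + k γ')) * G := by
      have h3 : (((γ * γ' : Gamma0 N) : SL(2, ℤ))⁻¹) = ((γ' : SL(2, ℤ))⁻¹) * ((γ : SL(2, ℤ))⁻¹) := by
        rw [Subgroup.coe_mul, mul_inv_rev]
      rw [h3, mul_smul, hk γ, smul_mul', s29_slsmul_const, hk γ', s29_ka_pow_add, map_mul]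
      ring
    have h4 := (hk (γ * γ')).symm.trans h2
    have h5 := mul_right_cancel₀ hG h4
    exact s29_ka_pow_injective m ((algebraMap ℂ s29_Mer).injective h5)
  exact ⟨AddMonoidHom.mk' (fun a => k (Additive.toMul a)) hadd, fun γ => hk γ⟩

/-- **uniqueness of the character.** -/
theorem s29_ka_char_unique {N m : ℕ} [NeZero m] {G : s29_Mer} (hG : G ≠ 0)
    {χ χ' : Additive (Gamma0 N) →+ ZMod m} (h : s29_ka_IsChar N m G χ)
    (h' : s29_ka_IsChar N m G χ') : χ = χ' := by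
  ext a
  have h1 := (h (Additive.toMul a)).symm.trans (h' (Additive.toMul a))
  have h2 := mul_right_cancel₀ hG h1
  exact s29_ka_pow_injective m ((algebraMap ℂ s29_Mer).injective h2)

theorem s29_ka_isChar_mul {N m : ℕ} [NeZero m] {G G' : s29_Mer}
    {χ χ' : Additive (Gamma0 N) →+ ZMod m} (h : s29_ka_IsChar N m G χ)
    (h' : s29_ka_IsChar N m G' χ') : s29_ka_IsChar N m (G * G') (χ + χ') := by
  intro γ
  rw [smul_mul', h γ, h' γ, AddMonoidHom.add_apply, s29_ka_pow_add, map_mul]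
  ring

theorem s29_ka_isChar_inv {N m : ℕ} [NeZero m] {G : s29_Mer}
    {χ : Additive (Gamma0 N) →+ ZMod m} (h : s29_ka_IsChar N m G χ) :
    s29_ka_IsChar N m G⁻¹ (-χ) := by
  intro γ
  rw [smul_inv'', h γ, AddMonoidHom.neg_apply, s29_ka_pow_neg, map_inv₀, mul_inv]

theorem s29_ka_isChar_div {N m : ℕ} [NeZero m] {G G' : s29_Mer}
    {χ χ' : Additive (Gamma0 N) →+ ZMod m} (h : s29_ka_IsChar N m G χ)
    (h' : s29_ka_IsChar N m G' χ') : s29_ka_IsChar N m (G / G') (χ - χ') := by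
  rw [div_eq_mul_inv, sub_eq_add_neg]
  exact s29_ka_isChar_mul h (s29_ka_isChar_inv h')

/-- a function invariant under `Γ₀(N)` has the trivial character. -/
theorem s29_ka_isChar_zero_iff {N m : ℕ} [NeZero m] {G : s29_Mer} :
    s29_ka_IsChar N m G 0 ↔ ∀ γ : SL(2, ℤ), γ ∈ Gamma0 N → γ • G = G := by
  constructor
  · intro h γ hγ
    have h1 := h ⟨γ⁻¹, inv_mem hγ⟩
    rw [AddMonoidHom.zero_apply, s29_ka_pow_zero, map_one, one_mul] at h1
    simpa using h1
  · intro h γ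
    rw [AddMonoidHom.zero_apply, s29_ka_pow_zero, map_one, one_mul]
    exact h _ (inv_mem γ.2)

theorem s29_ka_isChar_const (N m : ℕ) [NeZero m] (c : ℂ) :
    s29_ka_IsChar N m (algebraMap ℂ s29_Mer c) 0 :=
  s29_ka_isChar_zero_iff.2 fun γ _ => s29_slsmul_const γ c

theorem s29_ka_isChar_pow_const (N m : ℕ) [NeZero m] (k : ZMod m) {G : s29_Mer}
    {χ : Additive (Gamma0 N) →+ ZMod m} (h : s29_ka_IsChar N m G χ) :
    s29_ka_IsChar N m (algebraMap ℂ s29_Mer (s29_ka_pow m k) * G) χ := by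
  have h1 := s29_ka_isChar_mul (s29_ka_isChar_const N m (s29_ka_pow m k)) h
  rwa [zero_add] at h1

/-- two `m`-th roots of the same function have the same character. -/
theorem s29_ka_isChar_of_pow_eq {N m : ℕ} [NeZero m] {G G' : s29_Mer} (hG : G ≠ 0)
    (hpow : G' ^ m = G ^ m) {χ : Additive (Gamma0 N) →+ ZMod m}
    (h : s29_ka_IsChar N m G χ) : s29_ka_IsChar N m G' χ := by
  have h1 : (G' / G) ^ m = 1 := by
    rw [div_pow, hpow, div_self (pow_ne_zero _ hG)]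
  obtain ⟨k, hk⟩ := s29_ka_root_of_unity m _ h1
  have h2 : G' = algebraMap ℂ s29_Mer (s29_ka_pow m k) * G := by
    rw [← hk, div_mul_cancel₀ _ hG]
  rw [h2]
  exact s29_ka_isChar_pow_const N m k h

end Fermat.Agent.S29
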