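import Mathlib
import Fermat.Agent.S29.EisWire
import Fermat.Agent.S29.KappaChar

/-!
# BRIDGE (B1-wire), adapter to the `κ`-calculus

The character relation `s29_ka_IsChar` (KappaChar.lean) for the quotients `Φ / Φ₁` of
EisWire.lean: the constant `ζ_m ^ ψ(γ)` of `s29_ew_chi` is the constant `s29_ka_pow m (ψ γ)`.
-/

open UpperHalfPlane ModularForm CongruenceSubgroup Matrix Filter Topology
open scoped MatrixGroups Manifold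

noncomputable section

namespace Fermat.Agent.S29

/-- the two conventions for `ζ_m ^ ψ(γ)` agree. -/
theorem s29_ew_ka_chi_coe (m : ℕ) [NeZero m] {Γ : Type*} [Group Γ] (ψ : Additive Γ →+ ZMod m)
    (γ : Γ) : ((s29_ew_chi m ψ γ : ℂˣ) : ℂ) = s29_ka_pow m (ψ (Additive.ofMul γ)) := by
  rw [s29_ew_chi_apply, Units.val_pow_eq_pow_val]
  rfl

/-- **(to κ)** generic form: if `Φ` has weight `k` and character `χ_ψ` on `Γ₀(N)` and `Φ₁ ≠ 0`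
has weight `k` and trivial character, then `Φ / Φ₁` has the character `ψ` in the sense of the
`κ`-calculus. -/
theorem s29_ew_ka_G_isChar {N m : ℕ} [NeZero m] (ψ : Additive (Gamma0 N) →+ ZMod m) (k : ℤ)
    {Φ Φ₁ : ℍ → ℂ} (hΦ : MDifferentiable 𝓘(ℂ) 𝓘(ℂ) Φ) (hΦ₁ : MDifferentiable 𝓘(ℂ) 𝓘(ℂ) Φ₁)
    (h1 : ∃ τ, Φ₁ τ ≠ 0)
    (hχ : ∀ (γ : Gamma0 N) (z : ℍ), Φ ((γ : SL(2, ℤ)) • z) =
      ((s29_ew_chi m ψ γ : ℂˣ) : ℂ) * denom (γ : SL(2, ℤ)) z ^ k * Φ z)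
    (hχ₁ : ∀ (γ : Gamma0 N) (z : ℍ), Φ₁ ((γ : SL(2, ℤ)) • z) =
      denom (γ : SL(2, ℤ)) z ^ k * Φ₁ z) :
    s29_ka_IsChar N m (s29_ew_G Φ Φ₁ hΦ hΦ₁) ψ := by
  intro γ
  rw [← s29_ew_ka_chi_coe]
  exact s29_ew_G_smul (s29_ew_chi m ψ) k hΦ hΦ₁ h1 hχ hχ₁ γ

/-- **(existence, to κ)** `G_ψ = E_{4,χ_ψ} / E_{4,1}` has the character `ψ`. -/
theorem s29_ew_ka_Gchi_isChar {N m : ℕ} [NeZero m] {ψ : Additive (Gamma0 N) →+ ZMod m}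
    (hψ : ModularCurve.Period.IsParabolicHom (Gamma0 N) ψ) :
    s29_ka_IsChar N m (s29_ew_Gchi N m ψ) ψ := by
  intro γ
  rw [← s29_ew_ka_chi_coe]
  exact s29_ew_Gchi_smul hψ γ

/-- **(E1-pre)** For an integral parabolic homomorphism `ψ` and `M ≥ 1` there are holomorphic
`Φ, Φ₁ ≢ 0` of weight four for `Γ₀(N)`, bounded at all cusps, such that `Φ / Φ₁` has the
character `ψ mod M`, and `Φ ^ M`, `Φ₁ ^ M` satisfy the hypotheses of `(Z2-mf)` in weight `4 M`. -/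
theorem s29_ew_ka_exists (N M : ℕ) [NeZero M] (ψ : Additive (Gamma0 N) →+ ℤ)
    (hψ : ψ ∈ ModularCurve.Period.parabolicHoms ℤ (Gamma0 N) ℤ) :
    ∃ (Φ Φ₁ : ℍ → ℂ) (hΦ : MDifferentiable 𝓘(ℂ) 𝓘(ℂ) Φ) (hΦ₁ : MDifferentiable 𝓘(ℂ) 𝓘(ℂ) Φ₁),
      (∃ τ, Φ τ ≠ 0) ∧ (∃ τ, Φ₁ τ ≠ 0) ∧
      s29_ka_IsChar N M
        (algebraMap s29_hol s29_Mer (s29_mkHol Φ hΦ) / algebraMap s29_hol s29_Mer (s29_mkHol Φ₁ hΦ₁))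
        ((Int.castAddHom (ZMod M)).comp ψ) ∧
      MDifferentiable 𝓘(ℂ) 𝓘(ℂ) (fun τ => Φ τ ^ M) ∧
      MDifferentiable 𝓘(ℂ) 𝓘(ℂ) (fun τ => Φ₁ τ ^ M) ∧
      (∃ τ, Φ₁ τ ^ M ≠ 0) ∧
      (∀ γ : SL(2, ℤ), γ ∈ Gamma0 N → ∀ τ : ℍ,
        Φ (γ • τ) ^ M = denom γ τ ^ ((4 : ℤ) * M) * Φ τ ^ M) ∧
      (∀ γ : SL(2, ℤ), γ ∈ Gamma0 N → ∀ τ : ℍ,
        Φ₁ (γ • τ) ^ M = denom γ τ ^ ((4 : ℤ) * M) * Φ₁ τ ^ M) ∧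
      (∀ A : SL(2, ℤ), IsBoundedAtImInfty ((fun τ => Φ τ ^ M) ∣[(4 : ℤ) * M] A)) ∧
      (∀ A : SL(2, ℤ), IsBoundedAtImInfty ((fun τ => Φ₁ τ ^ M) ∣[(4 : ℤ) * M] A)) := by
  have hψ' : ModularCurve.Period.IsParabolicHom (Gamma0 N) (s29_ew_red M ψ) :=
    s29_ew_red_parabolic N M ψ hψ
  exact ⟨s29_ew_E N M (s29_ew_red M ψ), s29_ew_E1 N, s29_ew_E_mdiff N M _, s29_ew_E1_mdiff N,
    s29_ew_E_ne_zero hψ', s29_ew_E1_ne_zero N, s29_ew_ka_Gchi_isChar hψ',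
    s29_ew_pow_mdiff (s29_ew_E_mdiff N M _) M, s29_ew_pow_mdiff (s29_ew_E1_mdiff N) M,
    s29_ew_pow_ne_zero (s29_ew_E1_ne_zero N) M, s29_ew_Em_smul hψ', s29_ew_E1m_smul N M,
    s29_ew_Em_bdd N M _, s29_ew_E1m_bdd N M⟩

end Fermat.Agent.S29
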