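import Fermat.Agent.S29.Kappa
import Fermat.Agent.S37.HFunct

/-!
# S29 (project BRIDGE), block (EX-div): a torsion class from a function with an `m`-th root

If `g ∈ F_N` is nonzero, all its place orders are divisible by `m`, and `G` is a meromorphic
`m`-th root of (the analytic realisation of) `g` on the upper half plane with character `χ`,
then the class `x` of the divisor `div(g) / m` is an `m`-torsion class with `κ x = χ`.
-/

set_option autoImplicit false

open UpperHalfPlane ModularCurve AlgebraicCurve
open scoped MatrixGroups Manifold IntermediateField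

noncomputable section

namespace Fermat.Agent.S29

open Fermat.Agent.S24
open CongruenceSubgroup

attribute [local instance] algKC

/-- division of a divisor by `m` when all its coefficients are divisible by `m`. -/
theorem s29_ex_div_divisor {K F : Type*} [Field K] [Field F] [Algebra K F]
    (m : ℕ) (hm : m ≠ 0) (E : Divisor K F) (hE : ∀ P : Place K F, (m : ℤ) ∣ E P)
    (hdeg : Divisor.degree E = 0) :
    ∃ D : Divisor.degZero (K := K) (F := F),
      ∀ P : Place K F, E P = (m : ℤ) * (D : Divisor K F) P := by
  have hm' : (m : ℤ) ≠ 0 := by exact_mod_cast hm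
  set D0 : Divisor K F := Finsupp.mapRange (fun n : ℤ => n / (m : ℤ)) (by simp) E with hD0
  have hD0E : ∀ P : Place K F, E P = (m : ℤ) * D0 P := by
    intro P
    rw [hD0, Finsupp.mapRange_apply]
    exact (Int.mul_ediv_cancel' (hE P)).symm
  have hsmul : (m : ℤ) • D0 = E := by
    ext P
    rw [Finsupp.smul_apply, smul_eq_mul, ← hD0E P]
  have hdeg0 : Divisor.degree D0 = 0 := by
    have h1 : Divisor.degree ((m : ℤ) • D0) = (m : ℤ) • Divisor.degree D0 := map_zsmul _ _ _
    rw [hsmul, hdeg, smul_eq_mul] at h1
    rcases mul_eq_zero.mp h1.symm with h | h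
    · exact absurd h hm'
    · exact h
  exact ⟨⟨D0, hdeg0⟩, hD0E⟩

/-- **(EX-div)**: a function `g` on `X₀(N)` whose divisor is divisible by `m`, together with a
meromorphic `m`-th root `G` of `g` on the upper half plane with character `χ`, gives an
`m`-torsion class `x ∈ J₀(N)(ℚ̄)[m]` with `κ x = χ`. -/
theorem s29_ex_of_root (N m : ℕ) [NeZero N] [NeZero m]
    (g : modularFunctionFieldBar N) (hg : g ≠ 0)
    (hdiv : ∀ P : Place Kbar (modularFunctionFieldBar N), (m : ℤ) ∣ P.ord g)
    (G : s29_Mer) (hG : G ^ m = s29_an N g)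
    (χ : Additive (Gamma0 N) →+ ZMod m) (hχ : s29_ka_IsChar N m G χ) :
    ∃ x : Pic0.torsion Kbar (modularFunctionFieldBar N) m, s29_kappa N m x = χ := by
  have : HasPrincipalDivisors Kbar (modularFunctionFieldBar N) :=
    (Fermat.Agent.S37.s37_h_isFF_bar N).hasPrincipalDivisors
  obtain ⟨E, hE, hEdeg⟩ :=
    HasPrincipalDivisors.exists_divisor (K := Kbar) (F := modularFunctionFieldBar N) g hg
  obtain ⟨D, hD⟩ := s29_ex_div_divisor m (NeZero.ne m) E (fun P => by rw [hE P]; exact hdiv P)
    hEdeg
  have hordD : ∀ P : Place Kbar (modularFunctionFieldBar N),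
      P.ord g = (m : ℤ) * (D : Divisor Kbar (modularFunctionFieldBar N)) P := by
    intro P
    rw [← hE P, hD P]
  have htors : Pic0.mk D ∈ Pic0.torsion Kbar (modularFunctionFieldBar N) m := by
    rw [Pic0.mem_torsion]
    have h1 : ((m : ℤ) • D : Divisor.degZero (K := Kbar) (F := modularFunctionFieldBar N)) ∈
        (Divisor.principal (K := Kbar) (F := modularFunctionFieldBar N)).addSubgroupOf
          (Divisor.degZero (K := Kbar) (F := modularFunctionFieldBar N)) := by
      rw [AddSubgroup.mem_addSubgroupOf]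
      refine ⟨g, hg, fun P => ?_⟩
      rw [AddSubgroup.coe_zsmul, Finsupp.smul_apply, smul_eq_mul, hordD P]
    exact (QuotientAddGroup.eq_zero_iff _).mpr h1
  refine ⟨⟨Pic0.mk D, htors⟩, ?_⟩
  exact s29_kappa_eq_of_witness _ ⟨rfl, hg, hordD, hG⟩ hχ

end Fermat.Agent.S29
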