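import Fermat.Agent.S29.ExDiv

/-!
# S29 (project BRIDGE), node (EX): glue lemmas for the existence of torsion classes

Everything here is formal bookkeeping around `s29_kappa` (helper26) and `s29_ex_of_root`
(helper23):

* `s29_xg_red` : reduction of an integral homomorphism modulo `m`;
* `s29_xg_ka_pow_intCast`, `s29_xg_zeta_pow` : `ζ_{k m} ^ k = ζ_m`;
* `s29_xg_isChar_pow` : if `G₀` has character `ψ mod k m` then `G₀ ^ k` has character `ψ mod m`;
* `s29_xg_of_root` : **existence from a root** — `g₀ ∈ F_N`, `G₀ ^ (k m) = an g₀`, `G₀` of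
  character `ψ mod k m`, all place orders of `g₀` divisible by `m` ⟹ a class
  `x ∈ J₀(N)[m]` with `κ x = ψ mod m`.
-/

set_option autoImplicit false

open UpperHalfPlane ModularCurve AlgebraicCurve
open scoped MatrixGroups Manifold IntermediateField

noncomputable section

namespace Fermat.Agent.S29

open Fermat.Agent.S24 Fermat.Agent.S37
open CongruenceSubgroup

attribute [local instance] algKC

/-- reduction of an integral homomorphism modulo `m`. -/
def s29_xg_red (N m : ℕ) (ψ : Additive (Gamma0 N) →+ ℤ) : Additive (Gamma0 N) →+ ZMod m :=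
  (Int.castAddHom (ZMod m)).comp ψ

theorem s29_xg_red_apply (N m : ℕ) (ψ : Additive (Gamma0 N) →+ ℤ) (a : Additive (Gamma0 N)) :
    s29_xg_red N m ψ a = ((ψ a : ℤ) : ZMod m) := rfl

/-- `ζ_m ^ (n mod m) = exp(2πi n/m)` for an integer `n`. -/
theorem s29_xg_ka_pow_intCast (m : ℕ) [NeZero m] (n : ℤ) :
    s29_ka_pow m ((n : ℤ) : ZMod m) = s29_ka_zeta m ^ n := by
  have hz : s29_ka_zeta m ≠ 0 := (s29_ka_zeta_prim m).ne_zero (NeZero.ne m)
  have hm : (m : ℤ) ≠ 0 := by exact_mod_cast NeZero.ne m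
  have h2 : 0 ≤ n % (m : ℤ) := Int.emod_nonneg _ hm
  obtain ⟨r, hr⟩ := Int.eq_ofNat_of_zero_le h2
  have h1 : ((n : ℤ) : ZMod m) = ((r : ℕ) : ZMod m) := by
    rw [← ZMod.intCast_mod n m, hr, Int.cast_natCast]
  rw [h1, s29_ka_pow_natCast]
  have h6 : n = (r : ℤ) + (m : ℤ) * (n / (m : ℤ)) := by
    rw [← hr]
    exact (Int.emod_add_mul_ediv n m).symm
  conv_rhs => rw [h6]
  rw [zpow_add₀ hz, zpow_mul, zpow_natCast, zpow_natCast, (s29_ka_zeta_prim m).pow_eq_one,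
    one_zpow, mul_one]

/-- `ζ_{k m} ^ k = ζ_m`. -/
theorem s29_xg_zeta_pow (k m : ℕ) (hk : 0 < k) (hm : 0 < m) :
    s29_ka_zeta (k * m) ^ k = s29_ka_zeta m := by
  rw [s29_ka_zeta, s29_ka_zeta, ← Complex.exp_nat_mul]
  congr 1
  have hk' : (k : ℂ) ≠ 0 := by exact_mod_cast hk.ne'
  have hm' : (m : ℂ) ≠ 0 := by exact_mod_cast hm.ne'
  push_cast
  field_simp

/-- if `G₀` has character `ψ mod k m`, then `G₀ ^ k` has character `ψ mod m`. -/
theorem s29_xg_isChar_pow (N k m : ℕ) [NeZero k] [NeZero m] (ψ : Additive (Gamma0 N) →+ ℤ)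
    {G₀ : s29_Mer} (h : haveI : NeZero (k * m) := ⟨Nat.mul_ne_zero (NeZero.ne k) (NeZero.ne m)⟩
      s29_ka_IsChar N (k * m) G₀ (s29_xg_red N (k * m) ψ)) :
    s29_ka_IsChar N m (G₀ ^ k) (s29_xg_red N m ψ) := by
  have hkm : NeZero (k * m) := ⟨Nat.mul_ne_zero (NeZero.ne k) (NeZero.ne m)⟩
  intro γ
  rw [smul_pow', h γ, mul_pow, ← map_pow]
  congr 2
  rw [s29_xg_red_apply, s29_xg_red_apply, s29_xg_ka_pow_intCast, s29_xg_ka_pow_intCast]
  have h1 : ∀ (z : ℂ) (n : ℤ), (z ^ n) ^ k = (z ^ k) ^ n := by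
    intro z n
    rw [← zpow_natCast (z ^ n), ← zpow_natCast z, ← zpow_mul, ← zpow_mul, mul_comm]
  rw [h1, s29_xg_zeta_pow k m (Nat.pos_of_ne_zero (NeZero.ne k))
    (Nat.pos_of_ne_zero (NeZero.ne m))]

/-- **Existence from a root.**  `g₀ ∈ F_N`, `G₀` a meromorphic `(k m)`-th root of `g₀` with
character `ψ mod k m`, all place orders of `g₀` divisible by `m`: then there is an `m`-torsion
class `x` of `J₀(N)` with `κ x = ψ mod m`. -/
theorem s29_xg_of_root (N k m : ℕ) [NeZero N] [NeZero k] [NeZero m]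
    (ψ : Additive (Gamma0 N) →+ ℤ) (g₀ : modularFunctionFieldBar N) (hg₀ : g₀ ≠ 0)
    (G₀ : s29_Mer) (hG₀ : G₀ ^ (k * m) = s29_an N g₀)
    (hchar : haveI : NeZero (k * m) := ⟨Nat.mul_ne_zero (NeZero.ne k) (NeZero.ne m)⟩
      s29_ka_IsChar N (k * m) G₀ (s29_xg_red N (k * m) ψ))
    (hdiv : ∀ P : Place Kbar (modularFunctionFieldBar N), (m : ℤ) ∣ P.ord g₀) :
    ∃ x : Pic0.torsion Kbar (modularFunctionFieldBar N) m,
      s29_kappa N m x = s29_xg_red N m ψ :=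
  s29_ex_of_root N m g₀ hg₀ hdiv (G₀ ^ k) (by rw [← pow_mul, hG₀]) (s29_xg_red N m ψ)
    (s29_xg_isChar_pow N k m ψ hchar)

end Fermat.Agent.S29
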