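import Fermat.Agent.S29.RootCusp
import Fermat.Agent.S24.AnPlace

/-!
# BRIDGE: the local cusp lemma, `modRing` form

If `F ∈ modRing N` is the `M`-th power of an `N`-periodic holomorphic function on the upper
half-plane, then `M` divides the order of the expansion of `F` at `∞`.
-/

set_option autoImplicit false

open UpperHalfPlane ModularCurve
open scoped MatrixGroups Manifold

namespace Fermat.Agent.S29

open Fermat.Agent.S24

attribute [local instance] algKC

/-- **Local cusp lemma, `modRing` form.** -/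
theorem s29_root_cusp_modRing {N : ℕ} [NeZero N] (M : ℕ) (hM : 0 < M) (F : modRing N)
    (hF : F ≠ 0) (X : ℍ → ℂ) (hX : MDifferentiable 𝓘(ℂ) 𝓘(ℂ) X)
    (hper : ∀ τ : ℍ, X ((N : ℝ) +ᵥ τ) = X τ)
    (hpow : ∀ τ : ℍ, X τ ^ M = (F : ℍ → ℂ) τ) : (M : ℤ) ∣ anpVinf N F := by
  have hspec : Fermat.Agent.S28.HasQExp N (fun τ => X τ ^ M) (coeffMap iotaK (expHom N F)) := by
    have h := expHom_spec N F
    have hfun : (fun τ => X τ ^ M) = (F : ℍ → ℂ) := funext hpow
    rw [hfun]
    exact h
  have hne : coeffMap iotaK (expHom N F) ≠ 0 := by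
    intro h0
    have h1 : expHom N F = 0 := by
      apply Fermat.Agent.S24.act_coeffMap_injective iotaK iotaK_injective
      rw [h0, map_zero]
    exact anp_expHom_ne_zero hF h1
  have h := s29_root_cusp N M hM X hX hper _ hne hspec
  rwa [s29_root_cusp_order_coeffMap iotaK iotaK_injective] at h

/-- The same with periodicity stated through `T ^ N`. -/
theorem s29_root_cusp_modRing_T {N : ℕ} [NeZero N] (M : ℕ) (hM : 0 < M) (F : modRing N)
    (hF : F ≠ 0) (X : ℍ → ℂ) (hX : MDifferentiable 𝓘(ℂ) 𝓘(ℂ) X)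
    (hper : ∀ τ : ℍ, X (ModularGroup.T ^ N • τ) = X τ)
    (hpow : ∀ τ : ℍ, X τ ^ M = (F : ℍ → ℂ) τ) : (M : ℤ) ∣ anpVinf N F := by
  refine s29_root_cusp_modRing M hM F hF X hX (fun τ => ?_) hpow
  have h := UpperHalfPlane.modular_T_zpow_smul τ (N : ℤ)
  rw [zpow_natCast, Int.cast_natCast] at h
  rw [← h, hper]

end Fermat.Agent.S29
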