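import Fermat.Agent.S29.RootPlace
import Fermat.Agent.S29.RootCuspMod
import Fermat.Agent.S29.MerOrd
import Fermat.Agent.S29.KappaChar

/-!
# BRIDGE (CONV): the divisor of `g0` is divisible by `m`

If `g0 ∈ F_N` has a meromorphic `6·N·m`-th root `G0` on the upper half-plane which is invariant
under the parabolic elements `γ T^N γ⁻¹`, then every place order of `g0` is divisible by `m`
(the `6N`-trick: no exact ramification index is needed).
-/

set_option synthInstance.maxHeartbeats 200000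
set_option autoImplicit false

open ModularCurve UpperHalfPlane

noncomputable section

namespace Fermat.Agent.S29

open Fermat.Agent.S24 AlgebraicCurve CongruenceSubgroup ModularGroup
open scoped MatrixGroups IntermediateField Manifold

attribute [local instance] algKC algFL

theorem s29_conv_anpVinf_pow {N : ℕ} [NeZero N] (x : modRing N) (hx : x ≠ 0) (n : ℕ) :
    anpVinf N (x ^ n) = n * anpVinf N x := by
  induction n with
  | zero =>
    have h1 : (1 : modRing N) = algebraMap Kbar (modRing N) 1 := (map_one _).symm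
    rw [pow_zero, h1, anpVinf_algebraMap 1 one_ne_zero]
    simp
  | succ n ih =>
    rw [pow_succ, anpVinf_mul _ _ (pow_ne_zero n hx) hx, ih]
    push_cast
    ring

theorem s29_conv_ord_pow (τ : ℍ) (f : s29_Mer) (hf : f ≠ 0) (n : ℕ) :
    s29_ord τ (f ^ n) = n * s29_ord τ f := by
  induction n with
  | zero =>
    have h1 : (1 : s29_Mer) = algebraMap ℂ s29_Mer 1 := (map_one _).symm
    rw [pow_zero, h1, s29_ord_const τ 1 one_ne_zero]
    simp
  | succ n ih =>
    rw [pow_succ, s29_ord_mul τ (pow_ne_zero n hf) hf, ih]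
    push_cast
    ring

/-- A meromorphic `M`-th root `G0` of `a / b` (`a, b ∈ modRing N`) is `X / b` with `X`
holomorphic and `X ^ M = a * b ^ (M - 1)`. -/
theorem s29_conv_hol_rep (N : ℕ) [NeZero N] (M : ℕ) (hM : 0 < M) (a b : modRing N) (ha : a ≠ 0)
    (hb : b ≠ 0) (G0 : s29_Mer)
    (hG0 : G0 ^ M = algebraMap s29_hol s29_Mer (s29_ofModRing N a) /
      algebraMap s29_hol s29_Mer (s29_ofModRing N b)) :
    ∃ X : s29_hol,
      algebraMap s29_hol s29_Mer X = G0 * algebraMap s29_hol s29_Mer (s29_ofModRing N b) ∧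
      X ^ M = s29_ofModRing N (a * b ^ (M - 1)) := by
  have : NeZero M := ⟨hM.ne'⟩
  have hinj := s29_ofModRing_injective N
  have hane : s29_ofModRing N a ≠ 0 := fun h => ha (hinj (by rw [h, map_zero]))
  have hbne : s29_ofModRing N b ≠ 0 := fun h => hb (hinj (by rw [h, map_zero]))
  have hbM : algebraMap s29_hol s29_Mer (s29_ofModRing N b) ≠ 0 := fun h =>
    hbne (s29_algebraMap_injective (by rw [h, map_zero]))
  set Fh : s29_hol := s29_ofModRing N (a * b ^ (M - 1)) with hFh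
  have hFne : Fh ≠ 0 := fun h =>
    (mul_ne_zero ha (pow_ne_zero _ hb)) (hinj (by rw [← hFh, h, map_zero]))
  have hFM : algebraMap s29_hol s29_Mer Fh ≠ 0 := fun h =>
    hFne (s29_algebraMap_injective (by rw [h, map_zero]))
  set X₀ : s29_Mer := G0 * algebraMap s29_hol s29_Mer (s29_ofModRing N b) with hX₀
  have hX₀pow : X₀ ^ M = algebraMap s29_hol s29_Mer Fh := by
    have h1 : (algebraMap s29_hol s29_Mer (s29_ofModRing N b)) ^ M
        = (algebraMap s29_hol s29_Mer (s29_ofModRing N b)) ^ (M - 1) *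
          algebraMap s29_hol s29_Mer (s29_ofModRing N b) := by
      rw [← pow_succ, Nat.sub_add_cancel hM]
    rw [hX₀, mul_pow, hG0, h1, hFh, map_mul, map_pow, map_mul, map_pow]
    field_simp
  have hX₀ne : X₀ ≠ 0 := by
    intro h
    rw [h, zero_pow hM.ne'] at hX₀pow
    exact hFM hX₀pow.symm
  -- all orders of `Fh` are divisible by `M`
  have hdvd : ∀ τ : ℍ, (M : ℤ) ∣ s29_ordH τ Fh := by
    intro τ
    rw [← s29_ord_hol τ hFne, ← hX₀pow, s29_conv_ord_pow τ X₀ hX₀ne]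
    exact dvd_mul_right _ _
  obtain ⟨H, hH, hHpow⟩ := s29_root_exists_uhp M hM (Fh : ℍ → ℂ) Fh.2 (fun τ =>
    ⟨s29_hol_order_ne_top hFne τ, Int.natCast_dvd_natCast.mp (hdvd τ)⟩)
  set X' : s29_hol := s29_mkHol H hH with hX'
  have hX'pow : X' ^ M = Fh := by
    apply s29_hol_ext
    intro τ
    exact hHpow τ
  have hX'ne : X' ≠ 0 := by
    intro h
    rw [h, zero_pow hM.ne'] at hX'pow
    exact hFne hX'pow.symm
  have hX'M : algebraMap s29_hol s29_Mer X' ≠ 0 := fun h =>
    hX'ne (s29_algebraMap_injective (by rw [h, map_zero]))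
  have hu : (X₀ / algebraMap s29_hol s29_Mer X') ^ M = 1 := by
    rw [div_pow, hX₀pow, ← map_pow, hX'pow]
    exact div_self hFM
  obtain ⟨k, hk⟩ := s29_ka_root_of_unity M _ hu
  refine ⟨algebraMap ℂ s29_hol (s29_ka_pow M k) * X', ?_, ?_⟩
  · rw [map_mul, ← IsScalarTower.algebraMap_apply ℂ s29_hol s29_Mer, ← hk,
      div_mul_cancel₀ _ hX'M]
  · rw [mul_pow, ← map_pow, s29_ka_pow_pow, map_one, one_mul, hX'pow]

/-- Invariance of `G0` under the parabolic element `γ T^N γ⁻¹` gives `N`-periodicity of the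
holomorphic numerator at the cusp `γ∞`. -/
theorem s29_conv_periodic (N : ℕ) [NeZero N] (b : modRing N) (G0 : s29_Mer) (X : s29_hol)
    (hX : algebraMap s29_hol s29_Mer X
      = G0 * algebraMap s29_hol s29_Mer (s29_ofModRing N b))
    (γ : SL(2, ℤ)) (hper : (γ * ModularGroup.T ^ N * γ⁻¹) • G0 = G0) (τ : ℍ) :
    (X : ℍ → ℂ) (γ • (ModularGroup.T ^ N • τ)) = (X : ℍ → ℂ) (γ • τ) := by
  set δ : SL(2, ℤ) := γ * ModularGroup.T ^ N * γ⁻¹ with hδ
  have hδmem : δ ∈ Gamma N := by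
    have h1 : ModularGroup.T ^ N ∈ CongruenceSubgroup.Gamma N := by
      have := CongruenceSubgroup.ModularGroup_T_pow_mem_Gamma (N : ℤ) (N : ℤ) dvd_rfl
      simpa using this
    exact (CongruenceSubgroup.Gamma_normal N).conj_mem _ h1 γ
  have hb : δ • b = b := smul_modRing_of_mem_Gamma N δ hδmem b
  have hbM : δ • algebraMap s29_hol s29_Mer (s29_ofModRing N b)
      = algebraMap s29_hol s29_Mer (s29_ofModRing N b) := by
    rw [s29_sl_smul_def, s29_smul_algebraMap, ← s29_ofModRing_smul, hb]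
  have h1 : δ • algebraMap s29_hol s29_Mer X = algebraMap s29_hol s29_Mer X := by
    rw [hX, smul_mul', hper, hbM]
  rw [s29_sl_smul_def, s29_smul_algebraMap] at h1
  have h2 : s29_sl δ • X = X := s29_algebraMap_injective h1
  have h3 := congrArg (fun f : s29_hol => (f : ℍ → ℂ) (γ • (ModularGroup.T ^ N • τ))) h2
  simp only [s29_hol_smul_apply, s29_sl_inv_smul] at h3
  rw [← h3]
  have h4 : γ • (ModularGroup.T ^ N • τ) = δ • (γ • τ) := by
    rw [hδ, mul_smul, mul_smul, inv_smul_smul]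
  rw [h4, inv_smul_smul]

/-- **(CONV)**: if `g0 ∈ F_N` has a meromorphic `6·N·m`-th root on the upper half-plane which is
invariant under all parabolic elements `γ T^N γ⁻¹`, then `m` divides the order of `g0` at every
place of `F_N / ℚ̄`. -/
theorem s29_conv (N : ℕ) [NeZero N] (m : ℕ) (hm : 0 < m) (g0 : modularFunctionFieldBar N)
    (hg0 : g0 ≠ 0) (G0 : s29_Mer) (hG0 : G0 ^ (6 * N * m) = s29_an N g0)
    (hper : ∀ γ : SL(2, ℤ), (γ * ModularGroup.T ^ N * γ⁻¹) • G0 = G0) :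
    ∀ P : Place Kbar (modularFunctionFieldBar N), (m : ℤ) ∣ P.ord g0 := by
  intro P
  have hN : 0 < N := Nat.pos_of_ne_zero (NeZero.ne N)
  obtain ⟨M, hMdef⟩ : ∃ M : ℕ, M = 6 * N * m := ⟨_, rfl⟩
  have hM : 0 < M := by
    rw [hMdef]
    positivity
  rw [← hMdef] at hG0
  obtain ⟨a, b, hb, hab⟩ := anp_exists_div (R := modRing N) (embF N g0)
  have hembne : embF N g0 ≠ 0 := fun h =>
    hg0 ((embF N).toRingHom.injective (h.trans (embF N).toRingHom.map_zero.symm))
  have ha : a ≠ 0 := by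
    rintro rfl
    apply hembne
    rw [hab, map_zero, zero_div]
  have hG0' : G0 ^ M = algebraMap s29_hol s29_Mer (s29_ofModRing N a) /
      algebraMap s29_hol s29_Mer (s29_ofModRing N b) := by
    rw [hG0, s29_an_apply, hab, map_div₀, s29_ofModL_algebraMap, s29_ofModL_algebraMap]
  obtain ⟨X, hX, hXpow⟩ := s29_conv_hol_rep N M hM a b ha hb G0 hG0'
  have hFne : a * b ^ (M - 1) ≠ 0 := mul_ne_zero ha (pow_ne_zero _ hb)
  have hXne : X ≠ 0 := by
    intro h
    rw [h, zero_pow hM.ne'] at hXpow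
    exact hFne ((s29_ofModRing_injective N) (by rw [← hXpow, map_zero]))
  have hM1 : ((M - 1 : ℕ) : ℤ) = (M : ℤ) - 1 := by
    rw [Nat.cast_sub hM]
    simp
  have hMZ : (M : ℤ) = 6 * (N : ℤ) * (m : ℤ) := by
    rw [hMdef]
    push_cast
    ring
  rcases s29_root_pl_analytic N P with ⟨τ, e, he, he6, hP⟩ | ⟨γ, e, he, heN, hP⟩
  · -- a point of the upper half-plane
    have h1 := hP g0 hg0
    rw [hab, s29_root_ordL_div τ ha hb] at h1
    have h2 : anpV N τ (a * b ^ (M - 1)) = (M : ℤ) * s29_ordH τ X := by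
      rw [← s29_ordH_pow τ X hXne M, hXpow]
      rfl
    rw [anpV_mul τ _ _ ha (pow_ne_zero _ hb), s29_root_anpV_pow τ b hb, hM1] at h2
    obtain ⟨e₁, he₁⟩ := he6
    have h3 : e * P.ord g0 = e * ((m : ℤ) * (e₁ * N * (s29_ordH τ X - anpV N τ b))) := by
      have h4 : anpV N τ a - anpV N τ b = (M : ℤ) * (s29_ordH τ X - anpV N τ b) := by
        linarith
      rw [← h1, h4, hMZ, he₁]
      ring
    exact ⟨_, mul_left_cancel₀ he.ne' h3⟩
  · -- a cusp
    have h1 := hP g0 hg0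
    rw [hab, s29_root_ordInf_div γ ha hb] at h1
    have haγ : γ⁻¹ • a ≠ 0 := (smul_ne_zero_iff_ne _).mpr ha
    have hbγ : γ⁻¹ • b ≠ 0 := (smul_ne_zero_iff_ne _).mpr hb
    have hFγne : γ⁻¹ • (a * b ^ (M - 1)) ≠ 0 := (smul_ne_zero_iff_ne _).mpr hFne
    have hXγ : MDifferentiable 𝓘(ℂ) 𝓘(ℂ) (fun τ : ℍ => (X : ℍ → ℂ) (γ • τ)) := by
      have h := (s29_sl γ⁻¹ • X).2
      have hfun : ((s29_sl γ⁻¹ • X : s29_hol) : ℍ → ℂ) = fun τ : ℍ => (X : ℍ → ℂ) (γ • τ) := by
        funext τ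
        rw [s29_hol_smul_apply, s29_sl_inv_smul, inv_inv]
      rw [← hfun]
      exact h
    have hdvd : (M : ℤ) ∣ anpVinf N (γ⁻¹ • (a * b ^ (M - 1))) := by
      refine s29_root_cusp_modRing_T M hM _ hFγne (fun τ : ℍ => (X : ℍ → ℂ) (γ • τ)) hXγ
        (fun τ => ?_) (fun τ => ?_)
      · exact s29_conv_periodic N b G0 X hX γ (hper γ) τ
      · rw [act_smul_apply, inv_inv]
        exact congrArg (fun f : s29_hol => (f : ℍ → ℂ) (γ • τ)) hXpow
    rw [smul_mul', smul_pow', anpVinf_mul _ _ haγ (pow_ne_zero _ hbγ),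
      s29_conv_anpVinf_pow _ hbγ, hM1] at hdvd
    obtain ⟨z, hz⟩ := hdvd
    obtain ⟨e₂, he₂⟩ := heN
    have h3 : e * P.ord g0
        = e * ((m : ℤ) * (6 * e₂ * (z - anpVinf N (γ⁻¹ • b)))) := by
      have h4 : anpVinf N (γ⁻¹ • a) - anpVinf N (γ⁻¹ • b)
          = (M : ℤ) * (z - anpVinf N (γ⁻¹ • b)) := by
        linarith
      rw [← h1, h4, hMZ, he₂]
      ring
    exact ⟨_, mul_left_cancel₀ he.ne' h3⟩

end Fermat.Agent.S29
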