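import Fermat.Agent.S29.Root

/-!
# BRIDGE block (A1), upper half-plane form

`m`-th roots of holomorphic functions `ℍ → ℂ`, and their uniqueness up to an `m`-th root of unity.
-/

namespace Fermat.Agent.S29

open Complex Filter Topology Set Metric UpperHalfPlane
open scoped Manifold

theorem s29_root_ofComplex_coe (F : ℍ → ℂ) (τ : ℍ) :
    (fun z : ℂ => F (ofComplex z)) (τ : ℂ) = F τ := by
  simp [ofComplex_apply]

/-- **(A1-ℍ)** A holomorphic function on `ℍ` which is nowhere locally zero and all of whose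
orders of vanishing are divisible by `m` is the `m`-th power of a holomorphic function. -/
theorem s29_root_exists_uhp (m : ℕ) (hm : 0 < m) (F : ℍ → ℂ)
    (hF : MDifferentiable 𝓘(ℂ) 𝓘(ℂ) F)
    (hord : ∀ τ : ℍ, analyticOrderAt (fun z : ℂ => F (ofComplex z)) (τ : ℂ) ≠ ⊤ ∧
      m ∣ (analyticOrderAt (fun z : ℂ => F (ofComplex z)) (τ : ℂ)).toNat) :
    ∃ H : ℍ → ℂ, MDifferentiable 𝓘(ℂ) 𝓘(ℂ) H ∧ ∀ τ : ℍ, H τ ^ m = F τ := by
  have hFd : DifferentiableOn ℂ (fun z : ℂ => F (ofComplex z)) {z : ℂ | 0 < z.im} :=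
    UpperHalfPlane.mdifferentiable_iff.mp hF
  obtain ⟨H', hH'd, hH'pow⟩ := s29_root_exists m hm (fun z : ℂ => F (ofComplex z)) hFd
    (fun z hz => hord ⟨z, hz⟩)
  refine ⟨fun τ => H' (τ : ℂ), ?_, fun τ => ?_⟩
  · rw [UpperHalfPlane.mdifferentiable_iff]
    refine hH'd.congr (fun z hz => ?_)
    simp [Function.comp, ofComplex_apply_of_im_pos hz]
  · have := hH'pow (τ : ℂ) τ.im_pos
    rw [this]
    exact s29_root_ofComplex_coe F τ

/-- Two holomorphic functions on `ℍ` with the same `m`-th power differ by an `m`-th root of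
unity. -/
theorem s29_root_unique_uhp (m : ℕ) (hm : 0 < m) (X Y : ℍ → ℂ)
    (hX : MDifferentiable 𝓘(ℂ) 𝓘(ℂ) X) (hY : MDifferentiable 𝓘(ℂ) 𝓘(ℂ) Y)
    (hpow : ∀ τ : ℍ, X τ ^ m = Y τ ^ m) (hY0 : Y ≠ 0) :
    ∃ ζ : ℂ, ζ ^ m = 1 ∧ ∀ τ : ℍ, X τ = ζ * Y τ := by
  obtain ⟨τ₀, hτ₀⟩ : ∃ τ₀ : ℍ, Y τ₀ ≠ 0 := by
    by_contra h
    push Not at h
    exact hY0 (funext h)
  have hXd : DifferentiableOn ℂ (fun z : ℂ => X (ofComplex z)) {z : ℂ | 0 < z.im} :=
    UpperHalfPlane.mdifferentiable_iff.mp hX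
  have hYd : DifferentiableOn ℂ (fun z : ℂ => Y (ofComplex z)) {z : ℂ | 0 < z.im} :=
    UpperHalfPlane.mdifferentiable_iff.mp hY
  have hζ : (X τ₀ / Y τ₀) ^ m = 1 := by
    rw [div_pow, hpow τ₀]
    exact div_self (pow_ne_zero _ hτ₀)
  have hζ0 : X τ₀ / Y τ₀ ≠ 0 := by
    intro h
    rw [h, zero_pow hm.ne'] at hζ
    exact zero_ne_one hζ
  refine ⟨X τ₀ / Y τ₀, hζ, fun τ => ?_⟩
  have hopen : IsOpen {z : ℂ | 0 < z.im} := isOpen_lt continuous_const Complex.continuous_im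
  have hconv : IsPreconnected {z : ℂ | 0 < z.im} := (convex_halfSpace_im_gt 0).isPreconnected
  have key := s29_root_unique m hm {z : ℂ | 0 < z.im} hopen hconv
    (fun z : ℂ => X (ofComplex z)) (fun z : ℂ => X τ₀ / Y τ₀ * Y (ofComplex z)) hXd
    (hYd.const_mul _) (fun z hz => ?_) (τ₀ : ℂ) τ₀.im_pos ?_ ?_
  · have := key τ.im_pos
    simpa [ofComplex_apply] using this
  · have := hpow ⟨z, hz⟩
    simp only [ofComplex_apply_of_im_pos hz, mul_pow, hζ, one_mul]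
    exact this
  · simp only [ofComplex_apply]
    exact (div_mul_cancel₀ _ hτ₀).symm
  · simp only [ofComplex_apply]
    exact mul_ne_zero hζ0 hτ₀

end Fermat.Agent.S29
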