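import Fermat.Agent.S29.MerOrd
import Fermat.Agent.S29.RootUhp
import Fermat.Agent.S29.KappaChar
import Fermat.Agent.S29.ZRatio

/-!
# S29 (project BRIDGE), block (Z2) in the field of meromorphic functions

* `s29_z_evHol N`, `s29_z_evMer N` : the ring homomorphisms `P ↦ P(J, J_N)` from `ℂ[X][Y]` to
  the holomorphic resp. meromorphic functions on `ℍ`; the image of `s29_z_evMer N` generates the
  field `ℂ(J, J_N)`;
* `s29_z2_mer_hol`  : a holomorphic `Γ₀(N)`-invariant function of finite order at the cusps lies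
  in `ℂ(J, J_N)`;
* `s29_z2_mer_root` : a `Γ₀(N)`-invariant meromorphic function one of whose powers lies in
  `ℂ(J, J_N)` lies in `ℂ(J, J_N)`;
* `s29_z2_an`       : the analytic realisation of every element of the function field `F_N` lies
  in `ℂ(J, J_N)`.
-/

set_option autoImplicit false

open UpperHalfPlane ModularForm Polynomial Filter ModularCurve
open scoped MatrixGroups Manifold

noncomputable section

namespace Fermat.Agent.S29

open Fermat.Agent.S28 (Jfun scaleH)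
open Fermat.Agent.S24 (modRing ModL embF)

/-- `P ↦ P(J, J_N)` as a ring homomorphism to the holomorphic functions on `ℍ`. -/
def s29_z_evHol (N : ℕ) [NeZero N] : Polynomial (Polynomial ℂ) →+* s29_hol where
  toFun P := ⟨s29_z_ev N P, s29_z_ev_mdiff N P⟩
  map_one' := Subtype.ext (funext fun τ => s29_z_ev_one N τ)
  map_mul' P Q := Subtype.ext (funext fun τ => s29_z_ev_mul N P Q τ)
  map_zero' := Subtype.ext (funext fun τ => s29_z_ev_zero N τ)
  map_add' P Q := Subtype.ext (funext fun τ => s29_z_ev_add N P Q τ)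

theorem s29_z_evHol_apply (N : ℕ) [NeZero N] (P : Polynomial (Polynomial ℂ)) (τ : ℍ) :
    ((s29_z_evHol N P : s29_hol) : ℍ → ℂ) τ = s29_z_ev N P τ := rfl

/-- `P ↦ P(J, J_N)` as a ring homomorphism to the meromorphic functions on `ℍ`. -/
def s29_z_evMer (N : ℕ) [NeZero N] : Polynomial (Polynomial ℂ) →+* s29_Mer :=
  (algebraMap s29_hol s29_Mer).comp (s29_z_evHol N)

theorem s29_z_evMer_apply (N : ℕ) [NeZero N] (P : Polynomial (Polynomial ℂ)) :
    s29_z_evMer N P = algebraMap s29_hol s29_Mer (s29_z_evHol N P) := rfl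

theorem s29_z_evHol_ne_zero_iff (N : ℕ) [NeZero N] (P : Polynomial (Polynomial ℂ)) :
    s29_z_evHol N P ≠ 0 ↔ ∃ τ : ℍ, s29_z_ev N P τ ≠ 0 := by
  constructor
  · intro h
    by_contra hcon
    push Not at hcon
    exact h (Subtype.ext (funext hcon))
  · rintro ⟨τ, hτ⟩ h0
    exact hτ (congrFun (congrArg Subtype.val h0) τ)

theorem s29_z_evMer_ne_zero_iff (N : ℕ) [NeZero N] (P : Polynomial (Polynomial ℂ)) :
    s29_z_evMer N P ≠ 0 ↔ ∃ τ : ℍ, s29_z_ev N P τ ≠ 0 := by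
  rw [← s29_z_evHol_ne_zero_iff, s29_z_evMer_apply, Ne, Ne,
    map_eq_zero_iff _ s29_algebraMap_injective]

theorem s29_z_evMer_CC (N : ℕ) [NeZero N] (c : ℂ) :
    s29_z_evMer N (C (C c)) = algebraMap ℂ s29_Mer c := by
  rw [s29_z_evMer_apply, IsScalarTower.algebraMap_apply ℂ s29_hol s29_Mer]
  congr 1
  exact Subtype.ext (funext fun τ => s29_z_ev_CC N c τ)

/-- A holomorphic function as a meromorphic function is fixed by `γ` iff the function is
invariant under `γ⁻¹`. -/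
theorem s29_z_smul_mk_iff (γ : SL(2, ℤ)) (f : s29_hol) :
    γ • algebraMap s29_hol s29_Mer f = algebraMap s29_hol s29_Mer f ↔
      ∀ τ : ℍ, (f : ℍ → ℂ) (γ⁻¹ • τ) = (f : ℍ → ℂ) τ := by
  rw [s29_sl_smul_def, s29_smul_algebraMap]
  constructor
  · intro h τ
    have h1 := s29_algebraMap_injective h
    have h2 := congrArg (fun x : s29_hol => (x : ℍ → ℂ) τ) h1
    simp only [s29_hol_smul_apply, s29_sl_inv_smul] at h2
    exact h2
  · intro h
    congr 1
    apply s29_hol_ext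
    intro τ
    rw [s29_hol_smul_apply, s29_sl_inv_smul]
    exact h τ

/-- `P(J, J_N)` is `Γ₀(N)`-invariant. -/
theorem s29_z_evMer_smul (N : ℕ) [NeZero N] (P : Polynomial (Polynomial ℂ)) (γ : SL(2, ℤ))
    (hγ : γ ∈ CongruenceSubgroup.Gamma0 N) : γ • s29_z_evMer N P = s29_z_evMer N P := by
  rw [s29_z_evMer_apply, s29_z_smul_mk_iff]
  intro τ
  exact s29_z_ev_inv N P γ⁻¹ (inv_mem hγ) τ

/-- **(Z2), holomorphic form in `s29_Mer`.** -/
theorem s29_z2_mer_hol (N : ℕ) [NeZero N] (f : s29_hol)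
    (hinv : ∀ γ : SL(2, ℤ), γ ∈ CongruenceSubgroup.Gamma0 N →
      γ • algebraMap s29_hol s29_Mer f = algebraMap s29_hol s29_Mer f)
    (hbd : s29_z_CuspBdd (f : ℍ → ℂ)) :
    ∃ D H : Polynomial (Polynomial ℂ), s29_z_evMer N D ≠ 0 ∧
      algebraMap s29_hol s29_Mer f * s29_z_evMer N D = s29_z_evMer N H := by
  obtain ⟨D, hD, hall⟩ := s29_z2_hol N
  have hinv' : ∀ γ : SL(2, ℤ), γ ∈ CongruenceSubgroup.Gamma0 N → ∀ τ : ℍ,
      (f : ℍ → ℂ) (γ • τ) = (f : ℍ → ℂ) τ := by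
    intro γ hγ τ
    have h1 := (s29_z_smul_mk_iff γ⁻¹ f).1 (hinv γ⁻¹ (inv_mem hγ)) τ
    rwa [inv_inv] at h1
  obtain ⟨H, hH⟩ := hall (f : ℍ → ℂ) f.2 hinv' hbd
  refine ⟨D, H, (s29_z_evMer_ne_zero_iff N D).2 hD, ?_⟩
  rw [s29_z_evMer_apply, s29_z_evMer_apply, ← map_mul]
  congr 1
  exact s29_hol_ext hH

theorem s29_z_ord_pow (τ : ℍ) {f : s29_Mer} (hf : f ≠ 0) (n : ℕ) :
    s29_ord τ (f ^ n) = n * s29_ord τ f := by
  induction n with
  | zero =>
    rw [pow_zero, Nat.cast_zero, zero_mul]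
    have h := s29_ord_const τ 1 one_ne_zero
    rwa [map_one] at h
  | succ n ih =>
    rw [pow_succ, s29_ord_mul τ (pow_ne_zero n hf) hf, ih]
    push_cast
    ring

/-- A meromorphic function on `ℍ` one of whose powers is holomorphic is holomorphic. -/
theorem s29_z_hol_of_pow (m : ℕ) (hm : 0 < m) (A : s29_Mer) (F0 : s29_hol)
    (hA : A ^ m = algebraMap s29_hol s29_Mer F0) :
    ∃ Y : s29_hol, A = algebraMap s29_hol s29_Mer Y := by
  have : NeZero m := ⟨hm.ne'⟩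
  by_cases hA0 : A = 0
  · exact ⟨0, by rw [hA0, map_zero]⟩
  have hF0 : F0 ≠ 0 := by
    rintro rfl
    rw [map_zero] at hA
    exact hA0 (pow_eq_zero_iff hm.ne' |>.1 hA)
  have hord : ∀ τ : ℍ,
      analyticOrderAt (fun z : ℂ => (F0 : ℍ → ℂ) (ofComplex z)) (τ : ℂ) ≠ ⊤ ∧
        m ∣ (analyticOrderAt (fun z : ℂ => (F0 : ℍ → ℂ) (ofComplex z)) (τ : ℂ)).toNat := by
    intro τ
    refine ⟨s29_hol_order_ne_top hF0 τ, ?_⟩
    have h1 : s29_ordH τ F0 = m * s29_ord τ A := by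
      rw [← s29_ord_hol τ hF0, ← hA, s29_z_ord_pow τ hA0]
    have h2 : (m : ℤ) ∣ s29_ordH τ F0 := ⟨_, h1⟩
    exact Int.natCast_dvd_natCast.mp h2
  obtain ⟨X, hX, hXpow⟩ := s29_root_exists_uhp m hm (F0 : ℍ → ℂ) F0.2 hord
  set X' : s29_hol := s29_mkHol X hX with hX'
  have hX'pow : X' ^ m = F0 := s29_hol_ext fun τ => hXpow τ
  have hX'0 : algebraMap s29_hol s29_Mer X' ≠ 0 := by
    intro h0
    have h1 : X' = 0 := s29_algebraMap_injective (by rw [h0, map_zero])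
    rw [h1, zero_pow hm.ne'] at hX'pow
    exact hF0 hX'pow.symm
  have hu : (A / algebraMap s29_hol s29_Mer X') ^ m = 1 := by
    rw [div_pow, hA, ← map_pow, hX'pow]
    exact div_self (fun h0 => hF0 (s29_algebraMap_injective (by rw [h0, map_zero])))
  obtain ⟨k, hk⟩ := s29_ka_root_of_unity m _ hu
  refine ⟨algebraMap ℂ s29_hol (s29_ka_pow m k) * X', ?_⟩
  rw [map_mul, ← IsScalarTower.algebraMap_apply ℂ s29_hol s29_Mer, ← hk,
    div_mul_cancel₀ _ hX'0]

/-- **(Z2), root form in `s29_Mer`.** A `Γ₀(N)`-invariant meromorphic function `u` on `ℍ` with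
`u ^ m ∈ ℂ(J, J_N)` lies in `ℂ(J, J_N)`. -/
theorem s29_z2_mer_root (N : ℕ) [NeZero N] (m : ℕ) (hm : 0 < m) (u : s29_Mer)
    (hu : ∀ γ : SL(2, ℤ), γ ∈ CongruenceSubgroup.Gamma0 N → γ • u = u)
    (D₁ H₁ : Polynomial (Polynomial ℂ)) (hD₁ : s29_z_evMer N D₁ ≠ 0)
    (hpow : u ^ m * s29_z_evMer N D₁ = s29_z_evMer N H₁) :
    ∃ D₂ H₂ : Polynomial (Polynomial ℂ), s29_z_evMer N D₂ ≠ 0 ∧
      u * s29_z_evMer N D₂ = s29_z_evMer N H₂ := by
  -- `A = u · D₁(J, J_N)` has a holomorphic `m`-th power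
  have hApow : (u * s29_z_evMer N D₁) ^ m =
      algebraMap s29_hol s29_Mer (s29_z_evHol N (H₁ * D₁ ^ (m - 1))) := by
    rw [← s29_z_evMer_apply, map_mul, map_pow, ← hpow, mul_pow, mul_assoc, ← pow_succ',
      Nat.sub_add_cancel hm]
  obtain ⟨Y, hY⟩ := s29_z_hol_of_pow m hm _ _ hApow
  have hYinv : ∀ γ : SL(2, ℤ), γ ∈ CongruenceSubgroup.Gamma0 N →
      γ • algebraMap s29_hol s29_Mer Y = algebraMap s29_hol s29_Mer Y := by
    intro γ hγ
    rw [← hY, smul_mul', hu γ hγ, s29_z_evMer_smul N D₁ γ hγ]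
  have hYpow : ∀ τ : ℍ, (Y : ℍ → ℂ) τ ^ m = s29_z_ev N (H₁ * D₁ ^ (m - 1)) τ := by
    intro τ
    have h1 : Y ^ m = s29_z_evHol N (H₁ * D₁ ^ (m - 1)) :=
      s29_algebraMap_injective (by rw [map_pow, ← hY, hApow])
    exact congrArg (fun x : s29_hol => (x : ℍ → ℂ) τ) h1
  have hYbd : s29_z_CuspBdd (Y : ℍ → ℂ) := by
    apply s29_z_cuspBdd_of_pow hm
    have e : (fun τ => (Y : ℍ → ℂ) τ ^ m) = s29_z_ev N (H₁ * D₁ ^ (m - 1)) := funext hYpow
    rw [e]
    exact s29_z_ev_cuspBdd N _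
  obtain ⟨D, H, hD, hDH⟩ := s29_z2_mer_hol N Y hYinv hYbd
  refine ⟨D₁ * D, H, ?_, ?_⟩
  · rw [map_mul]
    exact mul_ne_zero hD₁ hD
  · rw [map_mul, ← mul_assoc, hY, hDH]

/-- **(Z2) for the function field.** The analytic realisation of every element of `F_N` lies in
`ℂ(J, J_N)`. -/
theorem s29_z2_an (N : ℕ) [NeZero N] (g : modularFunctionFieldBar N) :
    ∃ D H : Polynomial (Polynomial ℂ), s29_z_evMer N D ≠ 0 ∧
      s29_an N g * s29_z_evMer N D = s29_z_evMer N H := by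
  obtain ⟨a, b, hb, hab⟩ := IsFractionRing.div_surjective (A := modRing N) (embF N g)
  have hb0 : b ≠ 0 := nonZeroDivisors.ne_zero hb
  have hbM : algebraMap s29_hol s29_Mer (s29_ofModRing N b) ≠ 0 := fun h0 =>
    hb0 (s29_ofModRing_injective N (s29_algebraMap_injective (by rw [h0, map_zero, map_zero])))
  have hg : s29_an N g = algebraMap s29_hol s29_Mer (s29_ofModRing N a) /
      algebraMap s29_hol s29_Mer (s29_ofModRing N b) := by
    rw [s29_an_apply, ← hab, map_div₀, s29_ofModL_algebraMap, s29_ofModL_algebraMap]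
  have hb0f : ∃ τ : ℍ, (b : ℍ → ℂ) τ ≠ 0 := by
    by_contra hcon
    push Not at hcon
    exact hb0 (Subtype.ext (funext hcon))
  have hinv : ∀ γ : SL(2, ℤ), γ ∈ CongruenceSubgroup.Gamma0 N → ∀ τ : ℍ,
      (a : ℍ → ℂ) (γ • τ) * (b : ℍ → ℂ) τ = (a : ℍ → ℂ) τ * (b : ℍ → ℂ) (γ • τ) := by
    intro γ hγ τ
    have h1 := s29_an_smul N γ⁻¹ (inv_mem hγ) g
    rw [hg, smul_div₀', s29_sl_smul_def, s29_sl_smul_def, s29_smul_algebraMap,
      s29_smul_algebraMap] at h1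
    have hbM' : algebraMap s29_hol s29_Mer (s29_sl γ⁻¹ • s29_ofModRing N b) ≠ 0 := by
      intro h0
      have h2 : s29_sl γ⁻¹ • s29_ofModRing N b = 0 :=
        s29_algebraMap_injective (by rw [h0, map_zero])
      have h3 : s29_ofModRing N b = 0 := by
        have h4 := congrArg (fun x => (s29_sl γ⁻¹)⁻¹ • x) h2
        simp at h4
        exact h4
      exact hbM (by rw [h3, map_zero])
    rw [div_eq_div_iff hbM' hbM, ← map_mul, ← map_mul] at h1
    have h2 := congrArg (fun x : s29_hol => (x : ℍ → ℂ) τ) (s29_algebraMap_injective h1)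
    simp only [MulMemClass.coe_mul, Pi.mul_apply, s29_hol_smul_apply, s29_sl_inv_smul,
      inv_inv, s29_ofModRing_apply] at h2
    exact h2
  obtain ⟨D, H, hD, hDH⟩ := s29_z2_root N 1 one_pos (a : ℍ → ℂ) (b : ℍ → ℂ)
    (Fermat.Agent.S24.mdifferentiable_of_mem_modRing a.2) b.2 hb0f
    (by simp) hinv
  refine ⟨D, H, (s29_z_evMer_ne_zero_iff N D).2 hD, ?_⟩
  rw [hg, div_mul_eq_mul_div, div_eq_iff hbM, s29_z_evMer_apply, s29_z_evMer_apply,
    ← map_mul, ← map_mul]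
  congr 1
  apply s29_hol_ext
  intro τ
  have h1 := hDH τ
  show (a : ℍ → ℂ) τ * s29_z_ev N D τ = s29_z_ev N H τ * (b : ℍ → ℂ) τ
  rw [h1, mul_comm]

end Fermat.Agent.S29
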