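import Fermat.Agent.S29.ExGlue
import Fermat.Agent.S29.CKeyGlue
import Fermat.Agent.S29.RootConv
import Fermat.Agent.S29.EisWireKa
import Fermat.Agent.S29.ZMer

/-!
# S29 (project BRIDGE), node (EX): existence of torsion classes with prescribed `κ`

`ψ ∈ Λ = parabolicHoms ℤ (Gamma0 N) ℤ`, `m ≥ 1`, `M := 6 N m`.  The chain

* (B1) `G' = E_χ / E_1` with character `ψ mod M` (`s29_ew_ka_exists`), `G' ^ M = H(J,J_N)/D(J,J_N)`
  (`s29_z2_modform`), hence `G' ^ M = an g_C` with `g_C ∈ F_C = ℂ · F_N`;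
* (E3) `h ^ M * g_C = ι(g₀)`, `g₀ ∈ F_N`, `h ∈ F_Cˣ` (`s29_ck_e3`: finite orbit + descent);
* `G₀ := an h * G'` is an `M`-th root of `an g₀` with character `ψ mod M`, invariant under the
  parabolic elements `γ T^N γ⁻¹`;
* (CONV) `m ∣ ord_P g₀` at every place (`s29_conv`);
* `s29_xg_of_root`: the class of `div(g₀)/m` has `κ = ψ mod m`.

`s29_xm_of` is stated for an ABSTRACT analytic realisation `an : F_C →+* s29_Mer` with the five
properties `hinv`, `hZ`, `hTr`, `hcomp`, `hev`.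
-/

set_option autoImplicit false

open UpperHalfPlane ModularCurve AlgebraicCurve ModularCurve.Period
open scoped MatrixGroups Manifold IntermediateField

noncomputable section

namespace Fermat.Agent.S29

open Fermat.Agent.S24
open CongruenceSubgroup

attribute [local instance] algKC

/-- the conjugates `γ T^N γ⁻¹` lie in `Γ₀(N)` and are parabolic. -/
theorem s29_xm_conj_T (N : ℕ) (γ : SL(2, ℤ)) :
    ∃ h : γ * ModularGroup.T ^ N * γ⁻¹ ∈ Gamma0 N,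
      (((⟨γ * ModularGroup.T ^ N * γ⁻¹, h⟩ : Gamma0 N) : SL(2, ℤ)) :
        Matrix (Fin 2) (Fin 2) ℤ).trace ^ 2 = 4 := by
  have h1 : ModularGroup.T ^ N ∈ CongruenceSubgroup.Gamma N := by
    have := CongruenceSubgroup.ModularGroup_T_pow_mem_Gamma (N : ℤ) (N : ℤ) dvd_rfl
    simpa using this
  have h2 : γ * ModularGroup.T ^ N * γ⁻¹ ∈ Gamma N :=
    (CongruenceSubgroup.Gamma_normal N).conj_mem _ h1 γ
  refine ⟨act_Gamma_le_Gamma0 N h2, ?_⟩
  have h3 : ((γ * ModularGroup.T ^ N * γ⁻¹ : SL(2, ℤ)) : Matrix (Fin 2) (Fin 2) ℤ).trace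
      = ((ModularGroup.T ^ N : SL(2, ℤ)) : Matrix (Fin 2) (Fin 2) ℤ).trace := by
    rw [Matrix.SpecialLinearGroup.coe_mul, Matrix.SpecialLinearGroup.coe_mul, Matrix.trace_mul_comm,
      ← Matrix.mul_assoc, ← Matrix.SpecialLinearGroup.coe_mul, inv_mul_cancel,
      Matrix.SpecialLinearGroup.coe_one, Matrix.one_mul]
  have h4 : ((ModularGroup.T ^ N : SL(2, ℤ)) : Matrix (Fin 2) (Fin 2) ℤ).trace = 2 := by
    have h5 := ModularGroup.coe_T_zpow (N : ℤ)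
    rw [zpow_natCast] at h5
    rw [h5, Matrix.trace_fin_two_of]
    norm_num
  show ((γ * ModularGroup.T ^ N * γ⁻¹ : SL(2, ℤ)) : Matrix (Fin 2) (Fin 2) ℤ).trace ^ 2 = 4
  rw [h3, h4]
  norm_num

/-- a function with character `ψ mod M`, `ψ` parabolic, is invariant under the parabolic
elements `γ T^N γ⁻¹`. -/
theorem s29_xm_par_inv (N M : ℕ) [NeZero M] (ψ : Additive (Gamma0 N) →+ ℤ)
    (hψ : ψ ∈ parabolicHoms ℤ (Gamma0 N) ℤ) (G : s29_Mer)
    (hG : s29_ka_IsChar N M G (s29_xg_red N M ψ)) (γ : SL(2, ℤ)) :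
    (γ * ModularGroup.T ^ N * γ⁻¹) • G = G := by
  obtain ⟨hmem, htr⟩ := s29_xm_conj_T N γ
  have h1 : ψ (Additive.ofMul (⟨γ * ModularGroup.T ^ N * γ⁻¹, hmem⟩ : Gamma0 N)) = 0 :=
    (mem_parabolicHoms_iff.mp hψ) _ htr
  have h2 := hG ⟨γ * ModularGroup.T ^ N * γ⁻¹, hmem⟩
  rw [s29_xg_red_apply, h1, Int.cast_zero, s29_ka_pow_zero, map_one, one_mul] at h2
  have h3 : (γ * ModularGroup.T ^ N * γ⁻¹) • ((γ * ModularGroup.T ^ N * γ⁻¹)⁻¹ • G)
      = (γ * ModularGroup.T ^ N * γ⁻¹) • G := congrArg _ h2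
  rw [smul_inv_smul] at h3
  exact h3.symm

/-- **(EX) for an abstract analytic realisation** `an : F_C →+* s29_Mer`. -/
theorem s29_xm_of (N : ℕ) [NeZero N] (m : ℕ) [NeZero m] (ψ : Additive (Gamma0 N) →+ ℤ)
    (hψ : ψ ∈ parabolicHoms ℤ (Gamma0 N) ℤ)
    (an : s29_ap_FC N →+* s29_Mer)
    (hinv : ∀ γ : SL(2, ℤ), γ ∈ Gamma0 N → ∀ f : s29_ap_FC N, γ • an f = an f)
    (hZ : ∀ y : s29_Mer, (∀ γ : SL(2, ℤ), γ ∈ Gamma0 N → γ • y = y) →
      y ^ (6 * N * m) ∈ Set.range an → y ∈ Set.range an)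
    (hTr : ∀ (σ : ℂ ≃ₐ[ℚ] ℂ) (τ : ℍ), ∃ τ' : ℍ, ∀ f : s29_ap_FC N, f ≠ 0 →
      s29_ord τ (an (s29_ck_sig N σ f)) = s29_ord τ' (an f))
    (hcomp : ∀ (f : modularFunctionFieldBar N) (F : s29_ap_FC N),
      (F : LaurentSeries ℂ) = coeffMap iotaK (f : LaurentSeries Kbar) → an F = s29_an N f)
    (hev : ∀ P : Polynomial (Polynomial ℂ), s29_z_evMer N P ∈ Set.range an) :
    ∃ x : Pic0.torsion Kbar (modularFunctionFieldBar N) m,
      s29_kappa N m x = s29_xg_red N m ψ := by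
  have hN : 0 < N := Nat.pos_of_ne_zero (NeZero.ne N)
  have hm : 0 < m := Nat.pos_of_ne_zero (NeZero.ne m)
  obtain ⟨M, hMdef⟩ : ∃ M : ℕ, M = 6 * N * m := ⟨_, rfl⟩
  have hM : 0 < M := by
    rw [hMdef]
    positivity
  have hMne : NeZero M := ⟨hM.ne'⟩
  have h6N : NeZero (6 * N) := ⟨by positivity⟩
  rw [← hMdef] at hZ
  -- (B1) + (Z2-mf)
  obtain ⟨Φ, Φ₁, hΦ, hΦ₁, ⟨τ₁, hτ₁⟩, ⟨τ₂, hτ₂⟩, hchar, h1, h2, h3, h4, h5, h6, h7⟩ :=
    s29_ew_ka_exists N M ψ hψ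
  obtain ⟨D, H, hD0, hDH⟩ := s29_z2_modform N ((4 : ℤ) * M) (fun τ => Φ τ ^ M)
    (fun τ => Φ₁ τ ^ M) h1 h2 h3 h4 h5 h6 h7
  set A : s29_Mer := algebraMap s29_hol s29_Mer (s29_mkHol Φ hΦ) with hA
  set B : s29_Mer := algebraMap s29_hol s29_Mer (s29_mkHol Φ₁ hΦ₁) with hB
  have hA0 : A ≠ 0 := by
    intro h0
    have h8 := s29_algebraMap_injective (h0.trans (map_zero _).symm)
    exact hτ₁ (congrFun (congrArg Subtype.val h8) τ₁)
  have hB0 : B ≠ 0 := by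
    intro h0
    have h8 := s29_algebraMap_injective (h0.trans (map_zero _).symm)
    exact hτ₂ (congrFun (congrArg Subtype.val h8) τ₂)
  have hDM : s29_z_evMer N D ≠ 0 := (s29_z_evMer_ne_zero_iff N D).mpr hD0
  have hrel : A ^ M * s29_z_evMer N D = B ^ M * s29_z_evMer N H := by
    rw [hA, hB, s29_z_evMer_apply, s29_z_evMer_apply, ← map_pow, ← map_pow, ← map_mul, ← map_mul]
    congr 1
    exact s29_hol_ext (fun τ => hDH τ)
  set G' : s29_Mer := A / B with hG'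
  have hG'0 : G' ≠ 0 := div_ne_zero hA0 hB0
  have hG'pow : G' ^ M = s29_z_evMer N H / s29_z_evMer N D := by
    rw [hG', div_pow, div_eq_div_iff (pow_ne_zero M hB0) hDM, hrel, mul_comm]
  -- the element `g_C` of `F_C`
  obtain ⟨a, ha⟩ := hev H
  obtain ⟨b, hb⟩ := hev D
  have hgC : an (a / b) = G' ^ M := by
    rw [map_div₀, ha, hb, hG'pow]
  have hgC0 : a / b ≠ 0 := by
    intro h0
    rw [h0, map_zero] at hgC
    exact pow_ne_zero M hG'0 hgC.symm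
  -- (E3)
  obtain ⟨g₀, h, hh0, hcoe⟩ := s29_ck_e3 N M hM an hinv hZ hTr (a / b) hgC0 ⟨G', hgC.symm⟩
  -- the root `G₀`
  have hG₀ : (an h * G') ^ M = s29_an N g₀ := by
    rw [mul_pow, ← hgC, ← map_pow, ← map_mul]
    exact hcomp g₀ _ hcoe.symm
  have hanh : an h ≠ 0 := (map_ne_zero an).mpr hh0
  have hg₀ : g₀ ≠ 0 := by
    intro h0
    rw [h0, map_zero] at hG₀
    exact pow_ne_zero M (mul_ne_zero hanh hG'0) hG₀
  have hchar₀ : s29_ka_IsChar N M (an h * G') (s29_xg_red N M ψ) := by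
    have h8 : s29_ka_IsChar N M (an h) 0 :=
      s29_ka_isChar_zero_iff.2 (fun γ hγ => hinv γ hγ h)
    have h9 := s29_ka_isChar_mul h8 hchar
    rwa [zero_add] at h9
  have hper := s29_xm_par_inv N M ψ hψ (an h * G') hchar₀
  subst hMdef
  have hdiv := s29_conv N m hm g₀ hg₀ (an h * G') hG₀ hper
  exact s29_xg_of_root N (6 * N) m ψ g₀ hg₀ (an h * G') hG₀ hchar₀ hdiv

end Fermat.Agent.S29
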