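import Fermat.Agent.S29.ExGlue
import Fermat.Agent.S29.RootConv
import Fermat.Agent.S29.CuspRoot
import Fermat.Prelude.Def_ModularCurve_PeriodMap

/-!
# S29 (project BRIDGE), block (EX-6N): existence of a torsion class from a `6Nm`-th root

`ψ : Γ₀(N) → ℤ` a parabolic homomorphism, `g₀ ∈ F_N` nonzero, `G₀` a meromorphic `(6 N m)`-th
root of (the analytic realisation of) `g₀` on the upper half plane with character
`ψ mod 6 N m`.  Then there is an `m`-torsion class `x` of `J₀(N)` with `κ x = ψ mod m`.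

The divisibility `m ∣ ord_P(g₀)` for every place `P` is `s29_conv` (the `6N`-trick), the
parabolic invariance of `G₀` comes from the character and the parabolicity of `ψ`.
-/

set_option autoImplicit false

open UpperHalfPlane ModularCurve AlgebraicCurve ModularCurve.Period
open scoped MatrixGroups Manifold IntermediateField

noncomputable section

namespace Fermat.Agent.S29

open Fermat.Agent.S24
open CongruenceSubgroup

attribute [local instance] algKC

/-- a meromorphic function with a character `χ` is invariant under every element of `Γ₀(N)`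
on which `χ` vanishes. -/
theorem s29_ex_smul_eq_of_char_zero {N M : ℕ} [NeZero M] {G : s29_Mer}
    {χ : Additive (Gamma0 N) →+ ZMod M} (h : s29_ka_IsChar N M G χ) (c : Gamma0 N)
    (hc : χ (Additive.ofMul c) = 0) : (c : SL(2, ℤ)) • G = G := by
  have h1 := h c
  rw [hc, s29_ka_pow_zero, map_one, one_mul] at h1
  have h2 := congrArg (fun x : s29_Mer => (c : SL(2, ℤ)) • x) h1
  simp only [smul_inv_smul] at h2
  exact h2.symm

/-- **parabolic invariance**: a meromorphic function whose character is the reduction of a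
parabolic integral homomorphism is invariant under all `γ T^N γ⁻¹`. -/
theorem s29_ex_par_of_isChar (N M : ℕ) [NeZero M] (ψ : Additive (Gamma0 N) →+ ℤ)
    (hψ : IsParabolicHom (Gamma0 N) ψ) (G : s29_Mer)
    (h : s29_ka_IsChar N M G (s29_xg_red N M ψ)) (γ : SL(2, ℤ)) :
    (γ * ModularGroup.T ^ N * γ⁻¹) • G = G := by
  have h1 : ψ (Additive.ofMul (s29_cr_conjT N γ)) = 0 := hψ _ (s29_cr_conjT_trace_sq N γ)
  have h2 := s29_ex_smul_eq_of_char_zero h (s29_cr_conjT N γ)
    (by rw [s29_xg_red_apply, h1, Int.cast_zero])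
  rwa [s29_cr_conjT_coe] at h2

/-- **(EX-6N)**: existence of an `m`-torsion class with `κ x = ψ mod m` from a meromorphic
`(6 N m)`-th root `G₀` of `g₀ ∈ F_N` with character `ψ mod 6 N m`, `ψ` parabolic. -/
theorem s29_ex_root6 (N m : ℕ) [NeZero N] [NeZero m] (ψ : Additive (Gamma0 N) →+ ℤ)
    (hψ : IsParabolicHom (Gamma0 N) ψ) (g₀ : modularFunctionFieldBar N) (hg₀ : g₀ ≠ 0)
    (G₀ : s29_Mer) (hG₀ : G₀ ^ (6 * N * m) = s29_an N g₀)
    (hchar : haveI : NeZero (6 * N * m) :=
        ⟨Nat.mul_ne_zero (Nat.mul_ne_zero (by norm_num) (NeZero.ne N)) (NeZero.ne m)⟩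
      s29_ka_IsChar N (6 * N * m) G₀ (s29_xg_red N (6 * N * m) ψ)) :
    ∃ x : Pic0.torsion Kbar (modularFunctionFieldBar N) m,
      s29_kappa N m x = s29_xg_red N m ψ := by
  have h6N : NeZero (6 * N) := ⟨Nat.mul_ne_zero (by norm_num) (NeZero.ne N)⟩
  have hM : NeZero (6 * N * m) := ⟨Nat.mul_ne_zero (NeZero.ne (6 * N)) (NeZero.ne m)⟩
  have hdiv : ∀ P : Place Kbar (modularFunctionFieldBar N), (m : ℤ) ∣ P.ord g₀ :=
    s29_conv N m (Nat.pos_of_ne_zero (NeZero.ne m)) g₀ hg₀ G₀ hG₀
      (fun γ => s29_ex_par_of_isChar N (6 * N * m) ψ hψ G₀ hchar γ)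
  exact s29_xg_of_root N (6 * N) m ψ g₀ hg₀ G₀ hG₀ hchar hdiv

end Fermat.Agent.S29
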