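import Mathlib
import Fermat.Agent.S29.FFC
import Fermat.Agent.S29.ApEmb

/-!
# BRIDGE (FF-C) in the names of the `ℂ`-twin (`ApEmb.lean`)
-/

set_option autoImplicit false

noncomputable section

namespace Fermat.Agent.S29

open ModularCurve AlgebraicCurve
open scoped IntermediateField

theorem s29_ffc_ap_j (N : ℕ) [NeZero N] : s29_ap_jFC N = s29_ffc_j ℂ N := rfl

/-- `F_C` is finite over `ℂ(j)` (in the names of `ApEmb.lean`). -/
instance s29_ffc_ap_finiteDimensional (N : ℕ) [NeZero N] :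
    FiniteDimensional ℂ⟮s29_ap_jFC N⟯ (s29_ap_FC N) :=
  s29_ffc_finiteDimensional_complex N

theorem s29_ffc_ap_transcendental (N : ℕ) [NeZero N] : Transcendental ℂ (s29_ap_jFC N) :=
  s29_ffc_transcendental ℂ N

theorem s29_ffc_ap_finrank_le (N : ℕ) [NeZero N] :
    Module.finrank ℂ⟮s29_ap_jFC N⟯ (s29_ap_FC N) ≤ dedekindPsi N :=
  s29_ffc_finrank_le ℂ N Fermat.Agent.S24.iotaK

end Fermat.Agent.S29

end
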