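import Mathlib

/-!
# BRIDGE (C4-abs): the abstract finite-orbit lemma

`an : F → 𝓜` a field embedding, `H` a finitely generated group acting on `𝓜` by ring automorphisms
and fixing `an F`, with the *root property*: an `H`-invariant element of `𝓜` whose `M`-th power
lies in `an F` lies in `an F`.  Then any family `g i` of nonzero elements of `F` such that every
`an (g i)` has an `M`-th root in `𝓜` meets only finitely many classes modulo `M`-th powers.

(Proof: a root `R i` has a "character" `γ ↦ γ • R i / R i` with values in the `M`-th roots of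
unity of the field `𝓜`; restricted to a finite generating set there are finitely many such
functions; equal characters give an invariant ratio of roots.)
-/

set_option autoImplicit false

noncomputable section

namespace Fermat.Agent.S29

/-- Two elements of `F` whose images have `M`-th roots with the same "character" on a generating
set of `H` differ by an `M`-th power. -/
theorem s29_fo_pair {F 𝓜 G : Type*} [Field F] [Field 𝓜] [Group G] [MulSemiringAction G 𝓜]
    (an : F →+* 𝓜) (H : Subgroup G) (S : Set G) (hS : Subgroup.closure S = H) (M : ℕ)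
    (hM : 0 < M)
    (hZ : ∀ y : 𝓜, (∀ γ ∈ H, γ • y = y) → y ^ M ∈ Set.range an → y ∈ Set.range an)
    (a b : F) (ha : a ≠ 0) (hb : b ≠ 0) (Ra Rb : 𝓜) (hRa : Ra ^ M = an a) (hRb : Rb ^ M = an b)
    (hchar : ∀ γ ∈ S, γ • Ra / Ra = γ • Rb / Rb) :
    ∃ u : F, u ≠ 0 ∧ a = b * u ^ M := by
  have hana : an a ≠ 0 := (map_ne_zero an).mpr ha
  have hanb : an b ≠ 0 := (map_ne_zero an).mpr hb
  have hRa0 : Ra ≠ 0 := by
    rintro rfl
    rw [zero_pow hM.ne'] at hRa
    exact hana hRa.symm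
  have hRb0 : Rb ≠ 0 := by
    rintro rfl
    rw [zero_pow hM.ne'] at hRb
    exact hanb hRb.symm
  set y : 𝓜 := Ra / Rb with hy
  have hy0 : y ≠ 0 := div_ne_zero hRa0 hRb0
  -- `y` is fixed by the generators
  have hfixS : ∀ γ ∈ S, γ • y = y := by
    intro γ hγ
    have h1 := hchar γ hγ
    have hγb : γ • Rb ≠ 0 := (smul_ne_zero_iff_ne γ).mpr hRb0
    rw [div_eq_div_iff hRa0 hRb0] at h1
    rw [hy, div_eq_mul_inv, smul_mul', smul_inv'', ← div_eq_mul_inv, ← div_eq_mul_inv,
      div_eq_div_iff hγb hRb0, h1, mul_comm]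
  -- hence by `H`
  have hfix : ∀ γ ∈ H, γ • y = y := by
    intro γ hγ
    have hle : Subgroup.closure S ≤ MulAction.stabilizer G y :=
      (Subgroup.closure_le _).mpr fun γ hγ => MulAction.mem_stabilizer_iff.mpr (hfixS γ hγ)
    rw [← hS] at hγ
    exact MulAction.mem_stabilizer_iff.mp (hle hγ)
  have hyM : y ^ M = an (a / b) := by
    rw [hy, div_pow, hRa, hRb, map_div₀]
  obtain ⟨u, hu⟩ := hZ y hfix ⟨a / b, hyM.symm⟩
  refine ⟨u, ?_, ?_⟩
  · rintro rfl
    rw [map_zero] at hu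
    exact hy0 hu.symm
  · apply an.injective
    rw [map_mul, map_pow, hu, hyM, map_div₀]
    field_simp

/-- **The abstract finite-orbit lemma.** -/
theorem s29_fo_main {F 𝓜 G : Type*} [Field F] [Field 𝓜] [Group G] [MulSemiringAction G 𝓜]
    (an : F →+* 𝓜) (H : Subgroup G) (hfg : H.FG) (M : ℕ) (hM : 0 < M)
    (hinv : ∀ γ ∈ H, ∀ f : F, γ • an f = an f)
    (hZ : ∀ y : 𝓜, (∀ γ ∈ H, γ • y = y) → y ^ M ∈ Set.range an → y ∈ Set.range an)
    {I : Type*} (g : I → F) (hg0 : ∀ i, g i ≠ 0) (hroot : ∀ i, ∃ R : 𝓜, R ^ M = an (g i)) :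
    ∃ T : Finset F, (∀ t ∈ T, ∃ i, g i = t) ∧
      ∀ i, ∃ t ∈ T, ∃ u : F, u ≠ 0 ∧ g i = t * u ^ M := by
  classical
  rcases isEmpty_or_nonempty I with hI | hI
  · exact ⟨∅, fun t ht => absurd ht (Finset.notMem_empty t), fun i => (hI.false i).elim⟩
  obtain ⟨S, hS⟩ := hfg
  choose R hR using hroot
  have hR0 : ∀ i, R i ≠ 0 := by
    intro i h0
    have h1 := hR i
    rw [h0, zero_pow hM.ne'] at h1
    exact (map_ne_zero an).mpr (hg0 i) h1.symm
  -- the "characters" on the generating set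
  set Φ : I → (↥S → 𝓜) := fun i γ => (γ : G) • R i / R i with hΦ
  have hval : ∀ i (γ : ↥S), Φ i γ ∈ (Polynomial.nthRootsFinset M (1 : 𝓜) : Set 𝓜) := by
    intro i γ
    have hγH : (γ : G) ∈ H := by
      rw [← hS]
      exact Subgroup.subset_closure γ.2
    rw [Finset.mem_coe, Polynomial.mem_nthRootsFinset hM]
    show ((γ : G) • R i / R i) ^ M = 1
    rw [div_pow, ← smul_pow', hR i, hinv _ hγH, div_self ((map_ne_zero an).mpr (hg0 i))]
  have hfin : (Set.range Φ).Finite := by
    have h1 : (Set.univ.pi fun _ : ↥S =>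
        (Polynomial.nthRootsFinset M (1 : 𝓜) : Set 𝓜)).Finite :=
      Set.Finite.pi fun _ => Finset.finite_toSet _
    refine h1.subset ?_
    rintro _ ⟨i, rfl⟩
    exact Set.mem_univ_pi.mpr fun γ => hval i γ
  have hex : ∀ r : ↥S → 𝓜, ∃ i : I, r ∈ Set.range Φ → Φ i = r := by
    intro r
    by_cases hr : r ∈ Set.range Φ
    · obtain ⟨i, hi⟩ := hr
      exact ⟨i, fun _ => hi⟩
    · exact ⟨Classical.arbitrary I, fun h => absurd h hr⟩
  choose rep hrep using hex
  refine ⟨hfin.toFinset.image fun r => g (rep r), ?_, ?_⟩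
  · intro t ht
    obtain ⟨r, -, rfl⟩ := Finset.mem_image.mp ht
    exact ⟨rep r, rfl⟩
  · intro i
    refine ⟨g (rep (Φ i)), Finset.mem_image.mpr ⟨Φ i, hfin.mem_toFinset.mpr ⟨i, rfl⟩, rfl⟩, ?_⟩
    have hΦi : Φ (rep (Φ i)) = Φ i := hrep (Φ i) ⟨i, rfl⟩
    refine s29_fo_pair an H (S : Set G) hS M hM hZ (g i) (g (rep (Φ i))) (hg0 i) (hg0 _)
      (R i) (R (rep (Φ i))) (hR i) (hR _) ?_
    intro γ hγ
    exact (congrFun hΦi ⟨γ, hγ⟩).symm

end Fermat.Agent.S29
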