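import Fermat.Agent.S29.MerField
import Fermat.Agent.S29.ParLattice

/-!
# BRIDGE (CH): finitely many characters

A family of nonzero elements `R x` of a field `𝓜` with an action of a finitely generated group
`H` such that every `R x ^ m` is `H`-invariant: up to `H`-invariant factors there are only
finitely many `R x`.  Concrete form for `s29_Mer` and `Γ₀(N)`.
-/

set_option autoImplicit false

open scoped MatrixGroups

noncomputable section

namespace Fermat.Agent.S29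

/-- **(CH), abstract form.** -/
theorem s29_fo_char_abs {𝓜 G : Type*} [Field 𝓜] [Group G] [MulSemiringAction G 𝓜]
    (H : Subgroup G) (hfg : H.FG) (m : ℕ) (hm : 0 < m) {X : Type*} (R : X → 𝓜)
    (hR : ∀ x, R x ≠ 0) (hinv : ∀ x, ∀ γ ∈ H, γ • (R x ^ m) = R x ^ m) :
    ∃ T : Finset X, ∀ x, ∃ t ∈ T, ∀ γ ∈ H, γ • (R x / R t) = R x / R t := by
  classical
  rcases isEmpty_or_nonempty X with hX | hX
  · exact ⟨∅, fun x => (hX.false x).elim⟩
  obtain ⟨S, hS⟩ := hfg
  set Φ : X → (↥S → 𝓜) := fun x γ => (γ : G) • R x / R x with hΦ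
  have hval : ∀ x (γ : ↥S), Φ x γ ∈ (Polynomial.nthRootsFinset m (1 : 𝓜) : Set 𝓜) := by
    intro x γ
    have hγH : (γ : G) ∈ H := by
      rw [← hS]
      exact Subgroup.subset_closure γ.2
    rw [Finset.mem_coe, Polynomial.mem_nthRootsFinset hm]
    show ((γ : G) • R x / R x) ^ m = 1
    rw [div_pow, ← smul_pow', hinv x _ hγH, div_self (pow_ne_zero m (hR x))]
  have hfin : (Set.range Φ).Finite := by
    have h1 : (Set.univ.pi fun _ : ↥S =>
        (Polynomial.nthRootsFinset m (1 : 𝓜) : Set 𝓜)).Finite :=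
      Set.Finite.pi fun _ => Finset.finite_toSet _
    refine h1.subset ?_
    rintro _ ⟨x, rfl⟩
    exact Set.mem_univ_pi.mpr fun γ => hval x γ
  have hex : ∀ r : ↥S → 𝓜, ∃ x : X, r ∈ Set.range Φ → Φ x = r := by
    intro r
    by_cases hr : r ∈ Set.range Φ
    · obtain ⟨x, hx⟩ := hr
      exact ⟨x, fun _ => hx⟩
    · exact ⟨Classical.arbitrary X, fun h => absurd h hr⟩
  choose rep hrep using hex
  refine ⟨hfin.toFinset.image rep, fun x => ?_⟩
  refine ⟨rep (Φ x), Finset.mem_image.mpr ⟨Φ x, hfin.mem_toFinset.mpr ⟨x, rfl⟩, rfl⟩, ?_⟩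
  have hΦx : Φ (rep (Φ x)) = Φ x := hrep (Φ x) ⟨x, rfl⟩
  set t := rep (Φ x) with ht
  have hfixS : ∀ γ ∈ (S : Set G), γ • (R x / R t) = R x / R t := by
    intro γ hγ
    have h1 : γ • R t / R t = γ • R x / R x := congrFun hΦx ⟨γ, hγ⟩
    have hγt : γ • R t ≠ 0 := (smul_ne_zero_iff_ne γ).mpr (hR t)
    rw [div_eq_div_iff (hR t) (hR x)] at h1
    rw [div_eq_mul_inv, smul_mul', smul_inv'', ← div_eq_mul_inv, ← div_eq_mul_inv,
      div_eq_div_iff hγt (hR t), mul_comm (R x) (γ • R t), h1, mul_comm]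
  intro γ hγ
  have hle : Subgroup.closure (S : Set G) ≤ MulAction.stabilizer G (R x / R t) :=
    (Subgroup.closure_le _).mpr fun γ hγ => MulAction.mem_stabilizer_iff.mpr (hfixS γ hγ)
  rw [← hS] at hγ
  exact MulAction.mem_stabilizer_iff.mp (hle hγ)

/-- `Γ₀(N)` is a finitely generated subgroup of `SL₂(ℤ)`. -/
theorem s29_fo_gamma0_fg (N : ℕ) [NeZero N] : (CongruenceSubgroup.Gamma0 N).FG :=
  (Group.fg_iff_subgroup_fg _).mp (s29_pl_fg N)

/-- **(CH)** for meromorphic functions on the upper half plane and `Γ₀(N)`. -/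
theorem s29_fo_char (N : ℕ) [NeZero N] (m : ℕ) (hm : 0 < m) {X : Type*} (G : X → s29_Mer)
    (hG : ∀ x, G x ≠ 0)
    (hinv : ∀ x, ∀ γ : SL(2, ℤ), γ ∈ CongruenceSubgroup.Gamma0 N → γ • (G x ^ m) = G x ^ m) :
    ∃ T : Finset X, ∀ x, ∃ t ∈ T, ∀ γ : SL(2, ℤ), γ ∈ CongruenceSubgroup.Gamma0 N →
      γ • (G x / G t) = G x / G t :=
  s29_fo_char_abs (CongruenceSubgroup.Gamma0 N) (s29_fo_gamma0_fg N) m hm G hG hinv

end Fermat.Agent.S29
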