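import Mathlib

/-!
# BRIDGE (H2): reduction of Hecke eigensystems modulo `p` (helper2)

Pure commutative algebra (Mathlib only).

* `s29_h2_core`  : Nakayama form — a finitely generated module `M` over a commutative ring `R`,
  a character `ψ : R → k` with maximal kernel containing the annihilator of `M`; then there is a
  non-zero additive `ψ`-eigenfunctional `M → k`.
* `s29_h2_dual`  : commuting endomorphisms `T i` of a finitely generated abelian group `M` and a
  non-zero eigenfunctional `M → ℂ` with eigenvalues `a i ∈ ℤ̄`; then for every field `k` of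
  characteristic `p` and every `φ : ℤ̄ → k` there is a non-zero eigenfunctional `M → k` with
  eigenvalues `φ (a i)`.
* `s29_h2_isIntegral` : such eigenvalues are automatically algebraic integers.
* `s29_h2`, `s29_h2'` : the primal form for a finite free `ℤ`-module `Λ`: an eigenvector in
  `ℂ ⊗ Λ` gives an eigenvector in `k ⊗ Λ` with the reduced eigenvalues.

No valuation rings, no Brauer–Nesbitt: the Hecke algebra `𝕋 = ℤ[T i] ⊆ End Λ` is integral over `ℤ`,
the kernel `𝔪` of `𝕋 → ℤ̄ → k` is maximal, and Nakayama gives `𝔪 M ≠ M`.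
-/

set_option autoImplicit false
set_option linter.style.haveILetI false
set_option linter.deprecated false

open scoped TensorProduct

namespace Fermat.Agent.S29

/-- Core (Nakayama): a finitely generated module over a commutative ring `R`, a character
`ψ : R → k` with maximal kernel containing the annihilator of `M`: there is a non-zero additive
`ψ`-eigenfunctional `M → k`. -/
theorem s29_h2_core {R : Type*} [CommRing R] {M : Type*} [AddCommGroup M] [Module R M]
    [Module.Finite R M] {k : Type*} [Field k] (ψ : R →+* k) (hmax : (RingHom.ker ψ).IsMaximal)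
    (hann : ∀ r : R, (∀ m : M, r • m = 0) → ψ r = 0) :
    ∃ F : M →+ k, F ≠ 0 ∧ ∀ (r : R) (m : M), F (r • m) = ψ r * F m := by
  classical
  have hne : RingHom.ker ψ • (⊤ : Submodule R M) ≠ ⊤ := by
    intro h
    obtain ⟨r, hr, hr0⟩ := Submodule.exists_sub_one_mem_and_smul_eq_zero_of_fg_of_le_smul
      (RingHom.ker ψ) (⊤ : Submodule R M) Module.Finite.fg_top (le_of_eq h.symm)
    have h1 : ψ r = 1 := by
      have h2 : ψ (r - 1) = 0 := hr
      rwa [map_sub, map_one, sub_eq_zero] at h2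
    have h0 : ψ r = 0 := hann r (fun m => hr0 m trivial)
    rw [h0] at h1
    exact zero_ne_one h1
  letI : Field (R ⧸ RingHom.ker ψ) := Ideal.Quotient.field (RingHom.ker ψ)
  haveI : Nontrivial (M ⧸ RingHom.ker ψ • (⊤ : Submodule R M)) :=
    Submodule.Quotient.nontrivial_iff.mpr hne
  obtain ⟨x, hx⟩ := exists_ne (0 : M ⧸ RingHom.ker ψ • (⊤ : Submodule R M))
  obtain ⟨f, hf⟩ : ∃ f : Module.Dual (R ⧸ RingHom.ker ψ)
      (M ⧸ RingHom.ker ψ • (⊤ : Submodule R M)), f x ≠ 0 := by
    by_contra hcon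
    push Not at hcon
    exact hx ((Module.forall_dual_apply_eq_zero_iff (R ⧸ RingHom.ker ψ) x).mp hcon)
  obtain ⟨m₀, rfl⟩ := Submodule.Quotient.mk_surjective _ x
  refine ⟨(RingHom.kerLift ψ).toAddMonoidHom.comp (f.toAddMonoidHom.comp
    (Submodule.mkQ (RingHom.ker ψ • (⊤ : Submodule R M))).toAddMonoidHom), ?_, ?_⟩
  · intro h0
    have h1 := DFunLike.congr_fun h0 m₀
    simp only [AddMonoidHom.coe_comp, Function.comp_apply, AddMonoidHom.zero_apply] at h1
    have h2 : RingHom.kerLift ψ (f (Submodule.Quotient.mk m₀)) = 0 := h1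
    rw [map_eq_zero_iff _ (RingHom.kerLift_injective ψ)] at h2
    exact hf h2
  · intro r m
    show RingHom.kerLift ψ (f (Submodule.Quotient.mk (r • m))) =
      ψ r * RingHom.kerLift ψ (f (Submodule.Quotient.mk m))
    rw [← Module.Quotient.mk_smul_mk, map_smul, smul_eq_mul, map_mul, RingHom.kerLift_mk]

/-- Dual form: commuting endomorphisms `T i` of a finitely generated abelian group `M`, a non-zero
eigenfunctional `P : M → ℂ` with (algebraic integer) eigenvalues `a i`; then for every field `k`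
of characteristic `p` and `φ : ℤ̄ → k` there is a non-zero eigenfunctional `M → k` with eigenvalues
`φ (a i)`. -/
theorem s29_h2_dual {M : Type*} [AddCommGroup M] [Module.Finite ℤ M] {ι : Type*}
    (T : ι → Module.End ℤ M) (hcomm : ∀ i j, Commute (T i) (T j))
    (a : ι → integralClosure ℤ ℂ) (P : M →+ ℂ) (hP : P ≠ 0)
    (hev : ∀ i m, P (T i m) = (a i : ℂ) * P m)
    {k : Type*} [Field k] (p : ℕ) [Fact p.Prime] [CharP k p] (φ : integralClosure ℤ ℂ →+* k) :
    ∃ F : M →+ k, F ≠ 0 ∧ ∀ i m, F (T i m) = φ (a i) * F m := by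
  classical
  obtain ⟨m₀, hm₀⟩ : ∃ m₀, P m₀ ≠ 0 := by
    by_contra hcon
    push Not at hcon
    exact hP (AddMonoidHom.ext hcon)
  have hcomm' : ∀ x ∈ Set.range T, ∀ y ∈ Set.range T, x * y = y * x := by
    rintro _ ⟨i, rfl⟩ _ ⟨j, rfl⟩
    exact hcomm i j
  letI : CommRing (Algebra.adjoin ℤ (Set.range T)) := Algebra.adjoinCommRingOfComm ℤ hcomm'
  -- every element of the Hecke algebra acts on `P` by an algebraic integer
  have key : ∀ t ∈ Algebra.adjoin ℤ (Set.range T),
      ∃ c : integralClosure ℤ ℂ, ∀ m, P (t m) = (c : ℂ) * P m := by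
    intro t ht
    induction ht using Algebra.adjoin_induction with
    | mem x hx =>
      obtain ⟨i, rfl⟩ := hx
      exact ⟨a i, hev i⟩
    | algebraMap r =>
      refine ⟨algebraMap ℤ _ r, fun m => ?_⟩
      rw [Module.algebraMap_end_apply, map_zsmul]
      simp
    | add x y _ _ hx hy =>
      obtain ⟨c, hc⟩ := hx
      obtain ⟨d, hd⟩ := hy
      refine ⟨c + d, fun m => ?_⟩
      rw [LinearMap.add_apply, map_add, hc, hd]
      push_cast
      ring
    | mul x y _ _ hx hy =>
      obtain ⟨c, hc⟩ := hx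
      obtain ⟨d, hd⟩ := hy
      refine ⟨c * d, fun m => ?_⟩
      rw [Module.End.mul_apply, hc, hd]
      push_cast
      ring
  have huniq : ∀ (t : Algebra.adjoin ℤ (Set.range T)) (c : integralClosure ℤ ℂ),
      (∀ m, P ((t : Module.End ℤ M) m) = (c : ℂ) * P m) → Classical.choose (key t t.2) = c := by
    intro t c hc
    have h1 := Classical.choose_spec (key t t.2) m₀
    rw [hc m₀] at h1
    exact Subtype.ext (mul_right_cancel₀ hm₀ h1).symm
  let θ : Algebra.adjoin ℤ (Set.range T) →+* integralClosure ℤ ℂ :=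
    { toFun := fun t => Classical.choose (key t t.2)
      map_one' := huniq 1 1 (fun m => by simp)
      map_mul' := fun s t => huniq (s * t) _ (fun m => by
        have hs := Classical.choose_spec (key s s.2)
        have ht := Classical.choose_spec (key t t.2)
        show P (((s : Module.End ℤ M) * (t : Module.End ℤ M)) m) = _
        rw [Module.End.mul_apply, hs, ht]
        push_cast
        ring)
      map_zero' := huniq 0 0 (fun m => by simp)
      map_add' := fun s t => huniq (s + t) _ (fun m => by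
        have hs := Classical.choose_spec (key s s.2)
        have ht := Classical.choose_spec (key t t.2)
        show P (((s : Module.End ℤ M) + (t : Module.End ℤ M)) m) = _
        rw [LinearMap.add_apply, map_add, hs, ht]
        push_cast
        ring) }
  have hθ : ∀ (t : Algebra.adjoin ℤ (Set.range T)) (m : M),
      P ((t : Module.End ℤ M) m) = ((θ t : integralClosure ℤ ℂ) : ℂ) * P m :=
    fun t => Classical.choose_spec (key t t.2)
  haveI hfin : Module.Finite (Algebra.adjoin ℤ (Set.range T)) M :=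
    Module.Finite.of_restrictScalars_finite ℤ _ M
  -- integrality of the Hecke algebra over `ℤ`
  haveI hint : Algebra.IsIntegral ℤ (Algebra.adjoin ℤ (Set.range T)) := by
    refine ⟨fun t => ?_⟩
    obtain ⟨q, hq, hq0⟩ := LinearMap.exists_monic_and_aeval_eq_zero ℤ (t : Module.End ℤ M)
    refine ⟨q, hq, ?_⟩
    apply Subtype.ext
    have h1 : ((Polynomial.aeval t q : Algebra.adjoin ℤ (Set.range T)) : Module.End ℤ M) =
        Polynomial.aeval (t : Module.End ℤ M) q :=
      (Polynomial.aeval_algHom_apply (Algebra.adjoin ℤ (Set.range T)).val t q).symm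
    rw [← Polynomial.aeval_def]
    rw [h1, hq0]
    rfl
  have hmax : (RingHom.ker (φ.comp θ)).IsMaximal := by
    haveI hprime : (RingHom.ker (φ.comp θ)).IsPrime := RingHom.ker_isPrime _
    apply Ideal.isMaximal_of_isIntegral_of_isMaximal_comap (R := ℤ)
    have hpr : ((RingHom.ker (φ.comp θ)).comap
        (algebraMap ℤ (Algebra.adjoin ℤ (Set.range T)))).IsPrime := Ideal.comap_isPrime _ _
    refine hpr.isMaximal ?_
    intro hbot
    have hp : ((p : ℤ)) ∈ (RingHom.ker (φ.comp θ)).comap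
        (algebraMap ℤ (Algebra.adjoin ℤ (Set.range T))) := by
      rw [Ideal.mem_comap, RingHom.mem_ker]
      rw [eq_intCast (algebraMap ℤ (Algebra.adjoin ℤ (Set.range T))) (p : ℤ), map_intCast,
        Int.cast_natCast]
      exact CharP.cast_eq_zero k p
    rw [hbot, Ideal.mem_bot] at hp
    exact (Fact.out : p.Prime).ne_zero (by exact_mod_cast hp)
  have hann : ∀ r : Algebra.adjoin ℤ (Set.range T), (∀ m : M, r • m = 0) → (φ.comp θ) r = 0 := by
    intro r hr
    have h1 := hθ r m₀
    have h2 : (r : Module.End ℤ M) m₀ = 0 := hr m₀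
    rw [h2, map_zero] at h1
    have h3 : ((θ r : integralClosure ℤ ℂ) : ℂ) = 0 := by
      rcases mul_eq_zero.mp h1.symm with h | h
      · exact h
      · exact absurd h hm₀
    have h4 : θ r = 0 := Subtype.ext h3
    rw [RingHom.comp_apply, h4, map_zero]
  obtain ⟨F, hF0, hF⟩ := s29_h2_core (φ.comp θ) hmax hann
  refine ⟨F, hF0, fun i m => ?_⟩
  have hi : T i ∈ Algebra.adjoin ℤ (Set.range T) := Algebra.subset_adjoin ⟨i, rfl⟩
  have h1 := hF ⟨T i, hi⟩ m
  have h2 : θ ⟨T i, hi⟩ = a i := huniq ⟨T i, hi⟩ (a i) (hev i)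
  rw [RingHom.comp_apply, h2] at h1
  exact h1

/-- An eigenvalue of an endomorphism of a finitely generated abelian group on a non-zero
complex eigenfunctional is an algebraic integer. -/
theorem s29_h2_isIntegral {M : Type*} [AddCommGroup M] [Module.Finite ℤ M]
    (T : Module.End ℤ M) (a : ℂ) (P : M →+ ℂ) (hP : P ≠ 0)
    (hev : ∀ m, P (T m) = a * P m) : IsIntegral ℤ a := by
  obtain ⟨m₀, hm₀⟩ : ∃ m₀, P m₀ ≠ 0 := by
    by_contra hcon
    push Not at hcon
    exact hP (AddMonoidHom.ext hcon)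
  obtain ⟨q, hq, hq0⟩ := LinearMap.exists_monic_and_aeval_eq_zero ℤ T
  have key : ∀ (r : Polynomial ℤ) (m : M),
      P ((Polynomial.aeval T r) m) = (Polynomial.aeval a r) * P m := by
    intro r
    induction r using Polynomial.induction_on with
    | C n =>
      intro m
      rw [Polynomial.aeval_C, Polynomial.aeval_C, Module.algebraMap_end_apply, map_zsmul]
      simp
    | add r s hr hs =>
      intro m
      rw [map_add, map_add, LinearMap.add_apply, map_add, hr, hs]
      ring
    | monomial n c h =>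
      intro m
      have e1 : Polynomial.aeval T (Polynomial.C c * Polynomial.X ^ (n + 1)) =
          Polynomial.aeval T (Polynomial.C c * Polynomial.X ^ n) * T := by
        rw [pow_succ, ← mul_assoc, map_mul, Polynomial.aeval_X]
      have e2 : Polynomial.aeval a (Polynomial.C c * Polynomial.X ^ (n + 1)) =
          Polynomial.aeval a (Polynomial.C c * Polynomial.X ^ n) * a := by
        rw [pow_succ, ← mul_assoc, map_mul, Polynomial.aeval_X]
      rw [e1, e2, Module.End.mul_apply, h, hev]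
      ring
  refine ⟨q, hq, ?_⟩
  have h1 := key q m₀
  rw [hq0, LinearMap.zero_apply, map_zero] at h1
  rcases mul_eq_zero.mp h1.symm with h | h
  · exact h
  · exact absurd h hm₀

/-- The evaluation pairing `Hom(Λ, ℤ) × (A ⊗ Λ) → A`. -/
noncomputable def s29_h2_ev (A : Type*) [CommRing A] {Λ : Type*} [AddCommGroup Λ]
    (f : Λ →ₗ[ℤ] ℤ) : A ⊗[ℤ] Λ →ₗ[A] A :=
  (TensorProduct.AlgebraTensorModule.rid ℤ A A).toLinearMap ∘ₗ f.baseChange A

theorem s29_h2_ev_tmul (A : Type*) [CommRing A] {Λ : Type*} [AddCommGroup Λ]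
    (f : Λ →ₗ[ℤ] ℤ) (c : A) (x : Λ) : s29_h2_ev A f (c ⊗ₜ[ℤ] x) = (f x) • c := by
  simp [s29_h2_ev]

theorem s29_h2_ev_add (A : Type*) [CommRing A] {Λ : Type*} [AddCommGroup Λ]
    (f g : Λ →ₗ[ℤ] ℤ) (w : A ⊗[ℤ] Λ) :
    s29_h2_ev A (f + g) w = s29_h2_ev A f w + s29_h2_ev A g w := by
  induction w using TensorProduct.induction_on with
  | zero => simp
  | tmul c x => simp [s29_h2_ev_tmul, add_smul]
  | add x y hx hy => rw [map_add, hx, hy, map_add, map_add]; abel

theorem s29_h2_ev_zsmul (A : Type*) [CommRing A] {Λ : Type*} [AddCommGroup Λ]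
    (n : ℤ) (f : Λ →ₗ[ℤ] ℤ) (w : A ⊗[ℤ] Λ) :
    s29_h2_ev A (n • f) w = n • s29_h2_ev A f w := by
  induction w using TensorProduct.induction_on with
  | zero => simp
  | tmul c x => simp [s29_h2_ev_tmul, mul_smul]
  | add x y hx hy => rw [map_add, hx, hy, map_add, smul_add]

theorem s29_h2_ev_comp (A : Type*) [CommRing A] {Λ : Type*} [AddCommGroup Λ]
    (f : Λ →ₗ[ℤ] ℤ) (T : Module.End ℤ Λ) (w : A ⊗[ℤ] Λ) :
    s29_h2_ev A (f ∘ₗ T) w = s29_h2_ev A f (T.baseChange A w) := by
  induction w using TensorProduct.induction_on with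
  | zero => simp
  | tmul c x => simp [s29_h2_ev_tmul]
  | add x y hx hy => rw [map_add, hx, hy, map_add, map_add]

theorem s29_h2_ev_sep (A : Type*) [CommRing A] {Λ : Type*} [AddCommGroup Λ]
    {J : Type*} (b : Module.Basis J ℤ Λ) (w : A ⊗[ℤ] Λ)
    (h : ∀ j, s29_h2_ev A (b.coord j) w = 0) : w = 0 := by
  have key : ∀ (w : A ⊗[ℤ] Λ) (j : J),
      (Algebra.TensorProduct.basis A b).repr w j = s29_h2_ev A (b.coord j) w := by
    intro w j
    induction w using TensorProduct.induction_on with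
    | zero => simp
    | tmul c x =>
      rw [Algebra.TensorProduct.basis_repr_tmul, s29_h2_ev_tmul]
      simp [mul_comm]
    | add x y hx hy => rw [map_add, Finsupp.add_apply, hx, hy, map_add]
  apply (Algebra.TensorProduct.basis A b).repr.injective
  ext j
  rw [key, h j, map_zero, Finsupp.zero_apply]

/-- **(H2), primal form.** Commuting endomorphisms `T i` of a finite free `ℤ`-module `Λ` with a
common eigenvector in `ℂ ⊗ Λ`; for every field `k` of characteristic `p` and every
`φ : ℤ̄ → k` there is a non-zero common eigenvector in `k ⊗ Λ` with eigenvalues `φ (a i)`. -/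
theorem s29_h2 {Λ : Type*} [AddCommGroup Λ] [Module.Free ℤ Λ] [Module.Finite ℤ Λ] {ι : Type*}
    (T : ι → Module.End ℤ Λ) (hcomm : ∀ i j, Commute (T i) (T j))
    (a : ι → integralClosure ℤ ℂ) (v : ℂ ⊗[ℤ] Λ) (hv : v ≠ 0)
    (hev : ∀ i, (T i).baseChange ℂ v = (a i : ℂ) • v)
    {k : Type*} [Field k] (p : ℕ) [Fact p.Prime] [CharP k p] (φ : integralClosure ℤ ℂ →+* k) :
    ∃ w : k ⊗[ℤ] Λ, w ≠ 0 ∧ ∀ i, (T i).baseChange k w = φ (a i) • w := by
  classical
  let b := Module.Free.chooseBasis ℤ Λ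
  -- the transposes
  let T' : ι → Module.End ℤ (Module.Dual ℤ Λ) := fun i => Module.Dual.transpose (T i)
  have hT' : ∀ i (f : Module.Dual ℤ Λ), T' i f = f ∘ₗ T i := fun i f => rfl
  have hcomm' : ∀ i j, Commute (T' i) (T' j) := by
    intro i j
    apply LinearMap.ext
    intro f
    apply LinearMap.ext
    intro x
    have h1 : (T j * T i) x = (T i * T j) x := by rw [(hcomm i j).eq]
    show f (T j (T i x)) = f (T i (T j x))
    exact congrArg f h1
  let P : Module.Dual ℤ Λ →+ ℂ :=
    { toFun := fun f => s29_h2_ev ℂ f v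
      map_zero' := by
        have h := s29_h2_ev_zsmul ℂ (0 : ℤ) (0 : Λ →ₗ[ℤ] ℤ) v
        rw [zero_smul, zero_smul] at h
        exact h
      map_add' := fun f g => s29_h2_ev_add ℂ f g v }
  have hP : P ≠ 0 := by
    intro h0
    apply hv
    apply s29_h2_ev_sep ℂ b v
    intro j
    exact DFunLike.congr_fun h0 (b.coord j)
  have hevP : ∀ i (f : Module.Dual ℤ Λ), P (T' i f) = (a i : ℂ) * P f := by
    intro i f
    show s29_h2_ev ℂ (f ∘ₗ T i) v = (a i : ℂ) * s29_h2_ev ℂ f v
    rw [s29_h2_ev_comp, hev i, map_smul, smul_eq_mul]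
  obtain ⟨F, hF0, hF⟩ := s29_h2_dual T' hcomm' a P hP hevP p φ
  let w : k ⊗[ℤ] Λ := ∑ j, F (b.coord j) • ((1 : k) ⊗ₜ[ℤ] b j)
  have hw : ∀ f : Module.Dual ℤ Λ, s29_h2_ev k f w = F f := by
    intro f
    have h1 : F f = ∑ j, f (b j) • F (b.coord j) := by
      conv_lhs => rw [← b.sum_dual_apply_smul_coord f]
      rw [map_sum]
      exact Finset.sum_congr rfl fun j _ => map_zsmul F _ _
    rw [h1]
    show s29_h2_ev k f (∑ j, F (b.coord j) • ((1 : k) ⊗ₜ[ℤ] b j)) = _
    rw [map_sum]
    refine Finset.sum_congr rfl fun j _ => ?_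
    rw [map_smul, s29_h2_ev_tmul, smul_eq_mul, zsmul_eq_mul, zsmul_eq_mul, mul_one, mul_comm]
  refine ⟨w, ?_, ?_⟩
  · intro hw0
    apply hF0
    ext f
    rw [← hw f, hw0, map_zero, AddMonoidHom.zero_apply]
  · intro i
    rw [← sub_eq_zero]
    apply s29_h2_ev_sep k b
    intro j
    rw [map_sub, sub_eq_zero, ← s29_h2_ev_comp, hw, map_smul, hw, smul_eq_mul, ← hF i, hT']

/-- The evaluation pairing against a fixed `v : A ⊗ Λ`, as an additive map `Hom(Λ, ℤ) → A`. -/
noncomputable def s29_h2_evHom (A : Type*) [CommRing A] {Λ : Type*} [AddCommGroup Λ]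
    (v : A ⊗[ℤ] Λ) : Module.Dual ℤ Λ →+ A where
  toFun := fun f => s29_h2_ev A f v
  map_zero' := by
    have h := s29_h2_ev_zsmul A (0 : ℤ) (0 : Λ →ₗ[ℤ] ℤ) v
    rw [zero_smul, zero_smul] at h
    exact h
  map_add' := fun f g => s29_h2_ev_add A f g v

/-- An eigenvalue of an endomorphism of a finite free `ℤ`-module `Λ` on `ℂ ⊗ Λ` is an algebraic
integer. -/
theorem s29_h2_isIntegral_tensor {Λ : Type*} [AddCommGroup Λ] [Module.Free ℤ Λ]
    [Module.Finite ℤ Λ] (T : Module.End ℤ Λ) (a : ℂ) (v : ℂ ⊗[ℤ] Λ) (hv : v ≠ 0)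
    (hev : T.baseChange ℂ v = a • v) : IsIntegral ℤ a := by
  classical
  refine s29_h2_isIntegral (Module.Dual.transpose T) a (s29_h2_evHom ℂ v) ?_ ?_
  · intro h0
    apply hv
    apply s29_h2_ev_sep ℂ (Module.Free.chooseBasis ℤ Λ) v
    intro j
    exact DFunLike.congr_fun h0 ((Module.Free.chooseBasis ℤ Λ).coord j)
  · intro f
    show s29_h2_ev ℂ (f ∘ₗ T) v = a * s29_h2_ev ℂ f v
    rw [s29_h2_ev_comp, hev, map_smul, smul_eq_mul]

/-- **(H2), primal form, eigenvalues not assumed integral.** -/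
theorem s29_h2' {Λ : Type*} [AddCommGroup Λ] [Module.Free ℤ Λ] [Module.Finite ℤ Λ] {ι : Type*}
    (T : ι → Module.End ℤ Λ) (hcomm : ∀ i j, Commute (T i) (T j))
    (a : ι → ℂ) (v : ℂ ⊗[ℤ] Λ) (hv : v ≠ 0)
    (hev : ∀ i, (T i).baseChange ℂ v = a i • v)
    {k : Type*} [Field k] (p : ℕ) [Fact p.Prime] [CharP k p] (φ : integralClosure ℤ ℂ →+* k) :
    ∃ w : k ⊗[ℤ] Λ, w ≠ 0 ∧ ∀ i, ∃ c : integralClosure ℤ ℂ, (c : ℂ) = a i ∧
      (T i).baseChange k w = φ c • w := by
  have hint : ∀ i, a i ∈ integralClosure ℤ ℂ := fun i =>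
    s29_h2_isIntegral_tensor (T i) (a i) v hv (hev i)
  obtain ⟨w, hw0, hw⟩ := s29_h2 T hcomm (fun i => ⟨a i, hint i⟩) v hv hev p φ
  exact ⟨w, hw0, fun i => ⟨⟨a i, hint i⟩, rfl, hw i⟩⟩

end Fermat.Agent.S29
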