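import Mathlib
import Fermat.Agent.S29.Reduce

/-!
# BRIDGE / S30 (H2), characteristic-free form (helper2)

`Reduce.lean` treats characters `ψ : R → k` with maximal kernel (fields of characteristic `p`).
Here the kernel is an arbitrary prime (e.g. `k` of characteristic `0`): localize at `ker ψ`.

* `s29_h2g_core` : `M` a finitely generated module over a commutative ring `R`, `ψ : R → k` a
  character to a field whose kernel contains the annihilator of `M`; then there is a non-zero
  additive `ψ`-eigenfunctional `M → k`.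
* `s29_h2g_core_hom` : the same with the action given by a ring homomorphism
  `a : R → End_ℤ M`, `M` a finitely generated abelian group.
* `s29_h2g_char` : `Λ` finite free over `ℤ`, `ρ : R → End_ℤ Λ`, `χ : R → k` vanishing on `ker ρ`;
  then there is a non-zero `w ∈ k ⊗ Λ` with `ρ r w = χ r • w` for all `r`.
-/

set_option autoImplicit false
set_option linter.style.haveILetI false

open scoped TensorProduct

namespace Fermat.Agent.S29

/-- **(H2), characteristic-free core.** -/
theorem s29_h2g_core {R : Type*} [CommRing R] {M : Type*} [AddCommGroup M] [Module R M]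
    [Module.Finite R M] {k : Type*} [Field k] (ψ : R →+* k)
    (hann : ∀ r : R, (∀ m : M, r • m = 0) → ψ r = 0) :
    ∃ F : M →+ k, F ≠ 0 ∧ ∀ (r : R) (m : M), F (r • m) = ψ r * F m := by
  classical
  haveI hprime : (RingHom.ker ψ).IsPrime := RingHom.ker_isPrime ψ
  have hunit : ∀ y : (RingHom.ker ψ).primeCompl, IsUnit (ψ y) :=
    fun y => IsUnit.mk0 _ (fun h => y.2 h)
  let ψp : Localization.AtPrime (RingHom.ker ψ) →+* k := IsLocalization.lift hunit
  have hψp : ∀ r : R, ψp (algebraMap R (Localization.AtPrime (RingHom.ker ψ)) r) = ψ r :=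
    IsLocalization.lift_eq hunit
  -- `ψp (r / s) = 0` as soon as `ψ r = 0`
  have hψp0 : ∀ (r : R) (s : (RingHom.ker ψ).primeCompl), ψ r = 0 →
      ψp (IsLocalization.mk' (Localization.AtPrime (RingHom.ker ψ)) r s) = 0 := by
    intro r s hr
    have h6 := congrArg ψp (IsLocalization.mk'_spec (Localization.AtPrime (RingHom.ker ψ)) r s)
    rw [map_mul, hψp, hψp, hr] at h6
    exact (mul_eq_zero.mp h6).resolve_right (fun h => s.2 h)
  have hmax : (RingHom.ker ψp).IsMaximal := by
    have h1 : RingHom.ker ψp = IsLocalRing.maximalIdeal (Localization.AtPrime (RingHom.ker ψ)) := by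
      apply le_antisymm
      · exact IsLocalRing.le_maximalIdeal (RingHom.ker_ne_top ψp)
      · intro x hx
        obtain ⟨r, s, rfl⟩ := IsLocalization.exists_mk'_eq (RingHom.ker ψ).primeCompl x
        rw [IsLocalization.AtPrime.mk'_mem_maximal_iff (Localization.AtPrime (RingHom.ker ψ))
          (RingHom.ker ψ)] at hx
        exact hψp0 r s hx
    rw [h1]
    exact IsLocalRing.maximalIdeal.isMaximal _
  have hannp : ∀ x : Localization.AtPrime (RingHom.ker ψ),
      (∀ y : LocalizedModule (RingHom.ker ψ).primeCompl M, x • y = 0) → ψp x = 0 := by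
    intro x hx
    obtain ⟨r, s, rfl⟩ := IsLocalization.exists_mk'_eq (RingHom.ker ψ).primeCompl x
    have h1 : ∀ m : M, ∃ t : (RingHom.ker ψ).primeCompl, (t : R) • r • m = 0 := by
      intro m
      have h2 := hx (LocalizedModule.mk m 1)
      rw [← Localization.mk_eq_mk', LocalizedModule.mk_smul_mk,
        ← LocalizedModule.zero_mk (1 : (RingHom.ker ψ).primeCompl), LocalizedModule.mk_eq] at h2
      obtain ⟨u, hu⟩ := h2
      refine ⟨u, ?_⟩
      have hu' : u • r • m = 0 := by simpa using hu
      exact hu' 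
    obtain ⟨n, g, hg⟩ := Module.Finite.exists_fin (R := R) (M := M)
    choose t ht using fun i => h1 (g i)
    have h3 : ∀ m : M, ((∏ i, (t i : R)) * r) • m = 0 := by
      intro m
      have hm : m ∈ Submodule.span R (Set.range g) := hg ▸ Submodule.mem_top
      induction hm using Submodule.span_induction with
      | mem x hx =>
        obtain ⟨i, rfl⟩ := hx
        rw [← Finset.prod_erase_mul _ _ (Finset.mem_univ i), mul_assoc, mul_smul, mul_smul, ht i,
          smul_zero]
      | zero => rw [smul_zero]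
      | add x y _ _ hx hy => rw [smul_add, hx, hy, add_zero]
      | smul a x _ hx => rw [smul_comm, hx, smul_zero]
    have h4 := hann _ h3
    rw [map_mul, map_prod] at h4
    have h5 : ψ r = 0 := by
      rcases mul_eq_zero.mp h4 with h | h
      · exfalso
        obtain ⟨i, -, hi⟩ := Finset.prod_eq_zero_iff.mp h
        exact (t i).2 hi
      · exact h
    exact hψp0 r s h5
  obtain ⟨Fp, hFp0, hFp⟩ := s29_h2_core ψp hmax hannp
  have hmk : ∀ m : M, LocalizedModule.mkLinearMap (RingHom.ker ψ).primeCompl M m =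
      LocalizedModule.mk m 1 := fun m => rfl
  refine ⟨Fp.comp (LocalizedModule.mkLinearMap (RingHom.ker ψ).primeCompl M).toAddMonoidHom,
    ?_, ?_⟩
  · intro h0
    apply hFp0
    ext y
    induction y using LocalizedModule.induction_on with
    | h m s =>
      have e : LocalizedModule.mk m s =
          (IsLocalization.mk' (Localization.AtPrime (RingHom.ker ψ)) (1 : R) s) •
            LocalizedModule.mk m (1 : (RingHom.ker ψ).primeCompl) := by
        rw [← Localization.mk_eq_mk', LocalizedModule.mk_smul_mk, one_smul, mul_one]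
      have h1 : Fp (LocalizedModule.mk m (1 : (RingHom.ker ψ).primeCompl)) = 0 :=
        DFunLike.congr_fun h0 m
      rw [e, hFp, h1, mul_zero, AddMonoidHom.zero_apply]
  · intro r m
    show Fp (LocalizedModule.mkLinearMap (RingHom.ker ψ).primeCompl M (r • m)) =
      ψ r * Fp (LocalizedModule.mkLinearMap (RingHom.ker ψ).primeCompl M m)
    rw [map_smul, ← hψp r, ← hFp, algebraMap_smul]

/-- **(H2), characteristic-free core, action given by a ring homomorphism.** -/
theorem s29_h2g_core_hom {R : Type*} [CommRing R] {M : Type*} [AddCommGroup M]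
    [Module.Finite ℤ M] (a : R →+* Module.End ℤ M) {k : Type*} [Field k] (ψ : R →+* k)
    (hann : ∀ r : R, a r = 0 → ψ r = 0) :
    ∃ F : M →+ k, F ≠ 0 ∧ ∀ (r : R) (m : M), F (a r m) = ψ r * F m := by
  letI : Module R M := Module.compHom M a
  haveI : IsScalarTower ℤ R M := ⟨fun n r m => by
    show a (n • r) m = n • a r m
    rw [map_zsmul]
    rfl⟩
  haveI : Module.Finite R M := Module.Finite.of_restrictScalars_finite ℤ R M
  obtain ⟨F, hF0, hF⟩ := s29_h2g_core (M := M) ψ (fun r hr => hann r (LinearMap.ext hr))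
  exact ⟨F, hF0, hF⟩

/-- Every additive functional on `Hom(Λ, ℤ)` with values in `k` is the pairing with a unique
element of `k ⊗ Λ` (`Λ` finite free). -/
theorem s29_h2g_ev_exists {Λ : Type*} [AddCommGroup Λ] [Module.Free ℤ Λ] [Module.Finite ℤ Λ]
    {k : Type*} [CommRing k] (F : Module.Dual ℤ Λ →+ k) :
    ∃ w : k ⊗[ℤ] Λ, ∀ f : Module.Dual ℤ Λ, s29_h2_ev k f w = F f := by
  classical
  let b := Module.Free.chooseBasis ℤ Λ
  refine ⟨∑ j, F (b.coord j) • ((1 : k) ⊗ₜ[ℤ] b j), fun f => ?_⟩
  have h1 : F f = ∑ j, f (b j) • F (b.coord j) := by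
    conv_lhs => rw [← b.sum_dual_apply_smul_coord f]
    rw [map_sum]
    exact Finset.sum_congr rfl fun j _ => map_zsmul F _ _
  rw [h1, map_sum]
  refine Finset.sum_congr rfl fun j _ => ?_
  rw [map_smul, s29_h2_ev_tmul, smul_eq_mul, zsmul_eq_mul, zsmul_eq_mul, mul_one, mul_comm]

/-- **(H2), characteristic-free primal form.** `Λ` a finite free `ℤ`-module, `R` a commutative
ring acting on `Λ` through `ρ`, `χ : R → k` a character to ANY field vanishing on `ker ρ`.
Then there is a non-zero `w ∈ k ⊗ Λ` with `ρ r w = χ r • w` for all `r`. -/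
theorem s29_h2g_char {Λ : Type*} [AddCommGroup Λ] [Module.Free ℤ Λ] [Module.Finite ℤ Λ]
    {R : Type*} [CommRing R] (ρ : R →+* Module.End ℤ Λ) {k : Type*} [Field k] (χ : R →+* k)
    (hχ : ∀ r, ρ r = 0 → χ r = 0) :
    ∃ w : k ⊗[ℤ] Λ, w ≠ 0 ∧ ∀ r, (ρ r).baseChange k w = χ r • w := by
  classical
  let b := Module.Free.chooseBasis ℤ Λ
  -- the transposed action on the dual
  let a : R →+* Module.End ℤ (Module.Dual ℤ Λ) :=
    { toFun := fun r => Module.Dual.transpose (ρ r)
      map_one' := by
        rw [map_one]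
        rfl
      map_mul' := fun r s => by
        apply LinearMap.ext
        intro f
        apply LinearMap.ext
        intro x
        show f (ρ (r * s) x) = f (ρ s (ρ r x))
        rw [mul_comm r s, map_mul]
        rfl
      map_zero' := by rw [map_zero, map_zero]
      map_add' := fun r s => by rw [map_add, map_add] }
  have ha : ∀ r (f : Module.Dual ℤ Λ), a r f = f ∘ₗ ρ r := fun r f => rfl
  have hann : ∀ r, a r = 0 → χ r = 0 := by
    intro r hr
    apply hχ
    apply LinearMap.ext
    intro x
    apply b.ext_elem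
    intro j
    have h1 := DFunLike.congr_fun (DFunLike.congr_fun hr (b.coord j)) x
    rw [ha] at h1
    simpa using h1
  obtain ⟨F, hF0, hF⟩ := s29_h2g_core_hom a χ hann
  obtain ⟨w, hw⟩ := s29_h2g_ev_exists F
  refine ⟨w, ?_, ?_⟩
  · intro hw0
    apply hF0
    ext f
    rw [← hw f, hw0, map_zero, AddMonoidHom.zero_apply]
  · intro r
    rw [← sub_eq_zero]
    apply s29_h2_ev_sep k b
    intro j
    rw [map_sub, sub_eq_zero, ← s29_h2_ev_comp, hw, map_smul, hw, smul_eq_mul, ← hF r, ha]

/-- Integral refinement for a domain `𝒪` with fraction field `K` (e.g. a discrete valuation ring):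
the eigenvector can be taken in `𝒪 ⊗ Λ`. -/
theorem s29_h2g_char_int {Λ : Type*} [AddCommGroup Λ] [Module.Free ℤ Λ] [Module.Finite ℤ Λ]
    {R : Type*} [CommRing R] (ρ : R →+* Module.End ℤ Λ) {𝒪 : Type*} [CommRing 𝒪] [IsDomain 𝒪]
    (χ : R →+* 𝒪) (hχ : ∀ r, ρ r = 0 → χ r = 0) :
    ∃ w : 𝒪 ⊗[ℤ] Λ, w ≠ 0 ∧ ∀ r, (ρ r).baseChange 𝒪 w = χ r • w := by
  classical
  let b := Module.Free.chooseBasis ℤ Λ
  obtain ⟨w, hw0, hw⟩ := s29_h2g_char ρ ((algebraMap 𝒪 (FractionRing 𝒪)).comp χ)
    (fun r hr => by rw [RingHom.comp_apply, hχ r hr, map_zero])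
  -- clear denominators of the coordinates of `w`
  obtain ⟨d, hd⟩ := IsLocalization.exist_integer_multiples_of_finite (nonZeroDivisors 𝒪)
    (fun j => s29_h2_ev (FractionRing 𝒪) (b.coord j) w)
  choose c hc using hd
  -- the integral vector with coordinates `c j`
  let F : Module.Dual ℤ Λ →+ 𝒪 :=
    { toFun := fun f => ∑ j, f (b j) • c j
      map_zero' := by simp
      map_add' := fun f g => by
        rw [← Finset.sum_add_distrib]
        exact Finset.sum_congr rfl fun j _ => by rw [LinearMap.add_apply, add_smul] }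
  obtain ⟨w', hw'⟩ := s29_h2g_ev_exists F
  have hd0 : algebraMap 𝒪 (FractionRing 𝒪) (d : 𝒪) ≠ 0 := by
    intro h
    exact (nonZeroDivisors.ne_zero d.2) ((IsFractionRing.injective 𝒪 (FractionRing 𝒪))
      (by rw [h, map_zero]))
  -- key: pairing of `w'` with `f`, mapped to the fraction field, is `d` times that of `w`
  have key : ∀ f : Module.Dual ℤ Λ, algebraMap 𝒪 (FractionRing 𝒪) (s29_h2_ev 𝒪 f w') =
      algebraMap 𝒪 (FractionRing 𝒪) (d : 𝒪) * s29_h2_ev (FractionRing 𝒪) f w := by
    intro f
    rw [hw']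
    show algebraMap 𝒪 (FractionRing 𝒪) (∑ j, f (b j) • c j) = _
    rw [map_sum]
    have h1 : s29_h2_ev (FractionRing 𝒪) f w =
        ∑ j, f (b j) • s29_h2_ev (FractionRing 𝒪) (b.coord j) w := by
      conv_lhs => rw [← b.sum_dual_apply_smul_coord f]
      have h2 : ∀ (t : Finset (Module.Free.ChooseBasisIndex ℤ Λ)),
          s29_h2_ev (FractionRing 𝒪) (∑ j ∈ t, f (b j) • b.coord j) w =
            ∑ j ∈ t, f (b j) • s29_h2_ev (FractionRing 𝒪) (b.coord j) w := by
        intro t
        induction t using Finset.induction_on with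
        | empty =>
          rw [Finset.sum_empty, Finset.sum_empty]
          have h := s29_h2_ev_zsmul (FractionRing 𝒪) (0 : ℤ) (0 : Λ →ₗ[ℤ] ℤ) w
          rw [zero_smul, zero_smul] at h
          exact h
        | insert j t hj ih =>
          rw [Finset.sum_insert hj, Finset.sum_insert hj, s29_h2_ev_add, s29_h2_ev_zsmul, ih]
      exact h2 Finset.univ
    rw [h1, Finset.mul_sum]
    refine Finset.sum_congr rfl fun j _ => ?_
    rw [map_zsmul, hc j, Algebra.smul_def, mul_smul_comm]
  refine ⟨w', ?_, ?_⟩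
  · intro hw0'
    apply hw0
    apply s29_h2_ev_sep (FractionRing 𝒪) b
    intro j
    have h := key (b.coord j)
    rw [hw0', map_zero, map_zero] at h
    exact (mul_eq_zero.mp h.symm).resolve_left hd0
  · intro r
    rw [← sub_eq_zero]
    apply s29_h2_ev_sep 𝒪 b
    intro j
    apply IsFractionRing.injective 𝒪 (FractionRing 𝒪)
    have e1 : s29_h2_ev 𝒪 (b.coord j) ((ρ r).baseChange 𝒪 w' - χ r • w') =
        s29_h2_ev 𝒪 (b.coord j ∘ₗ ρ r) w' - χ r * s29_h2_ev 𝒪 (b.coord j) w' := by
      rw [map_sub, ← s29_h2_ev_comp, map_smul, smul_eq_mul]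
    rw [e1, map_zero, map_sub, map_mul, key, key, s29_h2_ev_comp, hw r, map_smul, smul_eq_mul,
      RingHom.comp_apply]
    ring

end Fermat.Agent.S29
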