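import Fermat.Agent.S29.HeckeLat
import Fermat.Agent.S29.ReduceGen

/-!
# S30 (EIG-O) / (HT3): eigenvectors in the lattice for abstract characters of the Hecke algebra
(helper2)

`Λ = parabolicHoms ℤ (Gamma0 N) ℤ`, `𝕋 = CuspForm.heckeAlgebra N 2 S` with `S` containing the
primes dividing `N`, `Θ = s29_ht_Theta : 𝕋 →+* End_ℤ Λ` (faithful, `HeckeLat.lean`).

* `s29_hec_eig`  : a ring homomorphism `χ : 𝕋 → K` to ANY field has a non-zero eigenvector in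
  `K ⊗ Λ`.
* `s29_hec_eigO` : a ring homomorphism `χ : 𝕋 → 𝒪` to a domain has a non-zero eigenvector in
  `𝒪 ⊗ Λ`.
* `s29_eigO`     : the same in terms of the transfer operators `s29_cp_Tpar` (S30's (EIG-O)).
-/

set_option autoImplicit false
set_option linter.style.haveILetI false

open CongruenceSubgroup ModularCurve ModularCurve.Period ModularForm
open scoped MatrixGroups TensorProduct

namespace Fermat.Agent.S29

/-- **(HT3)** every character of the cusp-form Hecke algebra with values in a field occurs in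
`K ⊗ Λ`. -/
theorem s29_hec_eig (N : ℕ) [NeZero N] (S : Set ℕ) (hNS : ∀ q : ℕ, q.Prime → q ∣ N → q ∈ S)
    {K : Type*} [Field K] (χ : CuspForm.heckeAlgebra N 2 S →+* K) :
    ∃ w : K ⊗[ℤ] ↥(parabolicHoms ℤ (Gamma0 N) ℤ), w ≠ 0 ∧
      ∀ t : CuspForm.heckeAlgebra N 2 S, (s29_ht_Theta N S hNS t).baseChange K w = χ t • w := by
  haveI := s29_pl_fg N
  haveI := s29_pl_finite (Gamma0 N)
  haveI := s29_pl_free (Gamma0 N)
  refine s29_h2g_char (s29_ht_Theta N S hNS) χ (fun r hr => ?_)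
  have h0 : r = 0 := s29_ht_Theta_injective N S hNS (hr.trans (map_zero _).symm)
  rw [h0, map_zero]

/-- every character of the cusp-form Hecke algebra with values in a domain occurs in `𝒪 ⊗ Λ`. -/
theorem s29_hec_eigO (N : ℕ) [NeZero N] (S : Set ℕ) (hNS : ∀ q : ℕ, q.Prime → q ∣ N → q ∈ S)
    {𝒪 : Type*} [CommRing 𝒪] [IsDomain 𝒪] (χ : CuspForm.heckeAlgebra N 2 S →+* 𝒪) :
    ∃ w : 𝒪 ⊗[ℤ] ↥(parabolicHoms ℤ (Gamma0 N) ℤ), w ≠ 0 ∧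
      ∀ t : CuspForm.heckeAlgebra N 2 S, (s29_ht_Theta N S hNS t).baseChange 𝒪 w = χ t • w := by
  haveI := s29_pl_fg N
  haveI := s29_pl_finite (Gamma0 N)
  haveI := s29_pl_free (Gamma0 N)
  refine s29_h2g_char_int (s29_ht_Theta N S hNS) χ (fun r hr => ?_)
  have h0 : r = 0 := s29_ht_Theta_injective N S hNS (hr.trans (map_zero _).symm)
  rw [h0, map_zero]

/-- **(EIG-O)** (S30): a ring homomorphism `χ` from the Hecke algebra away from `S ⊇ {q ∣ N}` to a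
domain `𝒪` has a non-zero eigenvector in `𝒪 ⊗ Λ` for the transfer Hecke operators, with
eigenvalues `χ (T_ℓ)`. -/
theorem s29_eigO (N : ℕ) [NeZero N] (S : Set ℕ) (hNS : ∀ q : ℕ, q.Prime → q ∣ N → q ∈ S)
    {𝒪 : Type} [CommRing 𝒪] [IsDomain 𝒪] (χ : CuspForm.heckeAlgebra N 2 S →+* 𝒪) :
    ∃ w : 𝒪 ⊗[ℤ] ↥(parabolicHoms ℤ (Gamma0 N) ℤ), w ≠ 0 ∧
      ∀ (ℓ : ℕ) (hℓ : ℓ.Prime) (hℓN : ¬ ℓ ∣ N) (hℓS : ℓ ∉ S),
        (s29_cp_Tpar N ℓ hℓ hℓN ℤ ℤ).baseChange 𝒪 w =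
          χ (CuspForm.heckeAlgebra.T hℓ hℓN hℓS) • w := by
  obtain ⟨w, hw0, hw⟩ := s29_hec_eigO N S hNS χ
  refine ⟨w, hw0, fun ℓ hℓ hℓN hℓS => ?_⟩
  rw [← hw, s29_ht_Theta_T]

/-- field version of (EIG-O). -/
theorem s29_eigK (N : ℕ) [NeZero N] (S : Set ℕ) (hNS : ∀ q : ℕ, q.Prime → q ∣ N → q ∈ S)
    {K : Type*} [Field K] (χ : CuspForm.heckeAlgebra N 2 S →+* K) :
    ∃ w : K ⊗[ℤ] ↥(parabolicHoms ℤ (Gamma0 N) ℤ), w ≠ 0 ∧
      ∀ (ℓ : ℕ) (hℓ : ℓ.Prime) (hℓN : ¬ ℓ ∣ N) (hℓS : ℓ ∉ S),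
        (s29_cp_Tpar N ℓ hℓ hℓN ℤ ℤ).baseChange K w =
          χ (CuspForm.heckeAlgebra.T hℓ hℓN hℓS) • w := by
  obtain ⟨w, hw0, hw⟩ := s29_hec_eig N S hNS χ
  refine ⟨w, hw0, fun ℓ hℓ hℓN hℓS => ?_⟩
  rw [← hw, s29_ht_Theta_T]

end Fermat.Agent.S29
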