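import Fermat.Agent.S29.HEig
import Fermat.Prelude.Def_CuspForm_HeckeAlgebra

/-!
# S29/S30/S31 (BRIDGE), block (HT): the cusp-form Hecke algebra acts faithfully on the lattice

`Λ = parabolicHoms ℤ (Gamma0 N) ℤ`, `𝕋 = CuspForm.heckeAlgebra N 2 S` with `S` containing the
primes dividing `N` (so `𝕋` is generated by the `T_ℓ`, `ℓ ∤ N`, `ℓ ∉ S`).

* `s29_ht_Theta` : `𝕋 →+* Module.End ℤ Λ`, `T_ℓ ↦ s29_cp_Tpar N ℓ` (transfer operator),
  characterised through the Eichler–Shimura isomorphism S21 (`s29_ht_Theta_spec`), injective.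
* `s29_ht_finite` : `𝕋` is a finitely generated `ℤ`-module.
* `s29_ht_eig` : every ring homomorphism `χ : 𝕋 → K` to a field has a non-zero eigenvector in
  `K ⊗ Λ`.
* `s29_ht_saturation` : saturation index of `𝕋` in `End Λ` at a prime `p`.
-/

set_option autoImplicit false
set_option linter.style.haveILetI false

open CongruenceSubgroup ModularCurve ModularCurve.Period ModularForm
open scoped MatrixGroups TensorProduct

noncomputable section

namespace Fermat.Agent.S29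

section rel

variable (N : ℕ) [NeZero N]

/-- every integral parabolic homomorphism is a period pair (S21). -/
theorem s29_ht_exists_pair (ψ : ↥(parabolicHoms ℤ (Gamma0 N) ℤ)) :
    ∃ x : CuspForm (Gamma0 N) 2 × CuspForm (Gamma0 N) 2,
      periodHomPair N x = s29_pl_cast (Gamma0 N) ψ := by
  have h : s29_pl_cast (Gamma0 N) ψ ∈ parabolicHoms ℂ (Gamma0 N) ℂ :=
    s29_pl_cast_parabolic _ ψ
  rw [← (Fermat.Agent.S21.result N).2] at h
  exact h

/-- `θ ∈ End Λ` is induced by the endomorphism `t` of `S₂(Γ₀(N))`. -/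
def s29_ht_Rel (t : Module.End ℂ (CuspForm (Gamma0 N) 2))
    (θ : Module.End ℤ ↥(parabolicHoms ℤ (Gamma0 N) ℤ)) : Prop :=
  ∀ (ψ : ↥(parabolicHoms ℤ (Gamma0 N) ℤ)) (x : CuspForm (Gamma0 N) 2 × CuspForm (Gamma0 N) 2),
    periodHomPair N x = s29_pl_cast (Gamma0 N) ψ →
      periodHomPair N (t x.1, t x.2) = s29_pl_cast (Gamma0 N) (θ ψ)

variable {N}

set_option linter.unusedSectionVars false

theorem s29_ht_rel_unique {t : Module.End ℂ (CuspForm (Gamma0 N) 2)}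
    {θ θ' : Module.End ℤ ↥(parabolicHoms ℤ (Gamma0 N) ℤ)} (h : s29_ht_Rel N t θ)
    (h' : s29_ht_Rel N t θ') : θ = θ' := by
  refine LinearMap.ext fun ψ => ?_
  obtain ⟨x, hx⟩ := s29_ht_exists_pair N ψ
  exact s29_pl_cast_injective (Gamma0 N) ((h ψ x hx).symm.trans (h' ψ x hx))

theorem s29_ht_rel_zero : s29_ht_Rel N 0 0 := by
  intro ψ x _
  have e : ((0 : Module.End ℂ (CuspForm (Gamma0 N) 2)) x.1,
      (0 : Module.End ℂ (CuspForm (Gamma0 N) 2)) x.2) =
      (0 : CuspForm (Gamma0 N) 2 × CuspForm (Gamma0 N) 2) := rfl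
  rw [e, map_zero, LinearMap.zero_apply, map_zero]

theorem s29_ht_rel_one : s29_ht_Rel N 1 1 := by
  intro ψ x hx
  simpa using hx

theorem s29_ht_rel_add {t t' : Module.End ℂ (CuspForm (Gamma0 N) 2)}
    {θ θ' : Module.End ℤ ↥(parabolicHoms ℤ (Gamma0 N) ℤ)} (h : s29_ht_Rel N t θ)
    (h' : s29_ht_Rel N t' θ') : s29_ht_Rel N (t + t') (θ + θ') := by
  intro ψ x hx
  have e : ((t + t') x.1, (t + t') x.2) = (t x.1, t x.2) + (t' x.1, t' x.2) := rfl
  rw [e, map_add, h ψ x hx, h' ψ x hx, LinearMap.add_apply, map_add]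

theorem s29_ht_rel_mul {t t' : Module.End ℂ (CuspForm (Gamma0 N) 2)}
    {θ θ' : Module.End ℤ ↥(parabolicHoms ℤ (Gamma0 N) ℤ)} (h : s29_ht_Rel N t θ)
    (h' : s29_ht_Rel N t' θ') : s29_ht_Rel N (t * t') (θ * θ') := by
  intro ψ x hx
  exact h (θ' ψ) (t' x.1, t' x.2) (h' ψ x hx)

theorem s29_ht_rel_int (n : ℤ) :
    s29_ht_Rel N (algebraMap ℤ (Module.End ℂ (CuspForm (Gamma0 N) 2)) n)
      (algebraMap ℤ (Module.End ℤ ↥(parabolicHoms ℤ (Gamma0 N) ℤ)) n) := by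
  intro ψ x hx
  have e : ((algebraMap ℤ (Module.End ℂ (CuspForm (Gamma0 N) 2)) n) x.1,
      (algebraMap ℤ (Module.End ℂ (CuspForm (Gamma0 N) 2)) n) x.2) = n • x := by
    rw [Module.algebraMap_end_apply, Module.algebraMap_end_apply]
    rfl
  rw [e, map_zsmul, hx, Module.algebraMap_end_apply, map_zsmul]

theorem s29_ht_rel_T {ℓ : ℕ} (hℓ : ℓ.Prime) (hℓN : ¬ ℓ ∣ N) :
    s29_ht_Rel N (CuspForm.heckeTLin 2 hℓ hℓN) (s29_cp_Tpar N ℓ hℓ hℓN ℤ ℤ) := by
  intro ψ x hx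
  rw [← s29_cc_T_periodHomPair, hx]
  show s29_ch_T N ℓ hℓ hℓN ℂ ((Int.castAddHom ℂ).comp (ψ : Additive (Gamma0 N) →+ ℤ)) =
    (Int.castAddHom ℂ).comp ((s29_cp_Tpar N ℓ hℓ hℓN ℤ ℤ ψ :
      ↥(parabolicHoms ℤ (Gamma0 N) ℤ)) : Additive (Gamma0 N) →+ ℤ)
  rw [s29_cp_Tpar_coe, s29_ch_T_comp]

end rel

section theta

variable (N : ℕ) [NeZero N] (S : Set ℕ) (hNS : ∀ q : ℕ, q.Prime → q ∣ N → q ∈ S)

include hNS in
theorem s29_ht_exists (t : Module.End ℂ (CuspForm (Gamma0 N) 2))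
    (ht : t ∈ CuspForm.heckeAlgebra N 2 S) :
    ∃ θ : Module.End ℤ ↥(parabolicHoms ℤ (Gamma0 N) ℤ), s29_ht_Rel N t θ := by
  unfold CuspForm.heckeAlgebra at ht
  induction ht using Algebra.adjoin_induction with
  | mem x hx =>
    rcases hx with ⟨ℓ, hℓ, hℓN, -, rfl⟩ | ⟨q, hqN, hq, hqS, rfl⟩
    · exact ⟨_, s29_ht_rel_T hℓ hℓN⟩
    · exact absurd (hNS q hq hqN) hqS
  | algebraMap r => exact ⟨_, s29_ht_rel_int r⟩
  | add x y _ _ hx hy =>
    obtain ⟨θ, hθ⟩ := hx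
    obtain ⟨θ', hθ'⟩ := hy
    exact ⟨_, s29_ht_rel_add hθ hθ'⟩
  | mul x y _ _ hx hy =>
    obtain ⟨θ, hθ⟩ := hx
    obtain ⟨θ', hθ'⟩ := hy
    exact ⟨_, s29_ht_rel_mul hθ hθ'⟩

/-- the underlying function of `s29_ht_Theta`. -/
def s29_ht_ThetaFun (t : CuspForm.heckeAlgebra N 2 S) :
    Module.End ℤ ↥(parabolicHoms ℤ (Gamma0 N) ℤ) :=
  Classical.choose (s29_ht_exists N S hNS t.1 t.2)

theorem s29_ht_ThetaFun_spec (t : CuspForm.heckeAlgebra N 2 S) :
    s29_ht_Rel N (t : Module.End ℂ (CuspForm (Gamma0 N) 2)) (s29_ht_ThetaFun N S hNS t) :=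
  Classical.choose_spec (s29_ht_exists N S hNS t.1 t.2)

/-- **(HT1)** the action of the cusp-form Hecke algebra on the lattice `Λ`. -/
def s29_ht_Theta :
    CuspForm.heckeAlgebra N 2 S →+* Module.End ℤ ↥(parabolicHoms ℤ (Gamma0 N) ℤ) where
  toFun := s29_ht_ThetaFun N S hNS
  map_one' := s29_ht_rel_unique (s29_ht_ThetaFun_spec N S hNS 1) s29_ht_rel_one
  map_mul' a b := s29_ht_rel_unique (s29_ht_ThetaFun_spec N S hNS (a * b))
    (s29_ht_rel_mul (s29_ht_ThetaFun_spec N S hNS a) (s29_ht_ThetaFun_spec N S hNS b))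
  map_zero' := s29_ht_rel_unique (s29_ht_ThetaFun_spec N S hNS 0) s29_ht_rel_zero
  map_add' a b := s29_ht_rel_unique (s29_ht_ThetaFun_spec N S hNS (a + b))
    (s29_ht_rel_add (s29_ht_ThetaFun_spec N S hNS a) (s29_ht_ThetaFun_spec N S hNS b))

/-- characterisation of `s29_ht_Theta` through the Eichler–Shimura isomorphism. -/
theorem s29_ht_Theta_spec (t : CuspForm.heckeAlgebra N 2 S) :
    s29_ht_Rel N (t : Module.End ℂ (CuspForm (Gamma0 N) 2)) (s29_ht_Theta N S hNS t) :=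
  s29_ht_ThetaFun_spec N S hNS t

theorem s29_ht_Theta_eq (t : CuspForm.heckeAlgebra N 2 S)
    (θ : Module.End ℤ ↥(parabolicHoms ℤ (Gamma0 N) ℤ))
    (h : s29_ht_Rel N (t : Module.End ℂ (CuspForm (Gamma0 N) 2)) θ) :
    s29_ht_Theta N S hNS t = θ :=
  s29_ht_rel_unique (s29_ht_Theta_spec N S hNS t) h

/-- `Θ(T_ℓ)` is the transfer Hecke operator on `Λ`. -/
theorem s29_ht_Theta_T {ℓ : ℕ} (hℓ : ℓ.Prime) (hℓN : ¬ ℓ ∣ N) (hℓS : ℓ ∉ S) :
    s29_ht_Theta N S hNS (CuspForm.heckeAlgebra.T hℓ hℓN hℓS) = s29_cp_Tpar N ℓ hℓ hℓN ℤ ℤ :=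
  s29_ht_Theta_eq N S hNS _ _ (s29_ht_rel_T hℓ hℓN)

/-- an endomorphism inducing `0` on the lattice is `0`. -/
theorem s29_ht_rel_zero_imp {t : Module.End ℂ (CuspForm (Gamma0 N) 2)}
    (h : s29_ht_Rel N t 0) : t = 0 := by
  haveI := s29_pl_fg N
  have hinj := (Fermat.Agent.S21.result N).1
  have hrange := (Fermat.Agent.S21.result N).2
  have key : ∀ (v : ℂ ⊗[ℤ] ↥(parabolicHoms ℤ (Gamma0 N) ℤ))
      (x : CuspForm (Gamma0 N) 2 × CuspForm (Gamma0 N) 2),
      periodHomPair N x = s29_pl_Phi (Gamma0 N) v → t x.1 = 0 ∧ t x.2 = 0 := by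
    intro v
    induction v using TensorProduct.induction_on with
    | zero =>
      intro x hx
      rw [map_zero] at hx
      have hx0 : x = 0 := hinj (hx.trans (map_zero _).symm)
      rw [hx0]
      exact ⟨map_zero _, map_zero _⟩
    | tmul c ψ =>
      intro x hx
      obtain ⟨y, hy⟩ := s29_ht_exists_pair N ψ
      have h1 := h ψ y hy
      rw [LinearMap.zero_apply, map_zero] at h1
      have h2 : (t y.1, t y.2) = 0 := hinj (h1.trans (map_zero _).symm)
      have h3 : x = c • y := by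
        apply hinj
        rw [hx, s29_pl_Phi_tmul, map_smul, hy]
      have h2a : t y.1 = 0 := congrArg Prod.fst h2
      have h2b : t y.2 = 0 := congrArg Prod.snd h2
      rw [h3]
      exact ⟨by rw [Prod.smul_fst, map_smul, h2a, smul_zero],
        by rw [Prod.smul_snd, map_smul, h2b, smul_zero]⟩
    | add v v' hv hv' =>
      intro x hx
      have hpar : s29_pl_Phi (Gamma0 N) v ∈ parabolicHoms ℂ (Gamma0 N) ℂ :=
        s29_pl_Phi_parabolic (Gamma0 N) v
      rw [← hrange] at hpar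
      obtain ⟨x', hx'⟩ := hpar
      have h1 := hv x' hx'
      have h2 := hv' (x - x') (by rw [map_sub, hx, hx', map_add, add_sub_cancel_left])
      have e1 : x.1 = x'.1 + (x - x').1 := by rw [Prod.fst_sub]; abel
      have e2 : x.2 = x'.2 + (x - x').2 := by rw [Prod.snd_sub]; abel
      exact ⟨by rw [e1, map_add, h1.1, h2.1, add_zero], by rw [e2, map_add, h1.2, h2.2, add_zero]⟩
  refine LinearMap.ext fun f => ?_
  have hpar : periodHomPair N (f, 0) ∈ parabolicHoms ℂ (Gamma0 N) ℂ := by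
    rw [← hrange]
    exact ⟨_, rfl⟩
  obtain ⟨v, hv⟩ := s29_pl_Phi_surj (Gamma0 N) _ hpar
  exact (key v (f, 0) hv.symm).1

/-- **(HT1)** the Hecke algebra acts faithfully on the lattice. -/
theorem s29_ht_Theta_injective : Function.Injective (s29_ht_Theta N S hNS) := by
  rw [injective_iff_map_eq_zero]
  intro t ht
  have h := s29_ht_Theta_spec N S hNS t
  rw [ht] at h
  exact Subtype.ext (s29_ht_rel_zero_imp N h)

include hNS in
/-- **(HT2)** the cusp-form Hecke algebra is a finitely generated `ℤ`-module. -/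
theorem s29_ht_finite : Module.Finite ℤ (CuspForm.heckeAlgebra N 2 S) := by
  haveI := s29_pl_fg N
  haveI := s29_pl_finite (Gamma0 N)
  haveI := s29_pl_free (Gamma0 N)
  exact Module.Finite.of_injective (s29_ht_Theta N S hNS).toAddMonoidHom.toIntLinearMap
    (s29_ht_Theta_injective N S hNS)

include hNS in
/-- **(HT2)** the cusp-form Hecke algebra is a free `ℤ`-module. -/
theorem s29_ht_free : Module.Free ℤ (CuspForm.heckeAlgebra N 2 S) := by
  haveI := s29_ht_finite N S hNS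
  exact Module.free_of_finite_type_torsion_free'

end theta

end Fermat.Agent.S29
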