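import Fermat.Agent.S29.HeckeLat

/-!
# S30/S31 (BRIDGE), block (HT3): eigenvectors for abstract characters of the Hecke algebra

A commutative ring `R` acting faithfully on a finite free `ℤ`-module `L` (`Θ : R →+* End L`
injective) and any ring homomorphism `χ : R → K` to a field (any characteristic): there is a
non-zero `w ∈ K ⊗ L` with `Θ(r) w = χ(r) w` for all `r`.  (The dual `Hom(L, ℤ)` is a faithful
finite `R`-module, so `ker χ` lies in its support; a functional on the fibre gives the eigenvector.)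

Applied to `R = CuspForm.heckeAlgebra N 2 S` acting on `Λ = parabolicHoms ℤ (Gamma0 N) ℤ`.
-/

set_option autoImplicit false
set_option linter.style.haveILetI false

open CongruenceSubgroup ModularCurve ModularCurve.Period ModularForm
open scoped MatrixGroups TensorProduct

noncomputable section

namespace Fermat.Agent.S29

/-- eigenfunctional on the dual, for a faithful action and an arbitrary character. -/
theorem s29_ht_eig_dual {L : Type*} [AddCommGroup L] [Module.Free ℤ L] [Module.Finite ℤ L]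
    {R : Type*} [CommRing R] (Θ : R →+* Module.End ℤ L) (hΘ : Function.Injective Θ)
    {K : Type*} [Field K] (χ : R →+* K) :
    ∃ F : Module.Dual ℤ L →+ K, F ≠ 0 ∧
      ∀ (r : R) (f : Module.Dual ℤ L), F (f ∘ₗ Θ r) = χ r * F f := by
  classical
  -- the `R`-module structure on the dual by transposes
  let ρ : R →+* Module.End ℤ (Module.Dual ℤ L) :=
    { toFun := fun r => Module.Dual.transpose (Θ r)
      map_one' := by
        rw [map_one]
        exact LinearMap.ext fun f => LinearMap.ext fun x => rfl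
      map_mul' := fun r s => by
        refine LinearMap.ext fun f => LinearMap.ext fun x => ?_
        show f (Θ (r * s) x) = f (Θ s (Θ r x))
        rw [mul_comm r s, map_mul]
        rfl
      map_zero' := by
        rw [map_zero]
        exact LinearMap.ext fun f => LinearMap.ext fun x => by
          show f ((0 : Module.End ℤ L) x) = 0
          rw [LinearMap.zero_apply, map_zero]
      map_add' := fun r s => by
        refine LinearMap.ext fun f => LinearMap.ext fun x => ?_
        show f (Θ (r + s) x) = f (Θ r x) + f (Θ s x)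
        rw [map_add, LinearMap.add_apply, map_add] }
  letI : Module R (Module.Dual ℤ L) := Module.compHom _ ρ
  have hsmul : ∀ (r : R) (f : Module.Dual ℤ L), r • f = f ∘ₗ Θ r := fun r f => rfl
  haveI : Module.Finite R (Module.Dual ℤ L) := Module.Finite.of_restrictScalars_finite ℤ R _
  -- the action on the dual is faithful
  have hann : Module.annihilator R (Module.Dual ℤ L) = ⊥ := by
    rw [eq_bot_iff]
    intro r hr
    rw [Module.mem_annihilator] at hr
    rw [Ideal.mem_bot]
    apply hΘ
    rw [map_zero]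
    refine LinearMap.ext fun x => ?_
    rw [LinearMap.zero_apply]
    apply (Module.forall_dual_apply_eq_zero_iff ℤ (Θ r x)).mp
    intro f
    have h1 := hr f
    rw [hsmul] at h1
    exact DFunLike.congr_fun h1 x
  haveI hprime : (RingHom.ker χ).IsPrime := RingHom.ker_isPrime χ
  let P : PrimeSpectrum R := ⟨RingHom.ker χ, hprime⟩
  have hsupp : P ∈ Module.support R (Module.Dual ℤ L) := by
    rw [Module.mem_support_iff_of_finite, hann]
    exact bot_le
  haveI hnt : Nontrivial ((RingHom.ker χ).ResidueField ⊗[R] Module.Dual ℤ L) :=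
    (Module.mem_support_iff_nontrivial_residueField_tensorProduct P).mp hsupp
  obtain ⟨x, hx⟩ := exists_ne (0 : (RingHom.ker χ).ResidueField ⊗[R] Module.Dual ℤ L)
  obtain ⟨φ, hφ⟩ : ∃ φ : Module.Dual (RingHom.ker χ).ResidueField
      ((RingHom.ker χ).ResidueField ⊗[R] Module.Dual ℤ L), φ x ≠ 0 := by
    by_contra hcon
    push Not at hcon
    exact hx ((Module.forall_dual_apply_eq_zero_iff (RingHom.ker χ).ResidueField x).mp hcon)
  -- the embedding of the residue field into `K`
  let ι : (RingHom.ker χ).ResidueField →+* K :=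
    Ideal.ResidueField.lift (RingHom.ker χ) χ le_rfl (by
      intro r hr
      show IsUnit (χ r)
      exact isUnit_iff_ne_zero.mpr fun h0 => hr h0)
  have hι : ∀ r : R, ι (algebraMap R (RingHom.ker χ).ResidueField r) = χ r :=
    fun r => Ideal.ResidueField.lift_algebraMap _ _ _ _ r
  let F : Module.Dual ℤ L →+ K :=
    { toFun := fun f => ι (φ ((1 : (RingHom.ker χ).ResidueField) ⊗ₜ[R] f))
      map_zero' := by rw [TensorProduct.tmul_zero, map_zero, map_zero]
      map_add' := fun f g => by rw [TensorProduct.tmul_add, map_add, map_add] }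
  refine ⟨F, ?_, ?_⟩
  · intro hF0
    apply hφ
    have h1 : ∀ f : Module.Dual ℤ L,
        φ ((1 : (RingHom.ker χ).ResidueField) ⊗ₜ[R] f) = 0 := by
      intro f
      have h2 : ι (φ ((1 : (RingHom.ker χ).ResidueField) ⊗ₜ[R] f)) = 0 :=
        DFunLike.congr_fun hF0 f
      exact (map_eq_zero ι).mp h2
    have hall : ∀ y : (RingHom.ker χ).ResidueField ⊗[R] Module.Dual ℤ L, φ y = 0 := by
      intro y
      induction y using TensorProduct.induction_on with
      | zero => exact map_zero φ
      | tmul c f =>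
        have e : c ⊗ₜ[R] f = c • ((1 : (RingHom.ker χ).ResidueField) ⊗ₜ[R] f) := by
          rw [TensorProduct.smul_tmul', smul_eq_mul, mul_one]
        rw [e, map_smul, h1, smul_zero]
      | add y z hy hz => rw [map_add, hy, hz, add_zero]
    exact hall x
  · intro r f
    show ι (φ ((1 : (RingHom.ker χ).ResidueField) ⊗ₜ[R] (f ∘ₗ Θ r))) =
      χ r * ι (φ ((1 : (RingHom.ker χ).ResidueField) ⊗ₜ[R] f))
    have e : (1 : (RingHom.ker χ).ResidueField) ⊗ₜ[R] (f ∘ₗ Θ r) =
        algebraMap R (RingHom.ker χ).ResidueField r •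
          ((1 : (RingHom.ker χ).ResidueField) ⊗ₜ[R] f) := by
      rw [← hsmul, TensorProduct.tmul_smul, TensorProduct.smul_tmul', TensorProduct.smul_tmul',
        smul_eq_mul, mul_one, Algebra.smul_def, mul_one]
    rw [e, map_smul, smul_eq_mul, map_mul, hι]

/-- **(HT3), abstract form.** A commutative ring acting faithfully on a finite free `ℤ`-module:
every character to a field has a non-zero eigenvector after base change. -/
theorem s29_ht_eig_abs {L : Type*} [AddCommGroup L] [Module.Free ℤ L] [Module.Finite ℤ L]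
    {R : Type*} [CommRing R] (Θ : R →+* Module.End ℤ L) (hΘ : Function.Injective Θ)
    {K : Type*} [Field K] (χ : R →+* K) :
    ∃ w : K ⊗[ℤ] L, w ≠ 0 ∧ ∀ r : R, (Θ r).baseChange K w = χ r • w := by
  classical
  obtain ⟨F, hF0, hF⟩ := s29_ht_eig_dual Θ hΘ χ
  let b := Module.Free.chooseBasis ℤ L
  let w : K ⊗[ℤ] L := ∑ j, F (b.coord j) • ((1 : K) ⊗ₜ[ℤ] b j)
  have hw : ∀ f : Module.Dual ℤ L, s29_h2_ev K f w = F f := by
    intro f
    have h1 : F f = ∑ j, f (b j) • F (b.coord j) := by
      conv_lhs => rw [← b.sum_dual_apply_smul_coord f]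
      rw [map_sum]
      exact Finset.sum_congr rfl fun j _ => map_zsmul F _ _
    rw [h1]
    show s29_h2_ev K f (∑ j, F (b.coord j) • ((1 : K) ⊗ₜ[ℤ] b j)) = _
    rw [map_sum]
    refine Finset.sum_congr rfl fun j _ => ?_
    rw [map_smul, s29_h2_ev_tmul, smul_eq_mul, zsmul_eq_mul, zsmul_eq_mul, mul_one, mul_comm]
  refine ⟨w, ?_, ?_⟩
  · intro hw0
    apply hF0
    ext f
    rw [← hw f, hw0, map_zero, AddMonoidHom.zero_apply]
  · intro r
    rw [← sub_eq_zero]
    apply s29_h2_ev_sep K b
    intro j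
    rw [map_sub, sub_eq_zero, ← s29_h2_ev_comp, hw, map_smul, hw, smul_eq_mul, hF]

/-- **(HT3)** every ring homomorphism from the cusp-form Hecke algebra (away from `S ⊇` primes of
`N`) to a field has a non-zero eigenvector in `K ⊗ Λ`. -/
theorem s29_ht_eig (N : ℕ) [NeZero N] (S : Set ℕ) (hNS : ∀ q : ℕ, q.Prime → q ∣ N → q ∈ S)
    {K : Type*} [Field K] (χ : CuspForm.heckeAlgebra N 2 S →+* K) :
    ∃ w : K ⊗[ℤ] ↥(parabolicHoms ℤ (Gamma0 N) ℤ), w ≠ 0 ∧
      ∀ t : CuspForm.heckeAlgebra N 2 S, (s29_ht_Theta N S hNS t).baseChange K w = χ t • w := by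
  haveI := s29_pl_fg N
  haveI := s29_pl_finite (Gamma0 N)
  haveI := s29_pl_free (Gamma0 N)
  exact s29_ht_eig_abs (s29_ht_Theta N S hNS) (s29_ht_Theta_injective N S hNS) χ

/-- **(HT3)** in terms of the transfer operators `T_ℓ^coh`. -/
theorem s29_ht_eig_T (N : ℕ) [NeZero N] (S : Set ℕ) (hNS : ∀ q : ℕ, q.Prime → q ∣ N → q ∈ S)
    {K : Type*} [Field K] (χ : CuspForm.heckeAlgebra N 2 S →+* K) :
    ∃ w : K ⊗[ℤ] ↥(parabolicHoms ℤ (Gamma0 N) ℤ), w ≠ 0 ∧
      ∀ (ℓ : ℕ) (hℓ : ℓ.Prime) (hℓN : ¬ ℓ ∣ N) (hℓS : ℓ ∉ S),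
        (s29_cp_Tpar N ℓ hℓ hℓN ℤ ℤ).baseChange K w =
          χ (CuspForm.heckeAlgebra.T hℓ hℓN hℓS) • w := by
  obtain ⟨w, hw0, hw⟩ := s29_ht_eig N S hNS χ
  refine ⟨w, hw0, fun ℓ hℓ hℓN hℓS => ?_⟩
  rw [← s29_ht_Theta_T N S hNS hℓ hℓN hℓS]
  exact hw _

end Fermat.Agent.S29
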