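import Fermat.Agent.S29.HeckeLat

/-!
# S31 (BRIDGE), block (HT4): saturation index of the Hecke algebra in `End Λ`

For a subgroup `B` of a finitely generated abelian group `E` and a natural number `p` there is
`c` with `p ^ (n + c) • e ∈ B → p ^ c • e ∈ B` for all `n`, `e` (the `p`-power torsion of `E / B`
is killed by `p ^ c`).  Applied to `B = Θ(𝕋) ⊆ E = End Λ`:  if `Θ(t)` is divisible by `p ^ (n + c)`
in `End Λ` then `t` is divisible by `p ^ n` in `𝕋`.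
-/

set_option autoImplicit false
set_option linter.style.haveILetI false

open CongruenceSubgroup ModularCurve ModularCurve.Period ModularForm
open scoped MatrixGroups TensorProduct

noncomputable section

namespace Fermat.Agent.S29

/-- abstract saturation lemma. -/
theorem s29_ht_sat_abs {E : Type*} [AddCommGroup E] [Module.Finite ℤ E] (B : Submodule ℤ E)
    (p : ℕ) :
    ∃ c : ℕ, ∀ (n : ℕ) (e : E), ((p : ℤ) ^ (n + c)) • e ∈ B → ((p : ℤ) ^ c) • e ∈ B := by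
  haveI : IsNoetherian ℤ (E ⧸ B) := inferInstance
  let K : ℕ →o Submodule ℤ (E ⧸ B) :=
    { toFun := fun k => LinearMap.ker (((p : ℤ) ^ k) • (LinearMap.id : (E ⧸ B) →ₗ[ℤ] (E ⧸ B)))
      monotone' := by
        intro a b hab x hx
        rw [LinearMap.mem_ker, LinearMap.smul_apply, LinearMap.id_apply] at hx ⊢
        obtain ⟨d, rfl⟩ := Nat.exists_eq_add_of_le hab
        rw [pow_add, mul_comm, mul_smul, hx, smul_zero] }
  obtain ⟨c, hc⟩ := monotone_stabilizes_iff_noetherian.mpr (inferInstance : IsNoetherian ℤ (E ⧸ B)) K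
  refine ⟨c, fun n e he => ?_⟩
  have h1 : Submodule.Quotient.mk e ∈ K (n + c) := by
    show Submodule.Quotient.mk e ∈
      LinearMap.ker (((p : ℤ) ^ (n + c)) • (LinearMap.id : (E ⧸ B) →ₗ[ℤ] (E ⧸ B)))
    rw [LinearMap.mem_ker, LinearMap.smul_apply, LinearMap.id_apply, ← Submodule.Quotient.mk_smul,
      Submodule.Quotient.mk_eq_zero]
    exact he
  rw [← hc (n + c) (Nat.le_add_left c n)] at h1
  have h2 : Submodule.Quotient.mk e ∈
      LinearMap.ker (((p : ℤ) ^ c) • (LinearMap.id : (E ⧸ B) →ₗ[ℤ] (E ⧸ B))) := h1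
  rw [LinearMap.mem_ker, LinearMap.smul_apply, LinearMap.id_apply, ← Submodule.Quotient.mk_smul,
    Submodule.Quotient.mk_eq_zero] at h2
  exact h2

/-- **(HT4)** saturation index of the Hecke algebra in `End Λ`. -/
theorem s29_ht_saturation (N : ℕ) [NeZero N] (S : Set ℕ)
    (hNS : ∀ q : ℕ, q.Prime → q ∣ N → q ∈ S) (p : ℕ) :
    ∃ c : ℕ, ∀ (n : ℕ) (t : CuspForm.heckeAlgebra N 2 S),
      (∃ e : Module.End ℤ ↥(parabolicHoms ℤ (Gamma0 N) ℤ),
        s29_ht_Theta N S hNS t = ((p : ℤ) ^ (n + c)) • e) →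
      ∃ t' : CuspForm.heckeAlgebra N 2 S, t = ((p : ℤ) ^ n) • t' := by
  haveI := s29_pl_fg N
  haveI := s29_pl_finite (Gamma0 N)
  haveI := s29_pl_free (Gamma0 N)
  haveI : Module.Finite ℤ (Module.End ℤ ↥(parabolicHoms ℤ (Gamma0 N) ℤ)) :=
    Module.Finite.linearMap ℤ ℤ _ _
  obtain ⟨c, hc⟩ := s29_ht_sat_abs
    (LinearMap.range (s29_ht_Theta N S hNS).toAddMonoidHom.toIntLinearMap) p
  refine ⟨c, fun n t ⟨e, he⟩ => ?_⟩
  have h1 : ((p : ℤ) ^ (n + c)) • e ∈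
      LinearMap.range (s29_ht_Theta N S hNS).toAddMonoidHom.toIntLinearMap :=
    ⟨t, he⟩
  obtain ⟨t', ht'⟩ := hc n e h1
  have ht'' : s29_ht_Theta N S hNS t' = ((p : ℤ) ^ c) • e := ht'
  refine ⟨t', s29_ht_Theta_injective N S hNS ?_⟩
  rw [he, map_zsmul, ht'', smul_smul, pow_add]

/-- **(HT4)**, pointwise form: if `Θ(t) Λ ⊆ p ^ (n + c) Λ` then `t ∈ p ^ n 𝕋`. -/
theorem s29_ht_saturation' (N : ℕ) [NeZero N] (S : Set ℕ)
    (hNS : ∀ q : ℕ, q.Prime → q ∣ N → q ∈ S) (p : ℕ) :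
    ∃ c : ℕ, ∀ (n : ℕ) (t : CuspForm.heckeAlgebra N 2 S),
      (∀ ψ : ↥(parabolicHoms ℤ (Gamma0 N) ℤ), ∃ ψ' : ↥(parabolicHoms ℤ (Gamma0 N) ℤ),
        s29_ht_Theta N S hNS t ψ = ((p : ℤ) ^ (n + c)) • ψ') →
      ∃ t' : CuspForm.heckeAlgebra N 2 S, t = ((p : ℤ) ^ n) • t' := by
  classical
  haveI := s29_pl_fg N
  haveI := s29_pl_finite (Gamma0 N)
  haveI := s29_pl_free (Gamma0 N)
  obtain ⟨c, hc⟩ := s29_ht_saturation N S hNS p
  refine ⟨c, fun n t h => hc n t ?_⟩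
  let b := Module.Free.chooseBasis ℤ ↥(parabolicHoms ℤ (Gamma0 N) ℤ)
  refine ⟨b.constr ℤ (fun j => Classical.choose (h (b j))), ?_⟩
  apply b.ext
  intro j
  rw [LinearMap.smul_apply, Module.Basis.constr_basis]
  exact Classical.choose_spec (h (b j))

end Fermat.Agent.S29
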