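import Fermat.Agent.S29.MerField
import Fermat.Agent.S29.CohHecke

/-!
# S29 (BRIDGE), block A4: the character of `∏ G ∘ δ_i`

`δ_i` the coset representatives of `T_l` (`CohHecke.lean`), as elements of `GL₂⁺(ℝ)`.
If a meromorphic function `G` on the upper half plane satisfies `G(γτ) = c(γ) G(τ)` for
`γ ∈ Γ₀(N)` (constants `c(γ)`), then `G' := ∏_i G ∘ δ_i` satisfies
`G'(γτ) = (∏_i c(γ_i)) G'(τ)`, where `δ_i γ = γ_i δ_{σ(i)}`.
-/

set_option autoImplicit false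

open UpperHalfPlane CongruenceSubgroup
open scoped MatrixGroups

noncomputable section

namespace Fermat.Agent.S29

/-- the coset representatives of `T_l` as elements of `GL₂⁺(ℝ)`. -/
def s29_kh_delta (l : ℕ) (hl : l ≠ 0) (i : Option (Fin l)) : GL(2, ℝ)⁺ :=
  ⟨s29_ch_delta l i, by
    rw [Matrix.mem_glpos, Matrix.GeneralLinearGroup.val_det_apply, s29_ch_delta_val hl]
    have hl' : (0 : ℝ) < l := by exact_mod_cast Nat.pos_of_ne_zero hl
    cases i with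
    | none => simp [s29_ch_deltaZ, Matrix.det_fin_two, hl']
    | some j => simp [s29_ch_deltaZ, Matrix.det_fin_two, hl']⟩

theorem s29_kh_delta_coe (l : ℕ) (hl : l ≠ 0) (i : Option (Fin l)) :
    ((s29_kh_delta l hl i : GL(2, ℝ)⁺) : GL (Fin 2) ℝ) = s29_ch_delta l i := rfl

theorem s29_kh_sl_coe (γ : SL(2, ℤ)) :
    ((s29_sl γ : GL(2, ℝ)⁺) : GL (Fin 2) ℝ) = ((γ : SL(2, ℤ)) : GL (Fin 2) ℝ) := rfl

/-- `δ_i γ = γ_i δ_{σ(i)}` in `GL₂⁺(ℝ)`. -/
theorem s29_kh_spec (N l : ℕ) (hl : l.Prime) (hlN : ¬ l ∣ N) (γ : Gamma0 N)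
    (i : Option (Fin l)) :
    s29_kh_delta l hl.ne_zero i * s29_sl (γ : SL(2, ℤ)) =
      s29_sl (s29_ch_coc N l hl hlN γ i : SL(2, ℤ)) *
        s29_kh_delta l hl.ne_zero (s29_ch_perm N l hl hlN γ i) :=
  Subtype.ext (s29_ch_spec N l hl hlN γ i)

/-- the product `∏_i G ∘ δ_i`. -/
def s29_kh_prod (l : ℕ) (hl : l ≠ 0) (G : s29_Mer) : s29_Mer :=
  ∏ i : Option (Fin l), (s29_kh_delta l hl i)⁻¹ • G

theorem s29_kh_prod_mul (l : ℕ) (hl : l ≠ 0) (G H : s29_Mer) :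
    s29_kh_prod l hl (G * H) = s29_kh_prod l hl G * s29_kh_prod l hl H := by
  simp only [s29_kh_prod, smul_mul', Finset.prod_mul_distrib]

theorem s29_kh_prod_pow (l : ℕ) (hl : l ≠ 0) (G : s29_Mer) (m : ℕ) :
    s29_kh_prod l hl (G ^ m) = s29_kh_prod l hl G ^ m := by
  simp only [s29_kh_prod, smul_pow', Finset.prod_pow]

theorem s29_kh_prod_ne_zero (l : ℕ) (hl : l ≠ 0) {G : s29_Mer} (hG : G ≠ 0) :
    s29_kh_prod l hl G ≠ 0 := by
  rw [s29_kh_prod, Finset.prod_ne_zero_iff]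
  intro i _
  exact (smul_ne_zero_iff_ne _).2 hG

/-- **the character of `∏_i G ∘ δ_i`**. -/
theorem s29_kh_char (N l : ℕ) (hl : l.Prime) (hlN : ¬ l ∣ N) (G : s29_Mer) (c : Gamma0 N → ℂ)
    (hG : ∀ γ : Gamma0 N,
      ((γ : SL(2, ℤ))⁻¹) • G = algebraMap ℂ s29_Mer (c γ) * G) (γ : Gamma0 N) :
    ((γ : SL(2, ℤ))⁻¹) • s29_kh_prod l hl.ne_zero G =
      algebraMap ℂ s29_Mer (∏ i : Option (Fin l), c (s29_ch_coc N l hl hlN γ i)) *
        s29_kh_prod l hl.ne_zero G := by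
  have key : ∀ i : Option (Fin l),
      ((γ : SL(2, ℤ))⁻¹) • ((s29_kh_delta l hl.ne_zero i)⁻¹ • G) =
        algebraMap ℂ s29_Mer (c (s29_ch_coc N l hl hlN γ i)) *
          (s29_kh_delta l hl.ne_zero (s29_ch_perm N l hl hlN γ i))⁻¹ • G := by
    intro i
    have h1 : (s29_sl (γ : SL(2, ℤ)))⁻¹ * (s29_kh_delta l hl.ne_zero i)⁻¹ =
        (s29_kh_delta l hl.ne_zero (s29_ch_perm N l hl hlN γ i))⁻¹ *
          (s29_sl (s29_ch_coc N l hl hlN γ i : SL(2, ℤ)))⁻¹ := by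
      rw [← mul_inv_rev, ← mul_inv_rev, s29_kh_spec N l hl hlN γ i]
    have h2 := hG (s29_ch_coc N l hl hlN γ i)
    rw [s29_sl_smul_def, map_inv] at h2
    rw [s29_sl_smul_def, map_inv, smul_smul, h1, mul_smul, h2, smul_mul', s29_smul_const]
  rw [s29_kh_prod, Finset.smul_prod']
  simp only [key]
  rw [Finset.prod_mul_distrib, map_prod]
  congr 1
  exact Equiv.prod_comp (s29_ch_perm N l hl hlN γ)
    (fun j => (s29_kh_delta l hl.ne_zero j)⁻¹ • G)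

end Fermat.Agent.S29
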