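import Fermat.Agent.S29.MerEmb
import Fermat.Agent.S29.KapHeckeChar
import Fermat.Prelude.Def_ModularCurve_HeckeOperator
import Fermat.Prelude.Thm_ModularCurve_coeffMap_qExpand

/-!
# S29 (BRIDGE), block A4: the degeneracy maps `α, β : F_N → F_{Nℓ}` in the analytic realisation

* `s29_kh_an_alpha` : `s29_an (N * ℓ) (α f) = s29_an N f`;
* `s29_kh_an_beta`  : `s29_an (N * ℓ) (β f) = δ_∞⁻¹ • s29_an N f` (`= (s29_an N f)(ℓ τ)`).
-/

set_option autoImplicit false
set_option linter.unusedSectionVars false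

open UpperHalfPlane ModularCurve
open scoped MatrixGroups Manifold

noncomputable section

namespace Fermat.Agent.S29

open Fermat.Agent.S24
open CongruenceSubgroup

attribute [local instance] algKC

/-- the transfer field: the Laurent series `s = expL N x` for which there is `y ∈ ModL M` with
analytic realisation `Φ (x)` and expansion `qExpand k s`. -/
def s29_kh_trField (N M k : ℕ) [NeZero N] [NeZero M] [NeZero k] (Φ : s29_Mer →+* s29_Mer)
    (hΦ : ∀ c : ℂ, Φ (algebraMap ℂ s29_Mer c) = algebraMap ℂ s29_Mer c) :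
    IntermediateField Kbar (LaurentSeries Kbar) where
  carrier := {s | ∃ (x : ModL N) (y : ModL M), expL N x = s ∧
    s29_ofModL M y = Φ (s29_ofModL N x) ∧ expL M y = qExpand Kbar k s}
  mul_mem' := by
    rintro a b ⟨x, y, h1, h2, h3⟩ ⟨x', y', h1', h2', h3'⟩
    refine ⟨x * x', y * y', ?_, ?_, ?_⟩
    · rw [map_mul, h1, h1']
    · rw [map_mul, map_mul, map_mul, h2, h2']
    · rw [map_mul, map_mul, h3, h3']
  one_mem' := ⟨1, 1, map_one _, by rw [map_one, map_one, map_one], by rw [map_one, map_one]⟩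
  add_mem' := by
    rintro a b ⟨x, y, h1, h2, h3⟩ ⟨x', y', h1', h2', h3'⟩
    refine ⟨x + x', y + y', ?_, ?_, ?_⟩
    · rw [map_add, h1, h1']
    · rw [RingHom.map_add, RingHom.map_add, RingHom.map_add, h2, h2']
    · rw [map_add, RingHom.map_add, h3, h3']
  zero_mem' := ⟨0, 0, map_zero _, by rw [map_zero, map_zero, map_zero], by rw [map_zero, map_zero]⟩
  algebraMap_mem' := by
    intro c
    refine ⟨algebraMap Kbar (ModL N) c, algebraMap Kbar (ModL M) c, ?_, ?_, ?_⟩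
    · exact (expL N).commutes c
    · rw [s29_ofModL_const, s29_ofModL_const, hΦ]
    · rw [(expL M).commutes c]
      show _ = qExpand Kbar k (algebraMap Kbar (LaurentSeries Kbar) c)
      rw [algebraMap_laurentSeries_eq_single, qExpand_single, mul_zero]
  inv_mem' := by
    rintro a ⟨x, y, h1, h2, h3⟩
    refine ⟨x⁻¹, y⁻¹, ?_, ?_, ?_⟩
    · rw [map_inv₀, h1]
    · rw [map_inv₀, map_inv₀, map_inv₀, h2]
    · rw [map_inv₀, map_inv₀, h3]

/-- the transfer principle: a relation between analytic realisations checked on the generators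
`J(dτ)`, `d ∣ N`. -/
theorem s29_kh_transfer (N M k : ℕ) [NeZero N] [NeZero M] [NeZero k] (Φ : s29_Mer →+* s29_Mer)
    (hΦ : ∀ c : ℂ, Φ (algebraMap ℂ s29_Mer c) = algebraMap ℂ s29_Mer c)
    (hgen : ∀ (d : ℕ) [NeZero d] (hd : d ∣ N), ∃ y : ModL M,
      s29_ofModL M y = Φ (s29_ofModL N (algebraMap (modRing N) (ModL N) (Jelt N d hd))) ∧
      expL M y = qExpand Kbar k (qExpand Kbar N (coeffEmb Kbar (qExpand ℚ d jq))))
    (f : modularFunctionFieldBar N) :
    ∃ y : ModL M, s29_ofModL M y = Φ (s29_an N f) ∧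
      expL M y = qExpand Kbar k (qExpand Kbar N (f : LaurentSeries Kbar)) := by
  have h := modfield_qExpand_mem N (s29_kh_trField N M k Φ hΦ) (fun d _ hd => by
    obtain ⟨y, hy1, hy2⟩ := hgen d hd
    refine ⟨algebraMap (modRing N) (ModL N) (Jelt N d hd), y, ?_, hy1, hy2⟩
    rw [expL_algebraMap, modfield_expHom_Jelt]) f.2
  obtain ⟨x, y, h1, h2, h3⟩ := h
  rw [← embF_eq_iff] at h1
  refine ⟨y, ?_, h3⟩
  rw [h2, ← h1, s29_an_apply]

/-- **`α` in the analytic realisation**: `F_N ⊆ F_{Nℓ}` is the inclusion of functions. -/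
theorem s29_kh_an_alpha (N ℓ : ℕ) [NeZero N] [NeZero ℓ] (f : modularFunctionFieldBar N) :
    s29_an (N * ℓ) (heckeAlphaBar Kbar N ℓ f) = s29_an N f := by
  obtain ⟨y, hy1, hy2⟩ := s29_kh_transfer N (N * ℓ) ℓ (RingHom.id _) (fun c => rfl)
    (fun d _ hd => by
      refine ⟨algebraMap (modRing (N * ℓ)) (ModL (N * ℓ)) (Jelt (N * ℓ) d (hd.mul_right ℓ)),
        ?_, ?_⟩
      · rw [s29_ofModL_algebraMap, RingHom.id_apply, s29_ofModL_algebraMap]
        rfl
      · rw [expL_algebraMap, modfield_expHom_Jelt, qExpand_qExpand]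
        exact qExpand_congr (Nat.mul_comm N ℓ) _) f
  rw [RingHom.id_apply] at hy1
  rw [← hy1, s29_an_apply]
  congr 1
  rw [embF_eq_iff, hy2, qExpand_qExpand, coe_heckeAlphaBar]
  exact qExpand_congr (Nat.mul_comm ℓ N) _

/-- `δ_∞ τ = ℓ τ`. -/
theorem s29_kh_delta_none_smul (l : ℕ) (hl : l ≠ 0) (τ : ℍ) :
    ((s29_kh_delta l hl none • τ : ℍ) : ℂ) = (l : ℂ) * τ := by
  have hdet : 0 < ((s29_kh_delta l hl none : GL(2, ℝ)⁺) : GL (Fin 2) ℝ).det.val :=
    (s29_kh_delta l hl none).2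
  have h1 : (s29_kh_delta l hl none • τ : ℍ) =
      ((s29_kh_delta l hl none : GL(2, ℝ)⁺) : GL (Fin 2) ℝ) • τ := rfl
  rw [h1, UpperHalfPlane.coe_smul_of_det_pos hdet, UpperHalfPlane.num, UpperHalfPlane.denom,
    s29_kh_delta_coe]
  have h2 := s29_ch_delta_val hl (none : Option (Fin l))
  rw [h2]
  simp [s29_ch_deltaZ]

theorem s29_kh_Jelt_apply (N d : ℕ) [NeZero d] (hd : d ∣ N) (τ : ℍ) :
    ((Jelt N d hd : modRing N) : ℍ → ℂ) τ =
      Fermat.Agent.S28.Jfun (Fermat.Agent.S28.scaleH d τ) := by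
  show Jconj d 1 τ = _
  rw [Jconj, one_smul]

theorem s29_kh_Jelt_scale (N ℓ d : ℕ) [NeZero N] [NeZero ℓ] [NeZero d] (hd : d ∣ N) :
    s29_ofModRing (N * ℓ) (Jelt (N * ℓ) (d * ℓ) (mul_dvd_mul hd dvd_rfl)) =
      (s29_kh_delta ℓ (NeZero.ne ℓ) none)⁻¹ • s29_ofModRing N (Jelt N d hd) := by
  apply s29_hol_ext
  intro τ
  rw [s29_hol_smul_apply, inv_inv, s29_ofModRing_apply, s29_ofModRing_apply, s29_kh_Jelt_apply,
    s29_kh_Jelt_apply]
  congr 1
  apply UpperHalfPlane.ext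
  rw [Fermat.Agent.S28.coe_scaleH, Fermat.Agent.S28.coe_scaleH, s29_kh_delta_none_smul]
  push_cast
  ring

/-- **`β` in the analytic realisation**: `(β f)(τ) = f(ℓ τ)`. -/
theorem s29_kh_an_beta (N ℓ : ℕ) [NeZero N] [NeZero ℓ] (f : modularFunctionFieldBar N) :
    s29_an (N * ℓ) (heckeBetaBar Kbar N ℓ f) =
      (s29_kh_delta ℓ (NeZero.ne ℓ) none)⁻¹ • s29_an N f := by
  obtain ⟨y, hy1, hy2⟩ := s29_kh_transfer N (N * ℓ) (ℓ * ℓ)
    (MulSemiringAction.toRingHom GL(2, ℝ)⁺ s29_Mer (s29_kh_delta ℓ (NeZero.ne ℓ) none)⁻¹)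
    (fun c => s29_smul_const _ c)
    (fun d _ hd => by
      refine ⟨algebraMap (modRing (N * ℓ)) (ModL (N * ℓ))
        (Jelt (N * ℓ) (d * ℓ) (mul_dvd_mul hd dvd_rfl)), ?_, ?_⟩
      · rw [s29_ofModL_algebraMap, MulSemiringAction.toRingHom_apply, s29_ofModL_algebraMap,
          s29_smul_algebraMap, s29_kh_Jelt_scale]
      · rw [expL_algebraMap, modfield_expHom_Jelt, qExpand_qExpand]
        have h1 : ∀ (e : ℕ) [NeZero e], coeffEmb Kbar (qExpand ℚ e jq) =
            qExpand Kbar e (coeffEmb Kbar jq) := fun e _ => coeffMap_qExpand _ e jq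
        rw [h1, h1, qExpand_qExpand, qExpand_qExpand]
        exact qExpand_congr (by ring) _) f
  rw [MulSemiringAction.toRingHom_apply] at hy1
  rw [← hy1, s29_an_apply]
  congr 1
  rw [embF_eq_iff, hy2, qExpand_qExpand, coe_heckeBetaBar, qExpand_qExpand]
  exact qExpand_congr (by ring) _

end Fermat.Agent.S29
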