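import Fermat.Agent.S29.Kappa

/-!
# S29 (project BRIDGE): compatibility of `κ_m` and `κ_{dm}`

For `x ∈ J₀(N)[d·m]` the class `d • x` lies in `J₀(N)[m]` and
`κ_m (d • x) = κ_{dm}(x) mod m`  (if `(D, g, G)` is a witness for `x` at level `d·m`, then
`(d • D, g, G ^ d)` is a witness for `d • x` at level `m`, and `ζ_{dm} ^ d = ζ_m`).

* `s29_kc_zeta_pow` : `ζ_{dm} ^ d = ζ_m`;
* `s29_kc_isChar_pow` : the character of `G ^ d` at level `m`;
* `s29_kc_witness` : the witness `(d • D, g, G ^ d)`;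
* `s29_kc_compat` : the compatibility of `κ`;
* `s29_kc_nsmul_mem` : `d • x ∈ J[m]` for `x ∈ J[d·m]`.
-/

set_option autoImplicit false

open UpperHalfPlane ModularCurve AlgebraicCurve
open scoped MatrixGroups Manifold IntermediateField

noncomputable section

namespace Fermat.Agent.S29

open Fermat.Agent.S24
open CongruenceSubgroup

attribute [local instance] algKC

/-- `ζ_{dm} ^ d = ζ_m`. -/
theorem s29_kc_zeta_pow (m d : ℕ) [NeZero m] [NeZero d] :
    s29_ka_zeta (d * m) ^ d = s29_ka_zeta m := by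
  unfold s29_ka_zeta
  rw [← Complex.exp_nat_mul]
  congr 1
  have hd : (d : ℂ) ≠ 0 := Nat.cast_ne_zero.mpr (NeZero.ne d)
  have hm : (m : ℂ) ≠ 0 := Nat.cast_ne_zero.mpr (NeZero.ne m)
  push_cast
  field_simp

/-- `ζ_{dm} ^ (d·k) = ζ_m ^ (k mod m)`. -/
theorem s29_kc_pow_cast (m d : ℕ) [NeZero m] [NeZero d] (k : ZMod (d * m)) :
    s29_ka_pow (d * m) k ^ d =
      s29_ka_pow m (ZMod.castHom (dvd_mul_left m d) (ZMod m) k) := by
  have h1 : ZMod.castHom (dvd_mul_left m d) (ZMod m) k = ((k.val : ℕ) : ZMod m) := by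
    rw [ZMod.castHom_apply, ZMod.natCast_val]
  rw [h1, s29_ka_pow_natCast, s29_ka_pow, ← pow_mul, Nat.mul_comm k.val d, pow_mul,
    s29_kc_zeta_pow]

/-- the reduction of characters `ℤ/dm → ℤ/m`. -/
def s29_kc_red (N m d : ℕ) (χ : Additive (Gamma0 N) →+ ZMod (d * m)) :
    Additive (Gamma0 N) →+ ZMod m :=
  (ZMod.castHom (dvd_mul_left m d) (ZMod m)).toAddMonoidHom.comp χ

theorem s29_kc_red_apply (N m d : ℕ) (χ : Additive (Gamma0 N) →+ ZMod (d * m))
    (a : Additive (Gamma0 N)) :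
    s29_kc_red N m d χ a = ZMod.castHom (dvd_mul_left m d) (ZMod m) (χ a) := rfl

/-- if `G` has the character `χ` at level `d·m`, then `G ^ d` has the character `χ mod m` at
level `m`. -/
theorem s29_kc_isChar_pow {N m d : ℕ} [NeZero m] [NeZero d] {G : s29_Mer}
    {χ : Additive (Gamma0 N) →+ ZMod (d * m)} (h : s29_ka_IsChar N (d * m) G χ) :
    s29_ka_IsChar N m (G ^ d) (s29_kc_red N m d χ) := by
  intro γ
  rw [smul_pow', h γ, mul_pow, ← map_pow, s29_kc_pow_cast, s29_kc_red_apply]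

/-- the witness `(d • D, g, G ^ d)` for `d • x` at level `m`. -/
theorem s29_kc_witness {N m d : ℕ} [NeZero N] {x : JZero N}
    {D : Divisor.degZero (K := Kbar) (F := modularFunctionFieldBar N)}
    {g : modularFunctionFieldBar N} {G : s29_Mer}
    (h : s29_ka_IsWitness N (d * m) x D g G) :
    s29_ka_IsWitness N m (d • x) (d • D) g (G ^ d) := by
  obtain ⟨hx, hg, hdiv, hG⟩ := h
  refine ⟨?_, hg, fun P => ?_, ?_⟩
  · rw [← hx]
    exact map_nsmul (QuotientAddGroup.mk' _) d D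
  · rw [hdiv P, AddSubgroup.coe_nsmul, Finsupp.smul_apply]
    push_cast
    simp only [nsmul_eq_mul]
    ring
  · rw [← pow_mul, hG]

/-- `d • x ∈ J[m]` for `x ∈ J[d·m]`. -/
theorem s29_kc_nsmul_mem {N m d : ℕ} [NeZero N] {x : JZero N}
    (hx : x ∈ Pic0.torsion Kbar (modularFunctionFieldBar N) (d * m)) :
    d • x ∈ Pic0.torsion Kbar (modularFunctionFieldBar N) m := by
  rw [Pic0.mem_torsion] at hx ⊢
  have h1 : (m : ℤ) • (d • x) = ((d * m : ℕ) : ℤ) • x := by
    rw [← natCast_zsmul x d, smul_smul]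
    push_cast
    rw [mul_comm]
  rw [h1, hx]

/-- **compatibility of `κ`**: `κ_m (d • x) = κ_{dm}(x) mod m`. -/
theorem s29_kc_compat (N m d : ℕ) [NeZero N] [NeZero m] [NeZero d] [NeZero (d * m)]
    (x : Pic0.torsion Kbar (modularFunctionFieldBar N) (d * m))
    (y : Pic0.torsion Kbar (modularFunctionFieldBar N) m)
    (hxy : (y : JZero N) = d • (x : JZero N)) :
    s29_kappa N m y = s29_kc_red N m d (s29_kappa N (d * m) x) := by
  obtain ⟨D, g, G, hw⟩ :=
    s29_ka_exists_witness N (d * m) (x : JZero N) (Pic0.mem_torsion.mp x.2)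
  have hw' : s29_ka_IsWitness N m (y : JZero N) (d • D) g (G ^ d) := by
    rw [hxy]
    exact s29_kc_witness hw
  exact s29_kappa_eq_of_witness y hw' (s29_kc_isChar_pow (s29_kappaFun_spec x hw))

/-- the same with the canonical element `⟨d • x, _⟩`. -/
theorem s29_kc_compat' (N m d : ℕ) [NeZero N] [NeZero m] [NeZero d] [NeZero (d * m)]
    (x : Pic0.torsion Kbar (modularFunctionFieldBar N) (d * m)) :
    s29_kappa N m ⟨d • (x : JZero N), s29_kc_nsmul_mem x.2⟩ =
      s29_kc_red N m d (s29_kappa N (d * m) x) :=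
  s29_kc_compat N m d x _ rfl

end Fermat.Agent.S29
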