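import Fermat.Agent.S29.RootMod
import Fermat.Agent.S24.ModEmb

/-!
# BRIDGE block (A1'), divisibility of the analytic orders

If `g ∈ F_N = modularFunctionFieldBar N` has all place orders divisible by `m`, then all the
analytic orders (at the points of the upper half-plane) of `embF N g ∈ ModL N = Frac (modRing N)`
are divisible by `m`; hence `g` has a meromorphic `m`-th root on the upper half-plane.
-/

set_option autoImplicit false

open UpperHalfPlane ModularCurve AlgebraicCurve
open scoped MatrixGroups Manifold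

namespace Fermat.Agent.S29

open Fermat.Agent.S24

attribute [local instance] algKC

/-- The analytic order at `τ` on `ModL N = Frac (modRing N)`. -/
noncomputable def s29_root_ordL (N : ℕ) [NeZero N] (τ : ℍ) (f : ModL N) : ℤ :=
  anpOrd (ModL N) (anpV N τ) f

theorem s29_root_ordL_div {N : ℕ} [NeZero N] (τ : ℍ) {a b : modRing N} (ha : a ≠ 0)
    (hb : b ≠ 0) :
    s29_root_ordL N τ (algebraMap (modRing N) (ModL N) a / algebraMap (modRing N) (ModL N) b)
      = anpV N τ a - anpV N τ b :=
  anpOrd_div (anpV N τ) (anpV_mul τ) ha hb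

theorem s29_root_ordL_mul {N : ℕ} [NeZero N] (τ : ℍ) {f g : ModL N} (hf : f ≠ 0) (hg : g ≠ 0) :
    s29_root_ordL N τ (f * g) = s29_root_ordL N τ f + s29_root_ordL N τ g :=
  anpOrd_mul (anpV N τ) (anpV_mul τ) hf hg

theorem s29_root_ordL_add {N : ℕ} [NeZero N] (τ : ℍ) {f g : ModL N} (hf : f ≠ 0) (hg : g ≠ 0)
    (hfg : f + g ≠ 0) :
    min (s29_root_ordL N τ f) (s29_root_ordL N τ g) ≤ s29_root_ordL N τ (f + g) :=
  anpOrd_add (anpV N τ) (anpV_mul τ) (anpV_add τ) hf hg hfg

theorem s29_root_ordL_const {N : ℕ} [NeZero N] (τ : ℍ) (c : Kbar) (hc : c ≠ 0) :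
    s29_root_ordL N τ (algebraMap Kbar (ModL N) c) = 0 := by
  have h0 : algebraMap Kbar (modRing N) c ≠ 0 := by
    intro h
    exact hc ((algebraMap Kbar (modRing N)).injective (by rw [h, map_zero]))
  unfold s29_root_ordL
  rw [IsScalarTower.algebraMap_apply Kbar (modRing N) (ModL N),
    anpOrd_algebraMap (anpV N τ) (anpV_mul τ) h0]
  exact anpV_algebraMap τ c hc

/-- **(K1)** If all place orders of `g ∈ F_N` are divisible by `m`, so are all its analytic
orders on the upper half-plane. -/
theorem s29_root_dvd_of_place {N : ℕ} [NeZero N] (m : ℤ) (g : modularFunctionFieldBar N)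
    (hg : g ≠ 0) (hP : ∀ P : Place Kbar (modularFunctionFieldBar N), m ∣ P.ord g) (τ : ℍ) :
    m ∣ s29_root_ordL N τ (embF N g) := by
  have hinj : Function.Injective (embF N) := (embF N).toRingHom.injective
  have hzeroE : embF N 0 = 0 := (embF N).toRingHom.map_zero
  have haddE : ∀ f g : modularFunctionFieldBar N, embF N (f + g) = embF N f + embF N g :=
    fun f g => (embF N).toRingHom.map_add f g
  have hmulE : ∀ f g : modularFunctionFieldBar N, embF N (f * g) = embF N f * embF N g :=
    fun f g => (embF N).toRingHom.map_mul f g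
  have hne : ∀ f : modularFunctionFieldBar N, f ≠ 0 → embF N f ≠ 0 := fun f hf h =>
    hf (hinj (by rw [h, hzeroE]))
  by_cases hnt : ∃ f : modularFunctionFieldBar N, f ≠ 0 ∧ s29_root_ordL N τ (embF N f) ≠ 0
  · obtain ⟨v, e, -, hv⟩ := exists_place_of_ord (K := Kbar) (F := modularFunctionFieldBar N)
      (fun f => s29_root_ordL N τ (embF N f))
      (fun f g hf hg => by
        rw [hmulE]
        exact s29_root_ordL_mul τ (hne f hf) (hne g hg))
      (fun f g hf hg hfg => by
        rw [haddE]
        exact s29_root_ordL_add τ (hne f hf) (hne g hg) (by rw [← haddE]; exact hne _ hfg))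
      (fun c hc => by
        rw [AlgHom.commutes]
        exact s29_root_ordL_const τ c hc)
      hnt
    rw [hv g hg]
    exact Dvd.dvd.mul_left (hP v) e
  · push Not at hnt
    rw [hnt g hg]
    exact dvd_zero m

/-- **(A1) for `F_N`**: if all place orders of `g ∈ F_N` are divisible by `m` and
`embF N g = a / b` with `a, b ∈ modRing N`, then `a * b ^ (m - 1)` is the `m`-th power of a
holomorphic function `H`; i.e. `H / b` is a meromorphic `m`-th root of `g`. -/
theorem s29_root_of_place {N : ℕ} [NeZero N] (m : ℕ) (hm : 0 < m)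
    (g : modularFunctionFieldBar N) (hg : g ≠ 0)
    (hP : ∀ P : Place Kbar (modularFunctionFieldBar N), (m : ℤ) ∣ P.ord g)
    (a b : modRing N) (hb : b ≠ 0)
    (hab : embF N g = algebraMap (modRing N) (ModL N) a / algebraMap (modRing N) (ModL N) b) :
    ∃ H : ℍ → ℂ, MDifferentiable 𝓘(ℂ) 𝓘(ℂ) H ∧
      ∀ τ : ℍ, H τ ^ m = (a : ℍ → ℂ) τ * (b : ℍ → ℂ) τ ^ (m - 1) := by
  have ha : a ≠ 0 := by
    rintro rfl
    rw [map_zero, zero_div] at hab
    exact hg ((embF N).toRingHom.injective (hab.trans (embF N).toRingHom.map_zero.symm))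
  refine s29_root_modRing m hm a b ha hb (fun τ => ?_)
  have h := s29_root_dvd_of_place (m : ℤ) g hg hP τ
  rwa [hab, s29_root_ordL_div τ ha hb] at h

end Fermat.Agent.S29
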