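import Fermat.Agent.S29.Kappa
import Fermat.Agent.S29.DLite
import Fermat.Agent.S29.RootDiv
import Fermat.Agent.S29.ZHol

set_option autoImplicit false

open UpperHalfPlane ModularCurve AlgebraicCurve Polynomial
open scoped MatrixGroups Manifold IntermediateField

noncomputable section

namespace Fermat.Agent.S29

open Fermat.Agent.S24
open Fermat.Agent.S28 (Jfun scaleH)
open CongruenceSubgroup

attribute [local instance] algKC

/-- **holomorphic form of a root**: a meromorphic `m`-th root `G` of `g ∈ F_N` (all of whose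
place orders are divisible by `m`) is `A / b` with `b ∈ modRing N`, `A` holomorphic and
`A ^ m = a * b ^ (m - 1)` where `embF N g = a / b`. -/
theorem s29_ka_root_hol (N m : ℕ) [NeZero N] [NeZero m] (g : modularFunctionFieldBar N)
    (hg : g ≠ 0) (hP : ∀ P : Place Kbar (modularFunctionFieldBar N), (m : ℤ) ∣ P.ord g)
    (G : s29_Mer) (hG : G ^ m = s29_an N g) :
    ∃ (a b : modRing N) (A : s29_hol), b ≠ 0 ∧
      embF N g = algebraMap (modRing N) (ModL N) a / algebraMap (modRing N) (ModL N) b ∧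
      G = algebraMap s29_hol s29_Mer A / algebraMap s29_hol s29_Mer (s29_ofModRing N b) ∧
      A ^ m = s29_ofModRing N (a * b ^ (m - 1)) := by
  have hm : 0 < m := Nat.pos_of_ne_zero (NeZero.ne m)
  obtain ⟨a, b, hb, hab⟩ := IsFractionRing.div_surjective (A := modRing N) (embF N g)
  have hb0 : b ≠ 0 := nonZeroDivisors.ne_zero hb
  obtain ⟨H, hH, hHpow⟩ := s29_root_of_place m hm g hg hP a b hb0 hab.symm
  set H' : s29_hol := s29_mkHol H hH with hH'
  set b' : s29_hol := s29_ofModRing N b with hb'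
  have hb'0 : b' ≠ 0 := fun h0 => hb0 (s29_ofModRing_injective N (h0.trans (map_zero _).symm))
  have hbM : algebraMap s29_hol s29_Mer b' ≠ 0 := fun h0 =>
    hb'0 (s29_algebraMap_injective (h0.trans (map_zero _).symm))
  have hH'pow : H' ^ m = s29_ofModRing N (a * b ^ (m - 1)) := by
    apply s29_hol_ext
    intro τ
    exact hHpow τ
  -- the root `G₁ = H' / b'`
  set G1 : s29_Mer := algebraMap s29_hol s29_Mer H' / algebraMap s29_hol s29_Mer b' with hG1
  have hang : s29_an N g = algebraMap s29_hol s29_Mer (s29_ofModRing N a) /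
      algebraMap s29_hol s29_Mer b' := by
    rw [s29_an_apply, ← hab, map_div₀, s29_ofModL_algebraMap, s29_ofModL_algebraMap]
  have hG1pow : G1 ^ m = s29_an N g := by
    rw [hG1, div_pow, ← map_pow, hH'pow, map_mul, map_pow, map_mul, map_pow, hang]
    rw [div_eq_div_iff (pow_ne_zero _ hbM) hbM, mul_assoc, ← pow_succ]
    congr 2
    omega
  have hG1ne : G1 ≠ 0 := by
    intro h0
    rw [h0, zero_pow (NeZero.ne m)] at hG1pow
    exact s29_an_ne_zero N hg hG1pow.symm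
  have h1 : (G / G1) ^ m = 1 := by
    rw [div_pow, hG, hG1pow, div_self (s29_an_ne_zero N hg)]
  obtain ⟨k, hk⟩ := s29_ka_root_of_unity m _ h1
  refine ⟨a, b, algebraMap ℂ s29_hol (s29_ka_pow m k) * H', hb0, hab.symm, ?_, ?_⟩
  · rw [map_mul, ← IsScalarTower.algebraMap_apply ℂ s29_hol s29_Mer, mul_div_assoc, ← hk,
      div_mul_cancel₀ _ hG1ne]
  · rw [mul_pow, ← map_pow, s29_ka_pow_pow, map_one, one_mul, hH'pow]

/-- invariance of `A / b` in cross-multiplied pointwise form. -/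
theorem s29_ka_inv_pointwise (N : ℕ) [NeZero N] (A : s29_hol) (b : modRing N) (hb : b ≠ 0)
    (hinv : ∀ γ : SL(2, ℤ), γ ∈ Gamma0 N →
      γ • (algebraMap s29_hol s29_Mer A / algebraMap s29_hol s29_Mer (s29_ofModRing N b)) =
        algebraMap s29_hol s29_Mer A / algebraMap s29_hol s29_Mer (s29_ofModRing N b))
    (γ : SL(2, ℤ)) (hγ : γ ∈ Gamma0 N) (τ : ℍ) :
    (A : ℍ → ℂ) (γ • τ) * (b : ℍ → ℂ) τ = (A : ℍ → ℂ) τ * (b : ℍ → ℂ) (γ • τ) := by
  set b' : s29_hol := s29_ofModRing N b with hb'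
  have hb'0 : b' ≠ 0 := fun h0 => hb (s29_ofModRing_injective N (h0.trans (map_zero _).symm))
  have hbM : algebraMap s29_hol s29_Mer b' ≠ 0 := fun h0 =>
    hb'0 (s29_algebraMap_injective (h0.trans (map_zero _).symm))
  have h1 := hinv γ⁻¹ (inv_mem hγ)
  simp only [smul_div₀', s29_sl_smul_def, s29_smul_algebraMap] at h1
  have hb2 : algebraMap s29_hol s29_Mer (s29_sl γ⁻¹ • b') ≠ 0 := by
    intro h0
    apply hb'0
    have h2 := s29_algebraMap_injective (h0.trans (map_zero _).symm)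
    have h3 := congrArg (fun f => (s29_sl γ⁻¹)⁻¹ • f) h2
    simpa using h3
  rw [div_eq_div_iff hb2 hbM, ← map_mul, ← map_mul] at h1
  have h2 := s29_algebraMap_injective h1
  have h3 := congrArg (fun f : s29_hol => (f : ℍ → ℂ) τ) h2
  have h4 : ∀ f : s29_hol, ((s29_sl γ⁻¹ • f : s29_hol) : ℍ → ℂ) τ = (f : ℍ → ℂ) (γ • τ) := by
    intro f
    rw [s29_hol_smul_apply, s29_sl_inv_smul, inv_inv]
  have h5 : ((s29_sl γ⁻¹ • A) * b' : s29_hol).1 τ = (A : ℍ → ℂ) (γ • τ) * (b : ℍ → ℂ) τ := by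
    show ((s29_sl γ⁻¹ • A : s29_hol) : ℍ → ℂ) τ * (b' : ℍ → ℂ) τ = _
    rw [h4]
    rfl
  have h6 : (A * (s29_sl γ⁻¹ • b') : s29_hol).1 τ = (A : ℍ → ℂ) τ * (b : ℍ → ℂ) (γ • τ) := by
    show (A : ℍ → ℂ) τ * ((s29_sl γ⁻¹ • b' : s29_hol) : ℍ → ℂ) τ = _
    rw [h4]
    rfl
  rw [← h5, ← h6]
  exact h3

/-! ## Polynomials in `J(τ)`, `J(Nτ)` inside `s29_Mer` -/

/-- algebra homs commute with bivariate evaluation. -/
theorem s29_ki_aevalAeval_comp {R A B : Type*} [CommSemiring R] [CommSemiring A] [CommSemiring B]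
    [Algebra R A] [Algebra R B] (φ : A →ₐ[R] B) (x y : A) (P : Polynomial (Polynomial R)) :
    φ (aevalAeval x y P) = aevalAeval (φ x) (φ y) P := by
  have h : φ.comp (aevalAeval x y) = aevalAeval (φ x) (φ y) := by
    apply (aevalAevalEquiv R B).symm.injective
    simp
  rw [← h]
  rfl

/-- `j(q^N)` as an element of the function field of `X₀(N)`. -/
def s29_ki_jNF (N : ℕ) [NeZero N] : modularFunctionFieldBar N :=
  ⟨coeffEmb Kbar (qExpand ℚ N jq), coeffEmb_mem_laurentBaseChange Kbar (jqd_mem_full N dvd_rfl)⟩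

theorem s29_ki_embF_jNF (N : ℕ) [NeZero N] :
    embF N (s29_ki_jNF N) = algebraMap (modRing N) (ModL N) (Jelt N N dvd_rfl) := by
  rw [embF_eq_iff, expL_algebraMap, modfield_expHom_Jelt]
  rfl

/-- `J` as a holomorphic function. -/
def s29_ki_jH (N : ℕ) [NeZero N] : s29_hol := s29_ofModRing N (Jelt N 1 (one_dvd N))

/-- `J(Nτ)` as a holomorphic function. -/
def s29_ki_jNH (N : ℕ) [NeZero N] : s29_hol := s29_ofModRing N (Jelt N N dvd_rfl)

theorem s29_ki_an_jF (N : ℕ) [NeZero N] :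
    s29_an N (jF N) = algebraMap s29_hol s29_Mer (s29_ki_jH N) := by
  rw [s29_an_apply, embF_jF]
  exact s29_ofModL_algebraMap N _

theorem s29_ki_an_jNF (N : ℕ) [NeZero N] :
    s29_an N (s29_ki_jNF N) = algebraMap s29_hol s29_Mer (s29_ki_jNH N) := by
  rw [s29_an_apply, s29_ki_embF_jNF]
  exact s29_ofModL_algebraMap N _

theorem s29_ki_jH_apply (N : ℕ) [NeZero N] (τ : ℍ) : (s29_ki_jH N : ℍ → ℂ) τ = Jfun τ := by
  show Jfun (scaleH 1 ((1 : SL(2, ℤ)) • τ)) = Jfun τ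
  rw [one_smul]
  congr 1
  apply UpperHalfPlane.ext
  simp [scaleH]

theorem s29_ki_jNH_apply (N : ℕ) [NeZero N] (τ : ℍ) :
    (s29_ki_jNH N : ℍ → ℂ) τ = Jfun (scaleH N τ) := by
  show Jfun (scaleH N ((1 : SL(2, ℤ)) • τ)) = Jfun (scaleH N τ)
  rw [one_smul]

/-- evaluation at a point of the upper half plane. -/
def s29_ki_evAt (τ : ℍ) : s29_hol →ₐ[ℂ] ℂ :=
  (Pi.evalAlgHom ℂ (fun _ : ℍ => ℂ) τ).comp s29_hol.val

theorem s29_ki_evAt_apply (τ : ℍ) (f : s29_hol) : s29_ki_evAt τ f = (f : ℍ → ℂ) τ := rfl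

/-- the polynomial `P(J(τ), J(Nτ))` as a holomorphic function. -/
def s29_ki_evHol (N : ℕ) [NeZero N] (P : Polynomial (Polynomial ℂ)) : s29_hol :=
  aevalAeval (s29_ki_jH N) (s29_ki_jNH N) P

theorem s29_ki_evHol_apply (N : ℕ) [NeZero N] (P : Polynomial (Polynomial ℂ)) (τ : ℍ) :
    (s29_ki_evHol N P : ℍ → ℂ) τ = s29_z_ev N P τ := by
  rw [← s29_ki_evAt_apply, s29_ki_evHol, s29_ki_aevalAeval_comp, s29_ki_evAt_apply,
    s29_ki_evAt_apply, s29_ki_jH_apply, s29_ki_jNH_apply, coe_aevalAeval_eq_evalEval]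
  rfl

/-- the `ℂ`-span of the range of `s29_an N` is a subalgebra. -/
theorem s29_ki_adjoin_eq_span (N : ℕ) [NeZero N] :
    Subalgebra.toSubmodule (Algebra.adjoin ℂ (Set.range (s29_an N))) =
      Submodule.span ℂ (Set.range (s29_an N)) := by
  rw [Algebra.adjoin_eq_span]
  have h2 : Set.range (s29_an N) =
      ((MonoidHom.mrange (s29_an N).toMonoidHom : Submonoid s29_Mer) : Set s29_Mer) := rfl
  have h : Submonoid.closure (Set.range (s29_an N)) =
      MonoidHom.mrange (s29_an N).toMonoidHom := by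
    rw [h2, Submonoid.closure_eq]
  rw [h]
  rfl

theorem s29_ki_evHol_mem_span (N : ℕ) [NeZero N] (P : Polynomial (Polynomial ℂ)) :
    algebraMap s29_hol s29_Mer (s29_ki_evHol N P) ∈ Submodule.span ℂ (Set.range (s29_an N)) := by
  rw [← s29_ki_adjoin_eq_span, Subalgebra.mem_toSubmodule]
  set S := Algebra.adjoin ℂ (Set.range (s29_an N)) with hS
  have hx : s29_an N (jF N) ∈ S := Algebra.subset_adjoin ⟨_, rfl⟩
  have hy : s29_an N (s29_ki_jNF N) ∈ S := Algebra.subset_adjoin ⟨_, rfl⟩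
  have h1 : algebraMap s29_hol s29_Mer (s29_ki_evHol N P) =
      S.val (aevalAeval (⟨_, hx⟩ : S) ⟨_, hy⟩ P) := by
    rw [s29_ki_aevalAeval_comp]
    show (IsScalarTower.toAlgHom ℂ s29_hol s29_Mer) (s29_ki_evHol N P) = _
    rw [s29_ki_evHol, s29_ki_aevalAeval_comp]
    show aevalAeval (algebraMap s29_hol s29_Mer (s29_ki_jH N))
      (algebraMap s29_hol s29_Mer (s29_ki_jNH N)) P = _
    rw [← s29_ki_an_jF, ← s29_ki_an_jNF]
    rfl
  rw [h1]
  exact (aevalAeval (⟨_, hx⟩ : S) ⟨_, hy⟩ P).2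

/-! ## Injectivity of `κ` -/

/-- the (Z2-root) input (helper12's `s29_z2_root`, stated for a fixed `m`). -/
def s29_ki_Z2 (N m : ℕ) [NeZero N] : Prop :=
  ∀ (A b : ℍ → ℂ), MDifferentiable 𝓘(ℂ) 𝓘(ℂ) A → b ∈ modRing N → (∃ τ, b τ ≠ 0) →
    (fun τ => A τ ^ m) ∈ modRing N →
    (∀ γ : SL(2, ℤ), γ ∈ Gamma0 N → ∀ τ, A (γ • τ) * b τ = A τ * b (γ • τ)) →
    ∃ D H : Polynomial (Polynomial ℂ), (∃ τ, s29_z_ev N D τ ≠ 0) ∧
      ∀ τ, A τ * s29_z_ev N D τ = b τ * s29_z_ev N H τ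

/-- the linear disjointness input (helper8's `s29_dla_hld`). -/
def s29_ki_LD (N : ℕ) [NeZero N] : Prop :=
  ∀ (n : ℕ) (f : Fin n → modularFunctionFieldBar N), LinearIndependent Kbar f →
    LinearIndependent ℂ (fun i => s29_an N (f i))

/-- a `Γ₀(N)`-invariant meromorphic `m`-th root of `g ∈ F_N` comes from `F_N`. -/
theorem s29_ki_root_of_invariant (N m : ℕ) [NeZero N] [NeZero m] (hZ2 : s29_ki_Z2 N m)
    (hLD : s29_ki_LD N) (g : modularFunctionFieldBar N)
    (hg : g ≠ 0) (hP : ∀ P : Place Kbar (modularFunctionFieldBar N), (m : ℤ) ∣ P.ord g)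
    (G : s29_Mer) (hG : G ^ m = s29_an N g)
    (hinv : ∀ γ : SL(2, ℤ), γ ∈ Gamma0 N → γ • G = G) :
    ∃ (c : ℂ) (h : modularFunctionFieldBar N), c ^ m = 1 ∧ h ^ m = g ∧
      G = algebraMap ℂ s29_Mer c * s29_an N h := by
  have hm : 0 < m := Nat.pos_of_ne_zero (NeZero.ne m)
  obtain ⟨a, b, A, hb0, hab, hGA, hApow⟩ := s29_ka_root_hol N m g hg hP G hG
  have hbfun : ∃ τ, (b : ℍ → ℂ) τ ≠ 0 := by
    by_contra hcon
    push Not at hcon
    exact hb0 (Subtype.ext (funext hcon))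
  have hAm : (fun τ => (A : ℍ → ℂ) τ ^ m) ∈ modRing N := by
    have h1 : (fun τ => (A : ℍ → ℂ) τ ^ m) = ((a * b ^ (m - 1) : modRing N) : ℍ → ℂ) := by
      funext τ
      have h2 := congrArg (fun f : s29_hol => (f : ℍ → ℂ) τ) hApow
      exact h2
    rw [h1]
    exact (a * b ^ (m - 1)).2
  obtain ⟨D, H, ⟨τ0, hτ0⟩, hDH⟩ := hZ2 (A : ℍ → ℂ) (b : ℍ → ℂ) A.2 b.2 hbfun hAm
    (fun γ hγ τ => s29_ka_inv_pointwise N A b hb0 (fun γ hγ => by rw [← hGA]; exact hinv γ hγ)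
      γ hγ τ)
  -- the relation in `s29_Mer`
  set b' : s29_hol := s29_ofModRing N b with hb'
  have hb'0 : b' ≠ 0 := fun h0 => hb0 (s29_ofModRing_injective N (h0.trans (map_zero _).symm))
  have hbM : algebraMap s29_hol s29_Mer b' ≠ 0 := fun h0 =>
    hb'0 (s29_algebraMap_injective (h0.trans (map_zero _).symm))
  have hrel : A * s29_ki_evHol N D = b' * s29_ki_evHol N H := by
    apply s29_hol_ext
    intro τ
    show (A : ℍ → ℂ) τ * (s29_ki_evHol N D : ℍ → ℂ) τ =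
      (b : ℍ → ℂ) τ * (s29_ki_evHol N H : ℍ → ℂ) τ
    rw [s29_ki_evHol_apply, s29_ki_evHol_apply]
    exact hDH τ
  have hD0 : algebraMap s29_hol s29_Mer (s29_ki_evHol N D) ≠ 0 := by
    intro h0
    have h1 := s29_algebraMap_injective (h0.trans (map_zero _).symm)
    have h2 := congrArg (fun f : s29_hol => (f : ℍ → ℂ) τ0) h1
    apply hτ0
    rw [← s29_ki_evHol_apply]
    exact h2
  have hy : G * algebraMap s29_hol s29_Mer (s29_ki_evHol N D) =
      algebraMap s29_hol s29_Mer (s29_ki_evHol N H) := by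
    rw [hGA, div_mul_eq_mul_div, ← map_mul, hrel, map_mul, mul_div_cancel_left₀ _ hbM]
  exact s29_dl_main_complex (s29_an N) (fun c => s29_an_const N c) hLD m hm G _ _
    (s29_ki_evHol_mem_span N H) (s29_ki_evHol_mem_span N D) hD0 hy g hG

/-- **Injectivity of `κ`** from the inputs (Z2-root) and (LD). -/
theorem s29_kappa_injective_of (N m : ℕ) [NeZero N] [NeZero m] (hZ2 : s29_ki_Z2 N m)
    (hLD : s29_ki_LD N) : Function.Injective (s29_kappa N m) := by
  rw [injective_iff_map_eq_zero]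
  intro x hx
  obtain ⟨D, g, G, hw⟩ := s29_ka_exists_witness N m (x : JZero N) (Pic0.mem_torsion.mp x.2)
  have hinv := (s29_kappa_eq_zero_iff_invariant x hw).1 hx
  obtain ⟨hxD, hg, hdiv, hG⟩ := hw
  obtain ⟨c, h, -, hh, -⟩ := s29_ki_root_of_invariant N m hZ2 hLD g hg (fun P => ⟨_, hdiv P⟩)
    G hG hinv
  have hm0 : (m : ℤ) ≠ 0 := Nat.cast_ne_zero.2 (NeZero.ne m)
  have hh0 : h ≠ 0 := by
    intro h0
    rw [h0, zero_pow (NeZero.ne m)] at hh
    exact hg hh.symm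
  have hprin : (D : Divisor Kbar (modularFunctionFieldBar N)) ∈
      Divisor.principal (K := Kbar) (F := modularFunctionFieldBar N) := by
    refine ⟨h, hh0, fun P => ?_⟩
    have h1 := hdiv P
    rw [← hh, ord_pow] at h1
    exact (mul_left_cancel₀ hm0 h1).symm
  apply Subtype.ext
  rw [← hxD]
  exact (QuotientAddGroup.eq_zero_iff D).2 (AddSubgroup.mem_addSubgroupOf.2 hprin)

end Fermat.Agent.S29
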