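import Fermat.Agent.S29.Kappa

/-!
# S29 (BRIDGE): `κ` is compatible with the level

* `s29_kt_kappa_mul` : for `x ∈ J₀(N)[m k]`, `κ_m (k • x) = (κ_{m k} x) mod m`;
* `s29_kt_kappa_succ` : the `p`-power form, `κ_{p^n} (p • x) = (κ_{p^(n+1)} x) mod p^n`;
* `s29_kt_kappa_incl` : for `x ∈ J₀(N)[m] ⊆ J₀(N)[m k]`, `κ_{m k} x = k · κ_m x`
  (through `ℤ/m → ℤ/(m k)`, `a ↦ k a`).
-/

set_option autoImplicit false
set_option linter.unusedSectionVars false

open UpperHalfPlane ModularCurve AlgebraicCurve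
open scoped MatrixGroups Manifold

noncomputable section

namespace Fermat.Agent.S29

open Fermat.Agent.S24
open CongruenceSubgroup

attribute [local instance] algKC

/-- `ζ_{m k} ^ k = ζ_m`. -/
theorem s29_kt_zeta_pow (m k : ℕ) [NeZero m] [NeZero k] :
    s29_ka_zeta (m * k) ^ k = s29_ka_zeta m := by
  rw [s29_ka_zeta, s29_ka_zeta, ← Complex.exp_nat_mul]
  congr 1
  have hm : (m : ℂ) ≠ 0 := Nat.cast_ne_zero.2 (NeZero.ne m)
  have hk : (k : ℂ) ≠ 0 := Nat.cast_ne_zero.2 (NeZero.ne k)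
  push_cast
  field_simp

/-- `(ζ_{m k} ^ a) ^ k = ζ_m ^ (a mod m)`. -/
theorem s29_kt_pow_cast (m k : ℕ) [NeZero m] [NeZero k] (a : ZMod (m * k)) :
    s29_ka_pow (m * k) a ^ k =
      s29_ka_pow m (ZMod.castHom (dvd_mul_right m k) (ZMod m) a) := by
  rw [s29_ka_pow, ← pow_mul, mul_comm a.val k, pow_mul, s29_kt_zeta_pow, ← s29_ka_pow_natCast,
    ZMod.castHom_apply, ZMod.natCast_val]

/-- `ζ_m ^ a = ζ_{m k} ^ (k a)`. -/
theorem s29_kt_pow_mul (m k : ℕ) [NeZero m] [NeZero k] (a : ZMod m) :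
    s29_ka_pow m a = s29_ka_pow (m * k) ((k * a.val : ℕ) : ZMod (m * k)) := by
  rw [s29_ka_pow_natCast, pow_mul, s29_kt_zeta_pow, s29_ka_pow]

/-- the character of `G ^ k`. -/
theorem s29_kt_isChar_pow {N m k : ℕ} [NeZero m] [NeZero k] {G : s29_Mer}
    {χ : Additive (Gamma0 N) →+ ZMod (m * k)} (h : s29_ka_IsChar N (m * k) G χ) :
    s29_ka_IsChar N m (G ^ k)
      ((ZMod.castHom (dvd_mul_right m k) (ZMod m)).toAddMonoidHom.comp χ) := by
  intro γ
  rw [smul_pow', h γ, mul_pow, ← map_pow, s29_kt_pow_cast]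
  rfl

/-- a witness at level `m k` for `x` gives a witness at level `m` for `k • x`. -/
theorem s29_kt_witness_mul {N m k : ℕ} [NeZero N] {x : JZero N}
    {D : Divisor.degZero (K := Kbar) (F := modularFunctionFieldBar N)}
    {g : modularFunctionFieldBar N} {G : s29_Mer} (h : s29_ka_IsWitness N (m * k) x D g G) :
    s29_ka_IsWitness N m ((k : ℤ) • x) ((k : ℤ) • D) g (G ^ k) := by
  obtain ⟨hx, hg, hdiv, hG⟩ := h
  refine ⟨?_, hg, fun P => ?_, ?_⟩
  · rw [← hx]
    rfl
  · rw [hdiv P, AddSubgroup.coe_zsmul, Finsupp.smul_apply, smul_eq_mul]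
    push_cast
    ring
  · rw [← pow_mul, mul_comm k m, hG]

/-- **`κ` is compatible with the level**: `κ_m (k • x) = (κ_{m k} x) mod m`. -/
theorem s29_kt_kappa_mul (N m k : ℕ) [NeZero N] [NeZero m] [NeZero k]
    (x : Pic0.torsion Kbar (modularFunctionFieldBar N) (m * k))
    (y : Pic0.torsion Kbar (modularFunctionFieldBar N) m)
    (hy : (y : JZero N) = (k : ℤ) • (x : JZero N)) :
    s29_kappa N m y =
      (ZMod.castHom (dvd_mul_right m k) (ZMod m)).toAddMonoidHom.comp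
        (s29_kappa N (m * k) x) := by
  obtain ⟨D, g, G, hw⟩ := s29_ka_exists_witness N (m * k) (x : JZero N)
    (Pic0.mem_torsion.mp x.2)
  have hw' := s29_kt_witness_mul hw
  rw [← hy] at hw'
  exact s29_kappa_eq_of_witness y hw' (s29_kt_isChar_pow (s29_kappaFun_spec x hw))

/-- `κ` is compatible with the level, for `M = m * k` given by an equation. -/
theorem s29_kt_kappa_of_eq (N m k M : ℕ) [NeZero N] [NeZero m] [NeZero k] [NeZero M]
    (hM : M = m * k) (x : Pic0.torsion Kbar (modularFunctionFieldBar N) M)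
    (y : Pic0.torsion Kbar (modularFunctionFieldBar N) m)
    (hy : (y : JZero N) = (k : ℤ) • (x : JZero N)) :
    s29_kappa N m y =
      (ZMod.castHom (Dvd.intro k hM.symm) (ZMod m)).toAddMonoidHom.comp (s29_kappa N M x) := by
  subst hM
  exact s29_kt_kappa_mul N m k x y hy

/-- **`κ` is compatible with the level, `p`-power form**:
`κ_{p^n} (p • x) = (κ_{p^(n+1)} x) mod p^n`. -/
theorem s29_kt_kappa_succ (N p n : ℕ) [NeZero N] [NeZero p]
    (x : Pic0.torsion Kbar (modularFunctionFieldBar N) (p ^ (n + 1)))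
    (y : Pic0.torsion Kbar (modularFunctionFieldBar N) (p ^ n))
    (hy : (y : JZero N) = (p : ℤ) • (x : JZero N)) :
    s29_kappa N (p ^ n) y =
      (ZMod.castHom (pow_dvd_pow p n.le_succ) (ZMod (p ^ n))).toAddMonoidHom.comp
        (s29_kappa N (p ^ (n + 1)) x) :=
  s29_kt_kappa_of_eq N (p ^ n) p (p ^ (n + 1)) (pow_succ p n) x y hy

/-- a witness at level `m` for `x` gives a witness at level `m k` for `x`. -/
theorem s29_kt_witness_incl {N m k : ℕ} [NeZero N] [NeZero k] {x : JZero N}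
    {D : Divisor.degZero (K := Kbar) (F := modularFunctionFieldBar N)}
    {g : modularFunctionFieldBar N} {G : s29_Mer} (h : s29_ka_IsWitness N m x D g G) :
    s29_ka_IsWitness N (m * k) x D (g ^ k) G := by
  obtain ⟨hx, hg, hdiv, hG⟩ := h
  refine ⟨hx, pow_ne_zero _ hg, fun P => ?_, ?_⟩
  · rw [ord_pow, hdiv P]
    push_cast
    ring
  · rw [pow_mul, hG, map_pow]

/-- **`κ` on `J₀(N)[m] ⊆ J₀(N)[m k]`**: `κ_{m k} x = k · κ_m x`. -/
theorem s29_kt_kappa_incl (N m k : ℕ) [NeZero N] [NeZero m] [NeZero k]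
    (x : Pic0.torsion Kbar (modularFunctionFieldBar N) m)
    (y : Pic0.torsion Kbar (modularFunctionFieldBar N) (m * k))
    (hy : (y : JZero N) = (x : JZero N)) (γ : Additive (Gamma0 N)) :
    s29_kappa N (m * k) y γ = ((k * (s29_kappa N m x γ).val : ℕ) : ZMod (m * k)) := by
  obtain ⟨D, g, G, hw⟩ := s29_ka_exists_witness N m (x : JZero N) (Pic0.mem_torsion.mp x.2)
  have hw' : s29_ka_IsWitness N (m * k) (y : JZero N) D (g ^ k) G := by
    rw [hy]
    exact s29_kt_witness_incl hw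
  have h1 := s29_kappa_spec x hw (Additive.toMul γ)
  have h2 := s29_kappa_spec y hw' (Additive.toMul γ)
  have hG : G ≠ 0 := s29_ka_witness_ne_zero hw
  have h3 := mul_right_cancel₀ hG (h2.symm.trans h1)
  have h4 := (algebraMap ℂ s29_Mer).injective h3
  rw [s29_kt_pow_mul m k] at h4
  exact s29_ka_pow_injective (m * k) h4

end Fermat.Agent.S29
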