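import Fermat.Agent.S37.Detector
import Fermat.Agent.S37.Asm

/-!
# S29/S30/S31 (project BRIDGE): raw consequences of the S37 detector on `p`-power torsion

For a prime `ℓ ∤ N p` and a valuation ring `A` of `ℚ̄` over `ℓ`:

* `s29_rw_unr` : inertia at `A` acts trivially on the `p`-power torsion of `J₀(N)(ℚ̄)`;
* `s29_rw_es`  : every Frobenius lift `σ` at `A` satisfies `σ² x - T_ℓ (σ x) + ℓ x = 0` for
  every `p`-power torsion point `x` (Eichler–Shimura).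

No commutativity of Hecke operators and no module structure is involved.
-/

set_option autoImplicit false

namespace Fermat.Agent.S29

open ModularCurve AlgebraicCurve Fermat.Agent.S37

local notation "Qb" => AlgebraicClosure ℚ
local notation "Γ" => (AlgebraicClosure ℚ ≃ₐ[ℚ] AlgebraicClosure ℚ)

/-- the Galois action on `J₀(N)(ℚ̄)` commutes with multiplication by natural numbers. -/
theorem s29_rw_smul_nsmul (N : ℕ) [NeZero N] (σ : Γ) (n : ℕ) (x : JZero N) :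
    σ • (n • x) = n • (σ • x) :=
  map_nsmul (DistribSMul.toAddMonoidHom (JZero N) σ) n x

/-- the Galois action preserves `m`-torsion. -/
theorem s29_rw_smul_tors (N : ℕ) [NeZero N] (σ : Γ) (m : ℕ) (x : JZero N) (hx : m • x = 0) :
    m • (σ • x) = 0 := by
  rw [← s29_rw_smul_nsmul, hx]
  exact map_zero (DistribSMul.toAddMonoidHom (JZero N) σ)

/-- **(UR-raw)**: inertia at `ℓ ∤ N p` acts trivially on the `p`-power torsion of
`J₀(N)(ℚ̄)`. -/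
theorem s29_rw_unr (N p : ℕ) [NeZero N] (ℓ : ℕ) (hℓ : ℓ.Prime) (hℓNp : ¬ ℓ ∣ N * p)
    (A : ValuationSubring Qb) (hA : A.LiesOverPrime ℓ) (τ : Γ)
    (hτ : τ ∈ A.inertiaSubgroupIn ℚ) (x : JZero N) (hx : ∃ n : ℕ, p ^ n • x = 0) :
    τ • x = x := by
  obtain ⟨σ0, hσ0⟩ := s37_exists_frob A ℓ hℓ hA
  obtain ⟨M, _, ψ, h1, -, h3⟩ := s37_detector N p ℓ hℓ hℓNp A hA σ0 hσ0
  obtain ⟨n, hn⟩ := hx
  have h4 : p ^ n • (τ • x - x) = 0 := by
    rw [nsmul_sub, s29_rw_smul_tors N τ _ x hn, hn, sub_self]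
  have h5 : ψ (τ • x - x) = 0 := by
    rw [map_sub, h1 τ hτ x, sub_self]
  exact sub_eq_zero.mp (h3 _ ⟨n, h4⟩ h5)

/-- **(FQ-raw)**: the Eichler–Shimura relation `σ² - T_ℓ σ + ℓ = 0` on the `p`-power torsion of
`J₀(N)(ℚ̄)`, for every Frobenius lift `σ` at `ℓ ∤ N p`. -/
theorem s29_rw_es (N p : ℕ) [NeZero N] (ℓ : ℕ) (hℓ : ℓ.Prime) (hℓNp : ¬ ℓ ∣ N * p)
    (A : ValuationSubring Qb) (hA : A.LiesOverPrime ℓ) (σ : Γ) (hσ : A.IsFrobeniusAt σ ℓ)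
    (x : JZero N) (hx : ∃ n : ℕ, p ^ n • x = 0) :
    σ • σ • x - heckeOperatorBar N ⟨ℓ, hℓ⟩ (σ • x) + ℓ • x = 0 := by
  obtain ⟨M, _, ψ, -, h2, h3⟩ := s37_detector N p ℓ hℓ hℓNp A hA σ hσ
  obtain ⟨n, hn⟩ := hx
  have ha : p ^ n • (σ • x) = 0 := s29_rw_smul_tors N σ _ x hn
  have hb : p ^ n • (σ • σ • x) = 0 := s29_rw_smul_tors N σ _ _ ha
  have hc : p ^ n • heckeOperatorBar N ⟨ℓ, hℓ⟩ (σ • x) = 0 := by
    rw [← map_nsmul, ha, map_zero]
  have hd : p ^ n • (ℓ • x) = 0 := by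
    rw [nsmul_left_comm, hn, nsmul_zero]
  have h4 : p ^ n • (σ • σ • x - heckeOperatorBar N ⟨ℓ, hℓ⟩ (σ • x) + ℓ • x) = 0 := by
    rw [nsmul_add, nsmul_sub, hb, hc, hd, sub_self, add_zero]
  exact h3 _ ⟨n, h4⟩ (h2 x)

end Fermat.Agent.S29
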