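import Fermat.Agent.S29.Root
import Fermat.Agent.S28.Defs

/-!
# BRIDGE: the local cusp lemma

If `X` is holomorphic on the upper half-plane and `N`-periodic, and `X ^ M` has a level-`N`
expansion `s ≠ 0` (in `t = exp (2πiτ/N)`), then `M` divides the order of `s`.
-/

set_option autoImplicit false

open Complex Filter Topology Set Metric UpperHalfPlane
open scoped Real Manifold

namespace Fermat.Agent.S29

open Fermat.Agent.S28 (HasQExp tParam)

/-- A power series which converges at one point `t₁ ≠ 0` defines a holomorphic function on the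
disc of radius `‖t₁‖`. -/
theorem s29_root_cusp_series (c : ℕ → ℂ) (t₁ : ℂ) (ht₁ : t₁ ≠ 0)
    (hsum : Summable (fun k : ℕ => c k * t₁ ^ k)) :
    ∃ u : ℂ → ℂ, DifferentiableOn ℂ u (ball 0 ‖t₁‖) ∧ u 0 = c 0 ∧
      ∀ q ∈ ball (0 : ℂ) ‖t₁‖, HasSum (fun k : ℕ => c k * q ^ k) (u q) := by
  set p : FormalMultilinearSeries ℂ ℂ ℂ := FormalMultilinearSeries.ofScalars ℂ c with hp
  have hrad : ((‖t₁‖₊ : NNReal) : ENNReal) ≤ p.radius := by
    apply p.le_radius_of_tendsto (l := 0)
    have h1 := hsum.tendsto_atTop_zero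
    rw [tendsto_zero_iff_norm_tendsto_zero] at h1
    refine h1.congr (fun k => ?_)
    rw [hp, FormalMultilinearSeries.ofScalars_norm, norm_mul, norm_pow]
    rfl
  have hpos : (0 : ENNReal) < p.radius :=
    lt_of_lt_of_le (by simpa using ht₁) hrad
  have hfp := p.hasFPowerSeriesOnBall hpos
  have hmem : ∀ q ∈ ball (0 : ℂ) ‖t₁‖, q ∈ Metric.eball (0 : ℂ) p.radius := by
    intro q hq
    rw [Metric.mem_eball]
    refine lt_of_lt_of_le ?_ hrad
    rw [edist_zero_right]
    rw [mem_ball_zero_iff] at hq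
    exact_mod_cast hq
  have hsumq : ∀ q ∈ ball (0 : ℂ) ‖t₁‖, HasSum (fun k : ℕ => c k * q ^ k) (p.sum q) := by
    intro q hq
    have h1 := hfp.hasSum (hmem q hq)
    rw [zero_add] at h1
    refine h1.congr_fun (fun k => ?_)
    rw [hp, FormalMultilinearSeries.ofScalars_apply_eq]
    rfl
  refine ⟨p.sum, fun q hq => ?_, ?_, hsumq⟩
  · exact (hfp.analyticAt_of_mem (hmem q hq)).differentiableAt.differentiableWithinAt
  · have h0 := hsumq 0 (mem_ball_self (norm_pos_iff.mpr ht₁))
    have h1 : HasSum (fun k : ℕ => c k * (0 : ℂ) ^ k) (c 0 * (0 : ℂ) ^ 0) :=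
      hasSum_single 0 (fun k hk => by simp [hk])
    rw [pow_zero, mul_one] at h1
    exact h0.unique h1

/-- Re-indexing of a level-`N` expansion from its order on. -/
theorem s29_root_cusp_reindex (N : ℕ) (g : ℍ → ℂ) (s : LaurentSeries ℂ) (hexp : HasQExp N g s)
    (τ : ℍ) :
    HasSum (fun k : ℕ => s.coeff (s.order + k) * tParam N τ ^ k)
      (g τ * (tParam N τ ^ s.order)⁻¹) := by
  have ht : tParam N τ ≠ 0 := Complex.exp_ne_zero _
  have h := hexp τ
  have hinj : Function.Injective (fun k : ℕ => s.order + (k : ℤ)) := by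
    intro a b hab
    simpa using hab
  have hzero : ∀ x : ℤ, x ∉ Set.range (fun k : ℕ => s.order + (k : ℤ)) →
      s.coeff x * tParam N τ ^ x = 0 := by
    intro x hx
    have hlt : x < s.order := by
      by_contra hge
      push Not at hge
      exact hx ⟨(x - s.order).toNat, by
        show s.order + ((x - s.order).toNat : ℤ) = x
        rw [Int.toNat_of_nonneg (by omega)]; ring⟩
    rw [HahnSeries.coeff_eq_zero_of_lt_order hlt, zero_mul]
  have h2 : HasSum ((fun k : ℤ => s.coeff k * tParam N τ ^ k) ∘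
      (fun k : ℕ => s.order + (k : ℤ))) (g τ) := (hinj.hasSum_iff hzero).mpr h
  have h3 := h2.mul_right ((tParam N τ ^ s.order)⁻¹)
  refine h3.congr_fun (fun k => ?_)
  simp only [Function.comp]
  rw [zpow_add₀ ht, zpow_natCast]
  have h4 : tParam N τ ^ s.order ≠ 0 := zpow_ne_zero _ ht
  field_simp

/-- **Local cusp lemma.** -/
theorem s29_root_cusp (N : ℕ) [NeZero N] (M : ℕ) (hM : 0 < M) (X : ℍ → ℂ)
    (hX : MDifferentiable 𝓘(ℂ) 𝓘(ℂ) X) (hper : ∀ τ : ℍ, X ((N : ℝ) +ᵥ τ) = X τ)
    (s : LaurentSeries ℂ) (hs : s ≠ 0)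
    (hexp : HasQExp N (fun τ => X τ ^ M) s) : (M : ℤ) ∣ s.order := by
  have hN : (N : ℝ) ≠ 0 := Nat.cast_ne_zero.mpr (NeZero.ne N)
  have hNpos : (0 : ℝ) < N := Nat.cast_pos.mpr (Nat.pos_of_ne_zero (NeZero.ne N))
  have hNc : (N : ℂ) ≠ 0 := Nat.cast_ne_zero.mpr (NeZero.ne N)
  have hMc : (M : ℂ) ≠ 0 := Nat.cast_ne_zero.mpr hM.ne'
  set n : ℤ := s.order with hn
  have hcn : s.coeff n ≠ 0 := by
    rw [Ne, HahnSeries.coeff_order_eq_zero]; exact hs
  -- the power series `u`
  have hre := s29_root_cusp_reindex N (fun τ => X τ ^ M) s hexp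
  obtain ⟨u, hud, hu0, husum⟩ := s29_root_cusp_series (fun k : ℕ => s.coeff (n + k))
    (tParam N UpperHalfPlane.I) (Complex.exp_ne_zero _) (hre UpperHalfPlane.I).summable
  set r₁ : ℝ := ‖tParam N UpperHalfPlane.I‖ with hr₁
  have hr₁pos : 0 < r₁ := norm_pos_iff.mpr (Complex.exp_ne_zero _)
  have hu0' : u 0 ≠ 0 := by
    rw [hu0]
    simpa using hcn
  have huval : ∀ τ : ℍ, ‖tParam N τ‖ < r₁ →
      u (tParam N τ) = X τ ^ M * (tParam N τ ^ n)⁻¹ := by
    intro τ hτ
    exact (husum (tParam N τ) (mem_ball_zero_iff.mpr hτ)).unique (hre τ)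
  -- `u` does not vanish near `0`
  have hucont : ContinuousAt u 0 :=
    (hud.differentiableAt (ball_mem_nhds 0 hr₁pos)).continuousAt
  obtain ⟨ε₀, hε₀, hε₀u⟩ := Metric.eventually_nhds_iff.mp (hucont.eventually_ne hu0')
  set ε : ℝ := min ε₀ r₁ with hε
  have hεpos : 0 < ε := lt_min hε₀ hr₁pos
  have hune : ∀ q ∈ ball (0 : ℂ) ε, u q ≠ 0 := by
    intro q hq
    apply hε₀u
    rw [mem_ball] at hq
    exact lt_of_lt_of_le hq (min_le_left _ _)
  obtain ⟨v, hvd, hvpow⟩ := s29_root_ball M hM 0 ε u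
    (hud.mono (ball_subset_ball (min_le_right _ _))) hune
  -- the half-plane
  set R : ℝ := max (-(N * Real.log ε) / (2 * π)) 0 with hR
  have hR0 : 0 ≤ R := le_max_right _ _
  have hexpnorm : ∀ z : ℂ, ‖Complex.exp (2 * π * Complex.I * z / N)‖
      = Real.exp (-(2 * π * z.im) / N) := by
    intro z
    rw [Complex.norm_exp]
    congr 1
    have h1 : (2 * (π : ℂ) * Complex.I * z / N) = ((2 * π / N : ℝ) : ℂ) * (Complex.I * z) := by
      push_cast; ring
    rw [h1, Complex.re_ofReal_mul]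
    simp
    ring
  have hsmall : ∀ z : ℂ, R < z.im → ‖Complex.exp (2 * π * Complex.I * z / N)‖ < ε := by
    intro z hz
    rw [hexpnorm z]
    have h1 : -(N * Real.log ε) / (2 * π) < z.im := lt_of_le_of_lt (le_max_left _ _) hz
    have h2 : -(2 * π * z.im) / N < Real.log ε := by
      rw [div_lt_iff₀ (by positivity)] at h1
      rw [div_lt_iff₀ hNpos]
      linarith
    calc Real.exp (-(2 * π * z.im) / N) < Real.exp (Real.log ε) := Real.exp_lt_exp.mpr h2
      _ = ε := Real.exp_log hεpos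
  have hHPopen : IsOpen {z : ℂ | R < z.im} := isOpen_lt continuous_const Complex.continuous_im
  have hHPconn : IsPreconnected {z : ℂ | R < z.im} := (convex_halfSpace_im_gt R).isPreconnected
  have hXd : DifferentiableOn ℂ (fun z : ℂ => X (ofComplex z)) {z : ℂ | R < z.im} :=
    (UpperHalfPlane.mdifferentiable_iff.mp hX).mono (fun z hz => lt_of_le_of_lt hR0 hz)
  have hed : Differentiable ℂ (fun z : ℂ => Complex.exp (2 * π * Complex.I * z / N)) := by
    fun_prop
  have hYd : DifferentiableOn ℂ (fun z : ℂ =>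
      Complex.exp (2 * π * Complex.I * n * z / (N * M)) *
        v (Complex.exp (2 * π * Complex.I * z / N))) {z : ℂ | R < z.im} := by
    refine DifferentiableOn.mul (by fun_prop) ?_
    exact hvd.comp hed.differentiableOn (fun z hz => mem_ball_zero_iff.mpr (hsmall z hz))
  have hYpow : ∀ z : ℂ, R < z.im →
      (Complex.exp (2 * π * Complex.I * n * z / (N * M)) *
        v (Complex.exp (2 * π * Complex.I * z / N))) ^ M
      = X (ofComplex z) ^ M := by
    intro z hz
    have hzpos : 0 < z.im := lt_of_le_of_lt hR0 hz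
    have hsm := hsmall z hz
    rw [mul_pow, hvpow _ (mem_ball_zero_iff.mpr hsm), ← Complex.exp_nat_mul]
    have hτ : tParam N (ofComplex z) = Complex.exp (2 * π * Complex.I * z / N) := by
      unfold tParam
      rw [ofComplex_apply_of_im_pos hzpos]
    have h1 := huval (ofComplex z) (by
      rw [hτ]; exact lt_of_lt_of_le hsm (min_le_right _ _))
    rw [hτ] at h1
    rw [h1]
    have h2 : Complex.exp (2 * π * Complex.I * z / N) ^ n
        = Complex.exp ((M : ℂ) * (2 * π * Complex.I * n * z / (N * M))) := by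
      rw [← Complex.exp_int_mul]
      congr 1
      field_simp
    rw [← h2]
    have h3 : Complex.exp (2 * π * Complex.I * z / N) ^ n ≠ 0 :=
      zpow_ne_zero _ (Complex.exp_ne_zero _)
    field_simp
  -- the base point
  set z₀ : ℂ := ⟨0, R + 1⟩ with hz₀
  have hz₀mem : R < z₀.im := by
    show R < R + 1
    linarith
  have hz₁mem : R < (z₀ + N).im := by
    have : (z₀ + N).im = R + 1 := by simp [hz₀]
    rw [this]; linarith
  set Y : ℂ → ℂ := fun z => Complex.exp (2 * π * Complex.I * n * z / (N * M)) *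
        v (Complex.exp (2 * π * Complex.I * z / N)) with hY
  have hY0 : Y z₀ ≠ 0 := by
    refine mul_ne_zero (Complex.exp_ne_zero _) ?_
    intro h0
    have h1 := hvpow _ (mem_ball_zero_iff.mpr (hsmall z₀ hz₀mem))
    rw [h0, zero_pow hM.ne'] at h1
    exact hune _ (mem_ball_zero_iff.mpr (hsmall z₀ hz₀mem)) h1.symm
  have hζ : (X (ofComplex z₀) / Y z₀) ^ M = 1 := by
    rw [div_pow, ← hYpow z₀ hz₀mem]
    exact div_self (pow_ne_zero _ hY0)
  have hζ0 : X (ofComplex z₀) / Y z₀ ≠ 0 := by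
    intro h
    rw [h, zero_pow hM.ne'] at hζ
    exact zero_ne_one hζ
  have hEq := s29_root_unique M hM {z : ℂ | R < z.im} hHPopen hHPconn
    (fun z : ℂ => X (ofComplex z)) (fun z : ℂ => X (ofComplex z₀) / Y z₀ * Y z) hXd
    (hYd.const_mul _) (fun z hz => by
      show X (ofComplex z) ^ M = (X (ofComplex z₀) / Y z₀ * Y z) ^ M
      rw [mul_pow, hζ, one_mul]
      exact (hYpow z hz).symm) z₀ hz₀mem (div_mul_cancel₀ _ hY0).symm (mul_ne_zero hζ0 hY0)
  have h1 : X (ofComplex (z₀ + N)) = X (ofComplex z₀) / Y z₀ * Y (z₀ + N) := hEq hz₁mem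
  -- periodicity of `X`
  have hXper : X (ofComplex (z₀ + N)) = X (ofComplex z₀) := by
    have hz₀pos : 0 < z₀.im := lt_of_le_of_lt hR0 hz₀mem
    have hz₁pos : 0 < (z₀ + N).im := lt_of_le_of_lt hR0 hz₁mem
    have h2 : ofComplex (z₀ + N) = (N : ℝ) +ᵥ ofComplex z₀ := by
      apply UpperHalfPlane.ext
      rw [UpperHalfPlane.coe_vadd, ofComplex_apply_of_im_pos hz₁pos,
        ofComplex_apply_of_im_pos hz₀pos]
      simp [add_comm]
    rw [h2, hper]
  -- quasi-periodicity of `Y`
  have hYper : Y (z₀ + N) = Complex.exp (2 * π * Complex.I * n / M) * Y z₀ := by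
    have h2 : Complex.exp (2 * π * Complex.I * (z₀ + N) / N)
        = Complex.exp (2 * π * Complex.I * z₀ / N) := by
      have : 2 * π * Complex.I * (z₀ + N) / N = 2 * π * Complex.I * z₀ / N + 2 * π * Complex.I := by
        field_simp
      rw [this, Complex.exp_add, Complex.exp_two_pi_mul_I, mul_one]
    have h3 : Complex.exp (2 * π * Complex.I * n * (z₀ + N) / (N * M))
        = Complex.exp (2 * π * Complex.I * n / M) *
          Complex.exp (2 * π * Complex.I * n * z₀ / (N * M)) := by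
      rw [← Complex.exp_add]
      congr 1
      field_simp
      ring
    simp only [hY]
    rw [h2, h3, mul_assoc]
  have hA : X (ofComplex z₀) / Y z₀ * Y z₀
      = X (ofComplex z₀) / Y z₀ * (Complex.exp (2 * π * Complex.I * n / M) * Y z₀) := by
    rw [div_mul_cancel₀ _ hY0, ← hYper, ← h1, hXper]
  have hone : Complex.exp (2 * π * Complex.I * n / M) = 1 := by
    have h4 := mul_left_cancel₀ hζ0 hA
    have h5 : (1 : ℂ) * Y z₀ = Complex.exp (2 * π * Complex.I * n / M) * Y z₀ := by
      rw [one_mul]; exact h4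
    exact (mul_right_cancel₀ hY0 h5).symm
  obtain ⟨k, hk⟩ := Complex.exp_eq_one_iff.mp hone
  have hpi : (2 * (π : ℂ) * Complex.I) ≠ 0 := by
    simp [Real.pi_ne_zero]
  have hnk : (n : ℂ) = k * M := by
    field_simp at hk
    have h5 : (2 * (π : ℂ) * Complex.I) * n = (2 * (π : ℂ) * Complex.I) * (k * M) := by
      rw [hk]; ring
    exact mul_left_cancel₀ hpi h5
  refine ⟨k, ?_⟩
  have : ((n : ℤ) : ℂ) = ((M * k : ℤ) : ℂ) := by
    rw [hnk]; push_cast; ring
  exact_mod_cast this

/-- The local cusp lemma, with periodicity stated through `T ^ N`. -/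
theorem s29_root_cusp_T (N : ℕ) [NeZero N] (M : ℕ) (hM : 0 < M) (X : ℍ → ℂ)
    (hX : MDifferentiable 𝓘(ℂ) 𝓘(ℂ) X) (hper : ∀ τ : ℍ, X (ModularGroup.T ^ N • τ) = X τ)
    (s : LaurentSeries ℂ) (hs : s ≠ 0)
    (hexp : HasQExp N (fun τ => X τ ^ M) s) : (M : ℤ) ∣ s.order := by
  refine s29_root_cusp N M hM X hX (fun τ => ?_) s hs hexp
  have h := UpperHalfPlane.modular_T_zpow_smul τ (N : ℤ)
  rw [zpow_natCast, Int.cast_natCast] at h
  rw [← h, hper]

/-- The order of a Laurent series is unchanged by an injective coefficient map. -/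
theorem s29_root_cusp_order_coeffMap {R S : Type*} [CommRing R] [CommRing S] (f : R →+* S)
    (hf : Function.Injective f) (x : LaurentSeries R) :
    (ModularCurve.coeffMap f x).order = x.order := by
  rcases eq_or_ne x 0 with rfl | hx
  · simp
  · have hc : ∀ k : ℤ, (ModularCurve.coeffMap f x).coeff k ≠ 0 ↔ x.coeff k ≠ 0 := by
      intro k
      rw [ModularCurve.coeffMap_coeff, Ne, Ne, map_eq_zero_iff f hf]
    have hx' : ModularCurve.coeffMap f x ≠ 0 :=
      HahnSeries.ne_zero_of_coeff_ne_zero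
        ((hc x.order).mpr (by rw [Ne, HahnSeries.coeff_order_eq_zero]; exact hx))
    apply le_antisymm
    · exact HahnSeries.order_le_of_coeff_ne_zero
        ((hc x.order).mpr (by rw [Ne, HahnSeries.coeff_order_eq_zero]; exact hx))
    · exact HahnSeries.order_le_of_coeff_ne_zero
        ((hc _).mp (by rw [Ne, HahnSeries.coeff_order_eq_zero]; exact hx'))

end Fermat.Agent.S29
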