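import Fermat.Agent.S29.RootUhp
import Fermat.Agent.S24.AnPlace

/-!
# BRIDGE block (A1), `modRing` form

If `a, b ∈ modRing N` are nonzero and `ord_τ a - ord_τ b` is divisible by `m` at every point `τ`
of the upper half-plane, then `a * b ^ (m - 1) = H ^ m` for a holomorphic `H : ℍ → ℂ`; thus
`G := H / b` is a meromorphic `m`-th root of `a / b`.
-/

set_option autoImplicit false

open UpperHalfPlane
open scoped MatrixGroups Manifold

namespace Fermat.Agent.S29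

open Fermat.Agent.S24

attribute [local instance] algKC

theorem s29_root_anpV_pow {N : ℕ} [NeZero N] (τ : ℍ) (x : modRing N) (hx : x ≠ 0) (n : ℕ) :
    anpV N τ (x ^ n) = n * anpV N τ x := by
  induction n with
  | zero =>
    have h1 : (1 : modRing N) = algebraMap Kbar (modRing N) 1 := (map_one _).symm
    rw [pow_zero, h1, anpV_algebraMap τ 1 one_ne_zero]
    simp
  | succ n ih =>
    rw [pow_succ, anpV_mul τ _ _ (pow_ne_zero n hx) hx, ih]
    push_cast
    ring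

/-- **(A1-modRing)** -/
theorem s29_root_modRing {N : ℕ} [NeZero N] (m : ℕ) (hm : 0 < m) (a b : modRing N)
    (ha : a ≠ 0) (hb : b ≠ 0) (hdiv : ∀ τ : ℍ, (m : ℤ) ∣ anpV N τ a - anpV N τ b) :
    ∃ H : ℍ → ℂ, MDifferentiable 𝓘(ℂ) 𝓘(ℂ) H ∧
      ∀ τ : ℍ, H τ ^ m = (a : ℍ → ℂ) τ * (b : ℍ → ℂ) τ ^ (m - 1) := by
  have hF0 : a * b ^ (m - 1) ≠ 0 := mul_ne_zero ha (pow_ne_zero _ hb)
  have hord : ∀ τ : ℍ,
      analyticOrderAt (fun z : ℂ => ((a * b ^ (m - 1) : modRing N) : ℍ → ℂ) (ofComplex z))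
        (τ : ℂ) ≠ ⊤ ∧
      m ∣ (analyticOrderAt
        (fun z : ℂ => ((a * b ^ (m - 1) : modRing N) : ℍ → ℂ) (ofComplex z)) (τ : ℂ)).toNat := by
    intro τ
    refine ⟨anp_ord_ne_top hF0 τ, ?_⟩
    have h1 : anpV N τ (a * b ^ (m - 1)) = anpV N τ a + ((m - 1 : ℕ) : ℤ) * anpV N τ b := by
      rw [anpV_mul τ _ _ ha (pow_ne_zero _ hb), s29_root_anpV_pow τ b hb]
    have h2 : (m : ℤ) ∣ anpV N τ (a * b ^ (m - 1)) := by
      rw [h1]
      have h3 : anpV N τ a + ((m - 1 : ℕ) : ℤ) * anpV N τ b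
          = (anpV N τ a - anpV N τ b) + (m : ℤ) * anpV N τ b := by
        rw [Nat.cast_sub hm]
        push_cast
        ring
      rw [h3]
      exact dvd_add (hdiv τ) (dvd_mul_right _ _)
    unfold anpV at h2
    exact Int.natCast_dvd_natCast.mp h2
  obtain ⟨H, hH, hHpow⟩ := s29_root_exists_uhp m hm ((a * b ^ (m - 1) : modRing N) : ℍ → ℂ)
    (mdifferentiable_of_mem_modRing (a * b ^ (m - 1) : modRing N).2) hord
  refine ⟨H, hH, fun τ => ?_⟩
  rw [hHpow τ]
  simp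

end Fermat.Agent.S29
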