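import Fermat.Agent.S24
import Fermat.Agent.S29.RootDiv

/-!
# BRIDGE (AP-Qbar): every place of `F_N / ℚ̄` is analytic

Every place `P` of `F_N = modularFunctionFieldBar N` over `ℚ̄` is either the place of a point `τ`
of the upper half-plane (analytic order at `τ` is `e * P.ord`, with `e ∣ 6`), or the place of a
cusp `γ∞` (order of the level-`N` expansion of `f ∘ γ` is `e * P.ord`, with `e ∣ N`).
-/

set_option synthInstance.maxHeartbeats 200000
set_option autoImplicit false

open ModularCurve UpperHalfPlane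

noncomputable section

namespace Fermat.Agent.S29

open Fermat.Agent.S24 AlgebraicCurve CongruenceSubgroup ModularGroup
open scoped MatrixGroups IntermediateField Manifold

attribute [local instance] algKC algFL

/-- Translation of the analytic order: the order of `x` at `γτ` is the order of `x ∘ γ` at
`τ`. -/
theorem s29_root_pl_anpV_smul {N : ℕ} [NeZero N] (τ : ℍ) (γ : SL(2, ℤ)) (x : modRing N) :
    anpV N τ (γ⁻¹ • x) = anpV N (γ • τ) x := by
  unfold anpV
  congr 2
  let G : ℂ → ℂ := fun z => ((Matrix.SpecialLinearGroup.mapGL ℝ γ • ofComplex z : ℍ) : ℂ)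
  let F : ℂ → ℂ := fun z => (x : ℍ → ℂ) (ofComplex z)
  have hdet : 0 < (Matrix.SpecialLinearGroup.mapGL ℝ γ : GL (Fin 2) ℝ).val.det := by
    rw [← Matrix.GeneralLinearGroup.val_det_apply, Matrix.SpecialLinearGroup.det_mapGL]
    simp
  have h : (fun z : ℂ => ((γ⁻¹ • x : modRing N) : ℍ → ℂ) (ofComplex z)) = F ∘ G := by
    funext z
    rw [coe_smul_modRing]
    simp only [actFun, inv_inv, Function.comp_apply, F, G, ofComplex_apply]
    rfl
  rw [h, analyticOrderAt_comp_of_deriv_ne_zero (τ.analyticAt_smul hdet)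
    (τ.deriv_smul_ne_zero hdet)]
  have hG : ((Matrix.SpecialLinearGroup.mapGL ℝ γ • ofComplex (τ : ℂ) : ℍ) : ℂ)
      = ((γ • τ : ℍ) : ℂ) := by
    rw [ofComplex_apply]
    rfl
  rw [hG]

/-- The order at the cusp `γ∞` on `ModL N`: the order of the level-`N` expansion of `f ∘ γ`. -/
def s29_root_ordInf (N : ℕ) [NeZero N] (γ : SL(2, ℤ)) (f : ModL N) : ℤ :=
  anpOrd (ModL N) (fun x : modRing N => anpVinf N (γ⁻¹ • x)) f

theorem s29_root_pl_vinf_mul {N : ℕ} [NeZero N] (γ : SL(2, ℤ)) (x y : modRing N) (hx : x ≠ 0)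
    (hy : y ≠ 0) :
    anpVinf N (γ⁻¹ • (x * y)) = anpVinf N (γ⁻¹ • x) + anpVinf N (γ⁻¹ • y) := by
  rw [smul_mul', anpVinf_mul _ _ ((smul_ne_zero_iff_ne _).mpr hx) ((smul_ne_zero_iff_ne _).mpr hy)]

theorem s29_root_ordInf_div {N : ℕ} [NeZero N] (γ : SL(2, ℤ)) {a b : modRing N} (ha : a ≠ 0)
    (hb : b ≠ 0) :
    s29_root_ordInf N γ
        (algebraMap (modRing N) (ModL N) a / algebraMap (modRing N) (ModL N) b)
      = anpVinf N (γ⁻¹ • a) - anpVinf N (γ⁻¹ • b) :=
  anpOrd_div (fun x : modRing N => anpVinf N (γ⁻¹ • x)) (s29_root_pl_vinf_mul γ) ha hb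

/-- Transfer of a relation `v = e * w.ord` from `modRing N` to its fraction field. -/
theorem s29_root_pl_ord_eq {N : ℕ} [NeZero N] (v : modRing N → ℤ)
    (hmul : ∀ x y : modRing N, x ≠ 0 → y ≠ 0 → v (x * y) = v x + v y)
    (w : Place Kbar (ModL N)) (e : ℤ)
    (hw : ∀ x : modRing N, x ≠ 0 → v x = e * w.ord (algebraMap (modRing N) (ModL N) x))
    (f : ModL N) (hf : f ≠ 0) : anpOrd (ModL N) v f = e * w.ord f := by
  obtain ⟨a, b, hb, rfl⟩ := anp_exists_div (R := modRing N) f
  have ha : a ≠ 0 := by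
    rintro rfl
    simp at hf
  have haL : algebraMap (modRing N) (ModL N) a ≠ 0 := anp_algebraMap_ne_zero ha
  have hbL : algebraMap (modRing N) (ModL N) b ≠ 0 := anp_algebraMap_ne_zero hb
  rw [anpOrd_div v hmul ha hb, hw a ha, hw b hb, div_eq_mul_inv,
    w.ord_mul haL (inv_ne_zero hbL), w.ord_inv]
  ring

/-- The translated place `γ • w` in terms of orders. -/
theorem s29_root_pl_ord_rhoL {N : ℕ} [NeZero N] (γ : SL(2, ℤ)) (w : Place Kbar (ModL N))
    (f : ModL N) : (rhoL N γ • w).ord f = w.ord (γ⁻¹ • f) := by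
  rw [ord_smul_place]
  have h : (rhoL N γ).symm = rhoL N γ⁻¹ := by
    rw [map_inv]
    rfl
  rw [h, modfield_rhoL_apply]

/-- Every place of `F_N` over a zero of `t` is the restriction of a translate of any given
place of `L = ModL N` over that zero. -/
theorem s29_root_pl_conj (N : ℕ) [NeZero N] (t : FF N) (ht : Transcendental Kbar t)
    (hgen : Kbar⟮algebraMap (FF N) (ModL N) t⟯ = Kbar⟮jL N⟯)
    (P : Place Kbar (FF N)) (hP : 0 < P.ord t)
    (w₀ : Place Kbar (ModL N)) (hw₀ : 0 < w₀.ord (algebraMap (FF N) (ModL N) t)) :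
    ∃ (γ : SL(2, ℤ)) (e' : ℤ), 0 < e' ∧
      ∀ f : FF N, w₀.ord (γ⁻¹ • algebraMap (FF N) (ModL N) f) = e' * P.ord f := by
  have htfix : ∀ g : GG N, g • algebraMap (FF N) (ModL N) t = algebraMap (FF N) (ModL N) t :=
    fun g => asm_fixed_of_mem N _ (hgen ▸ IntermediateField.mem_adjoin_simple_self Kbar _) g
  have hfix : ∀ f : ModL N, (∀ g : GG N, g • f = f) →
      f ∈ Kbar⟮algebraMap (FF N) (ModL N) t⟯ := by
    intro f hf
    rw [hgen]
    exact modL_fixed N f (fun γ => hf (rho N γ))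
  obtain ⟨hfdFL, hfdtF, -⟩ := cnt_degree (K := Kbar) (F := FF N) (L := ModL N) (G := GG N)
    t hfix htfix (HH N) (asm_mem_HH N)
  have := hfdFL
  have := hfdtF
  obtain ⟨hfdtL, -⟩ := cnt_finrank_top (K := Kbar) (L := ModL N) (G := GG N)
    (algebraMap (FF N) (ModL N) t) hfix htfix
  have := hfdtL
  have ht' : Transcendental Kbar (algebraMap (FF N) (ModL N) t) :=
    (transcendental_algebraMap_iff (algebraMap (FF N) (ModL N)).injective).mpr ht
  obtain ⟨w, hw⟩ := exists_place_over (K := Kbar) (F := FF N) (L := ModL N) t ht P hP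
  have ht0 : t ≠ 0 := by
    rintro rfl
    rw [P.ord_zero] at hP
    exact lt_irrefl _ hP
  have hwpos : 0 < w.ord (algebraMap (FF N) (ModL N) t) := by
    by_contra hcon
    push Not at hcon
    have h1 : (algebraMap (FF N) (ModL N) t)⁻¹ ∈ w.toValuationSubring := by
      rw [mem_iff_ord_nonneg, w.ord_inv]
      omega
    rw [← map_inv₀, hw, mem_iff_ord_nonneg, P.ord_inv] at h1
    omega
  obtain ⟨g, hg⟩ := cnt_transitive (K := Kbar) (L := ModL N) (G := GG N)
    (algebraMap (FF N) (ModL N) t) ht' hfix htfix w₀ w hw₀ hwpos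
  obtain ⟨γ, rfl⟩ := rho_surjective N g
  obtain ⟨P', e', he', hP'⟩ := exists_restrict_place (K := Kbar) (F := FF N) (L := ModL N) w
    ⟨t, ht0, hwpos.ne'⟩
  have hPP' : P' = P := by
    apply place_ext_ord
    intro f
    rw [← mem_iff_ord_nonneg P f, ← hw f, mem_iff_ord_nonneg, hP' f]
    constructor
    · intro h
      exact mul_nonneg he'.le h
    · intro h
      exact nonneg_of_mul_nonneg_right h he'
  subst hPP'
  refine ⟨γ, e', he', fun f => ?_⟩
  rw [← hP' f, ← hg, cnt_ord_smul, ← map_inv, asm_rho_smul]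

/-- A point of the upper half-plane over a given algebraic `j`-value where `J - c` vanishes to
order at most `3`. -/
theorem s29_root_pl_exists_point (c : Kbar) :
    ∃ τ : ℍ, iotaK c = Fermat.Agent.S28.Jfun τ ∧
      analyticOrderAt (fun z : ℂ => Fermat.Agent.S28.Jfun (ofComplex z) -
        Fermat.Agent.S28.Jfun τ) (τ : ℂ) ≤ 3 := by
  by_cases h1 : c = 1728
  · obtain ⟨τ, -, hJ, hord⟩ := exists_elliptic_S
    refine ⟨τ, by rw [h1, hJ, map_ofNat], ?_⟩
    rw [hJ]
    exact hord.trans (by norm_num)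
  by_cases h0 : c = 0
  · obtain ⟨τ, -, hJ, hord⟩ := exists_elliptic_ST
    refine ⟨τ, by rw [h0, hJ, map_zero], ?_⟩
    rw [hJ]
    simpa using hord
  · obtain ⟨τ, hτ⟩ := Jfun_surjective (iotaK c)
    have hJ0 : Fermat.Agent.S28.Jfun τ ≠ 0 := by
      rw [hτ]
      exact fun h => h0 (iotaK_injective (by rw [h, map_zero]))
    have hJ1 : Fermat.Agent.S28.Jfun τ ≠ 1728 := by
      rw [hτ]
      exact fun h => h1 (iotaK_injective (by rw [h, map_ofNat]))
    refine ⟨τ, hτ.symm, ?_⟩
    rw [Jfun_order_generic τ hJ0 hJ1]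
    norm_num

/-- **(AP-Qbar)** Every place of `F_N` over `ℚ̄` is analytic: it is the place of a point of the
upper half-plane (with `e ∣ 6`) or of a cusp (with `e ∣ N`). -/
theorem s29_root_pl_analytic (N : ℕ) [NeZero N] (P : Place Kbar (FF N)) :
    (∃ (τ : ℍ) (e : ℤ), 0 < e ∧ e ∣ 6 ∧
      ∀ f : FF N, f ≠ 0 → s29_root_ordL N τ (embF N f) = e * P.ord f) ∨
    (∃ (γ : SL(2, ℤ)) (e : ℤ), 0 < e ∧ e ∣ (N : ℤ) ∧
      ∀ f : FF N, f ≠ 0 → s29_root_ordInf N γ (embF N f) = e * P.ord f) := by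
  have hembne : ∀ f : FF N, f ≠ 0 → embF N f ≠ 0 := fun f hf h =>
    hf ((embF N).toRingHom.injective (h.trans (embF N).toRingHom.map_zero.symm))
  by_cases hpole : 0 ≤ P.ord (jF N)
  · -- a point of the upper half-plane
    left
    have hmem : jF N ∈ P.toValuationSubring := (mem_iff_ord_nonneg P _).mpr hpole
    have hfdj : FiniteDimensional Kbar⟮jF N⟯ (FF N) := (asm_generic N).1
    obtain ⟨c, hc⟩ := exists_const_sub_mem_nonunits (jF N) (transcendental_jF N) P (jF N) hmem
    set t : FF N := jF N - algebraMap Kbar (FF N) c with ht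
    have htr : Transcendental Kbar t := asm_transcendental_sub_const (transcendental_jF N) c
    have ht0 : t ≠ 0 := fun h => htr (by rw [h]; exact isAlgebraic_zero)
    have hPt : 0 < P.ord t := (mem_nonunits_iff_ord_pos P ht0).mp hc
    have hgen : Kbar⟮algebraMap (FF N) (ModL N) t⟯ = Kbar⟮jL N⟯ := by
      rw [ht, asm_algebraMap_sub]
      exact asm_adjoin_sub_const _ _
    -- the analytic place at a point over `c`
    obtain ⟨τ₀, hτ₀, hord₀⟩ := s29_root_pl_exists_point c
    set x₀ : modRing N := Jelt N 1 (one_dvd N) - algebraMap Kbar (modRing N) c with hx₀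
    have hfun : (fun z : ℂ => (x₀ : ℍ → ℂ) (ofComplex z))
        = fun z : ℂ => Fermat.Agent.S28.Jfun (ofComplex z) - Fermat.Agent.S28.Jfun τ₀ := by
      funext z
      rw [hx₀, anp_coe_Jelt_sub, hτ₀]
    have hne_top : analyticOrderAt (fun z : ℂ => Fermat.Agent.S28.Jfun (ofComplex z) -
        Fermat.Agent.S28.Jfun τ₀) (τ₀ : ℂ) ≠ ⊤ :=
      ne_top_of_le_ne_top (ENat.natCast_ne_top 3) hord₀
    have hx₀ne : x₀ ≠ 0 := by
      intro h0
      apply hne_top
      rw [← hfun, h0, analyticOrderAt_eq_top]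
      exact Filter.Eventually.of_forall fun z => rfl
    obtain ⟨k, hk⟩ := ENat.ne_top_iff_exists.mp hne_top
    have hk0 : k ≠ 0 := by
      rintro rfl
      have h1 := (anp_analyticAt x₀ τ₀).analyticOrderAt_eq_zero.mp (by rw [hfun, ← hk]; rfl)
      apply h1
      have h2 := congrFun hfun (τ₀ : ℂ)
      rw [h2]
      simp
    have hk3 : k ≤ 3 := by
      rw [← hk] at hord₀
      exact_mod_cast hord₀
    have hv : anpV N τ₀ x₀ = k := by
      unfold anpV
      rw [hfun, ← hk]
      simp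
    obtain ⟨w₀, e₀, he₀, hw₀, -⟩ := anp_exists_place (K := Kbar) (R := modRing N) (L := ModL N)
      (anpV N τ₀) (anpV_mul τ₀) (anpV_add τ₀) (anpV_algebraMap τ₀)
      ⟨x₀, hx₀ne, by rw [hv]; exact_mod_cast hk0⟩
    have htL : algebraMap (FF N) (ModL N) t = algebraMap (modRing N) (ModL N) x₀ := by
      rw [ht, asm_algebraMap_sub, anp_jL_sub]
    have hkpos : (0 : ℤ) < k := by exact_mod_cast Nat.pos_of_ne_zero hk0
    have hw₀pos : 0 < w₀.ord (algebraMap (FF N) (ModL N) t) := by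
      have h1 := hw₀ x₀ hx₀ne
      rw [hv, ← htL] at h1
      rw [h1] at hkpos
      exact (mul_pos_iff_of_pos_left he₀).mp hkpos
    obtain ⟨γ, e', he', hrel⟩ := s29_root_pl_conj N t htr hgen P hPt w₀ hw₀pos
    -- the point `γ τ₀`
    have hval : ∀ x : modRing N, x ≠ 0 →
        anpV N (γ • τ₀) x = e₀ * (rhoL N γ • w₀).ord (algebraMap (modRing N) (ModL N) x) := by
      intro x hx
      rw [← s29_root_pl_anpV_smul, hw₀ _ ((smul_ne_zero_iff_ne _).mpr hx), s29_root_pl_ord_rhoL,
        smul_algebraMap_modL]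
    have hmain : ∀ f : FF N, f ≠ 0 →
        s29_root_ordL N (γ • τ₀) (embF N f) = (e₀ * e') * P.ord f := by
      intro f hf
      have h1 := s29_root_pl_ord_eq (anpV N (γ • τ₀)) (anpV_mul (γ • τ₀)) (rhoL N γ • w₀) e₀ hval
        (embF N f) (hembne f hf)
      have h2 : s29_root_ordL N (γ • τ₀) (embF N f) = e₀ * (rhoL N γ • w₀).ord (embF N f) := h1
      rw [h2, s29_root_pl_ord_rhoL]
      have h3 := hrel f
      rw [asm_algebraMap_FL] at h3
      rw [h3]
      ring
    refine ⟨γ • τ₀, e₀ * e', mul_pos he₀ he', ?_, hmain⟩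
    -- `e ∣ 6`
    have h1 := hmain t ht0
    have h2 : embF N t = algebraMap (modRing N) (ModL N) x₀ := htL
    have hinv : γ⁻¹ • x₀ = x₀ := by
      rw [hx₀, smul_sub, asm_smul_Jelt_one, smul_algebraMap]
    have h3 : s29_root_ordL N (γ • τ₀) (embF N t) = k := by
      rw [h2]
      unfold s29_root_ordL
      rw [anpOrd_algebraMap (anpV N (γ • τ₀)) (anpV_mul (γ • τ₀)) hx₀ne,
        ← s29_root_pl_anpV_smul, hinv, hv]
    rw [h3] at h1
    have hdvd : (e₀ * e') ∣ (k : ℤ) := Dvd.intro _ h1.symm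
    have hk6 : (k : ℤ) ∣ 6 := by
      interval_cases k
      · exact absurd rfl hk0
      · norm_num
      · norm_num
      · norm_num
    exact hdvd.trans hk6
  · -- a cusp
    right
    push Not at hpole
    set t : FF N := (jF N)⁻¹ with ht
    have htr : Transcendental Kbar t := asm_transcendental_inv (transcendental_jF N)
    have ht0 : t ≠ 0 := fun h => htr (by rw [h]; exact isAlgebraic_zero)
    have hPt : 0 < P.ord t := by
      rw [ht, P.ord_inv]
      omega
    have htL : algebraMap (FF N) (ModL N) t = (jL N)⁻¹ := by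
      rw [ht, map_inv₀, asm_algebraMap_jF]
    have hgen : Kbar⟮algebraMap (FF N) (ModL N) t⟯ = Kbar⟮jL N⟯ := by
      rw [htL]
      exact asm_adjoin_inv _
    have hJne : Jelt N 1 (one_dvd N) ≠ 0 := by
      intro h
      have h1 := anpVinf_Jelt N
      rw [h] at h1
      unfold anpVinf at h1
      rw [map_zero, HahnSeries.order_zero] at h1
      have hNpos : (0 : ℤ) < N := by exact_mod_cast Nat.pos_of_ne_zero (NeZero.ne N)
      omega
    have hNpos : (0 : ℤ) < N := by exact_mod_cast Nat.pos_of_ne_zero (NeZero.ne N)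
    obtain ⟨w₀, e₀, he₀, hw₀, -⟩ := anp_exists_place (K := Kbar) (R := modRing N) (L := ModL N)
      (anpVinf N) anpVinf_mul anpVinf_add anpVinf_algebraMap
      ⟨Jelt N 1 (one_dvd N), hJne, by rw [anpVinf_Jelt]; omega⟩
    have hw0 := hw₀ _ hJne
    rw [anpVinf_Jelt] at hw0
    change -(N : ℤ) = e₀ * w₀.ord (jL N) at hw0
    have hneg : w₀.ord (jL N) < 0 := by
      by_contra h
      rw [not_lt] at h
      have := mul_nonneg he₀.le h
      omega
    have hw₀pos : 0 < w₀.ord (algebraMap (FF N) (ModL N) t) := by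
      rw [htL, w₀.ord_inv]
      omega
    obtain ⟨γ, e', he', hrel⟩ := s29_root_pl_conj N t htr hgen P hPt w₀ hw₀pos
    have hval : ∀ x : modRing N, x ≠ 0 →
        anpVinf N (γ⁻¹ • x) = e₀ * (rhoL N γ • w₀).ord (algebraMap (modRing N) (ModL N) x) := by
      intro x hx
      rw [hw₀ _ ((smul_ne_zero_iff_ne _).mpr hx), s29_root_pl_ord_rhoL, smul_algebraMap_modL]
    have hmain : ∀ f : FF N, f ≠ 0 →
        s29_root_ordInf N γ (embF N f) = (e₀ * e') * P.ord f := by
      intro f hf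
      have h1 := s29_root_pl_ord_eq (fun x : modRing N => anpVinf N (γ⁻¹ • x))
        (s29_root_pl_vinf_mul γ) (rhoL N γ • w₀) e₀ hval (embF N f) (hembne f hf)
      have h2 : s29_root_ordInf N γ (embF N f) = e₀ * (rhoL N γ • w₀).ord (embF N f) := h1
      rw [h2, s29_root_pl_ord_rhoL]
      have h3 := hrel f
      rw [asm_algebraMap_FL] at h3
      rw [h3]
      ring
    refine ⟨γ, e₀ * e', mul_pos he₀ he', ?_, hmain⟩
    -- `e ∣ N`
    have hjF0 : jF N ≠ 0 := fun h => (transcendental_jF N) (by rw [h]; exact isAlgebraic_zero)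
    have h1 := hmain (jF N) hjF0
    have h2 : embF N (jF N) = algebraMap (modRing N) (ModL N) (Jelt N 1 (one_dvd N)) :=
      embF_jF N
    have h3 : s29_root_ordInf N γ (embF N (jF N)) = -(N : ℤ) := by
      rw [h2]
      unfold s29_root_ordInf
      rw [anpOrd_algebraMap (fun x : modRing N => anpVinf N (γ⁻¹ • x))
        (s29_root_pl_vinf_mul γ) hJne]
      show anpVinf N (γ⁻¹ • Jelt N 1 (one_dvd N)) = _
      rw [asm_smul_Jelt_one, anpVinf_Jelt]
    rw [h3] at h1
    have hdvd : (e₀ * e') ∣ -(N : ℤ) := Dvd.intro _ h1.symm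
    exact (dvd_neg.mp hdvd)

end Fermat.Agent.S29
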