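import Mathlib
import Fermat.Agent.S37.RRat

/-!
# BRIDGE, leaf (SM): the Galois action on `J_0(N)(Q̄)` is smooth

Every element of `JZero N` (and hence every finite subset) is fixed by `Gal(Q̄/K₁)` for a
suitable finite Galois extension `K₁/ℚ`.  (This is what `GaloisFactorsThroughFiniteLevel` needs;
finiteness of an orbit alone would not be enough.)

* `s29_sm_divisor` : a divisor of `Q̄ · F_N` is fixed by an open subgroup;
* `s29_sm_smooth` : an element of `JZero N` is fixed by an open subgroup;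
* `s29_sm_finite` : a finite subset of `JZero N` is pointwise fixed by an open subgroup.
-/

set_option autoImplicit false

open AlgebraicCurve ModularCurve
open Fermat.Agent.S18 Fermat.Agent.S37

noncomputable section

namespace Fermat.Agent.S29

local notation "Qb" => AlgebraicClosure ℚ

/-- A divisor of `Q̄ · F_N` is fixed by `Gal(Q̄/K₁)` for some finite Galois `K₁/ℚ`. -/
theorem s29_sm_divisor (N : ℕ) [NeZero N] (D : Divisor Qb (modularFunctionFieldBar N)) :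
    ∃ K₁ : IntermediateField ℚ Qb, s18_d1_IsGaloisNF K₁ ∧
      ∀ σ : Qb ≃ₐ[ℚ] Qb, (∀ c ∈ K₁, σ c = c) →
        arithmeticGalois (modularFunctionFieldFull N) σ • D = D := by
  induction D using Finsupp.induction with
  | zero =>
    obtain ⟨K₁, h₁, -⟩ := s18_d1_exists_galois (0 : Qb)
    exact ⟨K₁, h₁, fun σ _ => smul_zero _⟩
  | single_add v n D _ _ ih =>
    obtain ⟨K₁, h₁, hK₁⟩ := s37_rr_exists_fixing N v
    obtain ⟨K₂, h₂, hK₂⟩ := ih
    refine ⟨K₁ ⊔ K₂, h₁.sup h₂, fun σ hσ => ?_⟩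
    have e1 := hK₁ σ (fun c hc => hσ c ((le_sup_left : K₁ ≤ K₁ ⊔ K₂) hc))
    have e2 := hK₂ σ (fun c hc => hσ c ((le_sup_right : K₂ ≤ K₁ ⊔ K₂) hc))
    rw [smul_add, SemilinearAut.smul_single, e1, e2]

/-- **(SM)** Every element of `JZero N` is fixed by `Gal(Q̄/K₁)` for some finite Galois
extension `K₁/ℚ`. -/
theorem s29_sm_smooth (N : ℕ) [NeZero N] (x : JZero N) :
    ∃ K₁ : IntermediateField ℚ Qb, s18_d1_IsGaloisNF K₁ ∧
      ∀ σ : Qb ≃ₐ[ℚ] Qb, (∀ c ∈ K₁, σ c = c) → σ • x = x := by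
  obtain ⟨D, rfl⟩ := Pic0.mk_surjective x
  obtain ⟨K₁, h₁, hK₁⟩ := s29_sm_divisor N (D : Divisor Qb (modularFunctionFieldBar N))
  refine ⟨K₁, h₁, fun σ hσ => ?_⟩
  rw [galois_smul_pic0_def, SemilinearAut.pic0_smul_mk]
  exact congrArg Pic0.mk (Subtype.ext (by rw [SemilinearAut.coe_degZeroSMulHom]; exact hK₁ σ hσ))

/-- A finite subset of `JZero N` is pointwise fixed by `Gal(Q̄/K₁)` for some finite Galois
extension `K₁/ℚ`. -/
theorem s29_sm_finite (N : ℕ) [NeZero N] (S : Set (JZero N)) (hS : S.Finite) :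
    ∃ K₁ : IntermediateField ℚ Qb, s18_d1_IsGaloisNF K₁ ∧
      ∀ σ : Qb ≃ₐ[ℚ] Qb, (∀ c ∈ K₁, σ c = c) → ∀ x ∈ S, σ • x = x := by
  induction S, hS using Set.Finite.induction_on with
  | empty =>
    obtain ⟨K₁, h₁, -⟩ := s18_d1_exists_galois (0 : Qb)
    exact ⟨K₁, h₁, fun σ _ x hx => absurd hx (Set.notMem_empty x)⟩
  | @insert a S _ _ ih =>
    obtain ⟨K₁, h₁, hK₁⟩ := s29_sm_smooth N a
    obtain ⟨K₂, h₂, hK₂⟩ := ih
    refine ⟨K₁ ⊔ K₂, h₁.sup h₂, fun σ hσ x hx => ?_⟩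
    rcases Set.mem_insert_iff.mp hx with rfl | hx
    · exact hK₁ σ (fun c hc => hσ c ((le_sup_left : K₁ ≤ K₁ ⊔ K₂) hc))
    · exact hK₂ σ (fun c hc => hσ c ((le_sup_right : K₂ ≤ K₁ ⊔ K₂) hc)) x hx

/-- The same in the shape of `GaloisFactorsThroughFiniteLevel`: a finite-dimensional
intermediate field. -/
theorem s29_sm_finite_level (N : ℕ) [NeZero N] (S : Set (JZero N)) (hS : S.Finite) :
    ∃ L : IntermediateField ℚ Qb, FiniteDimensional ℚ L ∧ IsGalois ℚ L ∧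
      ∀ σ : Qb ≃ₐ[ℚ] Qb, (∀ c ∈ L, σ c = c) → ∀ x ∈ S, σ • x = x := by
  obtain ⟨K₁, h₁, hK₁⟩ := s29_sm_finite N S hS
  exact ⟨K₁, h₁.1, h₁.2, hK₁⟩

end Fermat.Agent.S29
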