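import Mathlib
import Fermat.Agent.S29.EisWireKa
import Fermat.Agent.S29.ZMer

/-!
# BRIDGE (E1), (E1'): the analytic input of the existence chain

For an integral parabolic homomorphism `ψ : Γ₀(N) → ℤ` and `M ≥ 1`, the meromorphic function
`G = E_{4,χ} / E_{4,1}` (`χ = exp(2πiψ/M)`) has the character `ψ mod M` and its `M`-th power is a
rational function of `J(τ)` and `J(Nτ)`:

* `s29_zc_Gchi_pow` : `G ^ M · D(J, J_N) = H(J, J_N)` in the field of meromorphic functions;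
* `s29_ew_e1` : the same in terms of holomorphic functions `Φ, Φ₁` (`G = Φ / Φ₁`);
* `s29_zc_hsup` : for a ring homomorphism `anC : F →+* s29_Mer` whose range contains the constants,
  `J` and `J_N`, the range contains all `P(J, J_N)`;
* `s29_zc_gC` (E1') : for such an `anC` (from a field), `G ^ M = anC gC` for some `gC ≠ 0`.
-/

open UpperHalfPlane ModularForm CongruenceSubgroup Matrix Filter Topology Polynomial
open scoped MatrixGroups Manifold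

noncomputable section

namespace Fermat.Agent.S29

open Fermat.Agent.S28 (Jfun scaleH)

/-- **(E1)** -/
theorem s29_ew_e1 (N M : ℕ) [NeZero N] [NeZero M] (ψ : Additive (Gamma0 N) →+ ℤ)
    (hψ : ψ ∈ ModularCurve.Period.parabolicHoms ℤ (Gamma0 N) ℤ) :
    ∃ (Φ Φ₁ : ℍ → ℂ) (hΦ : MDifferentiable 𝓘(ℂ) 𝓘(ℂ) Φ) (hΦ₁ : MDifferentiable 𝓘(ℂ) 𝓘(ℂ) Φ₁)
      (D H : Polynomial (Polynomial ℂ)),
      (∃ τ, Φ τ ≠ 0) ∧ (∃ τ, Φ₁ τ ≠ 0) ∧ (∃ τ, s29_z_ev N D τ ≠ 0) ∧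
      (∀ τ, Φ τ ^ M * s29_z_ev N D τ = Φ₁ τ ^ M * s29_z_ev N H τ) ∧
      s29_ka_IsChar N M
        (algebraMap s29_hol s29_Mer (s29_mkHol Φ hΦ) / algebraMap s29_hol s29_Mer (s29_mkHol Φ₁ hΦ₁))
        ((Int.castAddHom (ZMod M)).comp ψ) := by
  obtain ⟨Φ, Φ₁, hΦ, hΦ₁, h0, h1, hchar, ha, hb, hb0, hak, hbk, habd, hbbd⟩ :=
    s29_ew_ka_exists N M ψ hψ
  obtain ⟨D, H, hD, hDH⟩ := s29_z2_modform N ((4 : ℤ) * M) (fun τ => Φ τ ^ M)
    (fun τ => Φ₁ τ ^ M) ha hb hb0 hak hbk habd hbbd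
  exact ⟨Φ, Φ₁, hΦ, hΦ₁, D, H, h0, h1, hD, hDH, hchar⟩

/-- `G_ψ ^ M ∈ ℂ(J, J_N)` for the quotient `G_ψ` of weight four Eisenstein series. -/
theorem s29_zc_Gchi_pow (N M : ℕ) [NeZero N] [NeZero M] (ψ : Additive (Gamma0 N) →+ ZMod M)
    (hψ : ModularCurve.Period.IsParabolicHom (Gamma0 N) ψ) :
    ∃ D H : Polynomial (Polynomial ℂ), s29_z_evMer N D ≠ 0 ∧ s29_z_evMer N H ≠ 0 ∧
      s29_ew_Gchi N M ψ ^ M * s29_z_evMer N D = s29_z_evMer N H := by
  obtain ⟨D, H, hD, hDH⟩ := s29_z2_modform N ((4 : ℤ) * M) (fun τ => s29_ew_E N M ψ τ ^ M)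
    (fun τ => s29_ew_E1 N τ ^ M) (s29_ew_pow_mdiff (s29_ew_E_mdiff N M ψ) M)
    (s29_ew_pow_mdiff (s29_ew_E1_mdiff N) M) (s29_ew_pow_ne_zero (s29_ew_E1_ne_zero N) M)
    (s29_ew_Em_smul hψ) (s29_ew_E1m_smul N M) (s29_ew_Em_bdd N M ψ) (s29_ew_E1m_bdd N M)
  have hD' : s29_z_evMer N D ≠ 0 := (s29_z_evMer_ne_zero_iff N D).2 hD
  have hb : algebraMap s29_hol s29_Mer
      (s29_mkHol (fun τ => s29_ew_E1 N τ ^ M) (s29_ew_pow_mdiff (s29_ew_E1_mdiff N) M)) ≠ 0 :=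
    s29_ew_mkHol_ne_zero _ (s29_ew_pow_ne_zero (s29_ew_E1_ne_zero N) M)
  have key : s29_ew_Gchi N M ψ ^ M * s29_z_evMer N D = s29_z_evMer N H := by
    rw [s29_ew_Gchi_pow]
    unfold s29_ew_G
    rw [div_mul_eq_mul_div, div_eq_iff hb, s29_z_evMer_apply, s29_z_evMer_apply, ← map_mul,
      ← map_mul]
    congr 1
    refine s29_hol_ext fun τ => ?_
    show s29_ew_E N M ψ τ ^ M * s29_z_ev N D τ = s29_z_ev N H τ * s29_ew_E1 N τ ^ M
    rw [hDH τ, mul_comm]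
  refine ⟨D, H, hD', ?_, key⟩
  rw [← key]
  exact mul_ne_zero (pow_ne_zero _ (s29_ew_Gchi_ne_zero hψ)) hD'

/-- If the range of a ring homomorphism to the meromorphic functions contains the constants,
`J` and `J_N`, then it contains all `P(J, J_N)`. -/
theorem s29_zc_hsup (N : ℕ) [NeZero N] {F : Type*} [Ring F] (anC : F →+* s29_Mer)
    (hc : ∀ c : ℂ, algebraMap ℂ s29_Mer c ∈ Set.range anC)
    (hJ : ∃ (f : F) (j : s29_hol), anC f = algebraMap s29_hol s29_Mer j ∧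
      ∀ τ, (j : ℍ → ℂ) τ = Jfun τ)
    (hJN : ∃ (f : F) (j : s29_hol), anC f = algebraMap s29_hol s29_Mer j ∧
      ∀ τ, (j : ℍ → ℂ) τ = Jfun (scaleH N τ))
    (P : Polynomial (Polynomial ℂ)) : s29_z_evMer N P ∈ Set.range anC := by
  have hcc : ∀ c : ℂ, s29_z_evMer N (C (C c)) ∈ anC.range := by
    intro c
    rw [s29_z_evMer_CC]
    exact hc c
  have hCX : s29_z_evMer N (C X) ∈ anC.range := by
    obtain ⟨f, j, hf, hj⟩ := hJ
    refine ⟨f, ?_⟩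
    rw [hf, s29_z_evMer_apply]
    congr 1
    exact s29_hol_ext fun τ => by rw [hj, s29_z_evHol_apply, s29_z_ev_CX]
  have hX : s29_z_evMer N X ∈ anC.range := by
    obtain ⟨f, j, hf, hj⟩ := hJN
    refine ⟨f, ?_⟩
    rw [hf, s29_z_evMer_apply]
    congr 1
    exact s29_hol_ext fun τ => by rw [hj, s29_z_evHol_apply, s29_z_ev_X]
  have hC : ∀ p : Polynomial ℂ, s29_z_evMer N (C p) ∈ anC.range := by
    intro p
    induction p using Polynomial.induction_on' with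
    | add p q hp hq =>
      rw [C_add, map_add]
      exact add_mem hp hq
    | monomial n c =>
      rw [← C_mul_X_pow_eq_monomial, C_mul, C_pow, map_mul, map_pow]
      exact mul_mem (hcc c) (pow_mem hCX n)
  show s29_z_evMer N P ∈ anC.range
  induction P using Polynomial.induction_on' with
  | add P Q hP hQ =>
    rw [map_add]
    exact add_mem hP hQ
  | monomial n p =>
    rw [← C_mul_X_pow_eq_monomial, map_mul, map_pow]
    exact mul_mem (hC p) (pow_mem hX n)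

/-- **(E1')** If `anC : F →+* s29_Mer` is a homomorphism from a field whose range contains all
`P(J, J_N)`, then `G_ψ ^ M = anC gC` for some `gC ≠ 0`. -/
theorem s29_zc_gC' (N M : ℕ) [NeZero N] [NeZero M] {F : Type*} [Field F] (anC : F →+* s29_Mer)
    (hsup : ∀ P : Polynomial (Polynomial ℂ), s29_z_evMer N P ∈ Set.range anC)
    (ψ : Additive (Gamma0 N) →+ ZMod M)
    (hψ : ModularCurve.Period.IsParabolicHom (Gamma0 N) ψ) :
    ∃ gC : F, gC ≠ 0 ∧ anC gC = s29_ew_Gchi N M ψ ^ M := by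
  obtain ⟨D, H, hD, hH, hDH⟩ := s29_zc_Gchi_pow N M ψ hψ
  obtain ⟨fD, hfD⟩ := hsup D
  obtain ⟨fH, hfH⟩ := hsup H
  have h1 : anC (fH / fD) = s29_ew_Gchi N M ψ ^ M := by
    rw [map_div₀, hfD, hfH, ← hDH, mul_div_assoc, div_self hD, mul_one]
  refine ⟨fH / fD, ?_, h1⟩
  intro h0
  rw [h0, map_zero] at h1
  exact pow_ne_zero _ (s29_ew_Gchi_ne_zero hψ) h1.symm

/-- **(E1')** for an integral parabolic homomorphism. -/
theorem s29_zc_gC (N M : ℕ) [NeZero N] [NeZero M] {F : Type*} [Field F] (anC : F →+* s29_Mer)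
    (hsup : ∀ P : Polynomial (Polynomial ℂ), s29_z_evMer N P ∈ Set.range anC)
    (ψ : Additive (Gamma0 N) →+ ℤ)
    (hψ : ψ ∈ ModularCurve.Period.parabolicHoms ℤ (Gamma0 N) ℤ) :
    ∃ gC : F, gC ≠ 0 ∧ anC gC = s29_ew_Gchi N M (s29_ew_red M ψ) ^ M :=
  s29_zc_gC' N M anC hsup _ (s29_ew_red_parabolic N M ψ hψ)

/-- multiplying by a `Γ₀(N)`-invariant function does not change the character. -/
theorem s29_zc_isChar_mul_inv {N m : ℕ} [NeZero m] {G u : s29_Mer}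
    {χ : Additive (Gamma0 N) →+ ZMod m} (hG : s29_ka_IsChar N m G χ)
    (hu : ∀ γ : SL(2, ℤ), γ ∈ Gamma0 N → γ • u = u) : s29_ka_IsChar N m (u * G) χ := by
  have h := s29_ka_isChar_mul (s29_ka_isChar_zero_iff.2 hu) hG
  rwa [zero_add] at h

/-- The character of `anC h · G_ψ` is `ψ mod M`, for `anC h` invariant under `Γ₀(N)`. -/
theorem s29_zc_isChar (N M : ℕ) [NeZero M] (ψ : Additive (Gamma0 N) →+ ℤ)
    (hψ : ψ ∈ ModularCurve.Period.parabolicHoms ℤ (Gamma0 N) ℤ) (u : s29_Mer)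
    (hu : ∀ γ : SL(2, ℤ), γ ∈ Gamma0 N → γ • u = u) :
    s29_ka_IsChar N M (u * s29_ew_Gchi N M (s29_ew_red M ψ)) ((Int.castAddHom (ZMod M)).comp ψ) :=
  s29_zc_isChar_mul_inv (s29_ew_ka_Gchi_isChar (s29_ew_red_parabolic N M ψ hψ)) hu

end Fermat.Agent.S29
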