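import Fermat.Agent.S29.ZCRoot

/-!
# S29 (project BRIDGE): the analytic realisation over `ℂ` is determined by (h1), (h2)

`F_L = laurentBaseChange L (modularFunctionFieldFull N)` is generated, as a field, by the
constants and the `j(q^d)`, `d ∣ N` (`s29_zcr_gen`).  Consequences for a ring homomorphism
`anC : F_C →+* s29_Mer` with

* (h1) `anC c = c` for constants `c : ℂ`,
* (h2) `anC (j(q^d)) = J(d τ)` for `d ∣ N`:

* `s29_zcr_unique` : `anC` is unique;
* `s29_zcr_h4`     : `anC (coeffMap iotaK g) = s29_an N g` for `g ∈ F_N` (compatibility with the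
  model over `ℚ̄`).
-/

set_option autoImplicit false

open UpperHalfPlane ModularCurve Polynomial
open scoped MatrixGroups Manifold

noncomputable section

namespace Fermat.Agent.S29

open Fermat.Agent.S24
open Fermat.Agent.S28 (Jfun scaleH)
open CongruenceSubgroup

attribute [local instance] algKC

/-- **generators**: a subfield of `F_L = L · F_N` containing the constants and the `j(q^d)`,
`d ∣ N`, is everything. -/
theorem s29_zcr_gen {L : Type*} [Field L] [Algebra ℚ L] (N : ℕ) [NeZero N]
    (S : Subfield ↥(laurentBaseChange L (modularFunctionFieldFull N)))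
    (hc : ∀ c : L, algebraMap L ↥(laurentBaseChange L (modularFunctionFieldFull N)) c ∈ S)
    (hj : ∀ (d : ℕ) [NeZero d] (hd : d ∣ N),
      (⟨coeffEmb L (qExpand ℚ d jq), coeffEmb_mem_laurentBaseChange L (jqd_mem_full N hd)⟩ :
        ↥(laurentBaseChange L (modularFunctionFieldFull N))) ∈ S)
    (f : ↥(laurentBaseChange L (modularFunctionFieldFull N))) : f ∈ S := by
  let S' : Subfield (LaurentSeries L) :=
    S.map (laurentBaseChange L (modularFunctionFieldFull N)).toSubfield.subtype
  have hS' : ∀ x : ↥(laurentBaseChange L (modularFunctionFieldFull N)),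
      x ∈ S → (x : LaurentSeries L) ∈ S' := fun x hx => ⟨x, hx, rfl⟩
  have h1' : ∀ x ∈ modularFunctionFieldFull N, coeffEmb L x ∈ S' := by
    intro x hx
    have hx' : x ∈ Subfield.closure
        (Set.range (algebraMap ℚ (LaurentSeries ℚ)) ∪ divisorExpansions N) := hx
    have hle : Subfield.closure
        (Set.range (algebraMap ℚ (LaurentSeries ℚ)) ∪ divisorExpansions N)
        ≤ S'.comap (coeffEmb L) := by
      rw [Subfield.closure_le]
      rintro y (⟨r, rfl⟩ | ⟨d, hd, hdN, rfl⟩)
      · show coeffEmb L (algebraMap ℚ _ r) ∈ S'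
        rw [eq_ratCast, map_ratCast]
        exact SubfieldClass.ratCast_mem S' r
      · have := hd
        show coeffEmb L (qExpand ℚ d jq) ∈ S'
        exact hS' _ (hj d hdN)
    exact hle hx'
  have h2' : ∀ x ∈ laurentBaseChange L (modularFunctionFieldFull N), x ∈ S' := by
    intro x hx
    rw [mem_laurentBaseChange_iff] at hx
    have hle : Subfield.closure (Set.range (algebraMap L (LaurentSeries L)) ∪
        (⇑(coeffEmb L) '' (modularFunctionFieldFull N : Set (LaurentSeries ℚ)))) ≤ S' := by
      rw [Subfield.closure_le]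
      rintro y (⟨c, rfl⟩ | ⟨x, hx, rfl⟩)
      · exact hS' _ (hc c)
      · exact h1' x hx
    exact hle hx
  obtain ⟨g, hg, hgf⟩ := h2' f f.2
  have hgf' : g = f := Subtype.ext hgf
  rw [← hgf']
  exact hg

/-- two ring homomorphisms on `F_L` which agree on the constants and on the `j(q^d)`, `d ∣ N`,
are equal. -/
theorem s29_zcr_hom_ext {L : Type*} [Field L] [Algebra ℚ L] (N : ℕ) [NeZero N]
    {R : Type*} [Semiring R] [Nontrivial R]
    (a a' : ↥(laurentBaseChange L (modularFunctionFieldFull N)) →+* R)
    (hc : ∀ c : L, a (algebraMap L _ c) = a' (algebraMap L _ c))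
    (hj : ∀ (d : ℕ) [NeZero d] (hd : d ∣ N),
      a ⟨coeffEmb L (qExpand ℚ d jq), coeffEmb_mem_laurentBaseChange L (jqd_mem_full N hd)⟩ =
        a' ⟨coeffEmb L (qExpand ℚ d jq), coeffEmb_mem_laurentBaseChange L (jqd_mem_full N hd)⟩) :
    a = a' := by
  apply RingHom.ext
  intro f
  exact s29_zcr_gen N (RingHom.eqLocusField a a') hc (fun d _ hd => hj d hd) f

section main

variable (N : ℕ) [NeZero N]
  (anC : ↥(laurentBaseChange ℂ (modularFunctionFieldFull N)) →+* s29_Mer)
  (h1 : ∀ c : ℂ, anC (algebraMap ℂ _ c) = algebraMap ℂ s29_Mer c)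
  (h2 : ∀ (d : ℕ) [NeZero d], d ∣ N →
    ∀ x : ↥(laurentBaseChange ℂ (modularFunctionFieldFull N)),
      (x : LaurentSeries ℂ) = coeffEmb ℂ (qExpand ℚ d jq) →
      ∀ f : s29_hol, (∀ τ, (f : ℍ → ℂ) τ = Jfun (scaleH d τ)) →
        anC x = algebraMap s29_hol s29_Mer f)

include h1 h2

/-- **uniqueness** of the analytic realisation over `ℂ`. -/
theorem s29_zcr_unique
    (anC' : ↥(laurentBaseChange ℂ (modularFunctionFieldFull N)) →+* s29_Mer)
    (h1' : ∀ c : ℂ, anC' (algebraMap ℂ _ c) = algebraMap ℂ s29_Mer c)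
    (h2' : ∀ (d : ℕ) [NeZero d], d ∣ N →
      ∀ x : ↥(laurentBaseChange ℂ (modularFunctionFieldFull N)),
        (x : LaurentSeries ℂ) = coeffEmb ℂ (qExpand ℚ d jq) →
        ∀ f : s29_hol, (∀ τ, (f : ℍ → ℂ) τ = Jfun (scaleH d τ)) →
          anC' x = algebraMap s29_hol s29_Mer f) :
    anC = anC' := by
  refine s29_zcr_hom_ext N anC anC' (fun c => by rw [h1, h1']) (fun d _ hd => ?_)
  rw [h2 d hd _ rfl (s29_ofModRing N (Jelt N d hd)) (s29_zcr_Jelt_apply N d hd),
    h2' d hd _ rfl (s29_ofModRing N (Jelt N d hd)) (s29_zcr_Jelt_apply N d hd)]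

/-- **(h4)**: compatibility with the model over `ℚ̄`. -/
theorem s29_zcr_h4 (g : modularFunctionFieldBar N)
    (hmem : coeffMap iotaK (g : LaurentSeries Kbar) ∈
      laurentBaseChange ℂ (modularFunctionFieldFull N)) :
    anC ⟨coeffMap iotaK (g : LaurentSeries Kbar), hmem⟩ = s29_an N g := by
  -- membership for all elements
  have hall : ∀ x : LaurentSeries Kbar, x ∈ modularFunctionFieldBar N →
      coeffMap iotaK x ∈ laurentBaseChange ℂ (modularFunctionFieldFull N) := by
    intro x hx
    rw [mem_laurentBaseChange_iff] at hx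
    induction hx using Subfield.closure_induction with
    | mem y hy =>
        rcases hy with ⟨a, rfl⟩ | ⟨z, hz, rfl⟩
        · rw [algebraMap_laurentSeries_eq_single, coeffMap_single,
            ← algebraMap_laurentSeries_eq_single]
          exact (laurentBaseChange ℂ (modularFunctionFieldFull N)).algebraMap_mem _
        · have e : coeffMap iotaK (coeffEmb Kbar z) = coeffEmb ℂ z := by
            rw [coeffEmb, coeffMap_coeffMap, coeffEmb]
            exact coeffMap_congr
              (RingHom.ext_rat (iotaK.comp (algebraMap ℚ Kbar)) (algebraMap ℚ ℂ)) z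
          rw [e]
          exact coeffEmb_mem_laurentBaseChange ℂ hz
    | one => rw [map_one]; exact one_mem _
    | add x y _ _ hx hy => rw [map_add]; exact add_mem hx hy
    | neg x _ hx => rw [map_neg]; exact neg_mem hx
    | inv x _ hx => rw [map_inv₀]; exact inv_mem hx
    | mul x y _ _ hx hy => rw [map_mul]; exact mul_mem hx hy
  -- the base change as a ring hom `F_N → F_C`
  let bc : modularFunctionFieldBar N →+* ↥(laurentBaseChange ℂ (modularFunctionFieldFull N)) :=
    { toFun := fun x => ⟨coeffMap iotaK (x : LaurentSeries Kbar), hall _ x.2⟩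
      map_one' := Subtype.ext (map_one (coeffMap iotaK))
      map_mul' := fun x y => Subtype.ext (map_mul (coeffMap iotaK) _ _)
      map_zero' := Subtype.ext (map_zero (coeffMap iotaK))
      map_add' := fun x y => Subtype.ext (map_add (coeffMap iotaK) _ _) }
  have key : anC.comp bc = s29_an N := by
    refine s29_zcr_hom_ext N (anC.comp bc) (s29_an N) (fun c => ?_) (fun d _ hd => ?_)
    · rw [s29_an_const]
      have e : bc (algebraMap Kbar _ c) = algebraMap ℂ _ (iotaK c) := by
        apply Subtype.ext
        show coeffMap iotaK (algebraMap Kbar (LaurentSeries Kbar) c) =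
          algebraMap ℂ (LaurentSeries ℂ) (iotaK c)
        rw [algebraMap_laurentSeries_eq_single, coeffMap_single,
          ← algebraMap_laurentSeries_eq_single]
      rw [RingHom.comp_apply, e, h1]
    · rw [s29_zcr_an_jd N d hd, RingHom.comp_apply]
      refine h2 d hd _ ?_ _ (s29_zcr_Jelt_apply N d hd)
      show coeffMap iotaK (coeffEmb Kbar (qExpand ℚ d jq)) = coeffEmb ℂ (qExpand ℚ d jq)
      rw [coeffEmb, coeffMap_coeffMap, coeffEmb]
      exact coeffMap_congr
        (RingHom.ext_rat (iotaK.comp (algebraMap ℚ Kbar)) (algebraMap ℚ ℂ)) _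
  have h := congrArg (fun φ : modularFunctionFieldBar N →+* s29_Mer => φ g) key
  exact h

end main

end Fermat.Agent.S29
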