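import Mathlib
import Fermat.Agent.S29.ZC
import Fermat.Agent.S29.CModEmb

/-!
# BRIDGE (E1') at the concrete `ℂ`-model

`s29_anC N : s29_cF N →+* s29_Mer` (CModEmb.lean) is the analytic realisation of the function
field `F_C = ℂ(j(q^d) : d ∣ N) ⊆ ℂ((q))`.

* `s29_zc_anC_jd` (h2) : `s29_anC N (j(q^d)) = J(d·)` for `d ∣ N`;
* `s29_zc_anC_hsup` : all `P(J, J_N)` are in the range of `s29_anC N`;
* `s29_zc_anC_gC` (E1') : `G_ψ ^ M = s29_anC N gC` for some `gC ≠ 0` in `F_C`.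
-/

open UpperHalfPlane ModularCurve Polynomial
open scoped MatrixGroups IntermediateField Manifold

noncomputable section

namespace Fermat.Agent.S29

open Fermat.Agent.S24
open Fermat.Agent.S28 (Jfun scaleH)
open CongruenceSubgroup

attribute [local instance] algKC

/-- the element `j(q^d)` of `F_C`, `d ∣ N`. -/
def s29_zc_jd (N : ℕ) [NeZero N] (d : ℕ) [NeZero d] (hd : d ∣ N) : s29_cF N :=
  ⟨coeffEmb ℂ (qExpand ℚ d jq), coeffEmb_mem_laurentBaseChange ℂ (jqd_mem_full N hd)⟩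

theorem s29_zc_jd_coe (N : ℕ) [NeZero N] (d : ℕ) [NeZero d] (hd : d ∣ N) :
    ((s29_zc_jd N d hd : s29_cF N) : LaurentSeries ℂ) = coeffEmb ℂ (qExpand ℚ d jq) := rfl

/-- **(h2)** the analytic realisation of `j(q^d)` is `J(d τ)`. -/
theorem s29_zc_anC_jd (N : ℕ) [NeZero N] (d : ℕ) [NeZero d] (hd : d ∣ N) :
    s29_anC N (s29_zc_jd N d hd) =
      algebraMap s29_hol s29_Mer (s29_cOfRing N (s29_cJ N d hd)) := by
  rw [← s29_cOfL_algebraMap, s29_anC_eq_iff, s29_cExpL_algebraMap, s29_cExp_cJ]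
  rfl

theorem s29_zc_cJ_apply (N : ℕ) [NeZero N] (d : ℕ) [NeZero d] (hd : d ∣ N) (τ : ℍ) :
    (s29_cOfRing N (s29_cJ N d hd) : ℍ → ℂ) τ = Jfun (scaleH d τ) := by
  rw [s29_cOfRing_apply, s29_cJ, s29_cIncl_coe]
  show Jfun (scaleH d ((1 : SL(2, ℤ)) • τ)) = _
  rw [one_smul]

/-- **(h2)**, any presentation: for every `x ∈ F_C` with `x = j(q^d)` and every holomorphic `f`
with `f τ = J(d τ)`: `s29_anC N x = f`. -/
theorem s29_zc_anC_jd' (N : ℕ) [NeZero N] (d : ℕ) [NeZero d] (hd : d ∣ N) (x : s29_cF N)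
    (hx : (x : LaurentSeries ℂ) = coeffEmb ℂ (qExpand ℚ d jq)) (f : s29_hol)
    (hf : ∀ τ, (f : ℍ → ℂ) τ = Jfun (scaleH d τ)) :
    s29_anC N x = algebraMap s29_hol s29_Mer f := by
  have hx' : x = s29_zc_jd N d hd := Subtype.ext hx
  rw [hx', s29_zc_anC_jd]
  congr 1
  exact s29_hol_ext fun τ => by rw [hf, s29_zc_cJ_apply]

/-- all `P(J, J_N)` are in the range of `s29_anC N`. -/
theorem s29_zc_anC_hsup (N : ℕ) [NeZero N] (P : Polynomial (Polynomial ℂ)) :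
    s29_z_evMer N P ∈ Set.range (s29_anC N) := by
  refine s29_zc_hsup N (s29_anC N) (fun c => ⟨_, s29_anC_const N c⟩) ?_ ?_ P
  · refine ⟨s29_zc_jd N 1 (one_dvd N), _, s29_zc_anC_jd N 1 (one_dvd N), fun τ => ?_⟩
    rw [s29_zc_cJ_apply]
    congr 1
    apply UpperHalfPlane.ext
    simp [scaleH]
  · exact ⟨s29_zc_jd N N dvd_rfl, _, s29_zc_anC_jd N N dvd_rfl,
      fun τ => s29_zc_cJ_apply N N dvd_rfl τ⟩

/-- **(E1')** `G_ψ ^ M` is the analytic realisation of a nonzero element `gC` of `F_C`. -/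
theorem s29_zc_anC_gC (N M : ℕ) [NeZero N] [NeZero M] (ψ : Additive (Gamma0 N) →+ ℤ)
    (hψ : ψ ∈ ModularCurve.Period.parabolicHoms ℤ (Gamma0 N) ℤ) :
    ∃ gC : s29_cF N, gC ≠ 0 ∧ s29_anC N gC = s29_ew_Gchi N M (s29_ew_red M ψ) ^ M :=
  s29_zc_gC N M (s29_anC N) (s29_zc_anC_hsup N) ψ hψ

/-- The character of `s29_anC N h · G_ψ` is `ψ mod M`. -/
theorem s29_zc_anC_isChar (N M : ℕ) [NeZero N] [NeZero M] (ψ : Additive (Gamma0 N) →+ ℤ)
    (hψ : ψ ∈ ModularCurve.Period.parabolicHoms ℤ (Gamma0 N) ℤ) (h : s29_cF N) :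
    s29_ka_IsChar N M (s29_anC N h * s29_ew_Gchi N M (s29_ew_red M ψ))
      ((Int.castAddHom (ZMod M)).comp ψ) :=
  s29_zc_isChar N M ψ hψ _ (fun γ hγ => s29_anC_smul N γ hγ h)

end Fermat.Agent.S29
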