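import Fermat.Agent.S29.ZMer

/-!
# S29 (project BRIDGE), block (Z2): the field `ℂ(J, J_N)` of modular functions of level `Γ₀(N)`

* `s29_z_field N : Subfield s29_Mer` : the field `ℂ(J, J_N)` of quotients
  `H(J, J_N) / D(J, J_N)` inside the field of meromorphic functions on `ℍ`;
* it contains the constants, the functions `J(d·)` for `d ∣ N`, the analytic realisation of the
  function field `F_N`, every holomorphic `Γ₀(N)`-invariant function of finite order at the
  cusps; its elements are `Γ₀(N)`-invariant; it is closed under `Γ₀(N)`-invariant roots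
  (`s29_z_field_root`);
* `s29_z_hZ` : for any field homomorphism `anC : F →+* s29_Mer` whose range lies between
  `ℂ[J, J_N]` and `ℂ(J, J_N)`: a `Γ₀(N)`-invariant meromorphic function one of whose powers is
  in the range of `anC` is in the range of `anC`.
-/

set_option autoImplicit false

open UpperHalfPlane ModularForm Polynomial Filter ModularCurve
open scoped MatrixGroups Manifold

noncomputable section

namespace Fermat.Agent.S29

open Fermat.Agent.S28 (Jfun scaleH)

/-- The field `ℂ(J, J_N)` inside the field of meromorphic functions on the upper half plane. -/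
def s29_z_field (N : ℕ) [NeZero N] : Subfield s29_Mer where
  carrier := {x | ∃ D H : Polynomial (Polynomial ℂ), s29_z_evMer N D ≠ 0 ∧
    x * s29_z_evMer N D = s29_z_evMer N H}
  mul_mem' := by
    rintro x y ⟨D, H, hD, h⟩ ⟨D', H', hD', h'⟩
    refine ⟨D * D', H * H', ?_, ?_⟩
    · rw [map_mul]
      exact mul_ne_zero hD hD'
    · rw [map_mul, map_mul, ← h, ← h']
      ring
  one_mem' := ⟨1, 1, by rw [map_one]; exact one_ne_zero, by rw [map_one, mul_one]⟩
  add_mem' := by
    rintro x y ⟨D, H, hD, h⟩ ⟨D', H', hD', h'⟩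
    refine ⟨D * D', H * D' + H' * D, ?_, ?_⟩
    · rw [map_mul]
      exact mul_ne_zero hD hD'
    · simp only [map_mul, map_add]
      rw [← h, ← h']
      ring
  zero_mem' := ⟨1, 0, by rw [map_one]; exact one_ne_zero, by rw [map_zero, zero_mul]⟩
  neg_mem' := by
    rintro x ⟨D, H, hD, h⟩
    exact ⟨D, -H, hD, by rw [map_neg, ← h]; ring⟩
  inv_mem' := by
    rintro x ⟨D, H, hD, h⟩
    by_cases hx : x = 0
    · subst hx
      rw [inv_zero]
      exact ⟨1, 0, by rw [map_one]; exact one_ne_zero, by rw [map_zero, zero_mul]⟩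
    · have hH : s29_z_evMer N H ≠ 0 := by
        rw [← h]
        exact mul_ne_zero hx hD
      exact ⟨H, D, hH, by rw [← h, inv_mul_cancel_left₀ hx]⟩

theorem s29_z_mem_field_iff (N : ℕ) [NeZero N] (x : s29_Mer) :
    x ∈ s29_z_field N ↔ ∃ D H : Polynomial (Polynomial ℂ), s29_z_evMer N D ≠ 0 ∧
      x * s29_z_evMer N D = s29_z_evMer N H := Iff.rfl

theorem s29_z_evMer_mem_field (N : ℕ) [NeZero N] (P : Polynomial (Polynomial ℂ)) :
    s29_z_evMer N P ∈ s29_z_field N :=
  ⟨1, P, by rw [map_one]; exact one_ne_zero, by rw [map_one, mul_one]⟩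

theorem s29_z_const_mem_field (N : ℕ) [NeZero N] (c : ℂ) :
    algebraMap ℂ s29_Mer c ∈ s29_z_field N := by
  rw [← s29_z_evMer_CC N c]
  exact s29_z_evMer_mem_field N _

/-- The analytic realisation of the function field `F_N` lies in `ℂ(J, J_N)`. -/
theorem s29_z_an_mem_field (N : ℕ) [NeZero N] (g : modularFunctionFieldBar N) :
    s29_an N g ∈ s29_z_field N :=
  s29_z2_an N g

/-- Holomorphic `Γ₀(N)`-invariant functions of finite order at the cusps lie in `ℂ(J, J_N)`. -/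
theorem s29_z_hol_mem_field (N : ℕ) [NeZero N] (f : ℍ → ℂ)
    (hf : MDifferentiable 𝓘(ℂ) 𝓘(ℂ) f)
    (hinv : ∀ γ : SL(2, ℤ), γ ∈ CongruenceSubgroup.Gamma0 N → ∀ τ : ℍ, f (γ • τ) = f τ)
    (hbd : s29_z_CuspBdd f) :
    algebraMap s29_hol s29_Mer (s29_mkHol f hf) ∈ s29_z_field N := by
  refine s29_z2_mer_hol N (s29_mkHol f hf) (fun γ hγ => ?_) hbd
  rw [s29_z_smul_mk_iff]
  intro τ
  exact hinv γ⁻¹ (inv_mem hγ) τ

/-- `J(d·) ∈ ℂ(J, J_N)` for `d ∣ N`. -/
theorem s29_z_jd_mem_field (N : ℕ) [NeZero N] (d : ℕ) [NeZero d] (hd : d ∣ N)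
    (h : MDifferentiable 𝓘(ℂ) 𝓘(ℂ) (fun τ : ℍ => Jfun (scaleH d τ))) :
    algebraMap s29_hol s29_Mer (s29_mkHol (fun τ : ℍ => Jfun (scaleH d τ)) h) ∈
      s29_z_field N := by
  have hmem : (fun τ : ℍ => Jfun (scaleH d τ)) ∈ Fermat.Agent.S24.modRing N := by
    have h1 := Fermat.Agent.S24.Jconj_mem_modRing N d hd 1
    have e : Fermat.Agent.S24.Jconj d 1 = fun τ : ℍ => Jfun (scaleH d τ) := by
      funext τ
      simp [Fermat.Agent.S24.Jconj]
    rwa [e] at h1
  exact s29_z_hol_mem_field N _ h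
    (fun γ hγ τ => Fermat.Agent.S28.Jfun_scaleH_smul N d hd γ hγ τ)
    (s29_z_cuspBdd_of_mem_modRing hmem)

theorem s29_z_jd_mdiff (N : ℕ) [NeZero N] (d : ℕ) [NeZero d] (hd : d ∣ N) :
    MDifferentiable 𝓘(ℂ) 𝓘(ℂ) (fun τ : ℍ => Jfun (scaleH d τ)) := by
  have h1 := Fermat.Agent.S24.Jconj_mem_modRing N d hd 1
  have e : Fermat.Agent.S24.Jconj d 1 = fun τ : ℍ => Jfun (scaleH d τ) := by
    funext τ
    simp [Fermat.Agent.S24.Jconj]
  rw [e] at h1
  exact Fermat.Agent.S24.mdifferentiable_of_mem_modRing h1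

/-- `s29_z_evMer N (C X)` is the function `J`. -/
theorem s29_z_evMer_CX (N : ℕ) [NeZero N] (h : MDifferentiable 𝓘(ℂ) 𝓘(ℂ) Jfun) :
    s29_z_evMer N (C X) = algebraMap s29_hol s29_Mer (s29_mkHol Jfun h) := by
  rw [s29_z_evMer_apply]
  congr 1
  exact s29_hol_ext fun τ => s29_z_ev_CX N τ

/-- `s29_z_evMer N X` is the function `J_N`. -/
theorem s29_z_evMer_X (N : ℕ) [NeZero N]
    (h : MDifferentiable 𝓘(ℂ) 𝓘(ℂ) (fun τ : ℍ => Jfun (scaleH N τ))) :
    s29_z_evMer N X =
      algebraMap s29_hol s29_Mer (s29_mkHol (fun τ : ℍ => Jfun (scaleH N τ)) h) := by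
  rw [s29_z_evMer_apply]
  congr 1
  exact s29_hol_ext fun τ => s29_z_ev_X N τ

/-- The elements of `ℂ(J, J_N)` are `Γ₀(N)`-invariant. -/
theorem s29_z_field_smul (N : ℕ) [NeZero N] {x : s29_Mer} (hx : x ∈ s29_z_field N)
    (γ : SL(2, ℤ)) (hγ : γ ∈ CongruenceSubgroup.Gamma0 N) : γ • x = x := by
  obtain ⟨D, H, hD, h⟩ := hx
  have h1 := congrArg (fun y : s29_Mer => γ • y) h
  simp only [smul_mul', s29_z_evMer_smul N _ γ hγ] at h1
  exact mul_right_cancel₀ hD (h1.trans h.symm)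

/-- **(Z2), root form.** `ℂ(J, J_N)` is closed under `Γ₀(N)`-invariant roots. -/
theorem s29_z_field_root (N : ℕ) [NeZero N] (m : ℕ) (hm : 0 < m) (u : s29_Mer)
    (hu : ∀ γ : SL(2, ℤ), γ ∈ CongruenceSubgroup.Gamma0 N → γ • u = u)
    (hpow : u ^ m ∈ s29_z_field N) : u ∈ s29_z_field N := by
  obtain ⟨D₁, H₁, hD₁, h⟩ := hpow
  exact s29_z2_mer_root N m hm u hu D₁ H₁ hD₁ h

/-- `ℂ[J, J_N]` lies in the range of a ring homomorphism as soon as the constants, `J` and `J_N`
do. -/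
theorem s29_z_hsup (N : ℕ) [NeZero N] {F : Type*} [Ring F] (anC : F →+* s29_Mer)
    (h1 : ∀ c : ℂ, algebraMap ℂ s29_Mer c ∈ Set.range anC)
    (hJ : s29_z_evMer N (C X) ∈ Set.range anC) (hJN : s29_z_evMer N X ∈ Set.range anC)
    (P : Polynomial (Polynomial ℂ)) : s29_z_evMer N P ∈ Set.range anC := by
  have hmem : ∀ Q : Polynomial (Polynomial ℂ), s29_z_evMer N Q ∈ anC.range ↔
      s29_z_evMer N Q ∈ Set.range anC := fun Q => Iff.rfl
  rw [← hmem]
  have hC : ∀ p : Polynomial ℂ, s29_z_evMer N (C p) ∈ anC.range := by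
    intro p
    induction p using Polynomial.induction_on with
    | C a =>
      rw [s29_z_evMer_CC]
      exact h1 a
    | add p q hp hq =>
      rw [map_add, map_add]
      exact add_mem hp hq
    | monomial n a ih =>
      rw [pow_succ, ← mul_assoc, map_mul, map_mul]
      exact mul_mem ih hJ
  induction P using Polynomial.induction_on with
  | C a => exact hC a
  | add p q hp hq =>
    rw [map_add]
    exact add_mem hp hq
  | monomial n a ih =>
    rw [pow_succ, ← mul_assoc, map_mul]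
    exact mul_mem ih hJN

/-- The range of a field homomorphism lies in `ℂ(J, J_N)` as soon as the images of a generating
set do. -/
theorem s29_z_hsub_of_gens (N : ℕ) [NeZero N] {F : Type*} [Field F] (anC : F →+* s29_Mer)
    (S : Set F) (hS : Subfield.closure S = ⊤) (h : ∀ s ∈ S, anC s ∈ s29_z_field N) (f : F) :
    anC f ∈ s29_z_field N := by
  have h1 : Subfield.closure S ≤ (s29_z_field N).comap anC := Subfield.closure_le.2 h
  have h2 : f ∈ Subfield.closure S := by
    rw [hS]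
    exact Subfield.mem_top f
  exact h1 h2

/-- **(Z2-root over `ℂ`), abstract form.** Let `anC : F →+* s29_Mer` be a field homomorphism
whose range lies between `ℂ[J, J_N]` and `ℂ(J, J_N)`.  A `Γ₀(N)`-invariant meromorphic function
one of whose powers is in the range of `anC` is in the range of `anC`. -/
theorem s29_z_hZ (N : ℕ) [NeZero N] {F : Type*} [Field F] (anC : F →+* s29_Mer)
    (hsub : ∀ f : F, anC f ∈ s29_z_field N)
    (hsup : ∀ P : Polynomial (Polynomial ℂ), s29_z_evMer N P ∈ Set.range anC)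
    (M : ℕ) (hM : 0 < M) (y : s29_Mer)
    (hy : ∀ γ : SL(2, ℤ), γ ∈ CongruenceSubgroup.Gamma0 N → γ • y = y)
    (hyM : y ^ M ∈ Set.range anC) : y ∈ Set.range anC := by
  obtain ⟨f, hf⟩ := hyM
  have h1 : y ^ M ∈ s29_z_field N := by
    rw [← hf]
    exact hsub f
  obtain ⟨D, H, hD, h⟩ := s29_z_field_root N M hM y hy h1
  obtain ⟨d, hd⟩ := hsup D
  obtain ⟨e, he⟩ := hsup H
  refine ⟨e / d, ?_⟩
  rw [map_div₀, hd, he, ← h, mul_div_assoc, div_self hD, mul_one]

/-- The same with the range conditions on generators. -/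
theorem s29_z_hZ_gens (N : ℕ) [NeZero N] {F : Type*} [Field F] (anC : F →+* s29_Mer)
    (S : Set F) (hS : Subfield.closure S = ⊤) (hgen : ∀ s ∈ S, anC s ∈ s29_z_field N)
    (h1 : ∀ c : ℂ, algebraMap ℂ s29_Mer c ∈ Set.range anC)
    (hJ : s29_z_evMer N (C X) ∈ Set.range anC) (hJN : s29_z_evMer N X ∈ Set.range anC)
    (M : ℕ) (hM : 0 < M) (y : s29_Mer)
    (hy : ∀ γ : SL(2, ℤ), γ ∈ CongruenceSubgroup.Gamma0 N → γ • y = y)
    (hyM : y ^ M ∈ Set.range anC) : y ∈ Set.range anC :=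
  s29_z_hZ N anC (s29_z_hsub_of_gens N anC S hS hgen) (s29_z_hsup N anC h1 hJ hJN) M hM y hy hyM

end Fermat.Agent.S29
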